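import Mathlib

/-!
# Hyperbolic 3-space

`Fermat.LT.H3` is `GL₂(ℂ)` modulo `ℂˣ ⬝ U(2)`; `H3.mk z t` is the point with upper half space
coordinates `(z, t)`; `hIntegral` is integration against `dx dy dt / t³`.
-/

set_option autoImplicit false
open MeasureTheory
open scoped Matrix

namespace Fermat.LT

/-- Matrices `g` with `gᴴ g` scalar: `ℂˣ ⬝ U(2)`. -/
def UC : Subgroup (GL (Fin 2) ℂ) where
  carrier := {g | ∃ c : ℂ, c ≠ 0 ∧ (g : Matrix (Fin 2) (Fin 2) ℂ)ᴴ * (g : Matrix (Fin 2) (Fin 2) ℂ)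
    = Matrix.scalar (Fin 2) c}
  one_mem' := ⟨1, one_ne_zero, by simp⟩
  mul_mem' := by
    rintro a b ⟨c, hc, ha⟩ ⟨d, hd, hb⟩
    refine ⟨c * d, mul_ne_zero hc hd, ?_⟩
    rw [Units.val_mul, Matrix.conjTranspose_mul, Matrix.mul_assoc,
      ← Matrix.mul_assoc ((a : Matrix (Fin 2) (Fin 2) ℂ)ᴴ), ha, ← Matrix.mul_assoc,
      ← (Matrix.scalar_commute c (fun r => mul_comm c r) _).eq, Matrix.mul_assoc, hb, ← map_mul]
  inv_mem' := by
    rintro a ⟨c, hc, ha⟩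
    refine ⟨c⁻¹, inv_ne_zero hc, ?_⟩
    set A : Matrix (Fin 2) (Fin 2) ℂ := ↑a with hA
    set B : Matrix (Fin 2) (Fin 2) ℂ := ↑a⁻¹ with hB
    have hAB : A * B = 1 := by rw [hA, hB, ← Units.val_mul, mul_inv_cancel]; simp
    have hBA : B * A = 1 := by rw [hA, hB, ← Units.val_mul, inv_mul_cancel]; simp
    have h1 : (Matrix.scalar (Fin 2) c) * B = Aᴴ := by
      rw [← ha, Matrix.mul_assoc, hAB, Matrix.mul_one]
    have h2 : B = Matrix.scalar (Fin 2) c⁻¹ * Aᴴ := by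
      rw [← h1, ← Matrix.mul_assoc, ← map_mul, inv_mul_cancel₀ hc, map_one, Matrix.one_mul]
    calc Bᴴ * B = Bᴴ * (Matrix.scalar (Fin 2) c⁻¹ * Aᴴ) := by rw [← h2]
      _ = Matrix.scalar (Fin 2) c⁻¹ * (A * B)ᴴ := by
            rw [Matrix.conjTranspose_mul, ← Matrix.mul_assoc,
              ← (Matrix.scalar_commute c⁻¹ (fun r => mul_comm _ r) _).eq, Matrix.mul_assoc]
      _ = Matrix.scalar (Fin 2) c⁻¹ := by rw [hAB]; simp

/-- Hyperbolic 3-space. -/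
abbrev H3 : Type := GL (Fin 2) ℂ ⧸ UC

/-- The point with upper half space coordinates `(z, t)` (origin if `t ≤ 0`). -/
noncomputable def H3.mk (z : ℂ) (t : ℝ) : H3 :=
  if h : 0 < t then
    ((Matrix.GeneralLinearGroup.mkOfDetNeZero !![(t : ℂ), z; 0, 1]
      (by simp [Matrix.det_fin_two, h.ne'])) : H3)
  else ((1 : GL (Fin 2) ℂ) : H3)

/-- `cosh` of the distance from the origin. -/
noncomputable def coshd0 (g : GL (Fin 2) ℂ) : ℝ :=
  (((g : Matrix (Fin 2) (Fin 2) ℂ)ᴴ * (g : Matrix (Fin 2) (Fin 2) ℂ)).trace).re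
    / (2 * ‖(g : Matrix (Fin 2) (Fin 2) ℂ).det‖)

/-- `cosh` of the hyperbolic distance. -/
noncomputable def coshd (x y : H3) : ℝ := coshd0 (x.out⁻¹ * y.out)

/-- `∫ f(z,t) dx dy dt / t³`. -/
noncomputable def hIntegral (f : H3 → ℂ) : ℂ :=
  ∫ p in (Set.univ : Set ℂ) ×ˢ Set.Ioi (0 : ℝ), ((p.2 ^ 3)⁻¹ : ℝ) • f (H3.mk p.1 p.2)

/-- Spherical transform at the parameter `r = 0` (eigenfunction `t`). -/
noncomputable def hhat0 (k : ℝ → ℝ) : ℂ :=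
  ∫ p in (Set.univ : Set ℂ) ×ˢ Set.Ioi (0 : ℝ),
    ((p.2 ^ 3)⁻¹ * (k (coshd ((1 : GL (Fin 2) ℂ) : H3) (H3.mk p.1 p.2)) * p.2) : ℝ)

end Fermat.LT
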