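import Fermat.Agent.LT.Local
import Fermat.Agent.LT.H3

/-!
# The automorphic setting

For a totally complex number field `F` and a set `S` of finite places, `Pt F S` is the product of
`GL₂(F)⧸U0` (`v ∉ S`), `GL₂(F)⧸U1` (`v ∈ S`) (restricted) and one `H3` per infinite place;
automorphic forms of level `S` are the `GL₂(F)`-invariant functions on it.

The main definition is `IsForm S E lam Φ`: a bounded form of parameter zero at infinity, with the
cuspidal type of `PGL₂(𝔽₃)` on `E` and Hecke eigenvalues `lam` off `S`. The folder `LT` makes one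
on the cubic field `L` by a theta series (`Theta/Main`) and descends it to `K` (`Sys/Proved`,
statement in `Statement`); `LT3/Main` turns the result into weight one data.
-/

set_option autoImplicit false
open IsDedekindDomain NumberField

namespace Fermat.LT

variable (F : Type*) [Field F] [NumberField F]

/-- Finite places. -/
abbrev Place : Type _ := HeightOneSpectrum (𝓞 F)

variable {F}

/-- The norm of a place. -/
noncomputable def pnorm (v : Place F) : ℕ := Ideal.absNorm v.asIdeal

/-- Action of a field automorphism on finite places. -/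
noncomputable def mapPlace (g : F ≃+* F) : Place F ≃ Place F :=
  HeightOneSpectrum.equivOfRingEquiv (RingOfIntegers.mapRingEquiv g)

open scoped Classical in
/-- The level subgroup at `v`. -/
noncomputable def lev (S : Set (Place F)) (v : Place F) : Subgroup (GL (Fin 2) F) :=
  if v ∈ S then U1 (v.valuation F) else U0 (v.valuation F)

/-- The level subgroup lies in `U0`. -/
lemma lev_le_U0 (S : Set (Place F)) (v : Place F) : lev S v ≤ U0 (v.valuation F) := by
  unfold lev; split_ifs <;> simp [U1_le_U0]

/-- On `S` the level subgroup is `U1`. -/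
lemma lev_of_mem {S : Set (Place F)} {v : Place F} (h : v ∈ S) : lev S v = U1 (v.valuation F) := by
  simp [lev, h]

/-- Off `S` the level subgroup is `U0`. -/
lemma lev_of_not_mem {S : Set (Place F)} {v : Place F} (h : v ∉ S) :
    lev S v = U0 (v.valuation F) := by
  simp [lev, h]

/-- Local coset space. -/
abbrev Vert (S : Set (Place F)) (v : Place F) : Type _ := GL (Fin 2) F ⧸ lev S v

variable (F) in
/-- Points of `G(𝔸_f) ⧸ U_S`. -/
def FinPt (S : Set (Place F)) : Type _ :=
  {ω : ∀ v : Place F, Vert S v //
    ∀ᶠ v in Filter.cofinite, ω v = ((1 : GL (Fin 2) F) : Vert S v)}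

variable (F) in
/-- Points of `G(𝔸) ⧸ U_S K_∞`. -/
abbrev Pt (S : Set (Place F)) : Type _ := FinPt F S × (InfinitePlace F → H3)

/-- A matrix over `F` at an infinite place. -/
noncomputable def atInf (w : InfinitePlace F) : GL (Fin 2) F →* GL (Fin 2) ℂ :=
  Matrix.GeneralLinearGroup.map w.embedding

/-- `Φ` is left invariant under `GL₂(F)`. -/
def IsInvariant {S : Set (Place F)} (Φ : Pt F S → ℂ) : Prop :=
  ∀ (g : GL (Fin 2) F) (p q : Pt F S), (∀ v, q.1.1 v = g • p.1.1 v) →
    (∀ w, q.2 w = atInf w g • p.2 w) → Φ q = Φ p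

open scoped Classical in
/-- Replace the component at `v`. -/
noncomputable def FinPt.set {S : Set (Place F)} (ω : FinPt F S) (v : Place F) (y : Vert S v) :
    FinPt F S :=
  ⟨Function.update ω.1 v y, by
    filter_upwards [ω.2, (Set.finite_singleton v).compl_mem_cofinite] with u hu huv
    rw [Function.update_of_ne (by simpa using huv)]; exact hu⟩

/-- The two cosets are adjacent at `v`. -/
def Adj {S : Set (Place F)} (v : Place F) (x y : Vert S v) : Prop :=
  ∃ g h : GL (Fin 2) F, x = (g : Vert S v) ∧ y = (h : Vert S v) ∧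
    IsStep (v.valuation F) (g⁻¹ * h)

/-- Hecke operator `T_v` (sum over neighbours), used at `v ∉ S`. -/
noncomputable def heckeT {S : Set (Place F)} (v : Place F) (Φ : Pt F S → ℂ) (p : Pt F S) : ℂ :=
  ∑ᶠ y ∈ {y : Vert S v | Adj v (p.1.1 v) y}, Φ (p.1.set v y, p.2)

/-- `Φ` is an eigenfunction of the spherical operators at all infinite places with parameter `0`. -/
def IsArchEigen {S : Set (Place F)} (Φ : Pt F S → ℂ) : Prop :=
  open scoped Classical in
  ∀ (w : InfinitePlace F) (k : ℝ → ℝ), Continuous k → HasCompactSupport k → ∀ p : Pt F S,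
    hIntegral (fun y => (k (coshd (p.2 w) y) : ℂ) * Φ (p.1, Function.update p.2 w y))
      = hhat0 k * Φ p

open scoped Classical in
/-- The kernel of the idempotent of the two-dimensional cuspidal representation of
`PGL₂(𝔽₃) ≅ S₄` (trivial on the Klein group), for a place with residue field `𝔽₃`. -/
noncomputable def eCusp (v : Valuation F (WithZero (Multiplicative ℤ))) (m : GL (Fin 2) F) : ℂ :=
  if h : ∃ c : Fˣ, scal c * m ∈ intGL v then
    let M : Matrix (Fin 2) (Fin 2) F := ((scal h.choose * m : GL (Fin 2) F) :)
    if v (M.det - 1) < 1 then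
      (if v M.trace < 1 ∨ (v (M 0 1) < 1 ∧ v (M 1 0) < 1 ∧ v (M 0 0 - M 1 1) < 1) then (1 / 6 : ℂ)
        else (-1 / 12 : ℂ))
    else 0
  else 0

/-- `Φ` has the cuspidal type at `v`: it is fixed by the idempotent. -/
def IsCuspType {S : Set (Place F)} (v : Place F) (Φ : Pt F S → ℂ) : Prop :=
  ∀ (p : Pt F S) (g : GL (Fin 2) F), p.1.1 v = (g : Vert S v) →
    Φ p = ∑ᶠ y ∈ {y : Vert S v | ∃ h : GL (Fin 2) F,
        y = (h : Vert S v) ∧ g⁻¹ * h ∈ U0 (v.valuation F)},
      eCusp (v.valuation F) (g⁻¹ * y.out) * Φ (p.1.set v y, p.2)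

/-- A cusp form of level `S` with the cuspidal type on `E ⊆ S`, Hecke eigenvalues `lam` outside
`S`, archimedean parameter `0`. -/
structure IsForm (S E : Set (Place F)) (lam : Place F → ℝ) (Φ : Pt F S → ℂ) : Prop where
  /-- The form is not identically zero. -/
  nonzero : ∃ p, Φ p ≠ 0
  /-- The function is invariant under `GL₂(F)`. -/
  invariant : IsInvariant Φ
  /-- The function is continuous in the archimedean variables. -/
  continuous : ∀ ω : FinPt F S, Continuous fun x : InfinitePlace F → H3 => Φ (ω, x)
  /-- The function is bounded. -/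
  bounded : ∃ C : ℝ, ∀ p, ‖Φ p‖ ≤ C
  /-- The function is an archimedean eigenfunction of parameter zero. -/
  arch : IsArchEigen Φ
  /-- The function is of cuspidal type at the places of `E`. -/
  cuspType : ∀ v ∈ E, IsCuspType v Φ
  /-- Outside `S` the Hecke operator at `v` acts by `lam v`. -/
  hecke : ∀ v ∉ S, ∀ p, heckeT v Φ p = (lam v : ℂ) * Φ p

end Fermat.LT
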