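import Fermat.Agent.LT.Sphere
import Fermat.Agent.LT.Setting
import Fermat.Agent.CFT.Kummer.SUnits

/-!
# Approximation in a number field, residue fields, finiteness of `GL₂(O_v)⧸K(1)`

`exists_approx` gives an element close to given ones at finitely many places and integral
elsewhere; `exists_finset_U0_coset` gives the finiteness.
-/

set_option autoImplicit false
open IsDedekindDomain NumberField Filter
open scoped Classical

namespace Fermat.LT

variable {F : Type*} [Field F] [NumberField F]

/-- A small valuation means lying in a power of the prime. -/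
lemma valuation_le_exp_neg_iff (v : Place F) (a : 𝓞 F) (n : ℕ) :
    v.valuation F (a : F) ≤ WithZero.exp (-(n : ℤ)) ↔ a ∈ v.asIdeal ^ n := by
  rw [show (a : F) = algebraMap (𝓞 F) F a from rfl, HeightOneSpectrum.valuation_of_algebraMap,
    HeightOneSpectrum.intValuation_le_pow_iff_mem]

/-- An integral element is close to an algebraic integer. -/
lemma exists_int_near (v : Place F) {x : F} (hx : v.valuation F x ≤ 1) (n : ℕ) :
    ∃ a : 𝓞 F, v.valuation F (x - a) ≤ WithZero.exp (-(n : ℤ)) := by
  obtain ⟨r, s, h⟩ := v.exists_primeCompl_mul_eq_of_integer x hx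
  have hs : ((s : 𝓞 F)) ∉ v.asIdeal := s.2
  obtain ⟨b, i, hi, hbi⟩ : ∃ b : 𝓞 F, ∃ i ∈ v.asIdeal ^ n, b * (s : 𝓞 F) + i = 1 := by
    have htop : Ideal.span {(s : 𝓞 F)} ⊔ v.asIdeal ^ n = ⊤ := by
      rw [sup_comm]
      refine Ideal.pow_sup_eq_top ?_
      rw [← v.isMaximal.1.2 (Ideal.span {(s : 𝓞 F)} ⊔ v.asIdeal) ?_, sup_comm]
      refine lt_of_le_of_ne le_sup_right fun e => hs ?_
      exact e.ge (Ideal.mem_sup_left (Ideal.mem_span_singleton_self _))
    obtain ⟨a, ha, i, hi, hai⟩ := Submodule.mem_sup.1 ((Ideal.eq_top_iff_one _).1 htop)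
    obtain ⟨b, rfl⟩ := Ideal.mem_span_singleton'.1 ha
    exact ⟨b, i, hi, hai⟩
  refine ⟨b * r, ?_⟩
  have e : x - ((b * r : 𝓞 F) : F) = x * (i : F) := by
    have hbi' : (b : F) * ((s : 𝓞 F) : F) + (i : F) = 1 := by
      exact_mod_cast congrArg (algebraMap (𝓞 F) F) hbi
    have h' : x * ((s : 𝓞 F) : F) = (r : F) := h
    push_cast
    change x - (b : F) * (r : F) = x * (i : F)
    linear_combination (b : F) * h' - x * hbi'
  rw [e, map_mul]
  exact (mul_le_of_le_one_left' hx).trans ((valuation_le_exp_neg_iff v i n).2 hi)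

/-- Approximation at finitely many places by an element integral elsewhere. -/
theorem exists_approx (T : Finset (Place F)) (x : Place F → F) (n : ℕ) :
    ∃ y : F, (∀ v ∈ T, v.valuation F (y - x v) ≤ WithZero.exp (-(n : ℤ))) ∧
      ∀ v ∉ T, v.valuation F y ≤ 1 := by
  choose g h hh hg0 hgv hgw using fun v : Place F => CFT.exists_ord_pow_single v
  set G := ∏ v ∈ T, g v with hG
  have hG0 : G ≠ 0 := Finset.prod_ne_zero_iff.2 fun v _ => hg0 v
  have hval : ∀ (w : Place F) (z : F), z ≠ 0 → w.valuation F z = WithZero.exp (-CFT.ord w z) :=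
    fun w z hz => CFT.valuation_eq_exp_neg_ord w hz
  have hGout : ∀ w ∉ T, w.valuation F G = 1 := fun w hw => by
    rw [hval w G hG0, hG, CFT.ord_prod w _ _ fun v _ => hg0 v,
      Finset.sum_eq_zero fun v hv => hgw v w fun e => hw (e ▸ hv)]
    simp
  -- clear denominators at the places of `T` by a power of `G`
  have hGin : ∀ w ∈ T, CFT.ord w G = h w := fun w hw => by
    rw [hG, CFT.ord_prod w _ _ fun v _ => hg0 v, Finset.sum_eq_single_of_mem w hw
      fun v _ hne => hgw v w (Ne.symm hne), hgv]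
  obtain ⟨m, hm⟩ : ∃ m : ℕ, ∀ v ∈ T, v.valuation F (x v * G ^ m) ≤ 1 := by
    obtain ⟨m, hm⟩ := Finset.bddAbove (T.image fun v => (-CFT.ord v (x v)).toNat)
    refine ⟨m, fun v hv => ?_⟩
    by_cases h0 : x v = 0
    · simp [h0]
    rw [hval v _ (mul_ne_zero h0 (pow_ne_zero _ hG0)), ← WithZero.exp_zero, WithZero.exp_le_exp,
      CFT.ord_mul v h0 (pow_ne_zero _ hG0), CFT.ord_pow, hGin v hv]
    have h1 : (-CFT.ord v (x v)).toNat ≤ m := hm (Finset.mem_coe.2 (Finset.mem_image_of_mem _ hv))
    have h2 : (m : ℤ) ≤ m * h v :=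
      le_mul_of_one_le_right (Int.natCast_nonneg m) (by exact_mod_cast hh v)
    omega
  obtain ⟨N, hN⟩ : ∃ N : ℕ, ∀ v ∈ T, m * h v + n ≤ N := by
    obtain ⟨N, hN⟩ := Finset.bddAbove (T.image fun v => m * h v + n)
    exact ⟨N, fun v hv => hN (Finset.mem_coe.2 (Finset.mem_image_of_mem _ hv))⟩
  -- approximate `x v G ^ m` by integers, then glue by the Chinese remainder theorem
  choose a ha using fun v : T => exists_int_near v.1 (hm v.1 v.2) N
  obtain ⟨c, hc⟩ := IsDedekindDomain.exists_forall_sub_mem_ideal (s := T)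
    (fun v : Place F => v.asIdeal) (fun _ => N) (fun v _ => v.prime)
    (fun v _ u _ hne => fun e => hne (HeightOneSpectrum.ext e)) a
  refine ⟨(c : F) / G ^ m, fun v hv => ?_, fun v hv => ?_⟩
  · have h1 : v.valuation F ((c : F) - x v * G ^ m) ≤ WithZero.exp (-(N : ℤ)) := by
      have h2 : v.valuation F ((c - a ⟨v, hv⟩ : 𝓞 F) : F) ≤ WithZero.exp (-(N : ℤ)) :=
        (valuation_le_exp_neg_iff v _ N).2 (hc v hv)
      have h3 := ha ⟨v, hv⟩
      rw [show (c : F) - x v * G ^ m
        = ((c - a ⟨v, hv⟩ : 𝓞 F) : F) - (x v * G ^ m - a ⟨v, hv⟩) by push_cast; ring]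
      exact ((v.valuation F).map_sub _ _).trans (max_le h2 h3)
    rw [show (c : F) / G ^ m - x v = ((c : F) - x v * G ^ m) / G ^ m by field_simp, map_div₀,
      hval v _ (pow_ne_zero m hG0), CFT.ord_pow, hGin v hv, WithZero.exp_neg, div_inv_eq_mul]
    refine (mul_le_mul_left h1 _).trans ?_
    rw [← WithZero.exp_add, WithZero.exp_le_exp]
    have := hN v hv
    omega
  · rw [map_div₀, map_pow, hGout v hv, one_pow, div_one]
    exact v.valuation_le_one c

/-- Reduction of algebraic integers. -/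
noncomputable def toResidue (v : Place F) :
    𝓞 F →+* IsLocalRing.ResidueField (v.valuation F).valuationSubring :=
  (IsLocalRing.residue _).comp ((algebraMap (𝓞 F) F).codRestrict
    (v.valuation F).valuationSubring.toSubring fun a => v.valuation_le_one a)

/-- Every residue class at a place is the reduction of an algebraic integer. -/
lemma toResidue_surjective (v : Place F) : Function.Surjective (toResidue v) := fun z => by
  obtain ⟨⟨x, hx⟩, rfl⟩ := IsLocalRing.residue_surjective z
  obtain ⟨a, ha⟩ := exists_int_near v hx 1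
  refine ⟨a, ?_⟩
  rw [toResidue, RingHom.comp_apply, ← sub_eq_zero, ← map_sub, residue_eq_zero_iff_v]
  refine lt_of_le_of_lt (le_of_eq ?_) (lt_of_le_of_lt ha ?_)
  · change v.valuation F ((a : F) - x) = _
    rw [Valuation.map_sub_swap]
  · rw [← WithZero.exp_zero, WithZero.exp_lt_exp]; norm_num

/-- The kernel of reduction is the prime. -/
lemma ker_toResidue (v : Place F) : RingHom.ker (toResidue v) = v.asIdeal := by
  ext a
  rw [RingHom.mem_ker, toResidue, RingHom.comp_apply, residue_eq_zero_iff_v]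
  exact v.valuation_lt_one_iff_mem a

/-- The residue fields are finite. -/
instance finite_residue (v : Place F) :
    Finite (IsLocalRing.ResidueField (v.valuation F).valuationSubring) := by
  have : Finite (𝓞 F ⧸ v.asIdeal) := Ideal.finiteQuotientOfFreeOfNeBot v.asIdeal v.ne_bot
  have hker := ker_toResidue v
  exact Finite.of_equiv _ ((Ideal.quotEquivOfEq hker.symm).trans
    (RingHom.quotientKerEquivOfSurjective (toResidue_surjective v))).toEquiv

/-- The residue field at `v` has `pnorm v` elements. -/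
lemma natCard_residue (v : Place F) :
    Nat.card (IsLocalRing.ResidueField (v.valuation F).valuationSubring) = pnorm v := by
  rw [← Nat.card_congr ((Ideal.quotEquivOfEq (ker_toResidue v).symm).trans
    (RingHom.quotientKerEquivOfSurjective (toResidue_surjective v))).toEquiv, pnorm,
    Ideal.absNorm_apply, Submodule.cardQuot_apply]

/-- Finitely many cosets of `U1` in `U0`. -/
theorem exists_finset_U0_coset (v : Place F) :
    ∃ s : Finset (GL (Fin 2) F), (∀ g ∈ s, g ∈ U0 (v.valuation F)) ∧
      ∀ k ∈ U0 (v.valuation F), ∃ g ∈ s, k⁻¹ * g ∈ U1 (v.valuation F) := by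
  let red2 : intGL (v.valuation F) →
      (Fin 2 → Fin 2 → IsLocalRing.ResidueField (v.valuation F).valuationSubring) :=
    fun g i j => IsLocalRing.residue _ ⟨((g : GL (Fin 2) F) : Matrix (Fin 2) (Fin 2) F) i j, by
      obtain ⟨g0, hg0⟩ := g.2
      rw [← hg0]
      exact ((g0 : Matrix (Fin 2) (Fin 2) (v.valuation F).integer) i j).2⟩
  -- elements with the same reduction differ by an element of `U1`
  have key : ∀ a b : intGL (v.valuation F), red2 a = red2 b →
      (a : GL (Fin 2) F)⁻¹ * b ∈ congGL (v.valuation F) := by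
    intro a b hab
    refine ⟨(intGL _).mul_mem ((intGL _).inv_mem a.2) b.2, fun i j => ?_⟩
    have hainv : ∀ i j, v.valuation F
        (((a : GL (Fin 2) F)⁻¹ : GL (Fin 2) F).val i j) ≤ 1 := by
      obtain ⟨a0, ha0⟩ := (intGL (v.valuation F)).inv_mem a.2
      intro i j; rw [← ha0]; exact ((a0 : Matrix (Fin 2) (Fin 2) (v.valuation F).integer) i j).2
    have hd : ∀ k j, v.valuation F (((b : GL (Fin 2) F) : Matrix (Fin 2) (Fin 2) F) k j
        - ((a : GL (Fin 2) F) : Matrix (Fin 2) (Fin 2) F) k j) < 1 := fun k j => by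
      have h := congrFun (congrFun hab k) j
      simp only [red2] at h
      rw [eq_comm, ← sub_eq_zero, ← map_sub, residue_eq_zero_iff_v] at h
      exact h
    have e : (((a : GL (Fin 2) F)⁻¹ * b : GL (Fin 2) F) : Matrix (Fin 2) (Fin 2) F) i j
        - (1 : Matrix (Fin 2) (Fin 2) F) i j = ∑ k, (((a : GL (Fin 2) F)⁻¹ : GL (Fin 2) F).val i k)
          * (((b : GL (Fin 2) F) : Matrix (Fin 2) (Fin 2) F) k j
            - ((a : GL (Fin 2) F) : Matrix (Fin 2) (Fin 2) F) k j) := by
      have h1 : ∑ k, (((a : GL (Fin 2) F)⁻¹ : GL (Fin 2) F).val i k)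
          * ((a : GL (Fin 2) F) : Matrix (Fin 2) (Fin 2) F) k j
          = (1 : Matrix (Fin 2) (Fin 2) F) i j := by
        rw [← Matrix.mul_apply, ← Units.val_mul, inv_mul_cancel]; simp
      simp only [mul_sub, Finset.sum_sub_distrib, h1, Units.val_mul, Matrix.mul_apply]
    rw [e]
    refine (v.valuation F).map_sum_lt one_ne_zero fun k _ => ?_
    rw [map_mul]
    exact lt_of_le_of_lt (mul_le_of_le_one_left' (hainv i k)) (hd k j)
  have hfin : (Set.range red2).Finite := Set.toFinite _
  -- choose one element over each of the finitely many reductions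
  choose pick hpick using fun z : hfin.toFinset => hfin.mem_toFinset.1 z.2
  refine ⟨Finset.univ.image fun z => (pick z : GL (Fin 2) F), fun g hg => ?_, ?_⟩
  · obtain ⟨z, -, rfl⟩ := Finset.mem_image.1 hg
    exact le_withScalars _ (pick z).2
  · rintro k ⟨c, hc⟩
    set z : hfin.toFinset := ⟨red2 ⟨_, hc⟩, hfin.mem_toFinset.2 ⟨_, rfl⟩⟩
    refine ⟨(pick z : GL (Fin 2) F), Finset.mem_image.2 ⟨z, Finset.mem_univ _, rfl⟩, ?_⟩
    have h := key ⟨_, hc⟩ (pick z) (hpick z).symm
    refine ⟨c⁻¹, ?_⟩
    have e : scal c⁻¹ * (k⁻¹ * (pick z : GL (Fin 2) F)) = (scal c * k)⁻¹ * pick z := by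
      rw [scal_comm c k, mul_inv_rev, show (scal c)⁻¹ = scal c⁻¹ from (map_inv _ _).symm, mul_assoc]
    rw [e]
    exact h

end Fermat.LT
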