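import Fermat.Agent.LT.H3Kernel

/-!
# Two points of `H3` are exchanged by an isometry; invariant kernels are symmetric

`exists_swap` exchanges any two points; hence `AKer.symm` and `AKer.comp_comm`: invariant kernels
are symmetric and commute.
-/

set_option autoImplicit false
open MeasureTheory Filter
open scoped ComplexConjugate Matrix

namespace Fermat.LT

/-- Some element exchanges the base point and any other point. -/
theorem exists_swap_base (x : H3) :
    ∃ h : GL (Fin 2) ℂ, h • ((1 : GL (Fin 2) ℂ) : H3) = x ∧ h • x = ((1 : GL (Fin 2) ℂ) : H3) := by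
  have ht := H3.coord_pos x
  rw [← H3.mk_coord x, H3.mk_of_pos _ ht]
  set z := (H3.coord x).1
  set t := (H3.coord x).2
  -- a unitary `k` (up to scalars) with `T k T` unitary (up to scalars)
  obtain ⟨a, b, hab, hz⟩ : ∃ a b : ℂ, Complex.normSq a + Complex.normSq b ≠ 0 ∧
      z * conj b = (t : ℂ) * a + conj a := by
    by_cases hz : z = 0
    · exact ⟨0, 1, by simp, by simp [hz]⟩
    · refine ⟨1, (t + 1) / conj z, ?_, ?_⟩
      · rw [map_one]
        exact (add_pos_of_pos_of_nonneg one_pos (Complex.normSq_nonneg _)).ne'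
      · simp only [map_div₀, map_add, Complex.conj_ofReal, map_one, Complex.conj_conj, mul_one]
        field_simp
  set k : GL (Fin 2) ℂ := Matrix.GeneralLinearGroup.mkOfDetNeZero !![a, b; -conj b, conj a] (by
    rw [Matrix.det_fin_two_of, mul_neg, sub_neg_eq_add, Complex.mul_conj, Complex.mul_conj]
    exact_mod_cast hab) with hk
  have hcoek : (k : Matrix (Fin 2) (Fin 2) ℂ) = !![a, b; -conj b, conj a] := rfl
  have hUC : ∀ (g : GL (Fin 2) ℂ) (α β : ℂ),
      (g : Matrix (Fin 2) (Fin 2) ℂ) = !![α, β; -conj β, conj α] → g ∈ UC := by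
    intro g α β hg
    have hne : Complex.normSq α + Complex.normSq β ≠ 0 := fun h => by
      have hd := (Matrix.GeneralLinearGroup.det g).ne_zero
      refine hd ?_
      simp only [Matrix.GeneralLinearGroup.val_det_apply, hg, Matrix.det_fin_two_of, mul_neg,
        sub_neg_eq_add, Complex.mul_conj]
      exact_mod_cast h
    refine ⟨(Complex.normSq α + Complex.normSq β : ℝ), by exact_mod_cast hne, ?_⟩
    rw [hg]
    ext i j
    fin_cases i <;> fin_cases j <;>
      simp [Matrix.mul_apply, Matrix.scalar_apply, Complex.normSq_eq_conj_mul_self] <;> ring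
  refine ⟨triMat z ht * k, ?_, ?_⟩
  · rw [MulAction.Quotient.smul_coe, QuotientGroup.eq, smul_eq_mul, mul_one, mul_inv_rev, mul_assoc,
      inv_mul_cancel, mul_one]
    exact UC.inv_mem (hUC k a b hcoek)
  · rw [MulAction.Quotient.smul_coe, QuotientGroup.eq, smul_eq_mul, mul_one]
    refine UC.inv_mem ?_
    refine hUC _ ((t : ℂ) * ((t : ℂ) * a - z * conj b)) ((t : ℂ) * a * z + (t : ℂ) * b + z *
      (conj a - z * conj b)) ?_
    rw [Units.val_mul, Units.val_mul, coe_triMat, hcoek]
    have hz' : conj z * b = (t : ℂ) * conj a + a := by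
      have := congrArg conj hz
      simpa using this
    ext i j
    fin_cases i <;> fin_cases j <;> simp [Matrix.mul_apply, Fin.sum_univ_two]
    · ring
    · ring
    · linear_combination (-conj z) * hz'
    · linear_combination (-hz) + (t : ℂ) * hz'

/-- An element exchanging two points. -/
theorem exists_swap (x y : H3) : ∃ h : GL (Fin 2) ℂ, h • x = y ∧ h • y = x := by
  obtain ⟨g, rfl⟩ := QuotientGroup.mk_surjective x
  obtain ⟨h, h1, h2⟩ := exists_swap_base (g⁻¹ • y)
  have e : ((g : GL (Fin 2) ℂ) : H3) = g • ((1 : GL (Fin 2) ℂ) : H3) := by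
    rw [MulAction.Quotient.smul_coe, smul_eq_mul, mul_one]
  refine ⟨g * h * g⁻¹, ?_, ?_⟩
  · rw [e, mul_smul, mul_smul, inv_smul_smul, h1, smul_inv_smul]
  · rw [mul_smul, mul_smul, h2, ← e]

namespace AKer

/-- Every invariant kernel is symmetric. -/
theorem symm (k : AKer) (x y : H3) : k x y = k y x := by
  obtain ⟨h, h1, h2⟩ := exists_swap x y
  conv_lhs => rw [← k.invariant h x y, h1, h2]

/-- Any two invariant kernels commute. -/
theorem comp_comm (a b : AKer) (x z : H3) : a.comp b x z = b.comp a x z := by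
  rw [(a.comp b).symm x z]
  change ∫ y, a z y * b y x ∂hmeas = ∫ y, b x y * a y z ∂hmeas
  refine integral_congr_ae (Eventually.of_forall fun y => ?_)
  change a z y * b y x = b x y * a y z
  rw [a.symm z y, b.symm y x, mul_comm]

/-- Total mass of a row. -/
noncomputable def mass (a : AKer) : ℝ := ∫ y, ‖a ((1 : GL (Fin 2) ℂ) : H3) y‖ ∂hmeas

/-- The integral of the absolute value is the mass. -/
lemma integral_norm (a : AKer) (x : H3) : ∫ y, ‖a x y‖ ∂hmeas = a.mass := by
  obtain ⟨g, rfl⟩ := QuotientGroup.mk_surjective x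
  rw [show ((g : GL (Fin 2) ℂ) : H3) = g • ((1 : GL (Fin 2) ℂ) : H3) by
      rw [MulAction.Quotient.smul_coe, smul_eq_mul, mul_one], a.integral_norm_smul, mass]

end AKer

end Fermat.LT
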