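import Fermat.Agent.LT.KerAct

/-!
# Field automorphisms acting on the points

`Pt.amap` is the map of points induced by an automorphism preserving the level set; by
`measurePreserving_amap` it preserves the measure.
-/

set_option autoImplicit false
open IsDedekindDomain NumberField MeasureTheory Filter Set
open scoped Classical ComplexConjugate Matrix

namespace Fermat.LT

/-- Entrywise conjugation. -/
noncomputable def cGL : GL (Fin 2) ℂ →* GL (Fin 2) ℂ :=
  Matrix.GeneralLinearGroup.map (starRingEnd ℂ)

/-- The entries of the complex conjugate matrix. -/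
lemma coe_cGL (g : GL (Fin 2) ℂ) :
    (cGL g : Matrix (Fin 2) (Fin 2) ℂ) = (g : Matrix (Fin 2) (Fin 2) ℂ).map conj := rfl

/-- Complex conjugation preserves the compact subgroup. -/
lemma cGL_mem_UC {k : GL (Fin 2) ℂ} (hk : k ∈ UC) : cGL k ∈ UC := by
  obtain ⟨c, hc, h⟩ := hk
  refine ⟨conj c, by simpa using hc, ?_⟩
  have h1 := congrArg (fun M : Matrix (Fin 2) (Fin 2) ℂ => M.map (starRingEnd ℂ)) h
  simp only [Matrix.map_mul] at h1
  rw [coe_cGL]
  refine Eq.trans ?_ (h1.trans ?_)
  · congr 1
  · ext i j; fin_cases i <;> fin_cases j <;> simp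

/-- Complex conjugation on `H3`. -/
noncomputable def H3.cj : H3 → H3 :=
  Quotient.map' cGL fun a b h => by
    rw [QuotientGroup.leftRel_apply] at h ⊢
    rw [← map_inv, ← map_mul]
    exact cGL_mem_UC h

/-- Conjugation on the class of a matrix. -/
@[simp] lemma H3.cj_mk (g : GL (Fin 2) ℂ) : H3.cj (g : H3) = (cGL g : H3) := rfl

/-- Complex conjugation of matrices is an involution. -/
lemma cGL_cGL (g : GL (Fin 2) ℂ) : cGL (cGL g) = g :=
  Units.ext (Matrix.ext fun _ _ => Complex.conj_conj _)

/-- Conjugation on `H3` is an involution. -/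
@[simp] lemma H3.cj_cj (x : H3) : H3.cj (H3.cj x) = x := by
  obtain ⟨g, rfl⟩ := QuotientGroup.mk_surjective x
  rw [H3.cj_mk, H3.cj_mk, cGL_cGL]

/-- Conjugation on `H3` is semilinear for the action. -/
lemma H3.cj_smul (g : GL (Fin 2) ℂ) (x : H3) : H3.cj (g • x) = cGL g • H3.cj x := by
  obtain ⟨h, rfl⟩ := QuotientGroup.mk_surjective x
  rw [MulAction.Quotient.smul_coe, H3.cj_mk, H3.cj_mk, MulAction.Quotient.smul_coe, smul_eq_mul,
    smul_eq_mul, map_mul]

/-- Complex conjugation on `H3` conjugates `z` and keeps the height. -/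
lemma H3.coord_cj (x : H3) : H3.coord (H3.cj x) = (conj (H3.coord x).1, (H3.coord x).2) := by
  obtain ⟨g, rfl⟩ := QuotientGroup.mk_surjective x
  have hh : ∀ i j, herm (cGL g) i j = conj (herm g i j) := fun i j => by
    simp [herm_eq, coe_cGL]
  have hd : ‖((cGL g : GL (Fin 2) ℂ) : Matrix (Fin 2) (Fin 2) ℂ).det‖
      = ‖(g : Matrix (Fin 2) (Fin 2) ℂ).det‖ := by
    rw [coe_cGL, ← RingHom.mapMatrix_apply, ← RingHom.map_det, RCLike.norm_conj]
  rw [H3.cj_mk, H3.coord_mk, H3.coord_mk, zc, zc, tc, tc, hh, hh, hd, map_div₀, Complex.conj_re]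

/-- Conjugation preserves the point pair invariant. -/
lemma coshd_cj (x y : H3) : coshd (H3.cj x) (H3.cj y) = coshd x y := by
  rw [coshd_eq_cd, coshd_eq_cd, H3.coord_cj, H3.coord_cj, cd, cd, ← map_sub, Complex.normSq_conj]

/-- Complex conjugation of `H3` is continuous. -/
lemma continuous_cj : Continuous H3.cj := by
  rw [isInducing_coord.continuous_iff]
  change Continuous fun x => H3.coord (H3.cj x)
  simp only [H3.coord_cj]
  exact (Complex.continuous_conj.comp continuous_coord.fst).prodMk continuous_coord.snd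

/-- Complex conjugation preserves the invariant measure on `H3`. -/
lemma measurePreserving_cj : MeasurePreserving H3.cj hmeas hmeas := by
  refine ⟨continuous_cj.measurable, ?_⟩
  set T : ℂ × ℝ → ℂ × ℝ := Prod.map conj id
  have hconj : MeasurePreserving (conj : ℂ → ℂ) volume volume :=
    Complex.conjLIE.measurePreserving
  have hT : MeasurePreserving T (volume.restrict (univ ×ˢ Ioi (0 : ℝ)))
      (volume.restrict (univ ×ˢ Ioi (0 : ℝ))) := by
    rw [Measure.volume_eq_prod, ← Measure.prod_restrict, Measure.restrict_univ]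
    exact hconj.prod (MeasurePreserving.id _)
  have hTm : Measurable T := hT.measurable
  have hinv : hvol.map T = hvol := by
    refine Measure.ext_of_lintegral _ fun G hG => ?_
    rw [lintegral_map hG hTm, lintegral_hvol, lintegral_hvol]
    conv_rhs => rw [← hT.lintegral_comp (by fun_prop)]
    rfl
  refine Measure.ext_of_lintegral _ fun G hG => ?_
  rw [lintegral_map hG continuous_cj.measurable,
    lintegral_hmeas (F := fun x => G (H3.cj x)) (hG.comp continuous_cj.measurable),
    lintegral_hmeas hG]
  conv_rhs => rw [← hinv, lintegral_map (f := fun p => G (hmk p)) (hG.comp measurable_hmk) hTm]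
  have hpos : ∀ᵐ p ∂hvol, p ∈ (univ : Set ℂ) ×ˢ Ioi (0 : ℝ) :=
    (withDensity_absolutelyContinuous _ _).ae_le
      (ae_restrict_mem (MeasurableSet.univ.prod measurableSet_Ioi))
  refine lintegral_congr_ae ?_
  filter_upwards [hpos] with p hp
  congr 1
  refine coord_injective ?_
  rw [H3.coord_cj]
  change _ = H3.coord (H3.mk (conj p.1) p.2)
  rw [show hmk p = H3.mk p.1 p.2 from rfl, H3.coord_mk_of_pos _ hp.2, H3.coord_mk_of_pos _ hp.2]

variable {F : Type*} [Field F] [NumberField F]

omit [NumberField F] in
/-- The prime of the image place is the image prime. -/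
lemma mapPlace_asIdeal (τ : F ≃+* F) (v : Place F) (a : 𝓞 F) :
    RingOfIntegers.mapRingEquiv τ a ∈ (mapPlace τ v).asIdeal ↔ a ∈ v.asIdeal := by
  simp [mapPlace, HeightOneSpectrum.equivOfRingEquiv]

/-- An automorphism preserves the norms of places. -/
lemma pnorm_mapPlace (τ : F ≃+* F) (v : Place F) : pnorm (mapPlace τ v) = pnorm v := by
  set e := RingOfIntegers.mapRingEquiv τ
  have hI : (mapPlace τ v).asIdeal = Ideal.map (e : 𝓞 F →+* 𝓞 F) v.asIdeal := by
    ext b
    rw [show Ideal.map (e : 𝓞 F →+* 𝓞 F) v.asIdeal = Ideal.map e v.asIdeal from rfl,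
      Ideal.mem_map_of_equiv]
    exact ⟨fun hb => ⟨e.symm b, (mapPlace_asIdeal τ v _).1 (by rwa [e.apply_symm_apply]),
      e.apply_symm_apply b⟩, fun ⟨c, hc, hcb⟩ => hcb ▸ (mapPlace_asIdeal τ v c).2 hc⟩
  rw [pnorm, pnorm, Ideal.absNorm_apply, Ideal.absNorm_apply, Submodule.cardQuot_apply,
    Submodule.cardQuot_apply]
  exact (Nat.card_congr (Ideal.quotientEquiv v.asIdeal (mapPlace τ v).asIdeal e hI).toEquiv).symm

/-- Valuations are transported. -/
lemma valuation_mapPlace (τ : F ≃+* F) (v : Place F) (x : F) :
    (mapPlace τ v).valuation F (τ x) = v.valuation F x := by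
  set e := RingOfIntegers.mapRingEquiv τ
  -- membership in powers of the two ideals corresponds under `τ`
  have hpow : ∀ (n : ℕ) (a : 𝓞 F), e a ∈ (mapPlace τ v).asIdeal ^ n ↔ a ∈ v.asIdeal ^ n := by
    intro n a
    have hI : Ideal.map e v.asIdeal = (mapPlace τ v).asIdeal := by
      ext b
      rw [Ideal.mem_map_of_equiv]
      exact ⟨fun ⟨c, hc, hcb⟩ => hcb ▸ (mapPlace_asIdeal τ v c).2 hc,
        fun hb => ⟨e.symm b, (mapPlace_asIdeal τ v _).1 (by rwa [e.apply_symm_apply]),
          e.apply_symm_apply b⟩⟩
    rw [← hI, ← Ideal.map_pow, Ideal.mem_map_of_equiv]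
    exact ⟨fun ⟨c, hc, hcb⟩ => e.injective hcb ▸ hc, fun ha => ⟨a, ha, rfl⟩⟩
  -- hence the valuations agree on integers
  have hint : ∀ a : 𝓞 F, (mapPlace τ v).valuation F (τ (a : F)) = v.valuation F (a : F) := by
    intro a
    rw [show τ (a : F) = ((e a : 𝓞 F) : F) from rfl]
    have hiff : ∀ n : ℕ, (mapPlace τ v).valuation F ((e a : 𝓞 F) : F) ≤ WithZero.exp (-(n : ℤ))
        ↔ v.valuation F (a : F) ≤ WithZero.exp (-(n : ℤ)) := fun n => by
      rw [HeightOneSpectrum.valuation_of_algebraMap, HeightOneSpectrum.valuation_of_algebraMap,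
        HeightOneSpectrum.intValuation_le_pow_iff_mem,
          HeightOneSpectrum.intValuation_le_pow_iff_mem]
      exact hpow n a
    rcases eq_or_ne a 0 with rfl | ha
    · simp
    have h1 : (a : F) ≠ 0 := by exact_mod_cast ha
    have h2 : ((e a : 𝓞 F) : F) ≠ 0 := by
      refine RingOfIntegers.coe_ne_zero_iff.2 fun h => ?_
      exact ha (e.injective (h.trans (map_zero e).symm))
    obtain ⟨n, hn⟩ : ∃ n : ℕ, v.valuation F (a : F) = WithZero.exp (-(n : ℤ)) :=
      ⟨(ord (v.valuation F) (a : F)).toNat, by
        rw [Int.toNat_of_nonneg ((ord_nonneg_iff _ h1).2 (v.valuation_le_one a)), v_eq_exp _ h1]⟩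
    obtain ⟨m, hm⟩ : ∃ m : ℕ, (mapPlace τ v).valuation F ((e a : 𝓞 F) : F) =
        WithZero.exp (-(m : ℤ)) :=
      ⟨(ord ((mapPlace τ v).valuation F) ((e a : 𝓞 F) : F)).toNat, by
        rw [Int.toNat_of_nonneg ((ord_nonneg_iff _ h2).2 ((mapPlace τ v).valuation_le_one _)),
          v_eq_exp _ h2]⟩
    have ha1 := (hiff n).2 hn.le
    have ha2 := (hiff m).1 hm.le
    rw [hm, WithZero.exp_le_exp] at ha1
    rw [hn, WithZero.exp_le_exp] at ha2
    rw [hn, hm, WithZero.exp_inj]
    omega
  -- a general element is a quotient of integers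
  obtain ⟨a, b, -, rfl⟩ := IsFractionRing.div_surjective (A := 𝓞 F) x
  rw [map_div₀, map_div₀, map_div₀, hint, hint]

/-- The valuation of an image is that at the preimage place. -/
lemma valuation_symm_mapPlace (τ : F ≃+* F) (u : Place F) (x : F) :
    u.valuation F (τ x) = ((mapPlace τ).symm u).valuation F x := by
  rw [← valuation_mapPlace τ ((mapPlace τ).symm u) x, Equiv.apply_symm_apply]

/-- An automorphism on matrices. -/
noncomputable def mapGL (τ : F ≃+* F) : GL (Fin 2) F →* GL (Fin 2) F :=
  Matrix.GeneralLinearGroup.map (τ : F →+* F)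

omit [NumberField F] in
/-- The entries of an image matrix. -/
lemma coe_mapGL (τ : F ≃+* F) (g : GL (Fin 2) F) :
    (mapGL τ g : Matrix (Fin 2) (Fin 2) F) = (g : Matrix (Fin 2) (Fin 2) F).map τ := rfl

omit [NumberField F] in
/-- The actions on matrices compose. -/
lemma mapGL_mapGL (τ ρ : F ≃+* F) (g : GL (Fin 2) F) :
    mapGL τ (mapGL ρ g) = mapGL (ρ.trans τ) g := rfl

omit [NumberField F] in
/-- A field automorphism sends a scalar matrix to the scalar of the image. -/
lemma mapGL_scal (τ : F ≃+* F) (c : Fˣ) :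
    mapGL τ (scal c) = scal (Units.map (τ : F →+* F).toMonoidHom c) := by
  refine Units.ext ?_
  change (Matrix.scalar (Fin 2) (c : F)).map τ = _
  rw [scal_coe, Matrix.scalar_apply, Matrix.scalar_apply, Matrix.diagonal_map (map_zero _)]
  rfl

/-- An automorphism carries integral matrices at `v` to integral matrices at the image place. -/
lemma mapGL_mem_intGL {τ : F ≃+* F} {v u : Place F} (hu : mapPlace τ v = u) {g : GL (Fin 2) F}
    (hg : g ∈ intGL (v.valuation F)) : mapGL τ g ∈ intGL (u.valuation F) := by
  subst hu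
  have hb : ∀ {k : GL (Fin 2) F}, k ∈ intGL (v.valuation F) →
      ∀ i j, v.valuation F ((k : Matrix (Fin 2) (Fin 2) F) i j) ≤ 1 := by
    rintro k ⟨k0, rfl⟩ i j
    exact ((k0 : Matrix (Fin 2) (Fin 2) (v.valuation F).integer) i j).2
  refine mem_intGL_of_le (fun i j => ?_) fun i j => ?_
  · rw [coe_mapGL, Matrix.map_apply, valuation_mapPlace]; exact hb hg i j
  · rw [← map_inv, coe_mapGL, Matrix.map_apply, valuation_mapPlace];
      exact hb ((intGL _).inv_mem hg) i j

/-- An automorphism maps congruence subgroups to each other. -/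
lemma mapGL_mem_congGL {τ : F ≃+* F} {v u : Place F} (hu : mapPlace τ v = u) {g : GL (Fin 2) F}
    (hg : g ∈ congGL (v.valuation F)) : mapGL τ g ∈ congGL (u.valuation F) := by
  refine ⟨mapGL_mem_intGL hu hg.1, fun i j => ?_⟩
  subst hu
  have h := hg.2 i j
  rw [← valuation_mapPlace τ v] at h
  rw [coe_mapGL, Matrix.map_apply]
  convert h using 2
  rw [map_sub]
  congr 1
  fin_cases i <;> fin_cases j <;> simp

omit [NumberField F] in
/-- The inverse automorphism brings the image of a place back to it. -/
lemma mapPlace_symm_left (τ : F ≃+* F) (v : Place F) : mapPlace τ.symm (mapPlace τ v) = v := by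
  refine HeightOneSpectrum.ext (Ideal.ext fun a => ?_)
  obtain ⟨b, rfl⟩ := (RingOfIntegers.mapRingEquiv τ.symm).surjective a
  obtain ⟨c, rfl⟩ := (RingOfIntegers.mapRingEquiv τ).surjective b
  rw [mapPlace_asIdeal, mapPlace_asIdeal,
    show RingOfIntegers.mapRingEquiv τ.symm (RingOfIntegers.mapRingEquiv τ c) = c from
      RingOfIntegers.ext (τ.symm_apply_apply _)]

omit [NumberField F] in
/-- The inverse automorphism permutes the places inversely. -/
lemma mapPlace_symm_right (τ : F ≃+* F) (v : Place F) : mapPlace τ (mapPlace τ.symm v) = v :=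
  mapPlace_symm_left τ.symm v

omit [NumberField F] in
/-- The identity fixes the places. -/
lemma mapPlace_refl (v : Place F) : mapPlace (RingEquiv.refl F) v = v :=
  HeightOneSpectrum.ext (Ideal.ext fun a => mapPlace_asIdeal (RingEquiv.refl F) v a)

omit [NumberField F] in
/-- The action on places of a composite is the composite of the actions. -/
lemma mapPlace_mapPlace (τ ρ : F ≃+* F) (v : Place F) :
    mapPlace τ (mapPlace ρ v) = mapPlace (ρ.trans τ) v := by
  refine HeightOneSpectrum.ext (Ideal.ext fun a => ?_)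
  obtain ⟨b, rfl⟩ := (RingOfIntegers.mapRingEquiv τ).surjective a
  obtain ⟨c, rfl⟩ := (RingOfIntegers.mapRingEquiv ρ).surjective b
  rw [mapPlace_asIdeal, mapPlace_asIdeal]
  exact (mapPlace_asIdeal (ρ.trans τ) v c).symm

variable {S : Set (Place F)}

/-- The automorphism preserves the level set. -/
def Stable (τ : F ≃+* F) (S : Set (Place F)) : Prop := ∀ v, mapPlace τ v ∈ S ↔ v ∈ S

/-- A stable level is preserved. -/
lemma mapGL_mem_lev {τ : F ≃+* F} (hS : Stable τ S) {v u : Place F} (hu : mapPlace τ v = u)
    {g : GL (Fin 2) F} (hg : g ∈ lev S v) : mapGL τ g ∈ lev S u := by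
  by_cases hv : v ∈ S
  · rw [lev_of_mem (show u ∈ S from hu ▸ (hS v).2 hv)]
    rw [lev_of_mem hv] at hg
    obtain ⟨c, hc⟩ := hg
    refine ⟨Units.map (τ : F →+* F).toMonoidHom c, ?_⟩
    rw [← mapGL_scal, ← map_mul]
    exact mapGL_mem_congGL hu hc
  · rw [lev_of_not_mem (show u ∉ S from fun h => hv ((hS v).1 (hu ▸ h)))]
    rw [lev_of_not_mem hv] at hg
    obtain ⟨c, hc⟩ := hg
    refine ⟨Units.map (τ : F →+* F).toMonoidHom c, ?_⟩
    rw [← mapGL_scal, ← map_mul]
    exact mapGL_mem_intGL hu hc

/-- An automorphism on local cosets. -/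
noncomputable def Vert.amap {τ : F ≃+* F} (hS : Stable τ S) {v u : Place F}
    (hu : mapPlace τ v = u) :
    Vert S v → Vert S u :=
  Quotient.map' (mapGL τ) fun a b h => by
    rw [QuotientGroup.leftRel_apply] at h ⊢
    rw [← map_inv, ← map_mul]
    exact mapGL_mem_lev hS hu h

/-- The image of the class of a matrix. -/
@[simp] lemma Vert.amap_mk {τ : F ≃+* F} (hS : Stable τ S) {v u : Place F} (hu : mapPlace τ v = u)
    (g : GL (Fin 2) F) : Vert.amap hS hu (g : Vert S v) = (mapGL τ g : Vert S u) := rfl

/-- An automorphism on finite points. -/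
noncomputable def FinPt.amap {τ : F ≃+* F} (hS : Stable τ S) (ν : FinPt F S) : FinPt F S :=
  ⟨fun u => Vert.amap hS ((mapPlace τ).apply_symm_apply u) (ν.1 ((mapPlace τ).symm u)), by
    have h := (mapPlace τ).symm.injective.tendsto_cofinite.eventually ν.2
    filter_upwards [h] with u hu
    rw [hu, Vert.amap_mk, map_one]⟩

/-- The component at the image place of a moved finite point is the image of the component at
`v`. -/
lemma FinPt.amap_apply {τ : F ≃+* F} (hS : Stable τ S) (ν : FinPt F S) {v u : Place F}
    (hu : mapPlace τ v = u) {g : GL (Fin 2) F} (hg : ν.1 v = (g : Vert S v)) :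
    (FinPt.amap hS ν).1 u = (mapGL τ g : Vert S u) := by
  obtain rfl : v = (mapPlace τ).symm u := by rw [← hu, Equiv.symm_apply_apply]
  change Vert.amap hS hu _ = _
  rw [hg, Vert.amap_mk]

/-- The point at an arbitrary embedding. -/
noncomputable def extH (x : InfinitePlace F → H3) (φ : F →+* ℂ) : H3 :=
  if φ = (InfinitePlace.mk φ).embedding then x (InfinitePlace.mk φ)
    else H3.cj (x (InfinitePlace.mk φ))

omit [NumberField F] in
/-- The extension at the embedding of a place is the coordinate. -/
lemma extH_embedding (x : InfinitePlace F → H3) (w : InfinitePlace F) :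
    extH x w.embedding = x w := by
  simp [extH, InfinitePlace.mk_embedding]

variable [IsTotallyComplex F]

omit [NumberField F] in
/-- The point at a conjugate embedding is the conjugate point. -/
lemma extH_conjugate (x : InfinitePlace F → H3) (φ : F →+* ℂ) :
    extH x (ComplexEmbedding.conjugate φ) = H3.cj (extH x φ) := by
  set w := InfinitePlace.mk φ with hw
  have hne : φ ≠ ComplexEmbedding.conjugate φ := fun h => by
    have h1 : ComplexEmbedding.IsReal φ := ComplexEmbedding.isReal_iff.2 h.symm
    exact InfinitePlace.not_isReal_iff_isComplex.2 (IsTotallyComplex.isComplex (InfinitePlace.mk φ))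
      ⟨φ, h1, rfl⟩
  have hmk : InfinitePlace.mk (ComplexEmbedding.conjugate φ) = w := InfinitePlace.mk_conjugate_eq φ
  rcases InfinitePlace.embedding_mk_eq φ with h | h
  · rw [extH, extH, hmk, if_pos h.symm, if_neg]
    rw [h]; exact hne.symm
  · simp [extH, hmk, hw, h, hne, H3.cj_cj]

omit [NumberField F] in
/-- The point at an embedding is equivariant. -/
lemma extH_smul (g : GL (Fin 2) F) (x : InfinitePlace F → H3) (φ : F →+* ℂ) :
    extH (fun w => atInf w g • x w) φ = Matrix.GeneralLinearGroup.map φ g • extH x φ := by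
  rcases InfinitePlace.embedding_mk_eq φ with h | h
  · rw [extH, extH, if_pos h.symm, if_pos h.symm, atInf, h]
  · have hφ : φ = ComplexEmbedding.conjugate (InfinitePlace.mk φ).embedding := by
      rw [h, ComplexEmbedding.conjugate, star_star]
    set w' := InfinitePlace.mk φ
    rw [hφ, extH_conjugate, extH_conjugate, extH_embedding, extH_embedding,
      H3.cj_smul]
    rfl

/-- An automorphism on points. -/
noncomputable def Pt.amap {τ : F ≃+* F} (hS : Stable τ S) (p : Pt F S) : Pt F S :=
  (FinPt.amap hS p.1, fun w => extH p.2 (w.embedding.comp (τ : F →+* F)))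

omit [NumberField F] in
/-- The point at an embedding after transport by an automorphism. -/
lemma extH_comp_amap (τ : F ≃+* F) (x : InfinitePlace F → H3) (φ : F →+* ℂ) :
    extH (fun w : InfinitePlace F => extH x (w.embedding.comp (τ : F →+* F))) φ =
      extH x (φ.comp (τ : F →+* F)) := by
  rcases InfinitePlace.embedding_mk_eq φ with h | h
  · conv_lhs => rw [extH, if_pos h.symm]
    show extH x _ = _
    rw [h]
  · have hφ : φ = ComplexEmbedding.conjugate (InfinitePlace.mk φ).embedding := by
      rw [h, ComplexEmbedding.conjugate, star_star]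
    conv_lhs => rw [hφ, extH_conjugate, extH_embedding]
    show H3.cj (extH x _) = _
    rw [← extH_conjugate]
    congr 1
    conv_rhs => rw [hφ]
    rfl

/-- An automorphism composes the embeddings. -/
lemma extH_amap {τ : F ≃+* F} (hS : Stable τ S) (p : Pt F S) (φ : F →+* ℂ) :
    extH (Pt.amap hS p).2 φ = extH p.2 (φ.comp (τ : F →+* F)) :=
  extH_comp_amap τ p.2 φ

/-- The actions of automorphisms on points compose. -/
lemma Pt.amap_amap {τ ρ : F ≃+* F} (hS : Stable τ S) (hS' : Stable ρ S)
    (hS'' : Stable (ρ.trans τ) S) (p : Pt F S) :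
    Pt.amap hS (Pt.amap hS' p) = Pt.amap hS'' p := by
  refine Prod.ext (Subtype.ext (funext fun u => ?_)) (funext fun w => ?_)
  · set v := (mapPlace (ρ.trans τ)).symm u
    obtain ⟨g, hg⟩ := QuotientGroup.mk_surjective (p.1.1 v)
    have hv : mapPlace (ρ.trans τ) v = u := Equiv.apply_symm_apply _ _
    have hv' : mapPlace τ (mapPlace ρ v) = u := by rw [mapPlace_mapPlace, hv]
    change (FinPt.amap hS (FinPt.amap hS' p.1)).1 u = (FinPt.amap hS'' p.1).1 u
    rw [FinPt.amap_apply hS'' p.1 hv hg.symm,
      FinPt.amap_apply hS _ hv' (FinPt.amap_apply hS' p.1 rfl hg.symm), mapGL_mapGL]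
  · change extH (Pt.amap hS' p).2 _ = extH p.2 _
    rw [extH_amap]
    rfl

omit [IsTotallyComplex F] in
/-- The identity automorphism fixes every point. -/
lemma Pt.amap_refl (hS : Stable (RingEquiv.refl F) S) (p : Pt F S) : Pt.amap hS p = p := by
  refine Prod.ext (Subtype.ext (funext fun u => ?_)) (funext fun w => ?_)
  · obtain ⟨g, hg⟩ := QuotientGroup.mk_surjective (p.1.1 u)
    have hu : mapPlace (RingEquiv.refl F) u = u := by
      refine HeightOneSpectrum.ext (Ideal.ext fun a => ?_)
      exact mapPlace_asIdeal (RingEquiv.refl F) u a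
    change (FinPt.amap hS p.1).1 u = p.1.1 u
    rw [FinPt.amap_apply hS p.1 hu hg.symm, ← hg]
    rfl
  · exact extH_embedding p.2 w

/-- The action of an automorphism on points is semilinear for the action of `GL₂`. -/
lemma Pt.amap_smul [Finite S] {τ : F ≃+* F} (hS : Stable τ S) (g : GL (Fin 2) F) (p : Pt F S) :
    Pt.amap hS (g • p) = mapGL τ g • Pt.amap hS p := by
  refine Prod.ext (Subtype.ext (funext fun u => ?_)) (funext fun w => ?_)
  · set v := (mapPlace τ).symm u
    obtain ⟨h, hh⟩ := QuotientGroup.mk_surjective (p.1.1 v)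
    have hv : mapPlace τ v = u := Equiv.apply_symm_apply _ _
    change (FinPt.amap hS (g • p).1).1 u = mapGL τ g • (FinPt.amap hS p.1).1 u
    rw [FinPt.amap_apply hS p.1 hv hh.symm, FinPt.amap_apply hS _ hv (g := g * h) (by
      rw [Pt.smul_fst, FinPt.smul_apply, ← hh, MulAction.Quotient.smul_coe, smul_eq_mul]),
      MulAction.Quotient.smul_coe, smul_eq_mul, map_mul]
  · change extH (g • p).2 _ = atInf w (mapGL τ g) • extH p.2 _
    rw [show (g • p).2 = fun w => atInf w g • p.2 w from rfl, extH_smul]
    rfl

omit [IsTotallyComplex F] in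
/-- An automorphism of the field preserves the measure on the infinite factor. -/
theorem measurePreserving_extH_comp (τ : F ≃+* F) :
    MeasurePreserving (fun (x : InfinitePlace F → H3) (w : InfinitePlace F) =>
      extH x (w.embedding.comp (τ : F →+* F))) (Measure.pi fun _ => hmeas)
      (Measure.pi fun _ => hmeas) := by
  -- `τ` permutes the infinite places
  let σ : InfinitePlace F ≃ InfinitePlace F :=
    { toFun := fun w => InfinitePlace.mk (w.embedding.comp (τ : F →+* F))
      invFun := fun w => InfinitePlace.mk (w.embedding.comp (τ.symm : F →+* F))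
      left_inv := fun w => by
        rcases InfinitePlace.embedding_mk_eq (w.embedding.comp (τ : F →+* F)) with h | h <;>
          simp only [h]
        · conv_rhs => rw [← InfinitePlace.mk_embedding w]
          congr 1; ext x; simp
        · conv_rhs => rw [← InfinitePlace.mk_embedding w, ← InfinitePlace.mk_conjugate_eq]
          congr 1; ext x; simp [ComplexEmbedding.conjugate]
      right_inv := fun w => by
        rcases InfinitePlace.embedding_mk_eq (w.embedding.comp (τ.symm : F →+* F)) with h | h <;>
          simp only [h]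
        · conv_rhs => rw [← InfinitePlace.mk_embedding w]
          congr 1; ext x; simp
        · conv_rhs => rw [← InfinitePlace.mk_embedding w, ← InfinitePlace.mk_conjugate_eq]
          congr 1; ext x; simp [ComplexEmbedding.conjugate] }
  -- and acts at each as the identity or as conjugation
  let c : InfinitePlace F → H3 → H3 := fun w x =>
    if w.embedding.comp (τ : F →+* F) = (σ w).embedding then x else H3.cj x
  have hc : ∀ w, MeasurePreserving (c w) hmeas hmeas := fun w => by
    by_cases h : w.embedding.comp (τ : F →+* F) = (σ w).embedding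
    · rw [show c w = id from funext fun x => if_pos h]; exact MeasurePreserving.id _
    · rw [show c w = H3.cj from funext fun x => if_neg h]; exact measurePreserving_cj
  have hp := measurePreserving_piCongrLeft (fun _ : InfinitePlace F => hmeas) σ.symm
  have hq := (measurePreserving_pi (fun _ : InfinitePlace F => hmeas) _ hc).comp hp
  convert hq using 1
  funext x w
  change extH x _ = c w ((MeasurableEquiv.piCongrLeft (fun _ => H3) σ.symm) x w)
  rw [show (MeasurableEquiv.piCongrLeft (fun _ => H3) σ.symm) x w = x (σ w) by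
    simp [MeasurableEquiv.coe_piCongrLeft, Equiv.piCongrLeft]]
  rfl

omit [IsTotallyComplex F] in
/-- A bijection of the finite factor and an automorphism of the field preserve
the product measure. -/
theorem measurePreserving_amap_gen {M : Type*} [MeasurableSpace M] [DiscreteMeasurableSpace M]
    [Countable M] (τ : F ≃+* F) {f g : M → M} (hgf : Function.LeftInverse g f)
    (hfg : Function.LeftInverse f g) :
    MeasurePreserving (fun p : M × (InfinitePlace F → H3) =>
        (f p.1, fun w : InfinitePlace F => extH p.2 (w.embedding.comp (τ : F →+* F))))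
      ((Measure.count : Measure M).prod (Measure.pi fun _ => hmeas))
      ((Measure.count : Measure M).prod (Measure.pi fun _ => hmeas)) := by
  refine (show MeasurePreserving f (Measure.count : Measure M) Measure.count from
    ⟨Measurable.of_discrete, Measure.ext fun s hs => ?_⟩).prod (measurePreserving_extH_comp τ)
  rw [Measure.map_apply Measurable.of_discrete hs,
    Measure.count_apply (hs.preimage Measurable.of_discrete),
    Measure.count_apply hs,
      Set.encard_preimage_of_bijective (Function.bijective_iff_has_inverse.2 ⟨g, hgf, hfg⟩)]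

/-- An automorphism preserving the level set preserves the measure on points. -/
lemma measurePreserving_amap {τ : F ≃+* F} (hS : Stable τ S) :
    MeasurePreserving (Pt.amap hS) (ptMeasure (F := F) (S := S)) ptMeasure := by
  have : DiscreteMeasurableSpace (FinPt F S) := ⟨fun _ => trivial⟩
  have hS' : Stable τ.symm S := fun v => by rw [← hS (mapPlace τ.symm v), mapPlace_symm_right]
  have hid : Stable (RingEquiv.refl F) S := fun v => by rw [mapPlace_refl]
  have h1 : ∀ p : Pt F S, Pt.amap hS (Pt.amap hS' p) = p := fun p => by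
    rw [Pt.amap_amap hS hS' (by rwa [RingEquiv.symm_trans_self])]
    simp only [RingEquiv.symm_trans_self, Pt.amap_refl hid]
  have h2 : ∀ p : Pt F S, Pt.amap hS' (Pt.amap hS p) = p := fun p => by
    rw [Pt.amap_amap hS' hS (by rwa [RingEquiv.self_trans_symm])]
    simp only [RingEquiv.self_trans_symm, Pt.amap_refl hid]
  exact measurePreserving_amap_gen τ (g := FinPt.amap hS')
    (fun ν => congrArg Prod.fst (h2 (ν, fun _ => ((1 : GL (Fin 2) ℂ) : H3))))
    (fun ν => congrArg Prod.fst (h1 (ν, fun _ => ((1 : GL (Fin 2) ℂ) : H3))))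

end Fermat.LT
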