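import Fermat.Agent.LT.CuspKer
import Mathlib.FieldTheory.Finite.Basic

/-!
# Kernels inside one `U0`-coset at a place of the level

The points of `Vert S v` (`v ∈ S`) over one vertex are a torsor of `PGL₂(κ)`; functions on `PGL₂(κ)`
give invariant kernels and convolution gives composition.
-/

set_option autoImplicit false
open Set
open scoped Classical ComplexConjugate

namespace Fermat.LT

variable {F : Type*} [Field F] [NumberField F] {S : Set (Place F)}

/-- Residue field at a place. -/
abbrev Res (v : Place F) : Type _ := IsLocalRing.ResidueField (v.valuation F).valuationSubring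

/-- The residue field is finite. -/
noncomputable instance fintype_res (v : Place F) : Fintype (Res v) := Fintype.ofFinite _

variable {v : Place F}

/-- Reduction of integral invertible matrices. -/
noncomputable def redG (v : Place F) : GL (Fin 2) (v.valuation F).integer →* GL (Fin 2) (Res v) :=
  Matrix.GeneralLinearGroup.map (n := Fin 2)
    (IsLocalRing.residue (v.valuation F).valuationSubring :
      (v.valuation F).integer →+* Res v)

/-- The entries of the reduction. -/
lemma coe_redG (a : GL (Fin 2) (v.valuation F).integer) (i j : Fin 2) :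
    (redG v a : Matrix (Fin 2) (Fin 2) (Res v)) i j
      = IsLocalRing.residue (v.valuation F).valuationSubring
          ((a : Matrix (Fin 2) (Fin 2) (v.valuation F).integer) i j) := rfl

/-- The units of the integers have valuation one. -/
lemma isUnit_integer_iff (x : (v.valuation F).integer) :
    IsUnit x ↔ v.valuation F (x : F) = 1 :=
  Valuation.Integers.isUnit_iff_valuation_eq_one (Valuation.integer.integers _)

/-- Reduction of integral invertible matrices is surjective. -/
lemma redG_surjective : Function.Surjective (redG v) := by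
  intro M
  choose a ha using fun i j =>
    IsLocalRing.residue_surjective (R := (v.valuation F).valuationSubring)
      ((M : Matrix (Fin 2) (Fin 2) (Res v)) i j)
  set A : Matrix (Fin 2) (Fin 2) (v.valuation F).integer := Matrix.of a with hA
  have hmap : A.map (IsLocalRing.residue (v.valuation F).valuationSubring :
      (v.valuation F).integer →+* Res v) = (M : Matrix (Fin 2) (Fin 2) (Res v)) :=
    Matrix.ext fun i j => ha i j
  have hdet : IsUnit A.det := by
    rw [isUnit_integer_iff]
    refine le_antisymm A.det.2 (not_lt.1 fun h => ?_)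
    have h0 := (residue_eq_zero_iff_v (v.valuation F)
      (A.det : (v.valuation F).valuationSubring)).2 h
    apply (Matrix.GeneralLinearGroup.det M).ne_zero
    rw [Matrix.GeneralLinearGroup.val_det_apply, ← hmap]
    exact (RingHom.map_det _ _).symm.trans h0
  exact ⟨((Matrix.isUnit_iff_isUnit_det A).2 hdet).unit, Units.ext hmap⟩

/-- An integral matrix reduces to `1` exactly when it lies in the congruence group. -/
lemma redG_eq_one_iff (a : GL (Fin 2) (v.valuation F).integer) :
    redG v a = 1 ↔ incGL v a ∈ congGL (v.valuation F) := by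
  have key : ∀ i j, ((redG v a : GL (Fin 2) (Res v)) : Matrix (Fin 2) (Fin 2) (Res v)) i j
      = (1 : Matrix (Fin 2) (Fin 2) (Res v)) i j ↔
      v.valuation F ((incGL v a : Matrix (Fin 2) (Fin 2) F) i j
        - (1 : Matrix (Fin 2) (Fin 2) F) i j) < 1 := by
    intro i j
    let x : (v.valuation F).valuationSubring :=
      (a : Matrix (Fin 2) (Fin 2) (v.valuation F).integer) i j
    have h := residue_eq_zero_iff_v (v.valuation F)
      (x - (1 : Matrix (Fin 2) (Fin 2) (v.valuation F).valuationSubring) i j)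
    rw [map_sub, sub_eq_zero] at h
    rw [coe_redG]
    fin_cases i <;> fin_cases j <;> simp [x] at h ⊢ <;> exact h
  exact ⟨fun h => ⟨⟨a, rfl⟩, fun i j => (key i j).1 (by rw [h, Units.val_one])⟩,
    fun h => Units.ext (Matrix.ext fun i j => (key i j).2 (h.2 i j))⟩

/-- A function on matrices which ignores scalars. -/
def ScalInv (f : GL (Fin 2) (Res v) → ℂ) : Prop := ∀ z M, f (scal z * M) = f M

/-- `scal` multiples reduce to scalar multiples. -/
lemma redG_scal {a b : GL (Fin 2) (v.valuation F).integer} {c : Fˣ}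
    (h : incGL v b = scal c * incGL v a) : ∃ z, redG v b = scal z * redG v a := by
  have e : incGL v (b * a⁻¹) = scal c := by rw [map_mul, map_inv, h, mul_inv_cancel_right]
  set u := ((b * a⁻¹ : GL (Fin 2) (v.valuation F).integer) :
    Matrix (Fin 2) (Fin 2) (v.valuation F).integer) with hu
  have hM : ∀ i j, (redG v (b * a⁻¹) : Matrix (Fin 2) (Fin 2) (Res v)) i j
      = if i = j then IsLocalRing.residue (v.valuation F).valuationSubring (u 0 0) else 0 := by
    intro i j
    have : u i j = if i = j then u 0 0 else 0 := by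
      rw [hu, eq_smul_one_of_incGL_eq_scal e]; simp [Matrix.one_apply]
    rw [coe_redG, ← hu, this]
    split_ifs
    · rfl
    · exact map_zero _
  have hz : IsLocalRing.residue (v.valuation F).valuationSubring (u 0 0) ≠ 0 := fun h0 => by
    apply (Matrix.GeneralLinearGroup.det (redG v (b * a⁻¹))).ne_zero
    rw [Matrix.GeneralLinearGroup.val_det_apply, Matrix.det_fin_two]
    rw [hM 0 0, hM 1 1, hM 0 1, hM 1 0, h0]
    simp
  refine ⟨Units.mk0 _ hz, ?_⟩
  rw [show redG v b = redG v (b * a⁻¹) * redG v a by rw [← map_mul, inv_mul_cancel_right]]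
  congr 1
  refine Units.ext (Matrix.ext fun i j => ?_)
  rw [hM, scal_coe]
  fin_cases i <;> fin_cases j <;> simp

/-- The reduction of an element of `U0`, up to scalars; `1` elsewhere. -/
noncomputable def redU (v : Place F) (g : GL (Fin 2) F) : GL (Fin 2) (Res v) :=
  if h : g ∈ U0 (v.valuation F) then redG v (exists_eq_scal_incGL h).choose_spec.choose else 1

/-- The reduction of a scalar multiple is a multiple of the reduction. -/
lemma redU_eq (c : Fˣ) (a : GL (Fin 2) (v.valuation F).integer) :
    ∃ z, redU v (scal c * incGL v a) = scal z * redG v a := by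
  have h := scal_incGL_mem_U0 c a
  rw [redU, dif_pos h]
  set d := (exists_eq_scal_incGL h).choose
  have e := (exists_eq_scal_incGL h).choose_spec.choose_spec
  refine redG_scal (c := d⁻¹ * c) ?_
  calc incGL v (exists_eq_scal_incGL h).choose_spec.choose
      = scal d⁻¹ * (scal d * incGL v (exists_eq_scal_incGL h).choose_spec.choose) := by
        rw [← mul_assoc, ← scal_mul, inv_mul_cancel]; simp [scal]
    _ = scal d⁻¹ * (scal c * incGL v a) := congrArg _ e.symm
    _ = scal (d⁻¹ * c) * incGL v a := by rw [scal_mul, mul_assoc]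

/-- A scalar invariant function ignores the scalar. -/
lemma apply_redU {f : GL (Fin 2) (Res v) → ℂ} (hf : ScalInv f) (c : Fˣ)
    (a : GL (Fin 2) (v.valuation F).integer) :
    f (redU v (scal c * incGL v a)) = f (redG v a) := by
  obtain ⟨z, hz⟩ := redU_eq c a
  rw [hz, hf]

variable (v) in
/-- The value of a function of the reduction, extended by zero. -/
noncomputable def fibFun (f : GL (Fin 2) (Res v) → ℂ) (g : GL (Fin 2) F) : ℂ :=
  if g ∈ U0 (v.valuation F) then f (redU v g) else 0

/-- The values on the maximal subgroup. -/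
lemma fibFun_scal_incGL {f : GL (Fin 2) (Res v) → ℂ} (hf : ScalInv f) (c : Fˣ)
    (a : GL (Fin 2) (v.valuation F).integer) :
    fibFun v f (scal c * incGL v a) = f (redG v a) := by
  rw [fibFun, if_pos (scal_incGL_mem_U0 c a), apply_redU hf]

/-- The function of the reduction is invariant on both sides under `U1`. -/
lemma fibFun_mul_U1 {f : GL (Fin 2) (Res v) → ℂ} (hf : ScalInv f) {u u' : GL (Fin 2) F}
    (hu : u ∈ U1 (v.valuation F)) (hu' : u' ∈ U1 (v.valuation F)) (m : GL (Fin 2) F) :
    fibFun v f (u * m * u') = fibFun v f m := by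
  by_cases hm : m ∈ U0 (v.valuation F)
  · obtain ⟨c, a, rfl⟩ := exists_eq_scal_incGL hm
    obtain ⟨d, hd⟩ := hu
    obtain ⟨d', hd'⟩ := hu'
    obtain ⟨x, hx⟩ := hd.1
    obtain ⟨x', hx'⟩ := hd'.1
    have e1 : redG v x = 1 := (redG_eq_one_iff x).2 (by rw [show incGL v x = _ from hx]; exact hd)
    have e2 : redG v x' = 1 :=
      (redG_eq_one_iff x').2 (by rw [show incGL v x' = _ from hx']; exact hd')
    rw [scal_incGL_sandwich hx hx', fibFun_scal_incGL hf, fibFun_scal_incGL hf, map_mul, map_mul,
      e1, e2, one_mul, mul_one]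
  · rw [fibFun, fibFun, if_neg hm, if_neg fun h => hm ?_]
    have := (U0 _).mul_mem ((U0 _).mul_mem ((U0 _).inv_mem (U1_le_U0 _ hu)) h)
      ((U0 _).inv_mem (U1_le_U0 _ hu'))
    simpa [mul_assoc] using this

/-- The function of the reduction at two cosets does not depend on the representatives. -/
lemma fibFun_mk (hvS : v ∈ S) {f : GL (Fin 2) (Res v) → ℂ} (hf : ScalInv f) (g h : GL (Fin 2) F) :
    fibFun v f (((g : Vert S v).out)⁻¹ * (h : Vert S v).out) = fibFun v f (g⁻¹ * h) := by
  obtain ⟨k, hk⟩ := QuotientGroup.mk_out_eq_mul (lev S v) g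
  obtain ⟨k', hk'⟩ := QuotientGroup.mk_out_eq_mul (lev S v) h
  have h1 := (lev_of_mem hvS).le k.2
  have h2 := (lev_of_mem hvS).le k'.2
  rw [hk, hk', show (g * (k : GL (Fin 2) F))⁻¹ * (h * k') = (k : GL (Fin 2) F)⁻¹ *
    (g⁻¹ * h) * k' by group, fibFun_mul_U1 hf ((U1 _).inv_mem h1) h2]

/-- The point over the vertex of `g` with reduction `M`. -/
noncomputable def fcl (S : Set (Place F)) (g : GL (Fin 2) F) (M : GL (Fin 2) (Res v)) : Vert S v :=
  ((g * incGL v (Function.surjInv redG_surjective M) : GL (Fin 2) F) : Vert S v)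

/-- A point of the fibre lies in the coset. -/
lemma fcl_mem (g : GL (Fin 2) F) (M : GL (Fin 2) (Res v)) :
    g⁻¹ * (fcl S g M).out ∈ U0 (v.valuation F) := by
  obtain ⟨k, hk⟩ := QuotientGroup.mk_out_eq_mul (lev S v)
    (g * incGL v (Function.surjInv redG_surjective M))
  rw [fcl, hk, ← mul_assoc, inv_mul_cancel_left]
  exact (U0 _).mul_mem (incGL_mem_U0 _) (lev_le_U0 S v k.2)

variable (hvS : v ∈ S)
include hvS

/-- Every point over the vertex of `g` comes from a reduction. -/
lemma exists_fcl_eq (g : GL (Fin 2) F) {y : Vert S v} (hy : g⁻¹ * y.out ∈ U0 (v.valuation F)) :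
    ∃ M, fcl S g M = y := by
  obtain ⟨c, a, ha⟩ := exists_eq_scal_incGL hy
  refine ⟨redG v a, ?_⟩
  conv_rhs => rw [← QuotientGroup.out_eq' y, show y.out = g * (scal c * incGL v a) by
    rw [← ha, mul_inv_cancel_left]]
  rw [fcl, QuotientGroup.eq, lev_of_mem hvS]
  set a' := Function.surjInv redG_surjective (redG v a)
  have h1 : redG v (a'⁻¹ * a) = 1 := by
    rw [map_mul, map_inv, Function.surjInv_eq redG_surjective, inv_mul_cancel]
  have h2 := (U1 (v.valuation F)).mul_mem (scal_mem_withScalars _ c)
    (le_withScalars _ ((redG_eq_one_iff _).1 h1))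
  rw [show (g * incGL v a')⁻¹ * (g * (scal c * incGL v a)) = scal c * incGL v (a'⁻¹ * a) by
    rw [map_mul, map_inv, mul_inv_rev, mul_assoc, inv_mul_cancel_left, ← mul_assoc, ← scal_comm,
      mul_assoc]]
  exact h2

/-- Evaluated at the point of a reduction, the function of the reduction returns that value. -/
lemma fibFun_fcl {f : GL (Fin 2) (Res v) → ℂ} (hf : ScalInv f) (g : GL (Fin 2) F)
    (M : GL (Fin 2) (Res v)) :
    fibFun v f ((g : Vert S v).out⁻¹ * (fcl S g M).out) = f M := by
  rw [fcl, fibFun_mk hvS hf, inv_mul_cancel_left]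
  have h := fibFun_scal_incGL hf 1 (Function.surjInv redG_surjective M)
  rw [Function.surjInv_eq redG_surjective] at h
  simpa [scal] using h

/-- Between two points of a fibre the function of the quotient. -/
lemma fibFun_fcl_fcl {f : GL (Fin 2) (Res v) → ℂ} (hf : ScalInv f) (g : GL (Fin 2) F)
    (M N : GL (Fin 2) (Res v)) :
    fibFun v f ((fcl S g M).out⁻¹ * (fcl S g N).out) = f (M⁻¹ * N) := by
  rw [fcl, fcl, fibFun_mk hvS hf]
  set a := Function.surjInv redG_surjective M
  set b := Function.surjInv redG_surjective N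
  rw [show (g * incGL v a)⁻¹ * (g * incGL v b) = scal 1 * incGL v (a⁻¹ * b) by
    simp [scal, map_mul, map_inv, mul_assoc], fibFun_scal_incGL hf, map_mul, map_inv,
    Function.surjInv_eq redG_surjective, Function.surjInv_eq redG_surjective]

/-- Two reductions give the same point exactly when they differ by a scalar. -/
lemma fcl_inj (g : GL (Fin 2) F) {M N : GL (Fin 2) (Res v)} :
    fcl S g M = fcl S g N ↔ ∃ z, N = scal z * M := by
  rw [fcl, fcl, QuotientGroup.eq, lev_of_mem hvS]
  set a := Function.surjInv redG_surjective M with ha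
  set b := Function.surjInv redG_surjective N with hb
  rw [show (g * incGL v a)⁻¹ * (g * incGL v b) = incGL v (a⁻¹ * b) by
    rw [map_mul, map_inv]; group]
  -- The two points agree when `a⁻¹ b` is a scalar times a level element.
  constructor
  · rintro ⟨c, hc⟩
    obtain ⟨x, hx⟩ := hc.1
    have h1 : redG v x = 1 := (redG_eq_one_iff x).2 (by rw [show incGL v x = _ from hx]; exact hc)
    obtain ⟨z, hz⟩ := redG_scal (show incGL v x = scal c * incGL v (a⁻¹ * b) from hx)
    rw [h1, map_mul, map_inv, ha, hb, Function.surjInv_eq redG_surjective,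
      Function.surjInv_eq redG_surjective, ← mul_assoc] at hz
    refine ⟨z⁻¹, ?_⟩
    rw [show N = (scal z * M⁻¹)⁻¹ *
      (scal z * M⁻¹ * N) by group, ← hz, mul_one, mul_inv_rev, inv_inv,
      show (scal z)⁻¹ = (scal z⁻¹ : GL (Fin 2) (Res v)) from (map_inv _ _).symm, scal_comm]
  · rintro ⟨z, hz⟩
    -- Conversely lift the scalar to a unit `r` and divide by it.
    obtain ⟨r, hr⟩ :=
      IsLocalRing.residue_surjective (R := (v.valuation F).valuationSubring) (z : Res v)
    have hru : v.valuation F (r : F) = 1 := by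
      rw [← isUnit_integer_iff (r : (v.valuation F).integer)]
      exact (IsLocalRing.residue_ne_zero_iff_isUnit (R := (v.valuation F).valuationSubring) r).1
        (by rw [hr]; exact z.ne_zero)
    have hr0 : (r : F) ≠ 0 := fun h => by simp [h] at hru
    set m : GL (Fin 2) (v.valuation F).integer :=
      Units.map (Matrix.scalar (Fin 2) (α := (v.valuation F).integer)).toMonoidHom
        ((isUnit_integer_iff (r : (v.valuation F).integer)).2 hru).unit
    have hm : redG v m = scal z := by
      refine Units.ext (Matrix.ext fun i j => ?_)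
      change IsLocalRing.residue _ ((Matrix.scalar (Fin 2) (r : (v.valuation F).integer)) i j) = _
      rw [scal_coe]
      fin_cases i <;> fin_cases j <;> simp [hr]
    have hinc : incGL v m = scal (Units.mk0 (r : F) hr0) := by
      refine Units.ext (Matrix.ext fun i j => ?_)
      change (((Matrix.scalar (Fin 2) (r : (v.valuation F).integer)) i j :
        (v.valuation F).integer) : F) = _
      fin_cases i <;> fin_cases j <;> simp
    have h1 : redG v (m⁻¹ * (a⁻¹ * b)) = 1 := by
      rw [map_mul, map_mul, map_inv, map_inv, hm, ha, hb, Function.surjInv_eq redG_surjective,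
        Function.surjInv_eq redG_surjective, hz, ← mul_assoc M⁻¹, ← scal_comm z M⁻¹,
          mul_assoc (scal z),
        inv_mul_cancel, mul_one, inv_mul_cancel]
    have h2 := (redG_eq_one_iff _).1 h1
    rw [map_mul, map_inv, hinc] at h2
    exact ⟨(Units.mk0 (r : F) hr0)⁻¹, by rwa [show (scal (Units.mk0 (r : F) hr0)⁻¹ : GL (Fin 2) F)
      = (scal (Units.mk0 (r : F) hr0))⁻¹ from map_inv _ _]⟩

/-- Sums over a fibre as sums over `GL₂(κ)`. -/
lemma sum_fibre (g : GL (Fin 2) F) (f : Vert S v → ℂ) (T : Finset (Vert S v))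
    (hT : ∀ y, y ∈ T → f y ≠ 0 → g⁻¹ * y.out ∈ U0 (v.valuation F))
    (hT' : ∀ y : Vert S v, g⁻¹ * y.out ∈ U0 (v.valuation F) → f y ≠ 0 → y ∈ T) :
    ∑ y ∈ T, f y = (Fintype.card (Res v)ˣ : ℂ)⁻¹ * ∑ M : GL (Fin 2) (Res v), f (fcl S g M) := by
  have hfib : ∀ y ∈ Finset.univ.image (fcl (v := v) S g),
      ((Finset.univ : Finset (GL (Fin 2) (Res v))).filter fun M => fcl S g M = y).card
        = Fintype.card (Res v)ˣ := by
    intro y hy
    obtain ⟨M, -, rfl⟩ := Finset.mem_image.1 hy
    rw [← Finset.card_univ (α := (Res v)ˣ)]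
    symm
    refine Finset.card_bij (fun z _ => scal z * M) (fun z _ => ?_) (fun z _ z' _ h => ?_)
      fun N hN => ?_
    · simp only [Finset.mem_filter, Finset.mem_univ, true_and]
      exact ((fcl_inj hvS g).2 ⟨z, rfl⟩).symm
    · have h1 := congrFun (congrFun (congrArg (fun X : GL (Fin 2) (Res v) =>
        (X : Matrix (Fin 2) (Fin 2) (Res v))) (mul_right_cancel h)) 0) 0
      exact Units.ext (by simpa using h1)
    · simp only [Finset.mem_filter, Finset.mem_univ, true_and] at hN
      obtain ⟨z, hz⟩ := (fcl_inj hvS g).1 hN.symm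
      exact ⟨z, Finset.mem_univ _, hz.symm⟩
  rw [Finset.sum_comp (s := (Finset.univ : Finset (GL (Fin 2) (Res v)))) f (fcl (v := v) S g),
    Finset.sum_congr rfl fun y (hy : y ∈ Finset.univ.image (fcl (v := v) S g)) => by rw [hfib y hy],
    ← Finset.smul_sum, nsmul_eq_mul, inv_mul_cancel_left₀ (Nat.cast_ne_zero.2 Fintype.card_ne_zero)]
  refine (finsum_mem_coe_finset f T).symm.trans (finsum_mem_eq_sum_of_inter_support_eq _ ?_)
  ext y
  simp only [Set.mem_inter_iff, Finset.mem_coe, Function.mem_support, Finset.mem_image,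
    Finset.mem_univ, true_and]
  constructor
  · rintro ⟨h, hne⟩
    exact ⟨exists_fcl_eq hvS g (hT y h hne), hne⟩
  · rintro ⟨⟨M, rfl⟩, hne⟩
    exact ⟨hT' _ (fcl_mem g M) hne, hne⟩

/-- The kernel of a function on the residue group. -/
noncomputable def fibKer (f : GL (Fin 2) (Res v) → ℂ) (hf : ScalInv f) : LKer S v where
  toFun a b := fibFun v f (a.out⁻¹ * b.out)
  invariant g a b := by
    obtain ⟨x, rfl⟩ := QuotientGroup.mk_surjective a
    obtain ⟨y, rfl⟩ := QuotientGroup.mk_surjective b
    rw [MulAction.Quotient.smul_coe, MulAction.Quotient.smul_coe, fibFun_mk hvS hf,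
      fibFun_mk hvS hf]
    simp [mul_assoc]
  finite_row a := by
    refine (Set.finite_range (fcl (v := v) S a.out)).subset fun b hb => ?_
    obtain ⟨M, hM⟩ := exists_fcl_eq hvS a.out (y := b)
      (by_contra fun h => hb (if_neg h))
    exact ⟨M, hM⟩

/-- The values of the kernel. -/
lemma fibKer_apply (f : GL (Fin 2) (Res v) → ℂ) (hf : ScalInv f) (a b : Vert S v) :
    fibKer hvS f hf a b = fibFun v f (a.out⁻¹ * b.out) := rfl

/-- The kernel lives inside one coset. -/
lemma mem_U0_of_fibKer_ne_zero {f : GL (Fin 2) (Res v) → ℂ} {hf : ScalInv f} {a b : Vert S v}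
    (h : fibKer hvS f hf a b ≠ 0) : a.out⁻¹ * b.out ∈ U0 (v.valuation F) :=
  by_contra fun h' => h (if_neg h')

/-- Fibre kernels compose as their functions convolve on `GL₂` of the residue field. -/
theorem fibKer_comp {f g h : GL (Fin 2) (Res v) → ℂ} (hf : ScalInv f) (hg : ScalInv g)
    (hh : ScalInv h) (he : ∀ N, (Fintype.card (Res v)ˣ : ℂ)⁻¹ * ∑ M, f M * g (M⁻¹ * N) = h N) :
    (fibKer (S := S) hvS f hf).comp (fibKer hvS g hg) = fibKer hvS h hh := by
  refine LKer.ext' fun a c => ?_
  rw [LKer.comp_eq_sum]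
  by_cases hc : a.out⁻¹ * c.out ∈ U0 (v.valuation F)
  · obtain ⟨N, hN⟩ := exists_fcl_eq hvS a.out hc
    rw [sum_fibre hvS a.out _ _ (fun y hy _ => mem_U0_of_fibKer_ne_zero hvS (LKer.mem_row.1 hy))
      (fun y _ hne => LKer.mem_row.2 (left_ne_zero_of_mul hne))]
    subst hN
    simp only [fibKer_apply]
    rw [show a.out⁻¹ = (((a.out : GL (Fin 2) F) : Vert S v).out)⁻¹ by rw [QuotientGroup.out_eq']]
    simp only [fibFun_fcl hvS hf, fibFun_fcl hvS hh, fibFun_fcl_fcl hvS hg, he]
  · rw [fibKer_apply, fibFun, if_neg hc]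
    refine Finset.sum_eq_zero fun y hy => ?_
    by_contra hne
    refine hc ?_
    have := (U0 _).mul_mem (mem_U0_of_fibKer_ne_zero hvS (LKer.mem_row.1 hy))
      (mem_U0_of_fibKer_ne_zero hvS (right_ne_zero_of_mul hne))
    simpa [mul_assoc] using this

/-- A function with `f (M⁻¹) = conj (f M)` gives a hermitian kernel. -/
lemma fibKer_isHerm {f : GL (Fin 2) (Res v) → ℂ} (hf : ScalInv f) (hh : ∀ M, f M⁻¹ = conj (f M)) :
    (fibKer (S := S) hvS f hf).IsHerm := by
  intro a b
  rw [fibKer_apply, fibKer_apply]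
  by_cases h : a.out⁻¹ * b.out ∈ U0 (v.valuation F)
  · obtain ⟨c, x, hx⟩ := exists_eq_scal_incGL h
    rw [show b.out⁻¹ * a.out = (a.out⁻¹ * b.out)⁻¹ by group, hx, scal_incGL_inv,
      fibFun_scal_incGL hf, fibFun_scal_incGL hf, map_inv, hh]
  · rw [fibFun, if_neg (fun h' => h (by simpa using (U0 _).inv_mem h')), fibFun, if_neg h, map_zero]

omit hvS in
/-- The function of the reduction vanishes outside `U0`. -/
lemma fibFun_eq_zero {f : GL (Fin 2) (Res v) → ℂ} {g : GL (Fin 2) F}
    (h : g ∉ U0 (v.valuation F)) : fibFun v f g = 0 := if_neg h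

end Fermat.LT
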