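import Fermat.Agent.LT.Orbital

/-!
# Cubic base change of orbital functionals

With `Q = q³`, the scaled constant terms of `cubicBC q p` are those of `p` (for `Q`) at the
multiples of `3` and vanish elsewhere.
-/

set_option autoImplicit false
open Polynomial LaurentPolynomial
open scoped LaurentPolynomial

namespace Fermat.LT

/-- `t ↦ t³`. -/
noncomputable def expand3 : ℂ[T;T⁻¹] →ₐ[ℂ] ℂ[T;T⁻¹] :=
  AddMonoidAlgebra.mapDomainAlgHom ℂ ℂ (AddMonoidHom.mulLeft (3 : ℤ))

/-- The coefficients after `t ↦ t³`. -/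
lemma expand3_coeff (f : ℂ[T;T⁻¹]) :
    (∀ k : ℤ, (expand3 f).coeff (3 * k) = f.coeff k) ∧
      ∀ k : ℤ, ¬ (3 : ℤ) ∣ k → (expand3 f).coeff k = 0 := by
  have e : (expand3 f).coeff = Finsupp.mapDomain (fun k : ℤ => 3 * k) f.coeff := rfl
  refine ⟨fun k => ?_, fun k hk => ?_⟩
  · rw [e]; exact Finsupp.mapDomain_apply (fun a b h => by simpa using h) _ k
  · rw [e]
    exact Finsupp.mapDomain_of_notMem_range _ _ (fun ⟨j, hj⟩ => hk ⟨j, hj.symm⟩)

/-- The image of a monomial. -/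
lemma expand3_T (n : ℤ) : expand3 (LaurentPolynomial.T n) = LaurentPolynomial.T (3 * n) :=
  AddMonoidAlgebra.mapDomain_single

/-- The Satake transform of the cubic base change substitutes `t³`. -/
lemma sat_cubicBC_eq (q : ℕ) (p : ℂ[X]) : sat q (cubicBC q p) = expand3 (sat (q ^ 3) p) := by
  rw [sat_cubicBC, sat, ← Polynomial.aeval_algHom_apply]
  congr 2
  rw [map_mul, map_add, LaurentPolynomial.C_eq_algebraMap, AlgHom.commutes]
  rw [expand3_T, expand3_T]
  norm_num

/-- Scaled constant terms after cubic base change are those for `q³` at multiples of `3`, else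
zero. -/
theorem ctil_cubicBC (q : ℕ) (hq : q ≠ 0) (p : ℂ[X]) :
    (∀ k : ℕ, ctil q (kern q (cubicBC q p)) (3 * k) = ctil (q ^ 3) (kern (q ^ 3) p) k) ∧
      ∀ m : ℕ, ¬ 3 ∣ m → ctil q (kern q (cubicBC q p)) m = 0 := by
  set s : ℂ := ((Real.sqrt q : ℝ) : ℂ) with hs
  have hs0 : s ≠ 0 := by
    rw [hs, Ne, Complex.ofReal_eq_zero, Real.sqrt_eq_zero (Nat.cast_nonneg q)]
    exact_mod_cast hq
  have hs3 : ((Real.sqrt (q ^ 3 : ℕ) : ℝ) : ℂ) = s ^ 3 := by
    rw [hs, ← Complex.ofReal_pow]; congr 1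
    rw [Nat.cast_pow, Real.sqrt_eq_iff_eq_sq (by positivity) (by positivity), ← pow_mul,
      mul_comm, pow_mul, Real.sq_sqrt (Nat.cast_nonneg q)]
  constructor
  · intro k
    have h1 := (sat_coeff q (cubicBC q p) (3 * k)).1
    have h2 := (sat_coeff (q ^ 3) p k).1
    rw [sat_cubicBC_eq, Nat.cast_mul, Nat.cast_ofNat, (expand3_coeff _).1, h2, hs3, ← hs,
      ← pow_mul] at h1
    exact (mul_left_cancel₀ (pow_ne_zero _ hs0) h1).symm
  · intro m hm
    have h1 := (sat_coeff q (cubicBC q p) m).1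
    rw [sat_cubicBC_eq, (expand3_coeff _).2 _ (by omega)] at h1
    exact (mul_eq_zero.1 h1.symm).resolve_left (pow_ne_zero _ hs0)

/-- The tail sum as a finite sum. -/
lemma tailSum_eq_sum (q : ℕ) {h : ℕ → ℂ} {D : ℕ} (hD : ∀ m, D < m → h m = 0) (n : ℕ) :
    tailSum q h n = ∑ j ∈ Finset.range (D + 1), ctil q h (n + 2 * (j + 1)) := by
  refine finsum_eq_sum_of_support_subset _ fun j hj => ?_
  simp only [Finset.coe_range, Set.mem_Iio]
  by_contra hlt
  refine hj ?_
  change ctil q h _ = 0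
  rw [ctil, hD _ (by omega), gsum_eq_sum q hD _ 0 (by omega)]
  simp

/-- The recursion of the tail sum. -/
lemma tailSum_rec (q : ℕ) {h : ℕ → ℂ} {D : ℕ} (hD : ∀ m, D < m → h m = 0) (n : ℕ) :
    tailSum q h n = ctil q h (n + 2) + tailSum q h (n + 2) := by
  rw [← gsum_eq_tailSum q hD, ← gsum_eq_tailSum q hD, gsum_rec q hD, ctil]
  ring

/-- The tail sum after cubic base change at `3 n` is that for `q³` at `n`. -/
theorem tailSum_cubicBC (q : ℕ) (hq : q ≠ 0) (p : ℂ[X]) (n : ℕ) :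
    tailSum q (kern q (cubicBC q p)) (3 * n) = tailSum (q ^ 3) (kern (q ^ 3) p) n := by
  set h := kern q (cubicBC q p) with hh
  have hD := kern_eq_zero q (cubicBC q p)
  have hE := kern_eq_zero (q ^ 3) p
  obtain ⟨h1, h2⟩ := ctil_cubicBC q hq p
  have key : ∀ N m, p.natDegree < m + 2 * N →
      tailSum q h (3 * m) = tailSum (q ^ 3) (kern (q ^ 3) p) m + tailSum q h (3 * (m + 2 * N))
        - tailSum (q ^ 3) (kern (q ^ 3) p) (m + 2 * N) := by
    intro N
    induction N with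
    | zero => intro m _; ring_nf
    | succ N ih =>
      intro m hm
      rw [tailSum_rec q hD (3 * m), tailSum_rec q hD (3 * m + 2),
        tailSum_rec q hD (3 * m + 2 + 2), h2 _ (by omega), h2 _ (by omega),
        show 3 * m + 2 + 2 + 2 = 3 * (m + 2) by ring, h1, ih (m + 2) (by omega),
        tailSum_rec _ hE m, show m + 2 + 2 * N = m + 2 * (N + 1) by ring]
      ring
  have z1 : tailSum (q ^ 3) (kern (q ^ 3) p) (n + 2 * (p.natDegree + (cubicBC q p).natDegree + 1))
      = 0 := by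
    rw [tailSum_eq_sum _ hE]
    refine Finset.sum_eq_zero fun j _ => ?_
    rw [ctil, hE _ (by omega), gsum_eq_sum _ hE _ 0 (by omega)]
    simp
  have z2 : tailSum q h (3 * (n + 2 * (p.natDegree + (cubicBC q p).natDegree + 1))) = 0 := by
    rw [tailSum_eq_sum _ hD]
    refine Finset.sum_eq_zero fun j _ => ?_
    rw [ctil, hD _ (by omega), gsum_eq_sum _ hD _ 0 (by omega)]
    simp
  rw [key _ n (by omega : p.natDegree < n + 2 * (p.natDegree + (cubicBC q p).natDegree + 1)),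
    z1, z2]
  ring

/-- The constant term plus the tail sum at `1` is preserved by cubic base change. -/
theorem ctil_add_tailSum_cubicBC (q : ℕ) (hq : q ≠ 0) (p : ℂ[X]) :
    ctil q (kern q (cubicBC q p)) 1 + tailSum q (kern q (cubicBC q p)) 1
      = ctil (q ^ 3) (kern (q ^ 3) p) 1 + tailSum (q ^ 3) (kern (q ^ 3) p) 1 := by
  obtain ⟨h1, h2⟩ := ctil_cubicBC q hq p
  rw [h2 1 (by omega), tailSum_rec q (kern_eq_zero q _) 1,
    show (1 + 2 : ℕ) = 3 * 1 by norm_num, h1, tailSum_cubicBC q hq p 1]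
  ring

end Fermat.LT
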