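import Fermat.Agent.LT.LocExt
import Fermat.Agent.LT.CubicFL

/-!
# Matching of twisted and ordinary orbital sums at an unramified cubic extension

`inert_unit` and `inert_nonunit` match the sums at a unit and at a non-unit norm; `inert_norm`
says that nonzero sums come from local norms.
-/

set_option autoImplicit false
open scoped Matrix Classical
open Polynomial

namespace Fermat.LT

variable {F : Type*} [Field F] {E : Type*} [Field E]
  {v : Valuation F (WithZero (Multiplicative ℤ))} {w : Valuation E (WithZero (Multiplicative ℤ))}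

namespace CycExt

variable (C : CycExt v w) (h3 : v 3 = 1)

include C h3 in
/-- Three is a unit. -/
lemma w_three : w (3 : E) = 1 := by
  rw [← map_ofNat C.ι 3, C.w_eq_one_iff]; exact h3

/-- The mean of the conjugates. -/
noncomputable def avg (r : E) : E := (r + C.s r + C.s (C.s r)) / 3

include h3 in
/-- The mean of the conjugates descends and is as close to an element as its conjugates are. -/
lemma avg_spec {r : E} (hr : w r ≤ 1) :
    (∃ k, C.ι k = C.avg r ∧ v k ≤ 1) ∧ ∀ {b : WithZero (Multiplicative ℤ)},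
      w (C.s r - r) ≤ b → w (C.avg r - r) ≤ b := by
  have hw3 := C.w_three h3
  have h30 : (3 : E) ≠ 0 := fun e => by simp [e] at hw3
  have hfix : C.s (C.avg r) = C.avg r := by
    rw [avg, map_div₀, map_add, map_add, C.hs3, map_ofNat]
    congr 1
    ring
  have hint : w (C.avg r) ≤ 1 := by
    rw [avg, map_div₀, hw3, div_one]
    refine (w.map_add _ _).trans (max_le ((w.map_add _ _).trans (max_le hr ?_)) ?_)
    · rwa [C.hs]
    · rwa [C.hs, C.hs]
  obtain ⟨k, hk⟩ := C.fix _ hfix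
  refine ⟨⟨k, hk, by rwa [← C.w_le_one_iff, hk]⟩, fun {b} h => ?_⟩
  rw [show C.avg r - r = ((C.s r - r) + ((C.s r - r) + C.s (C.s r - r))) / 3 by
    rw [avg, map_sub]; field_simp; ring, map_div₀, hw3, div_one]
  exact (w.map_add _ _).trans (max_le h ((w.map_add _ _).trans (max_le h (by rwa [C.hs]))))

include h3 in
/-- Maximality persists without ramification. -/
theorem maximal_of_unram (he : C.e = 1) (Q : QA v) (r : E) (hr : w r ≤ 1)
    (h2 : w (C.ι Q.t - 2 * r) < 1) :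
    WithZero.exp (-1 : ℤ) ≤ w (r * r - C.ι Q.t * r + C.ι Q.n) := by
  by_contra hlt
  rw [not_le] at hlt
  have hle2 : w (r * r - C.ι Q.t * r + C.ι Q.n) ≤ WithZero.exp (-2 : ℤ) := by
    rcases eq_or_ne (w (r * r - C.ι Q.t * r + C.ι Q.n)) 0 with h | h
    · rw [h]; exact zero_le
    rw [← WithZero.exp_log h, WithZero.exp_lt_exp] at hlt
    rw [← WithZero.exp_log h, WithZero.exp_le_exp]
    omega
  set f : E → E := fun x => x * x - C.ι Q.t * x + C.ι Q.n with hf
  have hsf : f (C.s r) = C.s (f r) := by simp [hf, C.sι]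
  -- the conjugate of `r` is close to `r`, so some `k` of `F` is
  have hd : w (C.s r - r) ≤ WithZero.exp (-1 : ℤ) := by
    refine le_exp_neg_one_iff.2 (lt_of_le_of_ne ((w.map_sub _ _).trans (max_le (by rwa [C.hs]) hr))
      fun hone => ?_)
    have e : w ((C.s r - r) * ((C.s r - r) + -(C.ι Q.t - 2 * r))) = 1 := by
      rw [map_mul, Valuation.map_add_eq_of_lt_left _ (by rwa [Valuation.map_neg, hone]),
        hone, one_mul]
    rw [show (C.s r - r) * ((C.s r - r) + -(C.ι Q.t - 2 * r)) = f (C.s r) - f r by simp [hf]; ring,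
      hsf] at e
    refine e.not_lt (lt_of_le_of_lt (w.map_sub _ _) (max_lt ?_ ?_))
    · rw [C.hs]; exact lt_of_le_of_lt hle2 (by rw [← WithZero.exp_zero, WithZero.exp_lt_exp]; omega)
    · exact lt_of_le_of_lt hle2 (by rw [← WithZero.exp_zero, WithZero.exp_lt_exp]; omega)
  obtain ⟨⟨k, hk, hk1⟩, hkr⟩ := C.avg_spec h3 hr
  have hk2 := hkr hd
  rw [← hk] at hk2
  have hlt1 : WithZero.exp (-1 : ℤ) < (1 : WithZero (Multiplicative ℤ)) := by
    rw [← WithZero.exp_zero, WithZero.exp_lt_exp]; omega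
  have hkr1 : w (C.ι k - r) < 1 := lt_of_le_of_lt hk2 hlt1
  have hkt : w (C.ι k + r - C.ι Q.t) ≤ WithZero.exp (-1 : ℤ) := by
    rw [show C.ι k + r - C.ι Q.t = (C.ι k - r) + -(C.ι Q.t - 2 * r) by ring]
    refine (w.map_add _ _).trans (max_le hk2 ?_)
    rw [Valuation.map_neg]
    exact le_exp_neg_one_iff.2 h2
  -- and `k` contradicts maximality below
  have hfk : w (f (C.ι k)) ≤ WithZero.exp (-2 : ℤ) := by
    rw [show f (C.ι k) = f r + (C.ι k - r) * (C.ι k + r - C.ι Q.t) by simp [hf]; ring]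
    refine (w.map_add _ _).trans (max_le hle2 ?_)
    rw [map_mul]
    exact (mul_le_mul' hk2 hkt).trans (le_of_eq (by rw [← WithZero.exp_add]; norm_num))
  have h2k : v (Q.t - 2 * k) < 1 := by
    rw [← C.w_lt_one_iff, map_sub, map_mul, map_ofNat,
      show C.ι Q.t - 2 * C.ι k = (C.ι Q.t - 2 * r) + ((r - C.ι k) + (r - C.ι k)) by ring]
    refine lt_of_le_of_lt (w.map_add _ _) (max_lt h2 (lt_of_le_of_lt (w.map_add _ _) ?_))
    rw [max_self, ← Valuation.map_neg, neg_sub]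
    exact hkr1
  have h := Q.maximal k hk1 h2k
  rw [show f (C.ι k) = C.ι (k * k - Q.t * k + Q.n) by simp [hf], C.hι, he, pow_one] at hfk
  have hne : v (k * k - Q.t * k + Q.n) ≠ 0 := fun e => by
    rw [e, le_zero_iff] at h; exact WithZero.exp_ne_zero h
  rw [← WithZero.exp_log hne] at h hfk
  rw [WithZero.exp_le_exp] at h hfk
  omega

/-- The extended algebra in the same basis, unramified case. -/
noncomputable def embUnram (he : C.e = 1) (Q : QA v) : Emb C Q where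
  Q' :=
    { t := C.ι Q.t
      n := C.ι Q.n
      ht := (C.w_le_one_iff _).2 Q.ht
      hn := (C.w_le_one_iff _).2 Q.hn
      maximal := C.maximal_of_unram h3 he Q }
  ρ := 1
  r := 0
  hρ := by simp
  ht := mul_one _
  hn := by simp
  hr := Or.inl rfl

include h3 in
/-- Roots of a small norm form in the extension are small. -/
theorem exists_small_root (Q : QA v) {r : E} (hr : w r ≤ 1)
    (hroot : w (r * r + C.ι Q.t * r + C.ι Q.n) < 1) : ∃ k, v k ≤ 1 ∧ w (C.ι k - r) < 1 := by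
  set g : E → E := fun x => x * x + C.ι Q.t * x + C.ι Q.n with hg
  have hs : ∀ x, g (C.s x) = C.s (g x) := fun x => by simp [hg, C.sι]
  set r₁ := C.s r
  set r₂ := C.s r₁
  have h1 : w r₁ ≤ 1 := by rwa [C.hs]
  have h2 : w r₂ ≤ 1 := by rwa [C.hs]
  have hroot1 : w (g r₁) < 1 := by rw [hs, C.hs]; exact hroot
  have hroot2 : w (g r₂) < 1 := by rw [hs, C.hs]; exact hroot1
  -- among three roots two are congruent
  have hor : w (r₁ - r) < 1 ∨ w (r₂ - r) < 1 ∨ w (r₂ - r₁) < 1 := by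
    by_contra hno
    simp only [not_or, not_lt] at hno
    have hone : ∀ {a b : E}, w a ≤ 1 → w b ≤ 1 → (1 : WithZero (Multiplicative ℤ)) ≤ w (a - b) →
        w (g a) < 1 → w (g b) < 1 → w (a + b + C.ι Q.t) < 1 := by
      intro a b ha hb hab hga hgb
      have hd : w (a - b) = 1 := le_antisymm ((w.map_sub _ _).trans (max_le ha hb)) hab
      have : w ((a - b) * (a + b + C.ι Q.t)) < 1 := by
        rw [show (a - b) * (a + b + C.ι Q.t) = g a - g b by simp [hg]; ring]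
        exact lt_of_le_of_lt (w.map_sub _ _) (max_lt hga hgb)
      rwa [map_mul, hd, one_mul] at this
    have e1 := hone h1 hr hno.1 hroot1 hroot
    have e2 := hone h2 hr hno.2.1 hroot2 hroot
    refine absurd ?_ (not_lt.2 hno.2.2)
    rw [show r₂ - r₁ = (r₂ + r + C.ι Q.t) - (r₁ + r + C.ι Q.t) by ring]
    exact lt_of_le_of_lt (w.map_sub _ _) (max_lt e2 e1)
  have hsr : w (C.s r - r) < 1 := by
    rcases hor with h | h | h
    · exact h
    · have h' : w (C.s (r₂ - r)) < 1 := by rwa [C.hs]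
      rw [map_sub, show C.s r₂ = r from C.hs3 r, ← Valuation.map_neg, neg_sub] at h'
      exact h'
    · have h' : w (C.s (C.s r₁ - r₁)) < 1 := by rwa [C.hs]
      rw [map_sub, show C.s (C.s r₁) = r from C.hs3 r] at h'
      have h'' : w (C.s (r - r₂)) < 1 := by rwa [C.hs]
      rwa [map_sub, show C.s r₂ = r from C.hs3 r] at h''
  obtain ⟨⟨k, hk, hk1⟩, hkr⟩ := C.avg_spec h3 hr
  exact ⟨k, hk1, by rw [hk]; exact lt_of_le_of_lt (hkr le_rfl) hsr⟩

end CycExt

namespace Emb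

variable {C : CycExt v w} {Q : QA v} (T : Emb C Q) (h3 : v 3 = 1)

include h3 in
/-- The roots agree. -/
theorem ncard_roots (hρ : T.ρ = 1) : T.Q'.roots.ncard = Q.roots.ncard := by
  have ht : T.Q'.t = C.ι Q.t := by simpa [hρ] using T.ht
  have hn : T.Q'.n = C.ι Q.n := by simpa [hρ] using T.hn
  choose lift hlift1 hlift2 using fun z => exists_resd_eq (v := v) z
  symm
  -- reducing a lift gives a bijection of the root sets
  refine Set.ncard_congr (fun z _ => resd w (C.ι (lift z))) ?_ ?_ ?_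
  · intro z hz
    have hl := (C.w_le_one_iff _).2 (hlift1 z)
    by_contra hno
    have h1 := (T.Q'.v_nm_one_iff hl).2 hno
    rw [← map_one C.ι] at h1
    rw [show T.Q'.nm (C.ι (lift z)) (C.ι 1) = C.ι (Q.nm (lift z) 1) by simp [QA.nm, ht, hn],
      C.w_eq_one_iff, Q.v_nm_one_iff (hlift1 z), hlift2] at h1
    exact h1 hz
  -- injective
  · intro z z' _ _ e
    rw [← hlift2 z, ← hlift2 z', resd_eq_iff (hlift1 z) (hlift1 z'), ← C.w_lt_one_iff, map_sub]
    exact (resd_eq_iff ((C.w_le_one_iff _).2 (hlift1 z)) ((C.w_le_one_iff _).2 (hlift1 z'))).1 e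
  -- surjective: a root upstairs is congruent to some `k` from below
  · intro z hz
    obtain ⟨r, hr, rfl⟩ := exists_resd_eq (v := w) z
    have hroot : w (T.Q'.nm r 1) < 1 :=
      lt_of_le_of_ne (T.Q'.v_nm_le hr (map_one w).le) fun e => (T.Q'.v_nm_one_iff hr).1 e hz
    obtain ⟨k, hk, hkr⟩ := C.exists_small_root h3 Q hr (by simpa [QA.nm, ht, hn] using hroot)
    have hkl : v (lift (resd v k) - k) < 1 := (resd_eq_iff (hlift1 _) hk).1 (hlift2 _)
    have hmem : resd v k ∈ Q.roots := by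
      by_contra hno
      have h1 := (Q.v_nm_one_iff hk).2 hno
      rw [← C.w_eq_one_iff] at h1
      refine h1.not_lt ?_
      rw [show C.ι (Q.nm k 1) = T.Q'.nm r 1 + (C.ι k - r) * (C.ι k + r + C.ι Q.t) by
        simp [QA.nm, ht, hn]; ring]
      refine lt_of_le_of_lt (w.map_add _ _) (max_lt hroot ?_)
      rw [map_mul]
      exact lt_of_le_of_lt
        (mul_le_of_le_one_right' ((w.map_add _ _).trans (max_le ((w.map_add _ _).trans
        (max_le ((C.w_le_one_iff k).2 hk) hr)) ((C.w_le_one_iff _).2 Q.ht)))) hkr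
    refine ⟨resd v k, hmem, (resd_eq_iff ((C.w_le_one_iff _).2 (hlift1 _)) hr).2 ?_⟩
    rw [show C.ι (lift (resd v k)) - r = C.ι (lift (resd v k) - k) +
      (C.ι k - r) by rw [map_sub]; ring]
    exact lt_of_le_of_lt (w.map_add _ _) (max_lt ((C.w_lt_one_iff _).2 hkl) hkr)

/-- The norm of a unit times a power of a small element. -/
lemma norm3_mul_zpow {u : GL (Fin 2) E} (hu : u ∈ T.Q'.ugrp) {y : GL (Fin 2) F} (hyt : y ∈ Q.torus)
    (k : ℤ) : T.twist.norm3 (u * (T.φ y) ^ k) = T.twist.norm3 u * T.φ (y ^ (3 * k)) := by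
  have hφk : (T.φ y) ^ k ∈ T.Q'.torus := T.Q'.torus.zpow_mem (T.φ_torus hyt) k
  have hθk : T.twist.θ ((T.φ y) ^ k) = (T.φ y) ^ k := by rw [map_zpow, T.θ_φ hyt]
  have ht1 := T.Q'.ugrp_le_torus (T.twist.θ_ugrp hu)
  have ht2 := T.Q'.ugrp_le_torus (T.twist.θ_ugrp (T.twist.θ_ugrp hu))
  rw [QA.Twist.norm3, map_mul, map_mul, hθk, hθk, QA.Twist.norm3, map_zpow, zpow_mul]
  set P := (T.φ y) ^ k
  rw [show ((T.φ y ^ (3 : ℤ)) ^ k) = P * P * P by
    rw [← zpow_mul, show (3 : ℤ) * k = k + k + k by ring, zpow_add, zpow_add]]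
  have c1 : P * T.twist.θ u = T.twist.θ u * P := T.Q'.torus_comm hφk ht1
  have c2 : P * T.twist.θ (T.twist.θ u) = T.twist.θ (T.twist.θ u) * P := T.Q'.torus_comm hφk ht2
  calc u * P * (T.twist.θ u * P) * (T.twist.θ (T.twist.θ u) * P)
      = u * (P * T.twist.θ u) * (P * T.twist.θ (T.twist.θ u)) * P := by group
    _ = u * (T.twist.θ u * P) * (T.twist.θ (T.twist.θ u) * P) * P := by rw [c1, c2]
    _ = u * T.twist.θ u * (P * T.twist.θ (T.twist.θ u)) * P * P := by group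
    _ = _ := by rw [c2]; group

variable {ϖ : F} (hϖ : v ϖ = WithZero.exp (-1 : ℤ)) {ϖ' : E} (hϖ' : w ϖ' = WithZero.exp (-1 : ℤ))
  [Finite (IsLocalRing.ResidueField v.valuationSubring)]
  [Finite (IsLocalRing.ResidueField w.valuationSubring)]

local notation "q" => Nat.card (IsLocalRing.ResidueField v.valuationSubring)
local notation "q'" => Nat.card (IsLocalRing.ResidueField w.valuationSubring)

include hϖ h3 in
/-- **Matching at a unit.** At an inert place, for a unit with norm `γ`, the twisted sum of `p`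
equals the orbital sum at `γ` of its cubic base change. -/
theorem inert_unit (he : C.e = 1) (hρ : T.ρ = 1) (hcard : q' = q ^ 3) (h90 : T.twist.H90)
    (hq : Nat.Coprime 3 q) {x : GL (Fin 2) E} (hx : x ∈ T.Q'.ugrp) {c : Eˣ} {γ : GL (Fin 2) F}
    (hγ : γ ∈ Q.ugrp) (hN : T.twist.norm3 x = scal c * T.φ γ)
    (hns : ∀ e : Fˣ, γ ≠ scal e) (p : ℂ[X]) :
    ∑ᶠ i, T.twist.slev hϖ' (kern q' p) x i = Q.osum hϖ (kern q (cubicBC q p)) γ := by
  have hr : T.r = 0 := by
    have := T.hρ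
    rw [hρ, map_one, ← WithZero.exp_zero, WithZero.exp_inj] at this
    omega
  have hlev : ∀ j, T.lev j = j := fun j => by simp [lev, hr, he]
  obtain ⟨d, hd⟩ := QA.exists_depth hγ hns
  have hd' : ∀ m, T.twist.norm3 x ∈ T.Q'.levG m ↔ m ≤ d := fun m => by
    rw [T.norm3_mem_iff hγ hN, hlev, hd]
  have hq0 : q ≠ 0 := Nat.card_pos.ne'
  rw [T.twist.orbital_unit hϖ' (C.w_three h3) (by rw [hcard]; exact hq.pow_right 3) hx
      (h90.sol1 hx) hd' (kern_eq_zero q' p),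
    QA.osum_unit hϖ hγ hd (kern_eq_zero q (cubicBC q p))]
  obtain ⟨hc, -⟩ := ctil_cubicBC q hq0 p
  have hg : (T.Q'.g1 : ℂ) - ((q' : ℂ) - 1) = (Q.g1 : ℂ) - ((q : ℂ) - 1) := by
    have e1 := congrArg (Nat.cast : ℕ → ℂ) T.Q'.g1_eq
    have e2 := congrArg (Nat.cast : ℕ → ℂ) Q.g1_eq
    push_cast at e1 e2
    rw [T.ncard_roots h3 hρ] at e1
    linear_combination e1 - e2
  rw [hg, gsum_eq_tailSum q' (kern_eq_zero q' p), gsum_eq_tailSum q (kern_eq_zero q _),
    show ctil q' (kern q' p) 0 = ctil q (kern q (cubicBC q p)) 0 by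
      rw [hcard]; exact (hc 0).symm,
    show tailSum q' (kern q' p) 0 = tailSum q (kern q (cubicBC q p)) 0 by
      rw [hcard]; exact (tailSum_cubicBC q hq0 p 0).symm]
  congr 3
  refine Finset.sum_congr rfl fun m hm => ?_
  rw [T.relIndex_base, hlev]
  obtain ⟨k, rfl⟩ : ∃ k, m = k + 1 := ⟨m - 1, by rw [Finset.mem_Icc] at hm; omega⟩
  rw [Q.natCard_UQ_succ hϖ, Nat.add_sub_cancel]

omit [Finite (IsLocalRing.ResidueField v.valuationSubring)]
    [Finite (IsLocalRing.ResidueField w.valuationSubring)] in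
/-- A generator seen over the extension. -/
lemma isPrim_φ_one (he : C.e = 1) (hρ : T.ρ = 1) {y : GL (Fin 2) F} {a : F} (hy : Q.IsPrim y a 1) :
    T.Q'.IsPrim (T.φ y) (C.ι a) 1 := by
  obtain ⟨-, ha, hn, c, hc⟩ := hy
  refine ⟨le_rfl, (C.w_le_one_iff a).2 ha, ?_, Units.map (C.ι : F →* E) c, ?_⟩
  · have := T.nm_φ a 1
    rw [hρ, map_one, mul_one] at this
    rw [this, C.hι, hn, he, pow_one]
  · rw [← T.φ_scal, ← map_mul, T.φ_mat hc, hρ, map_one, mul_one]

include hϖ h3 in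
/-- Exponents of non-units: the norm of `u φ(y)^k` is a unit times `y^(3k)`. -/
theorem inert_decomp (he : C.e = 1) (hρ : T.ρ = 1) {x : GL (Fin 2) E} (hxt : x ∈ T.Q'.torus)
    (hx : x ∉ T.Q'.ugrp) {c : Eˣ} {γ : GL (Fin 2) F} (hγ : γ ∈ Q.torus)
    (hN : T.twist.norm3 x = scal c * T.φ γ) :
    ∃ (a : F) (y : GL (Fin 2) F) (k : ℤ), y ∈ Q.torus ∧ Q.IsPrim y a 1 ∧
      γ * (y ^ (3 * k))⁻¹ ∈ Q.ugrp ∧ x * ((T.φ y) ^ k)⁻¹ ∈ T.Q'.ugrp := by
  have hne : Q.roots.Nonempty := by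
    rcases QA.mem_ugrp_or_isPrim hxt with h | ⟨a', m, h⟩
    · exact absurd h hx
    · have hpos : 0 < T.Q'.roots.ncard := (Set.ncard_pos (Set.toFinite _)).2 ⟨_, h.root⟩
      rw [T.ncard_roots h3 hρ] at hpos
      exact (Set.ncard_pos (Set.toFinite _)).1 hpos
  obtain ⟨r, hr⟩ := hne
  obtain ⟨a, y, hyt, hy⟩ := QA.exists_gen_torus hϖ hr
  obtain ⟨ϖ₀, hϖ₀⟩ : ∃ z : E, w z = WithZero.exp (-1 : ℤ) :=
    ⟨C.ι ϖ, by rw [C.hι, hϖ, he, pow_one]⟩
  obtain ⟨k, hk⟩ := (T.isPrim_φ_one he hρ hy).generates hϖ₀ (T.φ_torus hyt) hxt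
  refine ⟨a, y, k, hyt, hy, ?_, hk⟩
  set u := x * ((T.φ y) ^ k)⁻¹ with hu
  obtain ⟨d, δ, hδ, hd⟩ := T.exists_norm3 hk
  have hN' : T.twist.norm3 x = T.twist.norm3 u * T.φ (y ^ (3 * k)) := by
    rw [← T.norm3_mul_zpow hk hyt, hu, inv_mul_cancel_right]
  rw [hN, hd] at hN'
  have e : T.φ (γ * (δ * y ^ (3 * k))⁻¹) = scal (c⁻¹ * d) := by
    rw [map_mul, map_inv, map_mul, show T.φ γ = scal (c⁻¹ * d) * (T.φ δ * T.φ (y ^ (3 * k))) by
      rw [scal_mul, show (scal c⁻¹ : GL (Fin 2) E) = (scal c)⁻¹ from map_inv _ _, mul_assoc,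
        eq_inv_mul_iff_mul_eq, hN', mul_assoc], mul_inv_cancel_right]
  have hmem : γ * (δ * y ^ (3 * k))⁻¹ ∈ Q.ugrp := by
    rw [← T.φ_mem_ugrp_iff (Q.torus.mul_mem hγ (Q.torus.inv_mem (Q.torus.mul_mem
      (Q.ugrp_le_torus hδ) (Q.torus.zpow_mem hyt _)))), e]
    exact scal_mem_withScalars _ _
  have := Q.ugrp.mul_mem hmem hδ
  rwa [mul_inv_rev, ← mul_assoc, inv_mul_cancel_right] at this

include hϖ h3 in
/-- **Matching at a non-unit.** At an inert place, for a non-unit with norm `γ`, the twisted sum of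
`p` equals the orbital sum at `γ` of its cubic base change. -/
theorem inert_nonunit (he : C.e = 1) (hρ : T.ρ = 1) (hcard : q' = q ^ 3)
    {x : GL (Fin 2) E} (hxt : x ∈ T.Q'.torus) (hx : x ∉ T.Q'.ugrp) {c : Eˣ} {γ : GL (Fin 2) F}
    (hγ : γ ∈ Q.torus) (hN : T.twist.norm3 x = scal c * T.φ γ) (p : ℂ[X]) :
    ∑ᶠ i, T.twist.slev hϖ' (kern q' p) x i = Q.osum hϖ (kern q (cubicBC q p)) γ := by
  obtain ⟨a, y, k, hyt, hy, hγy, hxy⟩ := T.inert_decomp h3 hϖ he hρ hxt hx hγ hN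
  have hy' := T.isPrim_φ_one he hρ hy
  obtain ⟨b', m', hx'⟩ := (QA.mem_ugrp_or_isPrim hxt).resolve_left hx
  have hL : ∑ᶠ i, T.twist.slev hϖ' (kern q' p) x i = T.Q'.osum hϖ' (kern q' p) x := by
    refine finsum_congr fun i => ?_
    have : Finite (T.Q'.UQ i) := QA.finite_UQ hϖ' i
    let _ := Fintype.ofFinite (T.Q'.UQ i)
    rw [QA.Twist.slev, finsum_eq_sum_of_fintype, Finset.sum_congr rfl (g := fun _ =>
      kern q' p (T.Q'.dlvl hϖ' i x)) fun u _ => ?_, Finset.sum_const, Finset.card_univ,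
      ← Nat.card_eq_fintype_card, nsmul_eq_mul]
    obtain ⟨b'', hb''⟩ := hx'.mul_unit hϖ' hxt
      (T.Q'.ugrp.mul_mem (T.Q'.ugrp.inv_mem u.out.2) (T.twist.θ_ugrp u.out.2))
    rw [QA.dlvl, QA.dlvl, hx'.lvl_eq hϖ']
    congr 1
    exact hb''.lvl_eq hϖ' i i
  have hlx : lvl w x = lvl w ((T.φ y) ^ k) := by
    conv_lhs => rw [← inv_mul_cancel_right x ((T.φ y) ^ k)]
    rw [lvl_mul_left w (T.Q'.ugrp_le_U0 hxy)]
  have hlγ : lvl v γ = lvl v (y ^ (3 * k)) := by
    conv_lhs => rw [← inv_mul_cancel_right γ (y ^ (3 * k))]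
    rw [lvl_mul_left v (Q.ugrp_le_U0 hγy)]
  have hq0 : q ≠ 0 := Nat.card_pos.ne'
  obtain ⟨hc1, -⟩ := ctil_cubicBC q hq0 p
  rw [hL, QA.osum_nonunit hϖ' hx' (kern_eq_zero q' p)]
  -- `γ` is not a unit
  rcases lt_or_eq_of_le hy.v_two_mul_add_le with h2 | h2
  · -- one root
    have h2' : w (2 * C.ι a + T.Q'.t) < 1 := by
      have : w (C.ι (2 * a + Q.t)) < 1 := (C.w_lt_one_iff _).2 h2
      rw [show T.Q'.t = C.ι Q.t by simpa [hρ] using T.ht]
      simpa only [map_add, map_mul, map_ofNat] using this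
    have hsq : ∀ (j : ℤ), ((T.φ y) * (T.φ y)) ^ j ∈ T.Q'.ugrp := fun j =>
      T.Q'.ugrp.zpow_mem (hy'.sq_mem hϖ' h2') j
    obtain ⟨j, rfl | rfl⟩ : ∃ j, k = 2 * j ∨ k = 2 * j + 1 := ⟨k / 2, by omega⟩
    · exfalso
      refine hx ?_
      have h := T.Q'.ugrp.mul_mem hxy (hsq j)
      rwa [show (T.φ y * T.φ y) ^ j = T.φ y ^
        (2 * j) by rw [zpow_mul, zpow_two], inv_mul_cancel_right] at h
    · have hm : m' = 1 := by
        rw [← hx'.lvl_self hϖ', hlx, zpow_add, zpow_mul, zpow_two, zpow_one,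
          lvl_mul_left w (T.Q'.ugrp_le_U0 (hsq j)), hy'.lvl_self hϖ']
      have hγlvl : lvl v γ = 1 := by
        rw [hlγ, show 3 * (2 * j + 1) = 2 * (3 * j + 1) + 1 by ring, zpow_add, zpow_mul, zpow_two,
          zpow_one, lvl_mul_left v (Q.ugrp_le_U0 (Q.ugrp.zpow_mem (hy.sq_mem hϖ h2) _)),
            hy.lvl_self hϖ]
      have hγu : γ ∉ Q.ugrp := fun h => by
        rw [(lvl_eq_zero_iff v γ).2 (Q.ugrp_le_U0 h)] at hγlvl; omega
      obtain ⟨b, m, hγp⟩ := (QA.mem_ugrp_or_isPrim hγ).resolve_left hγu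
      rw [QA.osum_nonunit hϖ hγp (kern_eq_zero q _),
        show m = 1 by rw [← hγp.lvl_self hϖ, hγlvl], hm]
      have g1 : (Q.g1 : ℂ) = q := by
        have := Q.g1_eq
        rw [QA.roots_one hy h2] at this
        rw [show Q.g1 = q by omega]
      have g1' : (T.Q'.g1 : ℂ) = q' := by
        have := T.Q'.g1_eq
        rw [QA.roots_one hy' h2'] at this
        rw [show T.Q'.g1 = q' by omega]
      have key := ctil_add_tailSum_cubicBC q hq0 p
      rw [← hcard] at key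
      rw [← gsum_eq_tailSum q (kern_eq_zero q _), ← gsum_eq_tailSum q' (kern_eq_zero q' p),
        ctil, ctil] at key
      rw [g1, g1']
      linear_combination -key
  · -- two roots
    have h2' : w (2 * C.ι a + T.Q'.t) = 1 := by
      have : w (C.ι (2 * a + Q.t)) = 1 := (C.w_eq_one_iff _).2 h2
      rw [show T.Q'.t = C.ι Q.t by simpa [hρ] using T.ht]
      simpa only [map_add, map_mul, map_ofNat] using this
    have hm : m' = k.natAbs := by rw [← hx'.lvl_self hϖ', hlx, hy'.lvl_zpow hϖ' h2']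
    have hγlvl : lvl v γ = 3 * k.natAbs := by
      rw [hlγ, hy.lvl_zpow hϖ h2, Int.natAbs_mul]; rfl
    have hγu : γ ∉ Q.ugrp := fun h => by
      rw [(lvl_eq_zero_iff v γ).2 (Q.ugrp_le_U0 h)] at hγlvl
      have := hx'.1
      omega
    obtain ⟨b, m, hγp⟩ := (QA.mem_ugrp_or_isPrim hγ).resolve_left hγu
    rw [QA.osum_nonunit hϖ hγp (kern_eq_zero q _),
      show m = 3 * k.natAbs by rw [← hγp.lvl_self hϖ, hγlvl], hm]
    have g1 : (Q.g1 : ℂ) = (q : ℂ) - 1 := by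
      have := Q.g1_eq
      rw [QA.roots_two hy h2] at this
      rw [eq_sub_iff_add_eq, ← Nat.cast_one, ← Nat.cast_add, show Q.g1 + 1 = q by omega]
    have g1' : (T.Q'.g1 : ℂ) = (q' : ℂ) - 1 := by
      have := T.Q'.g1_eq
      rw [QA.roots_two hy' h2'] at this
      rw [eq_sub_iff_add_eq, ← Nat.cast_one, ← Nat.cast_add, show T.Q'.g1 + 1 = q' by omega]
    rw [g1, g1']
    change ctil q' (kern q' p) k.natAbs = ctil q (kern q (cubicBC q p)) (3 * k.natAbs)
    rw [hc1, hcard]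

include hϖ hϖ' h3 in
/-- **Non-vanishing orbital sums are local norms.** -/
theorem inert_norm (hcard : q' = q ^ 3) (h90 : T.twist.H90)
    (hq : Nat.Coprime 3 q) {γ : GL (Fin 2) F} (hγ : γ ∈ Q.torus) (p : ℂ[X])
    (hne : Q.osum hϖ (kern q (cubicBC q p)) γ ≠ 0) (m : ℕ) :
    ∃ z ∈ T.Q'.torus, (T.φ γ)⁻¹ * T.twist.norm3 z ∈ T.Q'.levG m := by
  obtain ⟨y, k, hyt, hk⟩ : ∃ (y : GL (Fin 2) F) (k : ℤ),
      y ∈ Q.torus ∧ γ * (y ^ (3 * k))⁻¹ ∈ Q.ugrp := by
    rcases QA.mem_ugrp_or_isPrim hγ with h | ⟨b, n, hγp⟩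
    · exact ⟨1, 0, Q.torus.one_mem, by simpa using h⟩
    obtain ⟨a, y, hyt, hy⟩ := QA.exists_gen_torus hϖ hγp.root
    obtain ⟨j, hj⟩ := hy.generates hϖ hyt hγ
    refine ⟨y, ?_⟩
    rcases lt_or_eq_of_le hy.v_two_mul_add_le with h2 | h2
    · -- squares are units
      refine ⟨j, hyt, ?_⟩
      rw [show γ * (y ^ (3 * j))⁻¹ = γ * (y ^ j)⁻¹ * ((y * y) ^ j)⁻¹ by
        rw [← zpow_two, ← zpow_mul, mul_assoc, ← mul_inv_rev, ← zpow_add]; ring_nf]
      exact Q.ugrp.mul_mem hj (Q.ugrp.inv_mem (Q.ugrp.zpow_mem (hy.sq_mem hϖ h2) _))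
    · -- the order is divisible by three
      have hn : n = j.natAbs := by
        rw [← hγp.lvl_self hϖ]
        conv_lhs => rw [← inv_mul_cancel_right γ (y ^ j)]
        rw [lvl_mul_left v (Q.ugrp_le_U0 hj), hy.lvl_zpow hϖ h2]
      have g1 : (Q.g1 : ℂ) = (q : ℂ) - 1 := by
        have := Q.g1_eq
        rw [QA.roots_two hy h2] at this
        rw [eq_sub_iff_add_eq, ← Nat.cast_one, ← Nat.cast_add, show Q.g1 + 1 = q by omega]
      rw [QA.osum_nonunit hϖ hγp (kern_eq_zero q _), g1] at hne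
      have h3n : 3 ∣ n := by
        by_contra hd
        exact hne ((ctil_cubicBC q Nat.card_pos.ne' p).2 n hd)
      obtain ⟨k, rfl⟩ : (3 : ℤ) ∣ j := Int.natCast_dvd.2 (hn ▸ h3n)
      exact ⟨k, hyt, hj⟩
  obtain ⟨z, hz, hzm⟩ := T.twist.exists_norm hϖ' h90 (C.w_three h3)
    (by rw [hcard]; exact hq.pow_right 3) m (g := T.φ (γ * (y ^ (3 * k))⁻¹))
    (T.mem_base_iff.2 ⟨1, _, hk, by simp [scal]⟩)
  refine ⟨z * (T.φ y) ^ k, T.Q'.torus.mul_mem (T.Q'.ugrp_le_torus hz)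
    (T.Q'.torus.zpow_mem (T.φ_torus hyt) k), ?_⟩
  rw [T.norm3_mul_zpow hz hyt]
  rw [map_mul, map_inv, mul_inv_rev, inv_inv] at hzm
  set P := T.φ (y ^ (3 * k))
  have hP : P ∈ T.Q'.torus := T.φ_torus (Q.torus.zpow_mem hyt _)
  have hA := T.Q'.torus.inv_mem (T.φ_torus hγ)
  have hNz : T.twist.norm3 z ∈ T.Q'.torus := T.Q'.ugrp_le_torus (T.twist.normU ⟨z, hz⟩).2
  rwa [T.Q'.torus_comm hNz hP, ← mul_assoc, T.Q'.torus_comm hA hP]

end Emb

end Fermat.LT
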