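import Fermat.Agent.LT.RamKer

/-!
# The descent statement (cubic, tame, supercuspidal at a split place)

`DescentStatement`: a form on the cubic extension `L` with the properties in `DescentData` descends
to a form on `K` (`DescentConclusion`). It is proved in `LT/Sys/Proved` by comparing traces; the
hypotheses are met by the theta form (`LT/Theta/Main`), and both are combined in `LT3/Main/Main`.
-/

set_option autoImplicit false
open NumberField

namespace Fermat.LT

variable (K L : Type*) [Field K] [NumberField K] [Field L] [NumberField L] [Algebra K L]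

/-- `w` lies over `v`. -/
def LiesOver (w : Place L) (v : Place K) : Prop :=
  w.asIdeal.under (𝓞 K) = v.asIdeal

/-- Places of `K` ramified in `L`. -/
def ramSet : Set (Place K) :=
  {v | ∃ w : Place L, LiesOver K L w v ∧
    Ideal.map (algebraMap (𝓞 K) (𝓞 L)) v.asIdeal ≤ w.asIdeal ^ 2}

/-- Places of `L` over `v`. -/
def placesOver (v : Place K) : Set (Place L) := {w | LiesOver K L w v}

/-- The hypotheses of the descent from `L` to `K`. -/
structure DescentData (v3 : Place K) (lam : Place L → ℝ) : Prop where
  /-- `L/ℚ` is Galois. -/
  galois : IsGalois ℚ L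
  /-- `K` is totally complex. -/
  totallyComplexK : IsTotallyComplex K
  /-- `L/K` has degree three. -/
  degree : Module.finrank K L = 3
  /-- `v3` has norm three. -/
  norm_v3 : pnorm v3 = 3
  /-- `v3` is fixed by the automorphisms of `K`. -/
  v3_fixed : ∀ g : K ≃+* K, mapPlace g v3 = v3
  /-- `v3` has three places over it in `L`. -/
  split : (placesOver K L v3).ncard = 3
  /-- `v3` is the only place of `K` over `3`. -/
  only3 : ∀ v : Place K, (3 : 𝓞 K) ∈ v.asIdeal → v = v3
  /-- `K` contains a primitive cube root of unity. -/
  zeta3 : ∃ ζ : K, IsPrimitiveRoot ζ 3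
  /-- Infinitely many places have a degree one place over them with nonzero eigenvalue. -/
  nonvanishing : {v : Place K | ∃ w : Place L, LiesOver K L w v ∧ pnorm w = pnorm v ∧
    lam w ≠ 0}.Infinite
  /-- The eigenvalues off `v3` are invariant under the automorphisms of `L`. -/
  invariant : ∀ (g : L ≃+* L), ∀ w ∉ placesOver K L v3, lam (mapPlace g w) = lam w
  /-- The form on `L`, with the cuspidal type at the places over `v3`. -/
  form : ∃ Φ, IsForm (placesOver K L v3) (placesOver K L v3) lam Φ

/-- Conclusion of the descent: a form on `K`, with level `{v3} ∪ ramSet`, fixed by `ramKer` at the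
ramified places, whose Hecke eigenvalues lift to `lam` and are stable under the
automorphisms of `K`. -/
def DescentConclusion (v3 : Place K) (lam : Place L → ℝ) : Prop :=
  ∃ (lamK : Place K → ℝ) (Φ : Pt K (insert v3 (ramSet K L)) → ℂ),
    IsForm (insert v3 (ramSet K L)) {v3} lamK Φ ∧
    (∀ (v : Place K) (hv : v ∈ ramSet K L) (p : Pt K (insert v3 (ramSet K L))),
      locAct v (ramKer v (Set.mem_insert_of_mem v3 hv)) Φ p = Φ p) ∧
    (∀ v ∉ insert v3 (ramSet K L), ∀ w : Place L, LiesOver K L w v →
      (pnorm w = pnorm v → lam w = lamK v) ∧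
      (pnorm w ≠ pnorm v → lam w = lamK v ^ 3 - 3 * (pnorm v : ℝ) * lamK v)) ∧
    ∀ (g : K ≃+* K), ∀ v ∉ insert v3 (ramSet K L), lamK (mapPlace g v) = lamK v

/-- Statement of the descent theorem: `DescentData` implies `DescentConclusion` (proved in
`LT/Sys/Proved.lean`). -/
def DescentStatement : Prop :=
  ∀ (v3 : Place K) (lam : Place L → ℝ), DescentData K L v3 lam → DescentConclusion K L v3 lam

end Fermat.LT
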