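import Fermat.Agent.LT.LocRam
import Fermat.Agent.LT.LocInert
import Fermat.Agent.LT.FibKer
import Fermat.Agent.LT.Statement
import Fermat.Agent.LT.AutAct

/-!
# The places of a cyclic cubic extension

Splitting trichotomy, valuations, and the local cyclic extension at a fixed place.
-/

set_option autoImplicit false
open IsDedekindDomain NumberField
open scoped Classical Pointwise

namespace Fermat.LT

variable {K L : Type} [Field K] [NumberField K] [Field L] [NumberField L] [Algebra K L]

/-- Ramification index of `w` over `v`. -/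
noncomputable def ramE (v : Place K) (w : Place L) : ℕ := v.asIdeal.ramificationIdx' w.asIdeal

omit [NumberField K] [NumberField L] in
/-- A place lying over another, as a relation between the primes. -/
lemma LiesOver.inst {v : Place K} {w : Place L} (h : LiesOver K L w v) :
    w.asIdeal.LiesOver v.asIdeal := ⟨Eq.symm h⟩

omit [NumberField K] in
/-- The ramification index is not zero. -/
lemma LiesOver.ramE_ne_zero {v : Place K} {w : Place L} (h : LiesOver K L w v) : ramE v w ≠ 0 := by
  have := h.inst
  exact Ideal.IsDedekindDomain.ramificationIdx'_ne_zero_of_liesOver w.asIdeal v.ne_bot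

/-- Valuations on the small field. -/
lemma LiesOver.valuation_algebraMap {v : Place K} {w : Place L} (h : LiesOver K L w v) (x : K) :
    w.valuation L (algebraMap K L x) = v.valuation K x ^ ramE v w := by
  have := h.inst
  exact (HeightOneSpectrum.valuation_liesOver L v w x).symm

omit [NumberField K] [NumberField L] in
/-- The place below is unique. -/
lemma LiesOver.unique {v v' : Place K} {w : Place L} (h : LiesOver K L w v)
    (h' : LiesOver K L w v') : v = v' := HeightOneSpectrum.ext (Eq.trans (Eq.symm h) h')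

/-- The place below. -/
noncomputable def below (K : Type) {L : Type} [Field K] [NumberField K] [Field L] [NumberField L]
    [Algebra K L] (w : Place L) : Place K :=
  ⟨w.asIdeal.under (𝓞 K), Ideal.IsPrime.under _ _, fun h => w.ne_bot
    (Ideal.eq_bot_of_comap_eq_bot h)⟩

/-- Every place lies over its restriction. -/
lemma liesOver_below (w : Place L) : LiesOver K L w (below K w) := rfl

/-- Lying over means restricting to. -/
lemma liesOver_iff_below {w : Place L} {v : Place K} : LiesOver K L w v ↔ below K w = v :=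
  ⟨fun h => (liesOver_below w).unique h, fun h => h ▸ liesOver_below w⟩

omit [NumberField L] in
/-- Every place has a place above it. -/
lemma exists_liesOver (v : Place K) : ∃ w : Place L, LiesOver K L w v := by
  obtain ⟨P, hP, hPv⟩ := Ideal.exists_maximal_ideal_liesOver_of_isIntegral (S := 𝓞 L) v.asIdeal
  refine ⟨⟨P, hP.isPrime, fun h => v.ne_bot ?_⟩, Eq.symm hPv.over⟩
  rw [hPv.over, h, Ideal.under_bot]

omit [NumberField K] [NumberField L] in
/-- The image of a place corresponds to the translate of its prime ideal. -/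
lemma mapPlace_asIdeal_eq (σ : L ≃ₐ[K] L) (w : Place L) :
    (mapPlace (σ : L ≃+* L) w).asIdeal = σ • w.asIdeal := by
  ext a
  rw [Ideal.mem_pointwise_smul_iff_inv_smul_mem, ← mapPlace_asIdeal (σ : L ≃+* L) w]
  refine iff_of_eq (congrArg (· ∈ _) (RingOfIntegers.ext ?_))
  change (a : L) = σ (σ⁻¹ (a : L))
  exact (σ.apply_symm_apply _).symm

omit [NumberField K] [NumberField L] in
/-- Automorphisms over `K` permute the places over `v`. -/
lemma LiesOver.mapPlace (σ : L ≃ₐ[K] L) {v : Place K} {w : Place L} (h : LiesOver K L w v) :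
    LiesOver K L (mapPlace (σ : L ≃+* L) w) v := by
  refine Eq.trans ?_ h
  rw [mapPlace_asIdeal_eq]
  exact Ideal.under_smul _ _ _

omit [NumberField K] [NumberField L] in
/-- The action on places is multiplicative. -/
lemma mapPlace_mul (σ τ : L ≃ₐ[K] L) (w : Place L) :
    mapPlace ((σ * τ : L ≃ₐ[K] L) : L ≃+* L) w = mapPlace (σ : L ≃+* L)
      (mapPlace (τ : L ≃+* L) w) :=
  HeightOneSpectrum.ext (by simp only [mapPlace_asIdeal_eq, mul_smul])

omit [NumberField K] [NumberField L] in
/-- The identity fixes places. -/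
lemma mapPlace_one (w : Place L) : mapPlace ((1 : L ≃ₐ[K] L) : L ≃+* L) w = w :=
  HeightOneSpectrum.ext (by rw [mapPlace_asIdeal_eq, one_smul])

/-- The places over `v` as primes over its ideal. -/
noncomputable def placesOverEquiv (v : Place K) :
    placesOver K L v ≃ v.asIdeal.primesOver (𝓞 L) where
  toFun w := ⟨w.1.asIdeal, w.1.isPrime, LiesOver.inst w.2⟩
  invFun P :=
    ⟨⟨P.1, P.2.1, fun h => v.ne_bot (by rw [P.2.2.over, h, Ideal.under_bot])⟩, Eq.symm P.2.2.over⟩
  left_inv _ := rfl
  right_inv _ := rfl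

variable (K L) in
/-- `σ` generates the Galois group of a cubic extension. -/
structure Cyc3 (σ : L ≃ₐ[K] L) : Prop where
  /-- `L/K` is Galois. -/
  galois : IsGalois K L
  /-- `L/K` has degree three. -/
  degree : Module.finrank K L = 3
  /-- `σ` is not the identity. -/
  ne_one : σ ≠ 1

namespace Cyc3

variable {σ : L ≃ₐ[K] L} (hc : Cyc3 K L σ)
include hc

/-- The group has order three. -/
lemma natCard : Nat.card (L ≃ₐ[K] L) = 3 := by
  have := hc.galois
  rw [IsGalois.card_aut_eq_finrank, hc.degree]

/-- The generator has cube one. -/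
lemma pow_three : σ ^ 3 = 1 := by
  rw [← hc.natCard]; exact pow_card_eq_one'

/-- The Galois group of a cyclic cubic extension is `1, σ, σ²`. -/
lemma mem_cases (g : L ≃ₐ[K] L) : g = 1 ∨ g = σ ∨ g = σ * σ := by
  have : Fact (Nat.Prime 3) := ⟨Nat.prime_three⟩
  have h : g ∈ Subgroup.zpowers σ := mem_zpowers_of_prime_card hc.natCard hc.ne_one
  obtain ⟨k, rfl⟩ := h
  have hk : σ ^ k = σ ^ (k % 3) := zpow_eq_zpow_emod k (by simpa using hc.pow_three)
  dsimp only
  rcases (show k % 3 = 0 ∨ k % 3 = 1 ∨ k % 3 = 2 by omega) with h | h | h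
  · exact Or.inl (by rw [hk, h, zpow_zero])
  · exact Or.inr (Or.inl (by rw [hk, h, zpow_one]))
  · exact Or.inr (Or.inr (by rw [hk, h, zpow_two]))

/-- The generator applied three times is the identity. -/
lemma apply_three (x : L) : σ (σ (σ x)) = x := by
  have h := congrArg (fun g : L ≃ₐ[K] L => g x) hc.pow_three
  simpa [pow_succ, AlgEquiv.mul_apply] using h

/-- Fixed elements come from below. -/
lemma fix {x : L} (hx : σ x = x) : ∃ y, algebraMap K L y = x := by
  have := hc.galois
  refine (IsGalois.mem_range_algebraMap_iff_fixed x).2 fun g => ?_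
  rcases hc.mem_cases g with rfl | rfl | rfl <;> simp [hx]

/-- The generator applied three times fixes places. -/
lemma mapPlace_three (w : Place L) :
    mapPlace (σ : L ≃+* L) (mapPlace (σ : L ≃+* L) (mapPlace (σ : L ≃+* L) w)) = w := by
  rw [← mapPlace_mul, ← mapPlace_mul,
    show σ * σ * σ = σ ^ 3 by simp [pow_succ], hc.pow_three, mapPlace_one]

/-- Transitivity. -/
lemma eq_or_eq_mapPlace {v : Place K} {w w' : Place L} (h : LiesOver K L w v)
    (h' : LiesOver K L w' v) :
    w' = w ∨ w' = mapPlace (σ : L ≃+* L) w ∨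
      w' = mapPlace (σ : L ≃+* L) (mapPlace (σ : L ≃+* L) w) := by
  have := hc.galois
  have := h.inst
  have := h'.inst
  obtain ⟨g, hg⟩ := Ideal.exists_smul_eq_of_isGaloisGroup v.asIdeal w.asIdeal w'.asIdeal (L ≃ₐ[K] L)
  have e : w' = mapPlace (g : L ≃+* L) w := HeightOneSpectrum.ext (by rw [mapPlace_asIdeal_eq, hg])
  rcases hc.mem_cases g with rfl | rfl | rfl
  · exact Or.inl (by rw [e, mapPlace_one])
  · exact Or.inr (Or.inl e)
  · exact Or.inr (Or.inr (by rw [e, mapPlace_mul]))

/-- The places over `v` are the conjugates of any one of them. -/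
lemma placesOver_eq {v : Place K} {w : Place L} (h : LiesOver K L w v) :
    placesOver K L v = {w, mapPlace (σ : L ≃+* L) w,
      mapPlace (σ : L ≃+* L) (mapPlace (σ : L ≃+* L) w)} := by
  ext w'
  refine ⟨fun h' => by simpa using hc.eq_or_eq_mapPlace h h', ?_⟩
  rintro (rfl | rfl | rfl)
  exacts [h, h.mapPlace σ, (h.mapPlace σ).mapPlace σ]

/-- Finitely many places lie over one. -/
lemma finite_placesOver (v : Place K) : (placesOver K L v).Finite := by
  obtain ⟨w, hw⟩ := exists_liesOver (L := L) v
  rw [hc.placesOver_eq hw]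
  simp

/-- **Trichotomy.** A place over `v` is one of three moved by `σ`, or the only one and then totally
ramified or inert. -/
theorem trichotomy {v : Place K} {w : Place L} (h : LiesOver K L w v) :
    ((placesOver K L v).ncard = 3 ∧ ramE v w = 1 ∧ pnorm w = pnorm v ∧
      mapPlace (σ : L ≃+* L) w ≠ w) ∨
    ((placesOver K L v).ncard = 1 ∧ mapPlace (σ : L ≃+* L) w = w ∧
      ((ramE v w = 3 ∧ pnorm w = pnorm v) ∨ (ramE v w = 1 ∧ pnorm w = pnorm v ^ 3))) := by
  have := hc.galois
  have := h.inst
  -- the identity `g e f = 3`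
  have hid :=
    Ideal.ncard_primesOver_mul_ramificationIdxIn_mul_inertiaDegIn v.asIdeal (𝓞 L) (L ≃ₐ[K] L)
  rw [hc.natCard, Ideal.ramificationIdxIn_eq_ramificationIdx v.asIdeal w.asIdeal (L ≃ₐ[K] L),
    Ideal.inertiaDegIn_eq_inertiaDeg v.asIdeal w.asIdeal (L ≃ₐ[K] L),
    ← Ideal.ramificationIdx'_eq_ramificationIdx v.asIdeal w.asIdeal v.ne_bot,
    ← Ideal.inertiaDeg'_eq_inertiaDeg v.asIdeal w.asIdeal,
    ← Nat.card_coe_set_eq, ← Nat.card_congr (placesOverEquiv v), Nat.card_coe_set_eq] at hid
  change (placesOver K L v).ncard * (ramE v w * _) = 3 at hid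
  have hn : pnorm w = pnorm v ^ v.asIdeal.inertiaDeg' w.asIdeal :=
    Ideal.absNorm_eq_pow_inertiaDeg'_of_liesOver _ _ v.isPrime v.ne_bot
  set g := (placesOver K L v).ncard with hg
  set e := ramE v w
  set f := v.asIdeal.inertiaDeg' w.asIdeal
  have hfix : ∀ hσ : mapPlace (σ : L ≃+* L) w = w, g = 1 := fun hσ => by
    rw [hg, hc.placesOver_eq h, hσ, hσ]; simp
  -- so one place or three
  rcases (Nat.dvd_prime Nat.prime_three).1 ⟨e * f, hid.symm⟩ with h1 | h3
  · right
    refine ⟨h1, ?_, ?_⟩
    · rw [Set.ncard_eq_one] at h1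
      obtain ⟨u, hu⟩ := h1
      have hw : w ∈ placesOver K L v := h
      have hσw : mapPlace (σ : L ≃+* L) w ∈ placesOver K L v := h.mapPlace σ
      rw [hu, Set.mem_singleton_iff] at hw hσw
      rw [hσw, hw]
    rw [h1, one_mul] at hid
    -- one place: totally ramified or inert
    rcases (Nat.dvd_prime Nat.prime_three).1 ⟨f, hid.symm⟩ with he | he
    · rw [he, one_mul] at hid
      exact Or.inr ⟨he, by rw [hn, hid]⟩
    · refine Or.inl ⟨he, ?_⟩
      rw [hn, show f = 1 by rw [he] at hid; omega, pow_one]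
  · left
    have hef : e * f = 1 := by rw [h3] at hid; omega
    obtain ⟨he, hf⟩ : e = 1 ∧ f = 1 :=
      ⟨Nat.eq_one_of_mul_eq_one_right hef, Nat.eq_one_of_mul_eq_one_left hef⟩
    refine ⟨h3, he, by rw [hn, hf, pow_one], fun hσ => ?_⟩
    rw [hfix hσ] at h3
    omega

/-- A place is in the ramified set exactly when its index is `3`. -/
lemma mem_ramSet_iff {v : Place K} {w : Place L} (h : LiesOver K L w v) :
    v ∈ ramSet K L ↔ ramE v w = 3 := by
  have hle : ∀ {w' : Place L}, LiesOver K L w' v →
      Ideal.map (algebraMap (𝓞 K) (𝓞 L)) v.asIdeal ≤ w'.asIdeal := fun {w'} h' => by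
    rw [Ideal.map_le_iff_le_comap]; exact (le_of_eq (Eq.symm h') :)
  constructor
  · rintro ⟨w', hw', hsq⟩
    have h1 : ramE v w' ≠ 1 := (Ideal.ramificationIdx'_ne_one_iff (hle hw')).2 hsq
    rcases hc.trichotomy hw' with ⟨-, he, -⟩ | ⟨hone, -, ⟨he, -⟩ | ⟨he, -⟩⟩
    · exact absurd he h1
    · obtain ⟨u, hu⟩ := Set.ncard_eq_one.1 hone
      have e1 : w' ∈ placesOver K L v := hw'
      have e2 : w ∈ placesOver K L v := h
      rw [hu, Set.mem_singleton_iff] at e1 e2
      rwa [e2, ← e1]
    · exact absurd he h1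
  · intro he
    refine ⟨w, h, (Ideal.ramificationIdx'_ne_one_iff (hle h)).1 ?_⟩
    change ramE v w ≠ 1
    omega

/-- The local extension at a fixed place. -/
noncomputable def ext {v : Place K} {w : Place L} (h : LiesOver K L w v)
    (hσ : mapPlace (σ : L ≃+* L) w = w) : CycExt (v.valuation K) (w.valuation L) where
  ι := algebraMap K L
  e := ramE v w
  he := h.ramE_ne_zero
  hι x := h.valuation_algebraMap x
  s := (σ : L ≃+* L)
  hs x := by conv_lhs => rw [← hσ]
             exact valuation_mapPlace _ _ _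
  hs3 := hc.apply_three
  sι x := σ.commutes x
  fix x hx := hc.fix hx

/-- At a place of residue degree one every integral element is congruent to one from `K`. -/
lemma exists_res {v : Place K} {w : Place L} (h : LiesOver K L w v)
    (hσ : mapPlace (σ : L ≃+* L) w = w) (hn : pnorm w = pnorm v) {x : L}
    (hx : w.valuation L x ≤ 1) :
    ∃ k, w.valuation L (x - algebraMap K L k) < 1 := by
  set C := hc.ext h hσ
  have hbij : Function.Surjective C.resHom := by
    refine (Function.Injective.bijective_of_nat_card_le C.resHom.injective ?_).2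
    rw [natCard_residue, natCard_residue, hn]
  obtain ⟨z, hz⟩ := hbij (resd (w.valuation L) x)
  obtain ⟨k, hk, rfl⟩ := exists_resd_eq z
  rw [C.resHom_resd hk] at hz
  exact ⟨k, (resd_eq_iff hx ((C.w_le_one_iff k).2 hk)).1 hz.symm⟩

/-- Ramified places not over three are tame. -/
lemma tame {v : Place K} {w : Place L} (h : LiesOver K L w v) (hσ : mapPlace (σ : L ≃+* L) w = w)
    (he : ramE v w = 3) (hn : pnorm w = pnorm v) (h3 : v.valuation K 3 = 1) :
    (hc.ext h hσ).Tame where
  e3 := he
  three := h3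
  res _ hx := hc.exists_res h hσ hn hx

/-- At an inert place prime to `3` some integral `θ₀` has `σ θ₀ - θ₀` a unit. -/
lemma exists_moved {v : Place K} {w : Place L} (h : LiesOver K L w v)
    (hσ : mapPlace (σ : L ≃+* L) w = w) (hn : pnorm w = pnorm v ^ 3) (h3 : v.valuation K 3 = 1) :
    ∃ θ₀, w.valuation L θ₀ ≤ 1 ∧ w.valuation L (σ θ₀ - θ₀) = 1 := by
  set C := hc.ext h hσ
  by_contra hne
  simp only [not_exists, not_and] at hne
  have hclose : ∀ x, w.valuation L x ≤ 1 → w.valuation L (σ x - x) < 1 := fun x hx =>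
    lt_of_le_of_ne (((w.valuation L).map_sub _ _).trans (max_le ((C.hs x).trans_le hx) hx))
      (hne x hx)
  have hsurj : Function.Surjective C.resHom := by
    intro z
    obtain ⟨r, hr, rfl⟩ := exists_resd_eq z
    obtain ⟨⟨k, hkeq, hk⟩, hav⟩ := C.avg_spec h3 hr
    refine ⟨resd _ k, ?_⟩
    rw [C.resHom_resd hk, resd_eq_iff ((C.w_le_one_iff k).2 hk) hr, hkeq]
    exact le_exp_neg_one_iff.1 (hav (le_exp_neg_one_iff.2 (hclose r hr)))
  have hle := Nat.card_le_card_of_surjective C.resHom hsurj
  rw [natCard_residue, natCard_residue, hn] at hle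
  have h2 : 2 ≤ pnorm v := by
    rw [← natCard_residue]; exact Finite.one_lt_card
  nlinarith [Nat.pow_le_pow_left h2 2]

end Cyc3

/-- The residue cardinality is prime to three. -/
lemma coprime_three {v : Place K} (h3 : v.valuation K 3 = 1) :
    Nat.Coprime 3 (Nat.card (Res v)) := by
  rw [Nat.prime_three.coprime_iff_not_dvd]
  intro hdvd
  have := Fintype.ofFinite (Res v)
  rw [Nat.card_eq_fintype_card] at hdvd
  obtain ⟨p, hp⟩ := CharP.exists (Res v)
  obtain ⟨n, hpp, hcard⟩ := FiniteField.card (Res v) p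
  rw [hcard] at hdvd
  obtain rfl : 3 = p :=
    (Nat.prime_dvd_prime_iff_eq Nat.prime_three hpp).1 (Nat.prime_three.dvd_of_dvd_pow hdvd)
  have h0 : ((3 : ℕ) : Res v) = 0 := CharP.cast_eq_zero _ 3
  rw [← map_natCast (IsLocalRing.residue (v.valuation K).valuationSubring),
    residue_eq_zero_iff_v] at h0
  refine h0.ne ?_
  push_cast
  exact h3

end Fermat.LT
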