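import Fermat.Agent.LT.EllUnfold
import Fermat.Agent.LT.LocPlace
import Fermat.Agent.LT.H3Swap

/-!
# The twisted integral at the infinite places

Three coordinates over each infinite place of the small field; two of them
integrate to the composite kernel at the twisted norm.
-/

set_option autoImplicit false
open NumberField MeasureTheory Filter Set
open scoped Classical ComplexConjugate Matrix

namespace Fermat.LT

/-- Scalars act trivially on `H3`. -/
lemma scal_smul_H3 (c : ℂˣ) (x : H3) : scal c • x = x := by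
  obtain ⟨g, rfl⟩ := QuotientGroup.mk_surjective x
  rw [MulAction.Quotient.smul_coe, QuotientGroup.eq, smul_eq_mul, scal_comm, mul_inv_rev, mul_assoc,
    inv_mul_cancel, mul_one]
  refine UC.inv_mem ⟨(Complex.normSq (c : ℂ) : ℂ), by simp, ?_⟩
  rw [scal_coe]
  simp [Matrix.scalar_apply, Complex.normSq_eq_conj_mul_self]

/-- Kernels do not see orientation. -/
theorem AKer.map_cj (k : AKer) (x y : H3) : k (H3.cj x) (H3.cj y) = k x y := by
  obtain ⟨g, rfl⟩ := QuotientGroup.mk_surjective x
  set o : H3 := ((1 : GL (Fin 2) ℂ) : H3)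
  have e : ((g : GL (Fin 2) ℂ) : H3) = g • o := by
    rw [MulAction.Quotient.smul_coe, smul_eq_mul, mul_one]
  have ho : H3.cj o = o := by rw [H3.cj_mk, map_one]
  suffices h : ∀ b : H3, k o (H3.cj b) = k o b by
    have hy : H3.cj y = cGL g • H3.cj (g⁻¹ • y) := by
      rw [← H3.cj_smul, smul_inv_smul]
    rw [e, H3.cj_smul, ho, hy, k.invariant, h]
    conv_rhs => rw [show y = g • (g⁻¹ • y) by rw [smul_inv_smul], k.invariant]
  intro b
  obtain ⟨z, t, ht, rfl⟩ : ∃ z t, ∃ ht : 0 < t, ((triMat z ht : GL (Fin 2) ℂ) : H3) = b :=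
    ⟨_, _, H3.coord_pos b, by rw [← H3.mk_of_pos _ (H3.coord_pos b), H3.mk_coord]⟩
  -- a rotation about the vertical axis
  obtain ⟨a, ha, haz⟩ : ∃ a : ℂ, conj a * a = 1 ∧ conj z = a * z := by
    by_cases hz : z = 0
    · exact ⟨1, by simp, by simp [hz]⟩
    · refine ⟨conj z / z, ?_, by field_simp⟩
      rw [map_div₀, Complex.conj_conj, div_mul_div_cancel₀ (by simpa using hz), div_self hz]
  have ha0 : a ≠ 0 := fun h => by simp [h] at ha
  set d : GL (Fin 2) ℂ := Matrix.GeneralLinearGroup.mkOfDetNeZero !![a, 0; 0, 1]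
    (by rw [Matrix.det_fin_two_of]; simpa using ha0) with hd
  have hdUC : d ∈ UC := by
    refine ⟨1, one_ne_zero, ?_⟩
    rw [show (d : Matrix (Fin 2) (Fin 2) ℂ) = !![a, 0; 0, 1] from rfl]
    ext i j
    fin_cases i <;> fin_cases j <;> simp [Matrix.mul_apply, ha]
  have hdo : d • o = o := by
    rw [MulAction.Quotient.smul_coe, QuotientGroup.eq, smul_eq_mul, mul_one, mul_one]
    exact UC.inv_mem hdUC
  have hmul : d * triMat z ht = cGL (triMat z ht) * d := by
    refine Units.ext ?_
    rw [Units.val_mul, Units.val_mul, coe_cGL, coe_triMat,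
      show (d : Matrix (Fin 2) (Fin 2) ℂ) = !![a, 0; 0, 1] from rfl]
    ext i j
    fin_cases i <;> fin_cases j <;> simp [Matrix.mul_apply, Fin.sum_univ_two, haz, mul_comm]
  have hb : H3.cj ((triMat z ht : GL (Fin 2) ℂ) : H3) =
      d • ((triMat z ht : GL (Fin 2) ℂ) : H3) := by
    rw [H3.cj_mk, MulAction.Quotient.smul_coe, QuotientGroup.eq, smul_eq_mul, hmul,
      inv_mul_cancel_left]
    exact hdUC
  rw [hb]
  conv_lhs => rw [← hdo]
  rw [k.invariant]

variable {K L : Type} [Field K] [NumberField K] [Field L] [NumberField L] [Algebra K L]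

variable (L) in
/-- An embedding extending the chosen one, at the chosen place. -/
noncomputable def emb0 (u : InfinitePlace K) : L →+* ℂ :=
  if (plAbove L u).embedding.comp (algebraMap K L) = u.embedding then (plAbove L u).embedding
  else ComplexEmbedding.conjugate (plAbove L u).embedding

/-- The chosen place above lies above. -/
lemma plAbove_comap (u : InfinitePlace K) : (plAbove L u).comap (algebraMap K L) = u :=
  ((InfinitePlace.comap_surjective (K := L) (k := K)) u).choose_spec

/-- The chosen embedding gives the chosen place. -/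
lemma mk_emb0 (u : InfinitePlace K) : InfinitePlace.mk (emb0 L u) = plAbove L u := by
  unfold emb0
  split_ifs
  · exact InfinitePlace.mk_embedding _
  · rw [InfinitePlace.mk_conjugate_eq, InfinitePlace.mk_embedding]

/-- The chosen embedding of `L` over `u` restricts to the embedding of `u` on `K`. -/
lemma emb0_comp (u : InfinitePlace K) : (emb0 L u).comp (algebraMap K L) = u.embedding := by
  unfold emb0
  split_ifs with h
  · exact h
  · have h1 : InfinitePlace.mk ((plAbove L u).embedding.comp (algebraMap K L)) =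
        InfinitePlace.mk u.embedding := by
      rw [InfinitePlace.mk_embedding, ← InfinitePlace.comap_mk, InfinitePlace.mk_embedding,
        plAbove_comap]
    rcases InfinitePlace.mk_eq_iff.1 h1 with h2 | h2
    · exact absurd h2 h
    · exact h2

/-- The three embeddings over `u`. -/
noncomputable def emb3 (σ : L ≃ₐ[K] L) (u : InfinitePlace K) : Fin 3 → (L →+* ℂ) :=
  ![emb0 L u, (emb0 L u).comp (((σ * σ : L ≃ₐ[K] L) : L ≃+* L) : L →+* L),
    (emb0 L u).comp ((σ : L ≃+* L) : L →+* L)]

/-- The three places over `u`. -/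
noncomputable def pl3 (σ : L ≃ₐ[K] L) (p : InfinitePlace K × Fin 3) : InfinitePlace L :=
  InfinitePlace.mk (emb3 σ p.1 p.2)

variable {σ : L ≃ₐ[K] L} (hc : Cyc3 K L σ) [IsTotallyComplex K]
include hc

omit [IsTotallyComplex K] in
/-- The inverse of the generator is its square. -/
lemma symm_eq : σ.symm = σ * σ := by
  have h : σ * (σ * σ) = 1 := by rw [← mul_assoc, ← pow_three' σ, hc.pow_three]
  exact (inv_eq_of_mul_eq_one_right h : σ⁻¹ = _)

omit [IsTotallyComplex K] in
/-- The second place over `u`. -/
lemma pl3_one (u : InfinitePlace K) : pl3 σ (u, 1) = σ • plAbove L u := by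
  rw [← mk_emb0, InfinitePlace.smul_mk, symm_eq hc]
  rfl

omit [IsTotallyComplex K] in
/-- The third place over `u` is the translate of the chosen one by `σ²`. -/
lemma pl3_two (u : InfinitePlace K) : pl3 σ (u, 2) = σ • σ • plAbove L u := by
  rw [← mul_smul, ← mk_emb0, InfinitePlace.smul_mk]
  change InfinitePlace.mk _ = InfinitePlace.mk _
  congr 1
  refine RingHom.ext fun x => ?_
  change emb0 L u (σ x) = emb0 L u ((σ * σ).symm x)
  congr 1
  rw [AlgEquiv.eq_symm_apply]
  exact hc.apply_three x

omit hc [IsTotallyComplex K] in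
/-- The first place over `u`. -/
lemma pl3_zero (u : InfinitePlace K) : pl3 σ (u, 0) = plAbove L u := mk_emb0 u

/-- The infinite places of `L` are labelled bijectively by a place of `K` and one of three
sheets. -/
lemma pl3_bijective : Function.Bijective (pl3 σ : InfinitePlace K × Fin 3 → InfinitePlace L) := by
  have := hc.galois
  -- The group of order three acts freely on places, all complex in `L`.
  have hfree : ∀ (w : InfinitePlace L) (g : L ≃ₐ[K] L), g • w = w → g = 1 := fun w g h => by
    have hu : InfinitePlace.IsUnramified K w :=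
      InfinitePlace.isUnramified_iff.2 (Or.inr (IsTotallyComplex.isComplex _))
    exact (Subgroup.mem_bot).1 (InfinitePlace.isUnramified_iff_stabilizer_eq_bot.1 hu ▸ h)
  have hdecomp : ∀ p : InfinitePlace K × Fin 3, ∃ g : L ≃ₐ[K] L, g = ![1, σ, σ * σ] p.2
      ∧ pl3 σ p = g • plAbove L p.1 := by
    rintro ⟨u, i⟩
    refine ⟨_, rfl, ?_⟩
    fin_cases i
    · simpa using pl3_zero u
    · simpa using pl3_one hc u
    · simpa [mul_smul] using pl3_two hc u
  have hcom : ∀ p : InfinitePlace K × Fin 3, (pl3 σ p).comap (algebraMap K L) = p.1 := fun p => by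
    obtain ⟨g, -, e⟩ := hdecomp p
    rw [e, InfinitePlace.comap_smul]
    conv_rhs => rw [← plAbove_comap (L := L) p.1]
    congr 1
    exact RingHom.ext fun x => g.symm.commutes x
  -- Injective by freeness, surjective as it is transitive on each fibre.
  refine ⟨fun p p' h => ?_, fun w => ?_⟩
  · have h1 : p.1 = p'.1 := by rw [← hcom p, h, hcom]
    obtain ⟨g, hg, e⟩ := hdecomp p
    obtain ⟨g', hg', e'⟩ := hdecomp p'
    rw [e, e', h1] at h
    have h2 := hfree _ (g'⁻¹ * g) (by rw [mul_smul, h, inv_smul_smul])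
    rw [inv_mul_eq_one] at h2
    refine Prod.ext h1 ?_
    rw [hg, hg'] at h2
    have hn : (1 : L ≃ₐ[K] L) ≠ σ := fun e => hc.ne_one e.symm
    have hn2 : σ * σ ≠ 1 := fun e => hc.ne_one (by
      have := hc.pow_three
      rwa [pow_three', e, one_mul] at this)
    have hn3 : σ ≠ σ * σ := fun e => hc.ne_one (by
      have := congrArg (σ⁻¹ * ·) e
      simpa using this.symm)
    revert h2
    generalize p.2 = i
    generalize p'.2 = j
    fin_cases i <;> fin_cases j <;> simp [hn, hn.symm, hn2, hn2.symm, hn3, hn3.symm]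
  · obtain ⟨g, hg⟩ := InfinitePlace.exists_smul_eq_of_comap_eq
      (show (plAbove L (w.comap (algebraMap K L))).comap (algebraMap K L) =
        w.comap (algebraMap K L) from plAbove_comap _)
    rcases hc.mem_cases g with rfl | rfl | rfl
    · exact ⟨(_, 0), by rw [pl3_zero, ← hg, one_smul]⟩
    · exact ⟨(_, 1), by rw [pl3_one hc, hg]⟩
    · exact ⟨(_, 2), by rw [pl3_two hc, ← mul_smul, hg]⟩

/-- The infinite places of `L` as three sheets over those of `K`. -/
noncomputable def sheetEquiv :
    InfinitePlace K ⊕ InfinitePlace K ⊕ InfinitePlace K ≃ InfinitePlace L :=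
  Equiv.ofBijective
    (Sum.elim (fun u => pl3 σ (u, 0)) (Sum.elim (fun u => pl3 σ (u, 1)) fun u => pl3 σ (u, 2))) (by
      obtain ⟨hi, hs⟩ := pl3_bijective hc
      refine ⟨?_, fun w => ?_⟩
      · rintro (a | a | a) (b | b | b) h <;> have := hi h <;> simp_all
      · obtain ⟨⟨u, i⟩, rfl⟩ := hs w
        fin_cases i
        exacts [⟨.inl u, rfl⟩, ⟨.inr (.inl u), rfl⟩, ⟨.inr (.inr u), rfl⟩])

omit hc [IsTotallyComplex K] [NumberField L] in
/-- Conjugating some coordinates preserves the measure. -/
lemma measurePreserving_orient {ι : Type*} [Fintype ι] (w : ι → InfinitePlace L)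
    (φ : ι → (L →+* ℂ)) :
    MeasurePreserving (fun (y : ι → H3) i => if φ i = (w i).embedding then y i else H3.cj (y i))
      (Measure.pi fun _ => hmeas) (Measure.pi fun _ => hmeas) := by
  refine measurePreserving_pi (fun _ : ι => hmeas) (fun _ : ι => hmeas)
    (f := fun i x => if φ i = (w i).embedding then x else H3.cj x) fun i => ?_
  by_cases h : φ i = (w i).embedding
  · simp only [if_pos h]; exact MeasurePreserving.id _
  · simp only [if_neg h]; exact measurePreserving_cj

omit hc [IsTotallyComplex K] in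
/-- The coordinates of a point over each place of `K` at its three embeddings in `L`. -/
noncomputable def coord3 (σ : L ≃ₐ[K] L) (y : InfinitePlace L → H3) :
    (InfinitePlace K → H3) × (InfinitePlace K → H3) × (InfinitePlace K → H3) :=
  (fun u => extH y (emb3 σ u 0), fun u => extH y (emb3 σ u 1), fun u => extH y (emb3 σ u 2))

/-- The coordinates are a measure space isomorphism. -/
theorem exists_coord_equiv : ∃ e : (InfinitePlace L → H3)
      ≃ᵐ (InfinitePlace K → H3) × (InfinitePlace K → H3) × (InfinitePlace K → H3),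
    (∀ y, e y = coord3 σ y) ∧ MeasurePreserving e (Measure.pi fun _ => hmeas)
      ((Measure.pi fun _ => hmeas).prod
        ((Measure.pi fun _ => hmeas).prod (Measure.pi fun _ => hmeas))) := by
  -- split `L`-coordinates into three sheets over the places of `K`
  let μ : InfinitePlace L → Measure H3 := fun _ => hmeas
  let e1 : (InfinitePlace L → H3) ≃ᵐ ((InfinitePlace K ⊕ InfinitePlace K ⊕ InfinitePlace K) → H3) :=
    (MeasurableEquiv.piCongrLeft (fun _ : InfinitePlace L => H3) (sheetEquiv hc)).symm
  let e2 : ((InfinitePlace K ⊕ InfinitePlace K ⊕ InfinitePlace K) → H3)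
      ≃ᵐ (InfinitePlace K → H3) × ((InfinitePlace K ⊕ InfinitePlace K) → H3) :=
    MeasurableEquiv.sumPiEquivProdPi fun _ => H3
  let e3 : ((InfinitePlace K ⊕ InfinitePlace K) → H3) ≃ᵐ (InfinitePlace K → H3) ×
      (InfinitePlace K → H3) :=
    MeasurableEquiv.sumPiEquivProdPi fun _ => H3
  -- on each sheet conjugate where the embedding is not the chosen one
  let ho : ∀ i : Fin 3, (InfinitePlace K → H3) ≃ᵐ (InfinitePlace K → H3) := fun i =>
    MeasurableEquiv.piCongrRight fun u => if emb3 σ u i =
      (pl3 σ (u, i)).embedding then MeasurableEquiv.refl H3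
      else { toFun := H3.cj, invFun := H3.cj, left_inv := H3.cj_cj, right_inv := H3.cj_cj,
             measurable_toFun := continuous_cj.measurable, measurable_invFun :=
               continuous_cj.measurable }
  have hho : ∀ i y u, ho i y u = if emb3 σ u i =
      (pl3 σ (u, i)).embedding then y u else H3.cj (y u) := by
    intro i y u
    change (ite _ _ _ : H3 ≃ᵐ H3) (y u) = _
    split_ifs <;> rfl
  have hmp : ∀ i, MeasurePreserving (ho i) (Measure.pi fun _ => hmeas)
      (Measure.pi fun _ => hmeas) := fun i => by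
    have h := measurePreserving_orient (fun u => pl3 σ (u, i)) (fun u => emb3 σ u i)
    convert h using 1
    funext y u
    exact hho i y u
  refine ⟨e1.trans (e2.trans (((MeasurableEquiv.refl _).prodCongr e3).trans
    ((ho 0).prodCongr ((ho 1).prodCongr (ho 2))))), fun y => ?_, ?_⟩
  · have hval : ∀ i, (fun u => if emb3 σ u i = (pl3 σ (u, i)).embedding then y (pl3 σ (u, i))
        else H3.cj (y (pl3 σ (u, i)))) = fun u => extH y (emb3 σ u i) := fun i => rfl
    refine Prod.ext (funext fun u => ?_) (Prod.ext (funext fun u => ?_) (funext fun u => ?_))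
    · exact (hho 0 _ u).trans (congrFun (hval 0) u)
    · exact (hho 1 _ u).trans (congrFun (hval 1) u)
    · exact (hho 2 _ u).trans (congrFun (hval 2) u)
  -- every step preserves the product measure
  · refine ((measurePreserving_piCongrLeft μ (sheetEquiv hc)).symm _).trans
      ((measurePreserving_sumPiEquivProdPi (X := fun _ => H3) fun _ => hmeas).trans ?_)
    refine MeasurePreserving.trans ((MeasurePreserving.id _).prod
      (measurePreserving_sumPiEquivProdPi (X := fun _ => H3) fun _ => hmeas)) ?_
    exact (hmp 0).prod ((hmp 1).prod (hmp 2))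

omit hc [IsTotallyComplex K] [NumberField L] in
/-- The factor at one place in any orientation. -/
lemma term_at [IsTotallyComplex L] (k : InfinitePlace L → AKer) (δ : GL (Fin 2) L) (τ : L →+* L)
    (y : InfinitePlace L → H3) (φ : L →+* ℂ) :
    k (InfinitePlace.mk φ) (y (InfinitePlace.mk φ))
        (atInf (InfinitePlace.mk φ) δ • extH y ((InfinitePlace.mk φ).embedding.comp τ))
      = k (InfinitePlace.mk φ) (extH y φ)
        (Matrix.GeneralLinearGroup.map φ δ • extH y (φ.comp τ)) := by
  rcases InfinitePlace.embedding_mk_eq φ with h | h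
  · rw [show extH y φ = y (InfinitePlace.mk φ) by rw [extH, if_pos h.symm], atInf, h]
  · have hφ : φ = ComplexEmbedding.conjugate (InfinitePlace.mk φ).embedding := by
      rw [h, ComplexEmbedding.conjugate, star_star]
    set w := InfinitePlace.mk φ
    rw [hφ, extH_conjugate, extH_embedding,
      show (ComplexEmbedding.conjugate w.embedding).comp τ =
        ComplexEmbedding.conjugate (w.embedding.comp τ) from rfl,
      extH_conjugate,
      show Matrix.GeneralLinearGroup.map (ComplexEmbedding.conjugate w.embedding) δ = cGL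
        (atInf w δ) from rfl,
      ← H3.cj_smul, AKer.map_cj]

omit hc [IsTotallyComplex K] in
/-- The product over the three embeddings above `u` of the kernels, cyclically twisted by `δ`. -/
noncomputable def fac3 (σ : L ≃ₐ[K] L) (k : InfinitePlace L → AKer) (δ : GL (Fin 2) L)
    (u : InfinitePlace K) (x z₁ z₂ : H3) : ℂ :=
  k (plAbove L u) x (Matrix.GeneralLinearGroup.map (emb3 σ u 0) δ • z₂)
    * k (σ • plAbove L u) z₁ (Matrix.GeneralLinearGroup.map (emb3 σ u 1) δ • x)
    * k (σ • σ • plAbove L u) z₂ (Matrix.GeneralLinearGroup.map (emb3 σ u 2) δ • z₁)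

/-- **The product over all infinite places in the coordinates.** -/
theorem inf_eq_prod [IsTotallyComplex L] (k : InfinitePlace L → AKer) (δ : GL (Fin 2) L)
    (y : InfinitePlace L → H3) :
    ∏ w, k w (y w) (atInf w δ • extH y (w.embedding.comp ((σ : L ≃+* L) : L →+* L)))
      = ∏ u, fac3 σ k δ u ((coord3 σ y).1 u) ((coord3 σ y).2.1 u) ((coord3 σ y).2.2 u) := by
  rw [← (Equiv.ofBijective _ (pl3_bijective hc)).prod_comp, Fintype.prod_prod_type]
  refine Finset.prod_congr rfl fun u _ => ?_
  simp only [Fin.prod_univ_three, Equiv.ofBijective_apply]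
  have h : ∀ i, k (pl3 σ (u, i)) (y (pl3 σ (u, i)))
      (atInf (pl3 σ (u, i)) δ • extH y ((pl3 σ (u, i)).embedding.comp ((σ : L ≃+* L) : L →+* L)))
      = k (pl3 σ (u, i)) (extH y (emb3 σ u i)) (Matrix.GeneralLinearGroup.map (emb3 σ u i) δ •
          extH y ((emb3 σ u i).comp ((σ : L ≃+* L) : L →+* L))) := fun i => term_at k δ _ y _
  rw [h 0, h 1, h 2, pl3_zero, pl3_one hc, pl3_two hc]
  have e1 : (emb3 σ u 1).comp ((σ : L ≃+* L) : L →+* L) = emb3 σ u 0 := RingHom.ext fun x => by
    change emb0 L u (σ (σ (σ x))) = emb0 L u x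
    rw [hc.apply_three]
  rw [e1]
  rfl

variable {δ : GL (Fin 2) L} {g₀ : GL (Fin 2) K} {c : Lˣ}
  (hN : twistN (σ : L ≃+* L) δ = scal c * iGL K L g₀)
include hN

omit hc [IsTotallyComplex K] in
/-- Going once round the three embeddings over `u` multiplies a point of `H3` by the norm `g₀`. -/
lemma norm_cycle (u : InfinitePlace K) (x : H3) :
    Matrix.GeneralLinearGroup.map (emb3 σ u 0) δ • (Matrix.GeneralLinearGroup.map (emb3 σ u 2) δ •
      (Matrix.GeneralLinearGroup.map (emb3 σ u 1) δ • x)) = atInf u g₀ • x := by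
  rw [← mul_smul, ← mul_smul]
  have e : Matrix.GeneralLinearGroup.map (emb3 σ u 0) δ * Matrix.GeneralLinearGroup.map
      (emb3 σ u 2) δ * Matrix.GeneralLinearGroup.map (emb3 σ u 1) δ
      = Matrix.GeneralLinearGroup.map (emb0 L u) (twistN (σ : L ≃+* L) δ) := by
    rw [twistN, map_mul, map_mul]
    rfl
  rw [e, hN, map_mul, mul_smul,
    show Matrix.GeneralLinearGroup.map (emb0 L u) (iGL K L g₀) = atInf u g₀ from
        Units.ext (Matrix.ext fun i j => by
      change emb0 L u (algebraMap K L _) = u.embedding _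
      rw [← emb0_comp (L := L) u]; rfl),
    show Matrix.GeneralLinearGroup.map (emb0 L u) (scal c) =
      scal (Units.map (emb0 L u).toMonoidHom c) from
      Units.ext (by
        change (Matrix.scalar (Fin 2) (c : L)).map (emb0 L u) = Matrix.scalar (Fin 2) (emb0 L u c)
        rw [Matrix.scalar_apply, Matrix.scalar_apply, Matrix.diagonal_map (map_zero _)]),
    scal_smul_H3]

omit [IsTotallyComplex K] hc in
/-- Two coordinates integrate to the composite. -/
theorem integral_fac3 (k : InfinitePlace L → AKer) (u : InfinitePlace K) (x : H3) :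
    Integrable (fun z : H3 × H3 => fac3 σ k δ u x z.1 z.2) (hmeas.prod hmeas) ∧
      ∫ z : H3 × H3, fac3 σ k δ u x z.1 z.2 ∂hmeas.prod hmeas
        = (k (plAbove L u)).comp ((k (σ • plAbove L u)).comp (k (σ • σ • plAbove L u))) x
          (atInf u g₀ • x) := by
  set k0 := k (plAbove L u)
  set k1 := k (σ • plAbove L u)
  set k2 := k (σ • σ • plAbove L u)
  set a0 := Matrix.GeneralLinearGroup.map (emb3 σ u 0) δ
  set a1 := Matrix.GeneralLinearGroup.map (emb3 σ u 1) δ
  set a2 := Matrix.GeneralLinearGroup.map (emb3 σ u 2) δ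
  -- integrability: a product of two integrable factors times a bounded one
  have hint : Integrable (fun z : H3 × H3 => fac3 σ k δ u x z.1 z.2) (hmeas.prod hmeas) := by
    have h1 : Integrable (fun z : H3 => k1 z (a1 • x)) hmeas :=
      (k1.integrable (a1 • x)).congr (Eventually.of_forall fun z => k1.symm _ _)
    have h0 : Integrable (fun z : H3 => k0 x (a0 • z)) hmeas :=
      (measurePreserving_smul_H3 a0).integrable_comp_emb
        (MeasurableEquiv.smul a0).measurableEmbedding |>.2 (k0.integrable x)
    refine ((h1.mul_prod h0).mul_bdd (g := fun z : H3 × H3 => k2 z.2 (a2 • z.1)) (c := k2.bound) ?_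
      (Eventually.of_forall fun z => k2.le_bound _ _)).congr (Eventually.of_forall fun z => ?_)
    · exact (k2.cont.comp'
        (continuous_snd.prodMk
        ((continuous_const_smul a2).comp continuous_fst))).aestronglyMeasurable
    · change k1 _ _ * k0 _ _ * k2 _ _ = fac3 σ k δ u x z.1 z.2
      rw [fac3]; ring
  refine ⟨hint, ?_⟩
  -- Fubini, then move the outer variable by `a0`
  rw [integral_prod_symm _ hint]
  change _ = ∫ p, k0 x p * (k1.comp k2) p _ ∂hmeas
  rw [← (measurePreserving_smul_H3 a0).integral_comp (MeasurableEquiv.smul a0).measurableEmbedding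
    (fun p => k0 x p * (k1.comp k2) p (atInf u g₀ • x))]
  refine integral_congr_ae (Eventually.of_forall fun z₂ => ?_)
  change ∫ z₁, fac3 σ k δ u x z₁ z₂ ∂hmeas = k0 x (a0 • z₂) * (k1.comp k2) (a0 • z₂) _
  -- the inner integral is the composition of the other two kernels
  rw [AKer.comp_comm k1 k2]
  change _ = _ * ∫ p, k2 (a0 • z₂) p * k1 p _ ∂hmeas
  rw [← (measurePreserving_smul_H3 (a0 * a2)).integral_comp
    (MeasurableEquiv.smul (a0 * a2)).measurableEmbedding
    (fun p => k2 (a0 • z₂) p * k1 p (atInf u g₀ • x)), ← integral_const_mul]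
  refine integral_congr_ae (Eventually.of_forall fun z₁ => ?_)
  change fac3 σ k δ u x z₁ z₂ =
    k0 x (a0 • z₂) * (k2 (a0 • z₂) ((a0 * a2) • z₁) * k1 ((a0 * a2) • z₁) (atInf u g₀ • x))
  rw [mul_smul a0 a2 z₁, k2.invariant, ← norm_cycle hN u x]
  change fac3 σ k δ u x z₁ z₂ =
    k0 x (a0 • z₂) * (k2 z₂ (a2 • z₁) * k1 (a0 • a2 • z₁) (a0 • (a2 • (a1 • x))))
  rw [k1.invariant, k1.invariant, fac3]
  ring

/-- **Integration over a lifted domain.** Over the points whose first coordinate lies in `DY` the
twisted product integrates to the integral over `DY` of the composed kernels. -/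
theorem arch_integral [IsTotallyComplex L] (k : InfinitePlace L → AKer)
    (DY : Set (InfinitePlace K → H3)) (hint : IntegrableOn
      (fun y => ∏ w, k w (y w) (atInf w δ • extH y (w.embedding.comp ((σ : L ≃+* L) : L →+* L))))
      ((fun y => (coord3 σ y).1) ⁻¹' DY) (Measure.pi fun _ : InfinitePlace L => hmeas)) :
    ∫ y in (fun y => (coord3 σ y).1) ⁻¹' DY,
        ∏ w, k w (y w) (atInf w δ • extH y (w.embedding.comp ((σ : L ≃+* L) : L →+* L)))
          ∂(Measure.pi fun _ : InfinitePlace L => hmeas)
      = ∫ x in DY, ∏ u,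
        (k (plAbove L u)).comp ((k (σ • plAbove L u)).comp (k (σ • σ • plAbove L u))) (x u)
        (atInf u g₀ • x u) ∂(Measure.pi fun _ : InfinitePlace K => hmeas) := by
  obtain ⟨e, he, hmp⟩ := exists_coord_equiv hc
  set F : (InfinitePlace K → H3) × (InfinitePlace K → H3) × (InfinitePlace K → H3) → ℂ :=
    fun z => ∏ u, fac3 σ k δ u (z.1 u) (z.2.1 u) (z.2.2 u)
  have hF : ∀ y, ∏ w, k w (y w) (atInf w δ • extH y (w.embedding.comp ((σ : L ≃+* L) : L →+* L))) =
      F (e y) := fun y => by
    rw [inf_eq_prod hc, he]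
  have hpre : (fun y => (coord3 σ y).1) ⁻¹' DY = e ⁻¹' (DY ×ˢ univ) := by
    ext y; simp [he]
  simp only [hF, hpre] at hint ⊢
  have hint' : IntegrableOn F (DY ×ˢ univ)
      ((Measure.pi fun _ => hmeas).prod
          ((Measure.pi fun _ => hmeas).prod (Measure.pi fun _ => hmeas))) :=
    (hmp.integrableOn_comp_preimage e.measurableEmbedding).1 hint
  rw [hmp.setIntegral_preimage_emb e.measurableEmbedding F (DY ×ˢ univ), setIntegral_prod _ hint']
  refine integral_congr_ae (Eventually.of_forall fun x => ?_)
  change ∫ z in univ, F (x, z) ∂_ = _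
  rw [setIntegral_univ]
  have hA := measurePreserving_arrowProdEquivProdArrow H3 H3 (InfinitePlace K) (fun _ => hmeas)
    (fun _ => hmeas)
  rw [← hA.integral_comp (MeasurableEquiv.arrowProdEquivProdArrow H3 H3
    (InfinitePlace K)).measurableEmbedding fun z => F (x, z)]
  refine Eq.trans ?_ (Finset.prod_congr rfl fun u _ => (integral_fac3 hN k u (x u)).2)
  rw [← integral_fintype_prod_eq_prod]
  rfl

end Fermat.LT
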