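import Mathlib

/-!
# Separation of atoms by polynomials

An absolutely summable family of weighted points of a box which is annihilated by all polynomials
has no atoms; if it is annihilated by odd polynomials in one coordinate up to an integral against
a continuous density, its atoms are invariant under the flip of that coordinate.
-/

set_option autoImplicit false
open MvPolynomial Filter Topology MeasureTheory

namespace Fermat.LT

variable {I J : Type*} (a : I → ℂ) (x : I → J → ℝ)

/-- Total weight at the point `x₀`. -/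
noncomputable def atom (x₀ : J → ℝ) : ℂ := ∑' i, Set.indicator {i | x i = x₀} a i

variable {a x}

/-- Bounded multipliers keep absolute summability. -/
lemma summable_mul_bounded (ha : Summable fun i => ‖a i‖) {g : I → ℝ} {C : ℝ}
    (hg : ∀ i, |g i| ≤ C) : Summable fun i => a i * (g i : ℂ) := by
  refine Summable.of_norm_bounded (g := fun i => C * ‖a i‖) (ha.mul_left C) fun i => ?_
  rw [norm_mul, Complex.norm_real, Real.norm_eq_abs, mul_comm]
  exact mul_le_mul_of_nonneg_right (hg i) (norm_nonneg _)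

/-- Polynomials are dense on a box. -/
lemma exists_poly_near {M : J → ℝ} (F : C((j : J) → Set.Icc (-M j) (M j), ℝ)) {ε : ℝ}
    (hε : 0 < ε) : ∃ p : MvPolynomial J ℝ, ∀ y : (j : J) → Set.Icc (-M j) (M j),
      |MvPolynomial.eval (fun j => (y j : ℝ)) p - F y| < ε := by
  let Φ : MvPolynomial J ℝ →ₐ[ℝ] C((j : J) → Set.Icc (-M j) (M j), ℝ) :=
    MvPolynomial.aeval fun j => ⟨fun y => (y j : ℝ), by fun_prop⟩
  have hsep : Φ.range.SeparatesPoints := by
    intro y z hyz
    obtain ⟨j, hj⟩ := Function.ne_iff.1 hyz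
    refine ⟨_, ⟨Φ (X j), ⟨X j, rfl⟩, rfl⟩, ?_⟩
    simpa [Φ] using fun h => hj (Subtype.ext h)
  obtain ⟨⟨g, p, hp⟩, hg⟩ :=
    ContinuousMap.exists_mem_subalgebra_near_continuousMap_of_separatesPoints Φ.range hsep F ε hε
  refine ⟨p, fun y => ?_⟩
  have h1 := lt_of_le_of_lt ((g - F).norm_coe_le_norm y) hg
  have h2 : Φ p y = MvPolynomial.eval (fun j => (y j : ℝ)) p := by
    clear hp hg h1
    induction p using MvPolynomial.induction_on with
    | C r => simp [Φ]
    | add p q hp hq => simp [map_add, hp, hq]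
    | mul_X p j hp => simp [map_mul, hp, Φ]
  rw [← h2, show Φ p = g from hp]
  simpa using h1

/-- If all polynomial moments of an absolutely summable family of atoms in a box vanish, so does
every atom. -/
theorem atom_eq_zero (ha : Summable fun i => ‖a i‖) {M : J → ℝ} (hx : ∀ i j, |x i j| ≤ M j)
    (h : ∀ p : MvPolynomial J ℝ, ∑' i, a i * (MvPolynomial.eval (x i) p : ℂ) = 0)
    (x₀ : J → ℝ) : atom a x x₀ = 0 := by
  classical
  by_cases hx0 : ∃ i, x i = x₀
  swap
  · rw [atom]
    rw [tsum_congr (g := fun _ => 0) fun i => by simp [not_exists.1 hx0]]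
    exact tsum_zero
  obtain ⟨i₀, hi₀⟩ := hx0
  refine norm_le_zero_iff.1 (le_of_forall_pos_le_add fun ε hε => ?_)
  rw [zero_add]
  set A := ∑' i, ‖a i‖ with hA
  have hA0 : 0 ≤ A := tsum_nonneg fun _ => norm_nonneg _
  set δ := ε / (2 * (A + 2)) with hδ
  have hδ0 : 0 < δ := by positivity
  obtain ⟨s, hs⟩ : ∃ s : Finset I, ∀ t, Disjoint t s → ∑ i ∈ t, ‖a i‖ < δ := by
    obtain ⟨s, hs⟩ := summable_iff_vanishing.1 ha (Metric.ball 0 δ) (Metric.ball_mem_nhds 0 hδ0)
    refine ⟨s, fun t ht => ?_⟩
    simpa [abs_of_nonneg (Finset.sum_nonneg fun i (_ : i ∈ t) => norm_nonneg (a i))]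
      using hs t ht
  -- coordinates separating the finitely many large points from `x₀`
  have hsep : ∀ i, ∃ j : Option J, x i ≠ x₀ → ∃ j', j = some j' ∧ x i j' ≠ x₀ j' := fun i => by
    by_cases hne : x i = x₀
    · exact ⟨none, fun h => absurd hne h⟩
    · obtain ⟨j, hj⟩ := Function.ne_iff.1 hne
      exact ⟨some j, fun _ => ⟨j, rfl, hj⟩⟩
  choose sel hsel using hsep
  let S : Finset J := Finset.eraseNone (s.image sel)
  obtain ⟨d, hd0, hd⟩ : ∃ d : ℝ, 0 < d ∧ ∀ i ∈ s, x i ≠ x₀ →
      ∃ j ∈ S, d ≤ |x i j - x₀ j| := by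
    let gap : I → ℝ := fun i => if x i = x₀ then 1 else
      match sel i with
      | some j => |x i j - x₀ j|
      | none => 1
    have hpos : ∀ i, 0 < gap i := fun i => by
      simp only [gap]
      split_ifs with h0
      · norm_num
      · obtain ⟨j, hj, hne⟩ := hsel i h0
        simp [hj, sub_eq_zero, hne]
    rcases s.eq_empty_or_nonempty with rfl | hne
    · exact ⟨1, one_pos, by simp⟩
    refine ⟨s.inf' hne gap, (Finset.lt_inf'_iff _).2 fun i _ => hpos i, fun i hi h0 => ?_⟩
    obtain ⟨j, hj, -⟩ := hsel i h0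
    refine ⟨j, Finset.mem_eraseNone.2 (Finset.mem_image.2 ⟨i, hi, hj⟩), ?_⟩
    refine (Finset.inf'_le gap hi).trans ?_
    simp [gap, h0, hj]
  -- a bump at `x₀` killing the finitely many large points, approximated by a polynomial
  let F : C((j : J) → Set.Icc (-M j) (M j), ℝ) :=
    ⟨fun y => ∏ j ∈ S, max 0 (1 - |(y j : ℝ) - x₀ j| / d), by fun_prop⟩
  obtain ⟨p, hp⟩ := exists_poly_near F hδ0
  let y : I → ((j : J) → Set.Icc (-M j) (M j)) := fun i j => ⟨x i j, abs_le.1 (hx i j)⟩
  have hF1 : ∀ y, |F y| ≤ 1 := fun y => by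
    rw [ContinuousMap.coe_mk, Finset.abs_prod]
    refine Finset.prod_le_one (fun j _ => abs_nonneg _) fun j _ => ?_
    rw [abs_of_nonneg (le_max_left _ _)]
    exact max_le zero_le_one (sub_le_self _ (by positivity))
  have hSp : Summable fun i => a i * (MvPolynomial.eval (x i) p : ℂ) :=
    summable_mul_bounded ha (C := 1 + δ) fun i => by
      have h1 := (hp (y i)).le
      have h2 := hF1 (y i)
      simp only [y] at h1
      calc |MvPolynomial.eval (x i) p|
          = |(MvPolynomial.eval (x i) p - F (y i)) + F (y i)| := by ring_nf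
        _ ≤ _ := (abs_add_le _ _).trans (by simp only [y]; linarith)
  have hSi : Summable (Set.indicator {i | x i = x₀} a) :=
    Summable.of_norm_bounded ha fun i => norm_indicator_le_norm_self a i
  have hdiff : atom a x x₀
      = ∑' i, (Set.indicator {i | x i = x₀} a i - a i * (MvPolynomial.eval (x i) p : ℂ)) := by
    rw [Summable.tsum_sub hSi hSp, h p, sub_zero, atom]
  have hbound : ∀ i, ‖Set.indicator {i | x i = x₀} a i - a i * (MvPolynomial.eval (x i) p : ℂ)‖
      ≤ δ * ‖a i‖ + (if i ∈ s then 0 else ‖a i‖) * 2 := by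
    intro i
    have hpi := (hp (y i)).le
    simp only [y] at hpi
    by_cases hi : x i = x₀
    · have hFi : F (y i) = 1 := by simp [F, y, hi]
      simp only [y] at hFi
      rw [hFi, hi, abs_sub_comm] at hpi
      rw [Set.indicator_of_mem (show i ∈ {i | x i = x₀} from hi), hi, ← mul_one_sub, norm_mul,
        ← Complex.ofReal_one, ← Complex.ofReal_sub, Complex.norm_real, Real.norm_eq_abs, mul_comm]
      have := mul_le_mul_of_nonneg_right hpi (norm_nonneg (a i))
      split_ifs <;> nlinarith [norm_nonneg (a i)]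
    · rw [Set.indicator_of_notMem (show i ∉ {i | x i = x₀} from hi), zero_sub, norm_neg, norm_mul,
        Complex.norm_real, Real.norm_eq_abs, mul_comm]
      by_cases his : i ∈ s
      · obtain ⟨j, hj, hdj⟩ := hd i his hi
        have hFi : F (y i) = 0 := by
          refine Finset.prod_eq_zero hj (max_eq_left ?_)
          simp only [y]
          rw [sub_nonpos, one_le_div hd0]
          exact hdj
        simp only [y] at hFi
        rw [hFi, sub_zero] at hpi
        simp [his, mul_le_mul_of_nonneg_right hpi (norm_nonneg (a i))]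
      · have h2 := hF1 (y i)
        simp only [y] at h2
        have hle : |MvPolynomial.eval (x i) p| ≤ δ + 2 := by
          have := abs_sub_abs_le_abs_sub (MvPolynomial.eval (x i) p) (F (y i))
          simp only [y] at this
          linarith
        have := mul_le_mul_of_nonneg_right hle (norm_nonneg (a i))
        simp [his]; linarith
  have hS2 : Summable fun i => (if i ∈ s then 0 else ‖a i‖) :=
    Summable.of_nonneg_of_le (fun i => by split_ifs <;> simp) (fun i => by split_ifs <;> simp) ha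
  have htail : ∑' i, (if i ∈ s then 0 else ‖a i‖) ≤ δ := by
    refine hS2.tsum_le_of_sum_le fun t => ?_
    rw [Finset.sum_ite]
    simp only [Finset.sum_const_zero, zero_add]
    exact (hs _ (Finset.disjoint_left.2 fun i hi => (Finset.mem_filter.1 hi).2)).le
  have hS3 : Summable fun i => δ * ‖a i‖ + (if i ∈ s then 0 else ‖a i‖) * 2 :=
    (ha.mul_left δ).add (hS2.mul_right 2)
  rw [hdiff]
  refine (tsum_of_norm_bounded hS3.hasSum hbound).trans ?_
  rw [Summable.tsum_add (ha.mul_left δ) (hS2.mul_right 2), tsum_mul_left, tsum_mul_right, ← hA]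
  calc δ * A + (∑' i, if i ∈ s then 0 else ‖a i‖) * 2 ≤ δ * (A + 2) := by nlinarith
    _ ≤ ε := by
      rw [hδ, div_mul_eq_mul_div, div_le_iff₀ (by positivity)]
      nlinarith

open scoped Classical in
/-- The coordinate `j` set to `c`. -/
noncomputable def setCoord (j : J) (c : ℝ) (z : J → ℝ) : J → ℝ := Function.update z j c

open scoped Classical in
/-- `1` at `c`, `-1` at `-c` and `0` elsewhere. -/
private noncomputable def flipWeight (c t : ℝ) : ℝ :=
  (if t = c then 1 else 0) - (if t = -c then 1 else 0)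

/-- Polynomials whose odd versions `t * p (t²)` tend to the flip weight. -/
private noncomputable def flipPoly (c B : ℝ) (N : ℕ) : Polynomial ℝ :=
  Polynomial.C c⁻¹ * (1 - (Polynomial.C B⁻¹ * (Polynomial.X - Polynomial.C (c ^ 2))) ^ 2) ^ N

/-- The odd version is a multiple of a power of a bump. -/
private lemma mul_flipPoly_eval (c B : ℝ) (N : ℕ) (t : ℝ) :
    t * (flipPoly c B N).eval (t ^ 2) = t / c * (1 - ((t ^ 2 - c ^ 2) / B) ^ 2) ^ N := by
  simp [flipPoly]; ring

/-- The bump is at most one in absolute value, with equality only at `±c`. -/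
private lemma abs_bump_le {c B t : ℝ} (hB0 : 0 < B) (hcB : c ^ 2 ≤ B) (ht : t ^ 2 ≤ B) :
    (t ^ 2 ≠ c ^ 2 → |1 - ((t ^ 2 - c ^ 2) / B) ^ 2| < 1) ∧
      |1 - ((t ^ 2 - c ^ 2) / B) ^ 2| ≤ 1 := by
  have h2 : |(t ^ 2 - c ^ 2) / B| ≤ 1 := by
    rw [abs_div, abs_of_pos hB0, div_le_one hB0, abs_le]
    constructor <;> nlinarith [sq_nonneg t, sq_nonneg c]
  have h3 : ((t ^ 2 - c ^ 2) / B) ^ 2 ≤ 1 := by rwa [sq_le_one_iff_abs_le_one]
  have h5 : |1 - ((t ^ 2 - c ^ 2) / B) ^ 2| = 1 - ((t ^ 2 - c ^ 2) / B) ^ 2 :=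
    abs_of_nonneg (by linarith)
  refine ⟨fun hne => ?_, by rw [h5]; nlinarith [sq_nonneg ((t ^ 2 - c ^ 2) / B)]⟩
  have h4 : 0 < ((t ^ 2 - c ^ 2) / B) ^ 2 := by
    have : (t ^ 2 - c ^ 2) / B ≠ 0 := div_ne_zero (sub_ne_zero.2 hne) hB0.ne'
    positivity
  rw [h5]; linarith

/-- The odd polynomials converge to the flip weight on the interval `t² ≤ B`. -/
private lemma tendsto_flipPoly {c B t : ℝ} (hc : c ≠ 0) (hB0 : 0 < B) (hcB : c ^ 2 ≤ B)
    (ht : t ^ 2 ≤ B) :
    Tendsto (fun N => t * (flipPoly c B N).eval (t ^ 2)) atTop (𝓝 (flipWeight c t)) := by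
  simp only [mul_flipPoly_eval, flipWeight]
  rcases eq_or_ne t c with rfl | h1
  · rw [if_pos rfl, if_neg (fun e => hc (by linarith))]
    simp [div_self hc]
  rcases eq_or_ne t (-c) with rfl | h2
  · rw [if_neg h1, if_pos rfl]
    simp [neg_div, div_self hc]
  rw [if_neg h1, if_neg h2, sub_zero]
  have hne : t ^ 2 ≠ c ^ 2 := fun e => by
    rcases sq_eq_sq_iff_eq_or_eq_neg.1 e with e | e <;> contradiction
  have := tendsto_pow_atTop_nhds_zero_of_abs_lt_one ((abs_bump_le hB0 hcB ht).1 hne)
  simpa using this.const_mul (t / c)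

/-- And are bounded there uniformly in `N`. -/
private lemma abs_flipPoly_le {c B t : ℝ} (hB0 : 0 < B) (hcB : c ^ 2 ≤ B) (ht : t ^ 2 ≤ B) (N : ℕ) :
    |t * (flipPoly c B N).eval (t ^ 2)| ≤ Real.sqrt B / |c| := by
  rw [mul_flipPoly_eval, abs_mul, abs_pow, abs_div]
  calc |t| / |c| * |1 - ((t ^ 2 - c ^ 2) / B) ^ 2| ^ N ≤ |t| / |c| * 1 :=
        mul_le_mul_of_nonneg_left (pow_le_one₀ (abs_nonneg _) (abs_bump_le hB0 hcB ht).2)
          (by positivity)
    _ ≤ Real.sqrt B / |c| := by
        rw [mul_one]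
        exact div_le_div_of_nonneg_right (Real.abs_le_sqrt ht) (abs_nonneg _)

/-- The odd polynomials vanish in the limit against a continuous density on the circle. -/
private lemma tendsto_integral_flipPoly {c B R : ℝ} (hc : c ≠ 0) (hB0 : 0 < B) (hcB : c ^ 2 ≤ B)
    (hR : 0 < R) (hRB : R ^ 2 ≤ B) {g : ℝ → ℂ} (hg : Continuous g) :
    Tendsto (fun N => ∫ θ in (0 : ℝ)..(2 * Real.pi),
      ((R * Real.cos θ * (flipPoly c B N).eval ((R * Real.cos θ) ^ 2) : ℝ) : ℂ) * g θ)
        atTop (𝓝 0) := by
  have hBθ : ∀ θ, (R * Real.cos θ) ^ 2 ≤ B := fun θ =>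
    le_trans (by rw [mul_pow]; exact mul_le_of_le_one_right (sq_nonneg _) (Real.cos_sq_le_one θ))
      hRB
  have h0 : (0 : ℂ) = ∫ θ in (0 : ℝ)..(2 * Real.pi), (0 : ℂ) := by simp
  rw [h0]
  -- dominated convergence
  refine intervalIntegral.tendsto_integral_filter_of_dominated_convergence
    (fun θ => Real.sqrt B / |c| * ‖g θ‖) ?_ ?_ ?_ ?_
  · exact Eventually.of_forall fun N =>
      (by fun_prop : Continuous fun θ => ((R * Real.cos θ *
        (flipPoly c B N).eval ((R * Real.cos θ) ^ 2) : ℝ) : ℂ) * g θ).aestronglyMeasurable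
  · refine Eventually.of_forall fun N => ae_of_all _ fun θ _ => ?_
    rw [norm_mul, Complex.norm_real, Real.norm_eq_abs]
    exact mul_le_mul_of_nonneg_right (abs_flipPoly_le hB0 hcB (hBθ θ) N) (norm_nonneg _)
  · exact (by fun_prop : Continuous fun θ => Real.sqrt B / |c| * ‖g θ‖).intervalIntegrable _ _
  -- the exceptional angles form a countable set
  · have hnull : volume {θ : ℝ | R * Real.cos θ = c ∨ R * Real.cos θ = -c} = 0 := by
      refine Set.Countable.measure_zero ?_ _
      have hcnt : ∀ d : ℝ, {θ : ℝ | R * Real.cos θ = d}.Countable := fun d => by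
        rcases Set.eq_empty_or_nonempty {θ : ℝ | R * Real.cos θ = d} with he | ⟨θ₁, h₁⟩
        · rw [he]; exact Set.countable_empty
        refine Set.Countable.mono (s₂ := Set.range (fun k : ℤ => 2 * k * Real.pi + θ₁) ∪
          Set.range (fun k : ℤ => 2 * k * Real.pi - θ₁)) ?_
          ((Set.countable_range _).union (Set.countable_range _))
        intro θ hθ
        have he : Real.cos θ₁ = Real.cos θ :=
          mul_left_cancel₀ hR.ne' ((h₁ : R * Real.cos θ₁ = d).trans hθ.symm)
        obtain ⟨k, hk | hk⟩ := Real.cos_eq_cos_iff.1 he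
        · exact Or.inl ⟨k, hk.symm⟩
        · exact Or.inr ⟨k, hk.symm⟩
      exact (hcnt c).union (hcnt (-c))
    rw [ae_iff]
    -- elsewhere the weights tend to zero
    refine measure_mono_null (fun θ hθ => ?_) hnull
    by_contra hnot
    simp only [Set.mem_ofPred_eq, not_or] at hnot
    refine hθ fun _ => ?_
    have := tendsto_flipPoly hc hB0 hcB (hBθ θ)
    rw [flipWeight, if_neg hnot.1, if_neg hnot.2, sub_zero] at this
    simpa using ((Complex.continuous_ofReal.tendsto _).comp this).mul_const (g θ)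

/-- A polynomial is bounded on the points. -/
private lemma exists_abs_eval_le {M : J → ℝ} (hx : ∀ i j, |x i j| ≤ M j) (p : MvPolynomial J ℝ) :
    ∃ C, ∀ i, |MvPolynomial.eval (x i) p| ≤ C := by
  let Y := (j : J) → Set.Icc (-M j) (M j)
  have hcont : Continuous fun y : Y => |MvPolynomial.eval (fun j => (y j : ℝ)) p| :=
    continuous_abs.comp ((MvPolynomial.continuous_eval p).comp (by fun_prop))
  obtain ⟨C, hC⟩ := isCompact_range hcont |>.bddAbove
  exact ⟨C, fun i => hC ⟨fun j => ⟨x i j, abs_le.1 (hx i j)⟩, rfl⟩⟩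

/-- Odd functions matched by a density force the flip weighted family to kill
polynomials free of `j₀`. -/
private lemma tsum_flipWeight_eq_zero (ha : Summable fun i => ‖a i‖) {M : J → ℝ}
    (hx : ∀ i j, |x i j| ≤ M j) (j₀ : J) {R c : ℝ} (hR : 0 < R) (hc : c ≠ 0) (p : MvPolynomial J ℝ)
    {g : ℝ → ℂ} (hg : Continuous g)
    (hgr : ∀ r : Polynomial ℝ,
      ∑' i, a i * (MvPolynomial.eval (x i) p * (x i j₀ * r.eval ((x i j₀) ^ 2)) : ℝ)
        = ∫ θ in (0 : ℝ)..(2 * Real.pi),
            ((R * Real.cos θ * r.eval ((R * Real.cos θ) ^ 2) : ℝ) : ℂ) * g θ) :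
    ∑' i, a i * (flipWeight c (x i j₀) : ℂ) * (MvPolynomial.eval (x i) p : ℂ) = 0 := by
  set B : ℝ := (M j₀) ^ 2 + R ^ 2 + c ^ 2 + 1 with hB
  have hB0 : (0 : ℝ) < B := by positivity
  have hcB : c ^ 2 ≤ B := by nlinarith [sq_nonneg (M j₀), sq_nonneg R]
  have hxB : ∀ i, (x i j₀) ^ 2 ≤ B := fun i => by
    have : (x i j₀) ^ 2 ≤ (M j₀) ^ 2 := sq_le_sq.2 ((hx i j₀).trans (le_abs_self _))
    nlinarith [sq_nonneg R, sq_nonneg c]
  obtain ⟨C, hC⟩ := exists_abs_eval_le hx p
  have hL : Tendsto (fun N => ∑' i, a i *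
      (MvPolynomial.eval (x i) p * (x i j₀ * (flipPoly c B N).eval ((x i j₀) ^ 2)) : ℝ)) atTop
      (𝓝 (∑' i, a i * (flipWeight c (x i j₀) : ℂ) * (MvPolynomial.eval (x i) p : ℂ))) := by
    refine tendsto_tsum_of_dominated_convergence
      (bound := fun i => ‖a i‖ * (C * (Real.sqrt B / |c|))) (ha.mul_right _) (fun i => ?_) ?_
    · have := ((Complex.continuous_ofReal.tendsto _).comp
        ((tendsto_flipPoly hc hB0 hcB (hxB i)).const_mul (MvPolynomial.eval (x i) p))).const_mul
          (a i)
      simp only [Function.comp_def] at this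
      push_cast at this ⊢
      convert this using 2; ring
    · refine Eventually.of_forall fun N i => ?_
      rw [norm_mul, Complex.norm_real, Real.norm_eq_abs, abs_mul]
      exact mul_le_mul_of_nonneg_left (mul_le_mul (hC i) (abs_flipPoly_le hB0 hcB (hxB i) N)
        (abs_nonneg _) ((abs_nonneg _).trans (hC i))) (norm_nonneg _)
  exact tendsto_nhds_unique (hL.congr fun N => hgr (flipPoly c B N))
    (tendsto_integral_flipPoly hc hB0 hcB hR (by nlinarith [sq_nonneg (M j₀), sq_nonneg c]) hg)

open scoped Classical in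
/-- With the fibre over `-c` moved onto `c`, all polynomials are killed. -/
private lemma tsum_moved_eq_zero (j₀ : J) {c : ℝ} (hc : c ≠ 0)
    (key : ∀ p : MvPolynomial J ℝ, j₀ ∉ p.vars →
      ∑' i, a i * (flipWeight c (x i j₀) : ℂ) * (MvPolynomial.eval (x i) p : ℂ) = 0)
    (p : MvPolynomial J ℝ) :
    ∑' i, a i * (flipWeight c (x i j₀) : ℂ)
      * (MvPolynomial.eval (if x i j₀ = -c then setCoord j₀ c (x i) else x i) p : ℂ) = 0 := by
  have := key (MvPolynomial.bind₁ (fun j => if j = j₀ then C c else X j) p) (fun hmem => by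
    have h' := MvPolynomial.vars_bind₁ _ p hmem
    rw [Finset.mem_biUnion] at h'
    obtain ⟨j, -, hj⟩ := h'
    split_ifs at hj with e
    · rw [MvPolynomial.vars_C] at hj
      exact Finset.notMem_empty _ hj
    · rw [MvPolynomial.vars_X, Finset.mem_singleton] at hj
      exact e hj.symm)
  refine Eq.trans (tsum_congr fun i => ?_) this
  by_cases h1 : x i j₀ = c ∨ x i j₀ = -c
  · congr 2
    rw [MvPolynomial.eval, MvPolynomial.eval, MvPolynomial.eval₂Hom_bind₁]
    refine MvPolynomial.eval₂Hom_congr rfl ?_ rfl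
    funext j
    change (if x i j₀ = -c then setCoord j₀ c (x i) else x i) j
      = MvPolynomial.eval (x i) (if j = j₀ then C c else X j)
    rcases eq_or_ne j j₀ with rfl | hj
    · rcases h1 with h1 | h1
      · have h3 : ¬ c = -c := fun e => hc (by linarith)
        simp [h1, h3]
      · simp [h1, setCoord]
    · simp only [if_neg hj]
      split_ifs <;> simp [setCoord, Function.update_of_ne hj]
  · simp only [not_or] at h1
    simp [flipWeight, h1.1, h1.2]

open scoped Classical in
/-- The moved weighted family has at `x₀` the difference of the two atoms. -/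
private lemma indicator_sub_indicator_eq (j₀ : J) (x₀ : J → ℝ) (hx₀ : x₀ j₀ ≠ 0) (i : I) :
    Set.indicator {i | x i = x₀} a i - Set.indicator {i | x i = setCoord j₀ (-(x₀ j₀)) x₀} a i
      = Set.indicator {i | (if x i j₀ = -(x₀ j₀) then setCoord j₀ (x₀ j₀) (x i) else x i) = x₀}
          (fun i => a i * (flipWeight (x₀ j₀) (x i j₀) : ℂ)) i := by
  set c := x₀ j₀ with hc
  simp only [Set.indicator, Set.mem_ofPred_eq, flipWeight]
  by_cases h1 : x i j₀ = c
  · have h2 : ¬ x i j₀ = -c := fun e => hx₀ (by linarith)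
    have h3 : ¬ x i = setCoord j₀ (-c) x₀ := fun e => h2 (by rw [e]; simp [setCoord])
    simp [h1, h3, (show ¬ c = -c from fun e => hx₀ (by linarith))]
  · have h3 : ¬ x i = x₀ := fun e => h1 (by rw [e])
    by_cases h2 : x i j₀ = -c
    · have e : setCoord j₀ c (x i) = x₀ ↔ x i = setCoord j₀ (-c) x₀ := by
        constructor <;> intro e
        · rw [← e]; funext j
          rcases eq_or_ne j j₀ with rfl | hj
          · simp [setCoord, h2]
          · simp [setCoord, Function.update_of_ne hj]
        · rw [e]; funext j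
          rcases eq_or_ne j j₀ with rfl | hj
          · simp [setCoord, hc]
          · simp [setCoord, Function.update_of_ne hj]
      simp only [h2, h3, if_true, if_false, e, (show ¬ (-c) = c from fun e => hx₀ (by linarith))]
      split_ifs <;> simp
    · have h4 : ¬ x i = setCoord j₀ (-c) x₀ := fun e => h2 (by rw [e]; simp [setCoord])
      simp [h2, h3, h4]

open scoped Classical in
/-- Odd moments given by a continuous density force the atoms to be invariant under a sign flip. -/
theorem atom_eq_flip (ha : Summable fun i => ‖a i‖) {M : J → ℝ} (hx : ∀ i j, |x i j| ≤ M j)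
    (j₀ : J) {R : ℝ} (hR : 0 < R) (x₀ : J → ℝ) (hx₀ : x₀ j₀ ≠ 0)
    (h : ∀ p : MvPolynomial J ℝ, j₀ ∉ p.vars → ∃ g : ℝ → ℂ, Continuous g ∧ ∀ r : Polynomial ℝ,
      ∑' i, a i * (MvPolynomial.eval (x i) p * (x i j₀ * r.eval ((x i j₀) ^ 2)) : ℝ)
        = ∫ θ in (0 : ℝ)..(2 * Real.pi),
            ((R * Real.cos θ * r.eval ((R * Real.cos θ) ^ 2) : ℝ) : ℂ) * g θ) :
    atom a x x₀ = atom a x (setCoord j₀ (-(x₀ j₀)) x₀) := by
  set c := x₀ j₀ with hc
  -- move both fibres onto the coordinate value `c`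
  let b : I → ℂ := fun i => a i * (flipWeight c (x i j₀) : ℂ)
  let z : I → J → ℝ := fun i => if x i j₀ = -c then setCoord j₀ c (x i) else x i
  have hb : Summable fun i => ‖b i‖ := by
    refine Summable.of_nonneg_of_le (fun _ => norm_nonneg _) (fun i => ?_) ha
    simp only [b, norm_mul, Complex.norm_real, Real.norm_eq_abs, flipWeight]
    refine mul_le_of_le_one_right (norm_nonneg _) ?_
    split_ifs <;> norm_num
  have hz : ∀ i j, |z i j| ≤ max (M j) |c| := fun i j => by
    simp only [z]
    split_ifs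
    · rcases eq_or_ne j j₀ with rfl | hj
      · simp [setCoord]
      · simp [setCoord, Function.update_of_ne hj, hx i j]
    · exact le_max_of_le_left (hx i j)
  have h0 := atom_eq_zero hb hz (tsum_moved_eq_zero j₀ hx₀ fun p hp => by
    obtain ⟨g, hg, hgr⟩ := h p hp
    exact tsum_flipWeight_eq_zero ha hx j₀ hR hx₀ p hg hgr) x₀
  have hS1 : Summable (Set.indicator {i | x i = x₀} a) :=
    Summable.of_norm_bounded ha fun i => norm_indicator_le_norm_self a i
  have hS2 : Summable (Set.indicator {i | x i = setCoord j₀ (-c) x₀} a) :=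
    Summable.of_norm_bounded ha fun i => norm_indicator_le_norm_self a i
  rw [← sub_eq_zero, atom, atom, ← Summable.tsum_sub hS1 hS2, ← h0, atom]
  exact tsum_congr fun i => indicator_sub_indicator_eq j₀ x₀ hx₀ i

/-- **Atoms are symmetric under a flip**, given densities at monomials: the coordinates are those
satisfying `ok`, and the monomials use those satisfying `av`. -/
theorem atom_eq_flip_of_lists {I J : Type*} {a : I → ℂ} {x : I → J → ℝ}
    (ha : Summable fun i => ‖a i‖) (hb : ∀ j, ∃ M : ℝ, ∀ i, |x i j| ≤ M) {ok av : J → Prop}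
    (hav : ∀ j, av j → ok j) (j₀ : {j // ok j}) (hne : ∀ j : {j // ok j}, j ≠ j₀ → av j.1)
    {R : ℝ} (hR : 0 < R)
    (hdens : ∀ l : List J, (∀ j ∈ l, av j) → ∃ g : ℝ → ℂ, Continuous g ∧ ∀ r : Polynomial ℝ,
      HasSum (fun i => a i * (((l.map fun j => x i j).prod *
          (x i j₀.1 * r.eval (x i j₀.1 ^ 2)) : ℝ) : ℂ))
        (∫ θ in (0 : ℝ)..(2 * Real.pi),
          ((R * Real.cos θ * r.eval ((R * Real.cos θ) ^ 2) : ℝ) : ℂ) * g θ))
    (y : J → ℝ) (hy : y j₀.1 ≠ 0) :
    atom a (fun i (j : {j // ok j}) => x i j.1) (fun j => y j.1)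
      = atom a (fun i (j : {j // ok j}) => x i j.1) (setCoord j₀ (-(y j₀.1)) fun j => y j.1) := by
  choose M hM using hb
  refine atom_eq_flip ha (M := fun j : {j // ok j} => M j.1) (fun i j => hM j.1 i) j₀ hR _ hy
    fun P hP => ?_
  let ι : {j // av j} → {j // ok j} := fun j => ⟨j.1, hav _ j.2⟩
  obtain ⟨Q, rfl⟩ := MvPolynomial.exists_rename_eq_of_vars_subset_range P ι
    (fun b c h => Subtype.ext (congrArg (fun z : {j // ok j} => z.1) h))
    fun j hj => ⟨⟨j.1, hne j fun e => hP (e ▸ Finset.mem_coe.1 hj)⟩, rfl⟩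
  -- the density hypothesis extends from lists to polynomials in the other coordinates
  have key : ∀ l : List {j // av j}, ∃ g : ℝ → ℂ, Continuous g ∧ ∀ r : Polynomial ℝ,
      HasSum (fun i => a i * ((MvPolynomial.eval (fun j => x i j.1) Q *
        (l.map fun j => x i j.1).prod * (x i j₀.1 * r.eval (x i j₀.1 ^ 2)) : ℝ) : ℂ))
        (∫ θ in (0 : ℝ)..(2 * Real.pi),
            ((R * Real.cos θ * r.eval ((R * Real.cos θ) ^ 2) : ℝ) : ℂ) * g θ) := by
    clear hP
    induction Q using MvPolynomial.induction_on with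
    | C c =>
      intro l
      obtain ⟨g, hg, h⟩ := hdens (l.map (·.1)) fun j hj => by
        obtain ⟨b, -, rfl⟩ := List.mem_map.1 hj
        exact b.2
      refine ⟨fun θ => (c : ℂ) * g θ, continuous_const.mul hg, fun r => ?_⟩
      have h' := (h r).mul_left (c : ℂ)
      rw [← intervalIntegral.integral_const_mul] at h'
      rw [intervalIntegral.integral_congr (g := fun θ =>
              (c : ℂ) * (((R * Real.cos θ * r.eval ((R * Real.cos θ) ^ 2) : ℝ) : ℂ) * g θ))
        fun θ _ => by ring]
      refine h'.congr_fun fun i => ?_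
      simp only [MvPolynomial.eval_C, List.map_map, Function.comp_def]
      push_cast
      ring
    | add f f' hf hf' =>
      intro l
      obtain ⟨g, hg, h⟩ := hf l
      obtain ⟨g', hg', h'⟩ := hf' l
      refine ⟨fun θ => g θ + g' θ, hg.add hg', fun r => ?_⟩
      have h2 := (h r).add (h' r)
      rw [← intervalIntegral.integral_add] at h2
      rotate_left
      · exact (by fun_prop : Continuous fun θ =>
          ((R * Real.cos θ * r.eval ((R * Real.cos θ) ^ 2) : ℝ) : ℂ) *
            g θ).intervalIntegrable _ _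
      · exact (by fun_prop : Continuous fun θ =>
          ((R * Real.cos θ * r.eval ((R * Real.cos θ) ^ 2) : ℝ) : ℂ) *
            g' θ).intervalIntegrable _ _
      simp only [← mul_add] at h2
      refine h2.congr_fun fun i => ?_
      simp only [map_add]
      push_cast
      ring
    | mul_X f j hf =>
      intro l
      obtain ⟨g, hg, h⟩ := hf (j :: l)
      refine ⟨g, hg, fun r => (h r).congr_fun fun i => ?_⟩
      simp only [map_mul, MvPolynomial.eval_X, List.map_cons, List.prod_cons]
      push_cast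
      ring
  obtain ⟨g, hg, h⟩ := key []
  refine ⟨g, hg, fun r => ?_⟩
  rw [← (h r).tsum_eq]
  refine tsum_congr fun i => ?_
  simp only [MvPolynomial.eval_rename, List.map_nil, List.prod_nil, mul_one, Function.comp_def, ι]

end Fermat.LT
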