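import Fermat.Agent.LT.Height

/-!
# Finitely many orbits of the upper triangular matrices on finite points

`exists_borel_reps` gives representatives of these orbits, from the finiteness of the class group;
`upMat a x` is the matrix `(a x; 0 1)`.
-/

set_option autoImplicit false
open Filter
open scoped Classical Matrix

namespace Fermat.LT

variable {F : Type*} [Field F] [NumberField F]

/-- The matrix `(a x; 0 1)`. -/
noncomputable def upMat (a : Fˣ) (x : F) : GL (Fin 2) F :=
  Matrix.GeneralLinearGroup.mkOfDetNeZero !![(a : F), x; 0, 1] (by simp [Matrix.det_fin_two])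

omit [NumberField F] in
/-- The entries of an upper triangular matrix. -/
@[simp] lemma coe_upMat (a : Fˣ) (x : F) :
    (upMat a x : Matrix (Fin 2) (Fin 2) F) = !![(a : F), x; 0, 1] := rfl

omit [NumberField F] in
/-- Upper triangular matrices compose affinely. -/
lemma upMat_mul (a b : Fˣ) (x y : F) : upMat a x * upMat b y = upMat (a * b) ((a : F) * y + x) := by
  ext i j
  fin_cases i <;> fin_cases j <;> simp [Matrix.mul_apply]

omit [NumberField F] in
/-- The identity is upper triangular. -/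
lemma upMat_one : upMat (1 : Fˣ) (0 : F) = 1 := by
  ext i j
  fin_cases i <;> fin_cases j <;> simp

omit [NumberField F] in
/-- The inverse of `(a x; 0 1)` is `(a⁻¹ -a⁻¹x; 0 1)`. -/
lemma upMat_inv (a : Fˣ) (x : F) : (upMat a x)⁻¹ = upMat a⁻¹ (-((a⁻¹ : Fˣ) : F) * x) := by
  refine inv_eq_of_mul_eq_one_right ?_
  rw [upMat_mul, mul_inv_cancel, ← upMat_one]
  congr 1
  field_simp
  ring_nf
  simp

variable (v : Valuation F (WithZero (Multiplicative ℤ)))

omit [NumberField F] in
/-- `(a x; 0 1)` is integral invertible when `a` is a unit and `x` is integral. -/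
lemma upMat_mem_intGL {a : Fˣ} {x : F} (ha : v (a : F) = 1) (hx : v x ≤ 1) :
    upMat a x ∈ intGL v := by
  refine mem_intGL_of_le (fun i j => ?_) fun i j => ?_
  · fin_cases i <;> fin_cases j <;> simp [ha.le, hx]
  · rw [upMat_inv]
    fin_cases i <;> fin_cases j <;> simp [ha, hx]

/-- An upper triangular representative modulo the stabiliser of the standard vertex. -/
lemma exists_upMat_mod_U0 (g : GL (Fin 2) F) :
    ∃ (a : Fˣ) (x : F), (upMat a x)⁻¹ * g ∈ U0 v := by
  obtain ⟨k, hk, hk10⟩ : ∃ k ∈ intGL v, ((g * k : GL (Fin 2) F) : Matrix (Fin 2) (Fin 2) F) 1 0 =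
      0 := by
    set c := (g : Matrix (Fin 2) (Fin 2) F) 1 0 with hc
    set d := (g : Matrix (Fin 2) (Fin 2) F) 1 1 with hd
    -- clear the entry `(1,0)` with a column operation
    rcases le_or_gt (v c) (v d) with h | h
    · have hd0 : d ≠ 0 := fun h0 => by
        rw [h0, map_zero, le_zero_iff, map_eq_zero] at h
        exact (Matrix.GeneralLinearGroup.det g).ne_zero
          (by simp [Matrix.det_fin_two, ← hc, ← hd, h, h0])
      refine ⟨Matrix.GeneralLinearGroup.mkOfDetNeZero !![1, 0; -(c / d), 1]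
        (by simp [Matrix.det_fin_two]), ?_, ?_⟩
      · have hcd : v (c / d) ≤ 1 := by
          rw [map_div₀, div_le_one₀ (zero_lt_iff.2 (by simpa using hd0))]; exact h
        refine mem_intGL_of_le (fun i j => ?_) fun i j => ?_
        · fin_cases i <;> fin_cases j <;> simp [Valuation.map_neg, -map_div₀, hcd]
        · rw [Matrix.coe_units_inv]
          fin_cases i <;> fin_cases j <;>
            simp [Matrix.inv_def, Matrix.det_fin_two, Matrix.adjugate_fin_two, -map_div₀, hcd]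
      · simp [Matrix.mul_apply, ← hc, ← hd]
        field_simp
        ring
    · have hc0 : c ≠ 0 := fun h0 => by simp [h0] at h
      refine ⟨Matrix.GeneralLinearGroup.mkOfDetNeZero !![-(d / c), 1; 1, 0]
        (by simp [Matrix.det_fin_two]), ?_, ?_⟩
      · have hcd : v (d / c) ≤ 1 := by
          rw [map_div₀, div_le_one₀ (zero_lt_iff.2 (by simpa using hc0))]; exact h.le
        refine mem_intGL_of_le (fun i j => ?_) fun i j => ?_
        · fin_cases i <;> fin_cases j <;> simp [Valuation.map_neg, -map_div₀, hcd]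
        · rw [Matrix.coe_units_inv]
          fin_cases i <;> fin_cases j <;>
            simp [Matrix.inv_def, Matrix.det_fin_two, Matrix.adjugate_fin_two,
              -map_div₀, hcd]
      · simp [Matrix.mul_apply, ← hc, ← hd]
        field_simp
        ring
  set m := g * k with hm
  have hdet : (m : Matrix (Fin 2) (Fin 2) F).det ≠ 0 := (Matrix.GeneralLinearGroup.det m).ne_zero
  rw [Matrix.det_fin_two, hk10, mul_zero, sub_zero, mul_ne_zero_iff] at hdet
  refine ⟨Units.mk0 _ (div_ne_zero hdet.1 hdet.2),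
    (m : Matrix (Fin 2) (Fin 2) F) 0 1 / (m : Matrix (Fin 2) (Fin 2) F) 1 1, ?_⟩
  set c : Fˣ := Units.mk0 _ hdet.2 with hcdef
  set u := upMat (Units.mk0 _ (div_ne_zero hdet.1 hdet.2))
    ((m : Matrix (Fin 2) (Fin 2) F) 0 1 / (m : Matrix (Fin 2) (Fin 2) F) 1 1) with hu
  have e : m = u * scal c := by
    ext i j
    fin_cases i <;> fin_cases j <;> simp [hu, hcdef, Matrix.mul_apply, hk10, hdet.2]
  have e2 : u⁻¹ * g = scal c * k⁻¹ := by
    rw [show g = m * k⁻¹ by rw [hm, mul_inv_cancel_right], e, mul_assoc, inv_mul_cancel_left]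
  rw [e2]
  exact (U0 v).mul_mem (scal_mem_withScalars _ c) (le_withScalars _ ((intGL v).inv_mem hk))

/-- An element may be prescribed orders outside a set generating the class group, and inside it up
to given periods. -/
lemma exists_ord_congr {T : Finset (Place F)} (hT : CFT.GeneratesClassGroup (T : Set (Place F)))
    {g : Place F → F} {h : Place F → ℕ} (hh : ∀ v, 0 < h v) (hg0 : ∀ v, g v ≠ 0)
    (hgv : ∀ v, CFT.ord v (g v) = h v) (hgw : ∀ v w, w ≠ v → CFT.ord w (g v) = 0)
    (n : Place F → ℤ) (hnfin : {v | n v ≠ 0}.Finite) :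
    ∃ a : F, a ≠ 0 ∧ (∀ w ∈ T, 0 ≤ n w - CFT.ord w a ∧ n w - CFT.ord w a < h w) ∧
      ∀ w ∉ T, CFT.ord w a = n w := by
  obtain ⟨a₀, ha₀, ha₀'⟩ := hT n hnfin
  set e : Place F → ℤ := fun v => (n v - CFT.ord v a₀) / h v with he
  set a : F := a₀ * ∏ v ∈ T, g v ^ e v with hadef
  have ha0 : a ≠ 0 := mul_ne_zero ha₀ (Finset.prod_ne_zero_iff.2 fun v _ => zpow_ne_zero _ (hg0 v))
  have hord : ∀ w : Place F, CFT.ord w a = if w ∈ T then
      n w - (n w - CFT.ord w a₀) % h w else n w := fun w => by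
    rw [hadef, CFT.ord_mul w ha₀ (Finset.prod_ne_zero_iff.2 fun v _ => zpow_ne_zero _ (hg0 v)),
      CFT.ord_prod w _ _ fun v _ => zpow_ne_zero _ (hg0 v)]
    split_ifs with hw
    · rw [Finset.sum_eq_single_of_mem w hw fun v _ hne => by
        rw [CFT.ord_zpow, hgw v w (Ne.symm hne), mul_zero], CFT.ord_zpow, hgv, he]
      rw [Int.emod_def]
      ring
    · rw [Finset.sum_eq_zero fun v hv => by
        rw [CFT.ord_zpow, hgw v w (fun e => hw (e ▸ hv)), mul_zero], ha₀' w hw, add_zero]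
  refine ⟨a, ha0, fun w hw => ?_, fun w hw => by rw [hord, if_neg hw]⟩
  rw [hord, if_pos hw, sub_sub_cancel]
  exact ⟨Int.emod_nonneg _ (by have := hh w; omega),
    Int.emod_lt_of_pos _ (by exact_mod_cast hh w)⟩

/-- The quotient of two upper triangular matrices with diagonals of equal valuation and off-diagonal
entries close by is integral. -/
lemma upMat_div_mem_intGL (v : Valuation F (WithZero (Multiplicative ℤ))) {b c : Fˣ} {x y : F}
    (hv : v (b : F) = v (c : F)) (hd : v (y - x) ≤ v (c : F)) :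
    upMat (b⁻¹ * c) (((b⁻¹ : Fˣ) : F) * y + -((b⁻¹ : Fˣ) : F) * x) ∈ intGL v := by
  have hne : v (c : F) ≠ 0 := by simp
  refine upMat_mem_intGL _ ?_ ?_
  · simp only [Units.val_mul, Units.val_inv_eq_inv_val]
    rw [map_mul, map_inv₀, hv, inv_mul_cancel₀ hne]
  · rw [show ((b⁻¹ : Fˣ) : F) * y + -((b⁻¹ : Fˣ) : F) * x = (b : F)⁻¹ * (y - x) by simp; ring,
      map_mul, map_inv₀, hv]
    calc _ ≤ (v (c : F))⁻¹ * v (c : F) := mul_le_mul_right hd _
      _ = 1 := inv_mul_cancel₀ hne

/-- **Finitely many orbits of `(* *; 0 1)` on restricted products of cosets.** -/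
theorem exists_borel_reps_gen (H : Place F → Subgroup (GL (Fin 2) F))
    (hle : ∀ v, H v ≤ U0 (v.valuation F)) (hH : ∀ᶠ v in cofinite, H v = U0 (v.valuation F))
    (hfin : ∀ v, ∃ s : Finset (GL (Fin 2) F), ∀ g ∈ U0 (v.valuation F), ∃ k ∈ s, g⁻¹ * k ∈ H v) :
    ∃ Ω : Finset (∀ v, GL (Fin 2) F ⧸ H v),
      (∀ f ∈ Ω, ∀ᶠ v in cofinite, f v = ((1 : GL (Fin 2) F) : GL (Fin 2) F ⧸ H v)) ∧
      ∀ ω : ∀ v, GL (Fin 2) F ⧸ H v,
        (∀ᶠ v in cofinite, ω v = ((1 : GL (Fin 2) F) : GL (Fin 2) F ⧸ H v)) →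
        ∃ (a : Fˣ) (x : F), ∃ ω₀ ∈ Ω, ∀ v, upMat a x • ω₀ v = ω v := by
  obtain ⟨T, hT⟩ := CFT.exists_finset_generatesClassGroup F
  choose g h hh hg0 hgv hgw using fun v : Place F => CFT.exists_ord_pow_single v
  choose π hπ using fun v : Place F => v.valuation_exists_uniformizer F
  have hπ0 : ∀ v, π v ≠ 0 := fun v h0 => by
    have := hπ v; rw [h0, map_zero] at this; exact WithZero.exp_ne_zero this.symm
  choose s hs' using hfin
  -- representatives
  set U : Finset (Place F) := T ∪ (eventually_cofinite.1 hH).toFinset with hU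
  let cand : ∀ v : Place F, Finset (GL (Fin 2) F ⧸ H v) := fun v =>
    if v ∈ U then ((Finset.range (h v)) ×ˢ s v).image
      (fun p => ((upMat (Units.mk0 _ (pow_ne_zero p.1 (hπ0 v))) 0 * p.2 : GL (Fin 2) F) : GL
        (Fin 2) F ⧸ H v))
    else {((1 : GL (Fin 2) F) : GL (Fin 2) F ⧸ H v)}
  let mkω : (∀ v : U, GL (Fin 2) F ⧸ H v.1) → ∀ v, GL (Fin 2) F ⧸ H v := fun f v =>
    if hv : v ∈ U then f ⟨v, hv⟩ else ((1 : GL (Fin 2) F) : GL (Fin 2) F ⧸ H v)
  refine ⟨(Fintype.piFinset fun v : U => cand v.1).image mkω, fun f hf => ?_, fun ω hω0 => ?_⟩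
  · obtain ⟨f', -, rfl⟩ := Finset.mem_image.1 hf
    filter_upwards [U.finite_toSet.compl_mem_cofinite] with v hv
    simp only [Set.mem_compl_iff, Finset.mem_coe] at hv
    simp [mkω, hv]
  have hbase := eventually_cofinite.1 hω0
  -- local upper triangular forms
  have hloc : ∀ v, ∃ (a : Fˣ) (x : F), (upMat a x)⁻¹ * (ω v).out ∈ U0 (v.valuation F) ∧
      (ω v = ((1 : GL (Fin 2) F) : GL (Fin 2) F ⧸ H v) → a = 1 ∧ x = 0) := fun v => by
    by_cases hv : ω v = ((1 : GL (Fin 2) F) : GL (Fin 2) F ⧸ H v)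
    · refine ⟨1, 0, ?_, fun _ => ⟨rfl, rfl⟩⟩
      rw [upMat_one, inv_one, one_mul, hv]
      obtain ⟨k, hk⟩ := QuotientGroup.mk_out_eq_mul (H v) (1 : GL (Fin 2) F)
      rw [hk, one_mul]
      exact hle v k.2
    · obtain ⟨a, x, hax⟩ := exists_upMat_mod_U0 (v.valuation F) (ω v).out
      exact ⟨a, x, hax, fun h' => absurd h' hv⟩
  choose al xl hal hal1 using hloc
  set n : Place F → ℤ := fun v => CFT.ord v (al v : F) with hn
  have hnfin : {v | n v ≠ 0}.Finite := hbase.subset fun v hv hω => hv (by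
    simp [hn, (hal1 v hω).1, CFT.ord])
  obtain ⟨a, ha0, haT, haT'⟩ := exists_ord_congr hT hh hg0 hgv hgw n hnfin
  set r : Place F → ℕ := fun v => (n v - CFT.ord v a).toNat with hr
  have hr_eq : ∀ v, (r v : ℤ) = n v - CFT.ord v a := fun v => by
    by_cases hv : v ∈ T
    · exact Int.toNat_of_nonneg (haT v hv).1
    · simp [hr, haT' v hv]
  -- strong approximation
  set E : Finset (Place F) := hbase.toFinset ∪ T ∪ (CFT.finite_ord_ne_zero a).toFinset with hE
  obtain ⟨N, hN⟩ : ∃ N : ℕ, ∀ v ∈ E, n v ≤ N := by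
    obtain ⟨N, hN⟩ := Finset.bddAbove (E.image fun v => (n v).toNat)
    exact ⟨N, fun v hv => (Int.self_le_toNat _).trans
      (by exact_mod_cast hN (Finset.mem_coe.2 (Finset.mem_image_of_mem _ hv)))⟩
  obtain ⟨x, hx1, hx2⟩ := exists_approx E xl N
  refine ⟨Units.mk0 a ha0, x, fun v => (upMat (Units.mk0 a ha0) x)⁻¹ • ω v, ?_,
    fun v => by rw [smul_inv_smul]⟩
  have hkey : ∀ v, (upMat (Units.mk0 a ha0) x * upMat (Units.mk0 _ (pow_ne_zero (r v) (hπ0 v))) 0)⁻¹
      * (ω v).out ∈ U0 (v.valuation F) := fun v => by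
    rw [show (upMat (Units.mk0 a ha0) x * upMat (Units.mk0 _ (pow_ne_zero (r v) (hπ0 v))) 0)⁻¹
        * (ω v).out =
          ((upMat (Units.mk0 a ha0) x * upMat (Units.mk0 _ (pow_ne_zero (r v) (hπ0 v))) 0)⁻¹
          * upMat (al v) (xl v)) * ((upMat (al v) (xl v))⁻¹ * (ω v).out) by group]
    refine (U0 _).mul_mem (le_withScalars _ ?_) (hal v)
    rw [upMat_mul, upMat_inv, upMat_mul]
    refine upMat_div_mem_intGL _ ?_ ?_
    · simp only [Units.val_mul, Units.val_mk0]
      rw [CFT.valuation_eq_exp_neg_ord v (al v).ne_zero,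
        CFT.valuation_eq_exp_neg_ord v (mul_ne_zero ha0 (pow_ne_zero _ (hπ0 v))),
        CFT.ord_mul v ha0 (pow_ne_zero _ (hπ0 v)), CFT.ord_pow,
        show CFT.ord v (π v) = 1 by simp [CFT.ord, hπ v], mul_one, hr_eq]
      congr 2; ring
    · rw [mul_zero, zero_add]
      by_cases hv : v ∈ E
      · rw [Valuation.map_sub_swap]
        refine (hx1 v hv).trans ?_
        rw [CFT.valuation_eq_exp_neg_ord v (al v).ne_zero, WithZero.exp_le_exp]
        have := hN v hv
        simp only [hn] at this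
        omega
      · have hω : ω v = ((1 : GL (Fin 2) F) : GL (Fin 2) F ⧸ H v) := by
          by_contra hh'
          exact hv (by simp [hE, hh'])
        obtain ⟨h1, h2⟩ := hal1 v hω
        simpa [h1, h2] using hx2 v hv
  refine Finset.mem_image.2 ⟨fun v => (upMat (Units.mk0 a ha0) x)⁻¹ • ω v.1, ?_, ?_⟩
  · refine Fintype.mem_piFinset.2 fun v => ?_
    simp only [cand, if_pos v.2]
    obtain ⟨k, hk, hk'⟩ := hs' v.1 _ (hkey v.1)
    refine Finset.mem_image.2 ⟨(r v.1, k), Finset.mem_product.2 ⟨Finset.mem_range.2 ?_, hk⟩, ?_⟩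
    · by_cases hv : v.1 ∈ T
      · have := (haT v.1 hv).2
        have := hr_eq v.1
        omega
      · simp [hr, haT' v.1 hv, hh v.1]
    · rw [← QuotientGroup.out_eq' (ω v.1), MulAction.Quotient.smul_coe,
        QuotientGroup.eq]
      rw [mul_inv_rev, mul_assoc] at hk'
      have hlev : k⁻¹ * ((upMat (Units.mk0 _ (pow_ne_zero (r v.1) (hπ0 v.1))) 0)⁻¹
          * ((upMat (Units.mk0 a ha0) x)⁻¹ * (ω v.1).out)) ∈ H v.1 := by
        simpa [mul_assoc] using (H v.1).inv_mem hk'
      simpa [mul_assoc] using hlev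
  · refine funext fun v => ?_
    simp only [mkω]
    split_ifs with hv
    · rfl
    · rw [hU, Finset.mem_union, Set.Finite.mem_toFinset, Set.mem_ofPred_eq, not_or, not_not] at hv
      have h1 := hkey v
      simp only [hr, haT' v hv.1, sub_self, Int.toNat_zero, pow_zero] at h1
      rw [show (Units.mk0 (1 : F) one_ne_zero) = 1 from Units.ext rfl, upMat_one, mul_one] at h1
      replace h1 := hv.2.ge h1
      rw [← QuotientGroup.out_eq' (ω v), MulAction.Quotient.smul_coe,
        eq_comm, QuotientGroup.eq]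
      simpa using (H v).inv_mem h1

variable {S : Set (Place F)} [Finite S]

/-- **Finitely many orbits of `(* *; 0 1)` on finite points.** -/
theorem exists_borel_reps : ∃ Ω : Finset (FinPt F S), ∀ ω : FinPt F S,
    ∃ (a : Fˣ) (x : F), ∃ ω₀ ∈ Ω, upMat a x • ω₀ = ω := by
  obtain ⟨Ω, hΩ, hcov⟩ := exists_borel_reps_gen (F := F) (lev S) (lev_le_U0 S)
    ((Set.toFinite S).eventually_cofinite_notMem.mono fun v hv => lev_of_not_mem hv) fun v => by
      obtain ⟨s, -, hs⟩ := exists_finset_U0_coset v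
      refine ⟨s, fun g hg => ?_⟩
      obtain ⟨k, hk, h⟩ := hs g hg
      refine ⟨k, hk, ?_⟩
      by_cases hv : v ∈ S
      · exact (lev_of_mem hv).ge h
      · exact (lev_of_not_mem hv).ge (U1_le_U0 _ h)
  refine ⟨Ω.attach.image fun f => ⟨f.1, hΩ _ f.2⟩, fun ω => ?_⟩
  obtain ⟨a, x, f, hf, h⟩ := hcov ω.1 ω.2
  exact ⟨a, x, ⟨f, hΩ _ hf⟩, Finset.mem_image.2 ⟨⟨f, hf⟩, Finset.mem_attach _ _, rfl⟩,
    Subtype.ext (funext h)⟩

end Fermat.LT
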