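import Fermat.Agent.LT.CuspLocal

/-!
# The unipotent averages of a kernel with a cuspidal place vanish

`exists_cusp_classes` groups the translations into finitely many classes of vanishing kernel sum,
as input of `CuspBound`.
-/

set_option autoImplicit false
open IsDedekindDomain NumberField Filter Set
open scoped Classical

namespace Fermat.LT

variable {F : Type*} [Field F] [NumberField F] {S : Set (Place F)} [Finite S]

/-- Denominator `D`, period `N` and levels `n` for the translates of `u₀`: small translations fix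
`ω` and `u₀`, and translations into the support of the kernel have denominator `D`. -/
structure TransLevels (K : PKer F S) (ω u₀ : FinPt F S) (D N : ℕ) (n : Place F → ℕ) : Prop where
  /-- The denominator is not zero. -/
  den_ne : D ≠ 0
  /-- The period is not zero. -/
  per_ne : N ≠ 0
  /-- Almost all levels are zero. -/
  fin : {v | n v ≠ 0}.Finite
  /-- Translations of level `n v` fix both points at `v`. -/
  fix : ∀ v x, v.valuation F x ≤ WithZero.exp (-(n v : ℤ)) →
    upMat (1 : Fˣ) x • ω.1 v = ω.1 v ∧ upMat (1 : Fˣ) x • u₀.1 v = u₀.1 v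
  /-- The period has all these levels. -/
  small : ∀ v : Place F, v.valuation F (N : F) ≤ WithZero.exp (-(n v : ℤ))
  /-- Translations into the support have denominator `D`. -/
  integral : ∀ v x, K.loc v (ω.1 v) (upMat (1 : Fˣ) x • u₀.1 v) ≠ 0 →
    v.valuation F (x * (D : F)) ≤ 1

/-- Levels of translations fixing two points exist. -/
lemma exists_fix_levels (ω u₀ : FinPt F S) :
    ∃ n : Place F → ℕ, {v | n v ≠ 0}.Finite ∧ ∀ v x, v.valuation F x ≤ WithZero.exp (-(n v : ℤ)) →
      upMat (1 : Fˣ) x • ω.1 v = ω.1 v ∧ upMat (1 : Fˣ) x • u₀.1 v = u₀.1 v := by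
  set E : Finset (Place F) := (eventually_cofinite.1 ω.2).toFinset ∪
    (eventually_cofinite.1 u₀.2).toFinset ∪ (Set.toFinite S).toFinset with hE
  choose m hm using fun v : Place F => exists_unip_fix v (ω.1 v)
  choose m' hm' using fun v : Place F => exists_unip_fix v (u₀.1 v)
  refine ⟨fun v => if v ∈ E then max (m v) (m' v) else 0, E.finite_toSet.subset fun v hv => ?_,
    fun v x hx => ?_⟩
  · by_contra h
    exact hv (if_neg h)
  simp only at hx
  split_ifs at hx with hv
  · exact ⟨hm v x (hx.trans (WithZero.exp_le_exp.2 (by omega))),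
      hm' v x (hx.trans (WithZero.exp_le_exp.2 (by omega)))⟩
  · simp only [hE, Finset.mem_union, Set.Finite.mem_toFinset, mem_ofPred_eq, not_or, not_not] at hv
    rw [hv.1.1, hv.1.2]
    exact ⟨unip_fix_base hv.2 (by simpa using hx), unip_fix_base hv.2 (by simpa using hx)⟩

/-- Translations carrying `u₀` into the support of the kernel are bounded,
almost everywhere by one. -/
lemma exists_supp_bound (K : PKer F S) (ω u₀ : FinPt F S) :
    ∃ B : Place F → ℕ, {v | B v ≠ 0}.Finite ∧
      ∀ v x, K.loc v (ω.1 v) (upMat (1 : Fˣ) x • u₀.1 v) ≠ 0 →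
        v.valuation F x ≤ WithZero.exp (B v : ℤ) := by
  set E : Finset (Place F) := (eventually_cofinite.1 K.ae_one).toFinset ∪
    (eventually_cofinite.1 ω.2).toFinset ∪ (eventually_cofinite.1 u₀.2).toFinset ∪
    (Set.toFinite S).toFinset with hE
  refine ⟨fun v => if v ∈ E then 2 * (lvl (v.valuation F) (u₀.1 v).out
      + ((K.loc v).finite_row (ω.1 v)).toFinset.sup fun y => lvl (v.valuation F) y.out) else 0,
    E.finite_toSet.subset fun v hv => ?_, fun v x hx => ?_⟩
  · by_contra h
    exact hv (if_neg h)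
  simp only
  split_ifs with hv
  · refine ((upMat_smul_bound (y := u₀.1 v) (a := 1) (b := x) rfl).2).trans
      (WithZero.exp_le_exp.2 ?_)
    have h : lvl (v.valuation F) (upMat (1 : Fˣ) x • u₀.1 v).out
        ≤ ((K.loc v).finite_row (ω.1 v)).toFinset.sup fun y => lvl (v.valuation F) y.out :=
      Finset.le_sup (f := fun y : Vert S v => lvl (v.valuation F) y.out) (by simpa using hx)
    exact_mod_cast Nat.mul_le_mul_left 2 (Nat.add_le_add_left h _)
  · simp only [hE, Finset.mem_union, Set.Finite.mem_toFinset, mem_ofPred_eq, not_or, not_not] at hv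
    rw [hv.1.1.1, hv.1.1.2, hv.1.2, LKer.one_apply] at hx
    have he : upMat (1 : Fˣ) x • ((1 : GL (Fin 2) F) : Vert S v) =
        ((1 : GL (Fin 2) F) : Vert S v) := by
      by_contra hne; exact hx (if_neg (Ne.symm hne))
    have h4 := (upMat_smul_bound he).2
    have hl : lvl (v.valuation F) (((1 : GL (Fin 2) F) : Vert S v)).out = 0 := by
      rw [lvl_eq_zero_iff]
      obtain ⟨k, hk⟩ := QuotientGroup.mk_out_eq_mul (lev S v) (1 : GL (Fin 2) F)
      rw [hk, one_mul]
      exact lev_le_U0 S v k.2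
    rw [hl] at h4
    simpa using h4

/-- Levels for the translates of a point exist. -/
lemma exists_transLevels (K : PKer F S) (ω u₀ : FinPt F S) :
    ∃ (D N : ℕ) (n : Place F → ℕ), TransLevels K ω u₀ D N n := by
  obtain ⟨n, hnfin, hfix⟩ := exists_fix_levels ω u₀
  obtain ⟨B, hBfin, hbound⟩ := exists_supp_bound K ω u₀
  obtain ⟨D, hD0, hD⟩ := exists_nat_small (F := F) B hBfin
  obtain ⟨N, hN0, hN⟩ := exists_nat_small (F := F) n hnfin
  refine ⟨D, N, n, hD0, hN0, hnfin, hfix, hN, fun v x hx => ?_⟩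
  rw [map_mul]
  refine (mul_le_mul' (hbound v x hx) (hD v)).trans ?_
  rw [← WithZero.exp_add]; simp

omit [Finite S] in
/-- Integers congruent modulo `N * D` give fractions congruent modulo `N`. -/
lemma exists_div_eq_add {D N : ℕ} (hD : D ≠ 0) {r r' : 𝓞 F}
    (h : ((N * D : ℕ) : 𝓞 F) ∣ r - r') :
    ∃ l : 𝓞 F, (r : F) / (D : F) = (r' : F) / (D : F) + (N : F) * (l : F) := by
  obtain ⟨l, hl⟩ := h
  refine ⟨l, ?_⟩
  have hDF : (D : F) ≠ 0 := Nat.cast_ne_zero.2 hD
  have hl' : (r : F) - (r' : F) = ((N * D : ℕ) : F) * (l : F) := by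
    exact_mod_cast congrArg (algebraMap (𝓞 F) F) hl
  push_cast at hl'
  field_simp
  linear_combination hl'

namespace TransLevels

variable {K : PKer F S} {ω u₀ : FinPt F S} {D N : ℕ} {n : Place F → ℕ}
  (L : TransLevels K ω u₀ D N n)
include L

omit [Finite S] in
/-- At each place the translates of `u₀` are periodic. -/
lemma smul_periodic (v : Place F) (r l : 𝓞 F) :
    upMat (1 : Fˣ) ((r : F) / (D : F) + (N : F) * (l : F)) • u₀.1 v
      = upMat (1 : Fˣ) ((r : F) / (D : F)) • u₀.1 v := by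
  rw [upMat_add, mul_smul, (L.fix v _ ?_).2]
  rw [map_mul]
  exact (mul_le_of_le_one_right' (v.valuation_le_one l)).trans (L.small v)

/-- The kernel values at the translates are periodic. -/
lemma fin_periodic (r l : 𝓞 F) :
    K.fin ω (upMat 1 ((r : F) / (D : F) + (N : F) * (l : F)) • u₀)
      = K.fin ω (upMat 1 ((r : F) / (D : F)) • u₀) :=
  finprod_congr fun v => by rw [FinPt.smul_apply, FinPt.smul_apply, L.smul_periodic]

/-- The kernel value at a translate depends only on the class modulo `N * D`. -/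
lemma fin_congr {r r' : 𝓞 F} (h : ((N * D : ℕ) : 𝓞 F) ∣ r - r') :
    K.fin ω (upMat 1 ((r : F) / (D : F)) • u₀) = K.fin ω (upMat 1 ((r' : F) / (D : F)) • u₀) := by
  obtain ⟨l, hl⟩ := exists_div_eq_add L.den_ne h
  rw [hl, L.fin_periodic]

end TransLevels

/-- The numerators of translations that are small away from `v3`. -/
def smallAway (v3 : Place F) (D : ℕ) (n : Place F → ℕ) : AddSubgroup (𝓞 F) where
  carrier := {y | ∀ v, v ≠ v3 → v.valuation F ((y : F) / (D : F)) ≤ WithZero.exp (-(n v : ℤ))}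
  zero_mem' := fun v _ => by simp
  add_mem' := fun {a b} ha hb v hv => by
    push_cast
    rw [add_div]
    exact ((v.valuation F).map_add _ _).trans (max_le (ha v hv) (hb v hv))
  neg_mem' := fun {a} ha v hv => by
    push_cast
    rw [neg_div, Valuation.map_neg]
    exact ha v hv

omit [Finite S] in
/-- A translation at `v3` with denominator `D` is approximated by an element of `smallAway`. -/
lemma exists_smallAway_approx {D : ℕ} (hD : D ≠ 0) (n : Place F → ℕ) (hn : {v | n v ≠ 0}.Finite)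
    (v3 : Place F) {x : F} (hx : v3.valuation F (x * (D : F)) ≤ 1) :
    ∃ y ∈ smallAway v3 D n,
      v3.valuation F ((y : F) / (D : F) - x) ≤ WithZero.exp (-(n v3 : ℤ)) := by
  have hDF : (D : F) ≠ 0 := Nat.cast_ne_zero.2 hD
  obtain ⟨d, hd⟩ : ∃ d : Place F → ℤ, ∀ v : Place F, v.valuation F (D : F) = WithZero.exp (-d v) :=
    ⟨fun v => -WithZero.log (v.valuation F (D : F)), fun v => by
      rw [neg_neg, WithZero.exp_log (by simpa using hDF)]⟩
  -- Approximate `x D` at `v3` and `0` at the other exceptional places to high precision.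
  set T : Finset (Place F) :=
    insert v3 (hn.toFinset ∪ (CFT.finite_ord_ne_zero (D : F)).toFinset) with hT
  obtain ⟨M, hM⟩ : ∃ M : ℕ, ∀ v ∈ T, d v + n v ≤ M := by
    obtain ⟨M, hM⟩ := Finset.bddAbove (T.image fun v => (d v + n v).toNat)
    exact ⟨M, fun v hv => (Int.self_le_toNat _).trans
      (by exact_mod_cast hM (Finset.mem_coe.2 (Finset.mem_image_of_mem _ hv)))⟩
  obtain ⟨y, hy1, hy2⟩ := exists_approx T (fun v => if v = v3 then x * (D : F) else 0) M
  -- Divided by `D` this has the required accuracy everywhere.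
  have hcon : ∀ v, v.valuation F (y / (D : F) - if v = v3 then x else 0)
      ≤ WithZero.exp (-(n v : ℤ)) := by
    intro v
    by_cases hvT : v ∈ T
    · rw [show y / (D : F) - (if v = v3 then x else 0)
          = (y - if v = v3 then x * (D : F) else 0) / (D : F) by split_ifs <;> [field_simp; simp],
        map_div₀, hd, WithZero.exp_neg, div_inv_eq_mul]
      refine (mul_le_mul_left (hy1 v hvT) _).trans ?_
      rw [← WithZero.exp_add, WithZero.exp_le_exp]
      have := hM v hvT
      omega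
    · simp only [hT, Finset.mem_insert, Finset.mem_union, Set.Finite.mem_toFinset,
        mem_ofPred_eq, not_or, not_not] at hvT
      have hD1 : v.valuation F (D : F) = 1 := by
        rw [CFT.valuation_eq_exp_neg_ord v hDF, hvT.2.2, neg_zero, WithZero.exp_zero]
      rw [if_neg hvT.1, sub_zero, map_div₀, hD1, div_one, hvT.2.1]
      simpa using hy2 v (by simp [hT, hvT.1, hvT.2.1, hvT.2.2])
  -- It is integral everywhere, so an integer.
  have hint : ∀ v : Place F, v.valuation F y ≤ 1 := by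
    intro v
    by_cases hvT : v ∈ T
    · have h1 := hy1 v hvT
      have h2 : v.valuation F (if v = v3 then x * (D : F) else 0) ≤ 1 := by
        split_ifs with h
        · subst h; exact hx
        · simp
      have h3 := (v.valuation F).map_add (y - if v = v3 then x * (D : F) else 0)
        (if v = v3 then x * (D : F) else 0)
      rw [sub_add_cancel] at h3
      refine h3.trans (max_le (h1.trans ?_) h2)
      rw [← WithZero.exp_zero, WithZero.exp_le_exp]; omega
    · exact hy2 v hvT
  obtain ⟨y0, rfl⟩ := HeightOneSpectrum.mem_integers_of_valuation_le_one F _ hint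
  exact ⟨y0, fun v hv => by simpa [hv] using hcon v, by simpa using hcon v3⟩

/-- Along a map from a finite group intertwining translations with injective maps every nonempty
fibre has the same size. -/
lemma sum_comp_of_translate {A X M : Type*} [AddCommGroup A] [Fintype A] [DecidableEq X]
    [AddCommMonoid M] (g : A → X) (φ : X → M)
    (h : ∀ y, ∃ γ : X → X, Function.Injective γ ∧ ∀ w, g (y + w) = γ (g w)) :
    ∑ y, φ (g y) =
      (Finset.univ.filter fun y => g y = g 0).card • ∑ z ∈ Finset.univ.image g, φ z := by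
  have hfib : ∀ z ∈ Finset.univ.image g, (Finset.univ.filter fun y => g y = z).card
      = (Finset.univ.filter fun y => g y = g 0).card := by
    intro z hz
    obtain ⟨y, -, rfl⟩ := Finset.mem_image.1 hz
    obtain ⟨γ, hγ, hadd⟩ := h y
    have hy' : g y = γ (g 0) := by rw [← hadd, add_zero]
    symm
    refine Finset.card_bij (fun w _ => y + w) (fun w hw => ?_) (fun a _ b _ h => add_left_cancel h)
      fun w hw => ⟨w - y, ?_, add_sub_cancel _ _⟩
    · simp only [Finset.mem_filter, Finset.mem_univ, true_and] at hw ⊢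
      rw [hadd, hw, hy']
    · simp only [Finset.mem_filter, Finset.mem_univ, true_and] at hw ⊢
      apply hγ
      rw [← hadd, add_sub_cancel, hw, hy']
  rw [Finset.sum_comp φ g, Finset.sum_congr rfl fun z hz => by rw [hfib z hz], ← Finset.smul_sum]

namespace TransLevels

variable {K : PKer F S} {ω u₀ : FinPt F S} {D N : ℕ} {n : Place F → ℕ}
  (L : TransLevels K ω u₀ D N n)
include L

/-- A translation small away from `v3` only changes the factor at `v3`. -/
lemma fin_add_smallAway (v3 : Place F) (r : 𝓞 F) {y : 𝓞 F} (hy : y ∈ smallAway v3 D n) :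
    K.fin ω (upMat 1 (((r + y : 𝓞 F) : F) / (D : F)) • u₀) =
      K.loc v3 (ω.1 v3)
          (upMat (1 : Fˣ) ((y : F) / (D : F)) • upMat (1 : Fˣ) ((r : F) / (D : F)) • u₀.1 v3) *
        ∏ᶠ (v) (_ : v ≠ v3), K.loc v (ω.1 v) ((upMat 1 ((r : F) / (D : F)) • u₀).1 v) := by
  rw [PKer.fin, ← mul_finprod_cond_ne v3 (K.mulSupport_finite _ _)]
  congr 1
  · rw [FinPt.smul_apply, ← mul_smul, ← upMat_add]
    congr 3
    push_cast; ring
  · refine finprod_congr fun v => finprod_congr fun hv => ?_
    rw [FinPt.smul_apply, FinPt.smul_apply]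
    have h1 := (L.fix v ((y : F) / (D : F)) (hy v hv)).1
    rw [show ((r + y : 𝓞 F) : F) / (D : F) = (y : F) / (D : F) + (r : F) / (D : F) by
      push_cast; ring, upMat_add, mul_smul]
    conv_lhs => rw [← h1]
    exact (K.loc v).invariant _ _ _

/-- Over a class group of translations small away from a cuspidal place the kernel values sum to
zero. -/
lemma sum_smallAway_eq_zero (v3 : Place F) (hcusp : CuspLoc (K.loc v3)) {I : Ideal (𝓞 F)}
    [Fintype (𝓞 F ⧸ I)] (hI : I = Ideal.span {((N * D : ℕ) : 𝓞 F)}) (r : 𝓞 F) :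
    ∑ y : (smallAway v3 D n).map (Ideal.Quotient.mk I).toAddMonoidHom,
      K.fin ω (upMat 1 (((r + Quotient.out (y : 𝓞 F ⧸ I) : 𝓞 F) : F) / (D : F)) • u₀) = 0 := by
  set P := (smallAway v3 D n).map (Ideal.Quotient.mk I).toAddMonoidHom with hP
  have hdvd : ∀ a b : 𝓞 F, Ideal.Quotient.mk I a = Ideal.Quotient.mk I b →
      ((N * D : ℕ) : 𝓞 F) ∣ a - b := fun a b h => by
    rwa [Ideal.Quotient.mk_eq_mk_iff_sub_mem, hI, Ideal.mem_span_singleton] at h
  have hrep : ∀ q : 𝓞 F ⧸ I, Ideal.Quotient.mk I (Quotient.out q) = q := fun q => Quotient.out_eq q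
  set u := upMat (1 : Fˣ) ((r : F) / (D : F)) • u₀.1 v3 with hu
  let g : P → Vert S v3 := fun y =>
    upMat (1 : Fˣ) (((Quotient.out (y : 𝓞 F ⧸ I) : 𝓞 F) : F) / (D : F)) • u
  have hgmk : ∀ (y : P) (y0 : 𝓞 F), Ideal.Quotient.mk I y0 = y →
      g y = upMat (1 : Fˣ) ((y0 : F) / (D : F)) • u := by
    intro y y0 hy
    obtain ⟨l, hl⟩ := exists_div_eq_add L.den_ne (hdvd _ y0 ((hrep (y : 𝓞 F ⧸ I)).trans hy.symm))
    simp only [g, hu, ← mul_smul, ← upMat_add]
    rw [hl, show (y0 : F) / (D : F) + (N : F) * (l : F) + (r : F) / (D : F)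
        = ((y0 + r : 𝓞 F) : F) / (D : F) + (N : F) * (l : F) by push_cast; ring, L.smul_periodic]
    congr 3
    push_cast; ring
  have hterm : ∀ y : P,
      K.fin ω (upMat 1 (((r + Quotient.out (y : 𝓞 F ⧸ I) : 𝓞 F) : F) / (D : F)) • u₀) =
      K.loc v3 (ω.1 v3) (g y) *
        ∏ᶠ (v) (_ : v ≠ v3), K.loc v (ω.1 v) ((upMat 1 ((r : F) / (D : F)) • u₀).1 v) := by
    intro y
    obtain ⟨y0, hy0, hy⟩ := AddSubgroup.mem_map.1 y.2
    change Ideal.Quotient.mk I y0 = (y : 𝓞 F ⧸ I) at hy
    rw [L.fin_congr (r' := r + y0) (hdvd _ _ (by rw [map_add, map_add, hrep, hy])),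
      L.fin_add_smallAway v3 r hy0, hgmk y y0 hy]
  -- the sum at `v3` runs over translations and vanishes by cuspidality
  rw [Finset.sum_congr rfl fun y _ => hterm y, ← Finset.sum_mul]
  refine mul_eq_zero.2 (Or.inl ?_)
  have hadd : ∀ y : P, ∃ γ : GL (Fin 2) F, ∀ w, g (y + w) = γ • g w := by
    intro y
    obtain ⟨y0, -, hy⟩ := AddSubgroup.mem_map.1 y.2
    change Ideal.Quotient.mk I y0 = (y : 𝓞 F ⧸ I) at hy
    refine ⟨upMat (1 : Fˣ) ((y0 : F) / (D : F)), fun w => ?_⟩
    rw [hgmk (y + w) (y0 + Quotient.out (w : 𝓞 F ⧸ I)) (by rw [map_add, hy, hrep]; rfl)]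
    simp only [g, ← mul_smul, ← upMat_add]
    congr 3
    push_cast; ring
  rw [sum_comp_of_translate g (K.loc v3 (ω.1 v3))
    fun y => (hadd y).elim fun γ hγ => ⟨(γ • ·), MulAction.injective γ, hγ⟩]
  refine smul_eq_zero.2 (Or.inr ?_)
  refine Eq.trans ?_ (hcusp (ω.1 v3) u)
  refine (finsum_mem_eq_sum_of_inter_support_eq _ ?_).symm
  refine Set.Subset.antisymm ?_ ?_
  · rintro z ⟨⟨x, rfl⟩, hz⟩
    refine ⟨?_, hz⟩
    have hxD : v3.valuation F (x * (D : F)) ≤ 1 := by
      have h1 : v3.valuation F ((x + (r : F) / (D : F)) * (D : F)) ≤ 1 := by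
        refine L.integral v3 _ ?_
        rw [upMat_add, mul_smul]
        exact hz
      rw [show x * (D : F) = (x + (r : F) / (D : F)) * (D : F) - (r : F) by
        have := Nat.cast_ne_zero (R := F) |>.2 L.den_ne
        field_simp; ring]
      exact ((v3.valuation F).map_sub _ _).trans (max_le h1 (v3.valuation_le_one r))
    obtain ⟨y0, hy0P, hsmall⟩ := exists_smallAway_approx L.den_ne n L.fin v3 hxD
    refine Finset.mem_coe.2 (Finset.mem_image.2
      ⟨⟨_, AddSubgroup.mem_map_of_mem _ hy0P⟩, Finset.mem_univ _, ?_⟩)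
    rw [hgmk _ y0 rfl]
    have h5 := (L.fix v3 _ hsmall).2
    simp only [hu]
    rw [show (y0 : F) / (D : F) = x + ((y0 : F) / (D : F) - x) by ring, upMat_add, mul_smul]
    congr 1
    rw [← mul_smul, ← upMat_add, add_comm, upMat_add, mul_smul, h5]
  · rintro z ⟨hz, hz'⟩
    obtain ⟨y, -, rfl⟩ := Finset.mem_image.1 (Finset.mem_coe.1 hz)
    exact ⟨⟨_, rfl⟩, hz'⟩

end TransLevels

/-- Classes for the sum over translations, with vanishing total. -/
theorem exists_cusp_classes (K : PKer F S) (v3 : Place F) (hcusp : CuspLoc (K.loc v3))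
    (ω u₀ : FinPt F S) :
    ∃ (D N : ℕ) (R : Finset (𝓞 F)), D ≠ 0 ∧ N ≠ 0 ∧
      (∀ b : F, K.fin ω (upMat 1 b • u₀) ≠ 0 →
        ∃ r ∈ R, ∃ l : 𝓞 F, b = (r : F) / (D : F) + (N : F) * (l : F)) ∧
      (∀ (r l : 𝓞 F), K.fin ω (upMat 1 ((r : F) / (D : F) + (N : F) * (l : F)) • u₀)
        = K.fin ω (upMat 1 ((r : F) / (D : F)) • u₀)) ∧
      (∀ r ∈ R, ∀ r' ∈ R, ((N * D : ℕ) : 𝓞 F) ∣ r - r' → r = r') ∧
      ∑ r ∈ R, K.fin ω (upMat 1 ((r : F) / (D : F)) • u₀) = 0 := by
  obtain ⟨D, N, n, L⟩ := exists_transLevels K ω u₀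
  have hDF : (D : F) ≠ 0 := Nat.cast_ne_zero.2 L.den_ne
  set I : Ideal (𝓞 F) := Ideal.span {((N * D : ℕ) : 𝓞 F)} with hI
  have hI0 : I ≠ ⊥ := by
    rw [hI, ne_eq, Ideal.span_singleton_eq_bot, Nat.cast_eq_zero]
    exact mul_ne_zero L.per_ne L.den_ne
  have : Finite (𝓞 F ⧸ I) := Ideal.finiteQuotientOfFreeOfNeBot I hI0
  let _ : Fintype (𝓞 F ⧸ I) := Fintype.ofFinite _
  let rep : 𝓞 F ⧸ I → 𝓞 F := fun q => Quotient.out q
  have hrep : ∀ q, Ideal.Quotient.mk I (rep q) = q := fun q => Quotient.out_eq q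
  have hdvd : ∀ r r' : 𝓞 F, Ideal.Quotient.mk I r = Ideal.Quotient.mk I r' →
      ((N * D : ℕ) : 𝓞 F) ∣ r - r' := fun r r' h => by
    rwa [Ideal.Quotient.mk_eq_mk_iff_sub_mem, hI, Ideal.mem_span_singleton] at h
  -- the classes are representatives modulo `N D`
  set f : 𝓞 F ⧸ I → ℂ := fun q => K.fin ω (upMat 1 ((rep q : F) / (D : F)) • u₀) with hf
  refine ⟨D, N, Finset.univ.image rep, L.den_ne, L.per_ne, ?_, L.fin_periodic, ?_, ?_⟩
  · intro b hb
    obtain ⟨z, hz⟩ := HeightOneSpectrum.mem_integers_of_valuation_le_one F _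
      fun v => L.integral v b ((K.fin_ne_zero.1 hb) v)
    obtain ⟨l, hl⟩ := exists_div_eq_add L.den_ne
      (hdvd z (rep (Ideal.Quotient.mk I z)) (hrep _).symm)
    refine ⟨rep (Ideal.Quotient.mk I z), Finset.mem_image_of_mem _ (Finset.mem_univ _), l, ?_⟩
    rw [← hl, show (z : F) = b * (D : F) from hz, mul_div_cancel_right₀ _ hDF]
  · intro r hr r' hr' h
    obtain ⟨q, -, rfl⟩ := Finset.mem_image.1 hr
    obtain ⟨q', -, rfl⟩ := Finset.mem_image.1 hr'
    congr 1
    rw [← hrep q, ← hrep q', Ideal.Quotient.mk_eq_mk_iff_sub_mem, hI, Ideal.mem_span_singleton]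
    exact h
  rw [Finset.sum_image fun a _ b _ h => by rw [← hrep a, ← hrep b, h]]
  change ∑ q, f q = 0
  -- averaging over the small translations away from `v3` kills the total
  set P := (smallAway v3 D n).map (Ideal.Quotient.mk I).toAddMonoidHom
  have hsum : ∀ q, ∑ y : P, f (q + y) = 0 := fun q =>
    (Finset.sum_congr rfl fun y _ => L.fin_congr (hdvd _ _
      (by rw [hrep, map_add, hrep]; exact congrArg (q + ·) (hrep _).symm))).trans
      (L.sum_smallAway_eq_zero v3 hcusp hI (rep q))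
  have h1 : ∑ y : P, ∑ q, f (q + y) = 0 := by
    rw [Finset.sum_comm]; exact Finset.sum_eq_zero fun q _ => hsum q
  have h2 : ∀ y : P, ∑ q, f (q + y) = ∑ q, f q := fun y =>
    Equiv.sum_comp (Equiv.addRight (y : 𝓞 F ⧸ I)) f
  simp only [h2, Finset.sum_const, Finset.card_univ, nsmul_eq_mul] at h1
  exact (mul_eq_zero.1 h1).resolve_left (Nat.cast_ne_zero.2 Fintype.card_ne_zero)

end Fermat.LT
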