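import Fermat.Agent.LT.Minkowski

/-!
# Counting algebraic integers in boxes

`exists_count_box`: at most `(C T) ^ d` of them lie in a box of radius `T`.
-/

set_option autoImplicit false
open NumberField Module Set
open scoped Classical

namespace Fermat.LT

variable {F : Type*} [Field F] [NumberField F] [IsTotallyComplex F]

/-- At most `(C T)^d` algebraic integers in a box of radius `T`. -/
theorem exists_count_box : ∃ C : ℝ, 0 ≤ C ∧ ∀ (c : InfinitePlace F → ℂ) (T : ℝ), 1 ≤ T →
    {l : 𝓞 F | ∀ w : InfinitePlace F, ‖w.embedding (l : F) - c w‖ ≤ T}.Finite ∧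
    ({l : 𝓞 F | ∀ w : InfinitePlace F, ‖w.embedding (l : F) - c w‖ ≤ T}.ncard : ℝ)
      ≤ (C * T) ^ finrank ℚ F := by
  set b := mixedEmbedding.latticeBasis F
  let L : mixedEmbedding.mixedSpace F →L[ℝ] (Free.ChooseBasisIndex ℤ (𝓞 F) → ℝ) :=
    LinearMap.toContinuousLinearMap b.equivFun.toLinearMap
  refine ⟨2 * ‖L‖ + 1, by positivity, fun c T hT => ?_⟩
  set A := {l : 𝓞 F | ∀ w : InfinitePlace F, ‖w.embedding (l : F) - c w‖ ≤ T}
  set c' : mixedEmbedding.mixedSpace F := (0, fun w => c w.1) with hc'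
  let co : 𝓞 F → Free.ChooseBasisIndex ℤ (𝓞 F) → ℤ := fun l i => (RingOfIntegers.basis F).repr l i
  let box : Finset (Free.ChooseBasisIndex ℤ (𝓞 F) → ℤ) := Fintype.piFinset fun i =>
    Finset.Icc ⌈L c' i - ‖L‖ * T⌉ ⌊L c' i + ‖L‖ * T⌋
  -- coordinates in the integral basis land in a box
  have hco : ∀ l ∈ A, co l ∈ box := by
    intro l hl
    refine Fintype.mem_piFinset.2 fun i => ?_
    have hnorm : ‖mixedEmbedding F (l : F) - c'‖ ≤ T := by
      have h1 : (mixedEmbedding F (l : F) - c').1 = 0 := by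
        funext w
        exact absurd w.2 (InfinitePlace.not_isReal_iff_isComplex.2 (IsTotallyComplex.isComplex w.1))
      rw [Prod.norm_def, h1, norm_zero]
      refine max_le (zero_le_one.trans hT) ((pi_norm_le_iff_of_nonneg (zero_le_one.trans hT)).2 ?_)
      intro w
      exact hl w.1
    have h2 : |L (mixedEmbedding F (l : F)) i - L c' i| ≤ ‖L‖ * T := by
      rw [← Real.norm_eq_abs, ← Pi.sub_apply, ← map_sub]
      exact (norm_le_pi_norm _ i).trans ((L.le_opNorm _).trans
        (mul_le_mul_of_nonneg_left hnorm (norm_nonneg _)))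
    have h3 : L (mixedEmbedding F (l : F)) i = (co l i : ℝ) := by
      change b.repr (mixedEmbedding F (l : F)) i = _
      rw [mixedEmbedding.latticeBasis_repr_apply, integralBasis_repr_apply]
      simp [co]
    rw [h3, abs_le] at h2
    rw [Finset.mem_Icc, Int.ceil_le, Int.le_floor]
    constructor <;> linarith [h2.1, h2.2]
  have hinj : Set.InjOn co A := fun a _ b' _ h =>
    (RingOfIntegers.basis F).repr.injective (Finsupp.ext fun i => congrFun h i)
  have hfin : A.Finite := Set.Finite.of_finite_image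
    (box.finite_toSet.subset (by rintro _ ⟨l, hl, rfl⟩; exact hco l hl)) hinj
  refine ⟨hfin, ?_⟩
  have hcard : A.ncard ≤ box.card := by
    rw [← Set.ncard_coe_finset box]
    exact Set.ncard_le_ncard_of_injOn co (fun l hl => hco l hl) hinj box.finite_toSet
  refine le_trans (Nat.cast_le.2 hcard) ?_
  rw [Fintype.card_piFinset, Nat.cast_prod]
  refine (Finset.prod_le_prod (fun i _ => Nat.cast_nonneg _)
    (g := fun _ => (2 * ‖L‖ + 1) * T) fun i _ => ?_).trans (le_of_eq ?_)
  · rw [Int.card_Icc]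
    set lo := L c' i - ‖L‖ * T
    set hi := L c' i + ‖L‖ * T with hhi
    have h0 : (0 : ℝ) ≤ (2 * ‖L‖ + 1) * T := by positivity
    rcases le_or_gt (⌊hi⌋ + 1 - ⌈lo⌉) 0 with h | h
    · rw [Int.toNat_of_nonpos h]; simpa using h0
    · rw [show ((⌊hi⌋ + 1 - ⌈lo⌉).toNat : ℝ) = (((⌊hi⌋ + 1 - ⌈lo⌉).toNat : ℤ) : ℝ) from
        (Int.cast_natCast _).symm, Int.toNat_of_nonneg h.le]
      push_cast
      have := Int.floor_le hi
      have := Int.le_ceil lo
      nlinarith [norm_nonneg L]
  · rw [Finset.prod_const, Finset.card_univ, ← finrank_eq_card_chooseBasisIndex,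
      RingOfIntegers.rank]

end Fermat.LT
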