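import Mathlib

/-!
# Periodised smooth functions vary little

`lattice_sum_variation` is the bound, from `periodic_variation`.
-/

set_option autoImplicit false
open Filter Topology Set
open scoped ContDiff

namespace Fermat.LT

/-- A periodic function with periodic derivatives of which the last is small varies little. -/
theorem periodic_variation (φ : ℕ → ℝ → ℂ) (hd : ∀ k s, HasDerivAt (φ k) (φ (k + 1) s) s)
    (hper : ∀ k, Function.Periodic (φ k) 1) {ε : ℝ} {N : ℕ} (hN : ∀ s, ‖φ (N + 1) s‖ ≤ ε) :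
    ∀ s ∈ Icc (0 : ℝ) 1, ‖φ 0 s - φ 0 0‖ ≤ ε := by
  have hε : 0 ≤ ε := (norm_nonneg _).trans (hN 0)
  -- A bound on a derivative is a Lipschitz bound.
  have hlip : ∀ k C, (∀ s, ‖φ (k + 1) s‖ ≤ C) → ∀ s t : ℝ, ‖φ k s - φ k t‖ ≤ C * |s - t| := by
    intro k C hC s t
    have := Convex.norm_image_sub_le_of_norm_hasDerivWithin_le (s := univ)
      (fun x _ => (hd k x).hasDerivWithinAt) (fun x _ => hC x) convex_univ (mem_univ t) (mem_univ s)
    rwa [Real.norm_eq_abs] at this
  -- By Rolle a derivative has a zero in each direction, so inherits the bound of the next.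
  have hstep : ∀ k, (∀ s, ‖φ (k + 1 + 1) s‖ ≤ ε) → ∀ s, ‖φ (k + 1) s‖ ≤ ε := by
    intro k hC s
    rcases eq_or_ne (φ (k + 1) s) 0 with h0 | h0
    · rw [h0, norm_zero]; exact hε
    obtain ⟨s', hs', hs's⟩ := (hper (k + 1)).exists_mem_Ico₀ one_pos s
    rw [hs's] at h0 ⊢
    set θ : ℂ := (starRingEnd ℂ) (φ (k + 1) s') / (‖φ (k + 1) s'‖ : ℂ) with hθ
    have hθ1 : ‖θ‖ = 1 := by
      rw [hθ, norm_div, RCLike.norm_conj, Complex.norm_of_nonneg (norm_nonneg _),
        div_self (norm_ne_zero_iff.2 h0)]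
    let u : ℝ → ℝ := fun t => (θ * φ k t).re
    have hu : ∀ t, HasDerivAt u (θ * φ (k + 1) t).re t := fun t =>
      Complex.reCLM.hasFDerivAt.comp_hasDerivAt t ((hd k t).const_mul θ)
    obtain ⟨c, hc, hc0⟩ := exists_deriv_eq_zero (f := u) one_pos
      (fun t _ => (hu t).continuousAt.continuousWithinAt)
      (by simp only [u]; rw [← (hper k) 0, zero_add])
    rw [(hu c).deriv] at hc0
    have h1 : (θ * φ (k + 1) s').re = ‖φ (k + 1) s'‖ := by
      rw [hθ, div_mul_eq_mul_div, Complex.conj_mul']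
      rw [← Complex.ofReal_pow, ← Complex.ofReal_div,
        Complex.ofReal_re, sq, mul_div_cancel_right₀ _ (norm_ne_zero_iff.2 h0)]
    calc ‖φ (k + 1) s'‖ = (θ * (φ (k + 1) s' - φ (k + 1) c)).re := by
          rw [mul_sub, Complex.sub_re, hc0, h1, sub_zero]
      _ ≤ ‖θ * (φ (k + 1) s' - φ (k + 1) c)‖ := Complex.re_le_norm _
      _ = ‖φ (k + 1) s' - φ (k + 1) c‖ := by rw [norm_mul, hθ1, one_mul]
      _ ≤ ε * |s' - c| := hlip (k + 1) ε hC s' c
      _ ≤ ε * 1 := mul_le_mul_of_nonneg_left (by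
          rw [abs_le]; constructor <;> linarith [hs'.1, hs'.2, hc.1, hc.2]) hε
      _ = ε := mul_one ε
  have hall : ∀ j k, k + j = N → ∀ s, ‖φ (k + 1) s‖ ≤ ε := by
    intro j
    induction j with
    | zero => intro k hk; obtain rfl : k = N := by omega
              exact hN
    | succ j ih => intro k hk; exact hstep k (ih (k + 1) (by omega))
  -- So the first derivative is bounded by `ε`.
  intro s hs
  refine (hlip 0 ε (hall N 0 (by omega)) s 0).trans ?_
  rw [sub_zero, abs_of_nonneg hs.1]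
  exact mul_le_of_le_one_right hε hs.2

variable {Λ V : Type*} [AddCommGroup Λ] [NormedAddCommGroup V] [NormedSpace ℝ V]

/-- Periodisations of a smooth compactly supported function vary little along lattice directions. -/
theorem lattice_sum_variation {H : V → ℂ} (hH : ContDiff ℝ ∞ H) (hs : HasCompactSupport H) (N : ℕ) :
    ∃ R C : ℝ, 0 ≤ C ∧ ∀ (T : Λ →+ V) (M : ℕ),
      (∀ (p : V) (B : ℝ), {l | ‖p + T l‖ ≤ B}.Finite) →
      (∀ p : V, {l | ‖p + T l‖ ≤ R}.ncard ≤ M) →
      ∀ (p : V) (l₀ : Λ) (s : ℝ), s ∈ Icc (0 : ℝ) 1 →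
        ‖∑' l, H (p + T l + s • T l₀) - ∑' l, H (p + T l)‖ ≤ M * C * ‖T l₀‖ ^ (N + 1) := by
  obtain ⟨R, hR⟩ := (hs.isCompact.isBounded).exists_norm_le
  have hzero : ∀ k (x : V), R < ‖x‖ → iteratedFDeriv ℝ k H x = 0 := fun k x hx => by
    refine image_eq_zero_of_notMem_tsupport fun hm => ?_
    exact absurd (hR x (tsupport_iteratedFDeriv_subset k hm)) (not_le.2 hx)
  have hcont : Continuous (iteratedFDeriv ℝ (N + 1) H) :=
    hH.continuous_iteratedFDeriv (by exact_mod_cast (le_top : ((N + 1 : ℕ) : ℕ∞) ≤ ⊤))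
  have hcs : HasCompactSupport (iteratedFDeriv ℝ (N + 1) H) := hs.iteratedFDeriv _
  obtain ⟨C, hC⟩ := hcont.bounded_above_of_compact_support hcs
  have hC0 : 0 ≤ C := (norm_nonneg _).trans (hC 0)
  refine ⟨R, C, hC0, fun T M hfin hM p l₀ => ?_⟩
  set μ := T l₀ with hμ
  let D : ℕ → V → ℂ := fun k x => iteratedFDeriv ℝ k H x fun _ => μ
  have hD0 : ∀ k x, R < ‖x‖ → D k x = 0 := fun k x hx => by simp [D, hzero k x hx]
  let φ : ℕ → ℝ → ℂ := fun k s => ∑' l, D k (p + T l + s • μ)
  have hloc : ∀ (s₀ : ℝ), ∀ s, |s - s₀| ≤ 1 → ∀ k, ∀ l ∉ (hfin p (R + (|s₀| + 1) * ‖μ‖)).toFinset,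
      D k (p + T l + s • μ) = 0 := by
    intro s₀ s hs k l hl
    rw [Set.Finite.mem_toFinset, mem_ofPred_eq, not_le] at hl
    refine hD0 k _ ?_
    have h1 : ‖p + T l‖ ≤ ‖p + T l + s • μ‖ + ‖s • μ‖ := by
      simpa using norm_sub_le (p + T l + s • μ) (s • μ)
    rw [norm_smul, Real.norm_eq_abs] at h1
    have h2 : |s| ≤ |s₀| + 1 := by linarith [abs_sub_abs_le_abs_sub s s₀]
    nlinarith [norm_nonneg μ]
  -- the sum is a periodic function of `s` with a small high derivative
  have hd : ∀ k s, HasDerivAt (φ k) (φ (k + 1) s) s := by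
    intro k s₀
    set F := (hfin p (R + (|s₀| + 1) * ‖μ‖)).toFinset
    have he : ∀ j, ∀ᶠ s in 𝓝 s₀, φ j s = ∑ l ∈ F, D j (p + T l + s • μ) := fun j => by
      filter_upwards [Metric.closedBall_mem_nhds s₀ one_pos] with s hs
      exact tsum_eq_sum fun l hl => hloc s₀ s (by simpa [Real.dist_eq] using hs) j l hl
    rw [(he (k + 1)).self_of_nhds]
    refine HasDerivAt.congr_of_eventuallyEq ?_ (he k)
    refine HasDerivAt.fun_sum fun l _ => ?_
    have h1 : HasDerivAt (fun s : ℝ => p + T l + s • μ) μ s₀ := by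
      simpa using ((hasDerivAt_id s₀).smul_const μ).const_add (p + T l)
    have h2 := ((hH.differentiable_iteratedFDeriv (m := k) (WithTop.coe_lt_coe.2
      (WithTop.coe_lt_top _))) (p + T l + s₀ • μ)).hasFDerivAt
    have h3 := (ContinuousMultilinearMap.apply ℝ (fun _ : Fin k => V) ℂ fun _ => μ).hasFDerivAt.comp
      (p + T l + s₀ • μ) h2
    refine (h3.comp_hasDerivAt s₀ h1).congr_deriv ?_
    simp only [D, iteratedFDeriv_succ_apply_left, ContinuousLinearMap.comp_apply,
      ContinuousMultilinearMap.apply_apply]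
    rfl
  have hper : ∀ k, Function.Periodic (φ k) 1 := fun k s => by
    simp only [φ]
    rw [← (Equiv.addRight l₀).tsum_eq fun l => D k (p + T l + s • μ)]
    refine tsum_congr fun l => ?_
    rw [Equiv.coe_addRight, map_add, ← hμ, add_smul, one_smul]
    congr 1
    abel
  have hbd : ∀ s, ‖φ (N + 1) s‖ ≤ M * C * ‖μ‖ ^ (N + 1) := fun s => by
    have hf := hfin (p + s • μ) R
    have hz : ∀ l ∉ hf.toFinset, D (N + 1) (p + T l + s • μ) = 0 := fun l hl => by
      refine hD0 _ _ ?_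
      rw [Set.Finite.mem_toFinset, mem_ofPred_eq, not_le] at hl
      rwa [add_right_comm]
    simp only [φ]
    rw [tsum_eq_sum hz]
    refine (norm_sum_le _ _).trans ((Finset.sum_le_card_nsmul _ _ (C * ‖μ‖ ^ (N + 1))
      fun l _ => ?_).trans ?_)
    · refine (ContinuousMultilinearMap.le_opNorm _ _).trans ?_
      rw [Finset.prod_const, Finset.card_univ, Fintype.card_fin]
      exact mul_le_mul_of_nonneg_right (hC _) (pow_nonneg (norm_nonneg _) _)
    · rw [nsmul_eq_mul, mul_assoc]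
      refine mul_le_mul_of_nonneg_right ?_ (mul_nonneg hC0 (pow_nonneg (norm_nonneg _) _))
      rw [← Set.ncard_eq_toFinset_card _ hf]
      exact_mod_cast hM (p + s • μ)
  intro s hs
  have h := periodic_variation φ hd hper (N := N) hbd s hs
  simpa [φ, D] using h

end Fermat.LT
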