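import Fermat.Agent.LT.CuspAverage
import Fermat.Agent.LT.Variation
import Fermat.Agent.LT.LatticeCount

/-!
# Sums over translations near a cusp stay bounded

`cusp_sum_bound` bounds these sums for kernels smooth in the distance, from the variation bound
`exists_horoShift_variation`.
-/

set_option autoImplicit false
open NumberField Filter Set Module
open scoped ContDiff

namespace Fermat.LT

/-- The kernel is a smooth function of the distance. -/
def IsSmoothRadial (k : AKer) : Prop :=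
  ∃ f : ℝ → ℝ, ContDiff ℝ ∞ f ∧ HasCompactSupport f ∧ ∀ x y, k x y = (f (coshd x y) : ℂ)

section Product

variable {ι : Type*} [Fintype ι] (f : ι → ℝ → ℝ)

/-- The archimedean factor in normalised coordinates. -/
noncomputable def prodBump (v : ι → ℂ × ℝ) : ℂ :=
  ∏ w, (f w (Complex.normSq (v w).1 + (v w).2 ^ 2) : ℂ)

/-- The normalised archimedean factor is smooth when each factor is. -/
lemma contDiff_prodBump (hf : ∀ w, ContDiff ℝ ∞ (f w)) : ContDiff ℝ ∞ (prodBump f) := by
  refine contDiff_prod fun w _ => Complex.ofRealCLM.contDiff.comp ((hf w).comp ?_)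
  have hp : ContDiff ℝ ∞ fun v : ι → ℂ × ℝ => v w := contDiff_apply ℝ (ℂ × ℝ) w
  refine ContDiff.add ?_ ((contDiff_snd.comp hp).pow 2)
  simp only [Complex.normSq_apply]
  exact ((Complex.reCLM.contDiff.comp (contDiff_fst.comp hp)).mul
    (Complex.reCLM.contDiff.comp (contDiff_fst.comp hp))).add
    ((Complex.imCLM.contDiff.comp (contDiff_fst.comp hp)).mul
    (Complex.imCLM.contDiff.comp (contDiff_fst.comp hp)))

/-- The normalised archimedean factor has compact support when each factor has. -/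
lemma hasCompactSupport_prodBump (hs : ∀ w, HasCompactSupport (f w)) :
    HasCompactSupport (prodBump f) := by
  have hR : ∀ w, ∃ R : ℝ, ∀ r, R < |r| → f w r = 0 := fun w => by
    obtain ⟨R, hR⟩ := (hs w).isCompact.isBounded.exists_norm_le
    exact ⟨R, fun r hr => image_eq_zero_of_notMem_tsupport fun hm =>
      absurd (hR r hm) (not_le.2 hr)⟩
  choose R hR using hR
  refine HasCompactSupport.intro (isCompact_univ_pi fun w =>
    (isCompact_closedBall (0 : ℂ) (Real.sqrt |R w|)).prod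
      (isCompact_closedBall (0 : ℝ) (Real.sqrt |R w|)))
    fun v hv => ?_
  simp only [Set.mem_pi, mem_univ, true_implies, not_forall] at hv
  obtain ⟨w, hw⟩ := hv
  refine Finset.prod_eq_zero (Finset.mem_univ w) ?_
  rw [Complex.ofReal_eq_zero]
  refine hR w _ ?_
  rw [abs_of_nonneg (add_nonneg (Complex.normSq_nonneg _) (sq_nonneg _))]
  by_contra! hle
  have hle' := hle.trans (le_abs_self (R w))
  refine hw ⟨?_, ?_⟩
  · rw [Metric.mem_closedBall, dist_zero_right]
    refine Real.le_sqrt_of_sq_le ?_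
    rw [← Complex.normSq_eq_norm_sq]
    linarith [sq_nonneg (v w).2]
  · rw [Metric.mem_closedBall, dist_zero_right, Real.norm_eq_abs]
    refine Real.le_sqrt_of_sq_le ?_
    rw [sq_abs]
    linarith [Complex.normSq_nonneg (v w).1]

end Product

section Horo

variable {F : Type*} [Field F] [NumberField F]

/-- The length scale of two horospheres at a place. -/
noncomputable def horoScale (t t' : InfinitePlace F → ℝ) (w : InfinitePlace F) : ℝ :=
  Real.sqrt (2 * (t w * t' w))

/-- Translations by `N` times the integers in normalised coordinates. -/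
noncomputable def horoShift (N : ℕ) (t t' : InfinitePlace F → ℝ) :
    𝓞 F →+ (InfinitePlace F → ℂ × ℝ) where
  toFun l w := (((N : ℂ) * w.embedding (l : F)) / (horoScale t t' w : ℂ), 0)
  map_zero' := by funext w; simp
  map_add' a b := by funext w; simp [mul_add, add_div]

variable {N : ℕ} {t t' : InfinitePlace F → ℝ}

/-- The coordinates of the shift. -/
lemma horoShift_apply (l : 𝓞 F) (w : InfinitePlace F) :
    horoShift N t t' l w = (((N : ℂ) * w.embedding (l : F)) / (horoScale t t' w : ℂ), 0) := rfl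

variable (ht0 : ∀ w, 0 < t w) (ht0' : ∀ w, 0 < t' w)
include ht0 ht0'

omit [NumberField F] in
/-- The scale is positive. -/
lemma horoScale_pos (w : InfinitePlace F) : 0 < horoScale t t' w :=
  Real.sqrt_pos.2 (mul_pos two_pos (mul_pos (ht0 w) (ht0' w)))

omit [NumberField F] ht0' in
/-- For balanced heights every scale is at most a multiple of one height. -/
lemma horoScale_le {ρ : ℝ} (hρ : 1 ≤ ρ) (hbal : ∀ w u, t w ≤ ρ * t u)
    (hxy : ∀ w, t' w ≤ ρ * t w) (w w₀ : InfinitePlace F) :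
    horoScale t t' w ≤ 2 * ρ * ρ * t w₀ := by
  have h1 : t w * t' w ≤ ρ * (t w) ^ 2 := by
    nlinarith [mul_le_mul_of_nonneg_left (hxy w) (ht0 w).le]
  refine Real.sqrt_le_iff.2 ⟨by have := ht0 w₀; positivity, ?_⟩
  have h3 : (t w) ^ 2 ≤ (ρ * t w₀) ^ 2 := pow_le_pow_left₀ (ht0 w).le (hbal w w₀) 2
  nlinarith [mul_le_mul_of_nonneg_left h3 (show 0 ≤ 2 * ρ by linarith),
    sq_nonneg (t w₀), mul_le_mul hρ hρ zero_le_one (by linarith)]

omit [NumberField F] in
/-- For balanced heights one height is at most a multiple of every scale. -/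
lemma le_horoScale {ρ : ℝ} (hρ : 1 ≤ ρ) (hbal : ∀ w u, t w ≤ ρ * t u)
    (hxy : ∀ w, t w ≤ ρ * t' w) (w w₀ : InfinitePlace F) :
    t w₀ ≤ ρ * ρ * horoScale t t' w := by
  have h0 : 0 ≤ 2 * (t w * t' w) := by have := ht0 w; have := ht0' w; positivity
  have h1 : (t w) ^ 2 ≤ ρ * (2 * (t w * t' w)) := by
    nlinarith [mul_le_mul_of_nonneg_left (hxy w) (ht0 w).le, ht0 w, ht0' w]
  have h2 : t w ≤ ρ * horoScale t t' w := by
    have h3 : (t w) ^ 2 ≤ (ρ * horoScale t t' w) ^ 2 := by
      rw [mul_pow, horoScale, Real.sq_sqrt h0]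
      nlinarith [mul_le_mul_of_nonneg_right hρ (show 0 ≤ ρ * (2 * (t w * t' w)) from
        mul_nonneg (by linarith) h0)]
    exact (sq_le_sq₀ (ht0 w).le (mul_nonneg (by linarith) (horoScale_pos ht0 ht0' w).le)).1 h3
  calc t w₀ ≤ ρ * t w := hbal w₀ w
    _ ≤ ρ * (ρ * horoScale t t' w) := mul_le_mul_of_nonneg_left h2 (by linarith)
    _ = ρ * ρ * horoScale t t' w := by ring

/-- The translations near a point lie in a box. -/
lemma horoShift_sublevel_subset (hN : N ≠ 0) {b : ℝ} (hb : ∀ w, horoScale t t' w ≤ b)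
    (p : InfinitePlace F → ℂ × ℝ) (B : ℝ) :
    {l | ‖p + horoShift N t t' l‖ ≤ B} ⊆ {l : 𝓞 F | ∀ w : InfinitePlace F,
      ‖w.embedding (l : F) - -((p w).1 * (horoScale t t' w : ℂ) / (N : ℂ))‖ ≤ max 1 (|B| * b)} := by
  intro l hl w
  have hN' : (N : ℂ) ≠ 0 := Nat.cast_ne_zero.2 hN
  have hσ0 := horoScale_pos ht0 ht0' w
  have hσ' : (horoScale t t' w : ℂ) ≠ 0 := Complex.ofReal_ne_zero.2 hσ0.ne'
  have e : w.embedding (l : F) - -((p w).1 * (horoScale t t' w : ℂ) / (N : ℂ))
      = ((p + horoShift N t t' l) w).1 * (horoScale t t' w : ℂ) / (N : ℂ) := by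
    simp [horoShift_apply]; field_simp; ring
  rw [e, norm_div, norm_mul, Complex.norm_of_nonneg hσ0.le, Complex.norm_natCast]
  refine le_trans ?_ (le_max_right _ _)
  refine (div_le_self (by positivity) (by exact_mod_cast Nat.one_le_iff_ne_zero.2 hN)).trans ?_
  exact mul_le_mul ((norm_fst_le _).trans ((norm_le_pi_norm _ w).trans (hl.trans (le_abs_self B))))
    (hb w) hσ0.le (abs_nonneg _)

/-- Only finitely many translations are near a point. -/
lemma finite_horoShift_sublevel [IsTotallyComplex F] (hN : N ≠ 0) (p : InfinitePlace F → ℂ × ℝ)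
    (B : ℝ) : {l | ‖p + horoShift N t t' l‖ ≤ B}.Finite := by
  obtain ⟨C, -, hcount⟩ := exists_count_box (F := F)
  exact (hcount _ _ (le_max_left _ _)).1.subset (horoShift_sublevel_subset ht0 ht0' hN
    (fun w => Finset.single_le_sum (f := horoScale t t')
      (fun u _ => (horoScale_pos ht0 ht0' u).le) (Finset.mem_univ w)) p B)

/-- The sum over the translations of a compactly supported function has finite support. -/
lemma finite_support_horoShift [IsTotallyComplex F] (hN : N ≠ 0)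
    {H : (InfinitePlace F → ℂ × ℝ) → ℂ} (hH : HasCompactSupport H)
    (p : InfinitePlace F → ℂ × ℝ) :
    (Function.support fun l => H (p + horoShift N t t' l)).Finite := by
  obtain ⟨B, hB⟩ := hH.isCompact.isBounded.exists_norm_le
  exact (finite_horoShift_sublevel ht0 ht0' hN p B).subset fun l hl => hB _ (subset_tsupport _ hl)

/-- The translations are small high in the cusp. -/
lemma norm_horoShift_le {ρ τ : ℝ} (hτ : 0 < τ) (hσ : ∀ w, τ ≤ ρ * horoScale t t' w)
    (r : 𝓞 F) :
    ‖horoShift N t t' r‖ ≤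
      (N : ℝ) * (∑ u : InfinitePlace F, ‖u.embedding (r : F)‖) * ρ / τ := by
  have hρ : 0 ≤ ρ := by
    obtain ⟨w⟩ : Nonempty (InfinitePlace F) := inferInstance
    nlinarith [hσ w, horoScale_pos ht0 ht0' w]
  have h0 : 0 ≤ (N : ℝ) * (∑ u : InfinitePlace F, ‖u.embedding (r : F)‖) * ρ / τ := by positivity
  refine (pi_norm_le_iff_of_nonneg h0).2 fun w => ?_
  have hσ0 := horoScale_pos ht0 ht0' w
  simp only [horoShift_apply, Prod.norm_def, norm_zero, norm_div, norm_mul,
    Complex.norm_of_nonneg hσ0.le, Complex.norm_natCast]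
  refine max_le ?_ h0
  rw [div_le_div_iff₀ hσ0 hτ, mul_assoc _ ρ]
  exact mul_le_mul (mul_le_mul_of_nonneg_left (Finset.single_le_sum
    (f := fun u : InfinitePlace F => ‖u.embedding (r : F)‖) (fun u _ => norm_nonneg _)
    (Finset.mem_univ w)) (Nat.cast_nonneg _)) (hσ w) hτ.le (by positivity)

omit ht0 ht0'

/-- **Translation sums vary boundedly high in the cusp**, uniformly for balanced heights. -/
theorem exists_horoShift_variation [IsTotallyComplex F] {H : (InfinitePlace F → ℂ × ℝ) → ℂ}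
    (hH : ContDiff ℝ ∞ H) (hHc : HasCompactSupport H) {N : ℕ} (hN : N ≠ 0) (ρ c : ℝ)
    (hρ : 1 ≤ ρ) (hc : 0 < c) :
    ∃ Bd : 𝓞 F → ℝ, ∀ t t' : InfinitePlace F → ℝ, (∀ w, 0 < t w) → (∀ w, 0 < t' w) →
      (∀ w, c ≤ t w) → (∀ w u, t w ≤ ρ * t u) →
      (∀ w, t w ≤ ρ * t' w ∧ t' w ≤ ρ * t w) →
      ∀ (p : InfinitePlace F → ℂ × ℝ) (r : 𝓞 F), ∀ s ∈ Icc (0 : ℝ) 1,
        ‖∑' l, H (p + horoShift N t t' l + s • horoShift N t t' r)
          - ∑' l, H (p + horoShift N t t' l)‖ ≤ Bd r := by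
  obtain ⟨RH, CH, hCH, hvar⟩ := lattice_sum_variation (Λ := 𝓞 F) hH hHc (finrank ℚ F - 1)
  obtain ⟨Cc, hCc, hcount⟩ := exists_count_box (F := F)
  have hd : finrank ℚ F - 1 + 1 = finrank ℚ F := Nat.sub_add_cancel finrank_pos
  obtain ⟨w₀⟩ : Nonempty (InfinitePlace F) := inferInstance
  set Br : 𝓞 F → ℝ := fun r => (N : ℝ) * (∑ w : InfinitePlace F, ‖w.embedding (r : F)‖) * (ρ * ρ)
  set A : ℝ := |RH| * (2 * ρ) * ρ + 1 / c with hA
  refine ⟨fun r => CH * ((Cc * A * Br r) ^ finrank ℚ F + (Br r / c) ^ finrank ℚ F),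
    fun t t' ht0 ht0' hxc hbal hxy p r s hs => ?_⟩
  set M : ℕ := ⌈(Cc * (A * t w₀)) ^ finrank ℚ F⌉₊ with hM
  have htc : 1 / c * t w₀ ≥ 1 := by
    rw [ge_iff_le, one_div, inv_mul_eq_div, le_div_iff₀ hc, one_mul]; exact hxc w₀
  -- at most `M` lattice points lie in the support
  have hMle : ∀ p : InfinitePlace F → ℂ × ℝ, {l | ‖p + horoShift N t t' l‖ ≤ RH}.ncard ≤ M :=
    fun p => by
    obtain ⟨h1, h2⟩ := hcount (fun w => -((p w).1 * (horoScale t t' w : ℂ) / (N : ℂ)))
      (max 1 (|RH| * (2 * ρ * ρ * t w₀))) (le_max_left _ _)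
    refine (Set.ncard_le_ncard (horoShift_sublevel_subset ht0 ht0' hN
      (fun w => horoScale_le ht0 hρ hbal (fun u => (hxy u).2) w w₀) p RH) h1).trans ?_
    rw [hM, ← Nat.cast_le (α := ℝ)]
    refine h2.trans (le_trans ?_ (Nat.le_ceil _))
    refine pow_le_pow_left₀ (mul_nonneg hCc (zero_le_one.trans (le_max_left _ _))) ?_ _
    refine mul_le_mul_of_nonneg_left (max_le ?_ ?_) hCc
    · rw [hA, add_mul]
      nlinarith [mul_nonneg (mul_nonneg (abs_nonneg RH) (show 0 ≤ 2 * ρ * ρ by positivity))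
        (ht0 w₀).le]
    · rw [hA, add_mul]
      nlinarith
  refine (hvar _ M (finite_horoShift_sublevel ht0 ht0' hN) hMle p r s hs).trans ?_
  rw [hd, mul_comm (M : ℝ) CH, mul_assoc]
  refine mul_le_mul_of_nonneg_left ?_ hCH
  have hτ : 0 < t w₀ := ht0 w₀
  have hBr0 : 0 ≤ Br r := by positivity
  -- balance the count against the size of the variation
  have hTr : ‖horoShift N t t' r‖ ≤ Br r / t w₀ := norm_horoShift_le ht0 ht0' hτ
    (fun w => le_horoScale ht0 ht0' hρ hbal (fun u => (hxy u).1) w w₀) r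
  have hCA : 0 ≤ Cc * (A * t w₀) := mul_nonneg hCc (mul_nonneg (by positivity) hτ.le)
  have hMb : (M : ℝ) ≤ (Cc * (A * t w₀)) ^ finrank ℚ F + 1 :=
    (Nat.ceil_lt_add_one (pow_nonneg hCA _)).le
  calc (M : ℝ) * ‖horoShift N t t' r‖ ^ finrank ℚ F
      ≤ ((Cc * (A * t w₀)) ^ finrank ℚ F + 1) * (Br r / t w₀) ^ finrank ℚ F :=
        mul_le_mul hMb (pow_le_pow_left₀ (norm_nonneg _) hTr _) (by positivity) (by positivity)
    _ = (Cc * A * Br r) ^ finrank ℚ F + (Br r / t w₀) ^ finrank ℚ F := by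
        rw [add_mul, one_mul, ← mul_pow]
        congr 2
        field_simp
    _ ≤ _ := add_le_add le_rfl (pow_le_pow_left₀ (div_nonneg hBr0 hτ.le)
        (div_le_div_of_nonneg_left hBr0 hc (hxc w₀)) _)

end Horo

variable {F : Type*} [Field F] [NumberField F] [IsTotallyComplex F] {S : Set (Place F)} [Finite S]

/-- **Sums over translations near a cusp are bounded.** -/
theorem cusp_sum_bound (K : PKer F S) (v3 : Place F) (hcusp : CuspLoc (K.loc v3))
    (harch : ∀ w, IsSmoothRadial (K.arch w)) (ν u₀ : FinPt F S) (ρ c : ℝ) (hρ : 1 ≤ ρ)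
    (hc : 0 < c) :
    ∃ C, ∀ x y : InfinitePlace F → H3,
      (∀ w, c ≤ (H3.coord (x w)).2) →
      (∀ w u, (H3.coord (x w)).2 ≤ ρ * (H3.coord (x u)).2) →
      (∀ w, (H3.coord (x w)).2 ≤ ρ * (H3.coord (y w)).2 ∧ (H3.coord (y w)).2 ≤ ρ *
        (H3.coord (x w)).2) →
      ‖∑' b : F, K.val (ν, x) (upMat 1 b • (u₀, y))‖ ≤ C := by
  obtain ⟨D, N, R, hD, hN, hcov, hper, hdist, hsum⟩ := exists_cusp_classes K v3 hcusp ν u₀
  choose f hfs hfc hf using harch
  obtain ⟨Bd, hBd⟩ := exists_horoShift_variation (contDiff_prodBump f hfs)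
    (hasCompactSupport_prodBump f hfc) hN ρ c hρ hc
  refine ⟨∑ r ∈ R, ‖K.fin ν (upMat 1 ((r : F) / (D : F)) • u₀)‖ * Bd r, fun x y hxc hbal hxy => ?_⟩
  set t : InfinitePlace F → ℝ := fun w => (H3.coord (x w)).2 with ht
  set t' : InfinitePlace F → ℝ := fun w => (H3.coord (y w)).2 with ht'
  have ht0 : ∀ w, 0 < t w := fun w => H3.coord_pos _
  have ht0' : ∀ w, 0 < t' w := fun w => H3.coord_pos _
  set T := horoShift N t t' with hT
  let pr : 𝓞 F → InfinitePlace F → ℂ × ℝ := fun r w =>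
    (((H3.coord (y w)).1 + w.embedding ((r : F) / (D : F)) - (H3.coord (x w)).1) /
      (horoScale t t' w : ℂ), Real.sqrt ((t w ^ 2 + t' w ^ 2) / (2 * (t w * t' w))))
  -- the sum over each class
  set Sr : 𝓞 F → ℂ := fun r => ∑' l, prodBump f (pr r + T l) with hSr
  have hterm : ∀ r l : 𝓞 F, K.val (ν, x) (upMat 1 ((r : F) / (D : F) + (N : F) * (l : F)) • (u₀, y))
      = K.fin ν (upMat 1 ((r : F) / (D : F)) • u₀) * prodBump f (pr r + T l) := by
    intro r l
    rw [PKer.val, Pt.smul_fst, hper]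
    congr 1
    refine Finset.prod_congr rfl fun w _ => ?_
    rw [Pt.smul_snd, hf, coshd_eq_cd, coord_upMat_smul]
    congr 2
    have hs2 : Real.sqrt ((t w ^ 2 + t' w ^ 2) / (2 * (t w * t' w))) ^ 2
        = (t w ^ 2 + t' w ^ 2) / (2 * (t w * t' w)) :=
      Real.sq_sqrt (by have := ht0 w; have := ht0' w; positivity)
    simp only [pr, hT, horoShift_apply, cd, Pi.add_apply, Prod.fst_add, Prod.snd_add,
      add_zero, hs2, ← add_div, Units.val_one, map_one, one_mul]
    rw [Complex.normSq_div, Complex.normSq_ofReal, ← sq, horoScale,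
      Real.sq_sqrt (by have := ht0 w; have := ht0' w; positivity)]
    rw [← add_div, map_add, map_mul, map_natCast]
    simp only [ht, ht']
    rw [add_assoc, ← Complex.normSq_neg ((H3.coord (x w)).1 - _)]
    congr 2
    · congr 1; ring
  have hsupp : ∀ r, (Function.support fun l => prodBump f (pr r + T l)).Finite := fun r =>
    finite_support_horoShift ht0 ht0' hN (hasCompactSupport_prodBump f hfc) (pr r)
  let g : R × 𝓞 F → F := fun z => (z.1.1 : F) / (D : F) + (N : F) * (z.2 : F)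
  have hg : Function.Injective g := by
    rintro ⟨⟨r, hr⟩, l⟩ ⟨⟨r', hr'⟩, l'⟩ h
    simp only [g] at h
    have hDF : (D : F) ≠ 0 := Nat.cast_ne_zero.2 hD
    have h' : r - r' = ((N * D : ℕ) : 𝓞 F) * (l' - l) := by
      apply RingOfIntegers.ext
      push_cast
      field_simp at h
      linear_combination h
    obtain rfl := hdist r hr r' hr' ⟨l' - l, h'⟩
    rw [sub_self, eq_comm, mul_eq_zero, Nat.cast_eq_zero, sub_eq_zero] at h'
    rw [(h'.resolve_left (mul_ne_zero hN hD)).symm]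
  rw [← hg.tsum_eq ?_]
  swap
  · intro b hb
    obtain ⟨r, hr, l, e⟩ := hcov b (left_ne_zero_of_mul hb)
    exact ⟨(⟨r, hr⟩, l), e.symm⟩
  let G : R → 𝓞 F → ℂ := fun r l =>
    K.fin ν (upMat 1 ((r.1 : F) / (D : F)) • u₀) * prodBump f (pr r.1 + T l)
  rw [tsum_congr (g := Function.uncurry G) fun z : R × 𝓞 F => hterm z.1.1 z.2]
  have hG : ∀ r, Summable (G r) := fun r =>
    (summable_of_hasFiniteSupport (hsupp r.1)).mul_left _
  have hG' : Summable (Function.uncurry G) := by
    refine summable_of_hasFiniteSupport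
      ((Set.toFinite (Set.univ : Set R)).prod (Set.Finite.biUnion (Set.toFinite (Set.univ : Set R))
        fun r _ => hsupp r.1) |>.subset ?_)
    rintro ⟨r, l⟩ h
    exact ⟨trivial, mem_biUnion (mem_univ r) (right_ne_zero_of_mul h)⟩
  rw [hG'.tsum_prod' hG]
  have hGr : ∀ r : R, ∑' l, Function.uncurry G (r, l)
      = K.fin ν (upMat 1 ((r.1 : F) / (D : F)) • u₀) * Sr r.1 := fun r => by
    simp only [Function.uncurry, G, hSr, tsum_mul_left]
  rw [tsum_congr hGr]
  rw [tsum_fintype,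
    Finset.sum_coe_sort R (fun r => K.fin ν (upMat 1 ((r : F) / (D : F)) • u₀) * Sr r)]
  -- the finite coefficients sum to zero, so only the differences of the class sums remain
  have h0 : ∑ r ∈ R, K.fin ν (upMat 1 ((r : F) / (D : F)) • u₀) * Sr r
      = ∑ r ∈ R, K.fin ν (upMat 1 ((r : F) / (D : F)) • u₀) * (Sr r - Sr 0) := by
    simp only [mul_sub, Finset.sum_sub_distrib, ← Finset.sum_mul, hsum, zero_mul, sub_zero]
  rw [h0]
  refine (norm_sum_le _ _).trans (Finset.sum_le_sum fun r _ => ?_)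
  rw [norm_mul]
  refine mul_le_mul_of_nonneg_left ?_ (norm_nonneg _)
  set s : ℝ := ((N : ℝ) * (D : ℝ))⁻¹ with hs
  have hs01 : s ∈ Icc (0 : ℝ) 1 := ⟨by positivity, inv_le_one_of_one_le₀ (by
    exact_mod_cast Nat.one_le_iff_ne_zero.2 (mul_ne_zero hN hD))⟩
  have e : ∀ l, prodBump f (pr r + T l) = prodBump f (pr 0 + T l + s • T r) := fun l => by
    congr 1
    funext w
    have hN' : (N : ℂ) ≠ 0 := Nat.cast_ne_zero.2 hN
    have hD' : (D : ℂ) ≠ 0 := Nat.cast_ne_zero.2 hD
    have hσ' : (horoScale t t' w : ℂ) ≠ 0 := Complex.ofReal_ne_zero.2 (horoScale_pos ht0 ht0' w).ne'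
    refine Prod.ext ?_ ?_
    · simp [pr, hT, horoShift_apply, hs]; field_simp; ring
    · simp [pr, hT, horoShift_apply]
  have hv := hBd t t' ht0 ht0' hxc hbal hxy (pr 0) r s hs01
  simp only [← hT, ← e] at hv
  exact hv

end Fermat.LT
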