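import Fermat.Agent.LT.Reduce

/-!
# Local facts at a cusp

`CuspLoc` says that a local kernel kills the sums over orbits of unipotent translations;
`upMat_smul_bound` bounds the upper triangular matrices moving one coset to another.
-/

set_option autoImplicit false
open IsDedekindDomain NumberField Set
open scoped Classical Matrix

namespace Fermat.LT

variable {F : Type*} [Field F] [NumberField F] {S : Set (Place F)}

/-- The kernel kills the sums over the orbits of unipotent translations. -/
def CuspLoc {v : Place F} (k : LKer S v) : Prop :=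
  ∀ a b : Vert S v, ∑ᶠ c ∈ Set.range (fun x : F => upMat 1 x • b), k a c = 0

omit [NumberField F] in
/-- Translations add. -/
lemma upMat_add (x y : F) : upMat (1 : Fˣ) (x + y) = upMat 1 x * upMat 1 y := by
  rw [upMat_mul, one_mul, Units.val_one, one_mul, add_comm]

omit [NumberField F] in
/-- An upper triangular matrix is a translation times a diagonal one. -/
lemma upMat_eq_unip_mul (a : Fˣ) (b : F) : upMat a b = upMat 1 b * upMat a 0 := by
  rw [upMat_mul, one_mul, mul_zero, zero_add]

/-- Small translations fix a local coset. -/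
lemma exists_unip_fix (v : Place F) (y : Vert S v) :
    ∃ n : ℕ, ∀ x : F, v.valuation F x ≤ WithZero.exp (-(n : ℤ)) → upMat (1 : Fˣ) x • y = y := by
  set g := y.out with hg
  obtain ⟨m, hm⟩ := exists_entry_bound (v.valuation F) g
  refine ⟨2 * m + 1, fun x hx => ?_⟩
  have hcong : g⁻¹ * upMat 1 x * g ∈ congGL (v.valuation F) := by
    refine conj_mem_congGL_of_near _ hm (fun i j => ?_) fun i j => ?_ <;>
      generalize WithZero.exp (-((2 * m + 1 : ℕ) : ℤ)) = δ at hx ⊢
    · fin_cases i <;> fin_cases j <;> simp [hx]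
    · rw [upMat_inv]
      fin_cases i <;> fin_cases j <;> simp [hx]
  rw [eq_comm, ← QuotientGroup.out_eq' y, MulAction.Quotient.smul_coe,
    QuotientGroup.eq, smul_eq_mul, ← hg, ← mul_assoc]
  by_cases hvS : v ∈ S
  · exact (lev_of_mem hvS).ge (le_withScalars _ hcong)
  · exact (lev_of_not_mem hvS).ge (U1_le_U0 _ (le_withScalars _ hcong))

/-- Outside the level, an integral unipotent fixes the base coset. -/
lemma unip_fix_base {v : Place F} (hv : v ∉ S) {x : F} (hx : v.valuation F x ≤ 1) :
    upMat (1 : Fˣ) x • ((1 : GL (Fin 2) F) : Vert S v) = ((1 : GL (Fin 2) F) : Vert S v) := by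
  rw [MulAction.Quotient.smul_coe, QuotientGroup.eq]
  exact (lev_of_not_mem hv).ge (by
    simpa using (U0 _).inv_mem (le_withScalars _ (upMat_mem_intGL (v.valuation F) (by simp) hx)))

/-- Bound for an upper triangular matrix moving a coset of a small group to another. -/
lemma upMat_bound_of_mem_U0 {v : Place F} {p c : GL (Fin 2) F} {a : Fˣ} {b : F}
    (hu : (upMat a b * p)⁻¹ * c ∈ U0 (v.valuation F)) :
    v.valuation F (a : F) ≤ WithZero.exp ((lvl (v.valuation F) p + lvl (v.valuation F) c : ℕ) : ℤ) ∧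
    v.valuation F b ≤
      WithZero.exp ((2 * (lvl (v.valuation F) p + lvl (v.valuation F) c) : ℕ) : ℤ) := by
  set g := upMat a b with hg
  set L := lvl (v.valuation F) p + lvl (v.valuation F) c
  have hl : lvl (v.valuation F) g ≤ L := by
    have e : g = c * ((g * p)⁻¹ * c)⁻¹ * p⁻¹ := by group
    calc lvl (v.valuation F) g = lvl (v.valuation F) (c * ((g * p)⁻¹ * c)⁻¹ * p⁻¹) := by rw [← e]
      _ ≤ lvl (v.valuation F) (c * ((g * p)⁻¹ * c)⁻¹) + lvl (v.valuation F) p⁻¹ := lvl_mul_le _ _ _
      _ = L := by rw [lvl_mul_right _ ((U0 _).inv_mem hu), lvl_inv, add_comm]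
  have hle : WithZero.exp (lvl (v.valuation F) g : ℤ) ≤ WithZero.exp (L : ℤ) :=
    WithZero.exp_le_exp.2 (by exact_mod_cast hl)
  have h1 := (v_quad_le (v.valuation F) g ((0, 0), (0, 0))).trans hle
  have h2 := (v_quad_le (v.valuation F) g ((0, 1), (1, 1))).trans hle
  have e1 : quad g ((0, 0), (0, 0)) = (a : F) := by
    simp [quad, hg, Matrix.det_fin_two_of]
  have e2 : quad g ((0, 1), (1, 1)) = b / (a : F) := by
    simp [quad, hg, Matrix.det_fin_two_of]
  rw [e1] at h1
  rw [e2] at h2
  refine ⟨h1, ?_⟩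
  rw [← div_mul_cancel₀ b a.ne_zero, map_mul]
  refine (mul_le_mul' h2 h1).trans (le_of_eq ?_)
  rw [← WithZero.exp_add]; push_cast; ring_nf

/-- Bound for the matrices moving one coset to another. -/
lemma upMat_smul_bound {v : Place F} {y y' : Vert S v} {a : Fˣ} {b : F}
    (h : upMat a b • y = y') :
    v.valuation F (a : F) ≤
      WithZero.exp ((lvl (v.valuation F) y.out + lvl (v.valuation F) y'.out : ℕ) : ℤ) ∧
    v.valuation F b ≤
      WithZero.exp ((2 * (lvl (v.valuation F) y.out + lvl (v.valuation F) y'.out) : ℕ) : ℤ) := by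
  rw [← QuotientGroup.out_eq' y, ← QuotientGroup.out_eq' y',
    MulAction.Quotient.smul_coe, QuotientGroup.eq, smul_eq_mul] at h
  exact upMat_bound_of_mem_U0 (lev_le_U0 S v h)

/-- A positive integer divisible enough. -/
lemma exists_nat_small (b : Place F → ℕ) (hb : {v | b v ≠ 0}.Finite) :
    ∃ D : ℕ, D ≠ 0 ∧ ∀ v : Place F, v.valuation F (D : F) ≤ WithZero.exp (-(b v : ℤ)) := by
  let I : Ideal (𝓞 F) := ∏ v ∈ hb.toFinset, v.asIdeal ^ b v
  have hI : I ≠ ⊥ := by
    simp only [I, ← Ideal.zero_eq_bot, ne_eq, Finset.prod_eq_zero_iff, not_exists, not_and]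
    exact fun v _ => pow_ne_zero _ v.ne_bot
  refine ⟨Ideal.absNorm I, Ideal.absNorm_eq_zero_iff.not.2 hI, fun v => ?_⟩
  rw [show ((Ideal.absNorm I : ℕ) : F) = algebraMap (𝓞 F) F (Ideal.absNorm I : ℕ) by simp,
    HeightOneSpectrum.valuation_of_algebraMap, HeightOneSpectrum.intValuation_le_pow_iff_mem]
  by_cases hv : b v = 0
  · simp [hv]
  · exact Ideal.le_of_dvd (Finset.dvd_prod_of_mem (fun u : Place F => u.asIdeal ^ b u)
      (hb.mem_toFinset.2 hv)) (Ideal.absNorm_mem I)

end Fermat.LT
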