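import Mathlib

/-!
# A Hilbert basis of joint eigenvectors

`exists_basis_sysVec` gives it for a compact symmetric operator commuting with a commuting
symmetric family.
-/

set_option autoImplicit false
open Module.End
open scoped InnerProductSpace

namespace Fermat.LT

variable {E : Type*} [NormedAddCommGroup E] [InnerProductSpace ℂ E] [CompleteSpace E]
variable {J : Type*} (A : E →L[ℂ] E) (T : J → E →L[ℂ] E)

/-- `x` is killed by `A`, or is an eigenvector of `A` with nonzero eigenvalue and of all `T j`. -/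
def IsSysVec (x : E) : Prop :=
  A x = 0 ∨ ∃ (lam : ℂ) (χ : J → ℂ), lam ≠ 0 ∧ A x = lam • x ∧ ∀ j, T j x = χ j • x

omit [CompleteSpace E] in
/-- A unit vector orthogonal to an orthonormal set can be added to it. -/
lemma orthonormal_insert_of_mem_orthogonal {w : Set E} (hw : Orthonormal ℂ ((↑) : w → E)) {e : E}
    (hne : ‖e‖ = 1) (heW : e ∈ (Submodule.span ℂ w)ᗮ) :
    Orthonormal ℂ (Subtype.val : ↥(insert e w) → E) := by
  classical
  rw [orthonormal_subtype_iff_ite]
  intro a ha b hb
  have horth : ∀ y ∈ w, ⟪e, y⟫_ℂ = 0 ∧ ⟪y, e⟫_ℂ = 0 := fun y hy =>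
    ⟨(Submodule.mem_orthogonal' _ e).1 heW y (Submodule.subset_span hy),
      (Submodule.mem_orthogonal _ e).1 heW y (Submodule.subset_span hy)⟩
  rcases ha with rfl | ha <;> rcases hb with rfl | hb
  · rw [if_pos rfl, inner_self_eq_norm_sq_to_K, hne]; simp
  · rw [(horth b hb).1]
    split_ifs with h
    · have := (horth b hb).1
      rw [← h, inner_self_eq_norm_sq_to_K, hne] at this
      simp at this
    · rfl
  · rw [(horth a ha).2]
    split_ifs with h
    · have := (horth a ha).2
      rw [h, inner_self_eq_norm_sq_to_K, hne] at this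
      simp at this
    · rfl
  · exact (orthonormal_subtype_iff_ite.1 hw) a ha b hb

omit [CompleteSpace E] in
/-- Commuting symmetric operators have a joint eigenvector in a nonzero finite-dimensional invariant
subspace. -/
lemma exists_joint_eigen (V : Submodule ℂ E) [FiniteDimensional ℂ V]
    (hTs : ∀ j, (T j).IsSymmetric) (hTT : Pairwise fun i j => Commute (T i) (T j))
    (hV : ∀ j, ∀ y ∈ V, (T j : E →ₗ[ℂ] E) y ∈ V) (hne : V ≠ ⊥) :
    ∃ y ∈ V, y ≠ 0 ∧ ∃ χ : J → ℂ, ∀ j, T j y = χ j • y := by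
  let S : J → Module.End ℂ V := fun j => (T j : E →ₗ[ℂ] E).restrict (hV j)
  have hS : ∀ j, (S j).IsSymmetric := fun j a b => hTs j a b
  have hcom : Pairwise fun i j => Commute (S i) (S j) := fun i j hij => by
    refine LinearMap.ext fun a => Subtype.ext ?_
    exact congrArg (fun f : E →L[ℂ] E => f (a : E)) (hTT hij).eq
  have htop := LinearMap.IsSymmetric.iSup_iInf_eq_top_of_commute hS hcom
  obtain ⟨χ, hχ⟩ : ∃ χ : J → ℂ, (⨅ j, eigenspace (S j) (χ j)) ≠ ⊥ := by
    by_contra! hcon
    have h1 : (⊤ : Submodule ℂ V) = ⊥ := by rw [← htop]; simp [hcon]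
    refine hne ((Submodule.eq_bot_iff _).2 fun x hx => ?_)
    have h2 : (⟨x, hx⟩ : V) ∈ (⊥ : Submodule ℂ V) := h1 ▸ trivial
    exact congrArg Subtype.val ((Submodule.mem_bot ℂ).1 h2)
  obtain ⟨y, hy, hy0⟩ := Submodule.exists_mem_ne_zero_of_ne_bot hχ
  exact ⟨y, y.2, fun h => hy0 (Subtype.ext h), χ, fun j =>
    congrArg Subtype.val (mem_eigenspace_iff.1 ((Submodule.mem_iInf _).1 hy j))⟩

/-- A compact symmetric operator commuting with a commuting symmetric family has a Hilbert basis
of joint eigenvectors. -/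
theorem exists_basis_sysVec (hA : IsCompactOperator A) (hAs : A.IsSymmetric)
    (hTs : ∀ j, (T j).IsSymmetric) (hAT : ∀ j, Commute A (T j))
    (hTT : Pairwise fun i j => Commute (T i) (T j)) :
    ∃ (w : Set E) (b : HilbertBasis w ℂ E), ⇑b = ((↑) : w → E) ∧ ∀ x ∈ w, IsSysVec A T x := by
  classical
  -- a maximal orthonormal family of joint eigenvectors
  have hzorn := zorn_subset_nonempty
    {w : Set E | Orthonormal ℂ ((↑) : w → E) ∧ ∀ x ∈ w, IsSysVec A T x} ?_ ∅
    ⟨⟨fun i => i.2.elim, fun i => i.2.elim⟩, fun x hx => hx.elim⟩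
  swap
  · intro c hc hchain _
    refine ⟨⋃₀ c, ⟨?_, ?_⟩, fun s hs => Set.subset_sUnion_of_mem hs⟩
    · exact orthonormal_sUnion_of_directed hchain.directedOn fun s hs => (hc hs).1
    · rintro x ⟨s, hs, hx⟩
      exact (hc hs).2 x hx
  obtain ⟨w, -, hwmax⟩ := hzorn
  have hw := hwmax.1.1
  have hws : ∀ x ∈ w, IsSysVec A T x := hwmax.1.2
  set W : Submodule ℂ E := (Submodule.span ℂ w)ᗮ with hW
  have hext : ∀ x ∈ W, x ≠ 0 → ¬ IsSysVec A T x := by
    intro x hx hx0 hsys
    set e : E := (‖x‖⁻¹ : ℂ) • x with he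
    have hne : ‖e‖ = 1 := by rw [he, norm_smul]; simp [hx0]
    have heW : e ∈ W := W.smul_mem _ hx
    have hsyse : IsSysVec A T e := by
      rcases hsys with h | ⟨lam, χ, hl, h1, h2⟩
      · exact Or.inl (by rw [he, map_smul, h, smul_zero])
      · exact Or.inr ⟨lam, χ, hl, by rw [he, map_smul, h1, smul_comm],
          fun j => by rw [he, map_smul, h2 j, smul_comm]⟩
    have hnew : insert e w ∈
        {w : Set E | Orthonormal ℂ ((↑) : w → E) ∧ ∀ x ∈ w, IsSysVec A T x} := by
      exact ⟨orthonormal_insert_of_mem_orthogonal hw hne heW,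
        fun y hy => hy.elim (fun h => h ▸ hsyse) (hws y)⟩
    have hew : e ∈ w := hwmax.2 hnew (Set.subset_insert e w) (Set.mem_insert e w)
    have := (Submodule.mem_orthogonal _ e).1 heW e (Submodule.subset_span hew)
    rw [inner_self_eq_norm_sq_to_K, hne] at this
    simp at this
  have hinvA : ∀ x ∈ W, A x ∈ W := by
    intro x hx
    rw [hW, Submodule.mem_orthogonal]
    intro u hu
    induction hu using Submodule.span_induction with
    | zero => simp
    | add a b _ _ ha hb => simp [inner_add_left, ha, hb]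
    | smul c a _ ha => simp [inner_smul_left, ha]
    | mem a ha =>
      have h0 := (Submodule.mem_orthogonal _ x).1 hx a (Submodule.subset_span ha)
      have hsy : ⟪A a, x⟫_ℂ = ⟪a, A x⟫_ℂ := hAs a x
      rcases hws a ha with h | ⟨lam, χ, -, h1, -⟩
      · rw [← hsy, h, inner_zero_left]
      · rw [← hsy, h1, inner_smul_left, h0, mul_zero]
  -- every nonzero eigenspace of `A` inside `W` would give a new joint eigenvector
  have hA0 : ∀ lam : ℂ, lam ≠ 0 → ∀ x ∈ W, A x = lam • x → x = 0 := by
    intro lam hl x hx hAx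
    by_contra hx0
    let V : Submodule ℂ E := eigenspace (A : E →ₗ[ℂ] E) lam
    have : FiniteDimensional ℂ V := ContinuousLinearMap.finite_dimensional_eigenspace hA lam hl
    let V' : Submodule ℂ E := W ⊓ V
    have : FiniteDimensional ℂ V' := Submodule.finiteDimensional_of_le inf_le_right
    have hmem : ∀ y, y ∈ V' ↔ y ∈ W ∧ A y = lam • y := fun y => by
      simp [V', V]
    have hVw : ∀ j, ∀ y ∈ V', (T j : E →ₗ[ℂ] E) y ∈ V' := by
      intro j y hy
      rw [hmem] at hy ⊢
      have hcomm : A (T j y) = T j (A y) := by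
        have := congrArg (fun f : E →L[ℂ] E => f y) (hAT j).eq
        simpa using this
      refine ⟨?_, by rw [ContinuousLinearMap.coe_coe, hcomm, hy.2, map_smul]⟩
      rw [hW, Submodule.mem_orthogonal]
      intro u hu
      induction hu using Submodule.span_induction with
      | zero => simp
      | add a b _ _ ha hb => simp only [inner_add_left, ha, hb, add_zero]
      | smul c a _ ha => simp only [inner_smul_left, ha, mul_zero]
      | mem a ha =>
        have h0 := (Submodule.mem_orthogonal _ y).1 hy.1 a (Submodule.subset_span ha)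
        have hsy : ⟪T j a, y⟫_ℂ = ⟪a, T j y⟫_ℂ := hTs j a y
        rcases hws a ha with h | ⟨l, χ, -, -, h2⟩
        · have h1 : ⟪A a, T j y⟫_ℂ = ⟪a, A (T j y)⟫_ℂ := hAs a (T j y)
          rw [h, inner_zero_left, hcomm, hy.2, map_smul, inner_smul_right] at h1
          exact (mul_eq_zero.1 h1.symm).resolve_left hl
        · rw [ContinuousLinearMap.coe_coe, ← hsy, h2 j, inner_smul_left, h0, mul_zero]
    obtain ⟨y, hy, hy0, χ, hχ⟩ := exists_joint_eigen T V' hTs hTT hVw
      ((Submodule.ne_bot_iff _).2 ⟨x, (hmem x).2 ⟨hx, hAx⟩, hx0⟩)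
    exact hext y ((hmem y).1 hy).1 hy0 (Or.inr ⟨lam, χ, hl, ((hmem y).1 hy).2, hχ⟩)
  have hWbot : W = ⊥ := by
    have : CompleteSpace W := (Submodule.isClosed_orthogonal _).completeSpace_coe
    let AW : W →L[ℂ] W := A.restrict hinvA
    have hAWc : IsCompactOperator AW := hA.restrict' hinvA
    have hAWs : AW.IsSymmetric := fun a b => hAs a b
    have hz : AW = 0 := by
      rw [← ContinuousLinearMap.eq_zero_of_forall_hasEigenvalue_eq_zero hAWc hAWs]
      intro lam hlam
      by_contra hl
      obtain ⟨y, hy, hy0⟩ := hlam.exists_hasEigenvector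
      exact hy0 (Subtype.ext (hA0 lam hl y y.2 (congrArg Subtype.val (mem_eigenspace_iff.1 hy))))
    rw [Submodule.eq_bot_iff]
    intro x hx
    by_contra hx0
    exact hext x hx hx0 (Or.inl (congrArg Subtype.val (congrArg (fun f => f ⟨x, hx⟩) hz)))
  refine ⟨w, HilbertBasis.mkOfOrthogonalEqBot hw (by simpa [hW] using hWbot),
    HilbertBasis.coe_mkOfOrthogonalEqBot _ _, hws⟩

end Fermat.LT
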