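import Fermat.Agent.LT.Operators
import Fermat.Agent.LT.Spectral

/-!
# An eigenbasis of automorphic functions for a commuting family of kernels

`exists_sysBasis`: for a commuting family of bounded Hermitian kernels `L²` of a fundamental
domain has a Hilbert basis of such functions (`SysData`).
-/

set_option autoImplicit false
open MeasureTheory Filter Set NumberField
open scoped Classical ComplexConjugate InnerProductSpace

namespace Fermat.LT

variable {F : Type*} [Field F] [NumberField F] {S : Set (Place F)}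

/-- A local kernel is hermitian. -/
def LKer.IsHerm {v : Place F} (l : LKer S v) : Prop := ∀ a b, l b a = conj (l a b)

/-- An archimedean kernel is real. -/
def AKer.IsReal (k : AKer) : Prop := ∀ x y, conj (k x y) = k x y

/-- A real radial function gives a real kernel. -/
lemma AKer.isReal_ofRadial (k : ℝ → ℝ) (hk : Continuous k) (hs : HasCompactSupport k) :
    (AKer.ofRadial k hk hs).IsReal := fun _ _ => Complex.conj_ofReal _

/-- Compositions of real archimedean kernels are real. -/
lemma AKer.IsReal.comp {a b : AKer} (ha : a.IsReal) (hb : b.IsReal) : (a.comp b).IsReal := by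
  intro x z
  change conj (∫ y, a x y * b y z ∂hmeas) = ∫ y, a x y * b y z ∂hmeas
  rw [← integral_conj]
  simp only [map_mul, ha _ _, hb _ _]

/-- The identity is Hermitian. -/
lemma LKer.isHerm_one (v : Place F) : (LKer.one S v).IsHerm := fun a b => by
  rw [LKer.one_apply, LKer.one_apply]
  split_ifs with h h' h' <;> simp_all

namespace PKer

/-- Hermitian product kernel. -/
structure IsHerm (K : PKer F S) : Prop where
  /-- The local kernels are hermitian. -/
  loc : ∀ v, (K.loc v).IsHerm
  /-- The infinite kernels are real. -/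
  arch : ∀ w, (K.arch w).IsReal

/-- The local factors commute. -/
def LocComm (K L : PKer F S) : Prop := ∀ v, (K.loc v).comp (L.loc v) = (L.loc v).comp (K.loc v)

/-- A hermitian kernel takes conjugate values at exchanged points. -/
lemma IsHerm.val_eq {K : PKer F S} (h : K.IsHerm) (p q : Pt F S) :
    K.val q p = conj (K.val p q) := by
  rw [val, val, map_mul, fin, fin, inf, inf, map_prod]
  congr 1
  · rw [finprod_eq_prod_of_mulSupport_subset (s := (K.mulSupport_finite p.1 q.1).toFinset ∪
      (K.mulSupport_finite q.1 p.1).toFinset) _ (fun v hv => by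
        exact Finset.mem_coe.2 (Finset.mem_union_right _ ((Set.Finite.mem_toFinset _).2 hv))),
      finprod_eq_prod_of_mulSupport_subset (s := (K.mulSupport_finite p.1 q.1).toFinset ∪
      (K.mulSupport_finite q.1 p.1).toFinset) _ (fun v hv => by
        exact Finset.mem_coe.2 (Finset.mem_union_left _ ((Set.Finite.mem_toFinset _).2 hv))),
          map_prod]
    exact Finset.prod_congr rfl fun v _ => h.loc v _ _
  · exact Finset.prod_congr rfl fun w _ => by rw [(K.arch w).symm, h.arch w]

/-- Locally commuting kernels commute. -/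
lemma val_comp_comm {K L : PKer F S} (h : LocComm K L) (p q : Pt F S) :
    (K.comp L).val p q = (L.comp K).val p q := by
  rw [val, val, fin, fin, inf, inf]
  congr 1
  · exact finprod_congr fun v => by
      change (K.loc v).comp (L.loc v) _ _ = (L.loc v).comp (K.loc v) _ _
      rw [h v]
  · exact Finset.prod_congr rfl fun w _ => AKer.comp_comm _ _ _ _

variable [Finite S] {D : Set (Pt F S)} [IsFiniteMeasure (domMeasure D)]

/-- Locally commuting kernels give commuting operators. -/
lemma opK_comm (hD : IsFundamentalDomain (PG F) D ptMeasure) {K L : PKer F S} (hK : K.Bdd)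
    (hL : L.Bdd) (h : LocComm K L) : Commute (K.opK (D := D) hK) (L.opK hL) := by
  refine ContinuousLinearMap.ext fun φ => ?_
  change K.opK hK (L.opK hL φ) = L.opK hL (K.opK hK φ)
  rw [opK_comp hD, opK_comp hD]
  exact opK_congr (kap_congr (val_comp_comm h)) φ

omit [IsFiniteMeasure (domMeasure D)] in
/-- The operator values are homogeneous in the function. -/
lemma appP_const_smul (K : PKer F S) (c : ℂ) (φ : DomL2 D) (p : Pt F S) :
    K.appP (c • φ) p = c * K.appP φ p := by
  rw [appP, appP, ← integral_const_mul]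
  refine integral_congr_ae ?_
  filter_upwards [Lp.coeFn_smul c φ] with q hq
  rw [hq, Pi.smul_apply, smul_eq_mul]
  ring

/-- An automorphic representative of a joint eigenvector. -/
structure SysData {J : Type*} (A : PKer F S) (T : J → PKer F S) (x : DomL2 D) (lam : ℂ)
    (χ : J → ℂ) (Φ : Pt F S → ℂ) : Prop where
  /-- The eigenvalue of `A` is not zero. -/
  lam_ne : lam ≠ 0
  /-- The eigenvalue of `A` is real. -/
  lam_real : conj lam = lam
  /-- The eigenvalues of the `T j` are real. -/
  chi_real : ∀ j, conj (χ j) = χ j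
  /-- `Φ` represents `x` on the domain. -/
  ae_eq : Φ =ᵐ[domMeasure D] x
  /-- The function is invariant under `GL₂(F)`. -/
  invariant : IsInvariant Φ
  /-- The function is continuous in the archimedean variables. -/
  continuous : ∀ ν : FinPt F S, Continuous fun y : InfinitePlace F → H3 => Φ (ν, y)
  /-- The function is bounded. -/
  bounded : ∃ C : ℝ, ∀ p, ‖Φ p‖ ≤ C
  /-- `A` sends `x` to `lam • Φ` at every point. -/
  appA : ∀ p, A.appP x p = lam * Φ p
  /-- `T j` sends `x` to `χ j • Φ` at every point. -/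
  appT : ∀ j p, (T j).appP x p = χ j * Φ p

/-- **The eigenbasis.** For a commuting family of bounded hermitian kernels, `L²` of a fundamental
domain has a Hilbert basis of vectors killed by `A` or joint eigenvectors with automorphic
representatives. -/
theorem exists_sysBasis (hD : IsFundamentalDomain (PG F) D ptMeasure) {J : Type*} (A : PKer F S)
    (T : J → PKer F S) (hA : A.Bdd) (hT : ∀ j, (T j).Bdd) (hAh : A.IsHerm) (hTh : ∀ j, (T j).IsHerm)
    (hAT : ∀ j, LocComm A (T j)) (hTT : Pairwise fun i j => LocComm (T i) (T j)) :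
    ∃ (w : Set (DomL2 D)) (b : HilbertBasis w ℂ (DomL2 D)), ⇑b = ((↑) : w → DomL2 D) ∧
      ∀ x ∈ w, A.opK hA x = 0 ∨ ∃ lam χ Φ, SysData A T x lam χ Φ := by
  -- a basis of joint eigenvectors
  obtain ⟨w, b, hb, hw⟩ := exists_basis_sysVec (A.opK (D := D) hA) (fun j => (T j).opK (hT j))
    (isCompactOperator_opK hA) (isSymmetric_opK hA hAh.val_eq)
    (fun j => isSymmetric_opK (hT j) (hTh j).val_eq) (fun j => opK_comm hD hA (hT j) (hAT j))
    (fun i j h => opK_comm hD (hT i) (hT j) (hTT h))
  refine ⟨w, b, hb, fun x hx => (hw x hx).imp_right ?_⟩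
  rintro ⟨lam, χ, hlam, h1, h2⟩
  have hx0 : x ≠ 0 := by
    have := b.orthonormal.ne_zero ⟨x, hx⟩
    rwa [hb] at this
  -- the eigenvalues are real, by symmetry
  have hreal : ∀ (K : PKer F S) (hK : K.Bdd) (_ : K.IsHerm) (c : ℂ), K.opK hK x = c • x →
      conj c = c := by
    intro K hK hKh c hc
    have h3 := isSymmetric_opK (D := D) hK hKh.val_eq x x
    change ⟪K.opK hK x, x⟫_ℂ = ⟪x, K.opK hK x⟫_ℂ at h3
    rw [hc, inner_smul_left, inner_smul_right] at h3
    exact mul_right_cancel₀ (inner_self_ne_zero.2 hx0) h3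
  -- `lam⁻¹ • A x` is the continuous representative
  refine ⟨lam, χ, fun p => lam⁻¹ * A.appP x p, hlam, hreal A hA hAh lam h1,
    fun j => hreal _ (hT j) (hTh j) _ (h2 j), ?_, ?_, ?_, ?_, fun p => ?_, fun j p => ?_⟩
  · filter_upwards [opK_coeFn hA x, Lp.coeFn_smul lam x] with p e1 e2
    rw [← e1, h1, e2, Pi.smul_apply, smul_eq_mul, inv_mul_cancel_left₀ hlam]
  · exact isInvariant_iff.2 fun g p => by rw [← PG.mk_smul, appP_smul]
  · exact fun ν => continuous_const.mul (continuous_appP hA x ν)
  · obtain ⟨C, hC⟩ := exists_appP_bound hA x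
    exact ⟨‖lam⁻¹‖ * C, fun p => by
      rw [norm_mul]; exact mul_le_mul_of_nonneg_left (hC p) (norm_nonneg _)⟩
  · rw [mul_inv_cancel_left₀ hlam]
  · have e1 : (T j).appP (A.opK hA x) p = A.appP ((T j).opK (hT j) x) p := by
      rw [appP_opK hD (hT j) hA, appP_opK hD hA (hT j), appP, appP]
      simp only [kap_congr (val_comp_comm (hAT j))]
    rw [h1, h2 j, appP_const_smul, appP_const_smul] at e1
    field_simp
    linear_combination e1

omit [Finite S] in
/-- A bound for the eigenvalue of an operation with finite mass. -/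
lemma norm_eigen_le {Φ : Pt F S → ℂ} (hbd : ∃ C : ℝ, ∀ p, ‖Φ p‖ ≤ C) (hne : ∃ p, Φ p ≠ 0)
    {m : ℝ} (op : (Pt F S → ℂ) → Pt F S → ℂ)
    (hop : ∀ C : ℝ, (∀ p, ‖Φ p‖ ≤ C) → ∀ p, ‖op Φ p‖ ≤ m * C) {c : ℂ}
    (hc : ∀ p, op Φ p = c * Φ p) : ‖c‖ ≤ m := by
  obtain ⟨C₀, hC₀⟩ := hbd
  obtain ⟨p₀, hp₀⟩ := hne
  set s := ⨆ p, ‖Φ p‖ with hs
  have hbdd : BddAbove (Set.range fun p => ‖Φ p‖) := ⟨C₀, by rintro _ ⟨p, rfl⟩; exact hC₀ p⟩
  have hsp : ∀ p, ‖Φ p‖ ≤ s := le_ciSup hbdd
  have hs0 : 0 < s := (norm_pos_iff.2 hp₀).trans_le (hsp p₀)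
  have : Nonempty (Pt F S) := ⟨p₀⟩
  have h1 : ‖c‖ * s ≤ m * s := by
    rw [hs, Real.mul_iSup_of_nonneg (norm_nonneg c)]
    refine ciSup_le fun p => ?_
    rw [← norm_mul, ← hc]
    exact hop s hsp p
  exact le_of_mul_le_mul_right h1 hs0

end PKer

end Fermat.LT
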