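import Fermat.Agent.LT.Res3
import Fermat.Agent.LT.SysBasis
import Fermat.Agent.LT.CuspLocal

/-!
# The cuspidal idempotent as a local kernel

`eKer` is the kernel of the idempotent; `cuspLoc_eKer` says that it is cuspidal and
`isCuspType_iff_locAct` reads the cuspidal type from it.
-/

set_option autoImplicit false
open Filter Set
open scoped Classical ComplexConjugate

namespace Fermat.LT

variable {F : Type*} [Field F] [NumberField F] {S : Set (Place F)} {v : Place F}

/-- Integral invertible matrices lie in the maximal subgroup. -/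
lemma incGL_mem_U0 (a : GL (Fin 2) (v.valuation F).integer) : incGL v a ∈ U0 (v.valuation F) :=
  le_withScalars _ ⟨a, rfl⟩

/-- Their multiples by scalars also do. -/
lemma scal_incGL_mem_U0 (c : Fˣ) (a : GL (Fin 2) (v.valuation F).integer) :
    scal c * incGL v a ∈ U0 (v.valuation F) :=
  (U0 _).mul_mem (scal_mem_withScalars _ c) (incGL_mem_U0 a)

/-- Multiplying a scalar times an integral matrix by two such on either side. -/
lemma scal_incGL_sandwich {u u' : GL (Fin 2) F} {d c d' : Fˣ}
    {x a x' : GL (Fin 2) (v.valuation F).integer} (hx : incGL v x = scal d * u)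
    (hx' : incGL v x' = scal d' * u') :
    u * (scal c * incGL v a) * u' = scal (d⁻¹ * c * d'⁻¹) * incGL v (x * a * x') := by
  have hu2 : u = scal d⁻¹ * incGL v x := by
    rw [hx, ← mul_assoc, ← scal_mul, inv_mul_cancel]
    simp [scal]
  have hu3 : u' = scal d'⁻¹ * incGL v x' := by
    rw [hx', ← mul_assoc, ← scal_mul, inv_mul_cancel]
    simp [scal]
  rw [hu2, hu3, map_mul, map_mul, scal_mul, scal_mul]
  simp only [← mul_assoc]
  rw [mul_assoc (scal d⁻¹) (incGL v x) (scal c), ← scal_comm c (incGL v x),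
    mul_assoc _ (incGL v a) (scal d'⁻¹), ← scal_comm d'⁻¹ (incGL v a)]
  simp only [← mul_assoc]
  rw [mul_assoc (scal d⁻¹ * scal c) (incGL v x) (scal d'⁻¹), ← scal_comm d'⁻¹ (incGL v x)]
  simp only [← mul_assoc]

/-- The inverse of a scalar times an integral matrix. -/
lemma scal_incGL_inv (c : Fˣ) (x : GL (Fin 2) (v.valuation F).integer) :
    (scal c * incGL v x)⁻¹ = scal c⁻¹ * incGL v x⁻¹ := by
  rw [mul_inv_rev, map_inv, show (scal c⁻¹ : GL (Fin 2) F) = (scal c)⁻¹ from map_inv _ c]
  rw [← show (scal c⁻¹ : GL (Fin 2) F) = (scal c)⁻¹ from map_inv _ c, scal_comm]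

variable (hv : pnorm v = 3)
include hv

/-- The idempotent is bi-invariant under `U1`. -/
lemma eCusp_mul_U1 {u u' : GL (Fin 2) F} (hu : u ∈ U1 (v.valuation F))
    (hu' : u' ∈ U1 (v.valuation F)) (m : GL (Fin 2) F) :
    eCusp (v.valuation F) (u * m * u') = eCusp (v.valuation F) m := by
  by_cases hm : m ∈ U0 (v.valuation F)
  · obtain ⟨c, a, rfl⟩ := exists_eq_scal_incGL hm
    obtain ⟨d, hd⟩ := hu
    obtain ⟨d', hd'⟩ := hu'
    obtain ⟨x, hx⟩ := hd.1
    obtain ⟨x', hx'⟩ := hd'.1
    have e1 : red3 hv x = 1 :=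
      (red3_eq_one_iff hv x).2 (by rw [show incGL v x = _ from hx]; exact hd)
    have e2 : red3 hv x' = 1 :=
      (red3_eq_one_iff hv x').2 (by rw [show incGL v x' = _ from hx']; exact hd')
    rw [scal_incGL_sandwich hx hx', eCusp_scal_incGL hv, eCusp_scal_incGL hv, map_mul, map_mul,
      e1, e2, one_mul, mul_one]
  · rw [eCusp_eq_zero hm, eCusp_eq_zero fun h => hm ?_]
    have := (U0 _).mul_mem ((U0 _).mul_mem ((U0 _).inv_mem (U1_le_U0 _ hu)) h)
      ((U0 _).inv_mem (U1_le_U0 _ hu'))
    simpa [mul_assoc] using this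

/-- The cuspidal idempotent at two classes does not depend on the chosen representatives. -/
lemma eCusp_mk (hvS : v ∈ S) (g h : GL (Fin 2) F) :
    eCusp (v.valuation F) (((g : Vert S v).out)⁻¹ * (h : Vert S v).out)
      = eCusp (v.valuation F) (g⁻¹ * h) := by
  obtain ⟨k, hk⟩ := QuotientGroup.mk_out_eq_mul (lev S v) g
  obtain ⟨k', hk'⟩ := QuotientGroup.mk_out_eq_mul (lev S v) h
  have h1 := (lev_of_mem hvS).le k.2
  have h2 := (lev_of_mem hvS).le k'.2
  rw [hk, hk', show (g * (k : GL (Fin 2) F))⁻¹ * (h * k') = (k : GL (Fin 2) F)⁻¹ *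
    (g⁻¹ * h) * k' by group, eCusp_mul_U1 hv ((U1 _).inv_mem h1) h2]

/-- A representative of the class of a reduction. -/
noncomputable def cls (g : GL (Fin 2) F) (M : GL (Fin 2) (ZMod 3)) : Vert S v :=
  ((g * incGL v (Function.surjInv (red3_surjective hv) M) : GL (Fin 2) F) : Vert S v)

/-- A scalar times an integral matrix moves the coset of `g` to the class of its reduction. -/
lemma cls_eq (hvS : v ∈ S) (g : GL (Fin 2) F) (c : Fˣ) (a : GL (Fin 2) (v.valuation F).integer) :
    ((g * (scal c * incGL v a) : GL (Fin 2) F) : Vert S v) = cls hv g (red3 hv a) := by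
  rw [cls, QuotientGroup.eq, lev_of_mem hvS]
  set a' := Function.surjInv (red3_surjective hv) (red3 hv a)
  have h1 : red3 hv (a⁻¹ * a') = 1 := by
    rw [map_mul, map_inv, Function.surjInv_eq (red3_surjective hv), inv_mul_cancel]
  have h2 := (U1 (v.valuation F)).mul_mem (scal_mem_withScalars _ c⁻¹)
    (le_withScalars _ ((red3_eq_one_iff hv _).1 h1))
  convert h2 using 1
  rw [map_mul, map_inv, show (scal c⁻¹ : GL (Fin 2) F) = (scal c)⁻¹ from map_inv _ c]
  have := scal_comm c (incGL v a)
  rw [this]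
  group

/-- The representative of the class of a reduction lies in the `U0`-coset of `g`. -/
lemma cls_mem (g : GL (Fin 2) F) (M : GL (Fin 2) (ZMod 3)) :
    g⁻¹ * (cls (S := S) hv g M).out ∈ U0 (v.valuation F) := by
  rw [cls]
  obtain ⟨k, hk⟩ := QuotientGroup.mk_out_eq_mul (lev S v)
    (g * incGL v (Function.surjInv (red3_surjective hv) M))
  rw [hk, ← mul_assoc, inv_mul_cancel_left]
  exact (U0 _).mul_mem (incGL_mem_U0 _) (lev_le_U0 S v k.2)

/-- The idempotent between a coset and a class over it is `e3`. -/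
lemma eCusp_cls (hvS : v ∈ S) (g : GL (Fin 2) F) (M : GL (Fin 2) (ZMod 3)) :
    eCusp (v.valuation F) ((g : Vert S v).out⁻¹ * (cls (S := S) hv g M).out)
      = e3 (M : Matrix (Fin 2) (Fin 2) (ZMod 3)) := by
  rw [cls, eCusp_mk hv hvS, inv_mul_cancel_left]
  have h := eCusp_scal_incGL hv 1 (Function.surjInv (red3_surjective hv) M)
  rw [Function.surjInv_eq (red3_surjective hv)] at h
  simpa [scal] using h

/-- Between two classes over `g` the idempotent is the finite idempotent at the quotient of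
reductions. -/
lemma eCusp_cls_cls (hvS : v ∈ S) (g : GL (Fin 2) F) (M N : GL (Fin 2) (ZMod 3)) :
    eCusp (v.valuation F) ((cls (S := S) hv g M).out⁻¹ * (cls (S := S) hv g N).out)
      = e3 ((M⁻¹ * N : GL (Fin 2) (ZMod 3)) : Matrix (Fin 2) (Fin 2) (ZMod 3)) := by
  rw [cls, cls, eCusp_mk hv hvS]
  set a := Function.surjInv (red3_surjective hv) M
  set b := Function.surjInv (red3_surjective hv) N
  rw [show (g * incGL v a)⁻¹ * (g * incGL v b) = scal 1 * incGL v (a⁻¹ * b) by
    simp [scal, map_mul, map_inv, mul_assoc], eCusp_scal_incGL hv, map_mul, map_inv,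
    Function.surjInv_eq (red3_surjective hv), Function.surjInv_eq (red3_surjective hv)]

/-- Every class over the vertex of `g` comes from a reduction. -/
lemma exists_cls_eq (hvS : v ∈ S) (g : GL (Fin 2) F) {y : Vert S v}
    (hy : g⁻¹ * y.out ∈ U0 (v.valuation F)) : ∃ M, cls hv g M = y := by
  obtain ⟨c, a, ha⟩ := exists_eq_scal_incGL hy
  refine ⟨red3 hv a, ?_⟩
  rw [← cls_eq hv hvS g c a, ← ha, mul_inv_cancel_left, QuotientGroup.out_eq']

/-- Two reductions give the same class exactly when they agree up to sign. -/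
lemma cls_inj (hvS : v ∈ S) (g : GL (Fin 2) F) {M N : GL (Fin 2) (ZMod 3)} :
    cls (S := S) hv g M = cls hv g N ↔
      (M : Matrix (Fin 2) (Fin 2) (ZMod 3)) = (N : Matrix (Fin 2) (Fin 2) (ZMod 3)) ∨
        (N : Matrix (Fin 2) (Fin 2) (ZMod 3)) = -(M : Matrix (Fin 2) (Fin 2) (ZMod 3)) := by
  rw [cls, cls, QuotientGroup.eq, lev_of_mem hvS]
  set a := Function.surjInv (red3_surjective hv) M with ha
  set b := Function.surjInv (red3_surjective hv) N with hb
  rw [show (g * incGL v a)⁻¹ * (g * incGL v b) = incGL v (a⁻¹ * b) by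
    rw [map_mul, map_inv]; group]
  constructor
  · -- a scalar in the congruence group reduces to a sign
    rintro ⟨c, hc⟩
    obtain ⟨x, hx⟩ := hc.1
    have h1 : red3 hv x = 1 :=
      (red3_eq_one_iff hv x).2 (by rw [show incGL v x = _ from hx]; exact hc)
    have h2 := red3_scal hv (show incGL v x = scal c * incGL v (a⁻¹ * b) from hx)
    rw [h1, map_mul, map_inv, ha, hb, Function.surjInv_eq (red3_surjective hv),
      Function.surjInv_eq (red3_surjective hv)] at h2
    rcases h2 with h2 | h2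
    · refine Or.inl
        (congrArg (fun g : GL (Fin 2) (ZMod 3) => (g : Matrix (Fin 2) (Fin 2) (ZMod 3))) ?_)
      exact inv_mul_eq_one.1 (Units.ext h2.symm)
    · refine Or.inr ?_
      have h3 := congrArg (fun X => (M : Matrix (Fin 2) (Fin 2) (ZMod 3)) * X) h2
      simp only [Units.val_one, mul_one, mul_neg, ← Units.val_mul, mul_inv_cancel_left] at h3
      rw [h3, neg_neg]
  · intro h
    rcases h with h | h
    · refine le_withScalars _ ((red3_eq_one_iff hv _).1 ?_)
      rw [map_mul, map_inv, Function.surjInv_eq (red3_surjective hv),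
        Function.surjInv_eq (red3_surjective hv), Units.ext h, inv_mul_cancel]
    · -- the sign is a scalar
      set m : GL (Fin 2) (v.valuation F).integer :=
        Units.map (Matrix.scalar (Fin 2) (α := (v.valuation F).integer)).toMonoidHom (-1)
      have hm : red3 hv m = -1 := by
        refine Units.ext (Matrix.ext fun i j => ?_)
        change res3 hv ((Matrix.scalar (Fin 2) ((-1 : (v.valuation F).integer))) i j) = _
        fin_cases i <;> fin_cases j <;> simp
      have hinc : incGL v m = scal (-1) := by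
        refine Units.ext (Matrix.ext fun i j => ?_)
        change (((Matrix.scalar (Fin 2) ((-1 : (v.valuation F).integer))) i j :
          (v.valuation F).integer) : F) = _
        fin_cases i <;> fin_cases j <;> simp
      have h1 : red3 hv (m * (a⁻¹ * b)) = 1 := by
        rw [map_mul, map_mul, map_inv, hm, Function.surjInv_eq (red3_surjective hv),
          Function.surjInv_eq (red3_surjective hv),
          show N = -M from Units.ext h]
        simp
      have h2 := (red3_eq_one_iff hv _).1 h1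
      rw [map_mul, hinc] at h2
      exact ⟨-1, h2⟩

set_option maxRecDepth 2048 in -- headroom for elaboration over the group `GL (Fin 2) (ZMod 3)`
/-- Sums over a coset of `U0` as sums over `GL₂(𝔽₃)`. -/
lemma sum_coset (hvS : v ∈ S) (g : GL (Fin 2) F) (f : Vert S v → ℂ) (T : Finset (Vert S v))
    (hT : ∀ y, y ∈ T → f y ≠ 0 → g⁻¹ * y.out ∈ U0 (v.valuation F))
    (hT' : ∀ y : Vert S v, g⁻¹ * y.out ∈ U0 (v.valuation F) → f y ≠ 0 → y ∈ T) :
    ∑ y ∈ T, f y = 2⁻¹ * ∑ M : GL (Fin 2) (ZMod 3), f (cls hv g M) := by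
  -- `cls` is two to one: `M` and `-M`
  have hfib : ∀ y ∈ Finset.univ.image (cls (S := S) hv g),
      ((Finset.univ : Finset (GL (Fin 2) (ZMod 3))).filter fun M => cls hv g M = y).card = 2 := by
    intro y hy
    obtain ⟨M, -, rfl⟩ := Finset.mem_image.1 hy
    have hne : M ≠ -M := fun h => by
      have h1 := congrArg (fun X : GL (Fin 2) (ZMod 3) => X * M⁻¹) h
      simp only [mul_inv_cancel, neg_mul] at h1
      have h2 := congrFun (congrFun (congrArg (fun X : GL (Fin 2) (ZMod 3) =>
        (X : Matrix (Fin 2) (Fin 2) (ZMod 3))) h1) 0) 0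
      simp at h2
      exact absurd h2 (by decide)
    rw [show ((Finset.univ : Finset (GL (Fin 2) (ZMod 3))).filter fun N => cls hv g N = cls hv g M)
      = {M, -M} from ?_]
    · exact Finset.card_pair hne
    · ext N
      simp only [Finset.mem_filter, Finset.mem_univ, true_and, Finset.mem_insert,
        Finset.mem_singleton]
      rw [eq_comm, cls_inj hv hvS g]
      exact or_congr ⟨fun h => (Units.ext h).symm, fun h => by rw [h]⟩
        ⟨fun h => Units.ext h, fun h => by rw [h, Units.val_neg]⟩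
  rw [Finset.sum_comp (s := (Finset.univ : Finset (GL (Fin 2) (ZMod 3)))) f (cls (S := S) hv g),
    Finset.sum_congr rfl fun y (hy : y ∈ Finset.univ.image (cls (S := S) hv g)) => by
      rw [hfib y hy],
    ← Finset.smul_sum, nsmul_eq_mul, Nat.cast_ofNat, inv_mul_cancel_left₀ two_ne_zero]
  -- its image meets the support of `f` exactly in `T`
  refine (finsum_mem_coe_finset f T).symm.trans (finsum_mem_eq_sum_of_inter_support_eq _ ?_)
  ext y
  simp only [Set.mem_inter_iff, Finset.mem_coe, Function.mem_support, Finset.mem_image,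
    Finset.mem_univ, true_and]
  constructor
  · rintro ⟨h, hne⟩
    exact ⟨exists_cls_eq hv hvS g (hT y h hne), hne⟩
  · rintro ⟨⟨M, rfl⟩, hne⟩
    exact ⟨hT' _ (cls_mem hv g M) hne, hne⟩

/-- The cuspidal idempotent. -/
noncomputable def eKer (hvS : v ∈ S) : LKer S v where
  toFun a b := eCusp (v.valuation F) (a.out⁻¹ * b.out)
  invariant g a b := by
    obtain ⟨x, rfl⟩ := QuotientGroup.mk_surjective a
    obtain ⟨y, rfl⟩ := QuotientGroup.mk_surjective b
    rw [MulAction.Quotient.smul_coe, MulAction.Quotient.smul_coe, eCusp_mk hv hvS, eCusp_mk hv hvS]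
    simp [mul_assoc]
  finite_row a := by
    refine (Set.finite_range (cls (S := S) hv a.out)).subset fun b hb => ?_
    obtain ⟨M, hM⟩ := exists_cls_eq hv hvS a.out (y := b)
      (Classical.not_not.1 fun h => hb (eCusp_eq_zero h))
    exact ⟨M, hM⟩

/-- The values of the kernel. -/
lemma eKer_apply (hvS : v ∈ S) (a b : Vert S v) :
    eKer hv hvS a b = eCusp (v.valuation F) (a.out⁻¹ * b.out) := rfl

/-- The kernel lives inside one coset of the maximal subgroup. -/
lemma mem_U0_of_eKer_ne_zero {hvS : v ∈ S} {a b : Vert S v} (h : eKer hv hvS a b ≠ 0) :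
    a.out⁻¹ * b.out ∈ U0 (v.valuation F) :=
  Classical.not_not.1 fun h' => h (eCusp_eq_zero h')

/-- The kernel of the cuspidal idempotent is hermitian. -/
lemma eKer_isHerm (hvS : v ∈ S) : (eKer hv hvS).IsHerm := by
  intro a b
  rw [eKer_apply, eKer_apply]
  have hreal : ∀ M : Matrix (Fin 2) (Fin 2) (ZMod 3), conj (e3 M) = e3 M := fun M => by
    simp [e3, map_div₀, Complex.conj_ofNat]
  by_cases h : a.out⁻¹ * b.out ∈ U0 (v.valuation F)
  · obtain ⟨c, x, hx⟩ := exists_eq_scal_incGL h
    rw [show b.out⁻¹ * a.out = (a.out⁻¹ * b.out)⁻¹ by group, hx, scal_incGL_inv,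
      eCusp_scal_incGL hv, eCusp_scal_incGL hv, map_inv, e3_inv, hreal]
  · rw [eCusp_eq_zero h, eCusp_eq_zero fun h' => h (by simpa using (U0 _).inv_mem h'), map_zero]

/-- Idempotence. -/
theorem eKer_comp (hvS : v ∈ S) : (eKer hv hvS).comp (eKer hv hvS) = eKer hv hvS := by
  refine LKer.ext' fun a c => ?_
  rw [LKer.comp_eq_sum]
  by_cases hc : a.out⁻¹ * c.out ∈ U0 (v.valuation F)
  · obtain ⟨N, hN⟩ := exists_cls_eq hv hvS a.out hc
    rw [sum_coset hv hvS a.out _ _ (fun y hy _ => mem_U0_of_eKer_ne_zero hv (LKer.mem_row.1 hy))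
      (fun y _ hne => LKer.mem_row.2 (left_ne_zero_of_mul hne))]
    subst hN
    simp only [eKer_apply]
    rw [show a.out⁻¹ = (((a.out : GL (Fin 2) F) : Vert S v).out)⁻¹ by rw [QuotientGroup.out_eq']]
    simp only [eCusp_cls hv hvS, eCusp_cls_cls hv hvS, sum_e3_mul]
    ring
  · rw [eKer_apply, eCusp_eq_zero hc]
    refine Finset.sum_eq_zero fun y hy => ?_
    by_contra hne
    refine hc ?_
    have := (U0 _).mul_mem (mem_U0_of_eKer_ne_zero hv (LKer.mem_row.1 hy))
      (mem_U0_of_eKer_ne_zero hv (right_ne_zero_of_mul hne))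
    simpa [mul_assoc] using this

omit hv in
/-- An upper unipotent matrix in `U0` is integral. -/
lemma val_le_one_of_upMat_mem_U0 {x : F} (h : upMat (1 : Fˣ) x ∈ U0 (v.valuation F)) :
    v.valuation F x ≤ 1 := by
  obtain ⟨c, w, hw⟩ := exists_eq_scal_incGL h
  have q := congrArg (fun g : GL (Fin 2) F => (g : Matrix (Fin 2) (Fin 2) F)) hw
  simp only [Units.val_mul, scal_coe, coe_upMat, Matrix.scalar_apply,
    ← Matrix.smul_eq_diagonal_mul] at q
  have h00 := congrFun (congrFun q 0) 0
  have h01 := congrFun (congrFun q 0) 1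
  have h10 := congrFun (congrFun q 1) 0
  simp at h00 h01 h10
  set W := (incGL v w : Matrix (Fin 2) (Fin 2) F)
  have hWdet : v.valuation F W.det = 1 := by
    rw [show W.det = (((w : Matrix (Fin 2) (Fin 2) (v.valuation F).integer).det :
        (v.valuation F).integer) : F) from (RingHom.map_det _ _).symm]
    exact (Valuation.Integers.isUnit_iff_valuation_eq_one (Valuation.integer.integers _)).1
      ((Matrix.isUnit_iff_isUnit_det _).1 w.isUnit)
  have le : ∀ i j, v.valuation F (W i j) ≤ 1 := fun i j =>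
    ((w : Matrix (Fin 2) (Fin 2) (v.valuation F).integer) i j).2
  have hW10 : W 1 0 = 0 := h10
  rw [Matrix.det_fin_two, hW10, mul_zero, sub_zero, map_mul] at hWdet
  have hW00 : v.valuation F (W 0 0) = 1 := by
    refine le_antisymm (le 0 0) ?_
    rw [← hWdet]
    exact mul_le_of_le_one_right' (le 1 1)
  have hc : v.valuation F (c : F) = 1 := by
    have := congrArg (v.valuation F) h00
    rw [map_one, map_mul, hW00, mul_one] at this
    exact this.symm
  rw [h01, map_mul, hc, one_mul]
  exact le 0 1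

/-- An integral upper unipotent matrix. -/
noncomputable def unipInt (z : (v.valuation F).integer) : GL (Fin 2) (v.valuation F).integer :=
  ⟨!![1, z; 0, 1], !![1, -z; 0, 1], by simp [Matrix.one_fin_two], by simp [Matrix.one_fin_two]⟩

omit hv in
/-- The image of an integral unipotent matrix. -/
lemma incGL_unipInt (z : (v.valuation F).integer) : incGL v (unipInt z) = upMat 1 (z : F) := by
  refine Units.ext (Matrix.ext fun i j => ?_)
  fin_cases i <;> fin_cases j <;> simp [incGL, unipInt]

/-- The reduction of an integral unipotent matrix. -/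
lemma red3_unipInt (z : (v.valuation F).integer) :
    ((red3 hv (unipInt z) : GL (Fin 2) (ZMod 3)) : Matrix (Fin 2) (Fin 2) (ZMod 3))
      = !![1, res3 hv z; 0, 1] := by
  ext i j
  change res3 hv _ = _
  fin_cases i <;> fin_cases j <;> simp [unipInt]

/-- The kernel along the integral unipotent orbit in terms of the reductions. -/
lemma eKer_unipInt (hvS : v ∈ S) {a : Vert S v} {k : GL (Fin 2) F} {e d : Fˣ}
    {aa ka : GL (Fin 2) (v.valuation F).integer} (haa : a.out = scal e * incGL v aa)
    (hka : k = scal d * incGL v ka) (z : (v.valuation F).integer) :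
    eKer hv hvS a (upMat 1 (z : F) • ((k : GL (Fin 2) F) : Vert S v))
      = e3 (((red3 hv aa)⁻¹ * red3 hv (unipInt z) * red3 hv ka : GL (Fin 2) (ZMod 3)) :
          Matrix (Fin 2) (Fin 2) (ZMod 3)) := by
  rw [eKer_apply, MulAction.Quotient.smul_coe, smul_eq_mul]
  conv_lhs => rw [← QuotientGroup.out_eq' a]
  rw [eCusp_mk hv hvS, haa, ← incGL_unipInt, hka]
  have hs : (scal e * incGL v aa)⁻¹ * (incGL v (unipInt z) * (scal d * incGL v ka))
      = scal (e⁻¹ * d) * incGL v (aa⁻¹ * unipInt z * ka) := by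
    rw [scal_mul, map_mul, map_mul, map_inv, mul_inv_rev,
      show (scal e⁻¹ : GL (Fin 2) F) = (scal e)⁻¹ from map_inv _ e,
      ← mul_assoc (incGL v (unipInt z)), ← scal_comm d (incGL v (unipInt z)),
      show (scal e : GL (Fin 2) F)⁻¹ = scal e⁻¹ from (map_inv _ e).symm]
    simp only [← mul_assoc]
    rw [← scal_comm e⁻¹ (incGL v aa)⁻¹, mul_assoc (scal e⁻¹) (incGL v aa)⁻¹ (scal d),
      ← scal_comm d (incGL v aa)⁻¹]
    simp only [← mul_assoc]
  rw [hs, eCusp_scal_incGL hv, map_mul, map_mul, map_inv]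

/-- The integral unipotent orbit only depends on residues, and separates them. -/
lemma unipInt_orbit_eq_iff (hvS : v ∈ S) {k : GL (Fin 2) F} (hk : k ∈ U0 (v.valuation F))
    (z z' : (v.valuation F).integer) :
    upMat 1 (z : F) • ((k : GL (Fin 2) F) : Vert S v)
        = upMat 1 (z' : F) • ((k : GL (Fin 2) F) : Vert S v)
      ↔ res3 hv z = res3 hv z' := by
  obtain ⟨d, ka, hka⟩ := exists_eq_scal_incGL hk
  rw [MulAction.Quotient.smul_coe, MulAction.Quotient.smul_coe, QuotientGroup.eq, lev_of_mem hvS,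
    smul_eq_mul, smul_eq_mul, ← incGL_unipInt, ← incGL_unipInt, hka]
  -- The vertices agree when the conjugate quotient of the translations is a level element.
  have hconj : (incGL v (unipInt z) * (scal d * incGL v ka))⁻¹ *
      (incGL v (unipInt z') * (scal d * incGL v ka))
      = incGL v (ka⁻¹ * (unipInt z)⁻¹ * unipInt z' * ka) := by
    simp only [map_mul, map_inv]
    rw [← mul_assoc (incGL v (unipInt z)), ← scal_comm d (incGL v (unipInt z)),
      ← mul_assoc (incGL v (unipInt z')), ← scal_comm d (incGL v (unipInt z'))]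
    group
  rw [hconj]
  constructor
  · rintro ⟨t, ht⟩
    obtain ⟨x, hx⟩ := ht.1
    have h1 : red3 hv x = 1 :=
      (red3_eq_one_iff hv x).2 (by rw [show incGL v x = _ from hx]; exact ht)
    have h2 := red3_scal hv
      (show incGL v x = scal t * incGL v (ka⁻¹ * (unipInt z)⁻¹ * unipInt z' * ka) from hx)
    rw [h1, map_mul, map_mul, map_mul, map_inv, map_inv] at h2
    set g := red3 hv ka
    set X := (red3 hv (unipInt z))⁻¹ * red3 hv (unipInt z')
    have hX : ∀ Y, g⁻¹ * (red3 hv (unipInt z))⁻¹ * red3 hv (unipInt z') * g = Y →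
        g * Y * g⁻¹ = X := fun Y h => by rw [← h]; simp only [X]; group
    -- Modulo three it is `± 1`: the sign `+` gives equal residues, `-` is impossible.
    rcases h2 with h2 | h2
    · have h3 := hX 1 (Units.ext h2.symm)
      rw [mul_one, mul_inv_cancel] at h3
      have h4 : red3 hv (unipInt z') = red3 hv (unipInt z) := by
        rw [← mul_one (red3 hv (unipInt z)), h3]; simp [X]
      simpa [red3_unipInt] using (congrArg (fun g : GL (Fin 2) (ZMod 3) =>
        (g : Matrix (Fin 2) (Fin 2) (ZMod 3)) 0 1) h4).symm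
    · have h3 := hX (-1) (Units.ext (by rw [Units.val_neg, h2, neg_neg]))
      have h4 : red3 hv (unipInt z') = -red3 hv (unipInt z) := by
        rw [show -red3 hv (unipInt z) = red3 hv (unipInt z) * (g * -1 * g⁻¹) by simp, h3]
        simp [X]
      have h5 := congrArg (fun g : GL (Fin 2) (ZMod 3) =>
        (g : Matrix (Fin 2) (Fin 2) (ZMod 3)) 0 0) h4
      simp [red3_unipInt] at h5
      exact absurd h5 (by decide)
  · intro h
    have hred : red3 hv (unipInt z) = red3 hv (unipInt z') := Units.ext (by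
      rw [red3_unipInt, red3_unipInt, h])
    exact le_withScalars _ ((red3_eq_one_iff hv _).1 (by simp [map_mul, map_inv, hred]))

omit [NumberField F] hv in
/-- The cuspidal function sums to zero along a translate of the unipotent subgroup. -/
lemma sum_e3_unip (A B : GL (Fin 2) (ZMod 3)) :
    ∑ r : ZMod 3, e3 ((A : Matrix (Fin 2) (Fin 2) (ZMod 3)) * !![1, r; 0, 1] *
      (B : Matrix (Fin 2) (Fin 2) (ZMod 3))) = 0 := by
  have key : ∀ r : ZMod 3, e3 ((A : Matrix (Fin 2) (Fin 2) (ZMod 3)) * !![1, r; 0, 1] *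
      (B : Matrix (Fin 2) (Fin 2) (ZMod 3)))
        = e3 (((B * A : GL (Fin 2) (ZMod 3)) : Matrix (Fin 2) (Fin 2) (ZMod 3)) * !![1, r; 0, 1]) :=
    fun r => by rw [e3_mul_comm, Units.val_mul, Matrix.mul_assoc]
  rw [Finset.sum_congr rfl fun r _ => key r]
  set C := B * A
  have hC := (Matrix.GeneralLinearGroup.det C).ne_zero
  rw [Matrix.GeneralLinearGroup.val_det_apply, Matrix.det_fin_two] at hC
  simp only [e3, Matrix.mul_apply, Fin.sum_univ_two, Matrix.of_apply, Matrix.cons_val',
    Matrix.cons_val_zero, Matrix.cons_val_one, Matrix.cons_val_fin_one, mul_one, mul_zero, add_zero]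
  rw [← Finset.sum_div, ← Int.cast_sum, e4_unip _ _ _ _ hC]
  simp

/-- The standard unipotent orbit is killed. -/
lemma sum_unip_orbit (hvS : v ∈ S) (a : Vert S v) (k : GL (Fin 2) F) (hk : k ∈ U0 (v.valuation F)) :
    ∑ᶠ c ∈ Set.range (fun x : F => upMat 1 x • ((k : GL (Fin 2) F) : Vert S v)),
      eKer hv hvS a c = 0 := by
  by_cases hex : ∃ x : F, eKer hv hvS a (upMat 1 x • ((k : GL (Fin 2) F) : Vert S v)) ≠ 0
  swap
  · exact finsum_mem_eq_zero_of_forall_eq_zero fun c ⟨x, hx⟩ =>
      hx ▸ Classical.not_not.1 fun h => hex ⟨x, h⟩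
  obtain ⟨x₀, hx₀⟩ := hex
  -- translate to the standard coset
  set a' : Vert S v := (upMat (1 : Fˣ) x₀)⁻¹ • a with ha'
  have hset : Set.range (fun x : F => upMat 1 x • ((k : GL (Fin 2) F) : Vert S v))
      = (fun c => upMat (1 : Fˣ) x₀ • c) ''
        Set.range (fun x : F => upMat 1 x • ((k : GL (Fin 2) F) : Vert S v)) := by
    rw [← Set.range_comp]
    refine (Equiv.surjective (Equiv.addLeft x₀)).range_comp _ ▸ ?_
    congr 1
    funext x
    simp only [Function.comp_apply, Equiv.coe_addLeft, upMat_add, mul_smul]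
  rw [hset, finsum_mem_image (MulAction.injective _).injOn]
  have hinv : ∀ c, eKer hv hvS a (upMat (1 : Fˣ) x₀ • c) = eKer hv hvS a' c := fun c => by
    rw [ha', ← (eKer hv hvS).invariant (upMat (1 : Fˣ) x₀) _ c, smul_inv_smul]
  simp only [hinv]
  rw [hinv] at hx₀
  obtain ⟨u, hu⟩ := QuotientGroup.mk_out_eq_mul (lev S v) k
  have ha0 : a'.out ∈ U0 (v.valuation F) := by
    have h1 := mem_U0_of_eKer_ne_zero hv hx₀
    rw [hu] at h1
    have h2 := (U0 _).mul_mem ((U0 _).mul_mem hk (lev_le_U0 S v u.2)) ((U0 _).inv_mem h1)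
    simpa [mul_assoc] using h2
  obtain ⟨d, ka, hka⟩ := exists_eq_scal_incGL hk
  obtain ⟨e, aa, haa⟩ := exists_eq_scal_incGL ha0
  choose lift hlift using ZMod.ringHom_surjective (res3 hv)
  set c : ZMod 3 → Vert S v := fun r =>
    upMat 1 ((lift r : (v.valuation F).integer) : F) • ((k : GL (Fin 2) F) : Vert S v)
  have hcinj : Function.Injective c := fun r s h => by
    simpa [hlift] using (unipInt_orbit_eq_iff hv hvS hk (lift r) (lift s)).1 h
  rw [finsum_mem_eq_sum_of_inter_support_eq (t := Finset.univ.image c)]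
  · rw [Finset.sum_image hcinj.injOn]
    simp only [c, eKer_unipInt hv hvS haa hka, Units.val_mul, red3_unipInt, hlift]
    exact sum_e3_unip _ _
  · ext y
    simp only [Set.mem_inter_iff, Finset.coe_image, Function.mem_support, Finset.coe_univ,
      Set.image_univ]
    constructor
    · rintro ⟨⟨x, rfl⟩, hne⟩
      refine ⟨?_, hne⟩
      have h1 := mem_U0_of_eKer_ne_zero hv hne
      dsimp only at h1
      rw [MulAction.Quotient.smul_coe, smul_eq_mul] at h1
      obtain ⟨u', hu'⟩ := QuotientGroup.mk_out_eq_mul (lev S v) (upMat 1 x * k)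
      rw [hu'] at h1
      have h2 := (U0 _).mul_mem ((U0 _).mul_mem ((U0 _).mul_mem ha0 h1)
        ((U0 _).inv_mem (lev_le_U0 S v u'.2))) ((U0 _).inv_mem hk)
      have hxint := val_le_one_of_upMat_mem_U0 (x := x) (by simpa [mul_assoc] using h2)
      exact ⟨res3 hv ⟨x, hxint⟩,
        (unipInt_orbit_eq_iff hv hvS hk _ ⟨x, hxint⟩).2 (hlift _)⟩
    · rintro ⟨⟨r, rfl⟩, hne⟩
      exact ⟨⟨_, rfl⟩, hne⟩

/-- **The idempotent is cuspidal.** The kernel `eKer` has zero sum over every orbit of unipotent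
translations (`CuspLoc`). -/
theorem cuspLoc_eKer (hvS : v ∈ S) : CuspLoc (eKer (S := S) hv hvS) := by
  intro a b
  obtain ⟨g, rfl⟩ := QuotientGroup.mk_surjective b
  obtain ⟨α, β, hαβ⟩ := exists_upMat_mod_U0 (v.valuation F) g
  set P := upMat α β
  set k := P⁻¹ * g
  have hset : Set.range (fun x : F => upMat 1 x • ((g : GL (Fin 2) F) : Vert S v))
      = (fun c => P • c) '' Set.range (fun x : F => upMat 1 x •
          ((k : GL (Fin 2) F) : Vert S v)) := by
    rw [← Set.range_comp]
    have e : ∀ x : F, P • upMat 1 x • ((k : GL (Fin 2) F) : Vert S v)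
        = upMat 1 ((α : F) * x) • ((g : GL (Fin 2) F) : Vert S v) := fun x => by
      simp only [MulAction.Quotient.smul_coe, smul_eq_mul, k, ← mul_assoc]
      rw [show P * upMat 1 x = upMat 1 ((α : F) * x) * P by
        simp only [P, upMat_mul, mul_one, one_mul, Units.val_one]; rw [add_comm], mul_assoc _ P P⁻¹,
        mul_inv_cancel, mul_one]
    ext c
    simp only [Set.mem_range, Function.comp_apply, e]
    exact ⟨fun ⟨x, hx⟩ =>
      ⟨((α⁻¹ : Fˣ) : F) * x, by rw [← mul_assoc, Units.mul_inv, one_mul]; exact hx⟩,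
      fun ⟨x, hx⟩ => ⟨_, hx⟩⟩
  rw [hset, finsum_mem_image (MulAction.injective _).injOn]
  have hinv : ∀ c, eKer hv hvS a (P • c) = eKer hv hvS (P⁻¹ • a) c := fun c => by
    rw [← (eKer hv hvS).invariant P (P⁻¹ • a) c, smul_inv_smul]
  simp only [hinv]
  exact sum_unip_orbit hv hvS _ k hαβ

/-- The cuspidal type in terms of the kernel. -/
theorem isCuspType_iff_locAct (hvS : v ∈ S) (Φ : Pt F S → ℂ) :
    IsCuspType v Φ ↔ ∀ p, locAct v (eKer hv hvS) Φ p = Φ p := by
  have key : ∀ (p : Pt F S) (g : GL (Fin 2) F), p.1.1 v = (g : Vert S v) →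
      ∑ᶠ y ∈ {y : Vert S v | ∃ h : GL (Fin 2) F, y = (h : Vert S v) ∧ g⁻¹ * h ∈ U0 (v.valuation F)},
        eCusp (v.valuation F) (g⁻¹ * y.out) * Φ (p.1.set v y, p.2) =
            locAct v (eKer hv hvS) Φ p := by
    intro p g hg
    have e : ∀ y : Vert S v, eCusp (v.valuation F) (g⁻¹ * y.out) = eKer hv hvS (p.1.1 v) y :=
        fun y => by
      rw [eKer_apply, hg]
      conv_rhs => rw [← QuotientGroup.out_eq' y]
      rw [eCusp_mk hv hvS]
    simp only [e]
    refine finsum_mem_eq_sum_of_inter_support_eq _ ?_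
    ext y
    simp only [Set.mem_inter_iff, Function.mem_support, Finset.mem_coe, LKer.mem_row,
      Set.mem_ofPred_eq]
    constructor
    · rintro ⟨-, hne⟩
      exact ⟨left_ne_zero_of_mul hne, hne⟩
    · rintro ⟨h, hne⟩
      refine ⟨⟨y.out, (QuotientGroup.out_eq' y).symm, ?_⟩, hne⟩
      have := mem_U0_of_eKer_ne_zero hv h
      rw [hg] at this
      obtain ⟨u, hu⟩ := QuotientGroup.mk_out_eq_mul (lev S v) g
      rw [hu, mul_inv_rev, mul_assoc] at this
      simpa [mul_assoc] using (U0 _).mul_mem (lev_le_U0 S v u.2) this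
  exact ⟨fun h p => by
      rw [← key p (p.1.1 v).out (QuotientGroup.out_eq' _).symm,
        ← h p _ (QuotientGroup.out_eq' _).symm],
    fun h p g hg => by rw [key p g hg, h]⟩

end Fermat.LT
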