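import Fermat.Agent.LT.CuspBound

/-!
# The part of the kernel supported on the Borel subgroup

`upper_sum_bound` bounds the sum over upper triangular elements in a cusp, from `cusp_sum_bound`
of `CuspBound`.
-/

set_option autoImplicit false
open NumberField Filter Set
open scoped Matrix

namespace Fermat.LT

/-- The height of `x` is at most `2 cosh d(x, y)` times that of `y`. -/
lemma coord_le_coshd (x y : H3) : (H3.coord x).2 ≤ 2 * coshd x y * (H3.coord y).2 := by
  have hx := H3.coord_pos x
  have hy := H3.coord_pos y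
  rw [coshd_eq_cd, cd, ← sub_nonneg]
  have e : 2 * ((Complex.normSq ((H3.coord x).1 - (H3.coord y).1) + (H3.coord x).2 ^ 2
      + (H3.coord y).2 ^ 2) / (2 * ((H3.coord x).2 * (H3.coord y).2))) *
        (H3.coord y).2 - (H3.coord x).2
      = (Complex.normSq ((H3.coord x).1 - (H3.coord y).1) + (H3.coord y).2 ^ 2) /
          (H3.coord x).2 := by
    field_simp
    ring
  rw [e]
  exact div_nonneg (add_nonneg (Complex.normSq_nonneg _) (sq_nonneg _)) hx.le

/-- The base point has coordinates `(0, 1)`. -/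
lemma coord_base : H3.coord ((1 : GL (Fin 2) ℂ) : H3) = (0, 1) := by
  have h : triMat (0 : ℂ) one_pos = 1 := by
    ext i j; fin_cases i <;> fin_cases j <;> simp [coe_triMat]
  rw [← h, ← H3.mk_of_pos, H3.coord_mk_of_pos _ one_pos]

/-- A box in coordinates lies within an explicit distance of the base point of `H3`. -/
lemma coshd_base_le {R c T : ℝ} (hc : 0 < c) {x : H3} (hz : ‖(H3.coord x).1‖ ≤ R)
    (hct : c ≤ (H3.coord x).2) (htT : (H3.coord x).2 ≤ T) :
    coshd ((1 : GL (Fin 2) ℂ) : H3) x ≤ (R ^ 2 + 1 + T ^ 2) / (2 * c) := by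
  rw [coshd_eq_cd, coord_base, cd, zero_sub, Complex.normSq_neg, Complex.normSq_eq_norm_sq, one_mul,
    one_pow]
  have h1 := pow_le_pow_left₀ (norm_nonneg _) hz 2
  have h2 := pow_le_pow_left₀ (H3.coord_pos x).le htT 2
  exact div_le_div₀ (by positivity) (by linarith) (by linarith) (by linarith)

variable {F : Type*} [Field F] [NumberField F] {S : Set (Place F)}

omit [NumberField F] in
/-- An element with vanishing lower left entry is upper triangular up to a scalar. -/
lemma exists_upMat_eq {g : GL (Fin 2) F} (h : (g : Matrix (Fin 2) (Fin 2) F) 1 0 = 0) :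
    ∃ (a : Fˣ) (b : F), (upMat a b : PG F) = (g : PG F) := by
  set M : Matrix (Fin 2) (Fin 2) F := (g : Matrix (Fin 2) (Fin 2) F) with hM
  have hdet : M 0 0 * M 1 1 ≠ 0 := by
    have := g.det_ne_zero
    rwa [Matrix.det_fin_two, ← hM, h, mul_zero, sub_zero] at this
  refine ⟨Units.mk0 (M 0 0 / M 1 1)
    (div_ne_zero (left_ne_zero_of_mul hdet) (right_ne_zero_of_mul hdet)), M 0 1 / M 1 1, ?_⟩
  set c : Fˣ := Units.mk0 (M 1 1) (right_ne_zero_of_mul hdet)
  have hd := right_ne_zero_of_mul hdet
  rw [QuotientGroup.eq]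
  refine ⟨c, ?_⟩
  change scal c = _
  rw [eq_inv_mul_iff_mul_eq, ← scal_comm]
  refine Units.ext ?_
  rw [Units.val_mul, scal_coe, coe_upMat, Matrix.scalar_apply, ← Matrix.smul_eq_diagonal_mul]
  ext i j
  fin_cases i <;> fin_cases j <;> simp [c, ← hM, h, mul_div_cancel₀ _ hd]

omit [NumberField F] in
/-- Upper triangular matrices with lower entry `1` represent their projective classes uniquely. -/
lemma upMat_PG_injective :
    Function.Injective fun z : Fˣ × F => (upMat z.1 z.2 : PG F) := by
  rintro ⟨a, b⟩ ⟨a', b'⟩ h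
  simp only [QuotientGroup.eq] at h
  obtain ⟨c, hc⟩ := h
  change scal c = _ at hc
  rw [eq_inv_mul_iff_mul_eq, ← scal_comm] at hc
  have hM := congrArg (fun g : GL (Fin 2) F => (g : Matrix (Fin 2) (Fin 2) F)) hc
  simp only [Units.val_mul, scal_coe, coe_upMat, Matrix.scalar_apply,
    ← Matrix.smul_eq_diagonal_mul] at hM
  have h11 := congrFun (congrFun hM 1) 1
  have h00 := congrFun (congrFun hM 0) 0
  have h01 := congrFun (congrFun hM 0) 1
  simp at h00 h01 h11
  simp only [h11, Units.val_one, one_mul] at h00 h01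
  exact Prod.ext (Units.ext h00) h01

/-- The representative of the base coset has level `0`. -/
lemma lvl_base_out (v : Place F) :
    lvl (v.valuation F) (((1 : GL (Fin 2) F) : Vert S v)).out = 0 := by
  rw [lvl_eq_zero_iff]
  obtain ⟨k, hk⟩ := QuotientGroup.mk_out_eq_mul (lev S v) (1 : GL (Fin 2) F)
  rw [hk, one_mul]
  exact lev_le_U0 S v k.2

variable [Finite S] [IsTotallyComplex F]

/-- **The sum over the Borel subgroup is bounded in a cusp.** -/
theorem upper_sum_bound (K : PKer F S) (v3 : Place F) (hcusp : CuspLoc (K.loc v3))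
    (harch : ∀ w, IsSmoothRadial (K.arch w)) (ν ν' : FinPt F S) (ρ c : ℝ) (hρ : 1 ≤ ρ)
    (hc : 0 < c) :
    ∃ C, ∀ x y : InfinitePlace F → H3,
      (∀ w, c ≤ (H3.coord (x w)).2) →
      (∀ w u, (H3.coord (x w)).2 ≤ ρ * (H3.coord (x u)).2) →
      (∀ w, (H3.coord (x w)).2 ≤ ρ * (H3.coord (y w)).2 ∧ (H3.coord (y w)).2 ≤ ρ *
        (H3.coord (x w)).2) →
      ‖∑' z : Fˣ × F, K.val (ν, x) (upMat z.1 z.2 • (ν', y))‖ ≤ C := by
  set Ω := (K.finite_row ν).toFinset with hΩ
  set L : Place F → ℕ := fun v => lvl (v.valuation F) (ν'.1 v).out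
    + ∑ ν'' ∈ Ω, lvl (v.valuation F) (ν''.1 v).out with hL
  have hLfin : {v | L v ≠ 0}.Finite := by
    refine eventually_cofinite.1 ?_
    filter_upwards [ν'.2, (eventually_all_finset Ω).2 fun ν'' _ => ν''.2] with v h1 h2
    simp only [hL, h1, lvl_base_out, zero_add]
    exact Finset.sum_eq_zero fun ν'' h => by rw [h2 ν'' h, lvl_base_out]
  set A0 : Set Fˣ :=
    Units.val ⁻¹' {a : F | (∀ v : Place F, v.valuation F a ≤ WithZero.exp (L v : ℤ)) ∧
    ∀ φ : F →+* ℂ, ‖φ a‖ ≤ 2 * |K.range| * ρ}
  have hA0 : A0.Finite := (finite_bounded_elements L hLfin _).preimage Units.val_injective.injOn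
  set A := hA0.toFinset with hA
  set ρ' : ℝ := ρ * (1 + ∑ a ∈ A, ∑ w : InfinitePlace F, (w (a : F) + (w (a : F))⁻¹)) with hρ'
  have hρ'le : ∀ a ∈ A, ∀ w : InfinitePlace F, ρ * w (a : F) ≤ ρ' ∧ ρ * (w (a : F))⁻¹ ≤ ρ' := by
    intro a ha w
    have hn : ∀ (b : Fˣ) (u : InfinitePlace F), 0 ≤ u (b : F) + (u (b : F))⁻¹ := fun b u =>
      add_nonneg (apply_nonneg _ _) (inv_nonneg.2 (apply_nonneg _ _))
    have h : w (a : F) + (w (a : F))⁻¹ ≤ ∑ b ∈ A, ∑ u : InfinitePlace F,
        (u (b : F) + (u (b : F))⁻¹) :=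
      (Finset.single_le_sum (f := fun u : InfinitePlace F => u (a : F) + (u (a : F))⁻¹)
        (fun u _ => hn a u) (Finset.mem_univ w)).trans
        (Finset.single_le_sum (f := fun b : Fˣ => ∑ u : InfinitePlace F,
          (u (b : F) + (u (b : F))⁻¹)) (fun b _ => Finset.sum_nonneg fun u _ => hn b u) ha)
    have h1 : 0 ≤ (w (a : F))⁻¹ := inv_nonneg.2 (apply_nonneg _ _)
    have h2 : 0 ≤ w (a : F) := apply_nonneg _ _
    constructor <;> exact mul_le_mul_of_nonneg_left (by linarith) (by linarith)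
  have hρρ' : ρ ≤ ρ' := le_mul_of_one_le_right (by linarith) (le_add_of_nonneg_right
    (Finset.sum_nonneg fun a _ => Finset.sum_nonneg fun w _ =>
      add_nonneg (apply_nonneg _ _) (inv_nonneg.2 (apply_nonneg _ _))))
  -- finitely many diagonal parts occur, and each gives a bounded sum over translations
  choose C hC using fun a : Fˣ => cusp_sum_bound K v3 hcusp harch ν (upMat a 0 • ν') ρ' c
    (hρ.trans hρρ') hc
  refine ⟨∑ a ∈ A, C a, fun x y hxc hbal hxy => ?_⟩
  set q : Pt F S := (ν', y)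
  set G : Fˣ × F → ℂ := fun z => K.val (ν, x) (upMat z.1 z.2 • q) with hG
  have hmem : ∀ z : Fˣ × F, G z ≠ 0 → z.1 ∈ A := by
    rintro ⟨a, b⟩ h
    rw [hG] at h
    simp only [PKer.val, Pt.smul_fst, mul_ne_zero_iff] at h
    rw [hA, Set.Finite.mem_toFinset]
    refine ⟨fun v => ?_, fun φ => ?_⟩
    · refine ((upMat_smul_bound (y := ν'.1 v) (a := a) (b := b) rfl).1).trans
        (WithZero.exp_le_exp.2 ?_)
      have hm : upMat a b • ν' ∈ Ω := (Set.Finite.mem_toFinset _).2 h.1
      have hle :=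
        Finset.single_le_sum (f := fun ν'' : FinPt F S => lvl (v.valuation F) (ν''.1 v).out)
        (fun _ _ => Nat.zero_le _) hm
      have : lvl (v.valuation F) (ν'.1 v).out +
          lvl (v.valuation F) (upMat a b • ν'.1 v).out ≤ L v :=
        Nat.add_le_add_left hle _
      exact_mod_cast this
    · set w := InfinitePlace.mk φ
      have hcd : coshd (x w) (atInf w (upMat a b) • y w) ≤ K.range :=
        not_lt.1 fun hlt => h.2 (K.inf_eq_zero hlt)
      have ht := coord_le_coshd (atInf w (upMat a b) • y w) (x w)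
      rw [coord_upMat_smul, coshd_comm] at ht
      change w (a : F) * (H3.coord (y w)).2 ≤ _ at ht
      have hy := H3.coord_pos (y w)
      change w (a : F) ≤ _
      refine le_of_mul_le_mul_right (ht.trans ?_) hy
      refine (mul_le_mul (mul_le_mul_of_nonneg_left (hcd.trans (le_abs_self _)) two_pos.le)
        (hxy w).1 (H3.coord_pos _).le (by positivity)).trans (le_of_eq ?_)
      ring
  have hGf : (Function.support G).Finite := by
    refine ((K.finite_support (ν, x) q).preimage upMat_PG_injective.injOn).subset fun z hz => ?_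
    simpa [G] using hz
  have hGa : ∀ a, Summable fun b => G (a, b) := fun a => summable_of_hasFiniteSupport
    (hGf.preimage (Prod.mk_right_injective a).injOn)
  -- split by the diagonal part
  rw [(summable_of_hasFiniteSupport hGf).tsum_prod' hGa, tsum_eq_sum (s := A) fun a ha => ?_]
  · refine (norm_sum_le _ _).trans (Finset.sum_le_sum fun a ha => ?_)
    have e : (fun b => G (a, b)) = fun b => K.val (ν, x)
        (upMat 1 b • (upMat a 0 • ν', fun w => atInf w (upMat a 0) • y w)) := by
      funext b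
      simp only [G]
      rw [upMat_eq_unip_mul, mul_smul]
      rfl
    rw [e]
    refine hC a x _ hxc (fun w u => (hbal w u).trans ?_) fun w => ?_
    · exact mul_le_mul_of_nonneg_right hρρ' (H3.coord_pos _).le
    · rw [coord_upMat_smul]
      have hwa : 0 < w (a : F) := InfinitePlace.pos_iff.2 a.ne_zero
      obtain ⟨h1, h2⟩ := hρ'le a ha w
      constructor
      · calc (H3.coord (x w)).2 ≤ ρ * (H3.coord (y w)).2 := (hxy w).1
          _ = ρ * (w (a : F))⁻¹ * (w (a : F) * (H3.coord (y w)).2) := by field_simp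
          _ ≤ _ := mul_le_mul_of_nonneg_right h2 (mul_pos hwa (H3.coord_pos _)).le
      · calc w (a : F) * (H3.coord (y w)).2 ≤ w (a : F) * (ρ * (H3.coord (x w)).2) :=
              mul_le_mul_of_nonneg_left (hxy w).2 hwa.le
          _ = ρ * w (a : F) * (H3.coord (x w)).2 := by ring
          _ ≤ _ := mul_le_mul_of_nonneg_right h1 (H3.coord_pos _).le
  · change ∑' b, G (a, b) = 0
    rw [tsum_congr fun b => ?_, tsum_zero]
    by_contra hne
    exact ha (hmem _ hne)

end Fermat.LT
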