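import Mathlib

/-!
# Sums along a cycle of three components

Three invariant kernels with finite rows on a set with a group action, read along a cycle with
translations `δ`, `δ'`, `δ''`, compose to one kernel evaluated at the product of the translations.
`P`, `k3` and `k2` are the kernels at the first, third and second component of a triple, and `rP`,
`r3` the rows of the first two.
-/

set_option autoImplicit false
open scoped Classical

namespace Fermat.LT

variable {G V X : Type*} [Group G] [MulAction G V] (P k3 k2 : V → V → ℂ) (rP r3 : V → Finset V)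
  (hP : ∀ {a b}, b ∈ rP a ↔ P a b ≠ 0) (h3 : ∀ {a b}, b ∈ r3 a ↔ k3 a b ≠ 0)
  (inv3 : ∀ (g : G) a b, k3 (g • a) (g • b) = k3 a b)
  (inv2 : ∀ (g : G) a b, k2 (g • a) (g • b) = k2 a b)

include hP h3 inv3 inv2 in
/-- **The sum over the triples is the sum of the composite kernel.** -/
theorem tsum_cycle_triple {δ δ' δ'' g : G} (hN : ∀ a : V, (δ * δ' * δ'') • a = g • a)
    (T : X ≃ V × V × V) (val : X → ℂ)
    (hval : ∀ x, val x = P (T x).1 (δ • (T x).2.2) * k3 (T x).2.2 (δ' • (T x).2.1) *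
      k2 (T x).2.1 (δ'' • (T x).1))
    {deg : V → Prop} (A : Finset V) (hA1 : ∀ a ∈ A, deg a)
    (hA : ∀ x, deg (T x).1 → val x ≠ 0 → (T x).1 ∈ A) :
    {x | deg (T x).1 ∧ val x ≠ 0}.Finite ∧
    ∑' x : {x // deg (T x).1}, val x
      = ∑' a : {a // deg a},
          ∑ c ∈ rP a, P a c * ∑ b ∈ r3 c, k3 c b * k2 b (g • a.1) := by
  set f : V × V × V → ℂ := fun p => P p.1 (δ • p.2.2) * k3 p.2.2 (δ' • p.2.1) *
    k2 p.2.1 (δ'' • p.1) with hf
  -- the support in the three components
  set R := fun a : V => (rP a).biUnion fun c => ((r3 (δ⁻¹ • c)).image fun b =>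
    (δ'⁻¹ • b, δ⁻¹ • c)) with hR
  set U := A.biUnion fun a => (R a).image fun p => (a, p) with hU
  have hsupp : ∀ p : V × V × V, deg p.1 → f p ≠ 0 → p ∈ U := by
    rintro ⟨a, b, c⟩ hdeg hne
    have hmem : a ∈ A := by
      simpa using hA (T.symm (a, b, c)) (by simpa using hdeg) (by simpa [hval, hf] using hne)
    refine Finset.mem_biUnion.2 ⟨a, hmem, Finset.mem_image.2 ⟨(b, c), Finset.mem_biUnion.2 ⟨δ • c,
      hP.2 (left_ne_zero_of_mul (left_ne_zero_of_mul hne)),
      Finset.mem_image.2 ⟨δ' • b, ?_, by rw [inv_smul_smul, inv_smul_smul]⟩⟩, rfl⟩⟩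
    rw [inv_smul_smul]
    exact h3.2 (right_ne_zero_of_mul (left_ne_zero_of_mul hne))
  refine ⟨?_, ?_⟩
  · refine Set.Finite.subset (U.finite_toSet.preimage T.injective.injOn) fun x hx => ?_
    exact hsupp (T x) hx.1 (by simpa [hval, hf] using hx.2)
  -- the sum over one first component
  have hin : ∀ a, ∑ p ∈ R a, f (a, p) = ∑ c ∈ rP a, P a c * ∑ b ∈ r3 c, k3 c b * k2 b (g • a) := by
    intro a
    simp only [hR]
    rw [Finset.sum_biUnion ?_]
    · refine Finset.sum_congr rfl fun c _ => ?_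
      rw [Finset.sum_image fun x _ y _ h => MulAction.injective _ (Prod.mk.inj h).1,
        Finset.mul_sum]
      -- translate by `δ`
      refine Finset.sum_nbij' (δ • ·) (δ⁻¹ • ·) (fun b hb => ?_) (fun b hb => ?_)
        (fun b _ => inv_smul_smul δ b) (fun b _ => smul_inv_smul δ b) fun b _ => ?_
      · rw [h3] at hb ⊢; rwa [← inv3 δ, smul_inv_smul] at hb
      · rw [h3] at hb ⊢; rwa [inv3 δ⁻¹]
      · simp only [hf]
        rw [smul_inv_smul, smul_inv_smul, mul_assoc]
        congr 2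
        · rw [← inv3 δ, smul_inv_smul]
        · rw [← inv2 (δ * δ'), ← hN]; simp only [mul_smul, smul_inv_smul]
    · intro x _ y _ hne
      refine Finset.disjoint_left.2 fun p hp hp' => hne ?_
      obtain ⟨_, -, rfl⟩ := Finset.mem_image.1 hp
      obtain ⟨_, -, h⟩ := Finset.mem_image.1 hp'
      exact MulAction.injective δ⁻¹ (Prod.mk.inj h).2.symm
  simp only [← hin]
  rw [← (T.subtypeEquiv (p := fun x => deg (T x).1) (q := fun p => deg p.1)
    fun _ => Iff.rfl).symm.tsum_eq fun x => val x.1]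
  simp only [Equiv.subtypeEquiv_symm, Equiv.subtypeEquiv_apply, hval, Equiv.apply_symm_apply]
  change ∑' p : ↥{p : V × V × V | deg p.1}, f p.1 = ∑' a : ↥{a : V | deg a}, ∑ p ∈ R a.1, f (a.1, p)
  rw [tsum_subtype {p : V × V × V | deg p.1} f,
    tsum_subtype {a : V | deg a} fun a => ∑ p ∈ R a, f (a, p),
    tsum_eq_sum (s := U) fun p hp => ?_, tsum_eq_sum (s := A) fun a ha => ?_, hU,
    Finset.sum_biUnion ?_]
  · refine Finset.sum_congr rfl fun a ha => ?_
    rw [Finset.sum_image fun p _ p' _ h => (Prod.mk.inj h).2,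
      Set.indicator_of_mem (show a ∈ {a | deg a} from hA1 a ha)]
    exact Finset.sum_congr rfl fun p _ =>
      Set.indicator_of_mem (show (a, p) ∈ {p : V × V × V | deg p.1} from hA1 a ha) f
  · intro a _ a' _ hne
    refine Finset.disjoint_left.2 fun p hp hp' => hne ?_
    obtain ⟨_, -, rfl⟩ := Finset.mem_image.1 hp
    obtain ⟨_, -, h⟩ := Finset.mem_image.1 hp'
    exact (congrArg Prod.fst h).symm
  · by_contra h
    rw [← ne_eq, Set.indicator_apply_ne_zero] at h
    obtain ⟨p, -, hne⟩ := Finset.exists_ne_zero_of_sum_ne_zero h.2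
    obtain ⟨a', ha', hp'⟩ := Finset.mem_biUnion.1 (hsupp (a, p) h.1 hne)
    obtain ⟨_, -, h'⟩ := Finset.mem_image.1 hp'
    obtain rfl : a' = a := congrArg Prod.fst h'
    exact ha ha'
  · by_contra h
    rw [← ne_eq, Set.indicator_apply_ne_zero] at h
    exact hp (hsupp p h.1 h.2)

end Fermat.LT
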