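import Fermat.Agent.LT.PGroup

/-!
# A fundamental domain for `PGL₂(F)` on the point space

`exists_ptDomain` gives the domain, the nontrivial classes fixing only null sets
(`ptMeasure_fixed_null`).
-/

set_option autoImplicit false
open MeasureTheory Filter Set NumberField
open scoped Classical Pointwise

namespace Fermat.LT

section Generic

variable {G X : Type*} [Group G] [Countable G] [MulAction G X] [MeasurableSpace X] (μ : Measure X)

/-- A countable group moving each piece of a countable cover off itself up to finitely many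
elements, with null fixed sets, has a fundamental domain. -/
theorem exists_fundamentalDomain [MeasurableConstSMul G X] [SMulInvariantMeasure G X μ]
    (f : X → ℝ) (hf : Measurable f) (hfi : Function.Injective f)
    (B : ℕ → Set X) (hB : ∀ n, MeasurableSet (B n)) (hcov : ∀ x, ∃ n, x ∈ B n)
    (hfin : ∀ n, {g : G | ∃ x ∈ B n, g • x ∈ B n}.Finite)
    (hfix : ∀ g : G, g ≠ 1 → μ {x | g • x = x} = 0) :
    ∃ D : Set X, MeasurableSet D ∧ IsFundamentalDomain G D μ := by
  let first : ℕ → Set X := fun n => B n ∩ ⋂ k ∈ Finset.range n, ⋂ g : G, ((g • ·) ⁻¹' B k)ᶜ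
  let best : ℕ → Set X := fun n => ⋂ g : G, ((g • ·) ⁻¹' B n)ᶜ ∪ {x | f x ≤ f (g • x)}
  let D : Set X := ⋃ n, first n ∩ best n
  have hD : MeasurableSet D := by
    refine MeasurableSet.iUnion fun n => ((hB n).inter ?_).inter ?_
    · exact MeasurableSet.biInter (Finset.range n).countable_toSet fun k _ =>
        MeasurableSet.iInter fun g => ((measurable_const_smul g) (hB k)).compl
    · exact MeasurableSet.iInter fun g =>
        ((measurable_const_smul g) (hB n)).compl.union
          (measurableSet_le hf (hf.comp (measurable_const_smul g)))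
  refine ⟨D, hD, IsFundamentalDomain.mk'' hD.nullMeasurableSet (Eventually.of_forall fun x => ?_)
    (fun g hg => ?_) fun g => (measurePreserving_smul g μ).quasiMeasurePreserving⟩
  · -- every orbit: least `n` met, then the minimiser of `f` there
    have hex : ∃ n, ∃ g : G, g • x ∈ B n := by
      obtain ⟨n, hn⟩ := hcov x
      exact ⟨n, 1, by rwa [one_smul]⟩
    obtain ⟨g₀, hg₀⟩ := Nat.find_spec hex
    set n := Nat.find hex with hn
    have hfg : {g : G | g • x ∈ B n}.Finite := by
      refine ((hfin n).image (· * g₀)).subset fun g hg => ⟨g * g₀⁻¹, ⟨g₀ • x, hg₀, ?_⟩, ?_⟩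
      · rw [smul_smul, inv_mul_cancel_right]; exact hg
      · exact inv_mul_cancel_right g g₀
    obtain ⟨g, hg, hmin⟩ := hfg.exists_minimalFor (fun g => f (g • x)) _ ⟨g₀, hg₀⟩
    refine ⟨g, mem_iUnion.2 ⟨n, ⟨hg, ?_⟩, mem_iInter.2 fun a => ?_⟩⟩
    · simp only [mem_iInter, Finset.mem_range, mem_compl_iff, mem_preimage]
      intro k hk a ha
      exact Nat.find_min hex hk ⟨a * g, by rwa [mul_smul]⟩
    · by_cases ha : a • g • x ∈ B n
      · refine Or.inr (show f (g • x) ≤ f (a • g • x) from le_of_not_gt fun hlt => ?_)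
        have h1 : a * g ∈ {g : G | g • x ∈ B n} := by simpa [mul_smul] using ha
        have h2 := hmin h1 (by simp only [mul_smul]; exact hlt.le)
        simp only [mul_smul] at h2
        exact absurd hlt (not_lt_of_ge h2)
      · exact Or.inl ha
  · -- an overlap forces a fixed point
    refine measure_mono_null (fun y hy => ?_) (hfix g⁻¹ (by simpa using hg))
    obtain ⟨hy1, hy2⟩ := hy
    obtain ⟨x, hx, rfl⟩ := hy1
    obtain ⟨m, ⟨hm, hm'⟩, hmb⟩ := mem_iUnion.1 hx
    obtain ⟨n, ⟨hn, hn'⟩, hnb⟩ := mem_iUnion.1 hy2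
    simp only [mem_iInter, Finset.mem_range, mem_compl_iff, mem_preimage] at hm' hn'
    have hmn : m = n := by
      rcases lt_trichotomy m n with h | h | h
      · exact absurd (by rwa [inv_smul_smul]) (hn' m h g⁻¹)
      · exact h
      · exact absurd hn (hm' n h g)
    subst hmn
    simp only [best, mem_iInter, mem_union, mem_compl_iff, mem_preimage, mem_ofPred_eq] at hmb hnb
    have h1 := (hmb g).resolve_left (not_not.2 hn)
    have h2 := (hnb g⁻¹).resolve_left (by simpa [inv_smul_smul] using hm)
    rw [inv_smul_smul] at h2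
    change g⁻¹ • g • x = g • x
    rw [inv_smul_smul]
    exact hfi (le_antisymm h1 h2)

end Generic

section Fixed

/-- Height of the image of `(z, t)`. -/
lemma tc_mul_triMat (g : GL (Fin 2) ℂ) (z : ℂ) {t : ℝ} (ht : 0 < t) :
    tc (g * triMat z ht) = ‖(g : Matrix (Fin 2) (Fin 2) ℂ).det‖ * t /
      (Complex.normSq ((g : Matrix (Fin 2) (Fin 2) ℂ) 1 0) * t ^ 2 +
        Complex.normSq ((g : Matrix (Fin 2) (Fin 2) ℂ) 1 0 * z
          + (g : Matrix (Fin 2) (Fin 2) ℂ) 1 1)) := by
  rw [tc, herm_eq, Units.val_mul, Matrix.det_mul, norm_mul, coe_triMat]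
  simp [Matrix.det_fin_two, Matrix.mul_apply, abs_of_pos ht, Complex.normSq_apply]
  ring_nf

/-- `z` of the image of `(z, t)` for an upper triangular matrix. -/
lemma zc_mul_triMat_of_upper (g : GL (Fin 2) ℂ) (h : (g : Matrix (Fin 2) (Fin 2) ℂ) 1 0 = 0)
    (z : ℂ) {t : ℝ} (ht : 0 < t) :
    zc (g * triMat z ht) = ((g : Matrix (Fin 2) (Fin 2) ℂ) 0 0 * z
      + (g : Matrix (Fin 2) (Fin 2) ℂ) 0 1) / (g : Matrix (Fin 2) (Fin 2) ℂ) 1 1 := by
  have hd : (g : Matrix (Fin 2) (Fin 2) ℂ) 1 1 ≠ 0 := fun h1 =>
    (Matrix.GeneralLinearGroup.det g).ne_zero (by simp [Matrix.det_fin_two, h, h1])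
  rw [zc, herm_eq, herm_eq, Units.val_mul, coe_triMat]
  simp [Matrix.mul_apply, h]
  rw [Complex.mul_conj]
  have : (Complex.normSq ((g : Matrix (Fin 2) (Fin 2) ℂ) 1 1) : ℂ) ≠ 0 := by simpa using hd
  rw [← Complex.mul_conj] at this ⊢
  field_simp
  exact mul_div_cancel_right₀ _ (mul_ne_zero_iff.1 this).2

/-- `coord` is injective. -/
lemma coord_injective : Function.Injective H3.coord := fun a b h => by
  rw [← H3.mk_coord a, ← H3.mk_coord b, h]

/-- A non-scalar matrix fixes a null set of `H3`. -/
lemma hmeas_fixed_null (g : GL (Fin 2) ℂ) (hg : ∀ c : ℂˣ, g ≠ scal c) :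
    hmeas {x : H3 | g • x = x} = 0 := by
  set a := (g : Matrix (Fin 2) (Fin 2) ℂ) 0 0 with ha
  set b := (g : Matrix (Fin 2) (Fin 2) ℂ) 0 1 with hb
  set c := (g : Matrix (Fin 2) (Fin 2) ℂ) 1 0 with hc
  set d := (g : Matrix (Fin 2) (Fin 2) ℂ) 1 1 with hd
  set D := ‖(g : Matrix (Fin 2) (Fin 2) ℂ).det‖ with hD
  have hms : MeasurableSet {x : H3 | g • x = x} := by
    have : {x : H3 | g • x = x} = {x | H3.coord (g • x) = H3.coord x} := by
      ext x; exact ⟨fun h => congrArg H3.coord h, fun h => coord_injective h⟩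
    rw [this]
    exact (isClosed_eq (continuous_coord.comp (continuous_const_smul g))
      continuous_coord).measurableSet
  rw [hmeas, Measure.map_apply measurable_hmk hms]
  refine withDensity_absolutelyContinuous _ _ ?_
  rw [Measure.restrict_apply (measurable_hmk hms)]
  -- the fixed set in coordinates
  let N : Set (ℂ × ℝ) := if c = 0 then {p | (a - d) * p.1 + b = 0 ∧ a ≠ d}
    else {p | 0 < p.2 ∧ p.2 ^ 2 * Complex.normSq c = D - Complex.normSq (c * p.1 + d)}
  have hsub : hmk ⁻¹' {x : H3 | g • x = x} ∩ univ ×ˢ Ioi 0 ⊆ N := by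
    rintro ⟨z, t⟩ ⟨hfix, -, ht⟩
    have ht : 0 < t := ht
    have e : H3.coord (g • hmk (z, t)) = (z, t) := by
      rw [show g • hmk (z, t) = hmk (z, t) from hfix]
      exact H3.coord_mk_of_pos z ht
    rw [show hmk (z, t) = (triMat z ht : H3) from H3.mk_of_pos z ht, MulAction.Quotient.smul_coe,
      H3.coord_mk, smul_eq_mul, Prod.mk.injEq] at e
    obtain ⟨ez, et⟩ := e
    simp only [N]
    split_ifs with h0
    · rw [zc_mul_triMat_of_upper g h0 z ht, ← ha, ← hb, ← hd] at ez
      have hd0 : d ≠ 0 := fun h1 =>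
        (Matrix.GeneralLinearGroup.det g).ne_zero (by simp [Matrix.det_fin_two, ← hc, ← hd, h0, h1])
      rw [div_eq_iff hd0] at ez
      refine ⟨by linear_combination ez, fun had => ?_⟩
      have hb0 : b = 0 := by rw [had] at ez; linear_combination ez
      refine hg (Units.mk0 d hd0) (Units.ext ?_)
      rw [scal_coe]
      ext i j
      fin_cases i <;> fin_cases j <;> simp [← ha, ← hb, ← hc, ← hd, had, hb0, h0]
    · refine ⟨ht, ?_⟩
      rw [tc_mul_triMat, ← hc, ← hd, ← hD] at et
      have hpos : 0 < Complex.normSq c * t ^ 2 + Complex.normSq (c * z + d) :=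
        add_pos_of_pos_of_nonneg (mul_pos (Complex.normSq_pos.2 h0) (pow_pos ht 2))
          (Complex.normSq_nonneg _)
      rw [div_eq_iff hpos.ne'] at et
      have := mul_right_cancel₀ ht.ne' (et.trans (mul_comm _ _))
      linarith
  -- a vertical line or a graph over `ℂ` is null
  refine measure_mono_null hsub ?_
  simp only [N]
  split_ifs with h0
  · by_cases had : a = d
    · simp [had]
    · refine measure_mono_null (t := {-b / (a - d)} ×ˢ (univ : Set ℝ)) (fun p hp =>
        ⟨?_, trivial⟩) ?_
      · have : a - d ≠ 0 := sub_ne_zero.2 had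
        simp only [mem_singleton_iff]
        field_simp
        linear_combination hp.1
      · rw [Measure.volume_eq_prod, Measure.prod_prod, measure_singleton, zero_mul]
  · rw [Measure.volume_eq_prod, Measure.measure_prod_null]
    · refine Eventually.of_forall fun z => ?_
      refine Set.Subsingleton.measure_zero ?_ _
      rintro t ⟨ht, h1⟩ s ⟨hs, h2⟩
      have hn := Complex.normSq_pos.2 h0
      have : t ^ 2 = s ^ 2 := mul_right_cancel₀ hn.ne' (h1.trans h2.symm)
      exact (pow_left_inj₀ (le_of_lt ht) (le_of_lt hs) two_ne_zero).1 this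
    · exact (measurableSet_lt measurable_const measurable_snd).inter
        (measurableSet_eq_fun (by fun_prop) (by fun_prop))

end Fixed

variable {F : Type*} [Field F] [NumberField F]

/-- A group acting on a countable factor times the symmetric space with finitely many elements
moving a bounded piece into itself and null fixed sets has a fundamental domain. -/
theorem exists_fundamentalDomain_prod {G M : Type*} [Group G] [Countable G] [MeasurableSpace M]
    [DiscreteMeasurableSpace M] [Countable M] [Nonempty M]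
      [MulAction G (M × (InfinitePlace F → H3))] {μ : Measure (M × (InfinitePlace F → H3))}
      [MeasurableConstSMul G (M × (InfinitePlace F → H3))]
      [SMulInvariantMeasure G (M × (InfinitePlace F → H3)) μ]
    (hfin : ∀ (ν : M) (N : ℝ), {γ : G | ∃ p : M × (InfinitePlace F → H3), p.1 = ν ∧
      (∀ w, coshd ((1 : GL (Fin 2) ℂ) : H3) (p.2 w) ≤ N) ∧ (γ • p).1 = ν ∧
      ∀ w, coshd ((1 : GL (Fin 2) ℂ) : H3) ((γ • p).2 w) ≤ N}.Finite)
    (hfix : ∀ γ : G, γ ≠ 1 → μ {p | γ • p = p} = 0) :
    ∃ D : Set (M × (InfinitePlace F → H3)), MeasurableSet D ∧ IsFundamentalDomain G D μ := by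
  -- an injective measurable real function, to pick orbit representatives
  obtain ⟨fr, hfr, hfi⟩ : ∃ f : M × (InfinitePlace F → H3) → ℝ, Measurable f ∧
      Function.Injective f := by
    let e : M × (InfinitePlace F → H3) → M × (InfinitePlace F → ℂ × ℝ) :=
      fun p => (p.1, fun w => H3.coord (p.2 w))
    have he : Measurable e := measurable_fst.prodMk (measurable_pi_lambda _ fun w =>
      continuous_coord.measurable.comp ((measurable_pi_apply w).comp measurable_snd))
    have hei : Function.Injective e := fun p q h =>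
      Prod.ext (show p.1 = q.1 from (congrArg Prod.fst h : (e p).1 = (e q).1))
        (funext fun w => coord_injective
          (congrFun (congrArg Prod.snd h : (e p).2 = (e q).2) w))
    have hr := measurableEmbedding_embeddingReal (M × (InfinitePlace F → ℂ × ℝ))
    exact ⟨_, hr.measurable.comp he, hr.injective.comp hei⟩
  obtain ⟨en, hen⟩ := exists_surjective_nat (M × ℕ)
  -- cover by countably many boxes
  let B : ℕ → Set (M × (InfinitePlace F → H3)) := fun n =>
    {(en n).1} ×ˢ {x | ∀ w, coshd ((1 : GL (Fin 2) ℂ) : H3) (x w) ≤ (en n).2}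
  have hcd : Measurable fun x : H3 => coshd ((1 : GL (Fin 2) ℂ) : H3) x :=
    (continuous_coshd.comp (continuous_const.prodMk continuous_id)).measurable
  refine exists_fundamentalDomain μ fr hfr hfi B (fun n => ?_) (fun p => ?_) (fun n => ?_) hfix
  · refine MeasurableSet.prod MeasurableSet.of_discrete ?_
    rw [ofPred_forall]
    exact MeasurableSet.iInter fun w =>
      (measurableSet_le hcd measurable_const).preimage (measurable_pi_apply w)
  -- every point lies in one of them
  · obtain ⟨N, hN⟩ := exists_nat_ge (∑ w, coshd ((1 : GL (Fin 2) ℂ) : H3) (p.2 w))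
    obtain ⟨n, hn⟩ := hen (p.1, N)
    refine ⟨n, ?_⟩
    simp only [B, hn]
    refine ⟨rfl, fun w => le_trans ?_ hN⟩
    exact Finset.single_le_sum (f := fun u => coshd ((1 : GL (Fin 2) ℂ) : H3) (p.2 u))
      (fun u _ => zero_le_one.trans (one_le_coshd _ _)) (Finset.mem_univ w)
  · exact (hfin (en n).1 (en n).2).subset fun γ ⟨p, ⟨hp1, hp2⟩, hq1, hq2⟩ => ⟨p, hp1, hp2, hq1, hq2⟩

omit [NumberField F] in
/-- A nontrivial class is not scalar at any infinite place. -/
theorem atInf_ne_scal {g : GL (Fin 2) F} (hg : (g : PG F) ≠ 1) (w : InfinitePlace F) (c : ℂˣ) :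
    atInf w g ≠ scal c := by
  intro hc
  apply hg
  rw [QuotientGroup.eq_one_iff]
  have he : ∀ i j, w.embedding ((g : Matrix (Fin 2) (Fin 2) F) i j)
      = Matrix.scalar (Fin 2) (c : ℂ) i j := fun i j => by
    rw [← scal_coe, ← hc]; rfl
  have h00 : (g : Matrix (Fin 2) (Fin 2) F) 0 0 ≠ 0 := fun h => by
    have := he 0 0; rw [h, map_zero] at this; simp at this; exact c.ne_zero this.symm
  refine ⟨Units.mk0 _ h00, Units.ext ?_⟩
  change Matrix.scalar (Fin 2) ((g : Matrix (Fin 2) (Fin 2) F) 0 0) = _
  ext i j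
  apply w.embedding.injective
  rw [he i j]
  fin_cases i <;> fin_cases j <;> simp [he 0 0]

variable {S : Set (Place F)} [Finite S]

/-- `PGL₂(F)` is countable. -/
instance PG.countable : Countable (PG F) :=
  Function.Surjective.countable QuotientGroup.mk_surjective

/-- The measure is invariant. -/
instance instSMulInvariantPG : SMulInvariantMeasure (PG F) (Pt F S) ptMeasure := by
  refine ⟨fun c s hs => ?_⟩
  obtain ⟨g, rfl⟩ := QuotientGroup.mk_surjective c
  exact (measurePreserving_smul_pt g).measure_preimage hs.nullMeasurableSet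

/-- Each element acts measurably. -/
instance instMeasurableConstSMulPG : MeasurableConstSMul (PG F) (Pt F S) := by
  refine ⟨fun c => ?_⟩
  obtain ⟨g, rfl⟩ := QuotientGroup.mk_surjective c
  exact (measurePreserving_smul_pt g).measurable

/-- The measure is σ-finite. -/
instance instSigmaFinitePt : SigmaFinite (ptMeasure (F := F) (S := S)) := by
  unfold ptMeasure; infer_instance

/-- Nontrivial elements of `PGL₂(F)` fix null sets. -/
theorem ptMeasure_fixed_null {γ : PG F} (hγ : γ ≠ 1) :
    ptMeasure (F := F) (S := S) {p | γ • p = p} = 0 := by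
  obtain ⟨g, rfl⟩ := QuotientGroup.mk_surjective γ
  obtain ⟨w⟩ : Nonempty (InfinitePlace F) := inferInstance
  have hns := atInf_ne_scal hγ w
  refine measure_mono_null
    (t := (univ : Set (FinPt F S)) ×ˢ (Function.eval w ⁻¹' {x : H3 | atInf w g • x = x}))
    (fun p hp => ⟨trivial, ?_⟩) ?_
  · exact congrFun (congrArg Prod.snd (show (g : PG F) • p = p from hp)) w
  · rw [ptMeasure, Measure.prod_prod,
      Measure.pi_eval_preimage_null (fun _ : InfinitePlace F => hmeas) (hmeas_fixed_null _ hns),
      mul_zero]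

/-- A fundamental domain of `PGL₂(F)` on the points. -/
theorem exists_ptDomain : ∃ D : Set (Pt F S), MeasurableSet D ∧
    IsFundamentalDomain (PG F) D ptMeasure := by
  have : DiscreteMeasurableSpace (FinPt F S) := ⟨fun _ => trivial⟩
  have : Nonempty (FinPt F S) := ⟨FinPt.base⟩
  refine exists_fundamentalDomain_prod (fun ν N => (finite_moving ν ν N).subset ?_)
    fun γ hγ => ptMeasure_fixed_null hγ
  rintro γ ⟨p, rfl, hp2, hq1, hq2⟩
  obtain ⟨g, rfl⟩ := QuotientGroup.mk_surjective γ
  exact ⟨g, rfl, hq1, fun w => ⟨p.2 w, hp2 w, hq2 w⟩⟩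

end Fermat.LT
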