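import Fermat.Agent.LT.CuspUpper

/-!
# The automorphic kernel of a cuspidal product kernel is bounded

`kap_bounded` bounds it: on a Siegel set only upper triangular elements are seen high in the cusp
(`high_support`), and there `CuspUpper` applies.
-/

set_option autoImplicit false
open NumberField Filter Set
open scoped Classical Matrix

namespace Fermat.LT

variable {F : Type*} [Field F] [NumberField F] [IsTotallyComplex F] {S : Set (Place F)}

/-- The finite part of the height of `∞`. -/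
noncomputable def phiInf (ν : FinPt F S) : ℝ := ∏ᶠ v, nloc v (eInf : Fin 2 → F) (ν.1 v)

omit [IsTotallyComplex F] in
/-- The function is positive. -/
lemma phiInf_pos (ν : FinPt F S) : 0 < phiInf ν := by
  rw [phiInf, finprod_eq_prod _ (eventually_cofinite.1 (eventually_nloc_eq_one eInf_ne_zero ν))]
  exact Finset.prod_pos fun v _ => nfin_pos v eInf_ne_zero _

/-- The height of `∞` is its finite part divided by the squared product of the archimedean
heights. -/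
lemma ht_eInf (p : Pt F S) :
    ht (eInf : Fin 2 → F) p = phiInf p.1 / ∏ w, (H3.coord (p.2 w)).2 ^ 2 := by
  rw [ht, phiInf, div_eq_mul_inv, ← Finset.prod_inv_distrib]
  congr 1
  refine Finset.prod_congr rfl fun w _ => ?_
  rw [show embVec w (eInf : Fin 2 → F) = ![0, 1] by funext i; fin_cases i <;> simp [embVec, eInf],
    ninf_infty, InfinitePlace.mult,
    if_neg (InfinitePlace.not_isReal_iff_isComplex.2 (IsTotallyComplex.isComplex w)), inv_pow]

variable [Finite S]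

omit [IsTotallyComplex F] in
omit [Finite S] in
/-- Points with finite parts in a finite set and at bounded distance have comparable heights. -/
theorem ht_comparable_gen {M : Type*} {φ : M → ℝ} (hφ : ∀ ν, 0 < φ ν) {Ω : Finset M} {r : ℝ}
    {a b : M} (ha : a ∈ Ω) (hb : b ∈ Ω) {x y : InfinitePlace F → H3}
    (hab : ∀ w, coshd (x w) (y w) ≤ |r|) :
    φ a / ∏ w, (H3.coord (x w)).2 ^ 2
      ≤ (1 + (∑ ν ∈ Ω, (φ ν + (φ ν)⁻¹)) * (∑ ν ∈ Ω, (φ ν + (φ ν)⁻¹))
          * ((2 * |r|) ^ 2) ^ Fintype.card (InfinitePlace F)) *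
            (φ b / ∏ w, (H3.coord (y w)).2 ^ 2) := by
  set m : ℝ := ∑ ν ∈ Ω, (φ ν + (φ ν)⁻¹)
  have hle : ∀ ν ∈ Ω, φ ν + (φ ν)⁻¹ ≤ m := fun ν hν =>
    Finset.single_le_sum (f := fun ν => φ ν + (φ ν)⁻¹)
      (fun ν _ => add_nonneg (hφ ν).le (inv_nonneg.2 (hφ ν).le)) hν
  have ha0 : 0 < ∏ w, (H3.coord (x w)).2 ^ 2 :=
    Finset.prod_pos fun w _ => pow_pos (H3.coord_pos _) 2
  have hb0 : 0 < ∏ w, (H3.coord (y w)).2 ^ 2 :=
    Finset.prod_pos fun w _ => pow_pos (H3.coord_pos _) 2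
  -- the heights differ by at most `(2 * |r|) ^ 2` at each place
  have hprod : ∏ w, (H3.coord (y w)).2 ^ 2
      ≤ ((2 * |r|) ^ 2) ^ Fintype.card (InfinitePlace F) * ∏ w, (H3.coord (x w)).2 ^ 2 := by
    rw [← Finset.card_univ, ← Finset.prod_const, ← Finset.prod_mul_distrib]
    refine Finset.prod_le_prod (fun w _ => sq_nonneg _) fun w _ => ?_
    rw [← mul_pow]
    refine pow_le_pow_left₀ (H3.coord_pos _).le ?_ 2
    refine (coord_le_coshd _ (x w)).trans ?_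
    rw [coshd_comm]
    exact mul_le_mul_of_nonneg_right (mul_le_mul_of_nonneg_left (hab w) two_pos.le)
      (H3.coord_pos _).le
  have hb' : 0 < φ b := hφ b
  have hm : 0 ≤ m := (add_nonneg (hφ b).le (inv_nonneg.2 (hφ b).le)).trans (hle b hb)
  -- and `φ` by at most `m * m`
  have h1 : φ a ≤ m * m * φ b := by
    have := mul_le_mul ((le_add_of_nonneg_right (inv_nonneg.2 (hφ a).le)).trans (hle a ha))
      ((le_add_of_nonneg_left hb'.le).trans (hle b hb)) (inv_nonneg.2 hb'.le) hm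
    calc φ a = φ a * (φ b)⁻¹ * φ b := by field_simp
      _ ≤ m * m * φ b := mul_le_mul_of_nonneg_right this hb'.le
  rw [add_mul, one_mul]
  refine le_add_of_nonneg_of_le (div_nonneg hb'.le hb0.le) ?_
  rw [div_le_iff₀ ha0, ← mul_div_assoc, div_mul_eq_mul_div, le_div_iff₀ hb0]
  refine (mul_le_mul h1 hprod hb0.le (mul_nonneg (mul_self_nonneg m) hb'.le)).trans (le_of_eq ?_)
  ring

omit [Finite S] in
/-- Points seen by the kernel have comparable heights. -/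
lemma exists_ht_comparable (K : PKer F S) (Ω : Finset (FinPt F S)) :
    ∃ κ : ℝ, 1 ≤ κ ∧ ∀ p q : Pt F S, p.1 ∈ Ω → K.val p q ≠ 0 →
      ht (eInf : Fin 2 → F) q ≤ κ * ht (eInf : Fin 2 → F) p ∧
      ht (eInf : Fin 2 → F) p ≤ κ * ht (eInf : Fin 2 → F) q := by
  set Ω' := Ω ∪ Ω.biUnion fun ν => (K.finite_row ν).toFinset
  set m : ℝ := ∑ ν ∈ Ω', (phiInf ν + (phiInf ν)⁻¹)
  refine ⟨1 + m * m * ((2 * |K.range|) ^ 2) ^ Fintype.card (InfinitePlace F),
    le_add_of_nonneg_right (mul_nonneg (mul_self_nonneg m) (by positivity)), fun p q hp hval => ?_⟩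
  simp only [PKer.val, mul_ne_zero_iff] at hval
  have hq : q.1 ∈ Ω' := Finset.mem_union_right _
    (Finset.mem_biUnion.2 ⟨p.1, hp, (Set.Finite.mem_toFinset _).2 hval.1⟩)
  have hab : ∀ w, coshd (p.2 w) (q.2 w) ≤ |K.range| := fun w =>
    (not_lt.1 fun hlt => hval.2 (K.inf_eq_zero hlt)).trans (le_abs_self _)
  rw [ht_eInf, ht_eInf]
  exact ⟨ht_comparable_gen phiInf_pos hq (Finset.mem_union_left _ hp) fun w =>
    (coshd_comm _ _).trans_le (hab w),
    ht_comparable_gen phiInf_pos (Finset.mem_union_left _ hp) hq hab⟩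

omit [IsTotallyComplex F] in
/-- A coordinate below multiples of all coordinates is controlled by their product. -/
lemma coord_pow_le_prod {R : ℝ} (p : InfinitePlace F → H3) (w : InfinitePlace F)
    (h : ∀ u, (H3.coord (p w)).2 ≤ R * (H3.coord (p u)).2) :
    ((H3.coord (p w)).2 ^ 2) ^ Fintype.card (InfinitePlace F) ≤
      (R ^ 2) ^ Fintype.card (InfinitePlace F) * ∏ u, (H3.coord (p u)).2 ^ 2 := by
  rw [← Finset.card_univ, ← Finset.prod_const, ← Finset.prod_const, ← Finset.prod_mul_distrib]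
  refine Finset.prod_le_prod (fun u _ => sq_nonneg _) fun u _ => ?_
  rw [← mul_pow]
  exact pow_le_pow_left₀ (H3.coord_pos _).le (h u) 2

omit [IsTotallyComplex F] in
/-- Balanced coordinates are controlled by their product. -/
lemma coord_le_of_ht {R : ℝ} (hR : 1 ≤ R) (p q : InfinitePlace F → H3)
    (hp : ∀ w u, (H3.coord (p w)).2 ≤ R * (H3.coord (p u)).2)
    (hq : ∀ w u, (H3.coord (q w)).2 ≤ R * (H3.coord (q u)).2) {a : ℝ} (ha : 1 ≤ a)
    (h : ∏ w, (H3.coord (p w)).2 ^ 2 ≤ a * ∏ w, (H3.coord (q w)).2 ^ 2) (w : InfinitePlace F) :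
    (H3.coord (p w)).2 ≤ R * R * a * (H3.coord (q w)).2 := by
  set n := Fintype.card (InfinitePlace F) with hn
  have hn0 : n ≠ 0 := Fintype.card_ne_zero
  have h1 := coord_pow_le_prod p w (hp w)
  have h2 : ∏ u, (H3.coord (q u)).2 ^ 2 ≤ (R ^ 2) ^ n * ((H3.coord (q w)).2 ^ 2) ^ n := by
    rw [hn, ← Finset.card_univ, ← Finset.prod_const, ← Finset.prod_const, ← Finset.prod_mul_distrib]
    refine Finset.prod_le_prod (fun u _ => sq_nonneg _) fun u _ => ?_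
    rw [← mul_pow]
    exact pow_le_pow_left₀ (H3.coord_pos _).le (hq u w) 2
  have h3 : ((H3.coord (p w)).2 ^ 2) ^ n ≤ ((R * R * a * (H3.coord (q w)).2) ^ 2) ^ n := by
    refine h1.trans ?_
    refine (mul_le_mul_of_nonneg_left (h.trans (mul_le_mul_of_nonneg_left h2 (by linarith)))
      (by positivity)).trans ?_
    rw [show ((R * R * a * (H3.coord (q w)).2) ^ 2) ^ n
      = (R ^ 2) ^ n * ((a ^ 2) ^ n * ((R ^ 2) ^ n * ((H3.coord (q w)).2 ^ 2) ^ n)) by ring]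
    refine mul_le_mul_of_nonneg_left (mul_le_mul_of_nonneg_right ?_ (by positivity)) (by positivity)
    exact (le_self_pow₀ ha two_ne_zero).trans (le_self_pow₀ (one_le_pow₀ ha) hn0)
  have hpos : 0 ≤ R * R * a * (H3.coord (q w)).2 := by have := H3.coord_pos (q w); positivity
  exact (sq_le_sq₀ (H3.coord_pos _).le hpos).1
    ((pow_le_pow_iff_left₀ (sq_nonneg _) (sq_nonneg _) hn0).1 h3)

omit [IsTotallyComplex F] [Finite S] in
/-- The values of the kernel out of a finite set of finite points are bounded. -/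
lemma exists_val_bound (K : PKer F S) (Ω : Finset (FinPt F S)) :
    ∃ B : ℝ, 0 ≤ B ∧ ∀ p q : Pt F S, p.1 ∈ Ω → ‖K.val p q‖ ≤ B := by
  refine ⟨(∑ ν ∈ Ω, ∑ ν' ∈ (K.finite_row ν).toFinset, ‖K.fin ν ν'‖) * ∏ w, (K.arch w).bound,
    mul_nonneg (Finset.sum_nonneg fun ν _ => Finset.sum_nonneg fun ν' _ => norm_nonneg _)
      (Finset.prod_nonneg fun w _ => (K.arch w).bound_nonneg), fun p q hp => ?_⟩
  rw [PKer.val, norm_mul, PKer.inf, norm_prod]
  refine mul_le_mul ?_ (Finset.prod_le_prod (fun w _ => norm_nonneg _) fun w _ =>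
    (K.arch w).le_bound _ _) (Finset.prod_nonneg fun w _ => norm_nonneg _)
    (Finset.sum_nonneg fun ν _ => Finset.sum_nonneg fun ν' _ => norm_nonneg _)
  rcases eq_or_ne (K.fin p.1 q.1) 0 with h | h
  · rw [h, norm_zero]
    exact Finset.sum_nonneg fun ν _ => Finset.sum_nonneg fun ν' _ => norm_nonneg _
  · refine le_trans ?_
      (Finset.single_le_sum (f := fun ν => ∑ ν' ∈ (K.finite_row ν).toFinset, ‖K.fin ν ν'‖)
      (fun ν _ => Finset.sum_nonneg fun ν' _ => norm_nonneg _) hp)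
    exact Finset.single_le_sum (f := fun ν' => ‖K.fin p.1 ν'‖) (fun _ _ => norm_nonneg _)
      ((Set.Finite.mem_toFinset _).2 h)

omit [Finite S] [IsTotallyComplex F] in
/-- Over finitely many finite points the finite height is bounded above and below. -/
private lemma exists_phiInf_bound (Ω : Finset (FinPt F S)) :
    ∃ Φ : ℝ, 0 < Φ ∧ ∀ ν ∈ Ω, phiInf ν ≤ Φ ∧ (phiInf ν)⁻¹ ≤ Φ := by
  refine ⟨1 + ∑ ν ∈ Ω, (phiInf ν + (phiInf ν)⁻¹), add_pos_of_pos_of_nonneg one_pos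
    (Finset.sum_nonneg fun ν _ => add_nonneg (phiInf_pos ν).le (inv_nonneg.2 (phiInf_pos ν).le)),
    fun ν hν => ?_⟩
  have h := Finset.single_le_sum (f := fun ν => phiInf ν + (phiInf ν)⁻¹)
    (fun ν _ => add_nonneg (phiInf_pos ν).le (inv_nonneg.2 (phiInf_pos ν).le)) hν
  have h1 : phiInf ν + (phiInf ν)⁻¹ ≤ 1 + ∑ ν ∈ Ω, (phiInf ν + (phiInf ν)⁻¹) :=
    h.trans (le_add_of_nonneg_left zero_le_one)
  exact ⟨le_trans (le_add_of_nonneg_right (inv_nonneg.2 (phiInf_pos ν).le)) h1,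
    le_trans (le_add_of_nonneg_left (phiInf_pos ν).le) h1⟩

omit [Finite S] in
/-- Points of the Siegel set that are not high are in a compact set. -/
private lemma exists_coshd_le_of_not_high {Ω : Finset (FinPt F S)} {R₀ c Φ δ : ℝ} (hc : 0 < c)
    (hΦ0 : 0 < Φ) (hΦ : ∀ ν ∈ Ω, phiInf ν ≤ Φ) (hδ0 : 0 < δ) :
    ∃ A : ℝ, ∀ p ∈ siegel Ω R₀ c, δ ≤ ht (eInf : Fin 2 → F) p →
      ∀ w, coshd ((1 : GL (Fin 2) ℂ) : H3) (p.2 w) ≤ A := by
  set R := max R₀ 1
  set n := Fintype.card (InfinitePlace F) with hn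
  set T : ℝ := R * (1 + Φ / δ) + c with hT
  refine ⟨(R ^ 2 + 1 + T ^ 2) / (2 * c), ?_⟩
  rintro p ⟨hp1, hp2, hp3⟩ hp w
  refine coshd_base_le hc ((hp2 w).1.trans (le_max_left _ _)) (hp2 w).2 ?_
  have hP : 0 < ∏ u, (H3.coord (p.2 u)).2 ^ 2 :=
    Finset.prod_pos fun u _ => pow_pos (H3.coord_pos _) 2
  rw [ht_eInf, le_div_iff₀ hP, mul_comm, ← le_div_iff₀ hδ0] at hp
  have hbound : ((H3.coord (p.2 w)).2 ^ 2) ^ n ≤ ((R * (1 + Φ / δ) + c) ^ 2) ^ n := by
    have h1 := coord_pow_le_prod p.2 w fun u =>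
      (hp3 w u).trans (mul_le_mul_of_nonneg_right (le_max_left R₀ 1) (H3.coord_pos _).le)
    refine h1.trans
      ((mul_le_mul_of_nonneg_left (hp.trans (div_le_div_of_nonneg_right (hΦ _ hp1) hδ0.le))
      (by positivity)).trans ?_)
    have hd : 0 ≤ Φ / δ := div_nonneg hΦ0.le hδ0.le
    calc (R ^ 2) ^ n * (Φ / δ) ≤ (R ^ 2) ^ n * ((1 + Φ / δ) ^ 2) ^ n := by
          refine mul_le_mul_of_nonneg_left ?_ (by positivity)
          exact ((le_add_of_nonneg_left zero_le_one).trans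
            (le_self_pow₀ (by linarith) two_ne_zero)).trans
            (le_self_pow₀ (one_le_pow₀ (by linarith)) Fintype.card_ne_zero)
      _ = ((R * (1 + Φ / δ)) ^ 2) ^ n := by rw [← mul_pow, ← mul_pow]
      _ ≤ _ := by
          refine pow_le_pow_left₀ (sq_nonneg _) (pow_le_pow_left₀ (by positivity) ?_ 2) _
          linarith
  exact (sq_le_sq₀ (H3.coord_pos _).le (by positivity)).1
    ((pow_le_pow_iff_left₀ (sq_nonneg _) (sq_nonneg _) Fintype.card_ne_zero).1 hbound)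

omit [Finite S] in
/-- All heights on the Siegel set are bounded. -/
private lemma ht_le_of_siegel {Ω : Finset (FinPt F S)} {R₀ c Φ : ℝ} (hc : 0 < c) (hΦ0 : 0 ≤ Φ)
    (hΦ : ∀ ν ∈ Ω, phiInf ν ≤ Φ) :
    ∀ p ∈ siegel Ω R₀ c, ht (eInf : Fin 2 → F) p ≤ Φ /
      (c ^ 2) ^ Fintype.card (InfinitePlace F) := by
  rintro p ⟨hp1, hp2, -⟩
  rw [ht_eInf]
  refine div_le_div₀ hΦ0 (hΦ _ hp1) (by positivity) ?_
  rw [← Finset.card_univ, ← Finset.prod_const]
  exact Finset.prod_le_prod (fun w _ => sq_nonneg _) fun w _ => pow_le_pow_left₀ hc.le (hp2 w).2 2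

/-- Between a high point and another only upper triangular elements are seen, at like heights. -/
private lemma high_support (K : PKer F S) {Ω : Finset (FinPt F S)} {κ H₀ Φ δ : ℝ} (hκ1 : 1 ≤ κ)
    (hκ : ∀ p q : Pt F S, p.1 ∈ Ω → K.val p q ≠ 0 →
      ht (eInf : Fin 2 → F) q ≤ κ * ht (eInf : Fin 2 → F) p ∧
      ht (eInf : Fin 2 → F) p ≤ κ * ht (eInf : Fin 2 → F) q)
    (hΦ0 : 0 < Φ) (hΦle : ∀ ν ∈ Ω, phiInf ν ≤ Φ ∧ (phiInf ν)⁻¹ ≤ Φ) (hH₀0 : 0 < H₀)
    (hδ : δ * (2 * (H₀ * κ)) ≤ 1) {p q : Pt F S} (hp : p.1 ∈ Ω) (hq : q.1 ∈ Ω)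
    (hup1 : ht (eInf : Fin 2 → F) p ≤ H₀) (hup2 : ht (eInf : Fin 2 → F) q ≤ H₀)
    (hhigh : ¬(δ ≤ ht (eInf : Fin 2 → F) p ∧ δ ≤ ht (eInf : Fin 2 → F) q))
    (g : GL (Fin 2) F) (hg : K.val p (g • q) ≠ 0) :
    (g : Matrix (Fin 2) (Fin 2) F) 1 0 = 0 ∧
      ∏ w, (H3.coord (p.2 w)).2 ^ 2 ≤ (1 + κ * Φ * Φ) * ∏ w, (H3.coord (q.2 w)).2 ^ 2 ∧
      ∏ w, (H3.coord (q.2 w)).2 ^ 2 ≤ (1 + κ * Φ * Φ) * ∏ w, (H3.coord (p.2 w)).2 ^ 2 := by
  obtain ⟨h1, h2⟩ := hκ p (g • q) hp hg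
  rw [ht_smul eInf_ne_zero] at h1 h2
  set u := (eInf : Fin 2 → F) ᵥ* (g : Matrix (Fin 2) (Fin 2) F) with hu
  have hu0 : u 0 = (g : Matrix (Fin 2) (Fin 2) F) 1 0 := by
    simp [u, eInf, Matrix.vecMul, dotProduct]
  -- a nonzero lower entry would make both points low
  have h10 : (g : Matrix (Fin 2) (Fin 2) F) 1 0 = 0 := by
    by_contra hne
    have hune : u ≠ 0 := fun h => hne (by rw [← hu0, h]; rfl)
    have hone := one_le_ht_mul eInf_ne_zero hune (by simp [eInf, hu0, hne]) q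
    have hp0 := ht_pos eInf_ne_zero p
    have hδ0 : 0 ≤ δ := by
      rcases not_and_or.1 hhigh with h | h
      · exact hp0.le.trans (not_le.1 h).le
      · exact (ht_pos eInf_ne_zero q).le.trans (not_le.1 h).le
    rcases not_and_or.1 hhigh with h | h
    · have : ht (eInf : Fin 2 → F) q * ht u q ≤ H₀ * (κ * δ) :=
        mul_le_mul hup2 (h1.trans (mul_le_mul_of_nonneg_left (not_le.1 h).le (by linarith)))
          (ht_pos hune q).le hH₀0.le
      linarith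
    · have : ht (eInf : Fin 2 → F) q * ht u q ≤ δ * (κ * H₀) :=
        mul_le_mul (not_le.1 h).le (h1.trans (mul_le_mul_of_nonneg_left hup1 (by linarith)))
          (ht_pos hune q).le hδ0
      linarith
  have h11 : (g : Matrix (Fin 2) (Fin 2) F) 1 1 ≠ 0 :=
    fun h => g.det_ne_zero (by simp [Matrix.det_fin_two, h, h10])
  have hu' : u = (Units.mk0 _ h11 : F) • (eInf : Fin 2 → F) := by
    funext i; fin_cases i <;> simp [u, eInf, Matrix.vecMul, dotProduct, h10]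
  rw [hu', ht_smul_vec eInf_ne_zero] at h1 h2
  rw [ht_eInf, ht_eInf] at h1 h2
  have hP : 0 < ∏ w, (H3.coord (p.2 w)).2 ^ 2 :=
    Finset.prod_pos fun w _ => pow_pos (H3.coord_pos _) 2
  have hQ : 0 < ∏ w, (H3.coord (q.2 w)).2 ^ 2 :=
    Finset.prod_pos fun w _ => pow_pos (H3.coord_pos _) 2
  -- so the heights are comparable
  have hgen : ∀ (ν ν' : FinPt F S) (P Q : ℝ), ν ∈ Ω → ν' ∈ Ω → 0 < P → 0 < Q →
      phiInf ν' / Q ≤ κ * (phiInf ν / P) → P ≤ (1 + κ * Φ * Φ) * Q := by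
    intro ν ν' P Q hν hν' hP hQ h
    rw [← mul_div_assoc, div_le_div_iff₀ hQ hP] at h
    have h3 : κ * phiInf ν * (phiInf ν')⁻¹ ≤ κ * Φ * Φ :=
      mul_le_mul (mul_le_mul_of_nonneg_left (hΦle _ hν).1 (by linarith)) (hΦle _ hν').2
        (inv_nonneg.2 (phiInf_pos _).le) (by positivity)
    calc P = phiInf ν' * P * (phiInf ν')⁻¹ := by have := (phiInf_pos ν').ne'; field_simp
      _ ≤ κ * phiInf ν * Q * (phiInf ν')⁻¹ :=
          mul_le_mul_of_nonneg_right h (inv_nonneg.2 (phiInf_pos _).le)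
      _ = κ * phiInf ν * (phiInf ν')⁻¹ * Q := by ring
      _ ≤ (1 + κ * Φ * Φ) * Q := mul_le_mul_of_nonneg_right (by linarith) hQ.le
  exact ⟨h10, hgen _ _ _ _ hp hq hP hQ h1, hgen _ _ _ _ hq hp hQ hP h2⟩

/-- **Boundedness of the automorphic kernel.** -/
theorem kap_bounded (K : PKer F S) (v3 : Place F) (hcusp : CuspLoc (K.loc v3))
    (harch : ∀ w, IsSmoothRadial (K.arch w)) : ∃ C, ∀ p q, ‖K.kap p q‖ ≤ C := by
  obtain ⟨Ω, R₀, c, hc, hΩ⟩ := exists_siegel (F := F) (S := S)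
  set R := max R₀ 1
  have hR : 1 ≤ R := le_max_right _ _
  obtain ⟨κ, hκ1, hκ⟩ := exists_ht_comparable K Ω
  obtain ⟨B, hB0, hB⟩ := exists_val_bound K Ω
  obtain ⟨Φ, hΦ0, hΦle⟩ := exists_phiInf_bound Ω
  set H₀ : ℝ := Φ / (c ^ 2) ^ Fintype.card (InfinitePlace F) with hH₀
  have hH₀0 : 0 < H₀ := div_pos hΦ0 (by positivity)
  set δ : ℝ := 1 / (2 * (H₀ * κ)) with hδ
  have hδ0 : 0 < δ := by positivity
  obtain ⟨A, hlow⟩ :=
    exists_coshd_le_of_not_high (R₀ := R₀) hc hΦ0 (fun ν hν => (hΦle ν hν).1) hδ0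
  set Γ : Finset (PG F) := Ω.biUnion fun ν => Ω.biUnion fun ν' => (K.finite_seen ν ν' A A).toFinset
  set a : ℝ := κ * Φ * Φ with ha
  set ρ : ℝ := max R (R * R * (1 + a)) with hρ
  choose C hC using fun ν ν' => upper_sum_bound K v3 hcusp harch ν ν' ρ c
    (hR.trans (le_max_left _ _)) hc
  set Chigh : ℝ := ∑ ν ∈ Ω, ∑ ν' ∈ Ω, |C ν ν'|
  refine ⟨Chigh + Γ.card * B, fun p₀ q₀ => ?_⟩
  have hChigh : 0 ≤ Chigh := Finset.sum_nonneg fun ν _ => Finset.sum_nonneg fun ν' _ => abs_nonneg _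
  have hCcomp : 0 ≤ (Γ.card : ℝ) * B := mul_nonneg (Nat.cast_nonneg _) hB0
  obtain ⟨g₁, hg₁⟩ := hΩ p₀
  obtain ⟨g₂, hg₂⟩ := hΩ q₀
  rw [← K.kap_smul_left (g₁ : PG F), ← K.kap_smul_right (g₂ : PG F), PG.mk_smul, PG.mk_smul]
  generalize g₁ • p₀ = p at hg₁ ⊢
  generalize g₂ • q₀ = q at hg₂ ⊢
  -- two low points see finitely many classes
  by_cases hcompact : δ ≤ ht (eInf : Fin 2 → F) p ∧ δ ≤ ht (eInf : Fin 2 → F) q
  · rw [PKer.kap, tsum_eq_sum (s := Γ) fun γ hγ => ?_]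
    · refine le_add_of_nonneg_of_le hChigh ((norm_sum_le _ _).trans ?_)
      refine (Finset.sum_le_sum fun γ _ => hB p (γ • q) hg₁.1).trans (le_of_eq ?_)
      rw [Finset.sum_const, nsmul_eq_mul]
    · by_contra hne
      refine hγ (Finset.mem_biUnion.2 ⟨p.1, hg₁.1, Finset.mem_biUnion.2 ⟨q.1, hg₂.1,
        (Set.Finite.mem_toFinset _).2 ⟨p.2, q.2, hlow p hg₁ hcompact.1,
          hlow q hg₂ hcompact.2, hne⟩⟩⟩)
  -- a high point: only the Borel subgroup contributes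
  have hup := ht_le_of_siegel (R₀ := R₀) hc hΦ0.le fun ν hν => (hΦle ν hν).1
  have hkey := high_support K hκ1 hκ hΦ0 hΦle hH₀0
    (by rw [hδ, one_div, inv_mul_cancel₀ (by positivity)]) hg₁.1 hg₂.1 (hup p hg₁)
      (hup q hg₂) hcompact
  by_cases hall : ∀ γ : PG F, K.val p (γ • q) = 0
  · rw [PKer.kap, tsum_congr hall, tsum_zero, norm_zero]
    exact add_nonneg hChigh hCcomp
  obtain ⟨γ₀, hγ₀⟩ := not_forall.1 hall
  obtain ⟨g₀, rfl⟩ := QuotientGroup.mk_surjective γ₀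
  obtain ⟨-, hpq, hqp⟩ := hkey g₀ hγ₀
  have ha1 : (1 : ℝ) ≤ 1 + a := le_add_of_nonneg_right (by positivity)
  have hbal : ∀ x ∈ siegel Ω R₀ c, ∀ w u, (H3.coord (x.2 w)).2 ≤ R * (H3.coord (x.2 u)).2 :=
    fun x hx w u =>
      (hx.2.2 w u).trans (mul_le_mul_of_nonneg_right (le_max_left _ _) (H3.coord_pos _).le)
  refine le_add_of_le_of_nonneg ?_ hCcomp
  rw [PKer.kap, ← upMat_PG_injective.tsum_eq]
  swap
  · intro γ hγ
    obtain ⟨g, rfl⟩ := QuotientGroup.mk_surjective γ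
    obtain ⟨b, x, hbx⟩ := exists_upMat_eq (hkey g hγ).1
    exact ⟨(b, x), hbx⟩
  refine (hC p.1 q.1 p.2 q.2 (fun w => (hg₁.2.1 w).2) (fun w u => (hbal p hg₁ w u).trans
    (mul_le_mul_of_nonneg_right (le_max_left _ _) (H3.coord_pos _).le)) fun w => ⟨?_, ?_⟩).trans ?_
  · exact (coord_le_of_ht hR _ _ (hbal p hg₁) (hbal q hg₂) ha1 hpq w).trans
      (mul_le_mul_of_nonneg_right (le_max_right _ _) (H3.coord_pos _).le)
  · exact (coord_le_of_ht hR _ _ (hbal q hg₂) (hbal p hg₁) ha1 hqp w).trans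
      (mul_le_mul_of_nonneg_right (le_max_right _ _) (H3.coord_pos _).le)
  · refine (le_abs_self _).trans ((Finset.single_le_sum (f := fun ν' => |C p.1 ν'|)
      (fun _ _ => abs_nonneg _) hg₂.1).trans ?_)
    exact Finset.single_le_sum (f := fun ν => ∑ ν' ∈ Ω, |C ν ν'|)
      (fun ν _ => Finset.sum_nonneg fun _ _ => abs_nonneg _) hg₁.1

end Fermat.LT
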