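import Fermat.Agent.LT.Unfold

/-!
# Unfolding a sum along a two-to-one parametrisation by cosets

`integral_two_to_one`: if every index comes from exactly two pairs, the integral of the sum over
pairs is twice that over indices.
-/

set_option autoImplicit false
open MeasureTheory Filter Set
open scoped ENNReal Classical

namespace Fermat.LT

variable {G X I Ξ : Type*} [Group G] [MulAction G I] (H : Ξ → Subgroup G) (base : Ξ → I)
  (P : I → Prop)

/-- The point of an index and a coset: the translate of its base by the coset. -/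
noncomputable def pairPt (p : Σ ξ, G ⧸ H ξ) : I := p.2.out • base p.1

variable {H base P} (hP : ∀ p, P (pairPt H base p))
  (h2 : ∀ i, P i → {p | pairPt H base p = i}.ncard = 2)

include hP h2 in
/-- A function of the point of a pair sums to twice its value over a fibre. -/
lemma tsum_fibre {M : Type*} [Semiring M] [TopologicalSpace M] (g : I → M) (i : {i // P i}) :
    ∑' p : {p // (⟨pairPt H base p, hP p⟩ : {i // P i}) = i}, g (pairPt H base p.1) = 2 * g i := by
  have hc : Nat.card {p // (⟨pairPt H base p, hP p⟩ : {i // P i}) = i} = 2 := by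
    rw [← h2 i.1 i.2, ← Nat.card_coe_set_eq]
    exact Nat.card_congr (Equiv.subtypeEquivRight fun p => by simp [Subtype.ext_iff])
  have := Nat.finite_of_card_ne_zero (α := {p // (⟨pairPt H base p, hP p⟩ : {i // P i}) = i})
    (by omega)
  let _ := Fintype.ofFinite {p // (⟨pairPt H base p, hP p⟩ : {i // P i}) = i}
  rw [tsum_fintype, Finset.sum_congr rfl fun p _ => show g (pairPt H base p.1) = g i from
    congrArg g (congrArg Subtype.val p.2),
    Finset.sum_const, Finset.card_univ, ← Nat.card_eq_fintype_card, hc, nsmul_eq_mul]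
  norm_num

include hP h2 in
/-- A nonnegative sum over pairs is twice the sum over the elements they parametrise. -/
lemma tsum_pair_ennreal (g : I → ℝ≥0∞) :
    ∑' p, g (pairPt H base p) = 2 * ∑' i, if P i then g i else 0 := by
  let f : (Σ ξ, G ⧸ H ξ) → {i // P i} := fun p => ⟨pairPt H base p, hP p⟩
  rw [← (Equiv.sigmaFiberEquiv f).tsum_eq, ENNReal.tsum_sigma', show (∑' i, if P i then g i else 0)
    = ∑' i : {i // P i}, g i from ((tsum_subtype {i | P i} g).trans (tsum_congr fun i => by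
      rw [Set.indicator_apply]; rfl)).symm, ← ENNReal.tsum_mul_left]
  exact tsum_congr fun i => tsum_fibre hP h2 g i

include hP h2 in
/-- An absolutely convergent sum over pairs is twice the sum over the elements they parametrise. -/
lemma tsum_pair {g : I → ℂ} (hs : Summable fun p => g (pairPt H base p)) :
    ∑' p, g (pairPt H base p) = 2 * ∑' i, if P i then g i else 0 := by
  let f : (Σ ξ, G ⧸ H ξ) → {i // P i} := fun p => ⟨pairPt H base p, hP p⟩
  have hs' : Summable fun c : (Σ i : {i // P i}, {p // f p = i}) =>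
      g (pairPt H base (Equiv.sigmaFiberEquiv f c)) := (Equiv.sigmaFiberEquiv f).summable_iff.2 hs
  rw [← (Equiv.sigmaFiberEquiv f).tsum_eq, hs'.tsum_sigma, show (∑' i, if P i then g i else 0)
    = ∑' i : {i // P i}, g i from ((tsum_subtype {i | P i} g).trans (tsum_congr fun i => by
      rw [Set.indicator_apply]; rfl)).symm, ← tsum_mul_left]
  exact tsum_congr fun i => tsum_fibre hP h2 g i

variable [Countable G] [MulAction G X] [MeasurableSpace X] {μ : Measure X} [MeasurableConstSMul G X]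
  [SMulInvariantMeasure G X μ] [Countable I] [Countable Ξ] {D : Set X}
    (hD : IsFundamentalDomain G D μ) {F : I → X → ℂ} (hF : ∀ (g : G) i x, F (g • i) (g • x) = F i x)
    (hm : ∀ i, AEStronglyMeasurable (F i) μ)

omit [Countable I] in
include hD hF hm hP h2 in
/-- **Unfolding.** If every index in `P` comes from exactly two pairs, the integral of the sum over
`P` is half the sum of the integrals over the coset domains. -/
theorem integral_two_to_one (hint : ∫⁻ x in D, ∑' i, (if P i then ‖F i x‖ₑ else 0) ∂μ < ∞) :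
    (∀ ξ, IntegrableOn (F (base ξ)) (cosetDomain (H ξ) D) μ) ∧
      ∫ x in D, (∑' i, if P i then F i x else 0) ∂μ
        = 2⁻¹ * ∑' ξ, ∫ x in cosetDomain (H ξ) D, F (base ξ) x ∂μ := by
  have e : ∀ ξ (q : G ⧸ H ξ) (x : X), F (base ξ) ((q.out)⁻¹ • x) = F (pairPt H base ⟨ξ, q⟩) x :=
    fun ξ q x => by rw [← hF q.out, smul_inv_smul]; rfl
  have hnorm : ∀ x, ∑' ξ, ∑' q : G ⧸ H ξ, ‖F (pairPt H base ⟨ξ, q⟩) x‖ₑ
      = 2 * ∑' i, if P i then ‖F i x‖ₑ else 0 := fun x => by
    rw [← ENNReal.tsum_sigma' (fun p : Σ ξ, G ⧸ H ξ => ‖F (pairPt H base p) x‖ₑ)]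
    exact tsum_pair_ennreal hP h2 fun i => ‖F i x‖ₑ
  have hmp : ∀ p : Σ ξ, G ⧸ H ξ, AEMeasurable (fun x => ‖F (pairPt H base p) x‖ₑ) (μ.restrict D) :=
    fun p => (hm _).restrict.enorm
  have htot : ∫⁻ x in D, ∑' ξ, ∑' q : G ⧸ H ξ, ‖F (pairPt H base ⟨ξ, q⟩) x‖ₑ ∂μ < ∞ := by
    simp only [hnorm]
    rw [lintegral_const_mul' _ _ (by norm_num)]
    exact ENNReal.mul_lt_top (by norm_num) hint
  have hsum : ∑' ξ, ∫⁻ x in D, ∑' q : G ⧸ H ξ, ‖F (pairPt H base ⟨ξ, q⟩) x‖ₑ ∂μ < ∞ := by
    rwa [← lintegral_tsum fun ξ => AEMeasurable.tsum fun q => hmp ⟨ξ, q⟩]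
  have hξ : ∀ ξ, IntegrableOn (F (base ξ)) (cosetDomain (H ξ) D) μ ∧
      ∫ x in cosetDomain (H ξ) D, F (base ξ) x ∂μ
        = ∫ x in D, ∑' q : G ⧸ H ξ, F (pairPt H base ⟨ξ, q⟩) x ∂μ := fun ξ => by
    have := integral_cosetDomain hD (H ξ) (F (base ξ)) (hm _) (by
      simp only [e]
      exact lt_of_le_of_lt (ENNReal.le_tsum ξ) hsum)
    simp only [e] at this
    exact this
  refine ⟨fun ξ => (hξ ξ).1, ?_⟩
  simp only [fun ξ => (hξ ξ).2]
  -- almost everywhere absolutely summable
  have hae : ∀ᵐ x ∂μ.restrict D, ∑' p : Σ ξ, G ⧸ H ξ, ‖F (pairPt H base p) x‖ₑ ≠ ∞ := by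
    refine (ae_lt_top' (AEMeasurable.tsum hmp) ?_).mono fun x hx => hx.ne
    simpa only [ENNReal.tsum_sigma'] using htot.ne
  have hae' : ∀ᵐ x ∂μ.restrict D, Summable fun p : Σ ξ, G ⧸ H ξ => F (pairPt H base p) x := by
    filter_upwards [hae] with x hx
    exact Summable.of_norm
      (by simpa [enorm_eq_nnnorm] using ENNReal.tsum_coe_ne_top_iff_summable_coe.1 hx)
  rw [← integral_tsum (fun ξ => ?_)
    (ne_top_of_le_ne_top hsum.ne (ENNReal.tsum_le_tsum fun ξ => ?_))]
  · rw [← integral_const_mul]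
    refine integral_congr_ae (hae'.mono fun x hx => ?_)
    change _ = 2⁻¹ * ∑' ξ, ∑' q : G ⧸ H ξ, F (pairPt H base ⟨ξ, q⟩) x
    rw [← hx.tsum_sigma, tsum_pair hP h2 (g := fun i => F i x) hx, ← mul_assoc]
    norm_num
  · refine aestronglyMeasurable_of_tendsto_ae (u := (atTop : Filter (Finset (G ⧸ H ξ))))
      (f := fun s x => ∑ q ∈ s, F (pairPt H base ⟨ξ, q⟩) x)
      (fun s => Finset.aestronglyMeasurable_fun_sum _ fun q _ => (hm _).restrict) ?_
    filter_upwards [hae'] with x hx
    exact (hx.sigma_factor ξ).hasSum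
  · exact lintegral_mono fun x => enorm_tsum_le_tsum_enorm

end Fermat.LT
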