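import Fermat.Agent.LT.Parts
import Fermat.Agent.LT.KapBound
import Fermat.Agent.LT.TwoToOne

/-!
# The twisted action on classes, boundedness away from the Borel subgroup

Classes with no fixed line give a bounded kernel sum: at a high point only upper triangular classes
are seen.
-/

set_option autoImplicit false
open NumberField Filter Set MeasureTheory
open scoped Classical Matrix ENNReal

namespace Fermat.LT

variable {F : Type*} [Field F] [NumberField F]

/-- An automorphism on classes. -/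
noncomputable def PG.amap (τ : F ≃+* F) : PG F →* PG F :=
  QuotientGroup.map (scalSub F) (scalSub F) (mapGL τ) fun g hg => by
    obtain ⟨c, rfl⟩ := hg
    exact ⟨Units.map (τ : F →+* F).toMonoidHom c, (mapGL_scal τ c).symm⟩

omit [NumberField F] in
/-- The image of the class of a matrix. -/
@[simp] lemma PG.amap_mk (τ : F ≃+* F) (g : GL (Fin 2) F) :
    PG.amap τ (g : PG F) = (mapGL τ g : PG F) := rfl

/-- Classes with twisted conjugation. -/
def TwPG (_τ : F ≃+* F) : Type _ := PG F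

/-- The underlying class in `PGL₂(F)` of a twisted class. -/
def TwPG.cls {τ : F ≃+* F} (γ : TwPG τ) : PG F := γ

/-- A class with twisted conjugation. -/
def TwPG.of (τ : F ≃+* F) (γ : PG F) : TwPG τ := γ

omit [NumberField F] in
/-- The class of a twisted element. -/
@[simp] lemma TwPG.cls_of (τ : F ≃+* F) (γ : PG F) : (TwPG.of τ γ).cls = γ := rfl

/-- Twisted conjugation. -/
noncomputable instance instMulActionTwPG (τ : F ≃+* F) : MulAction (PG F) (TwPG τ) where
  smul δ γ := TwPG.of τ (δ * γ.cls * (PG.amap τ δ)⁻¹)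
  one_smul γ := by
    change TwPG.of τ (1 * γ.cls * (PG.amap τ 1)⁻¹) = γ
    rw [map_one, inv_one, one_mul, mul_one]
    rfl
  mul_smul δ ε γ := by
    change TwPG.of τ (δ * ε * γ.cls * (PG.amap τ (δ * ε))⁻¹)
      = TwPG.of τ (δ * (ε * γ.cls * (PG.amap τ ε)⁻¹) * (PG.amap τ δ)⁻¹)
    rw [map_mul]
    group

omit [NumberField F] in
/-- The class of a twisted conjugate. -/
lemma TwPG.cls_smul {τ : F ≃+* F} (δ : PG F) (γ : TwPG τ) :
    (δ • γ).cls = δ * γ.cls * (PG.amap τ δ)⁻¹ := rfl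

/-- There are countably many twisted classes. -/
instance instCountableTwPG (τ : F ≃+* F) : Countable (TwPG τ) := (inferInstance : Countable (PG F))

/-- An automorphism permutes the infinite places. -/
lemma bijective_placeComp (τ : F ≃+* F) : Function.Bijective fun w : InfinitePlace F =>
    InfinitePlace.mk (w.embedding.comp (τ : F →+* F)) := by
  refine Finite.injective_iff_bijective.1 fun a b h => ?_
  rw [InfinitePlace.mk_eq_iff] at h
  rw [← InfinitePlace.mk_embedding a, ← InfinitePlace.mk_embedding b, InfinitePlace.mk_eq_iff]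
  rcases h with h | h
  · exact Or.inl (RingHom.ext fun x => by simpa using RingHom.congr_fun h (τ.symm x))
  · refine Or.inr (RingHom.ext fun x => ?_)
    simpa [ComplexEmbedding.conjugate] using RingHom.congr_fun h (τ.symm x)

variable [IsTotallyComplex F] {S : Set (Place F)} [Finite S] {τ : F ≃+* F}

/-- The twisted kernel term. -/
noncomputable def twVal (K : PKer F S) (hS : Stable τ S) (γ : TwPG τ) (p : Pt F S) : ℂ :=
  K.val p (γ.cls • Pt.amap hS p)

variable (K : PKer F S) (hS : Stable τ S)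

/-- The action on points is semilinear. -/
lemma PG.amap_smul (δ : PG F) (p : Pt F S) :
    Pt.amap hS (δ • p) = PG.amap τ δ • Pt.amap hS p := by
  obtain ⟨g, rfl⟩ := QuotientGroup.mk_surjective δ
  rw [PG.mk_smul, Pt.amap_smul, PG.amap_mk, PG.mk_smul]

/-- The twisted value is equivariant. -/
lemma twVal_smul (δ : PG F) (γ : TwPG τ) (p : Pt F S) :
    twVal K hS (δ • γ) (δ • p) = twVal K hS γ p := by
  rw [twVal, twVal, TwPG.cls_smul, PG.amap_smul, ← mul_smul, inv_mul_cancel_right, mul_smul,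
    K.val_smul_PG]

/-- The twisted value is measurable. -/
lemma measurable_twVal (γ : TwPG τ) : Measurable (twVal K hS γ) :=
  K.measurable_val.comp (measurable_id.prodMk
    ((measurable_const_smul γ.cls).comp (measurePreserving_amap hS).measurable))

/-- Upper triangular classes. -/
def IsUpper (γ : PG F) : Prop :=
  ∃ g : GL (Fin 2) F, (g : PG F) = γ ∧ (g : Matrix (Fin 2) (Fin 2) F) 1 0 = 0

omit [NumberField F] [IsTotallyComplex F] in
/-- The point at an embedding has the height and distance to the base point of the one at its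
place. -/
lemma coord_extH (x : InfinitePlace F → H3) (φ : F →+* ℂ) :
    (H3.coord (extH x φ)).2 = (H3.coord (x (InfinitePlace.mk φ))).2 ∧
      coshd ((1 : GL (Fin 2) ℂ) : H3) (extH x φ) = coshd ((1 : GL (Fin 2) ℂ) : H3)
        (x (InfinitePlace.mk φ)) := by
  unfold extH
  split_ifs
  · exact ⟨rfl, rfl⟩
  · refine ⟨by rw [H3.coord_cj], ?_⟩
    have h1 : H3.cj ((1 : GL (Fin 2) ℂ) : H3) = ((1 : GL (Fin 2) ℂ) : H3) := by
      rw [H3.cj_mk, map_one]
    conv_lhs => rw [← h1, coshd_cj]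

omit [Finite S] [IsTotallyComplex F] in
/-- Automorphisms preserve the product of the heights. -/
lemma prod_coord_amap (p : Pt F S) :
    ∏ w, (H3.coord ((Pt.amap hS p).2 w)).2 ^ 2 = ∏ w, (H3.coord (p.2 w)).2 ^ 2 := by
  have hbij := bijective_placeComp τ
  rw [← hbij.prod_comp (fun w => (H3.coord (p.2 w)).2 ^ 2)]
  exact Finset.prod_congr rfl fun w _ => congrArg (· ^ 2) (coord_extH p.2 _).1

omit [NumberField F] [IsTotallyComplex F] in
/-- A matrix with `g₁₀ ≠ 0` moves the line at `∞`. -/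
lemma eInf_vecMul_ne {g : GL (Fin 2) F} (h : (g : Matrix (Fin 2) (Fin 2) F) 1 0 ≠ 0) :
    (eInf : Fin 2 → F) ᵥ* (g : Matrix (Fin 2) (Fin 2) F) ≠ 0 := fun he =>
  h (by simpa [eInf, Matrix.vecMul, dotProduct] using congrFun he 0)

omit [IsTotallyComplex F] in
/-- **Classes without fixed lines give a bounded sum**, for a kernel over a Siegel set. -/
theorem exists_tsum_bound_gen {X : Type*} [MulAction (GL (Fin 2) F) (X × (InfinitePlace F → H3))]
    {P : TwPG τ → Prop} (hup : ∀ γ, IsUpper γ.cls → ¬ P γ) (hinv : ∀ (δ : PG F) γ, P (δ • γ) ↔ P γ)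
    (V : TwPG τ → X × (InfinitePlace F → H3) → ℂ)
    (hV : ∀ (g : GL (Fin 2) F) γ p, V ((g : PG F) • γ) (g • p) = V γ p)
    {Ω : Finset X} {R c : ℝ} (hc : 0 < c)
    (hΩ : ∀ p : X × (InfinitePlace F → H3), ∃ g : GL (Fin 2) F, (g • p).1 ∈ Ω ∧
      (∀ w, ‖(H3.coord ((g • p).2 w)).1‖ ≤ R ∧ c ≤ (H3.coord ((g • p).2 w)).2) ∧
      ∀ w u, (H3.coord ((g • p).2 w)).2 ≤ R * (H3.coord ((g • p).2 u)).2)
    {B : ℝ} (hB : ∀ γ p, p.1 ∈ Ω → ‖V γ p‖ ≤ B)
    (hfin : ∀ A : ℝ, ∃ Γ : Finset (PG F), ∀ γ p, p.1 ∈ Ω →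
      (∀ w, coshd ((1 : GL (Fin 2) ℂ) : H3) (p.2 w) ≤ A) → V γ p ≠ 0 → γ.cls ∈ Γ)
    {κ : ℝ} (hκ : 0 ≤ κ) (φ φ' : X → ℝ)
    (hhigh : ∀ γ p, p.1 ∈ Ω → V γ p ≠ 0 → ∀ g : GL (Fin 2) F, (g : PG F) = γ.cls →
      (g : Matrix (Fin 2) (Fin 2) F) 1 0 ≠ 0 →
      1 ≤ κ * (φ p.1 / ∏ w, (H3.coord (p.2 w)).2 ^ 2) * (φ' p.1 / ∏ w, (H3.coord (p.2 w)).2 ^ 2)) :
    ∃ C : ℝ, ∀ p, ∑' γ, (if P γ then ‖V γ p‖ₑ else 0) ≤ ENNReal.ofReal C := by
  set R₁ := max R 1
  set n := Fintype.card (InfinitePlace F) with hn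
  set Φ : ℝ := 1 + ∑ ν ∈ Ω, (|φ ν| + |φ' ν|) with hΦ
  have hΦ0 : 0 < Φ := add_pos_of_pos_of_nonneg one_pos
    (Finset.sum_nonneg fun ν _ => add_nonneg (abs_nonneg _) (abs_nonneg _))
  have hΦle : ∀ ν ∈ Ω, φ ν * φ' ν ≤ Φ * Φ := fun ν hν => by
    have h := Finset.single_le_sum (f := fun ν => |φ ν| + |φ' ν|)
      (fun ν _ => add_nonneg (abs_nonneg _) (abs_nonneg _)) hν
    refine (le_abs_self _).trans
      ((abs_mul _ _).le.trans (mul_le_mul ?_ ?_ (abs_nonneg _) hΦ0.le)) <;>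
      linarith [abs_nonneg (φ ν), abs_nonneg (φ' ν)]
  set M : ℝ := Φ * (κ * (Φ / (c ^ 2) ^ n))
  have hM : 0 ≤ M := by positivity
  obtain ⟨Γ, hΓ⟩ := hfin ((R₁ ^ 2 + 1 + (R₁ * (1 + M) + c) ^ 2) / (2 * c))
  refine ⟨Γ.card * B, fun p₀ => ?_⟩
  obtain ⟨g₁, hg₁⟩ := hΩ p₀
  rw [← (MulAction.toPerm ((g₁ : PG F)⁻¹) : Equiv.Perm (TwPG τ)).tsum_eq]
  simp only [MulAction.toPerm_apply, hinv]
  have e : ∀ γ, V ((g₁ : PG F)⁻¹ • γ) p₀ = V γ (g₁ • p₀) := fun γ => by
    rw [← hV g₁, smul_inv_smul]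
  simp only [e]
  -- `p₀` has been moved into the Siegel set
  generalize g₁ • p₀ = p at hg₁ ⊢
  obtain ⟨hp1, hp2, hp3⟩ := hg₁
  set Q := ∏ w, (H3.coord (p.2 w)).2 ^ 2
  have hP0 : 0 < Q := Finset.prod_pos fun w _ => pow_pos (H3.coord_pos _) 2
  have hcP : (c ^ 2) ^ n ≤ Q := by
    rw [hn, ← Finset.card_univ, ← Finset.prod_const]
    exact Finset.prod_le_prod (fun w _ => sq_nonneg _) fun w _ => pow_le_pow_left₀ hc.le (hp2 w).2 2
  by_cases hQ : M < Q
  · -- only upper triangular classes are seen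
    refine le_of_eq_of_le (ENNReal.tsum_eq_zero.2 fun γ => ?_) zero_le
    rw [ite_eq_right_iff, enorm_eq_zero]
    intro hγ
    by_contra hne
    obtain ⟨g, hg⟩ := QuotientGroup.mk_surjective γ.cls
    refine hup γ ⟨g, hg, ?_⟩ hγ
    by_contra hne'
    have h1 := hhigh γ p hp1 hne g hg hne'
    rw [mul_assoc, div_mul_div_comm, ← mul_div_assoc, le_div_iff₀ (mul_pos hP0 hP0), one_mul] at h1
    have h2 : Q * (c ^ 2) ^ n ≤ κ * (Φ * Φ) :=
      ((mul_le_mul_of_nonneg_left hcP hP0.le).trans h1).trans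
        (mul_le_mul_of_nonneg_left (hΦle _ hp1) hκ)
    rw [← le_div_iff₀ (by positivity)] at h2
    exact absurd (h2.trans (le_of_eq (by simp only [M]; ring))) hQ.not_ge
  · -- a low point sees finitely many classes
    rw [not_lt] at hQ
    have hlow : ∀ w, coshd ((1 : GL (Fin 2) ℂ) : H3) (p.2 w)
        ≤ (R₁ ^ 2 + 1 + (R₁ * (1 + M) + c) ^ 2) / (2 * c) := by
      intro w
      refine coshd_base_le hc ((hp2 w).1.trans (le_max_left _ _)) (hp2 w).2 ?_
      have h1 : ((H3.coord (p.2 w)).2 ^ 2) ^ n ≤ ((R₁ * (1 + M)) ^ 2) ^ n := by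
        rw [mul_pow R₁, mul_pow]
        refine le_trans ?_
          (mul_le_mul_of_nonneg_left ((hQ.trans (le_add_of_nonneg_left zero_le_one)).trans
          ((le_self_pow₀ (le_add_of_nonneg_right hM) two_ne_zero).trans
            (le_self_pow₀ (one_le_pow₀ (le_add_of_nonneg_right hM)) Fintype.card_ne_zero)))
              (by positivity))
        rw [hn, ← Finset.card_univ, ← Finset.prod_const, ← Finset.prod_const,
          ← Finset.prod_mul_distrib]
        refine Finset.prod_le_prod (fun u _ => sq_nonneg _) fun u _ => ?_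
        rw [← mul_pow]
        exact pow_le_pow_left₀ (H3.coord_pos _).le
          ((hp3 w u).trans (mul_le_mul_of_nonneg_right (le_max_left _ _) (H3.coord_pos _).le)) 2
      exact ((sq_le_sq₀ (H3.coord_pos _).le (by positivity)).1
        ((pow_le_pow_iff_left₀ (sq_nonneg _) (sq_nonneg _) Fintype.card_ne_zero).1 h1)).trans
          (le_add_of_nonneg_right hc.le)
    rw [tsum_eq_sum (s := Γ.image (TwPG.of τ)) fun γ hγ => ?_]
    · refine (Finset.sum_le_sum (g := fun _ => ENNReal.ofReal B) fun γ _ => ?_).trans ?_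
      · split_ifs
        · rw [← ofReal_norm]; exact ENNReal.ofReal_le_ofReal (hB _ _ hp1)
        · exact zero_le
      · rw [Finset.sum_const, nsmul_eq_mul, ENNReal.ofReal_mul (Nat.cast_nonneg _),
          ENNReal.ofReal_natCast]
        gcongr
        exact Finset.card_image_le
    · rw [ite_eq_right_iff, enorm_eq_zero]
      intro _
      by_contra hne
      exact hγ (Finset.mem_image.2 ⟨γ.cls, hΓ γ p hp1 hlow hne, rfl⟩)

/-- **Classes without fixed lines give a bounded sum.** -/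
theorem exists_twVal_bound {P : TwPG τ → Prop} (hup : ∀ γ, IsUpper γ.cls → ¬ P γ)
    (hinv : ∀ (δ : PG F) γ, P (δ • γ) ↔ P γ) :
    ∃ C : ℝ, ∀ p : Pt F S, ∑' γ, (if P γ then ‖twVal K hS γ p‖ₑ else 0) ≤ ENNReal.ofReal C := by
  obtain ⟨Ω, R, c, hc, hΩ⟩ := exists_siegel (F := F) (S := S)
  obtain ⟨κ, hκ1, hκ⟩ := exists_ht_comparable K Ω
  obtain ⟨B, -, hB⟩ := exists_val_bound K Ω
  refine exists_tsum_bound_gen hup hinv (twVal K hS) (fun g γ p =>
    twVal_smul K hS (g : PG F) γ p) hc hΩ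
    (fun γ p hp => hB _ _ hp) (fun A => ⟨Ω.biUnion fun ν =>
      (K.finite_seen ν (FinPt.amap hS ν) A A).toFinset, fun γ p hp hA hne => ?_⟩)
    (zero_le_one.trans hκ1) phiInf (fun ν => phiInf (FinPt.amap hS ν))
    fun γ p hp hne g hg h10 => ?_
  · exact Finset.mem_biUnion.2 ⟨p.1, hp, (Set.Finite.mem_toFinset _).2 ⟨p.2, (Pt.amap hS p).2, hA,
      fun w => (coord_extH p.2 _).2.le.trans (hA _), hne⟩⟩
  · rw [twVal, ← hg, PG.mk_smul] at hne
    obtain ⟨h1, -⟩ := hκ p _ hp hne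
    rw [ht_smul eInf_ne_zero, ht_eInf p] at h1
    refine (one_le_ht_mul (eInf_vecMul_ne h10) eInf_ne_zero
        (by simp [eInf, Matrix.vecMul, dotProduct, h10]) (Pt.amap hS p)).trans
      (mul_le_mul h1 (le_of_eq ?_) (ht_pos eInf_ne_zero _).le
        ((ht_pos (eInf_vecMul_ne h10) _).le.trans h1))
    rw [ht_eInf, prod_coord_amap]; rfl

/-- Absolute integrability over a domain. -/
theorem lintegral_twVal_lt_top {P : TwPG τ → Prop} (hup : ∀ γ, IsUpper γ.cls → ¬ P γ)
    (hinv : ∀ (δ : PG F) γ, P (δ • γ) ↔ P γ) {D : Set (Pt F S)}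
    (hD : IsFundamentalDomain (PG F) D ptMeasure) :
    ∫⁻ p in D, ∑' γ, (if P γ then ‖twVal K hS γ p‖ₑ else 0) ∂ptMeasure < ∞ := by
  obtain ⟨C, hC⟩ := exists_twVal_bound K hS hup hinv
  refine lt_of_le_of_lt (lintegral_mono fun p => hC p) ?_
  rw [setLIntegral_const]
  exact ENNReal.mul_lt_top ENNReal.ofReal_lt_top (domain_finite hD).lt_top

/-- The restricted sum is integrable. -/
theorem integrableOn_twVal_sum {P : TwPG τ → Prop} (hup : ∀ γ, IsUpper γ.cls → ¬ P γ)
    (hinv : ∀ (δ : PG F) γ, P (δ • γ) ↔ P γ) {D : Set (Pt F S)}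
    (hD : IsFundamentalDomain (PG F) D ptMeasure) :
    IntegrableOn (fun p => ∑' γ, if P γ then twVal K hS γ p else 0) D ptMeasure := by
  obtain ⟨C, hC⟩ := exists_twVal_bound K hS hup hinv
  have hs : ∀ p, Summable fun γ => if P γ then twVal K hS γ p else 0 := fun p => by
    refine Summable.of_norm ?_
    have h := ne_top_of_le_ne_top ENNReal.ofReal_ne_top (hC p)
    rw [tsum_congr fun γ => show (if P γ then ‖twVal K hS γ p‖ₑ else 0)
      = (‖if P γ then twVal K hS γ p else 0‖₊ : ℝ≥0∞) by split_ifs <;> simp [enorm_eq_nnnorm]] at h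
    exact (NNReal.summable_coe.2 (ENNReal.tsum_coe_ne_top_iff_summable.1 h)).congr
      fun γ => coe_nnnorm _
  have hm : Measurable fun p => ∑' γ, if P γ then twVal K hS γ p else 0 := by
    refine measurable_of_tendsto_metrizable' (u := (atTop : Filter (Finset (TwPG τ))))
      (f := fun s p => ∑ γ ∈ s, if P γ then twVal K hS γ p else 0)
      (fun s => Finset.measurable_fun_sum _ fun γ _ => ?_) (tendsto_pi_nhds.2 fun p =>
        (hs p).hasSum)
    by_cases h : P γ
    · simpa [h] using measurable_twVal K hS γ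
    · simp [h]
  refine IntegrableOn.of_bound (domain_finite hD).lt_top hm.aestronglyMeasurable (max C 0)
    (Eventually.of_forall fun p => ?_)
  have h1 : ‖∑' γ, if P γ then twVal K hS γ p else 0‖ₑ ≤ ENNReal.ofReal C :=
    enorm_tsum_le_tsum_enorm.trans
      ((ENNReal.tsum_le_tsum fun γ => by split_ifs <;> simp).trans (hC p))
  rw [← ofReal_norm] at h1
  exact (ENNReal.ofReal_le_ofReal_iff (le_max_right _ _)).1
    (h1.trans (ENNReal.ofReal_le_ofReal (le_max_left _ _)))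

end Fermat.LT
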