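import Fermat.Agent.LT.GlobTorus
import Fermat.Agent.LT.EllBound

/-!
# The elliptic sums as sums over tori

Every elliptic class is in exactly two ways a translate of a regular torus class by a coset of the
torus; every twisted one likewise with regular norm classes.
-/

set_option autoImplicit false
open MeasureTheory Set
open scoped Matrix

namespace Fermat.LT

section Reps

variable {F : Type*} [Field F]

/-- Squares of units. -/
noncomputable abbrev sqU (F : Type*) [Field F] : Subgroup Fˣ := (powMonoidHom 2 : Fˣ →* Fˣ).range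

/-- Chosen non-square representatives of square classes. -/
def IsSqRep (D : F) : Prop :=
  ¬ IsSquare D ∧ ∃ u : Fˣ, D = u ∧ ((u : Fˣ ⧸ sqU F)).out = u

/-- A representative of a non-square class is not zero. -/
lemma IsSqRep.ne_zero {D : F} (h : IsSqRep D) : D ≠ 0 := fun e => h.1 (e ▸ ⟨0, (mul_zero 0).symm⟩)

/-- Every non-square is a representative times a square. -/
lemma exists_isSqRep {D₀ : F} (h0 : D₀ ≠ 0) (hns : ¬ IsSquare D₀) :
    ∃ D c, IsSqRep D ∧ c ≠ 0 ∧ D₀ = D * (c * c) := by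
  set u := ((Units.mk0 D₀ h0 : Fˣ) : Fˣ ⧸ sqU F).out with hu
  obtain ⟨c, hc⟩ := QuotientGroup.eq.1 (QuotientGroup.out_eq' ((Units.mk0 D₀ h0 : Fˣ) : Fˣ ⧸ sqU F))
  have e : D₀ = (u : F) * ((c : F) * c) := by
    have := congrArg (fun x : Fˣ => (x : F)) (eq_mul_of_inv_mul_eq hc.symm)
    simpa [powMonoidHom_apply, sq] using this
  refine ⟨u, c, ⟨fun ⟨r, hr⟩ => hns ⟨r * c, by rw [e, hr]; ring⟩, u, rfl, ?_⟩, c.ne_zero, e⟩
  rw [hu, QuotientGroup.out_eq']

/-- Two chosen representatives of the same square class coincide. -/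
lemma IsSqRep.unique {D D' : F} (h : IsSqRep D) (h' : IsSqRep D') {r : F} (hr : r ≠ 0)
    (e : D' = D * (r * r)) : D' = D := by
  obtain ⟨u, rfl, hu⟩ := h.2
  obtain ⟨u', rfl, hu'⟩ := h'.2
  have : (u : Fˣ ⧸ sqU F) = (u' : Fˣ ⧸ sqU F) := by
    refine QuotientGroup.eq.2 ⟨Units.mk0 r hr, Units.ext ?_⟩
    simp [powMonoidHom_apply, sq, e]
  rw [← hu, ← hu', this]

end Reps

section Plain

variable {F : Type*} [Field F] [NumberField F]

omit [NumberField F] in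
/-- Two matrices have the same projective class exactly when they differ by a scalar. -/
lemma PG.eq_iff {g h : GL (Fin 2) F} : (g : PG F) = h ↔ ∃ c : Fˣ, h = scal c * g := by
  rw [QuotientGroup.eq]
  constructor
  · rintro ⟨c, hc⟩
    refine ⟨c, ?_⟩
    rw [show h = g * (g⁻¹ * h) by group, ← hc, scal_comm]
    rfl
  · rintro ⟨c, rfl⟩
    exact ⟨c, by rw [scal_comm, inv_mul_cancel_left]; rfl⟩

omit [NumberField F] in
/-- Scalars do not change the square class of the discriminant. -/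
lemma isSquare_disc2_scal (c : Fˣ) (g : GL (Fin 2) F) :
    IsSquare (disc2 ((scal c * g : GL (Fin 2) F) : Matrix (Fin 2) (Fin 2) F))
      ↔ IsSquare (disc2 (g : Matrix (Fin 2) (Fin 2) F)) := by
  rw [disc2_scal, isSquare_mul_sq_iff c.ne_zero]

omit [NumberField F] in
/-- Elliptic means non-square discriminant. -/
lemma PG.isEll_iff (g : GL (Fin 2) F) :
    PG.IsEll (g : PG F) ↔ ¬ IsSquare (disc2 (g : Matrix (Fin 2) (Fin 2) F)) := by
  obtain ⟨c, hc⟩ := PG.eq_iff.1 (QuotientGroup.out_eq' (g : PG F)).symm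
  rw [PG.IsEll, hc, isSquare_disc2_scal]

omit [NumberField F] in
/-- An upper triangular class is not elliptic. -/
lemma PG.not_isEll_of_upper {γ : PG F} (h : IsUpper γ) : ¬ γ.IsEll := by
  obtain ⟨g, rfl, h10⟩ := h
  rw [PG.isEll_iff, not_not]
  exact ⟨(g : Matrix (Fin 2) (Fin 2) F) 0 0 - (g : Matrix (Fin 2) (Fin 2) F) 1 1, by
    rw [disc2, Matrix.trace_fin_two, Matrix.det_fin_two, h10]; ring⟩

omit [NumberField F] in
/-- The identity fixes classes. -/
lemma PG.amap_refl (γ : PG F) : PG.amap (RingEquiv.refl F) γ = γ := by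
  obtain ⟨g, rfl⟩ := QuotientGroup.mk_surjective γ
  rfl

variable (F) in
/-- Indices of regular torus classes: a representative `D` of the square classes and a regular class
in its torus. -/
def EllIdx : Type _ :=
  {ξ : F × PG F // IsSqRep ξ.1 ∧ ∃ g : GL (Fin 2) F, (g : PG F) = ξ.2 ∧ TReg ξ.1 g}

/-- There are countably many indices. -/
instance instCountableEllIdx : Countable (EllIdx F) := Subtype.countable

/-- The torus of an elliptic index, in `PGL₂(F)`. -/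
noncomputable def EllIdx.grp (ξ : EllIdx F) : Subgroup (PG F) := pTor F ξ.1.1

/-- The class of an elliptic index, as an untwisted `TwPG`. -/
def EllIdx.base (ξ : EllIdx F) : TwPG (RingEquiv.refl F) := TwPG.of _ ξ.1.2

/-- The class is elliptic. -/
def EllP (γ : TwPG (RingEquiv.refl F)) : Prop := γ.cls.IsEll

omit [NumberField F] in
/-- The elliptic condition is invariant under conjugation. -/
lemma ellP_smul (δ : PG F) (γ : TwPG (RingEquiv.refl F)) : EllP (δ • γ) ↔ EllP γ := by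
  obtain ⟨h, rfl⟩ := QuotientGroup.mk_surjective δ
  obtain ⟨g, hg⟩ := QuotientGroup.mk_surjective γ.cls
  rw [EllP, EllP, TwPG.cls_smul, PG.amap_refl, ← hg, ← QuotientGroup.mk_inv, ← QuotientGroup.mk_mul,
    ← QuotientGroup.mk_mul, PG.isEll_iff, PG.isEll_iff, disc2_conj]

/-- Conjugates of regular torus classes are elliptic. -/
lemma ellP_pairPt (p : Σ ξ : EllIdx F, PG F ⧸ ξ.grp) : EllP (pairPt EllIdx.grp EllIdx.base p) := by
  obtain ⟨⟨⟨D, γ⟩, hD, g, hg, a, b, hb, e⟩, q⟩ := p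
  change EllP (q.out • TwPG.of _ γ)
  rw [ellP_smul, EllP, TwPG.cls_of, show γ = (g : PG F) from hg.symm, PG.isEll_iff, e, disc2_tmat,
    mul_comm D, isSquare_mul_sq_iff (mul_ne_zero two_ne_zero hb)]
  exact hD.1

/-- **Exactly two ways.** Every elliptic class arises from exactly two pairs of a torus index and a
coset of its torus. -/
theorem ncard_pairs {γ : TwPG (RingEquiv.refl F)} (hγ : EllP γ) :
    {p | pairPt EllIdx.grp EllIdx.base p = γ}.ncard = 2 := by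
  obtain ⟨g, hg⟩ := QuotientGroup.mk_surjective γ.cls
  have hns : ¬ IsSquare (disc2 (g : Matrix (Fin 2) (Fin 2) F)) := by
    rw [← PG.isEll_iff, hg]; exact hγ
  obtain ⟨D, c, hD, hc, hDc⟩ := exists_isSqRep (fun h => hns ⟨0, by rw [h, mul_zero]⟩) hns
  obtain ⟨h, hreg⟩ := exists_conj_tmat two_ne_zero hns hc hDc
  set x := h * g * h⁻¹ with hx
  obtain ⟨a, b, hb, ex⟩ := id hreg
  have hreg' : TReg D (wInv * x * wInv⁻¹) := ⟨_, _, neg_ne_zero.2 hb, wInv_conj ex⟩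
  set ξ₀ : EllIdx F := ⟨(D, (x : PG F)), hD, x, rfl, hreg⟩
  set ξ₁ : EllIdx F := ⟨(D, ((wInv * x * wInv⁻¹ : GL (Fin 2) F) : PG F)), hD, _, rfl, hreg'⟩
  set p₀ : Σ ξ : EllIdx F, PG F ⧸ ξ.grp := ⟨ξ₀, ((h⁻¹ : GL (Fin 2) F) : PG F)⟩
  set p₁ : Σ ξ : EllIdx F, PG F ⧸ ξ.grp := ⟨ξ₁, ((h⁻¹ * wInv⁻¹ : GL (Fin 2) F) : PG F)⟩
  -- the value at a coset
  have hval : ∀ (ξ : EllIdx F) (k : GL (Fin 2) F) (y : GL (Fin 2) F), (y : PG F) = ξ.1.2 →
      TReg ξ.1.1 y →
      (pairPt EllIdx.grp EllIdx.base ⟨ξ, ((k : PG F) : PG F ⧸ ξ.grp)⟩).cls =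
          ((k * y * k⁻¹ : GL (Fin 2) F) : PG F) := by
    intro ξ k y hy hyreg
    obtain ⟨⟨_, ⟨t, ht, rfl⟩⟩, hout⟩ := QuotientGroup.mk_out_eq_mul ξ.grp (k : PG F)
    change (((k : PG F) : PG F ⧸ ξ.grp).out • EllIdx.base ξ).cls = _
    rw [hout, TwPG.cls_smul, PG.amap_refl]
    change (k : PG F) * (t : PG F) * ξ.1.2 * ((k : PG F) * (t : PG F))⁻¹ = _
    rw [← hy, ← QuotientGroup.mk_mul, ← QuotientGroup.mk_inv, ← QuotientGroup.mk_mul,
      ← QuotientGroup.mk_mul,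
      mul_inv_rev, mul_assoc k t, tTor_comm ht hyreg.mem, show k * (y * t) * (t⁻¹ * k⁻¹) = k *
        y * k⁻¹ by group]
  have h0 : pairPt EllIdx.grp EllIdx.base p₀ = γ := by
    change (pairPt EllIdx.grp EllIdx.base p₀).cls = γ.cls
    rw [hval ξ₀ h⁻¹ x rfl hreg, ← hg, hx]
    congr 1; group
  have h1 : pairPt EllIdx.grp EllIdx.base p₁ = γ := by
    change (pairPt EllIdx.grp EllIdx.base p₁).cls = γ.cls
    rw [hval ξ₁ (h⁻¹ * wInv⁻¹) (wInv * x * wInv⁻¹) rfl hreg', ← hg, hx]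
    congr 1; group
  have hne : p₀ ≠ p₁ := by
    intro e
    obtain ⟨e1, e2⟩ := Sigma.mk.inj e
    have e2' : (((h⁻¹ : GL (Fin 2) F) : PG F) : PG F ⧸ pTor F D)
        = (((h⁻¹ * wInv⁻¹ : GL (Fin 2) F) : PG F) : PG F ⧸ pTor F D) := eq_of_heq e2
    rw [QuotientGroup.eq, ← QuotientGroup.mk_inv, ← QuotientGroup.mk_mul, mem_pTor_iff, inv_inv,
      mul_inv_cancel_left, inv_eq_of_mul_eq_one_right (wInv_mul_self (F := F))] at e2'
    exact wInv_notMem two_ne_zero D e2'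
  -- conversely, conjugators to `x` lie in the normaliser of the torus
  rw [show {p | pairPt EllIdx.grp EllIdx.base p = γ} = {p₀, p₁} from
    Set.eq_of_subset_of_subset ?_ ?_, Set.ncard_pair hne]
  · rintro ⟨⟨⟨D', y⟩, hD', y', hy, hy'⟩, q⟩ hp
    change (y' : PG F) = y at hy
    subst hy
    obtain ⟨k', rfl⟩ := QuotientGroup.mk_surjective q
    obtain ⟨k, rfl⟩ := QuotientGroup.mk_surjective k'
    have hp' := congrArg TwPG.cls (show pairPt EllIdx.grp EllIdx.base _ = γ from hp)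
    rw [hval ⟨(D', _), hD', y', rfl, hy'⟩ k y' rfl hy', ← hg] at hp'
    obtain ⟨e, he⟩ := PG.eq_iff.1 hp'
    have hxy : x = scal e * ((h * k) * y' * (h * k)⁻¹) := by
      rw [hx, he, mul_inv_rev]
      simp only [← mul_assoc, scal_comm e h]
    obtain ⟨r, hr, hDr⟩ := class_unique two_ne_zero hy' hreg hxy
    obtain rfl : D = D' := hD'.unique hD hr hDr
    have hmem : h * k * y' * (h * k)⁻¹ ∈ tTor D := by
      rw [show h * k * y' * (h * k)⁻¹ = (scal e)⁻¹ * x by rw [hxy, inv_mul_cancel_left]]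
      exact mul_mem (inv_mem (scal_mem_tTor D e)) hreg.mem
    rcases normalizer_cases two_ne_zero hD.ne_zero hy' hmem with hk | hk
    · left
      have e1 : (⟨(D, (y' : PG F)), hD', y', rfl, hy'⟩ : EllIdx F) = ξ₀ := by
        refine Subtype.ext (Prod.ext rfl (PG.eq_iff.2 ⟨e, ?_⟩))
        rw [hxy, tTor_comm hk hy'.mem, mul_inv_cancel_right]
      refine Sigma.ext e1 (heq_of_eq ?_)
      change ((k : PG F) : PG F ⧸ pTor F D) = (((h⁻¹ : GL (Fin 2) F) : PG F) : PG F ⧸ pTor F D)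
      rw [QuotientGroup.eq, ← QuotientGroup.mk_inv, ← QuotientGroup.mk_mul, mem_pTor_iff,
        show k⁻¹ * h⁻¹ = (h * k)⁻¹ by group]
      exact inv_mem hk
    · right
      have e1 : (⟨(D, (y' : PG F)), hD', y', rfl, hy'⟩ : EllIdx F) = ξ₁ := by
        refine Subtype.ext (Prod.ext rfl (PG.eq_iff.2 ⟨e, ?_⟩))
        rw [hxy, ← mul_assoc, ← scal_comm, mul_assoc (scal e), mul_assoc (scal e),
          show wInv * (h * k * y' * (h * k)⁻¹) * wInv⁻¹ =
            wInv * (h * k) * y' * (wInv * (h * k))⁻¹ by group,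
          tTor_comm hk hy'.mem, mul_inv_cancel_right]
      refine Set.mem_singleton_iff.2 (Sigma.ext e1 (heq_of_eq ?_))
      change ((k : PG F) : PG F ⧸ pTor F D) =
        (((h⁻¹ * wInv⁻¹ : GL (Fin 2) F) : PG F) : PG F ⧸ pTor F D)
      rw [QuotientGroup.eq, ← QuotientGroup.mk_inv, ← QuotientGroup.mk_mul, mem_pTor_iff,
        show k⁻¹ * (h⁻¹ * wInv⁻¹) = (wInv * (h * k))⁻¹ by group]
      exact inv_mem hk
  · rintro p (rfl | rfl) <;> assumption

end Plain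

section Twisted

variable {K L : Type} [Field K] [NumberField K] [Field L] [NumberField L] [Algebra K L]
  {σ : L ≃ₐ[K] L}

variable (K L) in
/-- Classes over `K` seen over `L`. -/
noncomputable def PG.iMap : PG K →* PG L :=
  QuotientGroup.map (scalSub K) (scalSub L) (iGL K L) fun g hg => by
    obtain ⟨c, rfl⟩ := hg
    refine ⟨Units.map (algebraMap K L).toMonoidHom c, Units.ext (Matrix.ext fun i j => ?_)⟩
    fin_cases i <;> fin_cases j <;> simp

omit [NumberField K] [NumberField L] in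
/-- The extension of the class of a matrix. -/
@[simp] lemma PG.iMap_mk (g : GL (Fin 2) K) : PG.iMap K L (g : PG K) = (iGL K L g : PG L) := rfl

omit [NumberField K] [NumberField L] in
/-- Projective classes over `K` embed into those over `L`. -/
lemma PG.iMap_injective : Function.Injective (PG.iMap K L) := by
  refine (injective_iff_map_eq_one _).2 fun γ h => ?_
  obtain ⟨g, rfl⟩ := QuotientGroup.mk_surjective γ
  rw [PG.iMap_mk, QuotientGroup.eq_one_iff] at h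
  obtain ⟨c, hc⟩ := h
  have he : ∀ i j, algebraMap K L ((g : Matrix (Fin 2) (Fin 2) K) i j) =
      Matrix.scalar (Fin 2) (c : L) i j :=
    fun i j => by rw [← scal_coe];
                    exact (congrFun
                    (congrFun (congrArg (fun x : GL (Fin 2) L =>
                    (x : Matrix (Fin 2) (Fin 2) L)) hc) i) j).symm
  have h00 : (g : Matrix (Fin 2) (Fin 2) K) 0 0 ≠ 0 := fun e => by
    have := he 0 0; rw [e, map_zero] at this; simp at this; exact c.ne_zero this.symm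
  rw [QuotientGroup.eq_one_iff]
  refine ⟨Units.mk0 _ h00, Units.ext (Matrix.ext fun i j => (algebraMap K L).injective ?_)⟩
  change algebraMap K L (Matrix.scalar (Fin 2) ((g : Matrix (Fin 2) (Fin 2) K) 0 0) i j) = _
  rw [he i j]
  fin_cases i <;> fin_cases j <;> simp [he 0 0]

variable (σ) in
/-- The torus class is a twisted norm. -/
def IsNormCls (D : K) (γ : PG K) : Prop :=
  ∃ x : GL (Fin 2) L, x ∈ tTor (algebraMap K L D) ∧
    ((twistN (σ : L ≃+* L) x : GL (Fin 2) L) : PG L) = PG.iMap K L γ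

variable (σ) in
/-- Indices of regular torus classes of `K` which are norm classes from `L`. -/
def TwIdx : Type _ := {ξ : EllIdx K // IsNormCls σ ξ.1.1 ξ.1.2}

/-- There are countably many twisted indices. -/
instance instCountableTwIdx : Countable (TwIdx σ) := Subtype.countable

/-- Its torus. -/
noncomputable def TwIdx.grp (ξ : TwIdx σ) : Subgroup (PG L) := (pTor K ξ.1.1.1).map (PG.iMap K L)

/-- A chosen element with that norm. -/
noncomputable def TwIdx.elt (ξ : TwIdx σ) : GL (Fin 2) L := ξ.2.choose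

omit [NumberField K] [NumberField L] in
/-- The chosen element lies in the torus. -/
lemma TwIdx.elt_mem (ξ : TwIdx σ) : ξ.elt ∈ tTor (algebraMap K L ξ.1.1.1) := ξ.2.choose_spec.1

omit [NumberField K] [NumberField L] in
/-- The twisted norm of the chosen element is the small class. -/
lemma TwIdx.twistN_elt (ξ : TwIdx σ) :
    ((twistN (σ : L ≃+* L) ξ.elt : GL (Fin 2) L) : PG L) = PG.iMap K L ξ.1.1.2 := ξ.2.choose_spec.2

/-- The twisted class on `L` with the norm of the index. -/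
noncomputable def TwIdx.base (ξ : TwIdx σ) : TwPG (σ : L ≃+* L) := TwPG.of _ (ξ.elt : PG L)

variable (σ) in
/-- The twisted elliptic condition. -/
def TwP (γ : TwPG (σ : L ≃+* L)) : Prop := γ.cls.IsTwEll (σ : L ≃+* L)

variable (hc : Cyc3 K L σ)
include hc

omit hc [NumberField K] [NumberField L] in
/-- A class is twisted elliptic exactly when the discriminant of its norm is not a square. -/
lemma isTwEll_iff (g : GL (Fin 2) L) : PG.IsTwEll (σ : L ≃+* L) (g : PG L)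
    ↔ ¬ IsSquare (disc2 (twistN (σ : L ≃+* L) g : Matrix (Fin 2) (Fin 2) L)) := by
  obtain ⟨c, hc'⟩ := PG.eq_iff.1 (QuotientGroup.out_eq' (g : PG L)).symm
  obtain ⟨d, hd⟩ := twistN_scal (σ := σ) c g
  rw [PG.IsTwEll, hc', hd, isSquare_disc2_scal]

/-- The twisted elliptic condition is invariant under twisted conjugation. -/
lemma twP_smul (δ : PG L) (γ : TwPG (σ : L ≃+* L)) : TwP σ (δ • γ) ↔ TwP σ γ := by
  obtain ⟨h, rfl⟩ := QuotientGroup.mk_surjective δ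
  obtain ⟨g, hg⟩ := QuotientGroup.mk_surjective γ.cls
  rw [TwP, TwP, TwPG.cls_smul, ← hg, PG.amap_mk, ← QuotientGroup.mk_inv, ← QuotientGroup.mk_mul,
    ← QuotientGroup.mk_mul, isTwEll_iff, isTwEll_iff, twistN_cobound hc, disc2_conj]

omit hc [NumberField K] [NumberField L] in
/-- An upper triangular class is not twisted elliptic. -/
lemma not_twP_of_upper {γ : TwPG (σ : L ≃+* L)} (h : IsUpper γ.cls) : ¬ TwP σ γ := by
  obtain ⟨g, hg, h10⟩ := h
  rw [TwP, ← hg, isTwEll_iff, not_not]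
  have h1 : ∀ {g : GL (Fin 2) L}, (g : Matrix (Fin 2) (Fin 2) L) 1 0 = 0 →
      (mapGL (σ : L ≃+* L) g : Matrix (Fin 2) (Fin 2) L) 1 0 = 0 := fun {g} h => by
    rw [coe_mapGL, Matrix.map_apply, h, map_zero]
  have hN : (twistN (σ : L ≃+* L) g : Matrix (Fin 2) (Fin 2) L) 1 0 = 0 := by
    simp only [twistN, Units.val_mul, Matrix.mul_apply, Fin.sum_univ_two, h10, h1 h10, h1 (h1 h10)]
    ring
  exact ⟨(twistN (σ : L ≃+* L) g : Matrix (Fin 2) (Fin 2) L) 0 0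
    - (twistN (σ : L ≃+* L) g : Matrix (Fin 2) (Fin 2) L) 1 1, by
    rw [disc2, Matrix.trace_fin_two, Matrix.det_fin_two, hN]; ring⟩

/-- Twisted conjugates of regular norm classes are twisted elliptic. -/
lemma twP_pairPt (p : Σ ξ : TwIdx σ, PG L ⧸ ξ.grp) : TwP σ (pairPt TwIdx.grp TwIdx.base p) := by
  obtain ⟨ξ, q⟩ := p
  change TwP σ (q.out • ξ.base)
  rw [twP_smul hc, TwP, TwIdx.base, TwPG.cls_of, isTwEll_iff]
  obtain ⟨hD, g, hg, a, b, hb, e⟩ := ξ.1.2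
  have hN := ξ.twistN_elt
  rw [← hg, PG.iMap_mk] at hN
  obtain ⟨c, hc'⟩ := PG.eq_iff.1 hN.symm
  rw [hc', isSquare_disc2_scal, iGL_tmat e, disc2_tmat, mul_comm (algebraMap K L _),
    isSquare_mul_sq_iff (mul_ne_zero two_ne_zero ((map_ne_zero _).2 hb))]
  exact notSquare_algebraMap hc hD.1

/-- An element of the large torus fixing `ξ` under twisted conjugation lies in the small torus. -/
lemma mem_grp_of_fix {ξ : TwIdx σ} {s : GL (Fin 2) L} (hs : s ∈ tTor (algebraMap K L ξ.1.1.1))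
    {e : Lˣ} (h : s * ξ.elt * (mapGL (σ : L ≃+* L) s)⁻¹ = scal e * ξ.elt) : (s : PG L) ∈ ξ.grp := by
  rw [mul_assoc, tTor_comm ξ.elt_mem (inv_mem (mapGL_mem_tTor (σ := σ) hs)), ← mul_assoc] at h
  have h' := mul_right_cancel h
  rw [mul_inv_eq_iff_eq_mul] at h'
  have hfix : mapGL (σ : L ≃+* L) s = scal e⁻¹ * s := by
    conv_rhs => rw [h']
    rw [← mul_assoc, ← scal_mul, inv_mul_cancel,
      show (scal (1 : Lˣ) : GL (Fin 2) L) = 1 by simp [scal], one_mul]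
  obtain ⟨d, γ, hγ, hd⟩ := exists_of_mapGL_eq hc ξ.1.2.1.1 hs hfix
  refine ⟨(γ : PG K), ⟨γ, hγ, rfl⟩, ?_⟩
  rw [PG.iMap_mk]
  exact PG.eq_iff.2 ⟨d, hd⟩

/-- The index of a torus element with regular norm. -/
private lemma exists_twIdx {D : K} (hD : IsSqRep D) {x : GL (Fin 2) L}
    (hx : x ∈ tTor (algebraMap K L D))
    (hxreg : TReg (algebraMap K L D) (twistN (σ : L ≃+* L) x)) :
    ∃ (ξ : TwIdx σ) (d : Lˣ) (t : GL (Fin 2) L), ξ.1.1.1 = D ∧ t ∈ tTor (algebraMap K L D) ∧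
      x = scal d * (t * ξ.elt * (mapGL (σ : L ≃+* L) t)⁻¹) ∧
      ((twistN (σ : L ≃+* L) x : GL (Fin 2) L) : PG L) = PG.iMap K L ξ.1.1.2 := by
  obtain ⟨γ, hγ, hN⟩ := exists_twistN hc hx
  obtain ⟨a, b, e⟩ := id hγ
  have hb : b ≠ 0 := fun h0 => by
    obtain ⟨a', b', hb', e'⟩ := hxreg
    rw [hN, iGL_tmat e, h0, map_zero] at e'
    exact hb' (tmat_inj e').2.symm
  let ξ : TwIdx σ := ⟨⟨(D, (γ : PG K)), hD, γ, rfl, a, b, hb, e⟩, x, hx, by rw [hN]; rfl⟩
  have hNξ : ((twistN (σ : L ≃+* L) ξ.elt : GL (Fin 2) L) : PG L) =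
      (twistN (σ : L ≃+* L) x : GL (Fin 2) L) := by
    rw [ξ.twistN_elt, hN]; rfl
  obtain ⟨c', hc'⟩ := PG.eq_iff.1 hNξ
  obtain ⟨d, t, ht, hd⟩ := cobound_of_twistN_eq hc hD.1 hx ξ.elt_mem hc'
  exact ⟨ξ, d, t, rfl, ht, hd, by rw [hN]; rfl⟩

omit hc [NumberField K] [NumberField L] in
/-- `wInv` is fixed by `σ`. -/
private lemma mapGL_wInv : mapGL (σ : L ≃+* L) (wInv : GL (Fin 2) L) = wInv := by
  refine Units.ext (Matrix.ext fun i j => ?_)
  rw [coe_mapGL, Matrix.map_apply]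
  fin_cases i <;> fin_cases j <;> simp [wInv]

omit hc [NumberField K] [NumberField L] in
/-- The class at a coset of a torus. -/
private lemma cls_twPairPt (ξ : TwIdx σ) (k : GL (Fin 2) L) :
    (pairPt TwIdx.grp TwIdx.base ⟨ξ, ((k : PG L) : PG L ⧸ ξ.grp)⟩).cls
      = ((k * ξ.elt * (mapGL (σ : L ≃+* L) k)⁻¹ : GL (Fin 2) L) : PG L) := by
  obtain ⟨⟨_, ⟨_, ⟨t, ht, rfl⟩, rfl⟩⟩, hout⟩ := QuotientGroup.mk_out_eq_mul ξ.grp (k : PG L)
  change (((k : PG L) : PG L ⧸ ξ.grp).out • ξ.base).cls = _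
  rw [hout, TwPG.cls_smul, map_mul, PG.amap_mk]
  change (k : PG L) * (iGL K L t : PG L) * (ξ.elt : PG L)
    * ((mapGL (σ : L ≃+* L) k : PG L) * PG.amap (σ : L ≃+* L) (iGL K L t : PG L))⁻¹ = _
  rw [PG.amap_mk, mapGL_iGL, ← QuotientGroup.mk_mul, ← QuotientGroup.mk_mul, ← QuotientGroup.mk_mul,
    ← QuotientGroup.mk_inv, ← QuotientGroup.mk_mul, mul_inv_rev, mul_assoc k,
    tTor_comm (show iGL K L t ∈ tTor (algebraMap K L ξ.1.1.1) from
      let ⟨a, b, e⟩ := ht; ⟨_, _, iGL_tmat e⟩) ξ.elt_mem]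
  congr 1; group

omit hc [NumberField K] in
/-- The two cosets over a class are different. -/
private lemma twPair_ne {D : K} {ξ₀ ξ₁ : TwIdx σ} (hξ₀ : ξ₀.1.1.1 = D) {g t₀ t₁ : GL (Fin 2) L}
    (ht₀ : t₀ ∈ tTor (algebraMap K L D)) (ht₁ : t₁ ∈ tTor (algebraMap K L D)) :
    (⟨ξ₀, ((g⁻¹ * t₀ : GL (Fin 2) L) : PG L)⟩ : Σ ξ : TwIdx σ, PG L ⧸ ξ.grp)
      ≠ ⟨ξ₁, ((g⁻¹ * wInv⁻¹ * t₁ : GL (Fin 2) L) : PG L)⟩ := by
  intro e
  obtain ⟨e1, e2⟩ := Sigma.mk.inj e
  subst e1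
  have e2' := eq_of_heq e2
  rw [QuotientGroup.eq, ← QuotientGroup.mk_inv, ← QuotientGroup.mk_mul] at e2'
  obtain ⟨_, ⟨t, ht, rfl⟩, hte⟩ := e2'
  obtain ⟨c', hc'⟩ := PG.eq_iff.1 (show ((iGL K L t : GL (Fin 2) L) : PG L) = _ from hte)
  have hT : iGL K L t ∈ tTor (algebraMap K L D) := by
    obtain ⟨a, b, e⟩ := ht
    exact ⟨algebraMap K L a, algebraMap K L b, by rw [iGL_tmat e, hξ₀]⟩
  refine wInv_notMem two_ne_zero (algebraMap K L D) ?_
  rw [← inv_eq_of_mul_eq_one_right (wInv_mul_self (F := L)),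
    show (wInv : GL (Fin 2) L)⁻¹ = t₀ * ((g⁻¹ * t₀)⁻¹ * (g⁻¹ * wInv⁻¹ * t₁)) * t₁⁻¹ by group, hc']
  exact mul_mem (mul_mem ht₀ (mul_mem (scal_mem_tTor _ _) hT)) (inv_mem ht₁)

/-- An index conjugate into the torus of `D` has discriminant class `D`. -/
private lemma regular_of_conj {D : K} (hD : IsSqRep D) {x' : GL (Fin 2) L}
    (hreg : TReg (algebraMap K L D) (twistN (σ : L ≃+* L) x')) (ξ : TwIdx σ) {m : GL (Fin 2) L}
    {e : Lˣ} (hxm : x' = scal e * (m * ξ.elt * (mapGL (σ : L ≃+* L) m)⁻¹)) :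
    D = ξ.1.1.1 ∧ TReg (algebraMap K L D) (twistN (σ : L ≃+* L) ξ.elt) ∧
      ∃ d' : Lˣ, twistN (σ : L ≃+* L) x' = scal d' * (m * twistN (σ : L ≃+* L) ξ.elt * m⁻¹) := by
  obtain ⟨d', hd'⟩ := twistN_scal (σ := σ) e (m * ξ.elt * (mapGL (σ : L ≃+* L) m)⁻¹)
  obtain ⟨hξD, g₁, hg₁, hr₁⟩ := ξ.1.2
  obtain ⟨c₁, hc₁⟩ := PG.eq_iff.1 (show ((iGL K L g₁ : GL (Fin 2) L) : PG L) =
      ((twistN (σ : L ≃+* L) ξ.elt : GL (Fin 2) L) : PG L) by
    rw [← PG.iMap_mk, hg₁, ← ξ.twistN_elt])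
  have hregξ : TReg (algebraMap K L ξ.1.1.1) (twistN (σ : L ≃+* L) ξ.elt) := by
    obtain ⟨a, b, hb, e⟩ := hr₁
    exact ⟨_, _,
      mul_ne_zero c₁.ne_zero ((map_ne_zero _).2 hb), by
      rw [hc₁]; exact scal_mul_tmat _ _ _ _ (iGL_tmat e)⟩
  have hconj : twistN (σ : L ≃+* L) x' = scal d' * (m * twistN (σ : L ≃+* L) ξ.elt * m⁻¹) := by
    rw [hxm, hd', twistN_cobound hc]
  obtain ⟨r, hr, hDr⟩ := class_unique two_ne_zero hregξ hreg hconj
  have hξeq : D = ξ.1.1.1 := by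
    obtain ⟨r₀, hr₀⟩ : IsSquare (D / ξ.1.1.1) := (isSquare_algebraMap_iff hc).1 ⟨r, by
      rw [map_div₀, hDr, mul_div_assoc, mul_div_cancel₀]
      exact (map_ne_zero _).2 hξD.ne_zero⟩
    rw [div_eq_iff hξD.ne_zero] at hr₀
    exact hξD.unique hD (r := r₀) (fun h => hD.ne_zero (by rw [hr₀, h]; ring)) (by rw [hr₀]; ring)
  exact ⟨hξeq, hξeq ▸ hregξ, d', hconj⟩

/-- A coset over a class equals the chosen one when it is conjugated into the torus by `u`. -/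
private lemma twPair_eq {D : K} {g k x' u t : GL (Fin 2) L} {ξ ξ' : TwIdx σ} {e d d' : Lˣ}
    (hxm : x' = scal e * ((g * k) * ξ.elt * (mapGL (σ : L ≃+* L) (g * k))⁻¹))
    (hξeq : D = ξ.1.1.1) (hregξ : TReg (algebraMap K L D) (twistN (σ : L ≃+* L) ξ.elt))
    (hconj : twistN (σ : L ≃+* L) x' = scal d' * ((g * k) * twistN (σ : L ≃+* L) ξ.elt * (g * k)⁻¹))
    (hD' : ξ'.1.1.1 = D) (ht : t ∈ tTor (algebraMap K L D))
    (hum : u * (g * k) ∈ tTor (algebraMap K L D)) (hu : mapGL (σ : L ≃+* L) u = u)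
    (hd : u * x' * u⁻¹ = scal d * (t * ξ'.elt * (mapGL (σ : L ≃+* L) t)⁻¹))
    (hn : ((twistN (σ : L ≃+* L) (u * x' * u⁻¹) : GL (Fin 2) L) : PG L) = PG.iMap K L ξ'.1.1.2) :
    (⟨ξ, ((k : PG L) : PG L ⧸ ξ.grp)⟩ : Σ ξ : TwIdx σ, PG L ⧸ ξ.grp)
      = ⟨ξ', ((g⁻¹ * u⁻¹ * t : GL (Fin 2) L) : PG L)⟩ := by
  obtain ⟨m, hm⟩ : ∃ m, m = g * k := ⟨_, rfl⟩
  rw [← hm] at hxm hconj hum
  -- Conjugating by `u g k`, which is in the torus, fixes the norm: the classes agree.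
  have heq : ξ = ξ' := by
    refine Subtype.ext
      (Subtype.ext (Prod.ext (hξeq.symm.trans hD'.symm) (PG.iMap_injective (K := K) (L := L) ?_)))
    rw [← hn, ← ξ.twistN_elt]
    conv_rhs => rw [show (u : GL (Fin 2) L)⁻¹ = (mapGL (σ : L ≃+* L) u)⁻¹ by rw [hu]]
    rw [twistN_cobound hc]
    refine PG.eq_iff.2 ⟨d', ?_⟩
    rw [hconj, ← mul_assoc u, ← scal_comm, mul_assoc (scal d'), mul_assoc (scal d'),
      show u * (m * twistN (σ : L ≃+* L) ξ.elt * m⁻¹) * u⁻¹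
        = (u * m) * twistN (σ : L ≃+* L) ξ.elt * (u * m)⁻¹ by group,
      tTor_comm hum hregξ.mem, mul_inv_cancel_right]
  subst heq
  refine Sigma.ext rfl (heq_of_eq ?_)
  -- The change of representative `s` twists `ξ` by a scalar, so lies in its group.
  set s := t⁻¹ * (u * m) with hs
  have hsT : s ∈ tTor (algebraMap K L D) := mul_mem (inv_mem ht) hum
  have hfix : s * ξ.elt * (mapGL (σ : L ≃+* L) s)⁻¹ = scal (e⁻¹ * d) * ξ.elt := by
    have h2 : u * x' * u⁻¹ = scal e * ((u * m) * ξ.elt * (mapGL (σ : L ≃+* L) (u * m))⁻¹) := by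
      rw [hxm, map_mul (mapGL (σ : L ≃+* L)) u m, hu, ← mul_assoc u, ← scal_comm, mul_inv_rev]
      group
    rw [hd] at h2
    have h3 : (u * m) * ξ.elt * (mapGL (σ : L ≃+* L) (u * m))⁻¹
        = scal (e⁻¹ * d) * (t * ξ.elt * (mapGL (σ : L ≃+* L) t)⁻¹) := by
      rw [scal_mul, mul_assoc (scal e⁻¹), h2, ← mul_assoc, ← scal_mul, inv_mul_cancel,
        show (scal (1 : Lˣ) : GL (Fin 2) L) = 1 by simp [scal], one_mul]
    rw [hs, map_mul, map_inv, mul_inv_rev, inv_inv,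
      show t⁻¹ * (u * m) * ξ.elt * ((mapGL (σ : L ≃+* L) (u * m))⁻¹ * mapGL (σ : L ≃+* L) t)
        = t⁻¹ * ((u * m) * ξ.elt * (mapGL (σ : L ≃+* L) (u * m))⁻¹) * mapGL (σ : L ≃+* L) t by
          group,
      h3, ← mul_assoc t⁻¹, ← scal_comm]
    group
  rw [QuotientGroup.eq, ← QuotientGroup.mk_inv, ← QuotientGroup.mk_mul,
    show k⁻¹ * (g⁻¹ * u⁻¹ * t) = s⁻¹ by rw [hs, hm]; group, QuotientGroup.mk_inv]
  exact inv_mem (mem_grp_of_fix hc (ξ := ξ) (hξeq ▸ hsT) hfix)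

/-- **Exactly two ways, twisted.** Every twisted elliptic class arises from exactly two pairs of a
twisted index and a coset of its torus. -/
theorem ncard_twPairs {δc : TwPG (σ : L ≃+* L)} (hδc : TwP σ δc) :
    {p | pairPt TwIdx.grp TwIdx.base p = δc}.ncard = 2 := by
  obtain ⟨δ, hδ⟩ := QuotientGroup.mk_surjective δc.cls
  have hns : ¬ IsSquare (disc2 (twistN (σ : L ≃+* L) δ : Matrix (Fin 2) (Fin 2) L)) := by
    rw [← isTwEll_iff, hδ]; exact hδc
  obtain ⟨D₀, h0, hns0, hg⟩ := exists_cobound_tmat hc hns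
  obtain ⟨D, c, hD, hc0, hDc⟩ := exists_isSqRep h0 hns0
  obtain ⟨g, hmem, hreg⟩ := hg D c hc0 hDc
  set x' := g * δ * (mapGL (σ : L ≃+* L) g)⁻¹ with hx'
  have hw' : mapGL (σ : L ≃+* L) wInv = wInv := mapGL_wInv
  set x'' := wInv * x' * wInv⁻¹ with hx''
  have hN'' : twistN (σ : L ≃+* L) x'' = wInv * twistN (σ : L ≃+* L) x' * wInv⁻¹ := by
    conv_lhs => rw [hx'', show (wInv : GL (Fin 2) L)⁻¹ = (mapGL (σ : L ≃+* L) wInv)⁻¹ by rw [hw']]
    rw [twistN_cobound hc]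
  have hreg'' : TReg (algebraMap K L D) (twistN (σ : L ≃+* L) x'') := by
    obtain ⟨a, b, hb, e⟩ := hreg
    exact ⟨_, _, neg_ne_zero.2 hb, by rw [hN'']; exact wInv_conj e⟩
  obtain ⟨ξ₀, d₀, t₀, hξ₀, ht₀, he₀, hn₀⟩ := exists_twIdx hc hD hmem hreg
  obtain ⟨ξ₁, d₁, t₁, hξ₁, ht₁, he₁, hn₁⟩ :=
    exists_twIdx hc hD (x := x'') (wInv_conj_mem hmem) hreg''
  set p₀ : Σ ξ : TwIdx σ, PG L ⧸ ξ.grp := ⟨ξ₀, ((g⁻¹ * t₀ : GL (Fin 2) L) : PG L)⟩
  set p₁ : Σ ξ : TwIdx σ, PG L ⧸ ξ.grp := ⟨ξ₁, ((g⁻¹ * wInv⁻¹ * t₁ : GL (Fin 2) L) : PG L)⟩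
  -- the two pairs `p₀`, `p₁` lie over the class
  have h0' : pairPt TwIdx.grp TwIdx.base p₀ = δc := by
    change (pairPt TwIdx.grp TwIdx.base p₀).cls = δc.cls
    rw [cls_twPairPt, ← hδ]
    refine PG.eq_iff.2 ⟨d₀, ?_⟩
    rw [show δ = g⁻¹ * x' * mapGL (σ : L ≃+* L) g by rw [hx']; group, he₀, map_mul, map_inv]
    simp only [← mul_assoc]
    rw [← scal_comm d₀]
    group
  have h1' : pairPt TwIdx.grp TwIdx.base p₁ = δc := by
    change (pairPt TwIdx.grp TwIdx.base p₁).cls = δc.cls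
    rw [cls_twPairPt, ← hδ]
    refine PG.eq_iff.2 ⟨d₁, ?_⟩
    rw [show δ = g⁻¹ * wInv⁻¹ * x'' *
      (wInv * mapGL (σ : L ≃+* L) g) by rw [hx'', hx']; group, he₁, map_mul,
      map_mul, map_inv, map_inv, hw']
    simp only [← mul_assoc]
    rw [← scal_comm d₁]
    group
  -- conversely a conjugator lies in the normaliser of the torus
  rw [show {p | pairPt TwIdx.grp TwIdx.base p = δc} = {p₀, p₁} from
    Set.eq_of_subset_of_subset ?_ ?_, Set.ncard_pair (twPair_ne hξ₀ ht₀ ht₁)]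
  · rintro ⟨ξ, q⟩ hp
    obtain ⟨k', rfl⟩ := QuotientGroup.mk_surjective q
    obtain ⟨k, rfl⟩ := QuotientGroup.mk_surjective k'
    have hp' := congrArg TwPG.cls (show pairPt TwIdx.grp TwIdx.base _ = δc from hp)
    rw [cls_twPairPt, ← hδ] at hp'
    obtain ⟨e, he⟩ := PG.eq_iff.1 hp'
    have hxm : x' = scal e * ((g * k) * ξ.elt * (mapGL (σ : L ≃+* L) (g * k))⁻¹) := by
      rw [hx', he, map_mul, mul_inv_rev]
      simp only [← mul_assoc, scal_comm e g]
    obtain ⟨hξeq, hregξ, d', hconj⟩ := regular_of_conj hc hD hreg ξ hxm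
    have hmemN : g * k * twistN (σ : L ≃+* L) ξ.elt * (g * k)⁻¹ ∈ tTor (algebraMap K L D) := by
      rw [show g * k * twistN (σ : L ≃+* L) ξ.elt * (g * k)⁻¹ =
          (scal d')⁻¹ * twistN (σ : L ≃+* L) x' by
        rw [hconj, inv_mul_cancel_left]]
      exact mul_mem (inv_mem (scal_mem_tTor _ _)) hreg.mem
    rcases normalizer_cases two_ne_zero ((map_ne_zero (algebraMap K L)).2 hD.ne_zero) hregξ
      hmemN with hk | hk
    · left
      refine (twPair_eq hc hxm hξeq hregξ hconj hξ₀ ht₀ (u := 1) (d := d₀) (by rwa [one_mul])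
        (map_one _) (by simpa using he₀) (by simpa using hn₀)).trans ?_
      rw [inv_one, mul_one]
    · right
      exact Set.mem_singleton_iff.2
        (twPair_eq hc hxm hξeq hregξ hconj hξ₁ ht₁ hk hw' he₁ hn₁)
  · rintro p (rfl | rfl) <;> assumption

end Twisted

end Fermat.LT
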