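import Fermat.Agent.LT.LocH90

/-!
# Fixed classes are norms at every level

`Twist.exists_norm`: under `H90` every fixed class is a twisted norm at each level, starting from
`Twist.exists_norm_level_one`.
-/

set_option autoImplicit false
open scoped Matrix

namespace Fermat.LT

variable {F : Type*} [Field F] {v : Valuation F (WithZero (Multiplicative ℤ))}

local notation "κ" => IsLocalRing.ResidueField v.valuationSubring

namespace QA

variable {Q : QA v} {ϖ : F} (hϖ : v ϖ = WithZero.exp (-1 : ℤ)) (τ : Q.Twist)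

/-- The norm on the unit group. -/
noncomputable def Twist.normU : Q.ugrp →* Q.ugrp :=
  MonoidHom.id Q.ugrp * τ.θu * (τ.θu.comp τ.θu)

/-- The matrix of the norm. -/
lemma Twist.coe_normU (u : Q.ugrp) : (τ.normU u : GL (Fin 2) F) = τ.norm3 u := rfl

/-- On fixed classes the norm is the cube, at every level. -/
lemma Twist.normU_base {k : Q.ugrp} (hk : (k : GL (Fin 2) F) ∈ τ.base) (m : ℕ) :
    τ.normU k * (k ^ 3)⁻¹ ∈ (Q.levG m).subgroupOf Q.ugrp := by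
  obtain ⟨-, d, hd⟩ := hk
  obtain ⟨e, he⟩ := τ.θ_scal d
  rw [Subgroup.mem_subgroupOf, Subgroup.coe_mul, Subgroup.coe_inv,
    SubmonoidClass.coe_pow, τ.coe_normU, Twist.norm3, hd, map_mul, he, hd]
  have e1 : (k : GL (Fin 2) F) * (scal d * k) * (scal e * (scal d * k)) =
      scal (d * (e * d)) * (k : GL (Fin 2) F) ^ 3 := by
    have c1 : ∀ x : Fˣ, (k : GL (Fin 2) F) * scal x = scal x * k := fun x => (scal_comm x _).symm
    rw [← mul_assoc (scal e), ← scal_mul, ← mul_assoc (k : GL (Fin 2) F) (scal d), c1,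
      scal_mul (d := e * d), pow_three]
    simp only [mul_assoc]
    rw [← mul_assoc (k : GL (Fin 2) F) (scal (e * d)), c1]
    simp only [mul_assoc]
    rw [← mul_assoc (k : GL (Fin 2) F) (scal (e * d)), c1]
    simp only [mul_assoc]
  rw [e1, mul_inv_cancel_right]
  exact scal_mem_withScalars _ _

/-- The norm is fixed. -/
lemma Twist.θ_norm3 {u : GL (Fin 2) F} (hu : u ∈ Q.ugrp) : τ.θ (τ.norm3 u) = τ.norm3 u := by
  rw [Twist.norm3, map_mul, map_mul, τ.θ_θ_θ hu]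
  have a := τ.θ_ugrp hu
  have b := τ.θ_ugrp a
  rw [torus_comm' (Q.ugrp.mul_mem a b) hu, ← mul_assoc]

include hϖ in
/-- At the first level fixed classes are norms: the coboundaries are the kernel of the norm and the
two ranges are counted. -/
theorem Twist.exists_norm_level_one [Finite κ] (h90 : τ.H90) {g : GL (Fin 2) F} (hg : g ∈ τ.base) :
    ∃ z : Q.ugrp, (⟨g, τ.base_le hg⟩ : Q.ugrp)⁻¹ * τ.normU z ∈ (Q.levG 1).subgroupOf Q.ugrp := by
  set L1 := (Q.levG 1).subgroupOf Q.ugrp with hL1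
  have : Finite (Q.UQ 1) := finite_UQ hϖ 1
  set π : Q.ugrp →* Q.UQ 1 := QuotientGroup.mk' L1
  set N := π.comp τ.normU
  set δ := τ.θu * (MonoidHom.id Q.ugrp)⁻¹
  set D := π.comp δ
  have hfixmem : ∀ u : Q.ugrp, u ∈ τ.fixGrp 1 ↔ D u = 1 := fun u => by
    rw [Twist.fixGrp, Subgroup.mem_comap]
    exact (QuotientGroup.eq_one_iff (N := L1) _).symm
  have hkerD : D.ker = τ.fixGrp 1 := by ext u; rw [MonoidHom.mem_ker, hfixmem]
  -- coboundaries exhaust the kernel of the norm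
  have hND : N.ker.map π = D.range := by
    ext c
    constructor
    · rintro ⟨x, hx, rfl⟩
      have hx1 : τ.norm3 (x : GL (Fin 2) F) ∈ Q.levG 1 :=
        Subgroup.mem_subgroupOf.1 ((QuotientGroup.eq_one_iff _).1 hx)
      obtain ⟨z, hz, hzx⟩ := h90 _ x.2 hx1
      refine ⟨(⟨z, hz⟩ : Q.ugrp)⁻¹, ?_⟩
      refine (QuotientGroup.eq.2 (Subgroup.mem_subgroupOf.2 ?_))
      change ((τ.θ ((z : GL (Fin 2) F))⁻¹ * (z⁻¹)⁻¹)⁻¹ * (x : GL (Fin 2) F)) ∈ Q.levG 1
      rw [map_inv, inv_inv, mul_inv_rev, inv_inv, mul_assoc,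
        torus_comm' (τ.θ_ugrp hz) x.2, ← mul_assoc, torus_comm' (Q.ugrp.inv_mem hz) x.2, mul_assoc]
      exact hzx
    · rintro ⟨u, rfl⟩
      refine ⟨δ u, ?_, rfl⟩
      change π (τ.normU (δ u)) = 1
      refine (QuotientGroup.eq_one_iff _).2 (Subgroup.mem_subgroupOf.2 ?_)
      have h := τ.norm3_cobound Q.ugrp.one_mem u.2
      rw [one_mul] at h
      rw [τ.coe_normU, show ((δ u : Q.ugrp) : GL (Fin 2) F) = (u : GL (Fin 2) F)⁻¹ * τ.θ u from
        torus_comm' (τ.θ_ugrp u.2) (Q.ugrp.inv_mem u.2), h]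
      simp [Twist.norm3]
  -- counting
  have hL1D : L1 ≤ D.ker := fun u hu => by
    rw [hkerD, τ.mem_fixGrp]
    exact (Q.levG 1).mul_mem ((Q.levG 1).inv_mem (Subgroup.mem_subgroupOf.1 hu))
      (τ.θ_levG (Subgroup.mem_subgroupOf.1 hu))
  have hL1N : L1 ≤ N.ker := fun u hu => by
    refine (QuotientGroup.eq_one_iff _).2 (Subgroup.mem_subgroupOf.2 ?_)
    rw [τ.coe_normU]
    have h1 := Subgroup.mem_subgroupOf.1 hu
    exact (Q.levG 1).mul_mem ((Q.levG 1).mul_mem h1 (τ.θ_levG h1)) (τ.θ_levG (τ.θ_levG h1))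
  have hπker : π.ker = L1 := QuotientGroup.ker_mk' L1
  have hcardD : Nat.card D.range = L1.relIndex N.ker := by
    rw [← hND, ← Subgroup.relIndex_bot_left, ← Subgroup.relIndex_comap,
      show (⊥ : Subgroup (Q.UQ 1)).comap π = π.ker from rfl, hπker]
  have e1 : L1.relIndex D.ker * Nat.card D.range = L1.index := by
    rw [← Subgroup.index_ker]; exact Subgroup.relIndex_mul_index hL1D
  have e2 : L1.relIndex N.ker * Nat.card N.range = L1.index := by
    rw [← Subgroup.index_ker]; exact Subgroup.relIndex_mul_index hL1N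
  have hNfix : N.range ≤ D.ker.map π := by
    rintro _ ⟨u, rfl⟩
    refine ⟨τ.normU u, ?_, rfl⟩
    rw [SetLike.mem_coe, hkerD, τ.mem_fixGrp, τ.coe_normU]
    rw [τ.θ_norm3 u.2, inv_mul_cancel]
    exact (Q.levG 1).one_mem
  have hfixcard : Nat.card (D.ker.map π) = L1.relIndex D.ker := by
    rw [← Subgroup.relIndex_bot_left, ← Subgroup.relIndex_comap,
      show (⊥ : Subgroup (Q.UQ 1)).comap π = π.ker from rfl, hπker]
  have hrange : N.range = D.ker.map π := by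
    refine Subgroup.eq_of_le_of_card_ge hNfix (le_of_eq ?_)
    have hne : Nat.card D.range ≠ 0 := Nat.card_pos.ne'
    rw [hfixcard]
    refine Nat.eq_of_mul_eq_mul_right (Nat.pos_of_ne_zero hne) ?_
    rw [e1, ← e2, ← hcardD, mul_comm]
  -- lift to the level `m`
  set G : Q.ugrp := ⟨g, τ.base_le hg⟩
  obtain ⟨z₁, hz₁⟩ : π G ∈ N.range := by
    rw [hrange]
    refine ⟨G, ?_, rfl⟩
    rw [SetLike.mem_coe, hkerD, τ.mem_fixGrp]
    obtain ⟨-, d, hd⟩ := hg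
    change g⁻¹ * τ.θ g ∈ _
    rw [hd, scal_comm, inv_mul_cancel_left]
    exact scal_mem_withScalars _ d
  exact ⟨z₁, QuotientGroup.eq.1 hz₁.symm⟩

include hϖ in
/-- **Fixed classes are norms.** Under `H90`, every element of `base` is at each level `m` a twisted
norm of a unit. -/
theorem Twist.exists_norm [Finite κ] (h90 : τ.H90) (h3 : v 3 = 1)
    (hQ : Nat.Coprime 3 (Nat.card κ)) (m : ℕ) {g : GL (Fin 2) F} (hg : g ∈ τ.base) :
    ∃ z ∈ Q.ugrp, g⁻¹ * τ.norm3 z ∈ Q.levG m := by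
  set L1 := (Q.levG 1).subgroupOf Q.ugrp with hL1
  set G : Q.ugrp := ⟨g, τ.base_le hg⟩
  obtain ⟨z₁, hw1⟩ := τ.exists_norm_level_one hϖ h90 hg
  rcases Nat.eq_zero_or_pos m with rfl | hm
  · exact ⟨1, Q.ugrp.one_mem, by
      rw [levG_zero]; exact Q.ugrp.mul_mem (Q.ugrp.inv_mem G.2) (τ.coe_normU 1 ▸ (τ.normU 1).2)⟩
  -- move the remainder to a fixed class
  obtain ⟨k, hk, hkw⟩ := τ.exists_base h3 (m := m) (G⁻¹ * τ.normU z₁).2 (by
    obtain ⟨-, d, hd⟩ := hg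
    change (g⁻¹ * τ.norm3 z₁)⁻¹ * τ.θ (g⁻¹ * τ.norm3 z₁) ∈ _
    rw [map_mul, map_inv, hd, τ.θ_norm3 z₁.2, mul_inv_rev, inv_inv, mul_inv_rev, mul_assoc,
      ← mul_assoc g, ← mul_assoc g, mul_inv_cancel, one_mul, show (scal d)⁻¹ =
        (scal d⁻¹ : GL (Fin 2) F) from (map_inv _ _).symm,
      scal_comm, inv_mul_cancel_left]
    exact scal_mem_withScalars _ _)
  set Kc : Q.ugrp := ⟨k, τ.base_le hk⟩
  have hk1 : Kc ∈ L1 := Subgroup.mem_subgroupOf.2 (by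
    have h1 : ((Kc⁻¹ * (G⁻¹ * τ.normU z₁) : Q.ugrp) : GL (Fin 2) F) ∈ Q.levG 1 :=
      Q.levG_antitone hm hkw
    have h2 := (Q.levG 1).mul_mem (Subgroup.mem_subgroupOf.1 hw1) ((Q.levG 1).inv_mem h1)
    rw [← Subgroup.coe_inv, ← Subgroup.coe_mul, mul_inv_rev, inv_inv, mul_inv_cancel_left] at h2
    exact h2)
  set M := Nat.card κ ^ (m - 1)
  have hMc : Nat.Coprime 3 M := hQ.pow_right _
  obtain ⟨e, q, he⟩ := exists_three_mul_eq hMc
  set Lm := (Q.levG m).subgroupOf Q.ugrp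
  have hpow : Kc ^ M ∈ Lm := by
    have h1 := Subgroup.pow_index_mem (Lm.subgroupOf L1) (⟨Kc, hk1⟩ : L1)
    rw [show (Lm.subgroupOf L1).index = M from
      (Subgroup.relIndex_subgroupOf (Q.levG_le_ugrp 1)).trans
        (relIndex_levG_of_le hϖ one_ne_zero hm)] at h1
    exact h1
  refine ⟨((z₁ * (Kc ^ e)⁻¹ : Q.ugrp) : GL (Fin 2) F), (z₁ * (Kc ^ e)⁻¹).2, ?_⟩
  rw [← τ.coe_normU]
  change ((G⁻¹ * τ.normU (z₁ * (Kc ^ e)⁻¹) : Q.ugrp) : GL (Fin 2) F) ∈ Q.levG m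
  rw [← Subgroup.mem_subgroupOf]
  have h5 := Lm.inv_mem (Lm.pow_mem (τ.normU_base (k := Kc) hk m) e)
  have h6 := Lm.inv_mem (Lm.pow_mem hpow q)
  have h7 : Kc⁻¹ * (G⁻¹ * τ.normU z₁) ∈ Lm := Subgroup.mem_subgroupOf.2 hkw
  have h8 := Lm.mul_mem (Lm.mul_mem h7 h5) h6
  have e3 : Kc ^ (3 * e) = Kc * (Kc ^ M) ^ q := by rw [he, pow_add, pow_one, pow_mul]
  rw [map_mul, map_inv, map_pow]
  rw [mul_pow, inv_pow, ← pow_mul, e3] at h8
  have key : Kc⁻¹ * (G⁻¹ * τ.normU z₁) * ((τ.normU Kc) ^ e * (Kc * (Kc ^ M) ^ q)⁻¹)⁻¹ *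
      ((Kc ^ M) ^ q)⁻¹
      = G⁻¹ * (τ.normU z₁ * ((τ.normU Kc) ^ e)⁻¹) := by
    apply Additive.ofMul.injective
    simp only [ofMul_mul, ofMul_inv]
    abel
  rwa [key] at h8

end QA

end Fermat.LT
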