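import Fermat.Agent.LT.LocOrb

/-!
# Non-units of a local quadratic algebra

A non-unit class is `(a, 1)` with norm of positive order `m`; it is a product of classes `(a', 1)`
with norm of order one and a unit.  `osum` is the displacement sum of a fixed element over the unit
classes of all levels.
-/

set_option autoImplicit false
open scoped Matrix Classical
open Finset

namespace Fermat.LT

variable {F : Type*} [Field F] {v : Valuation F (WithZero (Multiplicative ℤ))}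

local notation "κ" => IsLocalRing.ResidueField v.valuationSubring

/-- Scalars of a product split. -/
lemma scal_mul_mul_mul (c d : Fˣ) (x y : GL (Fin 2) F) :
    scal (c * d) * (x * y) = (scal c * x) * (scal d * y) := by
  rw [scal_mul]
  exact Commute.mul_mul_mul_comm (scal_comm d x) _ _

namespace QA

variable {Q : QA v} {ϖ : F} (hϖ : v ϖ = WithZero.exp (-1 : ℤ))

/-- `x` is, up to scalars, `(a, 1)` with norm of order `m ≥ 1`. -/
def IsPrim (Q : QA v) (x : GL (Fin 2) F) (a : F) (m : ℕ) : Prop :=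
  1 ≤ m ∧ v a ≤ 1 ∧ v (Q.nm a 1) = WithZero.exp (-(m : ℤ)) ∧
    ∃ c : Fˣ, ((scal c * x : GL (Fin 2) F) : Matrix (Fin 2) (Fin 2) F) = Q.mat a 1

/-- The residue of the coordinate of a non-unit class is a root of the residual polynomial. -/
lemma IsPrim.root {x : GL (Fin 2) F} {a : F} {m : ℕ} (h : Q.IsPrim x a m) : resd v a ∈ Q.roots := by
  by_contra hr
  have h1 := (Q.v_nm_one_iff h.2.1).2 hr
  rw [h.2.2.1, ← WithZero.exp_zero, WithZero.exp_inj] at h1
  have := h.1
  omega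

/-- A non-unit class is not a unit. -/
lemma IsPrim.not_mem_ugrp {x : GL (Fin 2) F} {a : F} {m : ℕ} (h : Q.IsPrim x a m) : x ∉ Q.ugrp := by
  intro hx
  obtain ⟨hm, ha, hn, c, hc⟩ := h
  obtain ⟨d, a', b', ha', hb', hn', hd⟩ := Q.exists_coords_ugrp hx
  have e := Q.val_scal_mul (d * c⁻¹) hc
  rw [← mul_assoc, ← scal_mul, inv_mul_cancel_right, hd] at e
  obtain ⟨e1, e2⟩ := Q.mat_inj e
  set l : F := ((d * c⁻¹ : Fˣ) : F) with hl
  have hnn : Q.nm a' b' = l * l * Q.nm a 1 := by simp only [nm, e1, e2]; ring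
  have hv := congrArg v hnn
  rw [map_mul, hn', hn, map_mul] at hv
  have hl1 : v l ≤ 1 := by rwa [e2, mul_one] at hb'
  have h2 : v l * v l * WithZero.exp (-(m : ℤ)) < 1 := by
    refine lt_of_le_of_lt (mul_le_of_le_one_left' (mul_le_one' hl1 hl1)) ?_
    rw [← WithZero.exp_zero, WithZero.exp_lt_exp]; omega
  rw [← hv] at h2
  exact lt_irrefl _ h2

include hϖ in
/-- A non-unit class of order `m` displaces level `j` to level `i` by `m + i + j`. -/
lemma IsPrim.lvl_eq {x : GL (Fin 2) F} {a : F} {m : ℕ} (h : Q.IsPrim x a m) (i j : ℕ) :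
    lvl v ((dg hϖ i)⁻¹ * x * dg hϖ j) = m + i + j := by
  obtain ⟨-, ha, hn, c, hc⟩ := h
  rw [← Q.lvl_nonunit hϖ i j ha (map_one v) hn hc,
    show (dg hϖ i)⁻¹ * (scal c * x) * dg hϖ j = scal c * ((dg hϖ i)⁻¹ * x * dg hϖ j) by
      rw [← mul_assoc, ← mul_assoc, ← mul_assoc, ← scal_comm],
    lvl_mul_left v (scal_mem_withScalars _ c)]

/-- `diag(1, ϖ⁰)` is one. -/
lemma dg_zero : dg hϖ 0 = (1 : GL (Fin 2) F) :=
  Units.ext (by ext p q; fin_cases p <;> fin_cases q <;> simp [dg])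

include hϖ in
/-- The level of a non-unit class is the order of its norm. -/
lemma IsPrim.lvl_self {x : GL (Fin 2) F} {a : F} {m : ℕ} (h : Q.IsPrim x a m) : lvl v x = m := by
  have := h.lvl_eq hϖ 0 0
  rwa [dg_zero, inv_one, one_mul, mul_one, add_zero, add_zero] at this

/-- Normalise integral coordinates with non-unit norm and unit second coordinate. -/
lemma isPrim_of_coords {x : GL (Fin 2) F} {a b : F} (c : Fˣ) (ha : v a ≤ 1) (hb : v b = 1) {m : ℕ}
    (hm : 1 ≤ m) (hn : v (Q.nm a b) = WithZero.exp (-(m : ℤ)))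
    (hx : ((scal c * x : GL (Fin 2) F) : Matrix (Fin 2) (Fin 2) F) = Q.mat a b) :
    Q.IsPrim x (a / b) m := by
  have hb0 : b ≠ 0 := fun h => by simp [h] at hb
  refine ⟨hm, by rw [map_div₀, hb, div_one]; exact ha, ?_, Units.mk0 b⁻¹ (inv_ne_zero hb0) * c, ?_⟩
  · rw [show Q.nm (a / b) 1 = Q.nm a b / (b * b) by simp [nm]; field_simp, map_div₀, map_mul, hb,
      mul_one, div_one, hn]
  · rw [scal_mul, mul_assoc, Q.val_scal_mul _ hx, Units.val_mk0]
    congr 1 <;> field_simp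

/-- A nonzero non-unit has positive order. -/
lemma exists_ord_eq {x : F} (hx : x ≠ 0) (h1 : v x < 1) :
    ∃ m : ℕ, 1 ≤ m ∧ v x = WithZero.exp (-(m : ℤ)) := by
  have hne : v x ≠ 0 := v.ne_zero_iff.2 hx
  rw [← WithZero.exp_log hne, ← WithZero.exp_zero, WithZero.exp_lt_exp] at h1
  exact ⟨(-WithZero.log (v x)).toNat, by omega, by
    rw [Int.toNat_of_nonneg (by omega), neg_neg, WithZero.exp_log hne]⟩

/-- Units and primitive non-units. -/
lemma mem_ugrp_or_isPrim {x : GL (Fin 2) F} (hx : x ∈ Q.torus) :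
    x ∈ Q.ugrp ∨ ∃ a m, Q.IsPrim x a m := by
  obtain ⟨c, a, b, h, ha, hb, hor⟩ := exists_primitive Q hx
  by_cases hn : v (Q.nm a b) = 1
  · exact Or.inl ⟨c, a, b, ha, hb, hn, h⟩
  have hb1 := hor.resolve_left hn
  have hd : Q.nm a b ≠ 0 := by
    rw [← det_mat, ← h]; exact (Matrix.GeneralLinearGroup.det (scal c * x)).ne_zero
  obtain ⟨m, hm, hv⟩ := exists_ord_eq hd (lt_of_le_of_ne (Q.v_nm_le ha hb) hn)
  exact Or.inr ⟨_, m, isPrim_of_coords c ha hb1 hm hv h⟩

include hϖ in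
/-- Division of a non-unit by an element of order one over the same root. -/
lemma IsPrim.exists_div {x : GL (Fin 2) F} {a : F} {m : ℕ} (h : Q.IsPrim x a m) {a' : F}
    {y : GL (Fin 2) F} (hy : Q.IsPrim y a' 1) (hr : resd v a = resd v a') :
    (m = 1 ∧ x * y⁻¹ ∈ Q.ugrp) ∨ (2 ≤ m ∧ ∃ b, Q.IsPrim (x * y⁻¹) b (m - 1)) := by
  obtain ⟨hm, ha, hn, c, hc⟩ := h
  obtain ⟨-, ha', hn', d, hd⟩ := hy
  have hN0 : Q.nm a' 1 ≠ 0 := fun e => by
    rw [e, map_zero] at hn'; exact WithZero.exp_ne_zero hn'.symm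
  have hϖ0 := ne_zero_of_unif (v := v) hϖ
  set u : Fˣ := Units.mk0 (Q.nm a' 1) hN0 * Units.mk0 ϖ⁻¹ (inv_ne_zero hϖ0) with hu
  set A : F := (a * a' + a * Q.t + Q.n) / ϖ with hA
  set B : F := (a' - a) / ϖ with hB
  have hinv : ((scal d * y)⁻¹ : GL (Fin 2) F).val
      = Q.mat ((a' + Q.t) / Q.nm a' 1) (-1 / Q.nm a' 1) := by
    rw [← Units.mul_right_inj (a := scal d * y), ← Units.val_mul, mul_inv_cancel, hd, mat_mul,
      Units.val_one, ← Q.mat_one]
    congr 1 <;> field_simp <;> simp [nm]; ring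
  have hxy : ((scal (u * (c * d⁻¹)) * (x * y⁻¹) : GL (Fin 2) F) : Matrix (Fin 2) (Fin 2) F)
      = Q.mat A B := by
    have e : scal (u * (c * d⁻¹)) * (x * y⁻¹) = scal u * ((scal c * x) * (scal d * y)⁻¹) := by
      rw [scal_mul u, scal_mul c, mul_inv_rev,
        show (scal d)⁻¹ = (scal d⁻¹ : GL (Fin 2) F) from (map_inv _ _).symm,
        mul_assoc (scal u), mul_assoc (scal c) (scal d⁻¹), scal_comm d⁻¹ (x * y⁻¹)]
      simp only [mul_assoc]
    rw [e]
    have e2 : ((scal c * x) * (scal d * y)⁻¹ : GL (Fin 2) F).val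
        = Q.mat (a * ((a' + Q.t) / Q.nm a' 1) - Q.n * (1 * (-1 / Q.nm a' 1)))
          (a * (-1 / Q.nm a' 1) + 1 * ((a' + Q.t) / Q.nm a' 1) + Q.t * (1 * (-1 / Q.nm a' 1))) := by
      rw [Units.val_mul, hc, hinv, mat_mul]
    rw [Q.val_scal_mul u e2, hu, hA, hB, Units.val_mul, Units.val_mk0, Units.val_mk0]
    congr 1 <;> field_simp <;> ring
  have hlt : ∀ {z : F}, v z < 1 → v (z / ϖ) ≤ 1 := fun {z} hz => by
    rw [map_div₀, hϖ, div_le_one₀ (zero_lt_iff.2 WithZero.exp_ne_zero)]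
    exact le_exp_neg_one_iff.2 hz
  have hm1 : v (Q.nm a 1) < 1 := by
    rw [hn, ← WithZero.exp_zero, WithZero.exp_lt_exp]; omega
  have hd' : v (a' - a) < 1 := (resd_eq_iff ha' ha).1 hr.symm
  have hAi : v A ≤ 1 := hlt (by
    rw [show a * a' + a * Q.t + Q.n = Q.nm a 1 + a * (a' - a) by simp [nm]; ring]
    refine lt_of_le_of_lt (v.map_add _ _) (max_lt hm1 ?_)
    rw [map_mul]
    exact lt_of_le_of_lt (mul_le_of_le_one_left' ha) hd')
  have hBi : v B ≤ 1 := hlt hd'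
  have hnAB : v (Q.nm A B) = WithZero.exp (-((m : ℤ) - 1)) := by
    rw [show Q.nm A B = Q.nm a 1 * Q.nm a' 1 / (ϖ * ϖ) by simp [hA, hB, nm]; field_simp; ring,
      map_div₀, map_mul, map_mul, hn, hn', hϖ, ← WithZero.exp_add, ← WithZero.exp_add,
      ← WithZero.exp_sub]
    congr 1
    push_cast
    ring
  rcases Nat.lt_or_ge m 2 with hlt2 | hge
  · refine Or.inl ⟨by omega, u * (c * d⁻¹), A, B, hAi, hBi, ?_, hxy⟩
    rw [hnAB, show m = 1 by omega]
    simp
  · refine Or.inr ⟨hge, A / B, isPrim_of_coords _ hAi ?_ (by omega) ?_ hxy⟩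
    · have hlt' : v (Q.nm A B) < 1 := by rw [hnAB, ← WithZero.exp_zero, WithZero.exp_lt_exp]; omega
      refine Q.v_eq_one_of_v_nm_lt hAi hBi ?_ hlt'
      by_contra hno
      rw [not_or] at hno
      have hB1 := lt_of_le_of_ne hBi hno.2
      -- both coordinates divisible: then `a'` is congruent to `a` modulo the square
      have hd2 : v (a' - a) ≤ WithZero.exp (-2 : ℤ) := by
        have : v (a' - a) = v B * v ϖ := by rw [← map_mul, hB, div_mul_cancel₀ _ hϖ0]
        rw [this, hϖ]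
        refine (mul_le_mul' (le_exp_neg_one_iff.2 hB1) le_rfl).trans ?_
        rw [← WithZero.exp_add]; norm_num
      have : v (Q.nm a' 1) ≤ WithZero.exp (-2 : ℤ) := by
        rw [show Q.nm a' 1 = Q.nm a 1 + (a' - a) * (a' + a + Q.t) by simp [nm]; ring]
        refine (v.map_add _ _).trans (max_le ?_ ?_)
        · rw [hn, WithZero.exp_le_exp]; omega
        · rw [map_mul]
          exact (mul_le_of_le_one_right' ((v.map_add _ _).trans (max_le ((v.map_add _ _).trans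
            (max_le ha' ha)) Q.ht))).trans hd2
      rw [hn', WithZero.exp_le_exp] at this
      omega
    · rw [hnAB]
      congr 1
      push_cast [Nat.cast_sub (show 1 ≤ m by omega)]
      ring

include hϖ in
/-- A root of the norm form is represented by an element of norm of order one. -/
lemma exists_gen {a : F} (ha : v a ≤ 1) (h : v (Q.nm a 1) < 1) :
    ∃ α, v α ≤ 1 ∧ resd v α = resd v a ∧ v (Q.nm α 1) = WithZero.exp (-1 : ℤ) := by
  obtain ⟨α, h1, h2, h3⟩ := Q.exists_nm_eq_exp_neg_one hϖ ha h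
  exact ⟨α, h1, (resd_eq_iff h1 ha).2 h2, h3⟩

include hϖ in
/-- **Generation of the torus** by units and one element over each root. -/
theorem torus_le_of_gens (H : Subgroup (GL (Fin 2) F)) (hu : Q.ugrp ≤ H)
    (hgen : ∀ r ∈ Q.roots, ∃ (a : F) (y : GL (Fin 2) F), y ∈ H ∧ Q.IsPrim y a 1 ∧ resd v a = r) :
    Q.torus ≤ H := by
  intro x hx
  rcases mem_ugrp_or_isPrim hx with h | ⟨a, m, h⟩
  · exact hu h
  clear hx
  induction m using Nat.strong_induction_on generalizing a x with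
  | _ m ih =>
    obtain ⟨a', y, hyH, hy, hr⟩ := hgen _ h.root
    have key : x * y⁻¹ ∈ H := by
      rcases h.exists_div hϖ hy hr.symm with ⟨-, h'⟩ | ⟨hm, b, h'⟩
      · exact hu h'
      · exact ih (m - 1) (by omega) (a := b) h'
    have := H.mul_mem key hyH
    rwa [inv_mul_cancel_right] at this

/-- The displacement sum over the unit classes of all levels. -/
noncomputable def osum {v : Valuation F (WithZero (Multiplicative ℤ))} (Q : QA v) {ϖ : F}
    (hϖ : v ϖ = WithZero.exp (-1 : ℤ)) (h : ℕ → ℂ) (x : GL (Fin 2) F) : ℂ :=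
  ∑ᶠ i, (Nat.card (Q.UQ i) : ℂ) * h (Q.dlvl hϖ i x)

/-- **Untwisted orbital sum of a unit.** For a unit of exact level `d`, the orbital sum is a
combination of `ctil` and `gsum` of `h` with coefficients given by the index counts. -/
theorem osum_unit {x : GL (Fin 2) F} (hx : x ∈ Q.ugrp) {d : ℕ}
    (hd : ∀ m, x ∈ Q.levG m ↔ m ≤ d) {h : ℕ → ℂ} {D : ℕ} (hD : ∀ m, D < m → h m = 0) :
    Q.osum hϖ h x
      = (1 + ∑ m ∈ Icc 1 d, ((Q.g1 * Nat.card κ ^ (m - 1) : ℕ) : ℂ)) * ctil (Nat.card κ) h 0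
        + ((Q.g1 : ℂ) - ((Nat.card κ : ℂ) - 1)) * gsum (Nat.card κ) h 0 := by
  rw [← finsum_levelTerm (Nat.card κ) Q.g1 (fun m => Q.g1 * Nat.card κ ^ (m - 1)) hD d, osum]
  refine finsum_congr fun i => ?_
  rw [apply_dlvl hϖ h (i := i) hx, levelTerm, mul_add, Finset.mul_sum]
  have hcard : (Nat.card (Q.UQ i) : ℂ)
      = if i = 0 then 1 else (Q.g1 : ℂ) * (Nat.card κ : ℂ) ^ (i - 1) := by
    rcases i with _ | k
    · rw [Q.natCard_UQ_zero, if_pos rfl, Nat.cast_one]
    · rw [Q.natCard_UQ_succ hϖ, if_neg k.succ_ne_zero, Nat.add_sub_cancel]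
      push_cast; ring
  congr 1
  · rw [hcard]
  · rw [Finset.sum_congr rfl fun m hm => show _ =
      if m ≤ d then ((Q.g1 * Nat.card κ ^ (m - 1) : ℕ) : ℂ) * (Nat.card κ : ℂ) ^ (i - m)
        * (h (2 * (i - m)) - h (2 * (i - m + 1))) else 0 by
        rw [Finset.mem_Icc] at hm
        rw [mul_ite, mul_zero, hcard, if_neg (show i ≠ 0 by omega)]
        refine if_congr (hd m) ?_ rfl
        push_cast
        rw [show i - 1 = (m - 1) + (i - m) by omega, pow_add]
        ring,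
      ← Finset.sum_filter]
    refine Finset.sum_congr ?_ fun _ _ => rfl
    ext m; simp only [Finset.mem_filter, Finset.mem_Icc, le_min_iff]; omega

include hϖ in
/-- **Untwisted orbital sum of a non-unit.** -/
theorem osum_nonunit [Finite κ] {x : GL (Fin 2) F} {a : F} {m : ℕ} (hx : Q.IsPrim x a m)
    {h : ℕ → ℂ} {D : ℕ} (hD : ∀ k, D < k → h k = 0) :
    Q.osum hϖ h x = h m + (Q.g1 : ℂ) * gsum (Nat.card κ) h m := by
  obtain ⟨-, ha, hn, c, hc⟩ := id hx
  rw [← orbital_nonunit hϖ ha (map_one v) hn hc hD, osum]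
  exact finsum_congr fun i => by rw [dlvl_scal hϖ]

include hϖ in
/-- Multiplying by a unit keeps the order. -/
lemma IsPrim.mul_unit {x u : GL (Fin 2) F} {a : F} {m : ℕ} (h : Q.IsPrim x a m) (hxt : x ∈ Q.torus)
    (hu : u ∈ Q.ugrp) : ∃ b, Q.IsPrim (x * u) b m := by
  rcases mem_ugrp_or_isPrim (Q.torus.mul_mem hxt (Q.ugrp_le_torus hu)) with h' | ⟨b, n, h'⟩
  · refine absurd ?_ h.not_mem_ugrp
    have := Q.ugrp.mul_mem h' (Q.ugrp.inv_mem hu)
    rwa [mul_inv_cancel_right] at this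
  · refine ⟨b, ?_⟩
    have hn : n = m := by
      rw [← h'.lvl_self hϖ, lvl_mul_right v (Q.ugrp_le_U0 hu), h.lvl_self hϖ]
    exact hn ▸ h'

/-- The roots are a given root `a` and `-(a + t)` modulo the prime. -/
lemma roots_eq {a : F} (ha : v a ≤ 1) (h : resd v a ∈ Q.roots) :
    Q.roots = {resd v a, resd v (-(a + Q.t))} := by
  have hat : v (a + Q.t) ≤ 1 := (v.map_add _ _).trans (max_le ha Q.ht)
  have hr : resd v (-(a + Q.t)) = -(resd v a + resd v Q.t) := by rw [resd_neg hat, resd_add ha Q.ht]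
  rw [hr]
  simp only [roots, Set.mem_ofPred_eq] at h ⊢
  ext z
  simp only [Set.mem_ofPred_eq, Set.mem_insert_iff, Set.mem_singleton_iff]
  constructor
  · intro hz
    have : (z - resd v a) * (z - -(resd v a + resd v Q.t)) = 0 := by linear_combination hz - h
    rcases mul_eq_zero.1 this with e | e
    · exact Or.inl (sub_eq_zero.1 e)
    · exact Or.inr (sub_eq_zero.1 e)
  · rintro (rfl | rfl)
    · exact h
    · linear_combination h

/-- The trace is integral. -/
lemma IsPrim.v_two_mul_add_le {x : GL (Fin 2) F} {a : F} {m : ℕ} (h : Q.IsPrim x a m) :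
    v (2 * a + Q.t) ≤ 1 :=
  (v.map_add _ _).trans
    (max_le (by rw [two_mul]; exact (v.map_add _ _).trans (max_le h.2.1 h.2.1)) Q.ht)

/-- A non-unit class with unit derivative gives two residual roots. -/
lemma roots_two {x : GL (Fin 2) F} {a : F} {m : ℕ} (h : Q.IsPrim x a m) (h2 : v (2 * a + Q.t) = 1) :
    Q.roots.ncard = 2 := by
  have hat : v (-(a + Q.t)) ≤ 1 := by
    rw [Valuation.map_neg]; exact (v.map_add _ _).trans (max_le h.2.1 Q.ht)
  rw [roots_eq h.2.1 h.root]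
  refine Set.ncard_pair fun e => ?_
  rw [resd_eq_iff h.2.1 hat, sub_neg_eq_add, ← add_assoc, ← two_mul, h2] at e
  exact lt_irrefl _ e

/-- A non-unit class with non-unit derivative gives a single residual root. -/
lemma roots_one {x : GL (Fin 2) F} {a : F} {m : ℕ} (h : Q.IsPrim x a m) (h2 : v (2 * a + Q.t) < 1) :
    Q.roots.ncard = 1 := by
  have hat : v (-(a + Q.t)) ≤ 1 := by
    rw [Valuation.map_neg]; exact (v.map_add _ _).trans (max_le h.2.1 Q.ht)
  rw [roots_eq h.2.1 h.root, show resd v (-(a + Q.t)) = resd v a from ((resd_eq_iff hat h.2.1).2 (by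
    rw [show -(a + Q.t) - a = -(2 * a + Q.t) by ring, Valuation.map_neg]; exact h2))]
  simp

/-- Products over one simple root. -/
lemma IsPrim.mul_same {x y : GL (Fin 2) F} {a b : F} {m n : ℕ} (hx : Q.IsPrim x a m)
    (hy : Q.IsPrim y b n) (hr : resd v a = resd v b) (h2 : v (2 * a + Q.t) = 1) :
    ∃ c, Q.IsPrim (x * y) c (m + n) ∧ resd v c = resd v a := by
  obtain ⟨hm, ha, hna, c, hc⟩ := hx
  obtain ⟨hn, hb, hnb, d, hd⟩ := hy
  have hlt : ∀ {k : ℕ}, 1 ≤ k → WithZero.exp (-(k : ℤ)) < (1 : WithZero (Multiplicative ℤ)) :=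
      fun {k} hk => by
    rw [← WithZero.exp_zero, WithZero.exp_lt_exp]; omega
  have hd' : v (b - a) < 1 := (resd_eq_iff hb ha).1 hr.symm
  set A := a * b - Q.n
  set B := a + b + Q.t
  have hB : v B = 1 := by
    rw [show B = (2 * a + Q.t) +
      (b - a) by simp [B]; ring, Valuation.map_add_eq_of_lt_left _ (by rwa [h2]), h2]
  have hA : v A ≤ 1 :=
    (v.map_sub _ _).trans (max_le (by rw [map_mul]; exact mul_le_one' ha hb) Q.hn)
  have hxy : ((scal (c * d) * (x * y) : GL (Fin 2) F) : Matrix (Fin 2) (Fin 2) F) = Q.mat A B := by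
    rw [scal_mul_mul_mul, Units.val_mul, hc, hd, mat_mul]
    congr 1 <;> simp [A, B]
  refine ⟨A / B, isPrim_of_coords _ hA hB (by omega) ?_ hxy, ?_⟩
  · rw [show Q.nm A B = Q.nm a 1 * Q.nm b 1 by simp [A, B, nm]; ring, map_mul, hna, hnb,
      ← WithZero.exp_add]
    congr 1
    push_cast
    ring
  · have hB0 : B ≠ 0 := fun e => by simp [e] at hB
    rw [resd_eq_iff (by rw [map_div₀, hB, div_one]; exact hA) ha,
      show A / B - a = -(Q.nm a 1) / B by field_simp; simp [A, B, nm]; ring, map_div₀, hB, div_one,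
      Valuation.map_neg, hna]
    exact hlt hm

include hϖ in
/-- In the ramified case the square of a class of order one is a unit. -/
lemma IsPrim.sq_mem {x : GL (Fin 2) F} {a : F} (hx : Q.IsPrim x a 1) (h2 : v (2 * a + Q.t) < 1) :
    x * x ∈ Q.ugrp := by
  obtain ⟨-, ha, hna, c, hc⟩ := hx
  have hϖ0 := ne_zero_of_unif (v := v) hϖ
  have hna1 : v (Q.nm a 1) < 1 := by rw [hna, ← WithZero.exp_zero, WithZero.exp_lt_exp]; omega
  have hlt : ∀ {z : F}, v z < 1 → v (ϖ⁻¹ * z) ≤ 1 := fun {z} hz => by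
    rw [map_mul, map_inv₀, hϖ, inv_mul_le_iff₀ (zero_lt_iff.2 WithZero.exp_ne_zero), mul_one]
    exact le_exp_neg_one_iff.2 hz
  refine ⟨Units.mk0 ϖ⁻¹ (inv_ne_zero hϖ0) * (c * c), ϖ⁻¹ * (a * a - Q.n), ϖ⁻¹ * (2 * a + Q.t), ?_,
    hlt h2, ?_, ?_⟩
  · refine hlt ?_
    rw [show a * a - Q.n = a * (2 * a + Q.t) - Q.nm a 1 by simp [nm]; ring]
    refine lt_of_le_of_lt (v.map_sub _ _) (max_lt ?_ hna1)
    rw [map_mul]
    exact lt_of_le_of_lt (mul_le_of_le_one_left' ha) h2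
  · rw [show Q.nm (ϖ⁻¹ * (a * a - Q.n)) (ϖ⁻¹ * (2 * a + Q.t)) = ϖ⁻¹ * ϖ⁻¹ * (Q.nm a 1 * Q.nm a 1) by
      simp [nm]; ring, map_mul, map_mul, map_mul, map_inv₀, hna, hϖ, ← WithZero.exp_add,
      ← WithZero.exp_neg, ← WithZero.exp_add, ← WithZero.exp_add]
    simp
  · rw [scal_mul, mul_assoc, Q.val_scal_mul _ (a := a * a - Q.n) (b := 2 * a + Q.t) ?_,
      Units.val_mk0]
    rw [scal_mul_mul_mul, Units.val_mul, hc, mat_mul]
    congr 1 <;> ring

/-- In the split case powers of a class of order one have the same residual root and growing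
order. -/
lemma IsPrim.pow {x : GL (Fin 2) F} {a : F} (hx : Q.IsPrim x a 1) (h2 : v (2 * a + Q.t) = 1) :
    ∀ k : ℕ, ∃ c, Q.IsPrim (x ^ (k + 1)) c (k + 1) ∧ resd v c = resd v a := by
  intro k
  induction k with
  | zero => exact ⟨a, by simpa using hx, rfl⟩
  | succ k ih =>
    obtain ⟨c, hc, hca⟩ := ih
    have h2' : v (2 * c + Q.t) = 1 := by
      have hd : v (c - a) < 1 := (resd_eq_iff hc.2.1 hx.2.1).1 hca
      rw [show 2 * c + Q.t = (2 * a + Q.t) +
        (c - a + (c - a)) by ring, Valuation.map_add_eq_of_lt_left, h2]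
      rw [h2]
      exact lt_of_le_of_lt (v.map_add _ _) (max_lt hd hd)
    obtain ⟨e, he, hec⟩ := hc.mul_same hx hca h2'
    exact ⟨e, by rwa [← pow_succ] at he, hec.trans hca⟩

include hϖ in
/-- In the split case the `k`-th power of a class of order one has displacement `|k|`. -/
lemma IsPrim.lvl_zpow {x : GL (Fin 2) F} {a : F} (hx : Q.IsPrim x a 1) (h2 : v (2 * a + Q.t) = 1)
    (k : ℤ) : lvl v (x ^ k) = k.natAbs := by
  have hnat : ∀ n : ℕ, lvl v (x ^ n) = n := fun n => by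
    rcases n with _ | n
    · rw [pow_zero, lvl_eq_zero_iff]; exact (U0 v).one_mem
    · obtain ⟨c, hc, -⟩ := hx.pow h2 n
      exact hc.lvl_self hϖ
  rcases Int.natAbs_eq k with e | e
  · conv_lhs => rw [e]
    rw [zpow_natCast, hnat]
  · conv_lhs => rw [e]
    rw [zpow_neg, zpow_natCast, lvl_inv, hnat]

include hϖ in
/-- **One generator** of the classes modulo units. -/
theorem IsPrim.generates {a : F} {y : GL (Fin 2) F} (hyt : y ∈ Q.torus) (hy : Q.IsPrim y a 1)
    {x : GL (Fin 2) F} (hx : x ∈ Q.torus) : ∃ k : ℤ, x * (y ^ k)⁻¹ ∈ Q.ugrp := by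
  obtain ⟨-, ha, hn, d, hd⟩ := id hy
  have hN : Q.nm a 1 ≠ 0 := fun e => by rw [e, map_zero] at hn; exact WithZero.exp_ne_zero hn.symm
  let H : Subgroup (GL (Fin 2) F) :=
    { carrier := {g | g ∈ Q.torus ∧ ∃ k : ℤ, g * (y ^ k)⁻¹ ∈ Q.ugrp}
      one_mem' := ⟨Q.torus.one_mem, 0, by simp⟩
      mul_mem' := by
        rintro g h ⟨hg, k, hk⟩ ⟨hh, l, hl⟩
        refine ⟨Q.torus.mul_mem hg hh, k + l, ?_⟩
        have hkt := Q.torus.inv_mem (Q.torus.zpow_mem hyt k)
        rw [show g * h * (y ^ (k + l))⁻¹ = g * (h * (y ^ l)⁻¹) * (y ^ k)⁻¹ by rw [zpow_add]; group,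
          mul_assoc g, Q.torus_comm (Q.ugrp_le_torus hl) hkt, ← mul_assoc]
        exact Q.ugrp.mul_mem hk hl
      inv_mem' := by
        rintro g ⟨hg, k, hk⟩
        refine ⟨Q.torus.inv_mem hg, -k, ?_⟩
        have := Q.ugrp.inv_mem hk
        rw [mul_inv_rev, inv_inv,
          Q.torus_comm (Q.torus.zpow_mem hyt k) (Q.torus.inv_mem hg)] at this
        rwa [zpow_neg, inv_inv] }
  refine (torus_le_of_gens hϖ H (fun g hg => ⟨Q.ugrp_le_torus hg, 0, by simpa using hg⟩) ?_ hx).2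
  intro z hz
  rw [roots_eq ha hy.root] at hz
  rcases hz with rfl | rfl
  · exact ⟨a, y, ⟨hyt, 1, by simp⟩, hy, rfl⟩
  -- the conjugate is the inverse up to scalars
  have hN' : Q.nm (-(a + Q.t)) 1 ≠ 0 := by
    rwa [show Q.nm (-(a + Q.t)) 1 = Q.nm a 1 by simp [nm]; ring]
  set y' := Q.el (-(a + Q.t)) 1 hN'
  have hat : v (-(a + Q.t)) ≤ 1 := by
    rw [Valuation.map_neg]; exact (v.map_add _ _).trans (max_le ha Q.ht)
  have hy' : Q.IsPrim y' (-(a + Q.t)) 1 := ⟨le_rfl, hat, by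
    rw [show Q.nm (-(a + Q.t)) 1 = Q.nm a 1 by simp [nm]; ring]; simpa using hn, 1, by
      simp [scal, y']⟩
  refine ⟨_, y', ⟨Q.el_mem_torus _ _ _, -1, ?_⟩, hy', rfl⟩
  rw [zpow_neg_one, inv_inv]
  have hye : scal d * y = Q.el a 1 hN := Units.ext hd
  have e : y' * Q.el a 1 hN = scal (Units.mk0 (-(Q.nm a 1)) (neg_ne_zero.2 hN)) := by
    refine Units.ext ?_
    rw [Units.val_mul, coe_el, coe_el, mat_mul, scal_coe]
    ext i j
    fin_cases i <;> fin_cases j <;> simp [mat, nm] <;> ring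
  rw [← hye, ← mul_assoc, ← scal_comm, mul_assoc] at e
  have := Q.ugrp.mul_mem (Q.ugrp.inv_mem (scal_mem_withScalars Q.unitGrp d))
    (e ▸ scal_mem_withScalars Q.unitGrp (Units.mk0 (-(Q.nm a 1)) (neg_ne_zero.2 hN)))
  rwa [inv_mul_cancel_left] at this

include hϖ in
/-- A root gives an element of order one. -/
theorem exists_gen_torus {r : IsLocalRing.ResidueField v.valuationSubring} (hr : r ∈ Q.roots) :
    ∃ (a : F) (y : GL (Fin 2) F), y ∈ Q.torus ∧ Q.IsPrim y a 1 := by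
  obtain ⟨a₀, ha₀, rfl⟩ := exists_resd_eq r
  have hlt : v (Q.nm a₀ 1) < 1 :=
    lt_of_le_of_ne (Q.v_nm_le ha₀ (map_one v).le) fun e => (Q.v_nm_one_iff ha₀).1 e hr
  obtain ⟨a, ha, -, hn⟩ := exists_gen (Q := Q) hϖ ha₀ hlt
  have hN : Q.nm a 1 ≠ 0 := fun e => by rw [e, map_zero] at hn; exact WithZero.exp_ne_zero hn.symm
  exact ⟨a, Q.el a 1 hN, Q.el_mem_torus _ _ _, le_rfl, ha, by simpa using hn, 1, by simp [scal]⟩

/-- The depth of a unit which is not scalar. -/
lemma exists_depth {x : GL (Fin 2) F} (hx : x ∈ Q.ugrp) (hns : ∀ c : Fˣ, x ≠ scal c) :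
    ∃ d, ∀ m, x ∈ Q.levG m ↔ m ≤ d := by
  obtain ⟨c, a, b, ha, hb, hn, h⟩ := Q.exists_coords_ugrp hx
  have hb0 : b ≠ 0 := by
    rintro rfl
    have ha0 : a ≠ 0 := fun h0 => by simp [h0, nm] at hn
    refine hns (c⁻¹ * Units.mk0 a ha0) ?_
    rw [scal_mul, ← show scal c * x = scal (Units.mk0 a ha0) from Units.ext (by
      rw [h, scal_coe]
      ext i j
      fin_cases i <;> fin_cases j <;> simp [mat]), ← mul_assoc, ← scal_mul, inv_mul_cancel]
    simp [scal]
  have hne : v b ≠ 0 := v.ne_zero_iff.2 hb0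
  refine ⟨(-WithZero.log (v b)).toNat, fun m => ?_⟩
  rw [Q.mem_levG_iff c ha hn h, ← WithZero.exp_log hne, WithZero.exp_le_exp, WithZero.log_exp]
  rw [← WithZero.exp_log hne, ← WithZero.exp_zero, WithZero.exp_le_exp] at hb
  omega

end QA

end Fermat.LT
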