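import Fermat.Agent.LT.LocOrbit
import Fermat.Agent.LT.LocPrim
import Fermat.Agent.LT.LocNorm

/-!
# The twisted displacement summed over the fibre of the trivial degree

The value at a vertex `g` is a function of the level of `g⁻¹ x θ(g) dε`; on the fibre it gives one
`slev` sum for each representative `y^j`.
-/

set_option autoImplicit false
open scoped Matrix Classical

namespace Fermat.LT

variable {E : Type*} [Field E] {w : Valuation E (WithZero (Multiplicative ℤ))}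

namespace QA

variable {Q : QA w} (τ : Q.Twist)

/-- The twist preserves `U0`. -/
lemma Twist.map_mem_U0 {k : GL (Fin 2) E} (hk : k ∈ U0 w) :
    Matrix.GeneralLinearGroup.map (τ.s : E →+* E) k ∈ U0 w := by
  obtain ⟨c, hc⟩ := hk
  obtain ⟨k0, hk0⟩ := hc
  refine ⟨Units.map (τ.s : E →+* E).toMonoidHom c, ?_⟩
  have e : scal (Units.map (τ.s : E →+* E).toMonoidHom c)
      = Matrix.GeneralLinearGroup.map (τ.s : E →+* E) (scal c) := Units.ext (by
    change _ = ((scal c : GL (Fin 2) E) : Matrix (Fin 2) (Fin 2) E).map τ.s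
    ext i j
    fin_cases i <;> fin_cases j <;> simp)
  rw [e, ← map_mul, ← hk0]
  let s' : w.integer →+* w.integer :=
    ((τ.s : E →+* E).comp w.integer.subtype).codRestrict w.integer fun a => by
      change w (τ.s a) ≤ 1
      rw [τ.hs]; exact a.2
  exact ⟨Matrix.GeneralLinearGroup.map s' k0, Units.ext rfl⟩

/-- The value of `h` at the displacement of a vertex by the twisted translation. -/
noncomputable def Twist.tval (h : ℕ → ℂ) (x : GL (Fin 2) E) (a : GL (Fin 2) E ⧸ U0 w) : ℂ :=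
  h (lvl w (a.out⁻¹ * (x * τ.θ a.out * τ.dε)))

/-- The value at a vertex is the function of its twisted displacement level. -/
lemma Twist.tval_mk (h : ℕ → ℂ) (x g : GL (Fin 2) E) :
    τ.tval h x (g : GL (Fin 2) E ⧸ U0 w) = h (lvl w (g⁻¹ * (x * τ.θ g * τ.dε))) := by
  obtain ⟨⟨k, hk⟩, e⟩ := QuotientGroup.mk_out_eq_mul (U0 w) g
  rw [Twist.tval, e]
  congr 1
  have hθ : τ.θ k * τ.dε = τ.dε * Matrix.GeneralLinearGroup.map (τ.s : E →+* E) k := by
    change τ.dε * Matrix.GeneralLinearGroup.map (τ.s : E →+* E) k * τ.dε⁻¹ * τ.dε = _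
    rw [inv_mul_cancel_right]
  change lvl w ((g * k)⁻¹ * (x * τ.θ (g * k) * τ.dε)) = _
  rw [map_mul, show (g * k)⁻¹ * (x * (τ.θ g * τ.θ k) * τ.dε)
      = k⁻¹ * ((g⁻¹ * (x * τ.θ g)) * (τ.θ k * τ.dε)) by
        group, hθ, lvl_mul_left w ((U0 w).inv_mem hk),
    ← mul_assoc _ τ.dε, lvl_mul_right w (τ.map_mem_U0 hk)]
  congr 1
  group

variable {ϖ : E} (hϖ : w ϖ = WithZero.exp (-1 : ℤ))

/-- The shift by a representative. -/
noncomputable def Twist.shiftPow (y x : GL (Fin 2) E) (j : ℕ) : GL (Fin 2) E :=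
  x * (y⁻¹ * τ.θ y) ^ j

/-- The twist preserves the torus. -/
lemma Twist.θ_mem_torus {g : GL (Fin 2) E} (hg : g ∈ Q.torus) : τ.θ g ∈ Q.torus := by
  obtain ⟨a, b, h⟩ := hg
  exact ⟨_, _, τ.θ_mat h⟩

/-- Coboundaries of powers are powers of coboundaries. -/
lemma Twist.cobound_pow {y : GL (Fin 2) E} (hy : y ∈ Q.torus) (j : ℕ) :
    (y ^ j)⁻¹ * τ.θ (y ^ j) = (y⁻¹ * τ.θ y) ^ j := by
  have hc : Commute y⁻¹ (τ.θ y) := Q.torus_comm (Q.torus.inv_mem hy) (τ.θ_mem_torus hy)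
  rw [hc.mul_pow, map_pow, inv_pow]

/-- The value at the vertices of a representative. -/
theorem Twist.tval_vertex (h : ℕ → ℂ) {x y : GL (Fin 2) E} (hx : x ∈ Q.torus) (hy : y ∈ Q.torus)
    (j i : ℕ) (u : Q.UQ i) :
    τ.tval h x (Q.vertex hϖ i (y ^ j * (u.out : GL (Fin 2) E)))
      = h (Q.dlvl hϖ i (τ.shift (τ.shiftPow y x j) u)) := by
  have hyj := Q.torus.pow_mem hy j
  have hu := Q.ugrp_le_torus u.out.2
  rw [vertex, τ.tval_mk, dlvl_eq_lvl_twist hϖ τ hx (Q.torus.mul_mem hyj hu)]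
  congr 2
  rw [Twist.shift, Twist.shiftPow, ← τ.cobound_pow hy, map_mul, mul_inv_rev, mul_assoc x,
    show ((y ^ j)⁻¹ * τ.θ (y ^ j)) * ((u.out : GL (Fin 2) E)⁻¹ * τ.θ (u.out : GL (Fin 2) E))
      = ((y ^ j)⁻¹ * τ.θ (y ^ j)) * (u.out : GL (Fin 2) E)⁻¹ * τ.θ (u.out : GL (Fin 2) E) by group,
    Q.torus_comm (Q.torus.mul_mem (Q.torus.inv_mem hyj) (τ.θ_mem_torus hyj)) (Q.torus.inv_mem hu)]
  group

/-- Deep levels are not reached from a unit. -/
def Twist.Shallow (z : GL (Fin 2) E) : Prop :=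
  z ∈ Q.ugrp → ∃ d, ∀ u ∈ Q.ugrp, z * (u⁻¹ * τ.θ u) ∉ Q.levG (d + 1)

/-- An element whose norm is not scalar whenever it is a unit is shallow. -/
lemma Twist.shallow_of_norm {z : GL (Fin 2) E} (hN : z ∈ Q.ugrp → ∀ c : Eˣ, τ.norm3 z ≠ scal c) :
    τ.Shallow z := by
  intro hz
  obtain ⟨d, hd⟩ := exists_depth (τ.normU ⟨z, hz⟩).2 (hN hz)
  refine ⟨d, fun u hu h => ?_⟩
  have h1 : τ.norm3 (z * (u⁻¹ * τ.θ u)) ∈ Q.levG (d + 1) :=
    (Q.levG _).mul_mem ((Q.levG _).mul_mem h (τ.θ_levG h)) (τ.θ_levG (τ.θ_levG h))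
  rw [τ.norm3_cobound hz hu] at h1
  exact absurd ((hd (d + 1)).1 h1) (by omega)

include hϖ in
/-- Levels beyond a bound give nothing. -/
lemma Twist.exists_bound {z : GL (Fin 2) E} (hz : z ∈ Q.torus) (hs : τ.Shallow z) {h : ℕ → ℂ}
    {D : ℕ} (hD : ∀ m, D < m → h m = 0) :
    ∃ N, ∀ i, N ≤ i → ∀ u : Q.UQ i, h (Q.dlvl hϖ i (τ.shift z u)) = 0 := by
  rcases mem_ugrp_or_isPrim hz with hu | ⟨a, m, hp⟩
  · obtain ⟨d, hd⟩ := hs hu
    refine ⟨d + D + 1, fun i hi u => hD _ ?_⟩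
    set s := τ.shift z u with hs'
    have hsu : s ∈ Q.ugrp := τ.shift_mem hu u
    set μ := Nat.findGreatest (fun k => s ∈ Q.levG k) i
    have hμ : s ∈ Q.levG μ :=
      Nat.findGreatest_spec (P := fun k => s ∈ Q.levG k) (Nat.zero_le i) (by rwa [levG_zero])
    have hμd : μ ≤ d := not_lt.1 fun hlt => hd _ u.out.2 (Q.levG_antitone hlt hμ)
    have hμi : μ < i := by omega
    rw [dlvl_of_exact hϖ hμi hμ
      (Nat.findGreatest_is_greatest (P := fun k => s ∈ Q.levG k) (Nat.lt_succ_self μ) hμi)]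
    omega
  · refine ⟨D + 1, fun i hi u => hD _ ?_⟩
    obtain ⟨b, hb⟩ := hp.mul_unit hϖ hz (Q.ugrp.mul_mem (Q.ugrp.inv_mem u.out.2) (τ.θ_ugrp u.out.2))
    rw [dlvl, show τ.shift z u = z * ((u.out : GL (Fin 2) E)⁻¹ * τ.θ u.out) from rfl,
      hb.lvl_eq hϖ i i]
    omega

variable {G : Type*} [Group G] {φ : G →* GL (Fin 2) E} {H U : Subgroup G} {y : GL (Fin 2) E} {J : ℕ}
  (R : Q.Reps φ H U y J) (hφU : ∀ g ∈ U, φ g ∈ Q.ugrp)
  [Finite (IsLocalRing.ResidueField w.valuationSubring)]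
include R hφU

/-- Only finitely many vertices of the fibre contribute. -/
theorem Reps.finite_fibre {x : GL (Fin 2) E} (hx : x ∈ Q.torus) {h : ℕ → ℂ} {D : ℕ}
    (hD : ∀ m, D < m → h m = 0) (hs : ∀ j < J, τ.Shallow (τ.shiftPow y x j)) :
    {a | R.deg hϖ a = ((1 : G) : G ⧸ U) ∧ τ.tval h x a ≠ 0}.Finite := by
  have hz : ∀ j, τ.shiftPow y x j ∈ Q.torus := fun j => Q.torus.mul_mem hx
    (Q.torus.pow_mem (Q.torus.mul_mem (Q.torus.inv_mem R.mem) (τ.θ_mem_torus R.mem)) j)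
  choose N hN using fun j : Fin J => τ.exists_bound hϖ (hz j) (hs j j.2) hD
  set B := Finset.univ.sup N
  let _ : ∀ i : ℕ, Finite (Q.UQ i) := fun i => finite_UQ hϖ i
  refine ((Set.finite_range fun p : Σ i : Fin B, Fin J × Q.UQ i =>
    Q.vertex hϖ p.1 (y ^ (p.2.1 : ℕ) * (p.2.2.out : GL (Fin 2) E)))).subset ?_
  rintro a ⟨ha, hne⟩
  obtain ⟨⟨i, j, u⟩, hp⟩ := (R.fibEquiv hϖ hφU).surjective ⟨a, ha⟩
  have hv : Q.vertex hϖ i (y ^ (j : ℕ) * (u.out : GL (Fin 2) E)) = a := congrArg Subtype.val hp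
  have hi : i < B := by
    refine lt_of_not_ge fun hle => hne ?_
    rw [← hv, τ.tval_vertex hϖ h hx R.mem]
    exact hN j i ((Finset.le_sup (Finset.mem_univ j)).trans hle) u
  exact ⟨⟨⟨i, hi⟩, j, u⟩, hv⟩

/-- **Sum of the twisted displacement over the fibre.** -/
theorem Reps.tsum_fibre {x : GL (Fin 2) E} (hx : x ∈ Q.torus) {h : ℕ → ℂ} {D : ℕ}
    (hD : ∀ m, D < m → h m = 0) (hs : ∀ j < J, τ.Shallow (τ.shiftPow y x j)) :
    ∑' a : {a // R.deg hϖ a = ((1 : G) : G ⧸ U)}, τ.tval h x a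
      = ∑ j ∈ Finset.range J, ∑ᶠ i, τ.slev hϖ h (τ.shiftPow y x j) i := by
  set f : GL (Fin 2) E ⧸ U0 w → ℂ :=
    fun a => if R.deg hϖ a = ((1 : G) : G ⧸ U) then τ.tval h x a else 0
  rw [show ∑' a : {a // R.deg hϖ a = ((1 : G) : G ⧸ U)}, τ.tval h x a
      = ∑' a : {a // R.deg hϖ a = ((1 : G) : G ⧸ U)}, f a from tsum_congr fun a =>
        (if_pos a.2).symm,
    R.sum_fibre hϖ hφU f ((R.finite_fibre τ hϖ hφU hx hD hs).subset fun a ha => ?_)]
  · refine Finset.sum_congr rfl fun j hj => finsum_congr fun i => finsum_congr fun u => ?_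
    have hdeg : R.deg hϖ (Q.vertex hϖ i (y ^ j * (u.out : GL (Fin 2) E))) = ((1 : G) : G ⧸ U) := by
      have := R.deg_vertex hϖ (Finset.mem_range.1 hj) H.one_mem u.out.2 i
      rwa [map_one, mul_one] at this
    change (if _ then _ else _) = _
    rw [if_pos hdeg, τ.tval_vertex hϖ h hx R.mem]
  · simp only [f, Function.mem_support, ne_eq, ite_eq_right_iff, not_forall] at ha
    obtain ⟨h1, h2⟩ := ha
    exact ⟨h1, h2⟩

omit R hφU [Finite (IsLocalRing.ResidueField w.valuationSubring)]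

/-- The trivial twist. -/
noncomputable def trivTwist (Q : QA w) : Q.Twist where
  s := RingEquiv.refl E
  hs _ := rfl
  hs3 _ := rfl
  ε := 1
  hε := map_one w
  hεN := by simp
  st := by simp
  sn := by simp

/-- The trivial twist fixes every element. -/
lemma trivTwist_θ (g : GL (Fin 2) E) : Q.trivTwist.θ g = g := by
  have hd : Q.trivTwist.dε = 1 := Units.ext (by
    change !![1, 0; 0, (1 : E)] = _
    ext i j
    fin_cases i <;> fin_cases j <;> simp)
  change Q.trivTwist.dε * Matrix.GeneralLinearGroup.map ((RingEquiv.refl E : E ≃+* E) : E →+* E) g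
    * Q.trivTwist.dε⁻¹ = g
  rw [hd, one_mul, inv_one, mul_one]
  exact Units.ext (Matrix.ext fun i j => rfl)

/-- Its scaling matrix is one. -/
lemma trivTwist_dε : Q.trivTwist.dε = 1 := Units.ext (by
  change !![1, 0; 0, (1 : E)] = _
  ext i j
  fin_cases i <;> fin_cases j <;> simp)

/-- Its value is the level of the displacement. -/
lemma trivTwist_tval (h : ℕ → ℂ) (x : GL (Fin 2) E) (a : GL (Fin 2) E ⧸ U0 w) :
    Q.trivTwist.tval h x a = h (lvl w (a.out⁻¹ * x * a.out)) := by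
  rw [Twist.tval, trivTwist_θ, trivTwist_dε, mul_one, mul_assoc]

/-- The shift of the trivial twist by `x` is `x` itself. -/
lemma trivTwist_shift (x : GL (Fin 2) E) {i : ℕ} (u : Q.UQ i) : Q.trivTwist.shift x u = x := by
  rw [Twist.shift, trivTwist_θ, inv_mul_cancel, mul_one]

/-- Its shift by powers is trivial. -/
lemma trivTwist_shiftPow (y x : GL (Fin 2) E) (j : ℕ) : Q.trivTwist.shiftPow y x j = x := by
  rw [Twist.shiftPow, trivTwist_θ, inv_mul_cancel, one_pow, mul_one]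

/-- For the trivial twist a non-scalar element is shallow. -/
lemma trivTwist_shallow {x : GL (Fin 2) E} (hns : ∀ c : Eˣ, x ≠ scal c) :
    Q.trivTwist.Shallow x := by
  intro hx
  obtain ⟨d, hd⟩ := exists_depth hx hns
  refine ⟨d, fun u _ h => ?_⟩
  rw [trivTwist_θ, inv_mul_cancel, mul_one] at h
  exact absurd ((hd (d + 1)).1 h) (by omega)

include hϖ in
/-- Its level sum is the number of classes times one value. -/
lemma trivTwist_slev [Finite (IsLocalRing.ResidueField w.valuationSubring)] (h : ℕ → ℂ)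
    (x : GL (Fin 2) E) (i : ℕ) :
    Q.trivTwist.slev hϖ h x i = (Nat.card (Q.UQ i) : ℂ) * h (Q.dlvl hϖ i x) := by
  have : Finite (Q.UQ i) := finite_UQ hϖ i
  let _ := Fintype.ofFinite (Q.UQ i)
  rw [Twist.slev, finsum_eq_sum_of_fintype]
  simp only [trivTwist_shift]
  rw [Finset.sum_const, Finset.card_univ, ← Nat.card_eq_fintype_card, nsmul_eq_mul]

include hϖ hφU in
/-- **Untwisted sum over the fibre.** For a regular torus element, the sum over the fibre of trivial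
degree of a function of the displacement is the orbital sum `osum`. -/
theorem Reps.tsum_fibre_plain [Finite (IsLocalRing.ResidueField w.valuationSubring)]
    (R : Q.Reps φ H U 1 1) {x : GL (Fin 2) E} (hx : x ∈ Q.torus)
    (hns : ∀ c : Eˣ, x ≠ scal c) {h : ℕ → ℂ} {D : ℕ} (hD : ∀ m, D < m → h m = 0) :
    ∑' a : {a // R.deg hϖ a = ((1 : G) : G ⧸ U)}, h (lvl w (a.1.out⁻¹ * x * a.1.out))
      = Q.osum hϖ h x := by
  rw [← tsum_congr fun a : {a // R.deg hϖ a = ((1 : G) : G ⧸ U)} => trivTwist_tval h x a.1,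
    R.tsum_fibre Q.trivTwist hϖ hφU hx hD
      (fun j _ => by rw [trivTwist_shiftPow]; exact trivTwist_shallow hns),
    Finset.sum_range_one, trivTwist_shiftPow]
  exact finsum_congr fun i => trivTwist_slev hϖ h x i

end QA

end Fermat.LT
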