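import Fermat.Agent.LT.LocRam

/-!
# Matching and norms at a tamely ramified place

`ramTot` is the value of the orbital sum on the small field: one, plus the character at the fixed
lines of the residual element, plus three times the number of deeper classes.
-/

set_option autoImplicit false
open scoped Matrix Classical
open Finset

namespace Fermat.LT

variable {F : Type*} [Field F] {E : Type*} [Field E]
  {v : Valuation F (WithZero (Multiplicative ℤ))} {w : Valuation E (WithZero (Multiplicative ℤ))}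

local notation "κ" => IsLocalRing.ResidueField v.valuationSubring
local notation "q" => Nat.card (IsLocalRing.ResidueField v.valuationSubring)

namespace QA

variable (Q : QA v)

/-- The orbital sum at a ramified place. -/
noncomputable def ramTot [Finite κ] (θ : MulChar κ ℂ) (γ : GL (Fin 2) F) (d : ℕ) : ℂ :=
  1 + (∑ z ∈ (Set.toFinite Q.roots).toFinset, θ (Q.rootRatio z γ)) + 3 * Emb.lvlSum Q d

variable {Q}

/-- If `z` is a root of the reduced polynomial then so is `-(z + t)`. -/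
lemma conj_root {z : κ} (hz : z ∈ Q.roots) : -(z + resd v Q.t) ∈ Q.roots := by
  have h : z * z + resd v Q.t * z + resd v Q.n = 0 := hz
  change _ = (0 : κ)
  linear_combination h

/-- The residual roots are a root and its conjugate. -/
lemma roots_pair {z : κ} (hz : z ∈ Q.roots) : Q.roots = {z, -(z + resd v Q.t)} := by
  ext y
  refine ⟨fun hy => ?_, ?_⟩
  · have h : z * z + resd v Q.t * z + resd v Q.n = 0 := hz
    have h' : y * y + resd v Q.t * y + resd v Q.n = 0 := hy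
    have : (y - z) * (y + (z + resd v Q.t)) = 0 := by linear_combination h' - h
    rcases mul_eq_zero.1 this with e | e
    · exact Or.inl (sub_eq_zero.1 e)
    · exact Or.inr (eq_neg_of_add_eq_zero_left e)
  · rintro (rfl | rfl)
    · exact hz
    · exact conj_root hz

/-- The other root gives the inverse ratio. -/
lemma rootRatio_conj {g : GL (Fin 2) F} (hg : g ∈ Q.ugrp) {z : κ} (hz : z ∈ Q.roots) :
    Q.rootRatio (-(z + resd v Q.t)) g = (Q.rootRatio z g)⁻¹ := by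
  obtain ⟨c, a, b, ha, hb, hn, h1⟩ := Q.exists_coords_ugrp hg
  obtain ⟨-, hr⟩ := Q.rootRatio_eq c ha hb hn h1 hz
  obtain ⟨-, hr'⟩ := Q.rootRatio_eq c ha hb hn h1 (conj_root hz)
  rw [hr, hr', inv_div]
  congr 1 <;> ring

/-- A sum over the roots has two terms. -/
lemma sum_roots [Finite κ] (f : κ → ℂ) {z : κ} (hz : z ∈ Q.roots) (h2 : z + z + resd v Q.t ≠ 0) :
    ∑ y ∈ (Set.toFinite Q.roots).toFinset, f y = f z + f (-(z + resd v Q.t)) := by
  have hne : z ≠ -(z + resd v Q.t) := fun e => h2 (by linear_combination e)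
  rw [show (Set.toFinite Q.roots).toFinset = {z, -(z + resd v Q.t)} by
    ext y; rw [Set.Finite.mem_toFinset, roots_pair hz]; simp, Finset.sum_pair hne]

/-- Without roots only the deeper classes contribute. -/
lemma ramTot_empty [Finite κ] (θ : MulChar κ ℂ) (γ : GL (Fin 2) F) (d : ℕ) (h : Q.roots = ∅) :
    Q.ramTot θ γ d = 1 + 3 * Emb.lvlSum Q d := by
  have : (Set.toFinite Q.roots).toFinset = ∅ := by ext; simp [h]
  rw [ramTot, this, Finset.sum_empty, add_zero]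

/-- With a double root the ramified orbital sum is `2 + 3 lvlSum`. -/
lemma ramTot_double [Finite κ] (θ : MulChar κ ℂ) {γ : GL (Fin 2) F} (hγ : γ ∈ Q.ugrp) (d : ℕ)
    {z : κ} (hz : z ∈ Q.roots) (h2 : z + z + resd v Q.t = 0) :
    Q.ramTot θ γ d = 2 + 3 * Emb.lvlSum Q d := by
  have : (Set.toFinite Q.roots).toFinset = {z} := by
    ext y
    rw [Set.Finite.mem_toFinset, roots_pair hz, Finset.mem_singleton,
      show -(z + resd v Q.t) = z by linear_combination -h2]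
    simp
  rw [ramTot, this, Finset.sum_singleton, Q.rootRatio_double hγ hz h2, map_one]
  ring

variable [Finite (IsLocalRing.ResidueField v.valuationSubring)] {ϖ : F}
  (hϖ : v ϖ = WithZero.exp (-1 : ℤ))

omit [Finite (IsLocalRing.ResidueField v.valuationSubring)] in
/-- A cube up to a subgroup of index prime to three. -/
lemma cube_of_coprime {G : Type*} [CommGroup G] (N : Subgroup G) {M : ℕ} (hN : ∀ g : G, g ^ M ∈ N)
    (hM : Nat.Coprime 3 M) (g : G) : ∃ d : G, g * (d ^ 3)⁻¹ ∈ N := by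
  obtain ⟨e, n, he⟩ := exists_three_mul_eq hM
  refine ⟨g ^ e, ?_⟩
  rw [← pow_mul, mul_comm e 3, he, pow_add, pow_one, pow_mul, mul_inv_rev, mul_comm _ g⁻¹,
    mul_inv_cancel_left]
  exact N.inv_mem (N.pow_mem (hN g) n)

omit [Finite (IsLocalRing.ResidueField v.valuationSubring)] in
include hϖ in
/-- Elements of the first level are cubes at every level. -/
lemma cube_levG_one (hq : Nat.Coprime 3 q) {γ : GL (Fin 2) F} (hγ : γ ∈ Q.levG 1) {M : ℕ}
    (hM : 1 ≤ M) :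
    ∃ δ ∈ Q.ugrp, γ * (δ ^ 3)⁻¹ ∈ Q.levG M := by
  set H := (Q.levG 1).subgroupOf Q.ugrp
  set N := ((Q.levG M).subgroupOf Q.ugrp).subgroupOf H with hN
  have hidx : N.index = q ^ (M - 1) := by
    refine (Subgroup.relIndex_subgroupOf (Q.levG_le_ugrp 1)).trans ?_
    exact relIndex_levG_of_le hϖ one_ne_zero hM
  obtain ⟨δ, hδ⟩ :=
    cube_of_coprime N (M := q ^ (M - 1)) (fun g => hidx ▸ Subgroup.pow_index_mem N g)
    (hq.pow_right _) (⟨⟨γ, Q.levG_le_ugrp 1 hγ⟩, Subgroup.mem_subgroupOf.2 hγ⟩ : H)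
  exact ⟨δ.1.1, δ.1.2, by simpa [hN, Subgroup.mem_subgroupOf] using hδ⟩

omit [Finite (IsLocalRing.ResidueField v.valuationSubring)] in
include hϖ in
/-- When the number of classes of level one is prime to three all units are cubes at every level. -/
lemma cube_ugrp (hq : Nat.Coprime 3 q) (hg : Nat.Coprime 3 Q.g1) {γ : GL (Fin 2) F}
    (hγ : γ ∈ Q.ugrp) (M : ℕ) : ∃ δ ∈ Q.ugrp, γ * (δ ^ 3)⁻¹ ∈ Q.levG M := by
  rcases M with _ | k
  · exact ⟨1, Q.ugrp.one_mem, by simpa [levG_zero] using hγ⟩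
  set N := (Q.levG (k + 1)).subgroupOf Q.ugrp
  obtain ⟨δ, hδ⟩ := cube_of_coprime N (M := Q.g1 * q ^ k) (fun g => by
    have h : N.index = Q.g1 * q ^ k := Q.natCard_UQ_succ hϖ k
    exact h ▸ Subgroup.pow_index_mem N g) (Nat.Coprime.mul_right hg (hq.pow_right _)) ⟨γ, hγ⟩
  exact ⟨δ.1, δ.2, Subgroup.mem_subgroupOf.1 hδ⟩

include hϖ in
/-- **Non-vanishing sums come from cubes.** -/
theorem cube_of_ramTot (hq : Nat.Coprime 3 q) (hq1 : 3 ∣ q - 1) {θ : MulChar κ ℂ}
    (hθ : orderOf θ = 3) {γ : GL (Fin 2) F} (hγ : γ ∈ Q.ugrp) {d : ℕ}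
    (hd : ∀ m, γ ∈ Q.levG m ↔ m ≤ d) (hne : Q.ramTot θ γ d ≠ 0) (M : ℕ) :
    ∃ δ ∈ Q.ugrp, γ * (δ ^ 3)⁻¹ ∈ Q.levG M := by
  have hq2 : 2 ≤ q := by
    have := Fintype.ofFinite κ
    rw [Nat.card_eq_fintype_card]; exact Fintype.one_lt_card
  have hg1 := Q.g1_eq
  by_cases hroots : Q.roots = ∅
  · refine cube_ugrp hϖ hq ?_ hγ M
    rw [hroots, Set.ncard_empty] at hg1
    rw [Nat.Prime.coprime_iff_not_dvd Nat.prime_three]
    omega
  obtain ⟨z, hz⟩ := Set.nonempty_iff_ne_empty.2 hroots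
  by_cases h2 : z + z + resd v Q.t = 0
  · refine cube_ugrp hϖ hq ?_ hγ M
    rw [roots_pair hz, show -(z + resd v Q.t) = z by linear_combination -h2] at hg1
    simp at hg1
    rw [hg1]
    exact hq
  rcases Nat.eq_zero_or_pos d with rfl | hd0
  swap
  · obtain rfl | hM := Nat.eq_zero_or_pos M
    · exact ⟨1, Q.ugrp.one_mem, by simpa [levG_zero] using hγ⟩
    exact cube_levG_one hϖ hq ((hd 1).2 hd0) hM
  -- the ratio is a cube
  set X := Q.rootRatio z γ with hX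
  have hX0 : X ≠ 0 := Q.rootRatio_ne_zero hγ hz
  have hθ3 : ∀ {u : κ}, u ≠ 0 → θ u ^ 3 = 1 := fun {u} hu => by
    rw [← MulChar.pow_apply' θ three_ne_zero, ← hθ, pow_orderOf_eq_one, MulChar.one_apply hu.isUnit]
  have hθX : θ X = 1 := by
    by_contra hne1
    refine hne ?_
    rw [ramTot, sum_roots _ hz h2, rootRatio_conj hγ hz, ← hX,
      show Emb.lvlSum Q 0 = 0 by simp [Emb.lvlSum]]
    have hinv : θ X⁻¹ * θ X = 1 := by rw [← map_mul, inv_mul_cancel₀ hX0, map_one]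
    have h3 := hθ3 hX0
    have : θ X ^ 2 + θ X + 1 = 0 := by
      have : (θ X - 1) * (θ X ^ 2 + θ X + 1) = 0 := by linear_combination h3
      exact (mul_eq_zero.1 this).resolve_left (sub_ne_zero.2 hne1)
    linear_combination this + (θ X * θ X) * hinv
      - θ X⁻¹ * h3
  obtain ⟨k, hk⟩ : ∃ k : κ, X = k ^ 3 := by
    have := Fintype.ofFinite κ
    obtain ⟨g, hg⟩ := IsCyclic.exists_generator (α := κˣ)
    obtain ⟨n, hn⟩ := Subgroup.mem_zpowers_iff.1 (hg (Units.mk0 X hX0))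
    have hθg : θ (g : κ) ≠ 1 := by
      intro h1
      have : θ = 1 := by
        ext u
        obtain ⟨m, rfl⟩ := Subgroup.mem_zpowers_iff.1 (hg u)
        rw [MulChar.one_apply_coe, ← MulChar.coe_toUnitHom, map_zpow,
          show θ.toUnitHom g = 1 from Units.ext (by rw [MulChar.coe_toUnitHom, h1, Units.val_one]),
          one_zpow, Units.val_one]
      rw [this, orderOf_one] at hθ
      omega
    have hgn : (θ.toUnitHom g) ^ n = 1 := by
      rw [← map_zpow, hn]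
      exact Units.ext (by rw [MulChar.coe_toUnitHom, Units.val_mk0, hθX, Units.val_one])
    have hord : orderOf (θ.toUnitHom g) = 3 := orderOf_eq_prime
      (Units.ext (by rw [Units.val_pow_eq_pow_val, MulChar.coe_toUnitHom, hθ3 g.ne_zero,
                       Units.val_one]))
      fun h => hθg (by rw [← MulChar.coe_toUnitHom, h, Units.val_one])
    obtain ⟨l, rfl⟩ : (3 : ℤ) ∣ n := by
      have := orderOf_dvd_iff_zpow_eq_one.2 hgn
      rwa [hord] at this
    refine ⟨((g ^ l : κˣ) : κ), ?_⟩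
    rw [← Units.val_pow_eq_pow_val, ← zpow_natCast, ← zpow_mul, mul_comm l,
      show ((3 : ℕ) : ℤ) = 3 from rfl, hn, Units.val_mk0]
  have hk0 : k ≠ 0 := fun e => hX0 (by rw [hk, e, zero_pow three_ne_zero])
  -- a unit with ratio `k`
  obtain ⟨b, hb, hbr⟩ := exists_resd_eq ((k - 1) / (z + z + resd v Q.t))
  obtain ⟨a, ha, har⟩ := exists_resd_eq (1 + z * resd v b)
  have hzz : z * z + resd v Q.t * z + resd v Q.n = 0 := hz
  have hnab : v (Q.nm a b) = 1 := by
    refine le_antisymm (Q.v_nm_le ha hb) (not_lt.1 fun hlt => ?_)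
    rw [← resd_eq_zero_iff (Q.v_nm_le ha hb)] at hlt
    have e1 : v (a * a) ≤ 1 := by rw [map_mul]; exact mul_le_one' ha ha
    have e2 : v (Q.t * a * b) ≤ 1 := by
      rw [map_mul, map_mul]; exact mul_le_one' (mul_le_one' Q.ht ha) hb
    have e3 : v (Q.n * b * b) ≤ 1 := by
      rw [map_mul, map_mul]; exact mul_le_one' (mul_le_one' Q.hn hb) hb
    rw [show Q.nm a b = a * a + Q.t * a * b + Q.n * b * b from rfl,
      resd_add ((v.map_add _ _).trans (max_le e1 e2)) e3, resd_add e1 e2, resd_mul ha ha,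
      resd_mul (by rw [map_mul]; exact mul_le_one' Q.ht ha) hb, resd_mul Q.ht ha,
      resd_mul (by rw [map_mul]; exact mul_le_one' Q.hn hb) hb, resd_mul Q.hn hb, har] at hlt
    refine hk0 ?_
    have hkb : (z + z + resd v Q.t) * resd v b = k - 1 := by rw [hbr, mul_div_cancel₀ _ h2]
    linear_combination hlt - hkb - (resd v b * resd v b) * hzz
  have hd0' : Q.nm a b ≠ 0 := fun e => by simp [e] at hnab
  have hy : Q.el a b hd0' ∈ Q.ugrp := le_withScalars _ ⟨a, b, ha, hb, hnab, rfl⟩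
  have hyr : Q.rootRatio z (Q.el a b hd0') = k := by
    rw [(Q.rootRatio_eq (g := Q.el a b hd0') 1 ha hb hnab (by simp [scal]) hz).2, har]
    rw [show 1 + z * resd v b - z * resd v b = 1 by ring, div_one]
    have hkb : (z + z + resd v Q.t) * resd v b = k - 1 := by rw [hbr, mul_div_cancel₀ _ h2]
    linear_combination hkb
  set y := Q.el a b hd0'
  have hlev : γ * (y ^ 3)⁻¹ ∈ Q.levG 1 := by
    have h3 : y ^ 3 ∈ Q.ugrp := Q.ugrp.pow_mem hy 3
    have hmem := Q.ugrp.mul_mem hγ (Q.ugrp.inv_mem h3)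
    refine Q.mem_levG_one_of_rootRatio hmem hz h2 ?_
    have e : Q.rootRatio z (γ * (y ^ 3)⁻¹) * Q.rootRatio z (y ^ 3) = X := by
      rw [← Q.rootRatio_mul hmem h3 hz, inv_mul_cancel_right]
    rw [pow_three, Q.rootRatio_mul hy (Q.ugrp.mul_mem hy hy) hz, Q.rootRatio_mul hy hy hz, hyr,
      show k * (k * k) = X by rw [hk]; ring] at e
    rw [← pow_three] at e
    exact (mul_eq_right₀ hX0).1 e
  obtain rfl | hM := Nat.eq_zero_or_pos M
  · exact ⟨1, Q.ugrp.one_mem, by simpa [levG_zero] using hγ⟩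
  obtain ⟨δ, hδ, hδM⟩ := cube_levG_one hϖ hq hlev hM
  refine ⟨δ * y, Q.ugrp.mul_mem hδ hy, ?_⟩
  rwa [mul_pow_comm hδ hy, mul_inv_rev, ← mul_assoc]
where
  mul_pow_comm {δ y : GL (Fin 2) F} (hδ : δ ∈ Q.ugrp) (hy : y ∈ Q.ugrp) : (δ * y) ^ 3 =
      δ ^ 3 * y ^ 3 :=
    Commute.mul_pow (torus_comm' hδ hy) 3

end QA

namespace Emb

variable {C : CycExt v w} {Q : QA v} (T : Emb C Q)
  [Finite (IsLocalRing.ResidueField v.valuationSubring)]
  [Finite (IsLocalRing.ResidueField w.valuationSubring)]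
  {ϖ : F} (hϖ : v ϖ = WithZero.exp (-1 : ℤ)) {ϖ' : E} (hϖ' : w ϖ' = WithZero.exp (-1 : ℤ))

omit [Finite (IsLocalRing.ResidueField v.valuationSubring)] in
omit [Finite (IsLocalRing.ResidueField w.valuationSubring)] in
include hϖ' in
/-- Non-units fix nothing. -/
theorem slev_nonunit {x : GL (Fin 2) E} (hxt : x ∈ T.Q'.torus) (hx : x ∉ T.Q'.ugrp) (i : ℕ) :
    T.twist.slev hϖ' delta0 x i = 0 := by
  refine finsum_eq_zero_of_forall_eq_zero fun u => if_neg ?_
  obtain ⟨a, m, h⟩ := (QA.mem_ugrp_or_isPrim hxt).resolve_left hx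
  obtain ⟨b, hb⟩ := h.mul_unit hϖ' hxt
    (T.Q'.ugrp.mul_mem (T.Q'.ugrp.inv_mem u.out.2) (T.twist.θ_ugrp u.out.2))
  rw [QA.dlvl, show T.twist.shift x u = x * ((u.out : GL (Fin 2) E)⁻¹ * T.twist.θ u.out) from rfl,
    hb.lvl_eq hϖ' i i]
  have := h.1
  omega

omit [Finite (IsLocalRing.ResidueField w.valuationSubring)] in
include hϖ in
/-- Non-vanishing small sums are norms. -/
theorem ram_norm (hq : Nat.Coprime 3 q) (hq1 : 3 ∣ q - 1) {θ : MulChar κ ℂ} (hθ : orderOf θ = 3)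
    {γ : GL (Fin 2) F} (hγ : γ ∈ Q.ugrp) {d : ℕ} (hd : ∀ m, γ ∈ Q.levG m ↔ m ≤ d)
    (hne : Q.ramTot θ γ d ≠ 0) (m : ℕ) :
    ∃ z ∈ T.Q'.ugrp, (T.φ γ)⁻¹ * T.twist.norm3 z ∈ T.Q'.levG m := by
  obtain ⟨δ, hδ, hδm⟩ := QA.cube_of_ramTot hϖ hq hq1 hθ hγ hd hne (T.lev m)
  refine ⟨T.φ δ, T.φ_ugrp hδ, ?_⟩
  have e : T.twist.norm3 (T.φ δ) = T.φ (δ ^ 3) := by
    rw [QA.Twist.norm3, T.θ_φ (Q.ugrp_le_torus hδ), T.θ_φ (Q.ugrp_le_torus hδ), map_pow, pow_three']
  have h := (T.mem_levG'_iff (Q.ugrp.mul_mem hγ (Q.ugrp.inv_mem (Q.ugrp.pow_mem hδ 3))) m).2 hδm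
  rw [e, QA.torus_comm' (T.Q'.ugrp.inv_mem (T.φ_ugrp hγ)) (T.φ_ugrp (Q.ugrp.pow_mem hδ 3))]
  have h' := (T.Q'.levG m).inv_mem h
  rwa [map_mul, map_inv, mul_inv_rev, inv_inv] at h'

include hϖ hϖ' in
/-- **Matching, ramified algebra.** For an Eisenstein order, the count `fixTot` of a unit with norm
`γ` equals the ramified orbital sum at `γ`. -/
theorem ram_match_eis (hT : C.Tame) (hr : T.r = 1) (hq : Nat.Coprime 3 q) (θ : MulChar κ ℂ)
    {x : GL (Fin 2) E} (hx : x ∈ T.Q'.ugrp) {c : Eˣ} {γ : GL (Fin 2) F} (hγ : γ ∈ Q.ugrp)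
    (hN : T.twist.norm3 x = scal c * T.φ γ) {d : ℕ} (hd : ∀ m, γ ∈ Q.levG m ↔ m ≤ d) :
    T.fixTot hϖ' x = Q.ramTot θ γ d := by
  rcases T.hr with h | ⟨-, -, ht, hn⟩
  · omega
  have ht0 : resd v Q.t = 0 := (resd_eq_zero_iff Q.ht).2 ht
  have hn0 : resd v Q.n = 0 := (resd_eq_zero_iff Q.hn).2 (by
    rw [hn, ← WithZero.exp_zero, WithZero.exp_lt_exp]; omega)
  rw [T.fixTot_reached hϖ hϖ' hT hq hx (T.sol1_eis hT hr hx) hγ hN hd,
    QA.ramTot_double θ hγ d (z := 0) (show _ = (0 : κ) by rw [hn0]; ring) (by rw [ht0]; ring), hr]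
  push_cast
  ring

omit [Finite (IsLocalRing.ResidueField v.valuationSubring)]
  [Finite (IsLocalRing.ResidueField w.valuationSubring)] in
/-- Without roots below there are none above, for tame ramification. -/
lemma roots_empty (hT : C.Tame) (hρ : T.ρ = 1) (hroots : Q.roots = ∅) : T.Q'.roots = ∅ := by
  refine Set.eq_empty_iff_forall_notMem.2 fun z hz => ?_
  obtain ⟨y, rfl⟩ := hT.resHom_surjective z
  have h : C.resHom y * C.resHom y + resd w T.Q'.t * C.resHom y + resd w T.Q'.n = 0 := hz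
  rw [show T.Q'.t = C.ι Q.t by simpa [hρ] using T.ht,
                                 show T.Q'.n = C.ι Q.n by simpa [hρ] using T.hn,
    ← C.resHom_resd Q.ht, ← C.resHom_resd Q.hn, ← map_mul, ← map_mul, ← map_add, ← map_add,
    map_eq_zero] at h
  exact (Set.eq_empty_iff_forall_notMem.1 hroots) y h

include hϖ hϖ' in
/-- **Matching, unramified field algebra.** -/
theorem ram_match_field (hT : C.Tame) (hρ : T.ρ = 1) (hr : T.r = 0) (hq : Nat.Coprime 3 q)
    (hq1 : 3 ∣ q - 1) (hroots : Q.roots = ∅) (θ : MulChar κ ℂ) {x : GL (Fin 2) E}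
    (hx : x ∈ T.Q'.ugrp) {c : Eˣ} {γ : GL (Fin 2) F} (hγ : γ ∈ Q.ugrp)
    (hN : T.twist.norm3 x = scal c * T.φ γ) {d : ℕ} (hd : ∀ m, γ ∈ Q.levG m ↔ m ≤ d) :
    T.fixTot hϖ' x = Q.ramTot θ γ d := by
  -- the residual form of `T` has no roots either
  have hroots' := T.roots_empty hT hρ hroots
  -- a norm in level one forces the class of `x` there to be trivial
  have h1 : T.twist.Sol1 x := fun hN1 => ⟨1, T.Q'.ugrp.one_mem, by
    rw [map_one, inv_one, one_mul, mul_one]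
    have hcob := T.cobound_mem_one hT hr hx
    have hcob2 := T.cobound_mem_one hT hr (T.twist.θ_ugrp hx)
    set L := (T.Q'.levG 1).subgroupOf T.Q'.ugrp
    set X : T.Q'.ugrp := ⟨x, hx⟩
    have hA : X⁻¹ * T.twist.θu X ∈ L := Subgroup.mem_subgroupOf.2 hcob
    have hB : (T.twist.θu X)⁻¹ * T.twist.θu (T.twist.θu X) ∈ L := Subgroup.mem_subgroupOf.2 hcob2
    have hNX : X * T.twist.θu X * T.twist.θu (T.twist.θu X) ∈ L := Subgroup.mem_subgroupOf.2 hN1
    have h3 : X ^ 3 ∈ L := by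
      have := L.mul_mem hNX (L.inv_mem (L.mul_mem (L.mul_mem hA hA) hB))
      convert this using 1
      rw [pow_three]
      apply Additive.ofMul.injective
      simp only [ofMul_mul, ofMul_inv]
      abel
    have hcop : Nat.Coprime 3 T.Q'.g1 := by
      have := T.Q'.g1_eq
      rw [hroots', Set.ncard_empty, hT.natCard_res] at this
      rw [Nat.Prime.coprime_iff_not_dvd Nat.prime_three]
      have : 2 ≤ q := by
        have := Fintype.ofFinite κ
        rw [Nat.card_eq_fintype_card]; exact Fintype.one_lt_card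
      omega
    obtain ⟨δ, hδ⟩ :=
      QA.cube_of_coprime L (M := T.Q'.g1) (fun g => Subgroup.pow_index_mem L g) hcop X
    have hXg : X ^ T.Q'.g1 ∈ L := Subgroup.pow_index_mem L X
    have hone : X ∈ L := by
      have hb : (X : T.Q'.UQ 1) ^ 3 = 1 := (QuotientGroup.eq_one_iff _).2 h3
      have hg : (X : T.Q'.UQ 1) ^ T.Q'.g1 = 1 := (QuotientGroup.eq_one_iff _).2 hXg
      have := Nat.eq_one_of_dvd_coprimes hcop (orderOf_dvd_of_pow_eq_one hb)
        (orderOf_dvd_of_pow_eq_one hg)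
      exact (QuotientGroup.eq_one_iff _).1 (orderOf_eq_one_iff.1 this)
    exact Subgroup.mem_subgroupOf.1 hone⟩
  rw [T.fixTot_reached hϖ hϖ' hT hq hx h1 hγ hN hd, QA.ramTot_empty θ γ d hroots, hr]
  push_cast
  ring

omit [Finite (IsLocalRing.ResidueField v.valuationSubring)]
  [Finite (IsLocalRing.ResidueField w.valuationSubring)] in
include hϖ' in
/-- A simple root of the residual norm form lifts, shifted by the uniformiser, to an element whose
norm is a uniformiser. -/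
theorem w_nm_add_unif (hT : C.Tame) (hρ : T.ρ = 1) {a : F} (ha : v a ≤ 1)
    (hz : resd v a ∈ Q.roots) (h2 : resd v a + resd v a + resd v Q.t ≠ 0) :
    w (C.ι (Q.nm a 1)) ≤ WithZero.exp (-(3 : ℤ)) ∧ w (2 * C.ι a + C.ι Q.t) = 1 ∧
      w (T.Q'.nm (C.ι a + ϖ') 1) = WithZero.exp (-1 : ℤ) := by
  have ht : T.Q'.t = C.ι Q.t := by simpa [hρ] using T.ht
  have hn : T.Q'.n = C.ι Q.n := by simpa [hρ] using T.hn
  set α := C.ι a + ϖ' with hα
  have hnm3 : w (C.ι (Q.nm a 1)) ≤ WithZero.exp (-(3 : ℤ)) := by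
    have hlt : v (Q.nm a 1) < 1 :=
      lt_of_le_of_ne (Q.v_nm_le ha (map_one v).le) fun e => (Q.v_nm_one_iff ha).1 e hz
    rw [C.hι, hT.e3]
    exact (pow_le_pow_left₀ zero_le (le_exp_neg_one_iff.2 hlt) 3).trans
      (le_of_eq (by rw [← WithZero.exp_nsmul]; rfl))
  have h2a : w (2 * C.ι a + C.ι Q.t) = 1 := by
    have h2' : v (2 * a + Q.t) = 1 := by
      have hle : v (2 * a + Q.t) ≤ 1 :=
        (v.map_add _ _).trans
          (max_le (by rw [two_mul]; exact (v.map_add _ _).trans (max_le ha ha)) Q.ht)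
      refine le_antisymm hle (not_lt.1 fun hlt => h2 ?_)
      rw [← resd_eq_zero_iff hle,
        resd_add (by rw [two_mul]; exact (v.map_add _ _).trans (max_le ha ha)) Q.ht,
        two_mul, resd_add ha ha] at hlt
      exact hlt
    rw [← (C.w_eq_one_iff _).2 h2']
    simp only [map_add, map_mul, map_ofNat]
  have hnα : w (T.Q'.nm α 1) = WithZero.exp (-1 : ℤ) := by
    rw [show T.Q'.nm α 1 = ϖ' * (2 * C.ι a + C.ι Q.t) + (C.ι (Q.nm a 1) + ϖ' * ϖ') by
      simp [QA.nm, hα, ht, hn]; ring, Valuation.map_add_eq_of_lt_left, map_mul, hϖ', h2a, mul_one]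
    rw [map_mul w ϖ', hϖ', h2a, mul_one]
    refine lt_of_le_of_lt (w.map_add _ _) (max_lt (lt_of_le_of_lt hnm3 ?_) ?_)
    · rw [WithZero.exp_lt_exp]; omega
    · rw [map_mul, hϖ', ← WithZero.exp_add, WithZero.exp_lt_exp]; omega
  exact ⟨hnm3, h2a, hnα⟩

omit [Finite (IsLocalRing.ResidueField v.valuationSubring)] in
omit [Finite (IsLocalRing.ResidueField w.valuationSubring)] in
include hϖ' in
/-- The translation between the three components over a split algebra. -/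
theorem exists_zeta (hT : C.Tame) (hρ : T.ρ = 1) {z : κ} (hz : z ∈ Q.roots)
    (h2 : z + z + resd v Q.t ≠ 0) :
    ∃ y ∈ T.Q'.torus, ∃ a, T.Q'.IsPrim y a 1 ∧ y⁻¹ * T.twist.θ y ∈ T.Q'.ugrp ∧
      T.twist.norm3 (y⁻¹ * T.twist.θ y) = 1 ∧
      IsPrimitiveRoot (T.Q'.rootRatio (C.resHom z) (y⁻¹ * T.twist.θ y)) 3 := by
  obtain ⟨a, ha, rfl⟩ := exists_resd_eq z
  have ht : T.Q'.t = C.ι Q.t := by simpa [hρ] using T.ht
  have hn : T.Q'.n = C.ι Q.n := by simpa [hρ] using T.hn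
  have hε : T.twist.ε = 1 := by change T.ρ / C.s T.ρ = 1; simp [hρ]
  have hπ0 : ϖ' ≠ 0 := fun e => WithZero.exp_ne_zero (by rw [← hϖ', e, map_zero])
  have hπ1 : w ϖ' < 1 := by rw [hϖ', ← WithZero.exp_zero, WithZero.exp_lt_exp]; omega
  have ha' : w (C.ι a) ≤ 1 := (C.w_le_one_iff a).2 ha
  set α := C.ι a + ϖ' with hα
  have hα1 : w α ≤ 1 := (w.map_add _ _).trans (max_le ha' hπ1.le)
  obtain ⟨hnm3, h2a, hnα⟩ := T.w_nm_add_unif hϖ' hT hρ ha hz h2
  have hd0 : T.Q'.nm α 1 ≠ 0 := fun e => by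
    rw [e, map_zero] at hnα; exact WithZero.exp_ne_zero hnα.symm
  set y := T.Q'.el α 1 hd0
  have hyt : y ∈ T.Q'.torus := T.Q'.el_mem_torus _ _ _
  have hθy : ((T.twist.θ y : GL (Fin 2) E) : Matrix (Fin 2) (Fin 2) E) = T.Q'.mat (C.s α) 1 := by
    rw [T.twist.θ_mat (T.Q'.coe_el α 1 hd0), hε, map_one, mul_one]
    rfl
  have hyinv : ((y⁻¹ : GL (Fin 2) E) : Matrix (Fin 2) (Fin 2) E)
      = T.Q'.mat ((α + T.Q'.t) / T.Q'.nm α 1) (-1 / T.Q'.nm α 1) := by
    rw [← Units.mul_right_inj (a := y), ← Units.val_mul, mul_inv_cancel, QA.coe_el, QA.mat_mul,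
      Units.val_one, ← T.Q'.mat_one]
    congr 1 <;> field_simp <;> simp [QA.nm]; ring
  set u := y⁻¹ * T.twist.θ y with hu
  set A := ((α + T.Q'.t) * C.s α + T.Q'.n) / ϖ' with hA
  set B := (α - C.s α) / ϖ' with hB
  have hc0 : T.Q'.nm α 1 / ϖ' ≠ 0 := div_ne_zero hd0 hπ0
  have hcoord : ((scal (Units.mk0 _ hc0) * u : GL (Fin 2) E) : Matrix (Fin 2) (Fin 2) E) =
      T.Q'.mat A B := by
    rw [T.Q'.val_scal_mul (Units.mk0 _ hc0) (show (u : Matrix (Fin 2) (Fin 2) E) = _ by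
      rw [hu, Units.val_mul, hyinv, hθy, QA.mat_mul]), Units.val_mk0, hA, hB]
    congr 1 <;> field_simp <;> ring
  have hlt : ∀ {t : E}, w t ≤ WithZero.exp (-1 : ℤ) → w (t / ϖ') ≤ 1 := fun {t} h => by
    rw [map_div₀, hϖ', div_le_one₀ (zero_lt_iff.2 WithZero.exp_ne_zero)]; exact h
  have hsd : w (C.s α - α) ≤ WithZero.exp (-1 : ℤ) := le_exp_neg_one_iff.2 (hT.s_resd hα1)
  have hAT : w (α + T.Q'.t) ≤ 1 := (w.map_add _ _).trans (max_le hα1 T.Q'.ht)
  -- the coordinates `A`, `B` are integral of unit norm, so `y⁻¹ θ y` is in the unit group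
  have hAi : w A ≤ 1 := hlt (by
    rw [show (α + T.Q'.t) * C.s α + T.Q'.n = T.Q'.nm α 1 + (α + T.Q'.t) * (C.s α - α) by
      simp [QA.nm]; ring]
    refine (w.map_add _ _).trans (max_le hnα.le ?_)
    rw [map_mul]
    exact (mul_le_of_le_one_left' hAT).trans hsd)
  have hBi : w B ≤ 1 := hlt (by rw [← Valuation.map_neg, neg_sub]; exact hsd)
  have hnAB : w (T.Q'.nm A B) = 1 := by
    have hs : T.Q'.nm (C.s α) 1 = C.s (T.Q'.nm α 1) := by simp [QA.nm, ht, hn, C.sι]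
    rw [show T.Q'.nm A B = T.Q'.nm α 1 * T.Q'.nm (C.s α) 1 / (ϖ' * ϖ') by
      simp [hA, hB, QA.nm]; field_simp; ring, hs, map_div₀, map_mul, map_mul, C.hs, hnα, hϖ',
      div_self (mul_ne_zero WithZero.exp_ne_zero WithZero.exp_ne_zero)]
  have hum : u ∈ T.Q'.ugrp := ⟨_, A, B, hAi, hBi, hnAB, hcoord⟩
  have hN : T.twist.norm3 u = 1 := by
    have h3 : T.twist.θ (T.twist.θ (T.twist.θ y)) = y := Units.ext (by
      rw [T.twist.θ_mat (T.twist.θ_mat (T.twist.θ_mat (T.Q'.coe_el α 1 hd0)))]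
      simp only [hε, map_one, mul_one, show ∀ e, T.twist.s e = C.s e from fun _ => rfl, C.hs3]
      rfl)
    rw [hu, QA.Twist.norm3, map_mul, map_inv, map_mul, map_inv, h3]
    group
  refine ⟨y, hyt, α, ⟨le_rfl, hα1, by simpa using hnα, 1, by simp [scal, y]⟩, hum, hN, ?_⟩
  have hz' := (T.rootRatio_φ hρ Q.ugrp.one_mem hz).1
  obtain ⟨hden, hr⟩ := T.Q'.rootRatio_eq (Units.mk0 _ hc0) hAi hBi hnAB hcoord hz'
  rw [hr]
  -- the ratio is the inverse of the residue of `sπ / π`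
  set ζ := resd w (C.s ϖ' / ϖ') with hζ
  have hζ1 : w (C.s ϖ' / ϖ') ≤ 1 := by rw [map_div₀, C.hs, div_self (hϖ' ▸ WithZero.exp_ne_zero)]
  have hsα : C.s α - α = ϖ' * (C.s ϖ' / ϖ' - 1) := by
    simp only [hα, map_add, C.sι]; field_simp; ring
  have h1w : resd w (1 : E) = 1 := (resd_eq (map_one w).le).trans (map_one _)
  have h2i : w (2 * C.ι a + C.ι Q.t) ≤ 1 := h2a.le
  have hres2 : resd w (2 * C.ι a + C.ι Q.t) = C.resHom (resd v a + resd v a + resd v Q.t) := by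
    have h2v : v (2 * a) ≤ 1 := by rw [two_mul]; exact (v.map_add _ _).trans (max_le ha ha)
    rw [← resd_add ha ha, ← two_mul, ← resd_add h2v Q.ht,
      C.resHom_resd ((v.map_add _ _).trans (max_le h2v Q.ht)), map_add, map_mul, map_ofNat]
  -- the residues of `A` and `B` in terms of `ζ`
  have hnd : resd w (T.Q'.nm α 1 / ϖ') = resd w (2 * C.ι a + C.ι Q.t) := by
    rw [resd_eq_iff (hlt hnα.le) h2i]
    rw [show T.Q'.nm α 1 / ϖ' - (2 * C.ι a + C.ι Q.t) = C.ι (Q.nm a 1) / ϖ' + ϖ' by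
      simp [QA.nm, hα, ht, hn]; field_simp; ring]
    refine lt_of_le_of_lt (w.map_add _ _) (max_lt ?_ hπ1)
    rw [map_div₀, hϖ', div_lt_iff₀ (zero_lt_iff.2 WithZero.exp_ne_zero), one_mul]
    exact lt_of_le_of_lt hnm3 (by rw [WithZero.exp_lt_exp]; omega)
  have hζm : w (C.s ϖ' / ϖ' - 1) ≤ 1 := (w.map_sub _ _).trans (max_le hζ1 (map_one w).le)
  have hsub : resd w (C.s ϖ' / ϖ' - 1) = ζ - 1 := by
    rw [sub_eq_add_neg, resd_add hζ1 (by rw [Valuation.map_neg, map_one]),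
      resd_neg (map_one w).le, h1w, ← sub_eq_add_neg]
  have hBe : resd w B = 1 - ζ := by
    rw [show B = -(C.s ϖ' / ϖ' - 1) by
      rw [hB, ← neg_sub (C.s α) α, hsα]; field_simp, resd_neg hζm, hsub, neg_sub]
  have hαe : resd w α = C.resHom (resd v a) := by
    rw [C.resHom_resd ha, resd_eq_iff hα1 ha', hα, add_sub_cancel_left]; exact hπ1
  have hATe : resd w (α + T.Q'.t) = C.resHom (resd v a) + C.resHom (resd v Q.t) := by
    rw [resd_add hα1 T.Q'.ht, hαe, ht, C.resHom_resd Q.ht]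
  have hAe : resd w A = resd w (2 * C.ι a + C.ι Q.t)
      + (C.resHom (resd v a) + C.resHom (resd v Q.t)) * (ζ - 1) := by
    rw [show A = T.Q'.nm α 1 / ϖ' + (α + T.Q'.t) * (C.s ϖ' / ϖ' - 1) by
      rw [hA, show C.s α = α + ϖ' * (C.s ϖ' / ϖ' - 1) by rw [← hsα]; ring]
      simp [QA.nm]; field_simp; ring,
      resd_add (hlt hnα.le) (by rw [map_mul]; exact mul_le_one' hAT hζm),
      resd_mul hAT hζm, hnd, hATe, hsub]
  set D := resd w (2 * C.ι a + C.ι Q.t) with hD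
  have hD0 : D ≠ 0 := fun e => by
    rw [resd_eq_zero_iff h2i, h2a] at e; exact lt_irrefl _ e
  have hDe : D = C.resHom (resd v a) + C.resHom (resd v a) + C.resHom (resd v Q.t) := by
    rw [hres2, map_add, map_add]
  have hζ0 : ζ ≠ 0 := fun e => by
    have := hT.zeta_cube hϖ'
    rw [← hζ, e, zero_pow three_ne_zero] at this
    exact zero_ne_one this
  have e1 : resd w A + (C.resHom (resd v a) + resd w T.Q'.t) * resd w B = D := by
    rw [hAe, hBe, ht, C.resHom_resd Q.ht]; ring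
  have e2 : resd w A - C.resHom (resd v a) * resd w B = D * ζ := by
    rw [hAe, hBe]; rw [hDe]; ring
  rw [e1, e2, show D / (D * ζ) = ζ⁻¹ by field_simp]
  refine IsPrimitiveRoot.inv ?_
  have hp : orderOf ζ = 3 := orderOf_eq_prime (hT.zeta_cube hϖ') (hT.zeta_ne_one hϖ')
  exact hp ▸ IsPrimitiveRoot.orderOf ζ

include hϖ hϖ' in
/-- **Matching, split algebra**: the three components together. -/
theorem ram_match_split (hT : C.Tame) (hρ : T.ρ = 1) (hr : T.r = 0) (hq : Nat.Coprime 3 q)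
    {θ : MulChar κ ℂ} (hθ : θ ^ 3 = 1) {z : κ} (hz : z ∈ Q.roots) (h2 : z + z + resd v Q.t ≠ 0)
    {u : GL (Fin 2) E} (hu : u ∈ T.Q'.ugrp) (hNu : T.twist.norm3 u = 1)
    (hζ : IsPrimitiveRoot (T.Q'.rootRatio (C.resHom z) u) 3)
    {x : GL (Fin 2) E} (hx : x ∈ T.Q'.ugrp) {c : Eˣ} {γ : GL (Fin 2) F} (hγ : γ ∈ Q.ugrp)
    (hN : T.twist.norm3 x = scal c * T.φ γ) {d : ℕ} (hd : ∀ m, γ ∈ Q.levG m ↔ m ≤ d) :
    ∑ j ∈ Finset.range 3, T.fixTot hϖ' (x * u ^ j) = Q.ramTot θ γ d := by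
  have hz' := (T.rootRatio_φ hρ hγ hz).1
  have h2' : C.resHom z + C.resHom z + resd w T.Q'.t ≠ 0 := by
    rw [show T.Q'.t = C.ι Q.t by simpa [hρ] using T.ht, ← C.resHom_resd Q.ht, ← map_add, ← map_add]
    exact (map_ne_zero C.resHom).2 h2
  set X := T.Q'.rootRatio (C.resHom z) x with hX
  set ζ := T.Q'.rootRatio (C.resHom z) u with hζdef
  have hratio : X ^ 3 = C.resHom (Q.rootRatio z γ) := by
    rw [hX, ← T.rootRatio_norm3 hT hr hx hz', hN,
      T.Q'.rootRatio_mul (scal_mem_withScalars _ c) (T.φ_ugrp hγ) hz',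
      T.Q'.rootRatio_of_levG_one (scal_mem_withScalars _ c), one_mul, (T.rootRatio_φ hρ hγ hz).2]
  -- the character is trivial on the ratio
  have hcube : ∃ k, Q.rootRatio z γ = k ^ 3 := by
    obtain ⟨k, hk⟩ := hT.resHom_surjective X
    refine ⟨k, C.resHom.injective ?_⟩
    rw [map_pow, hk, hratio]
  have hθ1 : θ (Q.rootRatio z γ) = 1 := by
    obtain ⟨k, hk⟩ := hcube
    have hk0 : k ≠ 0 := fun e => Q.rootRatio_ne_zero hγ hz (by rw [hk, e, zero_pow three_ne_zero])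
    rw [hk, map_pow, ← MulChar.pow_apply' θ three_ne_zero, hθ, MulChar.one_apply hk0.isUnit]
  have hθ2 : θ (Q.rootRatio z γ)⁻¹ = 1 := by
    have := congrArg θ (inv_mul_cancel₀ (Q.rootRatio_ne_zero hγ hz))
    rwa [map_mul, hθ1, mul_one, map_one] at this
  rw [QA.ramTot, QA.sum_roots _ hz h2, QA.rootRatio_conj hγ hz, hθ1, hθ2]
  have hxu : ∀ j : ℕ, x * u ^ j ∈ T.Q'.ugrp :=
    fun j => T.Q'.ugrp.mul_mem hx (T.Q'.ugrp.pow_mem hu j)
  have hNj : ∀ j : ℕ, T.twist.norm3 (x * u ^ j) = scal c * T.φ γ := by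
    intro j
    have : T.twist.normU (⟨x, hx⟩ * ⟨u, hu⟩ ^ j) = T.twist.normU ⟨x, hx⟩ := by
      rw [map_mul, map_pow, show T.twist.normU ⟨u, hu⟩ = 1 from Subtype.ext hNu, one_pow, mul_one]
    rw [← hN]
    exact congrArg Subtype.val this
  have hrj : ∀ j : ℕ, T.Q'.rootRatio (C.resHom z) (x * u ^ j) = X * ζ ^ j := by
    intro j
    induction j with
    | zero => simp [hX]
    | succ k ih =>
      rw [pow_succ, ← mul_assoc, T.Q'.rootRatio_mul (hxu k) hu hz', ih, pow_succ, mul_assoc]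
  have hlev : ∀ j : ℕ, x * u ^ j ∈ T.Q'.levG 1 ↔ X * ζ ^ j = 1 := fun j => by
    rw [← hrj]
    exact ⟨fun h => T.Q'.rootRatio_of_levG_one h _,
      fun h => T.Q'.mem_levG_one_of_rootRatio (hxu j) hz' h2' h⟩
  have hval : ∀ j : ℕ, T.fixTot hϖ' (x * u ^ j) =
      1 + if X * ζ ^ j = 1 then 3 * lvlSum Q d else 0 := by
    intro j
    split_ifs with h
    · rw [T.fixTot_reached hϖ hϖ' hT hq (hxu j) (fun _ => ⟨1, T.Q'.ugrp.one_mem, by
        rw [map_one, inv_one, one_mul, mul_one]; exact (hlev j).2 h⟩) hγ (hNj j) hd, hr]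
      push_cast; ring
    · rw [T.fixTot_unreached hϖ' hT hr (hxu j) (fun h' => h ((hlev j).1 h')), add_zero]
  rw [Finset.sum_congr rfl fun j _ => hval j, Finset.sum_add_distrib, Finset.sum_const,
    Finset.card_range]
  have hsum : ∑ j ∈ Finset.range 3, (if X * ζ ^ j = 1 then 3 * lvlSum Q d else 0) =
      3 * lvlSum Q d := by
    rcases Nat.eq_zero_or_pos d with rfl | hd0
    · simp [lvlSum]
    have hX3 : X ^ 3 = 1 := by
      rw [hratio, Q.rootRatio_of_levG_one ((hd 1).2 hd0), map_one]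
    obtain ⟨i, hi, hiX⟩ := hζ.eq_pow_of_pow_eq_one hX3
    set j₀ := (3 - i) % 3
    have hj₀ : X * ζ ^ j₀ = 1 := by
      rw [← hiX, ← pow_add, hζ.pow_eq_one_iff_dvd]
      omega
    rw [Finset.sum_eq_single j₀ (fun j hj hne => if_neg fun h => hne ?_)
      (fun h => absurd (Finset.mem_range.2 (Nat.mod_lt _ (by omega))) h), if_pos hj₀]
    have e : ζ ^ j = ζ ^ j₀ := by
      have hX0 : X ≠ 0 := fun e => by simp [e] at hX3
      exact mul_left_cancel₀ hX0 (h.trans hj₀.symm)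
    exact hζ.pow_inj (Finset.mem_range.1 hj) (Nat.mod_lt _ (by omega)) e
  rw [hsum]
  simp only [nsmul_eq_mul]
  push_cast
  ring

end Emb

end Fermat.LT
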