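import Fermat.Agent.LT.RamKer

/-!
# The fibre sums of the kernel at a ramified place

Summed over a fibre, `P + P_θ` gives `1` plus the values of the character at the fixed lines.
-/

set_option autoImplicit false
open Set
open scoped Classical

namespace Fermat.LT

section FinField

variable {k : Type*} [Field k]

/-- A matrix with the given first column line `(z : 1)`. -/
noncomputable def lineMat (z : k) (p y : kˣ) (r : k) : GL (Fin 2) k :=
  Matrix.GeneralLinearGroup.mkOfDetNeZero !![z * y, z * r + p; (y : k), r]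
    (by
      rw [Matrix.det_fin_two_of, show z * (y : k) * r - (z * r + p) * y = -((p : k) * y) by ring]
      exact neg_ne_zero.2 (mul_ne_zero p.ne_zero y.ne_zero))

/-- The entries of the parametrised matrix. -/
lemma coe_lineMat (z : k) (p y : kˣ) (r : k) :
    (lineMat z p y r : Matrix (Fin 2) (Fin 2) k) = !![z * y, z * r + p; (y : k), r] := rfl

/-- Every matrix outside the Borel subgroup is parametrised. -/
lemma exists_lineMat {N : GL (Fin 2) k} (h : (N : Matrix (Fin 2) (Fin 2) k) 1 0 ≠ 0) :
    ∃ z p y r, N = lineMat z p y r := by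
  set n := (N : Matrix (Fin 2) (Fin 2) k)
  have hd : n.det ≠ 0 := (Matrix.GeneralLinearGroup.det N).ne_zero
  set z := n 0 0 / n 1 0
  have hz : z * n 1 0 = n 0 0 := div_mul_cancel₀ _ h
  have hp : n 0 1 - z * n 1 1 ≠ 0 := fun e => hd (by
    rw [Matrix.det_fin_two, sub_eq_zero.1 e, ← hz]; ring)
  refine ⟨z, Units.mk0 _ hp, Units.mk0 _ h, n 1 1, Units.ext ?_⟩
  rw [coe_lineMat]
  ext i j
  fin_cases i <;> fin_cases j <;> simp [n, hz]

/-- In the basis of a line `(z : 1)` a matrix is triangular exactly at its fixed lines. -/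
lemma conj_lineMat {M : GL (Fin 2) k} {a b c d : k}
    (hM : (M : Matrix (Fin 2) (Fin 2) k) = !![a, b; c, d]) (z : k) (p y : kˣ) (r : k) :
    ((((lineMat z p y r)⁻¹ * M * lineMat z p y r : GL (Fin 2) k) : Matrix (Fin 2) (Fin 2) k) 1 0 = 0
      ↔ c * z ^ 2 + (d - a) * z - b = 0) ∧
    (c * z ^ 2 + (d - a) * z - b = 0 →
      ((((lineMat z p y r)⁻¹ * M * lineMat z p y r : GL (Fin 2) k) : Matrix (Fin 2) (Fin 2) k) 0 0
        = c * z + d) ∧
      ((((lineMat z p y r)⁻¹ * M * lineMat z p y r : GL (Fin 2) k) : Matrix (Fin 2) (Fin 2) k) 1 1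
        = a - c * z)) := by
  have hp := p.ne_zero
  have hy := y.ne_zero
  have hinv : ((lineMat z p y r)⁻¹ : GL (Fin 2) k).val
      = !![-r / (p * y), (z * r + p) / (p * y); 1 / (p : k), -z / p] := by
    rw [← Units.mul_right_inj (a := lineMat z p y r), ← Units.val_mul, mul_inv_cancel, coe_lineMat]
    ext i j
    fin_cases i <;> fin_cases j <;> simp [Matrix.mul_apply] <;> field_simp <;> ring
  rw [Units.val_mul, Units.val_mul, hinv, hM, coe_lineMat]
  refine ⟨?_, fun h => ⟨?_, ?_⟩⟩
  · simp [Matrix.mul_apply]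
    rw [show ((p : k)⁻¹ * a + -z / p * c) * (z * y) + ((p : k)⁻¹ * b + -z / p * d) * y
      = -(c * z ^ 2 + (d - a) * z - b) * ((y : k) / p) by field_simp; ring]
    simp [hp, hy]
    constructor <;> intro e <;> linear_combination -e
  · simp [Matrix.mul_apply]
    field_simp
    linear_combination r * h
  · simp [Matrix.mul_apply]
    field_simp
    linear_combination (-r) * h

end FinField

variable {F : Type*} [Field F] [NumberField F] {v : Place F}

/-- The fibre sum of the kernel. -/
noncomputable def ramVal (v : Place F) (M : GL (Fin 2) (Res v)) : ℂ :=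
  (Fintype.card (Res v)ˣ : ℂ)⁻¹ * ∑ N : GL (Fin 2) (Res v), ramFun v (N⁻¹ * M * N)

/-- The fibre sum ignores scalars. -/
lemma scalInv_ramVal : ScalInv (ramVal v) := fun z M => by
  simp only [ramVal]
  congr 1
  refine Finset.sum_congr rfl fun N _ => ?_
  rw [← mul_assoc, ← scal_comm, mul_assoc (scal z), mul_assoc (scal z), scalInv_ramFun v z]

/-- The order of `GL₂` of the residue field. -/
lemma card_GL_res (v : Place F) : Fintype.card (GL (Fin 2) (Res v))
    = (Fintype.card (Res v) ^ 2 - 1) * (Fintype.card (Res v) ^ 2 - Fintype.card (Res v)) := by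
  rw [← Nat.card_eq_fintype_card, Matrix.card_GL_field]
  simp [Fin.prod_univ_two]

/-- A residue field has at least two elements. -/
lemma two_le_card_res (v : Place F) : (2 : ℕ) ≤ Fintype.card (Res v) := Fintype.one_lt_card

/-- The fibre sum is one plus the averaged character over triangular conjugates. -/
lemma ramVal_eq (M : GL (Fin 2) (Res v)) :
    ramVal v M = 1 + (Fintype.card (Res v)ˣ : ℂ)⁻¹
      * ((Fintype.card (Res v) : ℂ) * ((Fintype.card (Res v) : ℂ) - 1))⁻¹
      * ∑ N : GL (Fin 2) (Res v),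
          if ((N⁻¹ * M * N : GL (Fin 2) (Res v)) : Matrix (Fin 2) (Fin 2) (Res v)) 1 0 = 0 then
            cubChar v (((N⁻¹ * M * N : GL (Fin 2) (Res v)) : Matrix (Fin 2) (Fin 2) (Res v)) 0 0
              / ((N⁻¹ * M * N : GL (Fin 2) (Res v)) : Matrix (Fin 2) (Fin 2) (Res v)) 1 1)
          else 0 := by
  have h2 := two_le_card_res v
  simp only [ramVal, ramFun]
  rw [Finset.sum_add_distrib, mul_add, Finset.sum_const, Finset.card_univ,
    card_GL_res, nsmul_eq_mul]
  congr 1
  · have hcast :
        (((Fintype.card (Res v) ^ 2 - 1) *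
        (Fintype.card (Res v) ^ 2 - Fintype.card (Res v)) : ℕ) : ℂ)
        = ((Fintype.card (Res v) : ℂ) ^ 2 - 1) *
            ((Fintype.card (Res v) : ℂ) ^ 2 - Fintype.card (Res v)) := by
      rw [Nat.cast_mul, Nat.cast_sub (by nlinarith), Nat.cast_sub (by nlinarith)]
      push_cast; ring
    rw [hcast, Fintype.card_units, Nat.cast_sub (by omega), Nat.cast_one]
    have hq : (Fintype.card (Res v) : ℂ) ≠ 0 := by
      exact_mod_cast (show Fintype.card (Res v) ≠ 0 by omega)
    have hq1 : (Fintype.card (Res v) : ℂ) - 1 ≠ 0 := by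
      rw [sub_ne_zero]; exact_mod_cast (show Fintype.card (Res v) ≠ 1 by omega)
    have hq2 : (Fintype.card (Res v) : ℂ) + 1 ≠ 0 := Nat.cast_add_one_ne_zero _
    field_simp
    ring
  · rw [mul_assoc]
    congr 1
    rw [Finset.mul_sum]
    refine Finset.sum_congr rfl fun N _ => ?_
    split_ifs <;> ring

/-- At a scalar the fibre sum of the ramified kernel is `q + 2`. -/
theorem ramVal_scal (z : (Res v)ˣ) : ramVal v (scal z) = (Fintype.card (Res v) : ℂ) + 2 := by
  have h2 := two_le_card_res v
  rw [ramVal_eq, Finset.sum_congr rfl (g := fun _ => (1 : ℂ)) fun N _ => ?_, Finset.sum_const,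
    Finset.card_univ, card_GL_res, nsmul_eq_mul, mul_one, Fintype.card_units, Nat.cast_mul,
    Nat.cast_sub (by omega), Nat.cast_sub (by first | omega | nlinarith),
    Nat.cast_sub (by first | omega | nlinarith)]
  · have hq : (Fintype.card (Res v) : ℂ) ≠ 0 := by
      exact_mod_cast (show Fintype.card (Res v) ≠ 0 by omega)
    have hq1 : (Fintype.card (Res v) : ℂ) - 1 ≠ 0 := by
      rw [sub_ne_zero]; exact_mod_cast (show Fintype.card (Res v) ≠ 1 by omega)
    push_cast
    field_simp
    ring
  · rw [show N⁻¹ * scal z * N = scal z by rw [← scal_comm, mul_assoc, inv_mul_cancel, mul_one]]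
    simp

/-- A reduction with nonzero lower entry. -/
theorem ramVal_lower {M : GL (Fin 2) (Res v)} {a b c d : Res v}
    (hM : (M : Matrix (Fin 2) (Fin 2) (Res v)) = !![a, b; c, d]) (hc : c ≠ 0) :
    ramVal v M = 1 + ∑ z ∈ Finset.univ.filter (fun z => c * z ^ 2 + (d - a) * z - b = 0),
      cubChar v ((c * z + d) / (a - c * z)) := by
  have h2 := two_le_card_res v
  set Z := Finset.univ.filter (fun z => c * z ^ 2 + (d - a) * z - b = 0) with hZ
  rw [ramVal_eq, ← Finset.sum_filter]
  congr 1
  -- the lines fixed by `M` are parametrised by the roots `z`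
  have hbij : ∑ N ∈ Finset.univ.filter (fun N : GL (Fin 2) (Res v) =>
      ((N⁻¹ * M * N : GL (Fin 2) (Res v)) : Matrix (Fin 2) (Fin 2) (Res v)) 1 0 = 0),
        cubChar v (((N⁻¹ * M * N : GL (Fin 2) (Res v)) : Matrix (Fin 2) (Fin 2) (Res v)) 0 0
          / ((N⁻¹ * M * N : GL (Fin 2) (Res v)) : Matrix (Fin 2) (Fin 2) (Res v)) 1 1)
      = ∑ x ∈ Z ×ˢ (Finset.univ : Finset ((Res v)ˣ × (Res v)ˣ × Res v)),
          cubChar v ((c * x.1 + d) / (a - c * x.1)) := by
    symm
    refine Finset.sum_bij (fun x _ => lineMat x.1 x.2.1 x.2.2.1 x.2.2.2) (fun x hx => ?_)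
      (fun x _ x' _ e => ?_) (fun N hN => ?_) (fun x hx => ?_)
    · simp only [Finset.mem_product, hZ, Finset.mem_filter, Finset.mem_univ, true_and,
        and_true] at hx
      simp only [Finset.mem_filter, Finset.mem_univ, true_and]
      exact (conj_lineMat hM _ _ _ _).1.2 hx
    · have e' := congrArg (fun N : GL (Fin 2) (Res v) => (N : Matrix (Fin 2) (Fin 2) (Res v))) e
      simp only [coe_lineMat] at e'
      have e00 := congrFun (congrFun e' 0) 0
      have e10 := congrFun (congrFun e' 1) 0
      have e11 := congrFun (congrFun e' 1) 1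
      have e01 := congrFun (congrFun e' 0) 1
      simp at e00 e10 e11 e01
      obtain ⟨z, p, y, r⟩ := x
      obtain ⟨z', p', y', r'⟩ := x'
      simp only at e00 e10 e11 e01
      obtain rfl : y = y' := Units.ext e10
      obtain rfl : z = z' := by simpa using e00
      subst e11
      obtain rfl : p = p' := Units.ext (by simpa using e01)
      rfl
    · simp only [Finset.mem_filter, Finset.mem_univ, true_and] at hN
      by_cases h10 : (N : Matrix (Fin 2) (Fin 2) (Res v)) 1 0 = 0
      · exfalso
        refine hc ?_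
        have hd := (Matrix.GeneralLinearGroup.det N).ne_zero
        rw [Matrix.GeneralLinearGroup.val_det_apply, Matrix.det_fin_two, h10, mul_zero,
          sub_zero] at hd
        have e : ((N * (N⁻¹ * M * N) : GL (Fin 2) (Res v)) : Matrix (Fin 2) (Fin 2) (Res v))
            = ((M * N : GL (Fin 2) (Res v)) : Matrix (Fin 2) (Fin 2) (Res v)) := by congr 1; group
        have e10 := congrFun (congrFun e 1) 0
        rw [Units.val_mul N (N⁻¹ * M * N), Units.val_mul M N, hM, Matrix.mul_apply,
          Matrix.mul_apply, Fin.sum_univ_two, Fin.sum_univ_two, h10, hN] at e10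
        simp at e10
        exact e10.resolve_right (left_ne_zero_of_mul hd)
      · obtain ⟨z, p, y, r, rfl⟩ := exists_lineMat h10
        exact ⟨(z, p, y, r), by simp [hZ, (conj_lineMat hM z p y r).1.1 hN], rfl⟩
    · simp only [Finset.mem_product, hZ, Finset.mem_filter, Finset.mem_univ, true_and,
        and_true] at hx
      obtain ⟨e0, e1⟩ := (conj_lineMat hM x.1 x.2.1 x.2.2.1 x.2.2.2).2 hx
      rw [e0, e1]
  rw [hbij, Finset.sum_product]
  simp only [Finset.sum_const, nsmul_eq_mul, Finset.card_univ, Fintype.card_prod,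
    Fintype.card_units, ← Finset.mul_sum]
  rw [Nat.cast_mul, Nat.cast_mul, Nat.cast_sub (by omega), Nat.cast_one]
  have hq : (Fintype.card (Res v) : ℂ) ≠ 0 := by
    exact_mod_cast (show Fintype.card (Res v) ≠ 0 by omega)
  have hq1 : (Fintype.card (Res v) : ℂ) - 1 ≠ 0 := by
    rw [sub_ne_zero]; exact_mod_cast (show Fintype.card (Res v) ≠ 1 by omega)
  field_simp

end Fermat.LT
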