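import Mathlib

/-!
# Spherical kernels on a `(q+1)`-regular tree and their Satake transform

A spherical kernel is given by a function `h : ℕ → ℂ` of the distance.  `kern q p` is the kernel
of `p(T₁)`; its Satake transform is `p(√q (t + t⁻¹))`.
-/

set_option autoImplicit false
open Polynomial LaurentPolynomial
open scoped LaurentPolynomial

namespace Fermat.LT

variable (q : ℕ)

/-- Composition with the adjacency kernel. -/
def stepKer : (ℕ → ℂ) →ₗ[ℂ] (ℕ → ℂ) where
  toFun h n := match n with
    | 0 => (q + 1) * h 1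
    | m + 1 => h m + q * h (m + 2)
  map_add' f g := by
    funext n; cases n <;> simp [mul_add]; ring
  map_smul' c f := by
    funext n; cases n <;> simp [smul_eq_mul] <;> ring

/-- The neighbour operator at the origin. -/
lemma stepKer_zero (h : ℕ → ℂ) : stepKer q h 0 = (q + 1) * h 1 := rfl

/-- The neighbour operator away from the origin. -/
lemma stepKer_succ (h : ℕ → ℂ) (m : ℕ) : stepKer q h (m + 1) = h m + q * h (m + 2) := rfl

/-- The kernel of the identity. -/
def delta0 : ℕ → ℂ := fun n => if n = 0 then 1 else 0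

/-- The kernel of `p(T₁)`. -/
noncomputable def kern (p : ℂ[X]) : ℕ → ℂ := aeval (stepKer q) p delta0

/-- Multiplying by `X` applies the neighbour operator. -/
lemma kern_X_mul (p : ℂ[X]) : kern q (X * p) = stepKer q (kern q p) := by
  simp [kern, Module.End.mul_apply]

/-- The kernel of `p(T₁)` is supported within the degree of `p`. -/
lemma kern_eq_zero (p : ℂ[X]) : ∀ n, p.natDegree < n → kern q p n = 0 := by
  intro n hn
  have key : ∀ (k : ℕ) (m : ℕ), k < m → ((stepKer q) ^ k) delta0 m = 0 := by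
    intro k
    induction k with
    | zero => intro m hm; simp [delta0, (show m ≠ 0 by omega)]
    | succ k ih =>
      intro m hm
      obtain ⟨m', rfl⟩ : ∃ m', m = m' + 1 := ⟨m - 1, by omega⟩
      rw [pow_succ', Module.End.mul_apply, stepKer_succ, ih m' (by omega), ih (m' + 2) (by omega)]
      simp
  rw [kern, aeval_eq_sum_range, LinearMap.sum_apply, Finset.sum_apply]
  refine Finset.sum_eq_zero fun k hk => ?_
  have hk' := Finset.mem_range.1 hk
  simp [key k n (by omega)]

/-- `∑ r, q ^ r * h (n + 2 r + 2)` for eventually vanishing `h`. -/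
noncomputable def gsum (h : ℕ → ℂ) (n : ℕ) : ℂ := ∑ᶠ r : ℕ, (q : ℂ) ^ r * h (n + 2 * r + 2)

/-- For finitely supported functions the weighted sum is a finite sum. -/
lemma gsum_eq_sum {h : ℕ → ℂ} {D : ℕ} (hD : ∀ m, D < m → h m = 0) (n N : ℕ)
    (hN : D ≤ n + 2 * N + 1) :
    gsum q h n = ∑ r ∈ Finset.range N, (q : ℂ) ^ r * h (n + 2 * r + 2) := by
  refine finsum_eq_sum_of_support_subset _ fun r hr => ?_
  simp only [Finset.coe_range, Set.mem_Iio]
  by_contra hlt
  exact hr (by simp [hD (n + 2 * r + 2) (by omega)])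

/-- The recursion of the weighted sum in steps of two. -/
lemma gsum_rec {h : ℕ → ℂ} {D : ℕ} (hD : ∀ m, D < m → h m = 0) (n : ℕ) :
    gsum q h n = h (n + 2) + q * gsum q h (n + 2) := by
  rw [gsum_eq_sum q hD n (D + 1) (by omega), gsum_eq_sum q hD (n + 2) D (by omega),
    Finset.sum_range_succ', Finset.mul_sum, add_comm]
  simp only [Nat.mul_zero, Nat.add_zero, pow_zero, one_mul]
  congr 1
  refine Finset.sum_congr rfl fun r _ => ?_
  rw [show n + 2 * (r + 1) + 2 = n + 2 + 2 * r + 2 by omega]
  ring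

/-- Scaled constant term coefficient: `h n + (q-1) ∑ r, q ^ r * h (n + 2 r + 2)`. -/
noncomputable def ctil (h : ℕ → ℂ) (n : ℕ) : ℂ := h n + ((q : ℂ) - 1) * gsum q h n

/-- The range grows by one. -/
lemma stepKer_eq_zero {h : ℕ → ℂ} {D : ℕ} (hD : ∀ m, D < m → h m = 0) :
    ∀ m, D + 1 < m → stepKer q h m = 0 := by
  intro m hm
  obtain ⟨m', rfl⟩ : ∃ m', m = m' + 1 := ⟨m - 1, by omega⟩
  rw [stepKer_succ, hD m' (by omega), hD (m' + 2) (by omega)]; simp

/-- The weighted sum after one adjacency step. -/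
lemma gsum_stepKer {h : ℕ → ℂ} {D : ℕ} (hD : ∀ m, D < m → h m = 0) (n : ℕ) :
    gsum q (stepKer q h) n = h (n + 1) + q * gsum q h (n + 1) + q * gsum q h (n + 1) := by
  rw [gsum_eq_sum q (stepKer_eq_zero q hD) n (D + 2) (by omega)]
  have e : ∀ r, (q : ℂ) ^ r * stepKer q h (n + 2 * r + 2)
      = (q : ℂ) ^ r * h (n + 2 * r + 1) + q * ((q : ℂ) ^ r * h (n + 1 + 2 * r + 2)) := fun r => by
    rw [show n + 2 * r + 2 = (n + 2 * r + 1) + 1 by omega, stepKer_succ,
      show n + 2 * r + 1 + 2 = n + 1 + 2 * r + 2 by omega]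
    ring
  simp only [e, Finset.sum_add_distrib, ← Finset.mul_sum]
  rw [← gsum_eq_sum q hD (n + 1) (D + 2) (by omega), Finset.sum_range_succ']
  simp only [Nat.mul_zero, Nat.add_zero, pow_zero, one_mul]
  rw [gsum_eq_sum q hD (n + 1) (D + 1) (by omega)]
  have e2 : ∀ r, (q : ℂ) ^ (r + 1) * h (n + 2 * (r + 1) + 1)
      = q * ((q : ℂ) ^ r * h (n + 1 + 2 * r + 2)) := fun r => by
    rw [show n + 2 * (r + 1) + 1 = n + 1 + 2 * r + 2 by omega]; ring
  simp only [e2, ← Finset.mul_sum]
  ring

/-- The constant term of a step. -/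
lemma ctil_stepKer_succ {h : ℕ → ℂ} {D : ℕ} (hD : ∀ m, D < m → h m = 0) (m : ℕ) :
    ctil q (stepKer q h) (m + 1) = ctil q h m + q * ctil q h (m + 2) := by
  simp only [ctil, gsum_stepKer q hD, stepKer_succ, gsum_rec q hD m]
  ring

/-- The constant term of a step at the origin. -/
lemma ctil_stepKer_zero {h : ℕ → ℂ} {D : ℕ} (hD : ∀ m, D < m → h m = 0) :
    ctil q (stepKer q h) 0 = 2 * q * ctil q h 1 := by
  simp only [ctil, gsum_stepKer q hD, stepKer_zero, Nat.zero_add]
  ring

/-- Satake transform of `p(T₁)`. -/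
noncomputable def sat (p : ℂ[X]) : ℂ[T;T⁻¹] :=
  aeval (LaurentPolynomial.C ((Real.sqrt q : ℝ) : ℂ) * (T 1 + T (-1))) p

/-- The Satake transform turns `T₁` into multiplication by `√q (t + t⁻¹)`. -/
lemma sat_X_mul (p : ℂ[X]) (k : ℤ) :
    (sat q (X * p)).coeff k
      = ((Real.sqrt q : ℝ) : ℂ) * ((sat q p).coeff (k - 1) + (sat q p).coeff (k + 1)) := by
  rw [sat, map_mul, aeval_X, ← sat, mul_add, add_mul, ← LaurentPolynomial.single_eq_C_mul_T,
    ← LaurentPolynomial.single_eq_C_mul_T]
  rw [AddMonoidAlgebra.coeff_add, Finsupp.add_apply, AddMonoidAlgebra.coeff_single_mul_apply,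
    AddMonoidAlgebra.coeff_single_mul_apply]
  norm_num [sub_eq_add_neg, add_comm]
  ring

/-- `√q` squares to `q`. -/
lemma sqrt_q_sq : ((Real.sqrt q : ℝ) : ℂ) * ((Real.sqrt q : ℝ) : ℂ) = (q : ℂ) := by
  rw [← Complex.ofReal_mul, Real.mul_self_sqrt (Nat.cast_nonneg q), Complex.ofReal_natCast]

/-- The coefficients of the Satake transform are the scaled constant terms of the kernel. -/
theorem sat_coeff (p : ℂ[X]) : ∀ n : ℕ,
    (sat q p).coeff n = ((Real.sqrt q : ℝ) : ℂ) ^ n * ctil q (kern q p) n ∧
    (sat q p).coeff (-(n : ℤ)) = (sat q p).coeff n := by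
  induction p using Polynomial.induction_on' with
  | add p r hp hr =>
    intro n
    -- the identity is additive in `p`
    have hk : kern q (p + r) = kern q p + kern q r := by simp [kern]
    have hg : ctil q (kern q p + kern q r) n = ctil q (kern q p) n + ctil q (kern q r) n := by
      have h1 : ∀ m, p.natDegree + r.natDegree < m → kern q p m = 0 := fun m hm =>
        kern_eq_zero q p m (by omega)
      have h2 : ∀ m, p.natDegree + r.natDegree < m → kern q r m = 0 := fun m hm =>
        kern_eq_zero q r m (by omega)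
      have h3 : ∀ m, p.natDegree + r.natDegree < m → (kern q p + kern q r) m = 0 :=
        fun m hm => by simp [h1 m hm, h2 m hm]
      have eg : gsum q (kern q p + kern q r) n = gsum q (kern q p) n + gsum q (kern q r) n := by
        rw [gsum_eq_sum q h1 n (p.natDegree + r.natDegree) (by omega),
          gsum_eq_sum q h2 n (p.natDegree + r.natDegree) (by omega),
          gsum_eq_sum q h3 n (p.natDegree + r.natDegree) (by omega), ← Finset.sum_add_distrib]
        simp [mul_add]
      simp only [ctil, eg, Pi.add_apply]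
      ring
    rw [hk, hg, show sat q (p + r) = sat q p + sat q r by simp [sat]]
    simp only [AddMonoidAlgebra.coeff_add, Finsupp.add_apply]
    exact ⟨by rw [(hp n).1, (hr n).1]; ring, by rw [(hp n).2, (hr n).2]⟩
  | monomial k c =>
    -- monomials: induct on the degree via multiplication by `X`
    induction k generalizing c with
    | zero =>
      intro n
      have hk : kern q (monomial 0 c) = fun m => if m = 0 then c else 0 := by
        funext m; simp [kern, delta0, Module.algebraMap_end_apply]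
      have hg : gsum q (fun m => if m = 0 then c else 0) n = 0 := by
        rw [gsum_eq_sum q (D := 0) (fun m hm => if_neg (by omega)) n 0 (by omega)]
        simp
      have hs : sat q (monomial 0 c) = LaurentPolynomial.C c := by
        simp [sat]
      rw [hk, hs]
      simp only [ctil, hg, LaurentPolynomial.C]
      rcases Nat.eq_zero_or_pos n with rfl | hn
      · simp
      · simp [(show n ≠ 0 by omega)]
    | succ k ih =>
      intro n
      have e : monomial (k + 1) c = X * monomial k c := by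
        rw [← monomial_one_one_eq_X, monomial_mul_monomial, add_comm, one_mul]
      rw [e, kern_X_mul, sat_X_mul, sat_X_mul]
      have hD := kern_eq_zero q (monomial k c)
      rcases n with _ | m
      · have a1 := ih c 1
        norm_num at a1
        constructor
        · rw [ctil_stepKer_zero q hD]
          norm_num
          rw [a1.2, a1.1]
          linear_combination (2 * ctil q (kern q (monomial k c)) 1) * sqrt_q_sq q
        · norm_num
      · have a1 := ih c m
        have a2 := ih c (m + 2)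
        have e1 : ((m + 1 : ℕ) : ℤ) - 1 = (m : ℕ) := by push_cast; ring
        have e2 : ((m + 1 : ℕ) : ℤ) + 1 = ((m + 2 : ℕ) : ℤ) := by push_cast; ring
        constructor
        · rw [ctil_stepKer_succ q hD, e1, e2, a1.1, a2.1]
          linear_combination
            (((Real.sqrt q : ℝ) : ℂ) ^ (m + 1) * ctil q (kern q (monomial k c)) (m + 2)) *
              sqrt_q_sq q
        · rw [show -((m + 1 : ℕ) : ℤ) - 1 = -((m + 2 : ℕ) : ℤ) by push_cast; ring,
            show -((m + 1 : ℕ) : ℤ) + 1 = -((m : ℕ) : ℤ) by push_cast; ring, e1, e2, a1.2, a2.2,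
            add_comm]

/-- Cubic base change on spherical Hecke algebras: `T₁ ↦ T₁³ - 3 q T₁`. -/
noncomputable def cubicBC (p : ℂ[X]) : ℂ[X] := p.comp (X ^ 3 - Polynomial.C (3 * (q : ℂ)) * X)

/-- Its effect on Satake transforms: `t ↦ t³`. -/
theorem sat_cubicBC (p : ℂ[X]) :
    sat q (cubicBC q p)
      = aeval (LaurentPolynomial.C ((Real.sqrt (q ^ 3 : ℕ) : ℝ) : ℂ) * (T 3 + T (-3))) p := by
  rw [sat, cubicBC, Polynomial.aeval_comp]
  congr 2
  simp only [map_sub, map_mul, map_pow, aeval_X, aeval_C, ← LaurentPolynomial.C_eq_algebraMap]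
  set s : ℂ := ((Real.sqrt q : ℝ) : ℂ) with hs
  have h3 : ((Real.sqrt (q ^ 3 : ℕ) : ℝ) : ℂ) = s ^ 3 := by
    rw [hs, ← Complex.ofReal_pow]; congr 1
    rw [Nat.cast_pow, Real.sqrt_eq_iff_eq_sq (by positivity) (by positivity), ← pow_mul,
      mul_comm, pow_mul, Real.sq_sqrt (Nat.cast_nonneg q)]
  rw [h3, map_pow, show (q : ℂ) = s * s by rw [hs, sqrt_q_sq]]
  simp only [map_mul, map_ofNat]
  have hT : (T 1 : ℂ[T;T⁻¹]) * T (-1) = 1 := by rw [← T_add]; norm_num [T_zero]
  have hT3 : (T 3 : ℂ[T;T⁻¹]) = T 1 ^ 3 := by rw [T_pow]; norm_num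
  have hT3' : (T (-3) : ℂ[T;T⁻¹]) = T (-1) ^ 3 := by rw [T_pow]; norm_num
  rw [hT3, hT3']
  linear_combination (3 * LaurentPolynomial.C s ^ 3 * (T 1 + T (-1))) * hT

end Fermat.LT
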