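import Fermat.Agent.LT.CuspKer
import Fermat.Agent.LT.Satake

/-!
# Spherical kernels at a place outside the level

`sphKer` is the kernel with values `kern q p`; `heckeT_eq_locAct` identifies `T_v` with the
adjacency kernel.
-/

set_option autoImplicit false
open Polynomial Set
open scoped Classical ComplexConjugate

namespace Fermat.LT

/-! ### kernels on a tree -/

namespace RegTree

variable {X : Type*} {q : ℕ} (T : RegTree X q)

/-- Composing with the adjacency kernel. -/
theorem sum_nbr (h : ℕ → ℂ) (a c : X) :
    ∑ b ∈ (T.nbr_finite a).toFinset, h (T.dist b c) = stepKer q h (T.dist a c) := by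
  rcases eq_or_ne a c with rfl | hne
  · rw [T.dist_self, stepKer_zero, Finset.sum_congr rfl (g := fun _ => h 1) fun b hb => by
      rw [T.symm, (T.nbr_finite a).mem_toFinset.1 hb], Finset.sum_const,
      ← Set.ncard_eq_toFinset_card _ (T.nbr_finite a), T.nbr_card, nsmul_eq_mul]
    push_cast; ring
  · obtain ⟨z, hz1, hz2, hz3⟩ := T.step a c hne
    obtain ⟨m, hm⟩ : ∃ m, T.dist a c = m + 1 := ⟨T.dist z c, hz2.symm⟩
    have hzm : z ∈ (T.nbr_finite a).toFinset := (T.nbr_finite a).mem_toFinset.2 hz1
    rw [hm, stepKer_succ, ← Finset.add_sum_erase _ _ hzm, show T.dist z c = m by omega,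
      Finset.sum_congr rfl (g := fun _ => h (m + 2)) fun b hb => by
        rw [Finset.mem_erase, (T.nbr_finite a).mem_toFinset] at hb
        rw [hz3 b hb.2 hb.1, hm], Finset.sum_const, Finset.card_erase_of_mem hzm,
      ← Set.ncard_eq_toFinset_card _ (T.nbr_finite a), T.nbr_card, nsmul_eq_mul]
    simp

/-- Balls in the tree are finite. -/
lemma finite_ball (a : X) : ∀ r, {x | T.dist a x ≤ r}.Finite := by
  intro r
  induction r generalizing a with
  | zero => exact (Set.finite_singleton a).subset fun x hx =>
              ((T.eq_iff a x).1 (by simpa using hx)).symm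
  | succ r ih =>
    refine (((T.nbr_finite a).biUnion fun z _ => ih z).insert a).subset fun x hx => ?_
    rcases eq_or_ne a x with rfl | hne
    · exact mem_insert _ _
    · obtain ⟨z, hz1, hz2, -⟩ := T.step a x hne
      refine mem_insert_of_mem _ (mem_biUnion hz1 ?_)
      simp only [mem_ofPred_eq] at hx ⊢
      omega

/-- Products of polynomials are convolutions of their kernels. -/
theorem finsum_kern_mul (p r : ℂ[X]) (a c : X) :
    ∑ᶠ b, kern q p (T.dist a b) * kern q r (T.dist b c) = kern q (p * r) (T.dist a c) := by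
  have hfin : ∀ (f : ℂ[X]) (z : X),
      (Function.support fun b => kern q f (T.dist z b) * kern q r (T.dist b c)).Finite :=
    fun f z => (T.finite_ball z f.natDegree).subset fun b hb =>
      not_lt.1 fun h => hb (mul_eq_zero_of_left (kern_eq_zero _ f _ h) _)
  induction p using Polynomial.induction_on generalizing a with
  | C d =>
    rw [finsum_eq_single _ a fun b hb => ?_]
    · simp [kern, delta0, Module.End.mul_apply, Module.algebraMap_end_apply]
    · have : T.dist a b ≠ 0 := fun h => hb ((T.eq_iff a b).1 h).symm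
      simp [kern, delta0, this, Module.algebraMap_end_apply]
  | add f g hf hg =>
    rw [add_mul, show kern q (f * r + g * r) (T.dist a c)
      = kern q (f * r) (T.dist a c) + kern q (g * r) (T.dist a c) by simp [kern], ← hf, ← hg,
      ← finsum_add_distrib (hfin f a) (hfin g a)]
    exact finsum_congr fun b => by rw [← add_mul]; simp [kern]
  | monomial n d h =>
    rw [show Polynomial.C d * Polynomial.X ^ (n + 1)
        = Polynomial.X * (Polynomial.C d * Polynomial.X ^ n) by ring, mul_assoc Polynomial.X]
    simp only [kern_X_mul, ← T.sum_nbr, Finset.sum_mul]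
    rw [← sum_finsum_comm _ _ fun z _ => hfin _ z]
    exact Finset.sum_congr rfl fun z _ => h z

end RegTree

/-! ### the kernels -/

variable {F : Type*} [Field F] [NumberField F] {S : Set (Place F)} {v : Place F}

/-- Distance on the cosets at a place (through `U0`). -/
noncomputable def vd (a b : Vert S v) : ℕ := lvl (v.valuation F) (a.out⁻¹ * b.out)

/-- The distance of two cosets is the level of `g⁻¹ h`. -/
lemma vd_mk (g h : GL (Fin 2) F) :
    vd (g : Vert S v) (h : Vert S v) = lvl (v.valuation F) (g⁻¹ * h) := by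
  obtain ⟨k, hk⟩ := QuotientGroup.mk_out_eq_mul (lev S v) g
  obtain ⟨k', hk'⟩ := QuotientGroup.mk_out_eq_mul (lev S v) h
  rw [vd, hk, hk', show (g * (k : GL (Fin 2) F))⁻¹ * (h * k') = (k : GL (Fin 2) F)⁻¹ *
    (g⁻¹ * h) * k' by group,
    lvl_mul_right _ (lev_le_U0 S v k'.2), lvl_mul_left _ ((U0 _).inv_mem (lev_le_U0 S v k.2))]

/-- The distance is invariant. -/
lemma vd_smul (g : GL (Fin 2) F) (a b : Vert S v) : vd (g • a) (g • b) = vd a b := by
  obtain ⟨x, rfl⟩ := QuotientGroup.mk_surjective a
  obtain ⟨y, rfl⟩ := QuotientGroup.mk_surjective b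
  rw [MulAction.Quotient.smul_coe, MulAction.Quotient.smul_coe, vd_mk, vd_mk]
  simp [mul_assoc]

/-- The distance is symmetric. -/
lemma vd_comm (a b : Vert S v) : vd a b = vd b a := by
  rw [vd, vd, ← lvl_inv, mul_inv_rev, inv_inv]

/-- Cosets of a group equal to `U0` form a regular tree, for a distance read off the levels. -/
lemma exists_vtree_of_eq {H : Subgroup (GL (Fin 2) F)} (hl : H = U0 (v.valuation F))
    (d : GL (Fin 2) F ⧸ H → GL (Fin 2) F ⧸ H → ℕ)
    (hd : ∀ g h : GL (Fin 2) F, d g h = lvl (v.valuation F) (g⁻¹ * h)) :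
    ∃ T : RegTree (GL (Fin 2) F ⧸ H) (pnorm v), T.dist = d := by
  subst hl
  obtain ⟨ϖ, hϖ⟩ := v.valuation_exists_uniformizer F
  have hd' : (vtree (v.valuation F) hϖ).dist = d := funext fun a => funext fun b => by
    obtain ⟨g, rfl⟩ := QuotientGroup.mk_surjective a
    obtain ⟨h, rfl⟩ := QuotientGroup.mk_surjective b
    rw [hd]
    exact vdist_mk _ g h
  rw [← natCard_residue v]
  exact ⟨_, hd'⟩

variable (hv : v ∉ S)
include hv

/-- At a place outside the level the cosets form a regular tree with distance `vd`. -/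
lemma exists_vtree : ∃ T : RegTree (Vert S v) (pnorm v), T.dist = vd :=
  exists_vtree_of_eq (lev_of_not_mem hv) vd vd_mk

/-- The spherical kernel with values `kern q p`. -/
noncomputable def sphKer (p : ℂ[X]) : LKer S v where
  toFun a b := kern (pnorm v) p (vd a b)
  invariant g a b := by rw [vd_smul]
  finite_row a := by
    obtain ⟨T, hT⟩ := exists_vtree hv
    refine (T.finite_ball a p.natDegree).subset fun b hb => ?_
    rw [mem_ofPred_eq, hT]
    exact not_lt.1 fun h => hb (kern_eq_zero _ p _ h)

/-- The values of a spherical kernel. -/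
lemma sphKer_apply (p : ℂ[X]) (a b : Vert S v) : sphKer hv p a b = kern (pnorm v) p (vd a b) := rfl

omit hv in
/-- The kernel of one is the identity. -/
lemma kern_one (q : ℕ) (n : ℕ) : kern q 1 n = if n = 0 then 1 else 0 := by simp [kern, delta0]

/-- The spherical kernel of `1` is the identity. -/
lemma sphKer_one : sphKer (S := S) hv (1 : ℂ[X]) = LKer.one S v := by
  refine LKer.ext' fun a b => ?_
  obtain ⟨T, hT⟩ := exists_vtree hv
  rw [sphKer_apply, kern_one, LKer.one_apply, ← hT]
  simp only [T.eq_iff]

omit hv in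
/-- The kernel of `T₁` is the indicator of distance one. -/
lemma kern_X (q : ℕ) (n : ℕ) : kern q X n = if n = 1 then 1 else 0 := by
  rw [← mul_one (X : ℂ[X]), kern_X_mul]
  rcases n with _ | m
  · simp [stepKer_zero, kern_one]
  · rw [stepKer_succ, kern_one, kern_one]
    rcases m with _ | k <;> simp

/-- The row of the neighbour kernel. -/
lemma mem_row_sphKer_X {a b : Vert S v} : b ∈ (sphKer hv X).row a ↔ vd a b = 1 := by
  rw [LKer.mem_row, sphKer_apply, kern_X]
  split_ifs with h <;> simp [h]

/-- Products of polynomials are composites of kernels. -/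
theorem sphKer_mul (p r : ℂ[X]) :
    (sphKer (S := S) hv p).comp (sphKer hv r) = sphKer hv (p * r) := by
  refine LKer.ext' fun a c => ?_
  obtain ⟨T, hT⟩ := exists_vtree hv
  rw [LKer.comp_apply]
  simp only [sphKer_apply, ← hT]
  exact T.finsum_kern_mul p r a c

/-- Composing with `T₁` multiplies the polynomial by `X`. -/
lemma sphKer_X_comp (p : ℂ[X]) : (sphKer (S := S) hv X).comp (sphKer hv p) = sphKer hv (X * p) :=
  sphKer_mul hv X p

/-- Spherical kernels are additive. -/
lemma sphKer_add (p r : ℂ[X]) (a b : Vert S v) :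
    sphKer hv (p + r) a b = sphKer hv p a b + sphKer hv r a b := by
  simp [sphKer_apply, kern]

/-- Spherical kernels commute with constants. -/
lemma sphKer_C_mul (c : ℂ) (p : ℂ[X]) (a b : Vert S v) :
    sphKer hv (Polynomial.C c * p) a b = c * sphKer hv p a b := by
  simp [sphKer_apply, kern, Module.End.mul_apply, Module.algebraMap_end_apply]

omit hv in
/-- A real polynomial gives a real spherical kernel. -/
lemma kern_conj (q : ℕ) (p : ℝ[X]) (n : ℕ) :
    conj (kern q (p.map (algebraMap ℝ ℂ)) n) = kern q (p.map (algebraMap ℝ ℂ)) n := by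
  induction p using Polynomial.induction_on generalizing n with
  | C c =>
    simp only [kern, Polynomial.map_C, aeval_C, Module.algebraMap_end_apply, Pi.smul_apply, delta0,
      smul_eq_mul]
    split_ifs <;> simp [Complex.conj_ofReal]
  | add f g hf hg =>
    simp only [kern, Polynomial.map_add, map_add, LinearMap.add_apply, Pi.add_apply] at hf hg ⊢
    rw [hf, hg]
  | monomial k c h =>
    have e : Polynomial.C c * X ^ (k + 1) = X * (Polynomial.C c * X ^ k) := by ring
    rw [e, Polynomial.map_mul, Polynomial.map_X, kern_X_mul]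
    rcases n with _ | m
    · simp only [stepKer_zero, map_mul, map_add, map_one, map_natCast, h]
    · simp only [stepKer_succ, map_mul, map_add, map_natCast, h]

/-- A real polynomial gives a Hermitian kernel. -/
lemma sphKer_isHerm (p : ℝ[X]) :
    (sphKer (S := S) hv (p.map (algebraMap ℝ ℂ))).IsHerm := fun a b => by
  rw [sphKer_apply, sphKer_apply, kern_conj, vd_comm]

/-- `T_v` is the adjacency kernel. -/
lemma heckeT_eq_locAct (Φ : Pt F S → ℂ) (p : Pt F S) :
    heckeT v Φ p = locAct v (sphKer hv X) Φ p := by
  have hA : ∀ x y : Vert S v, Adj v x y ↔ vd x y = 1 := by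
    intro x y
    constructor
    · rintro ⟨g, h, rfl, rfl, hs⟩
      rw [vd_mk]; exact (isStep_iff_lvl _ _).1 hs
    · intro h
      exact ⟨x.out, y.out, (QuotientGroup.out_eq' x).symm, (QuotientGroup.out_eq' y).symm,
        (isStep_iff_lvl _ _).2 h⟩
  rw [heckeT, locAct,
    finsum_mem_eq_finite_toFinset_sum _ (((sphKer hv X).finite_row (p.1.1 v)).subset
    fun y hy => by
      rw [mem_ofPred_eq, hA] at hy
      simp [sphKer_apply, kern_X, hy])]
  refine Finset.sum_congr (Finset.ext fun y => ?_) fun y hy => ?_
  · rw [Set.Finite.mem_toFinset, mem_ofPred_eq, hA, mem_row_sphKer_X hv]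
  · rw [mem_row_sphKer_X hv] at hy
    rw [sphKer_apply, kern_X, if_pos hy, one_mul]

end Fermat.LT
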