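import Fermat.Agent.LT.EllTorus
import Fermat.Agent.LT.LocFibre
import Fermat.Agent.LT.RamVal
import Fermat.Agent.LT.LocRamMatch
import Fermat.Agent.LT.SphKer

/-!
# Degrees and local sums on the small field

The degree of a coset is the degree of its vertex seen in the chosen order.  The sums over the
trivial degree of the spherical and ramified kernels at `a, g • a`.
-/

set_option autoImplicit false
open Filter Set
open scoped Classical Matrix

namespace Fermat.LT

variable {F : Type*} [Field F] [NumberField F] {S : Set (Place F)}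

/-- A uniformiser. -/
noncomputable def unifAt (v : Place F) : F := (v.valuation_exists_uniformizer F).choose

/-- The valuation of the chosen uniformiser. -/
lemma unifAt_spec (v : Place F) : v.valuation F (unifAt v) = WithZero.exp (-1 : ℤ) :=
  (v.valuation_exists_uniformizer F).choose_spec

/-- A coset outside the level is a vertex. -/
noncomputable def vertEquiv {v : Place F} (hv : v ∉ S) :
    Vert S v ≃ GL (Fin 2) F ⧸ U0 (v.valuation F) :=
  Subgroup.quotientEquivOfEq (lev_of_not_mem hv)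

/-- Off the level the identification is the projection. -/
lemma vertEquiv_apply {v : Place F} (hv : v ∉ S) (a : Vert S v) : vertEquiv hv a = Vert.proj a := by
  obtain ⟨g, rfl⟩ := QuotientGroup.mk_surjective a
  rfl

/-- The vertex of a representative. -/
lemma Vert.proj_out {v : Place F} (a : Vert S v) :
    Vert.proj a = (a.out : GL (Fin 2) F ⧸ U0 (v.valuation F)) := by
  conv_lhs => rw [← QuotientGroup.out_eq' a]
  rfl

section Quot

variable {E : Type*} [Field E] {w : Valuation E (WithZero (Multiplicative ℤ))}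

/-- The level of a conjugate at a representative. -/
lemma lvl_conj_out (g : GL (Fin 2) E) (c : GL (Fin 2) E) (a : GL (Fin 2) E ⧸ U0 w)
    (h : GL (Fin 2) E) (ha : (c * h : GL (Fin 2) E) = (a : GL (Fin 2) E ⧸ U0 w).out ∨
      ((c * h : GL (Fin 2) E) : GL (Fin 2) E ⧸ U0 w) = a) :
    lvl w (a.out⁻¹ * (c * g * c⁻¹) * a.out) = lvl w (h⁻¹ * g * h) := by
  have ha' : ((c * h : GL (Fin 2) E) : GL (Fin 2) E ⧸ U0 w) = a := by
    rcases ha with e | e
    · rw [e, QuotientGroup.out_eq']
    · exact e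
  obtain ⟨⟨k, hk⟩, e⟩ := QuotientGroup.mk_out_eq_mul (U0 w) (c * h)
  rw [← ha', e]
  change lvl w ((c * h * k)⁻¹ * (c * g * c⁻¹) * (c * h * k)) = _
  rw [show (c * h * k)⁻¹ * (c * g * c⁻¹) * (c * h * k) = k⁻¹ * (h⁻¹ * g * h) * k by group,
    lvl_mul_right w hk, lvl_mul_left w ((U0 w).inv_mem hk)]

end Quot

section Red

variable {v : Place F}

/-- The value of a function of the reduction through integral entries. -/
lemma fibFun_of_entries {f : GL (Fin 2) (Res v) → ℂ} (hf : ScalInv f) {m : GL (Fin 2) F} (c : Fˣ)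
    {M : Matrix (Fin 2) (Fin 2) F}
    (hM : ((scal c * m : GL (Fin 2) F) : Matrix (Fin 2) (Fin 2) F) = M)
    (hint : ∀ i j, v.valuation F (M i j) ≤ 1) (hdet : v.valuation F M.det = 1) :
    ∃ N : GL (Fin 2) (Res v), (N : Matrix (Fin 2) (Fin 2) (Res v)) = M.map (resd (v.valuation F)) ∧
      fibFun v f m = f N := by
  set A : Matrix (Fin 2) (Fin 2) (v.valuation F).integer :=
    Matrix.of fun i j => ⟨M i j, hint i j⟩ with hA
  have hAm : A.map (v.valuation F).integer.subtype = M := by ext i j; rfl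
  have hu : IsUnit A.det := by
    rw [isUnit_integer_iff, ← hdet, ← hAm]
    exact congrArg _ (RingHom.map_det (v.valuation F).integer.subtype A)
  set a := ((Matrix.isUnit_iff_isUnit_det A).2 hu).unit with ha
  have hm : m = scal c⁻¹ * incGL v a := by
    have e : incGL v a = scal c * m := Units.ext (hAm.trans hM.symm)
    rw [e, ← mul_assoc, ← scal_mul, inv_mul_cancel]
    simp [scal]
  refine ⟨redG v a, ?_, by rw [hm, fibFun_scal_incGL hf]⟩
  ext i j
  rw [coe_redG, Matrix.map_apply, resd_eq (hint i j)]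
  rfl

/-- The fibre value is invariant under conjugation. -/
lemma ramVal_conj (N M : GL (Fin 2) (Res v)) : ramVal v (N⁻¹ * M * N) = ramVal v M := by
  simp only [ramVal]
  refine congrArg₂ _ rfl ?_
  rw [← Equiv.sum_comp (Equiv.mulLeft N) fun X => ramFun v (X⁻¹ * M * X)]
  refine Finset.sum_congr rfl fun X _ => ?_
  rw [Equiv.coe_mulLeft]
  congr 1
  group

/-- The ramified function is invariant under conjugation by `U0`. -/
lemma fibFun_ramVal_conj {k : GL (Fin 2) F} (hk : k ∈ U0 (v.valuation F)) (m : GL (Fin 2) F) :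
    fibFun v (ramVal v) (k⁻¹ * m * k) = fibFun v (ramVal v) m := by
  by_cases hm : m ∈ U0 (v.valuation F)
  · obtain ⟨c, a, rfl⟩ := exists_eq_scal_incGL hm
    obtain ⟨d, b, rfl⟩ := exists_eq_scal_incGL hk
    have e : (scal d * incGL v b)⁻¹ * (scal c * incGL v a) * (scal d * incGL v b)
        = scal c * incGL v (b⁻¹ * a * b) := by
      rw [map_mul, map_mul, map_inv, mul_scal_mul, mul_inv_rev]
      congr 1
      rw [mul_assoc ((incGL v b)⁻¹) (scal d)⁻¹ (incGL v a),
        ← show (scal d⁻¹ : GL (Fin 2) F) = (scal d)⁻¹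
        from map_inv _ d, scal_comm d⁻¹ (incGL v a), scal_comm d (incGL v b),
        show (incGL v b)⁻¹ * (incGL v a * scal d⁻¹) * (incGL v b * scal d)
          = (incGL v b)⁻¹ * (incGL v a * (scal d⁻¹ * incGL v b)) * scal d by group,
        scal_comm d⁻¹ (incGL v b), show (scal d⁻¹ : GL (Fin 2) F) = (scal d)⁻¹ from map_inv _ d]
      group
    rw [e, fibFun_scal_incGL scalInv_ramVal, fibFun_scal_incGL scalInv_ramVal, map_mul, map_mul,
      map_inv, ramVal_conj]
  · rw [fibFun, fibFun, if_neg hm, if_neg fun h => hm ?_]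
    have := (U0 _).mul_mem ((U0 _).mul_mem hk h) ((U0 _).inv_mem hk)
    rwa [show k * (k⁻¹ * m * k) * k⁻¹ = m by group] at this

/-- The ramified function of a conjugate does not depend on the representative of the vertex. -/
lemma fibFun_ramVal_out (g m : GL (Fin 2) F) :
    fibFun v (ramVal v) ((g : GL (Fin 2) F ⧸ U0 (v.valuation F)).out⁻¹ * m
      * (g : GL (Fin 2) F ⧸ U0 (v.valuation F)).out) = fibFun v (ramVal v) (g⁻¹ * m * g) := by
  obtain ⟨⟨k, hk⟩, e⟩ := QuotientGroup.mk_out_eq_mul (U0 (v.valuation F)) g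
  rw [e, show (g * k)⁻¹ * m * (g * k) = k⁻¹ * (g⁻¹ * m * g) * k by group, fibFun_ramVal_conj hk]

/-- The kernel summed over the cosets above a vertex. -/
theorem sum_ramKer_above (hv : v ∈ S) (h g₀ : GL (Fin 2) F) (T : Finset (Vert S v))
    (hT : ∀ y, y ∈ T → h⁻¹ * y.out ∈ U0 (v.valuation F))
    (hT' : ∀ y : Vert S v, h⁻¹ * y.out ∈ U0 (v.valuation F) → ramKer v hv y (g₀ • y) ≠ 0 → y ∈ T) :
    ∑ y ∈ T, ramKer v hv y (g₀ • y) = fibFun v (ramVal v) (h⁻¹ * g₀ * h) := by
  rw [sum_fibre hv h _ T (fun y hy _ => hT y hy) hT']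
  set m := h⁻¹ * g₀ * h with hm
  have key : ∀ M : GL (Fin 2) (Res v), ramKer v hv (fcl S h M) (g₀ • fcl S h M)
      = fibFun v (ramFun v) ((incGL v (Function.surjInv redG_surjective M))⁻¹ * m
          * incGL v (Function.surjInv redG_surjective M)) := fun M => by
    rw [ramKer, fcl, MulAction.Quotient.smul_coe, fibKer_apply, fibFun_mk hv (scalInv_ramFun v), hm,
      smul_eq_mul]
    congr 1
    group
  by_cases hU : m ∈ U0 (v.valuation F)
  · obtain ⟨c, a, ha⟩ := exists_eq_scal_incGL hU
    rw [ha, fibFun_scal_incGL scalInv_ramVal, ramVal]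
    congr 1
    refine Finset.sum_congr rfl fun M _ => ?_
    set b := Function.surjInv redG_surjective M
    rw [key, ha, show (incGL v b)⁻¹ * (scal c * incGL v a) * incGL v b =
        scal c * incGL v (b⁻¹ * a * b) by
      rw [mul_scal_mul, map_mul, map_mul, map_inv], fibFun_scal_incGL (scalInv_ramFun v), map_mul,
      map_mul, map_inv, Function.surjInv_eq redG_surjective]
  · rw [fibFun_eq_zero hU, Finset.sum_eq_zero fun M _ => ?_, mul_zero]
    rw [key, fibFun_eq_zero fun h' => hU ?_]
    set b := incGL v (Function.surjInv redG_surjective M)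
    have hb : b ∈ U0 (v.valuation F) := incGL_mem_U0 _
    have := (U0 _).mul_mem ((U0 _).mul_mem hb h') ((U0 _).inv_mem hb)
    rwa [show b * (b⁻¹ * m * b) * b⁻¹ = m by group] at this

end Red

namespace QDat

variable (q : QDat F)

/-- The vertex seen in the order. -/
noncomputable def toOrd {v : Place F} (a : Vert S v) : GL (Fin 2) F ⧸ U0 (v.valuation F) :=
  q.cj v • Vert.proj a

/-- The degree in the classes of units. -/
noncomputable def degU (v : Place F) (x : GL (Fin 2) F ⧸ U0 (v.valuation F)) :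
    GL (Fin 2) F ⧸ q.U v :=
  (q.reps v).deg (unifAt_spec v) x

/-- **The degree of a coset.** The class of a coset in the torus degrees at `v`, through the chosen
maximal order. -/
noncomputable def degAt {v : Place F} (a : Vert S v) : q.Γ v := q.toΓ v (q.degU v (q.toOrd a))

/-- Local units go to units of the order. -/
lemma φ_U {v : Place F} {g : GL (Fin 2) F} (hg : g ∈ q.U v) : q.φ v g ∈ (q.ord' v).Q.ugrp := hg.2

/-- The vertex in the order is equivariant. -/
lemma toOrd_smul {v : Place F} (g : GL (Fin 2) F) (a : Vert S v) :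
    q.toOrd (g • a) = q.φ v g • q.toOrd a := by
  rw [toOrd, toOrd, Vert.proj_smul, smul_smul, smul_smul, φ_apply, inv_mul_cancel_right]

/-- The degree is equivariant. -/
lemma degAt_smul {v : Place F} {g : GL (Fin 2) F} (hg : g ∈ tTor q.D) (a : Vert S v) :
    q.degAt ((g : PG F) • a) = (g : PG F) • q.degAt a := by
  rw [PG.mk_smul_vert, degAt, degAt, toOrd_smul, degU, (q.reps v).deg_smul _ hg, toΓ_smul]
  rfl

/-- A unit class has trivial degree exactly when it is the trivial class. -/
lemma toΓ_eq_one_iff {v : Place F} (c : GL (Fin 2) F ⧸ q.U v) :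
    q.toΓ v c = q.one v ↔ c = ((1 : GL (Fin 2) F) : GL (Fin 2) F ⧸ q.U v) := by
  obtain ⟨g, rfl⟩ := QuotientGroup.mk_surjective c
  rw [toΓ_mk, one, QuotientGroup.eq, mul_one, Subgroup.inv_mem_iff, mem_Ub_iff,
    QuotientGroup.eq, mul_one, Subgroup.inv_mem_iff]

/-- The trivial degree. -/
lemma degAt_eq_one_iff {v : Place F} (a : Vert S v) :
    q.degAt a = q.one v ↔ q.degU v (q.toOrd a) = ((1 : GL (Fin 2) F) : GL (Fin 2) F ⧸ q.U v) :=
  q.toΓ_eq_one_iff _

/-- The base vertex has trivial degree. -/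
lemma degU_one (v : Place F) :
    q.degU v ((1 : GL (Fin 2) F) : GL (Fin 2) F ⧸ U0 (v.valuation F))
      = ((1 : GL (Fin 2) F) : GL (Fin 2) F ⧸ q.U v) := by
  have h := (q.reps v).deg_vertex (unifAt_spec v) one_pos (tTor q.D).one_mem
    (q.ord' v).Q.ugrp.one_mem 0
  rwa [QA.vertex, QA.dg_zero, map_one, pow_zero, one_mul, one_mul, one_mul] at h

/-- Every degree is a torus translate of the trivial degree. -/
lemma degAt_mem {v : Place F} (a : Vert S v) : ∃ t : q.T, q.degAt a = t • q.one v := by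
  obtain ⟨h, hh, e⟩ := (q.reps v).deg_mem (unifAt_spec v) (q.toOrd a)
  refine ⟨⟨(h : PG F), h, hh, rfl⟩, ?_⟩
  rw [degAt, degU, e, toΓ_mk]
  change _ = (((h : PG F) * 1 : PG F) : PG F ⧸ q.Ub v)
  rw [mul_one]

/-- The base coset in the order. -/
lemma degAt_cj (v : Place F) : q.degAt (((q.cj v)⁻¹ : GL (Fin 2) F) : Vert S v) = q.one v := by
  rw [degAt_eq_one_iff, toOrd, Vert.proj_mk, MulAction.Quotient.smul_coe, smul_eq_mul,
    mul_inv_cancel, degU_one]

/-- Every translate of the trivial degree occurs. -/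
lemma degAt_surj (v : Place F) (t : q.T) : ∃ a : Vert S v, q.degAt a = t • q.one v := by
  obtain ⟨γ, ⟨g, hg, rfl⟩⟩ := t
  exact ⟨(g : PG F) • _, by rw [q.degAt_smul hg, degAt_cj]; rfl⟩

/-- At a good place the base coset has trivial degree. -/
lemma degAt_one {v : Place F} (h : v.valuation F q.D = 1 ∧ v.valuation F 2 = 1) :
    q.degAt ((1 : GL (Fin 2) F) : Vert S v) = q.one v := by
  have e := q.degAt_cj (S := S) v
  rwa [q.cj_eq_one h, inv_one] at e

/-- A degree system on the cosets. -/
theorem degSys : DegSys (T := q.T) (fun v : Place F => ((1 : GL (Fin 2) F) : Vert S v)) q.one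
    (fun _ a => q.degAt a) where
  comm := q.T_comm
  equiv v t a := by
    obtain ⟨γ, ⟨g, hg, rfl⟩⟩ := t
    exact q.degAt_smul hg a
  surj v t := q.degAt_surj v t
  mem v a := q.degAt_mem a
  base := by
    filter_upwards [q.eventually_std] with v hv
    exact q.degAt_one hv

variable {v : Place F} {g₀ : GL (Fin 2) F}

/-- A regular element maps into the torus of the order. -/
lemma φ_torus (hg : TReg q.D g₀) : q.φ v g₀ ∈ (q.ord' v).Q.torus := q.φ_mem hg.mem

/-- A regular element is not scalar in the order. -/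
lemma φ_ne_scal (hg : TReg q.D g₀) (c : Fˣ) : q.φ v g₀ ≠ scal c := by
  intro h
  have e : g₀ = scal c := by
    have h2 := congrArg (fun x => (q.cj v)⁻¹ * x * q.cj v) h
    simp only [φ_apply] at h2
    rw [show (q.cj v)⁻¹ * (q.cj v * g₀ * (q.cj v)⁻¹) * q.cj v = g₀ by group] at h2
    rw [h2, mul_assoc, scal_comm, inv_mul_cancel_left]
  obtain ⟨a, b, hb, he⟩ := hg
  refine hb ?_
  have h10 :=
    congrFun (congrFun (congrArg (fun x : GL (Fin 2) F => (x : Matrix (Fin 2) (Fin 2) F)) e) 1) 0
  simpa [he, tmat] using h10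

/-- Displacement levels can be computed in the chosen order. -/
lemma lvl_toOrd (g : GL (Fin 2) F) (a : Vert S v) :
    lvl (v.valuation F) ((q.toOrd a).out⁻¹ * q.φ v g * (q.toOrd a).out)
      = lvl (v.valuation F) (a.out⁻¹ * g * a.out) := by
  rw [φ_apply]
  refine lvl_conj_out g (q.cj v) _ a.out (Or.inr ?_)
  rw [toOrd, Vert.proj_out, MulAction.Quotient.smul_coe, smul_eq_mul]

/-- Cosets moved boundedly in the fibre are finite in number. -/
lemma finite_bounded (hg : TReg q.D g₀) (D : ℕ) :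
    {a : Vert S v | q.degAt a = q.one v ∧
    lvl (v.valuation F) (a.out⁻¹ * g₀ * a.out) ≤ D}.Finite := by
  set h : ℕ → ℂ := fun m => if m ≤ D then 1 else 0
  have hfin := (q.reps v).finite_fibre (q.ord' v).Q.trivTwist (unifAt_spec v)
    (fun g hg' => q.φ_U hg') (q.φ_torus hg) (h := h) (D := D) (fun m hm => if_neg (not_le.2 hm))
    fun j _ => by rw [QA.trivTwist_shiftPow]; exact QA.trivTwist_shallow (q.φ_ne_scal hg)
  refine (hfin.biUnion (t := fun x => {a : Vert S v | q.toOrd a = x}) fun x _ => ?_).subset ?_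
  · set h := (q.cj v)⁻¹ * x.out with hh
    by_cases hv : v ∈ S
    · refine (Set.finite_range (fcl (v := v) S h)).subset fun a ha => ?_
      have ha' : ((q.cj v * a.out : GL (Fin 2) F) : GL (Fin 2) F ⧸ U0 (v.valuation F)) = x := by
        rw [← ha]
        show _ = q.toOrd a
        rw [toOrd, Vert.proj_out, MulAction.Quotient.smul_coe, smul_eq_mul]
      have h1 := QuotientGroup.eq.1 ((QuotientGroup.out_eq' x).trans ha'.symm)
      exact exists_fcl_eq hv h (y := a) (by rwa [hh, mul_inv_rev, inv_inv, mul_assoc])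
    · refine Set.Subsingleton.finite fun a ha b hb => (vertEquiv hv).injective ?_
      have e : q.toOrd a = q.toOrd b := ha.trans hb.symm
      rw [vertEquiv_apply, vertEquiv_apply]
      exact MulAction.injective (q.cj v) e
  · rintro a ⟨ha, hU⟩
    refine Set.mem_biUnion (x := q.toOrd a) ⟨(q.degAt_eq_one_iff a).1 ha, ?_⟩ rfl
    rw [QA.trivTwist_tval, q.lvl_toOrd]
    show (if _ then _ else _) ≠ (0 : ℂ)
    rw [if_pos hU]
    exact one_ne_zero

/-- Cosets fixed by a torus element in the fibre are finite in number. -/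
lemma finite_fixed (hg : TReg q.D g₀) :
    {a : Vert S v | q.degAt a = q.one v ∧ a.out⁻¹ * g₀ * a.out ∈ U0 (v.valuation F)}.Finite :=
  (q.finite_bounded hg 0).subset fun _ ha => ⟨ha.1, ((lvl_eq_zero_iff _ _).2 ha.2).le⟩

/-- Outside the level the fibre is a fibre of vertices. -/
noncomputable def fibreEquiv (hv : v ∉ S) :
    {a : Vert S v // q.degAt a = q.one v}
      ≃ {x // (q.reps v).deg (unifAt_spec v) x = ((1 : GL (Fin 2) F) : GL (Fin 2) F ⧸ q.U v)} :=
  ((vertEquiv hv).trans (MulAction.toPerm (q.cj v))).subtypeEquiv fun a => by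
    rw [q.degAt_eq_one_iff, Equiv.trans_apply, vertEquiv_apply]
    rfl

/-- The spherical kernel at a displacement depends on its level. -/
lemma sphKer_smul (hv : v ∉ S) (p : Polynomial ℂ) (g : GL (Fin 2) F) (a : Vert S v) :
    sphKer hv p a (g • a) = kern (pnorm v) p (lvl (v.valuation F) (a.out⁻¹ * g * a.out)) := by
  rw [sphKer_apply]
  congr 1
  conv_lhs => rw [← QuotientGroup.out_eq' a, MulAction.Quotient.smul_coe, vd_mk,
    smul_eq_mul, ← mul_assoc]

/-- **Spherical sum on the small field.** Outside `S` the fibre sum of the spherical kernel of `p`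
at a regular `g₀` is the orbital sum of `kern p`. -/
theorem sum_sph (hv : v ∉ S) (hg : TReg q.D g₀) (p : Polynomial ℂ) :
    ∑' a : {a : Vert S v // q.degAt a = q.one v}, sphKer hv p a.1 (g₀ • a.1)
      = (q.ord' v).Q.osum (unifAt_spec v) (kern (pnorm v) p) (q.φ v g₀) := by
  rw [← (q.reps v).tsum_fibre_plain (unifAt_spec v) (fun g hg' => q.φ_U hg')
    (q.φ_torus hg) (q.φ_ne_scal hg) (kern_eq_zero (pnorm v) p), ← (q.fibreEquiv hv).tsum_eq fun x =>
      kern (pnorm v) p (lvl (v.valuation F) (x.1.out⁻¹ * q.φ v g₀ * x.1.out))]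
  refine tsum_congr fun a => ?_
  rw [sphKer_smul hv, ← q.lvl_toOrd]
  congr 2

/-- The fixed vertices carry the ramified sum. -/
theorem sum_ram_vertices (hv : v ∈ S) (hg : TReg q.D g₀) :
    ∑' a : {a : Vert S v // q.degAt a = q.one v}, ramKer v hv a.1 (g₀ • a.1)
      = ∑' x : {x // (q.reps v).deg (unifAt_spec v) x =
        ((1 : GL (Fin 2) F) : GL (Fin 2) F ⧸ q.U v)},
          fibFun v (ramVal v) (x.1.out⁻¹ * q.φ v g₀ * x.1.out) := by
  set A := (q.finite_fixed (S := S) (v := v) hg).toFinset with hA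
  have hsupp : ∀ a : Vert S v, ramKer v hv a (g₀ • a) ≠ 0 →
      a.out⁻¹ * g₀ * a.out ∈ U0 (v.valuation F) := by
    intro a ha
    have h := mem_U0_of_fibKer_ne_zero hv ha
    obtain ⟨⟨k, hk⟩, e⟩ := QuotientGroup.mk_out_eq_mul (lev S v) (g₀ * a.out)
    rw [show g₀ • a = ((g₀ * a.out : GL (Fin 2) F) : Vert S v) by
      conv_lhs => rw [← QuotientGroup.out_eq' a]
      rfl, e] at h
    have := (U0 _).mul_mem h ((U0 _).inv_mem (lev_le_U0 S v hk))
    rwa [show a.out⁻¹ * (g₀ * a.out * k) * k⁻¹ = a.out⁻¹ * g₀ * a.out by group] at this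
  set T := fun x : GL (Fin 2) F ⧸ U0 (v.valuation F) =>
    fibFun v (ramVal v) (x.out⁻¹ * q.φ v g₀ * x.out) with hT
  set B := A.image q.toOrd with hB
  -- group the vertices by their image modulo `Fˣ GL₂(O)`
  have h1 : ∑' a : {a : Vert S v // q.degAt a = q.one v}, ramKer v hv a.1 (g₀ • a.1)
      = ∑ a ∈ A, ramKer v hv a (g₀ • a) := by
    change ∑' a : ↥{a : Vert S v | q.degAt a = q.one v}, _ = _
    rw [tsum_subtype {a : Vert S v | q.degAt a = q.one v} fun a => ramKer v hv a (g₀ • a),
      tsum_eq_sum (s := A) fun a ha => ?_]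
    · refine Finset.sum_congr rfl fun a ha => Set.indicator_of_mem ?_ _
      exact ((Set.Finite.mem_toFinset _).1 ha).1
    · by_contra h
      rw [← ne_eq, Set.indicator_apply_ne_zero] at h
      exact ha ((Set.Finite.mem_toFinset _).2 ⟨h.1, hsupp a h.2⟩)
  -- the vertices over one class give the value of the fibre function
  have hfib : ∀ x, (q.reps v).deg (unifAt_spec v) x = ((1 : GL (Fin 2) F) : GL (Fin 2) F ⧸ q.U v) →
      ∑ a ∈ A.filter (fun a => q.toOrd a = x), ramKer v hv a (g₀ • a) = T x := by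
    intro x hx
    have e1 : ∀ y : Vert S v, q.toOrd y = x ↔
        ((q.cj v)⁻¹ * x.out)⁻¹ * y.out ∈ U0 (v.valuation F) := by
      intro y
      rw [toOrd, Vert.proj_out, MulAction.Quotient.smul_coe, smul_eq_mul]
      conv_lhs => rw [← QuotientGroup.out_eq' x, eq_comm, QuotientGroup.eq]
      rw [mul_inv_rev, inv_inv, mul_assoc]
    rw [sum_ramKer_above hv ((q.cj v)⁻¹ * x.out) g₀ _ (fun y hy =>
      (e1 y).1 (Finset.mem_filter.1 hy).2) fun y hy hne => ?_]
    · change fibFun v (ramVal v) _ = fibFun v (ramVal v) (x.out⁻¹ * q.φ v g₀ * x.out)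
      rw [φ_apply]
      congr 1
      group
    · refine Finset.mem_filter.2 ⟨(Set.Finite.mem_toFinset _).2 ⟨?_, hsupp y hne⟩, (e1 y).2 hy⟩
      rw [q.degAt_eq_one_iff, (e1 y).2 hy]
      exact hx
  rw [h1]
  change _ = ∑' x : ↥{x | (q.reps v).deg (unifAt_spec v) x =
    ((1 : GL (Fin 2) F) : GL (Fin 2) F ⧸ q.U v)}, T x
  rw [tsum_subtype {x | (q.reps v).deg (unifAt_spec v) x =
    ((1 : GL (Fin 2) F) : GL (Fin 2) F ⧸ q.U v)} T, tsum_eq_sum (s := B) fun x hx => ?_,
    ← Finset.sum_fiberwise_of_maps_to (t := B) (fun a ha => Finset.mem_image_of_mem q.toOrd ha)]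
  · refine Finset.sum_congr rfl fun x hx => ?_
    obtain ⟨a, ha, rfl⟩ := Finset.mem_image.1 hx
    have hd := (q.degAt_eq_one_iff a).1 ((Set.Finite.mem_toFinset _).1 ha).1
    rw [Set.indicator_of_mem (show q.toOrd a ∈ {x | (q.reps v).deg (unifAt_spec v) x = _} from hd)]
    exact hfib _ hd
  · by_contra h
    rw [← ne_eq, Set.indicator_apply_ne_zero] at h
    obtain ⟨hd, hne⟩ := h
    refine hx ?_
    have hs := hfib x hd
    obtain ⟨a, ha⟩ : (A.filter fun a => q.toOrd a = x).Nonempty :=
        Finset.nonempty_iff_ne_empty.2 fun he => by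
      rw [he, Finset.sum_empty] at hs
      exact hne hs.symm
    exact Finset.mem_image.2 ⟨a, (Finset.mem_filter.1 ha).1, (Finset.mem_filter.1 ha).2⟩

end QDat

end Fermat.LT
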