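import Fermat.Agent.LT.SphKer

/-!
# Cosets under maps of fields preserving valuations

`Vert.fmap_injective` gives injectivity on cosets; `LKer.pull` pulls kernels back, spherical ones
to spherical ones (`LKer.pull_sphKer`).
-/

set_option autoImplicit false
open Filter Set
open scoped Classical Matrix

namespace Fermat.LT

section Val

variable {F : Type*} [Field F] {E : Type*} [Field E] {v : Valuation F (WithZero (Multiplicative ℤ))}
  {w : Valuation E (WithZero (Multiplicative ℤ))}

/-- Matrices congruent to one are congruent integral ones. -/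
lemma mem_congGL_of_close {g : GL (Fin 2) F}
    (h : ∀ i j, v ((g : Matrix (Fin 2) (Fin 2) F) i j - (1 : Matrix (Fin 2) (Fin 2) F) i j) < 1) :
    g ∈ congGL v := by
  have hone : ∀ i j, v ((1 : Matrix (Fin 2) (Fin 2) F) i j) ≤ 1 := fun i j => by
    fin_cases i <;> fin_cases j <;> simp
  have hint : ∀ i j, v ((g : Matrix (Fin 2) (Fin 2) F) i j) ≤ 1 := fun i j => by
    rw [← sub_add_cancel ((g : Matrix (Fin 2) (Fin 2) F) i j) ((1 : Matrix (Fin 2) (Fin 2) F) i j)]
    exact (v.map_add _ _).trans (max_le (h i j).le (hone i j))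
  set M : Matrix (Fin 2) (Fin 2) F := (g : Matrix (Fin 2) (Fin 2) F)
  have hdet : v M.det = 1 := by
    have h00 := h 0 0
    have h11 := h 1 1
    have h01 := h 0 1
    simp only [Matrix.one_apply_eq, Matrix.one_apply_ne (show (0 : Fin 2) ≠ 1 by decide),
      sub_zero] at h00 h11 h01
    rw [Matrix.det_fin_two, show M 0 0 * M 1 1 - M 0 1 * M 1 0
      = 1 + ((M 0 0 - 1) * M 1 1 + (M 1 1 - 1) - M 0 1 * M 1 0) by
        ring, Valuation.map_add_eq_of_lt_left,
      map_one]
    rw [map_one]
    refine lt_of_le_of_lt (v.map_sub _ _)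
      (max_lt (lt_of_le_of_lt (v.map_add _ _) (max_lt ?_ h11)) ?_)
    · rw [map_mul]; exact lt_of_le_of_lt (mul_le_of_le_one_right' (hint 1 1)) h00
    · rw [map_mul]; exact lt_of_le_of_lt (mul_le_of_le_one_right' (hint 1 0)) h01
  set A : Matrix (Fin 2) (Fin 2) v.integer := Matrix.of fun i j => ⟨M i j, hint i j⟩ with hA
  have hAm : A.map v.integer.subtype = M := by ext i j; rfl
  have hu : IsUnit A.det := by
    rw [Valuation.Integers.isUnit_iff_valuation_eq_one (Valuation.integer.integers v),
      ← hdet, ← hAm]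
    exact congrArg v (RingHom.map_det v.integer.subtype A)
  exact ⟨⟨((Matrix.isUnit_iff_isUnit_det A).2 hu).unit, Units.ext hAm⟩, h⟩

variable (f : F →+* E) (hf : ∀ x, w (f x) = v x)
include hf

/-- Levels are preserved. -/
lemma lvl_map (g : GL (Fin 2) F) : lvl w (Matrix.GeneralLinearGroup.map f g) = lvl v g := by
  obtain ⟨M, hM⟩ := exists_rep v g
  obtain ⟨⟨i, j, hij⟩, c, hc, e⟩ := id hM
  set M' : Matrix (Fin 2) (Fin 2) w.valuationSubring := Matrix.of fun i j =>
    (⟨f (M i j), (w.mem_valuationSubring_iff _).2 (by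
      rw [hf]; exact (v.mem_valuationSubring_iff _).1 (M i j).2)⟩ : w.valuationSubring)
  have hM' : toF w M' = (toF v M).map f := by ext k l; rfl
  have hrep : IsRep w (Matrix.GeneralLinearGroup.map f g) M' := by
    refine ⟨⟨i, j, ?_⟩, f c, (map_ne_zero f).2 hc, ?_⟩
    · change w (f _) = 1
      rw [hf]; exact hij
    · rw [hM', e]
      ext k l
      change f (c * _) = f c * f _
      exact map_mul f _ _
  have hd : ord w (toF w M').det = ord v (toF v M).det := by
    rw [hM', ord, ord, show ((toF v M).map f).det = f (toF v M).det from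
      (RingHom.map_det f _).symm, hf]
  exact_mod_cast (hrep.lvl_eq w).trans (hd.trans (hM.lvl_eq v).symm)

/-- Membership in the maximal subgroup descends. -/
lemma map_mem_U0_iff (g : GL (Fin 2) F) :
    Matrix.GeneralLinearGroup.map f g ∈ U0 w ↔ g ∈ U0 v := by
  rw [← lvl_eq_zero_iff, ← lvl_eq_zero_iff, lvl_map f hf]

/-- Membership in `U1` is preserved and reflected by a valuation preserving map of fields. -/
lemma map_mem_U1_iff (g : GL (Fin 2) F) :
    Matrix.GeneralLinearGroup.map f g ∈ U1 w ↔ g ∈ U1 v := by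
  set g' := Matrix.GeneralLinearGroup.map f g with hg'
  have hgf : ∀ i j, (g' : Matrix (Fin 2) (Fin 2) E) i j = f ((g : Matrix (Fin 2) (Fin 2) F) i j) :=
    fun i j => rfl
  have he : ∀ (d : Fˣ) (i j : Fin 2), ((scal (Units.map (f : F →* E) d) * g' : GL (Fin 2) E) :
      Matrix (Fin 2) (Fin 2) E) i j - (1 : Matrix (Fin 2) (Fin 2) E) i j
      = f (((scal d * g : GL (Fin 2) F) : Matrix (Fin 2) (Fin 2) F) i j
        - (1 : Matrix (Fin 2) (Fin 2) F) i j) := fun d i j => by
    rw [Units.val_mul, Units.val_mul, scal_coe, scal_coe, Matrix.scalar_apply, Matrix.scalar_apply,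
      Matrix.diagonal_mul, Matrix.diagonal_mul, map_sub, map_mul, hgf]
    congr 1
    fin_cases i <;> fin_cases j <;> simp
  constructor
  -- rescale by the inverse of the upper left entry, a unit
  · rintro ⟨c, hc⟩
    have h00 := hc.2 0 0
    rw [Units.val_mul, scal_coe, Matrix.scalar_apply, Matrix.diagonal_mul,
      Matrix.one_apply_eq, hgf] at h00
    set a := (g : Matrix (Fin 2) (Fin 2) F) 0 0
    have hu : w ((c : E) * f a) = 1 := by
      rw [show (c : E) * f a = 1 +
        ((c : E) * f a - 1) by ring, Valuation.map_add_eq_of_lt_left, map_one]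
      rwa [map_one]
    have ha : a ≠ 0 := fun e => by simp [e] at hu
    refine ⟨Units.mk0 a⁻¹ (inv_ne_zero ha), mem_congGL_of_close fun i j => ?_⟩
    rw [← hf, ← he]
    have hij := hc.2 i j
    rw [Units.val_mul, scal_coe, Matrix.scalar_apply, Matrix.diagonal_mul, hgf] at hij
    rw [Units.val_mul, scal_coe, Matrix.scalar_apply, Matrix.diagonal_mul, hgf]
    change w (f a⁻¹ * _ - _) < 1
    rw [show f a⁻¹ * f ((g : Matrix (Fin 2) (Fin 2) F) i j) - (1 : Matrix (Fin 2) (Fin 2) E) i j
        = (((c : E) * f ((g : Matrix (Fin 2) (Fin 2) F) i j) - (1 : Matrix (Fin 2) (Fin 2) E) i j)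
          - (1 : Matrix (Fin 2) (Fin 2) E) i j * ((c : E) * f a - 1)) / ((c : E) * f a) by
      have hfa : f a ≠ 0 := (map_ne_zero f).2 ha
      rw [map_inv₀]; field_simp; ring, map_div₀, hu, div_one]
    refine lt_of_le_of_lt (w.map_sub _ _) (max_lt hij ?_)
    rw [map_mul]
    refine lt_of_le_of_lt (mul_le_of_le_one_left' ?_) h00
    fin_cases i <;> fin_cases j <;> simp
  -- the converse maps the scalar
  · rintro ⟨d, hd⟩
    refine ⟨Units.map (f : F →* E) d, mem_congGL_of_close fun i j => ?_⟩
    rw [he, hf]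
    exact hd.2 i j

end Val

variable {F : Type*} [Field F] [NumberField F] {E : Type*} [Field E] [NumberField E]
  {S : Set (Place F)} {S' : Set (Place E)} {v : Place F} {w : Place E}
  (f : F →+* E) (hf : ∀ x, w.valuation E (f x) = v.valuation F x) (hS : v ∈ S ↔ w ∈ S')

include hf hS in
/-- Membership in the level descends. -/
lemma map_mem_lev_iff (g : GL (Fin 2) F) :
    Matrix.GeneralLinearGroup.map f g ∈ lev S' w ↔ g ∈ lev S v := by
  by_cases hv : v ∈ S
  · rw [lev_of_mem hv, lev_of_mem (hS.1 hv), map_mem_U1_iff f hf]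
  · rw [lev_of_not_mem hv, lev_of_not_mem fun h => hv (hS.2 h), map_mem_U0_iff f hf]

include hf in
/-- The cuspidal value is preserved. -/
lemma eCusp_map (hv : pnorm v = 3) (hw : pnorm w = 3) (g : GL (Fin 2) F) :
    eCusp (w.valuation E) (Matrix.GeneralLinearGroup.map f g) = eCusp (v.valuation F) g := by
  by_cases hg : g ∈ U0 (v.valuation F)
  · obtain ⟨c, a, rfl⟩ := exists_eq_scal_incGL hg
    let f' : (v.valuation F).integer →+* (w.valuation E).integer :=
      (f.comp (v.valuation F).integer.subtype).codRestrict _ fun x => by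
        change w.valuation E (f x) ≤ 1
        rw [hf]; exact x.2
    have hres : (res3 hw).comp f' = res3 hv := by
      refine RingHom.ext fun x => ?_
      obtain ⟨n, hn⟩ : ∃ n : ℕ, (n : ZMod 3) = res3 hv x :=
        ⟨(res3 hv x).val, ZMod.natCast_zmod_val _⟩
      have h0 : res3 hv (x - n) = 0 := by rw [map_sub, map_natCast, hn, sub_self]
      rw [res3_eq_zero hv] at h0
      have h1 : res3 hw (f' (x - n)) = 0 := by
        rw [res3_eq_zero hw]
        change w.valuation E (f ((x - n : (v.valuation F).integer) : F)) < 1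
        rw [hf]; exact h0
      rw [map_sub, map_sub, map_natCast, map_natCast, sub_eq_zero, hn] at h1
      exact h1
    have e : Matrix.GeneralLinearGroup.map f (scal c * incGL v a)
        = scal (Units.map (f : F →* E) c) * incGL w (Matrix.GeneralLinearGroup.map f' a) := by
      rw [map_mul]
      congr 1
      refine Units.ext (Matrix.ext fun i j => ?_)
      change f ((Matrix.scalar (Fin 2) (c : F)) i j) = _
      rw [scal_coe]
      fin_cases i <;> fin_cases j <;> simp
    rw [e, eCusp_scal_incGL hw, eCusp_scal_incGL hv]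
    congr 1
    ext i j
    exact RingHom.congr_fun hres _
  · rw [eCusp_eq_zero hg, eCusp_eq_zero fun h => hg ((map_mem_U0_iff f hf g).1 h)]

/-- The map of cosets induced by a field homomorphism preserving the levels. -/
noncomputable def Vert.fmap : Vert S v → Vert S' w :=
  Quotient.map' (Matrix.GeneralLinearGroup.map f) fun a b h => by
    rw [QuotientGroup.leftRel_apply] at h ⊢
    rw [← map_inv, ← map_mul]
    exact (map_mem_lev_iff f hf hS _).2 h

/-- The image of the class of a matrix. -/
@[simp] lemma Vert.fmap_mk (g : GL (Fin 2) F) :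
    Vert.fmap f hf hS (g : Vert S v) =
      ((Matrix.GeneralLinearGroup.map f g : GL (Fin 2) E) : Vert S' w) := rfl

/-- The map on cosets is equivariant. -/
lemma Vert.fmap_smul (g : GL (Fin 2) F) (a : Vert S v) :
    Vert.fmap f hf hS (g • a) = Matrix.GeneralLinearGroup.map f g • Vert.fmap f hf hS a := by
  obtain ⟨h, rfl⟩ := QuotientGroup.mk_surjective a
  rw [MulAction.Quotient.smul_coe, Vert.fmap_mk, Vert.fmap_mk,
    MulAction.Quotient.smul_coe, smul_eq_mul, smul_eq_mul, map_mul]

/-- The map on cosets is injective. -/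
lemma Vert.fmap_injective : Function.Injective (Vert.fmap f hf hS) := fun a b h => by
  obtain ⟨g, rfl⟩ := QuotientGroup.mk_surjective a
  obtain ⟨g', rfl⟩ := QuotientGroup.mk_surjective b
  rw [Vert.fmap_mk, Vert.fmap_mk, QuotientGroup.eq, ← map_inv, ← map_mul,
    map_mem_lev_iff f hf hS] at h
  exact QuotientGroup.eq.2 h

/-- Pull back a kernel. -/
noncomputable def LKer.pull (k : LKer S' w) : LKer S v where
  toFun a b := k (Vert.fmap f hf hS a) (Vert.fmap f hf hS b)
  invariant g a b := by rw [Vert.fmap_smul, Vert.fmap_smul, k.invariant]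
  finite_row a := Set.Finite.preimage (Vert.fmap_injective f hf hS).injOn (k.finite_row _)

/-- The values of the pulled back kernel. -/
lemma LKer.pull_apply (k : LKer S' w) (a b : Vert S v) :
    k.pull f hf hS a b = k (Vert.fmap f hf hS a) (Vert.fmap f hf hS b) := rfl

/-- Spherical kernels pull back to spherical ones. -/
lemma LKer.pull_sphKer (hv : v ∉ S) (hw : w ∉ S') (hn : pnorm w = pnorm v) (p : Polynomial ℂ) :
    (sphKer hw p).pull f hf hS = sphKer hv p := by
  refine LKer.ext' fun a b => ?_
  obtain ⟨g, rfl⟩ := QuotientGroup.mk_surjective a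
  obtain ⟨h, rfl⟩ := QuotientGroup.mk_surjective b
  rw [LKer.pull_apply, Vert.fmap_mk, Vert.fmap_mk, sphKer_apply, sphKer_apply, vd_mk,
    vd_mk, ← map_inv, ← map_mul, lvl_map f hf, hn]

/-- Cuspidal idempotents pull back to cuspidal ones. -/
lemma LKer.pull_eKer (hv : v ∈ S) (hw : w ∈ S') (hv3 : pnorm v = 3) (hw3 : pnorm w = 3) :
    (eKer hw3 hw).pull f hf hS = eKer hv3 hv := by
  refine LKer.ext' fun a b => ?_
  obtain ⟨g, rfl⟩ := QuotientGroup.mk_surjective a
  obtain ⟨h, rfl⟩ := QuotientGroup.mk_surjective b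
  rw [LKer.pull_apply, Vert.fmap_mk, Vert.fmap_mk, eKer_apply, eKer_apply, eCusp_mk hw3 hw,
    eCusp_mk hv3 hv, ← map_inv, ← map_mul, eCusp_map f hf hv3 hw3]

/-- A kernel sees a bounded range. -/
lemma LKer.exists_lvl_bound (k : LKer S v) :
    ∃ D : ℕ, ∀ a b : Vert S v, k a b ≠ 0 → lvl (v.valuation F) (a.out⁻¹ * b.out) ≤ D := by
  set r := k.row ((1 : GL (Fin 2) F) : Vert S v)
  refine ⟨r.sup fun b => lvl (v.valuation F) b.out, fun a b h => ?_⟩
  have hb : ((a.out⁻¹ * b.out : GL (Fin 2) F) : Vert S v) ∈ r := by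
    rw [LKer.mem_row, ← k.invariant a.out, MulAction.Quotient.smul_coe, MulAction.Quotient.smul_coe,
      smul_eq_mul, smul_eq_mul, mul_one, mul_inv_cancel_left, QuotientGroup.out_eq',
        QuotientGroup.out_eq']
    exact h
  obtain ⟨⟨u, hu⟩, e⟩ := QuotientGroup.mk_out_eq_mul (lev S v) (a.out⁻¹ * b.out)
  refine le_trans (le_of_eq ?_)
    (Finset.le_sup (f := fun b : Vert S v => lvl (v.valuation F) b.out) hb)
  rw [e, lvl_mul_right _ (lev_le_U0 S v hu)]

end Fermat.LT
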