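import Fermat.Agent.LT.EllTorus
import Fermat.Agent.LT.LocPlace
import Fermat.Agent.LT.LocK
import Fermat.Agent.LT.LocMap

/-!
# Cosets at all places over a place, bounded fibres

`OverPt` is the space of families of cosets at the places over `v` and `OverPt.val` the product of
the kernels at a twisted translate.
-/

set_option autoImplicit false
open Set
open scoped Matrix

namespace Fermat.LT

variable {K L : Type} [Field K] [NumberField K] [Field L] [NumberField L] [Algebra K L]

variable (K) in
/-- Cosets at the places over `v`. -/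
def OverPt (S : Set (Place L)) (v : Place K) : Type _ := ∀ w : placesOver K L v, Vert S w.1

/-- `PGL₂(K)` acts on the cosets over a place. -/
noncomputable instance instMulActionOverPt (S : Set (Place L)) (v : Place K) :
    MulAction (PG K) (OverPt K S v) where
  smul γ x := fun w => PG.iMap K L γ • x w
  one_smul x := funext fun w => by
    change PG.iMap K L 1 • x w = x w
    rw [map_one, one_smul]
  mul_smul γ δ x := funext fun w => by
    change PG.iMap K L (γ * δ) • x w = PG.iMap K L γ • (PG.iMap K L δ • x w)
    rw [map_mul, mul_smul]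

omit [NumberField K] in
/-- The components of a translate. -/
lemma OverPt.smul_apply {S : Set (Place L)} {v : Place K} (g : GL (Fin 2) K) (x : OverPt K S v)
    (w : placesOver K L v) : ((g : PG K) • x) w = iGL K L g • x w := rfl

/-- The family of base cosets at the places over `v`. -/
noncomputable def OverPt.base {S : Set (Place L)} {v : Place K} : OverPt K S v :=
  fun w => ((1 : GL (Fin 2) L) : Vert S w.1)

variable {σ : L ≃ₐ[K] L} {S : Set (Place L)} (hS : Stable (σ : L ≃+* L) S)

omit [NumberField K] [NumberField L] in
/-- The inverse automorphism preserves the places over `v`. -/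
lemma liesOver_symm {v : Place K} {w : Place L} (h : LiesOver K L w v) :
    LiesOver K L ((mapPlace (σ : L ≃+* L)).symm w) v := by
  have e : (mapPlace (σ : L ≃+* L)).symm w = mapPlace ((σ⁻¹ : L ≃ₐ[K] L) : L ≃+* L) w := by
    rw [Equiv.symm_apply_eq, ← mapPlace_mul, mul_inv_cancel, mapPlace_one]
  rw [e]
  exact h.mapPlace _

/-- The image of the previous component. -/
noncomputable def OverPt.prev {v : Place K} (x : OverPt K S v) (w : placesOver K L v) :
    Vert S w.1 :=
  Vert.amap hS ((mapPlace (σ : L ≃+* L)).apply_symm_apply w.1)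
    (x ⟨(mapPlace (σ : L ≃+* L)).symm w.1, liesOver_symm w.2⟩)

omit [NumberField K] in
/-- At `w = σ u` the previous component is the image of the component at `u`. -/
lemma OverPt.prev_eq {v : Place K} (x : OverPt K S v) {u w : placesOver K L v}
    (hu : mapPlace (σ : L ≃+* L) u.1 = w.1) : x.prev hS w = Vert.amap hS hu (x u) := by
  obtain ⟨u, hu'⟩ := u
  obtain ⟨w, hw'⟩ := w
  obtain rfl : u = (mapPlace (σ : L ≃+* L)).symm w := ((mapPlace _).symm_apply_eq.2 hu.symm).symm
  rfl

/-- The product of the kernels over `v` at a twisted translate. -/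
noncomputable def OverPt.val (P : ∀ w : Place L, LKer S w) (δ : GL (Fin 2) L) {v : Place K}
    (x : OverPt K S v) : ℂ := ∏ᶠ w : placesOver K L v, P w.1 (x w) (δ • x.prev hS w)

/-- The action of an automorphism on local cosets is semilinear. -/
lemma Vert.amap_smul {τ : L ≃+* L} (hS : Stable τ S) {v u : Place L} (hu : mapPlace τ v = u)
    (g : GL (Fin 2) L) (a : Vert S v) :
    Vert.amap hS hu (g • a) = mapGL τ g • Vert.amap hS hu a := by
  obtain ⟨h, rfl⟩ := QuotientGroup.mk_surjective a
  rw [MulAction.Quotient.smul_coe, Vert.amap_mk, Vert.amap_mk,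
    MulAction.Quotient.smul_coe, smul_eq_mul, smul_eq_mul, map_mul]

namespace QDat

variable {F : Type*} [Field F] [NumberField F] {S : Set (Place F)} (q : QDat F) {v : Place F}
  {g₀ : GL (Fin 2) F}

/-- A kernel summed over the fibre has finite support. -/
lemma finite_ker (hg : TReg q.D g₀) (k : LKer S v) :
    {a : Vert S v | q.degAt a = q.one v ∧ k a (g₀ • a) ≠ 0}.Finite := by
  obtain ⟨D, hD⟩ := k.exists_lvl_bound
  refine (q.finite_bounded hg D).subset fun a ha => ⟨ha.1, ?_⟩
  obtain ⟨⟨u, hu⟩, e⟩ := QuotientGroup.mk_out_eq_mul (lev S v) (g₀ * a.out)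
  have h := hD _ _ ha.2
  rw [show g₀ • a = ((g₀ * a.out : GL (Fin 2) F) : Vert S v) by
    conv_lhs => rw [← QuotientGroup.out_eq' a]
    rfl, e, ← mul_assoc, ← mul_assoc, lvl_mul_right _ (lev_le_U0 S v hu)] at h
  exact h

end QDat

end Fermat.LT
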