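import Fermat.Agent.LT.GlobTorus
import Fermat.Agent.LT.CycleSum
import Fermat.Agent.LT.LocOver

/-!
# Split places

The small cosets are those of one place above; along the cycle of places the twisted product becomes
the composite kernel at the twisted norm.
-/

set_option autoImplicit false
open Filter Set
open scoped Classical Matrix

namespace Fermat.LT

variable {K L : Type} [Field K] [NumberField K] [Field L] [NumberField L] [Algebra K L]
  {σ : L ≃ₐ[K] L} {v : Place K} {w : Place L}

namespace Split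

variable (hw : LiesOver K L w v) (he : ramE v w = 1)
include hw he

/-- The valuation restricts. -/
lemma val_iota (x : K) : w.valuation L (algebraMap K L x) = v.valuation K x := by
  rw [hw.valuation_algebraMap, he, pow_one]

variable (hn : pnorm w = pnorm v)
include hn

/-- The residue field does not grow. -/
lemma exists_res {x : L} (hx : w.valuation L x ≤ 1) :
    ∃ k : K, v.valuation K k ≤ 1 ∧ w.valuation L (x - algebraMap K L k) < 1 := by
  choose lift hlift1 hlift2 using exists_resd_eq (v := v.valuation K)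
  have hι : ∀ z, w.valuation L (algebraMap K L (lift z)) ≤ 1 := fun z => by
    rw [val_iota hw he]; exact hlift1 z
  let g : Res v → Res w := fun z => resd (w.valuation L) (algebraMap K L (lift z))
  have hg : Function.Injective g := fun a b h => by
    have h1 := (resd_eq_iff (hι a) (hι b)).1 h
    rw [← map_sub, val_iota hw he] at h1
    rw [← hlift2 a, ← hlift2 b, resd_eq_iff (hlift1 a) (hlift1 b)]
    exact h1
  obtain ⟨z, hz⟩ := (hg.bijective_of_nat_card_le (by rw [natCard_residue, natCard_residue, hn])).2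
    (resd (w.valuation L) x)
  exact ⟨lift z, hlift1 z, (resd_eq_iff hx (hι z)).1 hz.symm⟩

/-- The small field is dense. -/
lemma exists_close (x : L) (n : ℕ) :
    ∃ k : K, w.valuation L (x - algebraMap K L k) ≤ WithZero.exp (-(n : ℤ)) := by
  obtain ⟨ϖ, hϖ⟩ := v.valuation_exists_uniformizer K
  have hϖw : ∀ m : ℕ, w.valuation L (algebraMap K L (ϖ ^ m)) = WithZero.exp (-(m : ℤ)) :=
      fun m => by
    rw [val_iota hw he, map_pow, hϖ, ← WithZero.exp_nsmul]; simp
  have hne : ∀ m : ℕ, algebraMap K L (ϖ ^ m) ≠ 0 := fun m h => by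
    have := hϖw m; rw [h, map_zero] at this; exact WithZero.exp_ne_zero this.symm
  -- integral elements: digit by digit, as the residue fields agree
  have hint : ∀ (m : ℕ) {y : L}, w.valuation L y ≤ 1 →
      ∃ k : K, w.valuation L (y - algebraMap K L k) ≤ WithZero.exp (-(m : ℤ)) := by
    intro m
    induction m with
    | zero => exact fun {y} hy => ⟨0, by simpa using hy⟩
    | succ m ih =>
      intro y hy
      obtain ⟨k, hk⟩ := ih hy
      set z := (y - algebraMap K L k) / algebraMap K L (ϖ ^ m)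
      have hz : w.valuation L z ≤ 1 := by
        rw [map_div₀, hϖw, div_le_one₀ (zero_lt_iff.2 WithZero.exp_ne_zero)]; exact hk
      obtain ⟨k', -, hk'⟩ := exists_res hw he hn hz
      refine ⟨k + ϖ ^ m * k', ?_⟩
      rw [show y - algebraMap K L (k + ϖ ^ m * k') = algebraMap K L (ϖ ^ m) *
          (z - algebraMap K L k') by
        have := hne m
        rw [map_add, map_mul]; simp only [z]; field_simp; ring, map_mul, hϖw]
      refine (mul_le_mul' le_rfl (le_exp_neg_one_iff.2 hk')).trans ?_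
      rw [← WithZero.exp_add, WithZero.exp_le_exp]
      push_cast; omega
  rcases eq_or_ne x 0 with rfl | hx
  · exact ⟨0, by simp⟩
  -- in general scale by a power of the uniformiser
  set N := (WithZero.log (w.valuation L x)).toNat
  obtain ⟨k, hk⟩ := hint (n + N) (y := x * algebraMap K L (ϖ ^ N)) (by
    rw [map_mul, hϖw, ← WithZero.exp_log ((w.valuation L).ne_zero_iff.2 hx), ← WithZero.exp_add,
      ← WithZero.exp_zero, WithZero.exp_le_exp]
    omega)
  refine ⟨k / ϖ ^ N, ?_⟩
  rw [show x - algebraMap K L (k / ϖ ^ N) = (x * algebraMap K L (ϖ ^ N) - algebraMap K L k) /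
      algebraMap K L (ϖ ^ N) by
    have := hne N
    rw [map_div₀]; field_simp, map_div₀, hϖw, div_le_iff₀ (zero_lt_iff.2 WithZero.exp_ne_zero),
    ← WithZero.exp_add]
  exact hk.trans (le_of_eq (by congr 1; push_cast; ring))

/-- Every matrix is a small one times a congruent one. -/
lemma exists_small (g : GL (Fin 2) L) :
    ∃ k : GL (Fin 2) K, g⁻¹ * iGL K L k ∈ congGL (w.valuation L) := by
  set G : Matrix (Fin 2) (Fin 2) L := ((g⁻¹ : GL (Fin 2) L) : Matrix (Fin 2) (Fin 2) L)
  set N := (Finset.univ.sup fun p : Fin 2 × Fin 2 =>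
    (WithZero.log (w.valuation L (G p.1 p.2))).toNat) + 1
  choose k hk using fun i j => exists_close hw he hn ((g : Matrix (Fin 2) (Fin 2) L) i j) N
  set k' : Matrix (Fin 2) (Fin 2) K := Matrix.of k
  -- `N` beats the entries of `g⁻¹`
  have hG : ∀ i l, w.valuation L (G i l) * WithZero.exp (-(N : ℤ)) < 1 := fun i l => by
    rcases eq_or_ne (w.valuation L (G i l)) 0 with h | h
    · simp [h]
    rw [← WithZero.exp_log h, ← WithZero.exp_add, ← WithZero.exp_zero, WithZero.exp_lt_exp]
    have := Finset.le_sup (f := fun p : Fin 2 × Fin 2 =>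
      (WithZero.log (w.valuation L (G p.1 p.2))).toNat) (Finset.mem_univ (i, l))
    dsimp only at this
    simp only [N]; push_cast; omega
  have hclose : ∀ i j, w.valuation L ((G * k'.map (algebraMap K L)) i j
      - (1 : Matrix (Fin 2) (Fin 2) L) i j) < 1 := by
    intro i j
    have e : (1 : Matrix (Fin 2) (Fin 2) L) = G * (g : Matrix (Fin 2) (Fin 2) L) := by
      rw [← Units.val_mul, inv_mul_cancel, Units.val_one]
    rw [e, ← Matrix.sub_apply, ← Matrix.mul_sub, Matrix.mul_apply]
    refine (w.valuation L).map_sum_lt one_ne_zero fun l _ => ?_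
    rw [map_mul, Matrix.sub_apply, Valuation.map_sub_swap]
    exact lt_of_le_of_lt (mul_le_mul' le_rfl (hk l j)) (hG i l)
  -- the approximant is invertible
  have hdet : k'.det ≠ 0 := by
    intro h0
    have hd : (G * k'.map (algebraMap K L)).det = 0 := by
      rw [Matrix.det_mul, show (k'.map (algebraMap K L)).det = algebraMap K L k'.det from
        (RingHom.map_det _ _).symm, h0, map_zero, mul_zero]
    set M := G * k'.map (algebraMap K L)
    have hM : ∀ i j, w.valuation L (M i j) ≤ 1 := fun i j => by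
      rw [← sub_add_cancel (M i j) ((1 : Matrix (Fin 2) (Fin 2) L) i j)]
      refine ((w.valuation L).map_add _ _).trans (max_le (hclose i j).le ?_)
      fin_cases i <;> fin_cases j <;> simp
    have h00 := hclose 0 0
    have h11 := hclose 1 1
    have h01 := hclose 0 1
    simp only [Matrix.one_apply_eq, Matrix.one_apply_ne (show (0 : Fin 2) ≠ 1 by decide),
      sub_zero] at h00 h11 h01
    rw [Matrix.det_fin_two] at hd
    have h1 : w.valuation L ((M 0 0 - 1) * M 1 1 + (M 1 1 - 1) - M 0 1 * M 1 0) < 1 := by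
      refine lt_of_le_of_lt ((w.valuation L).map_sub _ _)
        (max_lt (lt_of_le_of_lt ((w.valuation L).map_add _ _) (max_lt ?_ h11)) ?_)
      · rw [map_mul]; exact lt_of_le_of_lt (mul_le_of_le_one_right' (hM 1 1)) h00
      · rw [map_mul]; exact lt_of_le_of_lt (mul_le_of_le_one_right' (hM 1 0)) h01
    rw [show (M 0 0 - 1) * M 1 1 + (M 1 1 - 1) - M 0 1 * M 1 0 = -1 by linear_combination hd,
      Valuation.map_neg, map_one] at h1
    exact lt_irrefl _ h1
  exact ⟨Matrix.GeneralLinearGroup.mkOfDetNeZero k' hdet, mem_congGL_of_close hclose⟩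

variable {SK : Set (Place K)} {S : Set (Place L)} (hlev : v ∈ SK ↔ w ∈ S)
include hlev

/-- The cosets of the small field are those at `w`. -/
noncomputable def vertIso : Vert SK v ≃ Vert S w :=
  Equiv.ofBijective (Vert.fmap (algebraMap K L) (val_iota hw he) hlev)
    ⟨Vert.fmap_injective _ _ _, fun a => by
      obtain ⟨g, rfl⟩ := QuotientGroup.mk_surjective a
      obtain ⟨k, hk⟩ := exists_small hw he hn g
      refine ⟨(k : Vert SK v), ?_⟩
      rw [Vert.fmap_mk, eq_comm, QuotientGroup.eq]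
      by_cases hS : w ∈ S
      · rw [lev_of_mem hS]; exact le_withScalars _ hk
      · rw [lev_of_not_mem hS]; exact U1_le_U0 _ (le_withScalars _ hk)⟩

/-- The identification is the extension map. -/
lemma vertIso_apply (a : Vert SK v) :
    vertIso hw he hn hlev a = Vert.fmap (algebraMap K L) (val_iota hw he) hlev a := rfl

/-- The identification is equivariant. -/
lemma vertIso_symm_smul (g : GL (Fin 2) K) (a : Vert S w) :
    (vertIso hw he hn hlev).symm (iGL K L g • a) = g • (vertIso hw he hn hlev).symm a := by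
  rw [Equiv.symm_apply_eq, vertIso_apply, Vert.fmap_smul, ← vertIso_apply hw he hn hlev,
    Equiv.apply_symm_apply]

end Split

section Cycle

variable (hc : Cyc3 K L σ) (q : QDat K) (hw : LiesOver K L w v) (he : ramE v w = 1)
  (hn : pnorm w = pnorm v) (hmoved : mapPlace (σ : L ≃+* L) w ≠ w)
  {SK : Set (Place K)} {S : Set (Place L)} (hlev : v ∈ SK ↔ w ∈ S) (hS : Stable (σ : L ≃+* L) S)

/-- The degree at a split place. -/
noncomputable def Split.deg (x : OverPt K S v) : q.Γ v :=
  q.degAt ((Split.vertIso hw he hn hlev).symm (x ⟨w, hw⟩))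

/-- The degree is equivariant. -/
lemma Split.deg_smul {g : GL (Fin 2) K} (hg : g ∈ tTor q.D) (x : OverPt K S v) :
    Split.deg q hw he hn hlev ((g : PG K) • x) = (g : PG K) • Split.deg q hw he hn hlev x := by
  rw [Split.deg, Split.deg, OverPt.smul_apply, Split.vertIso_symm_smul, ← PG.mk_smul_vert,
    q.degAt_smul hg]

variable (P : ∀ u : Place L, LKer S u) (δ : GL (Fin 2) L)

/-- A kernel at the second place read at the first. -/
noncomputable def Split.k2 : LKer S w :=
  (P (mapPlace (σ : L ≃+* L) w)).pull ((σ : L ≃+* L) : L →+* L)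
    (fun x => valuation_mapPlace (σ : L ≃+* L) w x) (hS w).symm

/-- A kernel at the third place read at the first. -/
noncomputable def Split.k3 : LKer S w :=
  ((P (mapPlace (σ : L ≃+* L) (mapPlace (σ : L ≃+* L) w))).pull ((σ : L ≃+* L) : L →+* L)
    (fun x => valuation_mapPlace (σ : L ≃+* L) (mapPlace (σ : L ≃+* L) w) x)
    (hS (mapPlace (σ : L ≃+* L) w)).symm).pull ((σ : L ≃+* L) : L →+* L)
    (fun x => valuation_mapPlace (σ : L ≃+* L) w x) (hS w).symm

/-- The composite kernel on the small field. -/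
noncomputable def Split.comp : LKer SK v :=
  ((P w).comp ((Split.k3 hS P).comp (Split.k2 hS P))).pull (algebraMap K L)
    (Split.val_iota hw he) hlev

include hc hmoved in
/-- A moved place and its two translates are distinct. -/
lemma Split.distinct :
    (mapPlace (σ : L ≃+* L) w) ≠ w ∧ (mapPlace (σ : L ≃+* L) (mapPlace (σ : L ≃+* L) w)) ≠ w ∧
    (mapPlace (σ : L ≃+* L) (mapPlace (σ : L ≃+* L) w)) ≠ (mapPlace (σ : L ≃+* L) w) := by
  refine ⟨hmoved, fun h => hmoved ?_, fun h => hmoved ((mapPlace (σ : L ≃+* L)).injective h)⟩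
  have := congrArg (mapPlace (σ : L ≃+* L)) h
  rw [hc.mapPlace_three] at this
  exact this.symm

variable (hw2 : LiesOver K L (mapPlace (σ : L ≃+* L) w) v)
  (hw3 : LiesOver K L (mapPlace (σ : L ≃+* L) (mapPlace (σ : L ≃+* L) w)) v)

/-- The three components read at the first place. -/
noncomputable def Split.triple (hc : Cyc3 K L σ) (x : OverPt K S v) :
    Vert S w × Vert S w × Vert S w :=
  (x ⟨w, hw⟩,
    Vert.amap hS (show mapPlace (σ : L ≃+* L) (mapPlace (σ : L ≃+* L) (mapPlace (σ : L ≃+* L) w))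
    = w from hc.mapPlace_three w) (Vert.amap hS rfl (x ⟨(mapPlace (σ : L ≃+* L) w), hw2⟩)),
    Vert.amap hS (show mapPlace (σ : L ≃+* L) (mapPlace (σ : L ≃+* L) (mapPlace (σ : L ≃+* L) w))
      = w from hc.mapPlace_three w) (x ⟨(mapPlace (σ : L ≃+* L) (mapPlace (σ : L ≃+* L) w)), hw3⟩))

include hc in
/-- The automorphism applied three times round a cycle of places is the identity. -/
lemma amap_cycle {u₁ u₂ u₃ : Place L} (h₁ : mapPlace (σ : L ≃+* L) u₁ = u₂)
    (h₂ : mapPlace (σ : L ≃+* L) u₂ = u₃) (h₃ : mapPlace (σ : L ≃+* L) u₃ = u₁) (a : Vert S u₁) :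
    Vert.amap hS h₃ (Vert.amap hS h₂ (Vert.amap hS h₁ a)) = a := by
  obtain ⟨g, rfl⟩ := QuotientGroup.mk_surjective a
  rw [Vert.amap_mk, Vert.amap_mk, Vert.amap_mk, mapGL_three hc]

include hc in
/-- A vertex fixed by a twisted translate is fixed by the twisted norm. -/
lemma twistN_smul_of_fixed {u : Place L} (hu : mapPlace (σ : L ≃+* L) u = u) {δ : GL (Fin 2) L}
    {a : Vert S u} (ha : a = δ • Vert.amap hS hu a) : twistN (σ : L ≃+* L) δ • a = a := by
  have e1 := congrArg (fun b => δ • Vert.amap hS hu b) ha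
  have e2 := congrArg (fun b => δ • Vert.amap hS hu b) e1
  have e := ha.trans (e1.trans e2)
  simp only [Vert.amap_smul, amap_cycle hc hS] at e
  rw [twistN, mul_smul, mul_smul]
  exact e.symm

include hmoved in
/-- Reading the three components at the first place is bijective. -/
lemma Split.triple_bijective :
    Function.Bijective (Split.triple hw hS hw2 hw3 hc : OverPt K S v → _) := by
  obtain ⟨h21, h31, h32⟩ := Split.distinct hc hmoved
  have h3 : mapPlace (σ : L ≃+* L) (mapPlace (σ : L ≃+* L) (mapPlace (σ : L ≃+* L) w)) = w :=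
    hc.mapPlace_three w
  refine ⟨fun x y h => ?_, fun p => ?_⟩
  -- injective: the three coordinates determine the point
  · have e1 : x ⟨w, hw⟩ = y ⟨w, hw⟩ := congrArg Prod.fst h
    have e2 := congrArg (fun p : Vert S w × Vert S w × Vert S w =>
      Vert.amap hS (rfl : mapPlace (σ : L ≃+* L) w = (mapPlace (σ : L ≃+* L) w)) p.2.1) h
    have e3 := congrArg (fun p : Vert S w × Vert S w × Vert S w =>
      Vert.amap hS (rfl : mapPlace (σ : L ≃+* L) (mapPlace (σ : L ≃+* L) w) =
        (mapPlace (σ : L ≃+* L) (mapPlace (σ : L ≃+* L) w)))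
        (Vert.amap hS (rfl : mapPlace (σ : L ≃+* L) w = (mapPlace (σ : L ≃+* L) w)) p.2.2)) h
    simp only [Split.triple, amap_cycle hc hS] at e2 e3
    funext ⟨u, hu⟩
    rcases hc.eq_or_eq_mapPlace hw hu with rfl | rfl | rfl
    exacts [e1, e2, e3]
  -- surjective: set the three coordinates
  · obtain ⟨a, b, c⟩ := p
    let B : OverPt K S v := OverPt.base
    let x : OverPt K S v := Function.update (Function.update (Function.update B ⟨w, hw⟩ a)
      ⟨(mapPlace (σ : L ≃+* L) w), hw2⟩
      (Vert.amap hS rfl b)) ⟨(mapPlace (σ : L ≃+* L) (mapPlace (σ : L ≃+* L) w)), hw3⟩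
        (Vert.amap hS rfl
        (Vert.amap hS (rfl : mapPlace (σ : L ≃+* L) w = (mapPlace (σ : L ≃+* L) w)) c))
    refine ⟨x, ?_⟩
    have n12 : (⟨w, hw⟩ : placesOver K L v) ≠ ⟨(mapPlace (σ : L ≃+* L) w), hw2⟩ :=
      fun e => h21 (congrArg Subtype.val e).symm
    have n13 : (⟨w, hw⟩ : placesOver K L v) ≠
      ⟨(mapPlace (σ : L ≃+* L) (mapPlace (σ : L ≃+* L) w)), hw3⟩ :=
      fun e => h31 (congrArg Subtype.val e).symm
    have n23 : (⟨(mapPlace (σ : L ≃+* L) w), hw2⟩ : placesOver K L v) ≠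
      ⟨(mapPlace (σ : L ≃+* L) (mapPlace (σ : L ≃+* L) w)), hw3⟩ :=
      fun e => h32 (congrArg Subtype.val e).symm
    simp only [Split.triple, x, Function.update_self, Function.update_of_ne n12,
      Function.update_of_ne n13, Function.update_of_ne n23, amap_cycle hc hS]

include hmoved in
/-- The product in the three components. -/
lemma Split.val_triple (x : OverPt K S v) :
    OverPt.val hS P δ x
      = (P w) (Split.triple hw hS hw2 hw3 hc x).1 (δ • (Split.triple hw hS hw2 hw3 hc x).2.2)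
        * Split.k3 hS P (Split.triple hw hS hw2 hw3 hc x).2.2
            (mapGL (σ : L ≃+* L) δ • (Split.triple hw hS hw2 hw3 hc x).2.1)
        * Split.k2 hS P (Split.triple hw hS hw2 hw3 hc x).2.1
            (mapGL (σ : L ≃+* L) (mapGL (σ : L ≃+* L) δ) •
              (Split.triple hw hS hw2 hw3 hc x).1) := by
  obtain ⟨h21, h31, h32⟩ := Split.distinct hc hmoved
  have h3 : mapPlace (σ : L ≃+* L) (mapPlace (σ : L ≃+* L) (mapPlace (σ : L ≃+* L) w)) = w :=
    hc.mapPlace_three w
  have : Finite (placesOver K L v) := (hc.finite_placesOver v).to_subtype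
  let _ := Fintype.ofFinite (placesOver K L v)
  -- the places over `v` are the three conjugates of `w`
  have huniv : (Finset.univ : Finset (placesOver K L v)) =
      {⟨w, hw⟩, ⟨(mapPlace (σ : L ≃+* L) w), hw2⟩,
      ⟨(mapPlace (σ : L ≃+* L) (mapPlace (σ : L ≃+* L) w)), hw3⟩} := by
    refine Finset.ext fun ⟨u, hu⟩ => ?_
    simp only [Finset.mem_univ, Finset.mem_insert, Finset.mem_singleton, Subtype.mk.injEq, true_iff]
    exact hc.eq_or_eq_mapPlace hw hu
  rw [OverPt.val, finprod_eq_prod_of_fintype, huniv, Finset.prod_insert, Finset.prod_insert,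
    Finset.prod_singleton, x.prev_eq hS
      (u := ⟨(mapPlace (σ : L ≃+* L) (mapPlace (σ : L ≃+* L) w)), hw3⟩) (w := ⟨w, hw⟩) h3,
    x.prev_eq hS (u := ⟨w, hw⟩) (w := ⟨(mapPlace (σ : L ≃+* L) w), hw2⟩) rfl,
    x.prev_eq hS (u := ⟨(mapPlace (σ : L ≃+* L) w), hw2⟩)
      (w := ⟨(mapPlace (σ : L ≃+* L) (mapPlace (σ : L ≃+* L) w)), hw3⟩) rfl]
  -- both sides agree after unfolding `k2` and `k3`
  · rw [mul_assoc, mul_comm ((P (mapPlace (σ : L ≃+* L) w)) _ _)]
    have f2 : ∀ a b, Split.k2 hS P a b =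
      P (mapPlace (σ : L ≃+* L) w) (Vert.amap hS rfl a) (Vert.amap hS rfl b) := fun a b => rfl
    have f3 : ∀ a b, Split.k3 hS P a b =
        P (mapPlace (σ : L ≃+* L) (mapPlace (σ : L ≃+* L) w))
        (Vert.amap hS rfl
        (Vert.amap hS (rfl : mapPlace (σ : L ≃+* L) w = (mapPlace (σ : L ≃+* L) w)) a))
        (Vert.amap hS rfl (Vert.amap hS (rfl : mapPlace (σ : L ≃+* L) w =
          (mapPlace (σ : L ≃+* L) w)) b)) := fun a b => rfl
    simp only [Split.triple, f2, f3, Vert.amap_smul, amap_cycle hc hS, mapGL_three hc]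
  · simp only [Finset.mem_singleton, Subtype.mk.injEq]
    exact fun e => h32 e.symm
  · simp only [Finset.mem_insert, Finset.mem_singleton, Subtype.mk.injEq]
    rintro (e | e)
    exacts [h21 e.symm, h31 e.symm]

variable {g₀ : GL (Fin 2) K} {c : Lˣ} (hN : twistN (σ : L ≃+* L) δ = scal c * iGL K L g₀)
  (hg : TReg q.D g₀)
include hc hN hg hmoved hw hw2 hw3 he hn hlev hS

/-- A finite set carrying the product. -/
lemma Split.exists_support : ∃ A : Finset (Vert SK v),
    (∀ a ∈ A, q.degAt a = q.one v) ∧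
    ∀ x : OverPt K S v, Split.deg q hw he hn hlev x = q.one v → OverPt.val hS P δ x ≠ 0 →
      (Split.vertIso hw he hn hlev).symm (x ⟨w, hw⟩) ∈ A := by
  obtain ⟨D₁, hD₁⟩ := (P w).exists_lvl_bound
  obtain ⟨D₂, hD₂⟩ := (Split.k2 hS P).exists_lvl_bound
  obtain ⟨D₃, hD₃⟩ := (Split.k3 hS P).exists_lvl_bound
  refine ⟨(q.finite_bounded (S := SK) (v := v) hg (D₁ + D₃ + D₂)).toFinset, fun a ha =>
    ((Set.Finite.mem_toFinset _).1 ha).1, fun x hdeg hne =>
      (Set.Finite.mem_toFinset _).2 ⟨hdeg, ?_⟩⟩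
  rw [Split.val_triple hc hw hmoved hS P δ hw2 hw3] at hne
  set a := (Split.triple hw hS hw2 hw3 hc x).1
  set b := (Split.triple hw hS hw2 hw3 hc x).2.1
  set c' := (Split.triple hw hS hw2 hw3 hc x).2.2
  set a₀ := (Split.vertIso hw he hn hlev).symm (x ⟨w, hw⟩)
  have hl : ∀ (g : GL (Fin 2) L) (p r : Vert S w),
      lvl (w.valuation L) (p.out⁻¹ * (g • r).out) = lvl (w.valuation L) (p.out⁻¹ * g * r.out) := by
    intro g p r
    obtain ⟨⟨u, hu⟩, e⟩ := QuotientGroup.mk_out_eq_mul (lev S w) (g * r.out)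
    rw [show g • r = ((g * r.out : GL (Fin 2) L) : Vert S w) by
      conv_lhs => rw [← QuotientGroup.out_eq' r]
      rfl, e, ← mul_assoc, ← mul_assoc, lvl_mul_right _ (lev_le_U0 S w hu)]
  have h1 := hD₁ _ _ (left_ne_zero_of_mul (left_ne_zero_of_mul hne))
  have h2 := hD₃ _ _ (right_ne_zero_of_mul (left_ne_zero_of_mul hne))
  have h3 := hD₂ _ _ (right_ne_zero_of_mul hne)
  rw [hl] at h1 h2 h3
  -- the supports of the kernels bound the level of the twisted norm
  have hh : lvl (w.valuation L) (a.out⁻¹ * twistN (σ : L ≃+* L) δ * a.out) ≤ D₁ + D₃ + D₂ := by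
    rw [show a.out⁻¹ * twistN (σ : L ≃+* L) δ * a.out = (a.out⁻¹ * δ * c'.out) *
        ((c'.out⁻¹ * mapGL (σ : L ≃+* L) δ * b.out)
        * (b.out⁻¹ * mapGL (σ : L ≃+* L) (mapGL (σ : L ≃+* L) δ) * a.out)) by rw [twistN]; group]
    refine (lvl_mul_le _ _ _).trans ?_
    have := lvl_mul_le (w.valuation L) (c'.out⁻¹ * mapGL (σ : L ≃+* L) δ * b.out)
      (b.out⁻¹ * mapGL (σ : L ≃+* L) (mapGL (σ : L ≃+* L) δ) * a.out)
    omega
  have ea : a = ((iGL K L a₀.out : GL (Fin 2) L) : Vert S w) := by
    change x ⟨w, hw⟩ = _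
    rw [← (Split.vertIso hw he hn hlev).apply_symm_apply (x ⟨w, hw⟩), Split.vertIso_apply]
    change Vert.fmap (algebraMap K L) (Split.val_iota hw he) hlev a₀ = _
    conv_lhs => rw [← QuotientGroup.out_eq' a₀]
    rfl
  -- transfer the bound to `K`
  obtain ⟨⟨u, hu⟩, eu⟩ := QuotientGroup.mk_out_eq_mul (lev S w) (iGL K L a₀.out)
  rw [ea, eu, hN] at hh
  rw [show (iGL K L a₀.out * u)⁻¹ * (scal c * iGL K L g₀) * (iGL K L a₀.out * u)
      = u⁻¹ * (scal c * iGL K L (a₀.out⁻¹ * g₀ * a₀.out)) * u by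
    rw [map_mul, map_mul, map_inv, mul_inv_rev]
    rw [show (u : GL (Fin 2) L)⁻¹ * (iGL K L a₀.out)⁻¹ * (scal c * iGL K L g₀) *
      (iGL K L a₀.out * u)
      = u⁻¹ * ((iGL K L a₀.out)⁻¹ * scal c * iGL K L g₀ * iGL K L a₀.out) * u by group,
      ← scal_comm c (iGL K L a₀.out)⁻¹]
    group, lvl_mul_right _ (lev_le_U0 S w hu), lvl_mul_left _ ((U0 _).inv_mem (lev_le_U0 S w hu)),
    lvl_mul_left _ (scal_mem_withScalars _ c), iGL,
      lvl_map (algebraMap K L) (Split.val_iota hw he)] at hh
  exact hh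

/-- **The split sum.** At a split place the sum over the triples of cosets of trivial degree is the
sum on `K` of the composed kernel, and has finitely many nonzero terms. -/
theorem Split.sum_eq :
    {x : OverPt K S v | Split.deg q hw he hn hlev x = q.one v ∧ OverPt.val hS P δ x ≠ 0}.Finite ∧
    ∑' x : {x : OverPt K S v // Split.deg q hw he hn hlev x = q.one v}, OverPt.val hS P δ x.1
      = ∑' a : {a : Vert SK v // q.degAt a = q.one v},
        Split.comp hw he hlev hS P a.1 (g₀ • a.1) := by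
  obtain ⟨A, hA1, hA⟩ := Split.exists_support hc q hw he hn hmoved hlev hS P δ hw2 hw3 hN hg
  set e := Split.vertIso hw he hn hlev
  obtain ⟨hfin, hsum⟩ := tsum_cycle_triple (P w) (Split.k3 hS P) (Split.k2 hS P) (P w).row
    (Split.k3 hS P).row LKer.mem_row LKer.mem_row (Split.k3 hS P).invariant
    (Split.k2 hS P).invariant
    (δ := δ) (δ' := mapGL (σ : L ≃+* L) δ) (δ'' := mapGL (σ : L ≃+* L) (mapGL (σ : L ≃+* L) δ))
    (g := iGL K L g₀) (fun a => (congrArg (· • a) hN).trans (by rw [mul_smul, scal_smul_vert]))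
    (Equiv.ofBijective _ (Split.triple_bijective hc hw hmoved hS hw2 hw3))
    (OverPt.val hS P δ) (Split.val_triple hc hw hmoved hS P δ hw2 hw3)
    (deg := fun a => q.degAt (e.symm a) = q.one v) (A.image e)
    (fun a ha => by
      obtain ⟨a₀, ha₀, rfl⟩ := Finset.mem_image.1 ha
      rw [Equiv.symm_apply_apply]; exact hA1 a₀ ha₀)
    fun x hx hne => Finset.mem_image.2 ⟨_, hA x hx hne, e.apply_symm_apply _⟩
  refine ⟨hfin, hsum.trans ?_⟩
  refine ((e.subtypeEquiv fun a => by rw [Equiv.symm_apply_apply]).tsum_eq _).symm.trans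
    (tsum_congr fun a => ?_)
  rw [Split.comp, LKer.pull_apply, Vert.fmap_smul]
  simp only [← LKer.comp_eq_sum]
  rfl

end Cycle

end Fermat.LT
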