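import Fermat.Agent.LT.IntegralOp

/-!
# The Hilbert–Schmidt trace as an integral of kernels; compactness, orthonormal families

`hasSum_inner_op` writes the trace of `A* B` as an integral of kernels; `compact_op` gives
compactness and `countable_of_orthonormal` countable families.
-/

set_option autoImplicit false
open MeasureTheory Filter
open scoped InnerProductSpace ComplexConjugate

namespace Fermat.LT

variable {α : Type*} [MeasurableSpace α] {μ : Measure α} [SFinite μ]

namespace SqKernel

/-- `⟪A ψ, B ψ⟫` as an integral. -/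
lemma inner_op_op (A B : SqKernel μ) (ψ : α →₂[μ] ℂ) :
    ⟪A.op ψ, B.op ψ⟫_ℂ = ∫ x, conj (A.appFun ψ x) * B.appFun ψ x ∂μ := by
  rw [L2.inner_def]
  refine integral_congr_ae ?_
  filter_upwards [A.op_coeFn ψ, B.op_coeFn ψ] with x h1 h2
  rw [h1, h2, RCLike.inner_apply, mul_comm]

/-- The products of two images are integrable. -/
lemma integrable_appFun_mul (A B : SqKernel μ) (ψ : α →₂[μ] ℂ) :
    Integrable (fun x => conj (A.appFun ψ x) * B.appFun ψ x) μ := by
  refine (((memLp_two_iff_integrable_sq_norm (A.appFun_aesm ψ)).1 (A.appFun_memLp ψ)).add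
    ((memLp_two_iff_integrable_sq_norm (B.appFun_aesm ψ)).1 (B.appFun_memLp ψ))).mono'
    ((Complex.continuous_conj.comp_aestronglyMeasurable (A.appFun_aesm ψ)).mul (B.appFun_aesm ψ))
    (Eventually.of_forall fun x => ?_)
  rw [norm_mul, RCLike.norm_conj, Pi.add_apply]
  nlinarith [sq_nonneg (‖A.appFun ψ x‖ - ‖B.appFun ψ x‖), norm_nonneg (A.appFun ψ x),
    norm_nonneg (B.appFun ψ x)]

/-- The squared norm of an image. -/
lemma norm_op_sq (A : SqKernel μ) (ψ : α →₂[μ] ℂ) :
    ‖A.op ψ‖ ^ 2 = ∫ x, ‖A.appFun ψ x‖ ^ 2 ∂μ := by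
  rw [← inner_self_eq_norm_sq (𝕜 := ℂ), A.inner_op_op A]
  have : (fun x => conj (A.appFun ψ x) * A.appFun ψ x)
      = fun x => ((‖A.appFun ψ x‖ ^ 2 : ℝ) : ℂ) := funext fun x => by
    rw [RCLike.conj_mul]; simp
  rw [this, integral_complex_ofReal]
  simp

/-- The trace of `A* B` as an integral of the kernels. -/
theorem hasSum_inner_op (A B : SqKernel μ) {ι : Type*} [Countable ι]
    (b : HilbertBasis ι ℂ (α →₂[μ] ℂ)) :
    HasSum (fun i => ⟪A.op (b i), B.op (b i)⟫_ℂ)
      (∫ x, ∫ y, conj (A.toFun x y) * B.toFun x y ∂μ ∂μ) := by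
  let F : ι → α → ℂ := fun i x => conj (A.appFun (b i) x) * B.appFun (b i) x
  have hI : ∀ i, Integrable (F i) μ := fun i => A.integrable_appFun_mul B (b i)
  -- each term is bounded by the Hilbert–Schmidt contributions
  have hb : ∀ i, ∫ x, ‖F i x‖ ∂μ ≤ ‖A.op (b i)‖ ^ 2 + ‖B.op (b i)‖ ^ 2 := fun i => by
    have hA := (memLp_two_iff_integrable_sq_norm (A.appFun_aesm (b i))).1 (A.appFun_memLp (b i))
    have hB := (memLp_two_iff_integrable_sq_norm (B.appFun_aesm (b i))).1 (B.appFun_memLp (b i))
    rw [A.norm_op_sq, B.norm_op_sq, ← integral_add hA hB]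
    refine integral_mono (hI i).norm (hA.add hB) fun x => ?_
    simp only [F, norm_mul, RCLike.norm_conj]
    nlinarith [sq_nonneg (‖A.appFun (b i) x‖ - ‖B.appFun (b i) x‖), norm_nonneg (A.appFun (b i) x),
      norm_nonneg (B.appFun (b i) x)]
  have hs : ∀ K : SqKernel μ, Summable fun i => ‖K.op (b i)‖ ^ 2 := fun K =>
    summable_of_sum_le (fun i => sq_nonneg _) fun s => K.sum_norm_op_sq_le b.orthonormal s
  have hsum : Summable fun i => ∫ x, ‖F i x‖ ∂μ :=
    Summable.of_nonneg_of_le (fun i => integral_nonneg fun _ => norm_nonneg _) hb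
      ((hs A).add (hs B))
  -- so the sum and the integral commute
  have key := hasSum_integral_of_summable_integral_norm hI hsum
  have e : ∀ i, ∫ x, F i x ∂μ = ⟪A.op (b i), B.op (b i)⟫_ℂ := fun i => (A.inner_op_op B (b i)).symm
  simp only [e] at key
  -- then apply Parseval in `y`
  have e2 : (fun x => ∑' i, F i x) =ᵐ[μ] fun x => ∫ y, conj (A.toFun x y) * B.toFun x y ∂μ := by
    filter_upwards [A.memLp_right, B.memLp_right] with x ha hb'
    have ha' := A.memLp_conj ha
    have hb'' := B.memLp_conj hb'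
    have h := b.hasSum_inner_mul_inner (hb''.toLp _) (ha'.toLp _)
    have hF : ∀ i, F i x = ⟪hb''.toLp _, b i⟫_ℂ * ⟪b i, ha'.toLp _⟫_ℂ := fun i => by
      simp only [F, A.appFun_eq_inner _ ha', B.appFun_eq_inner _ hb'', inner_conj_symm]
      ring
    simp only [hF]
    rw [h.tsum_eq, L2.inner_def]
    refine integral_congr_ae ?_
    filter_upwards [ha'.coeFn_toLp, hb''.coeFn_toLp] with y h1 h2
    rw [h1, h2, RCLike.inner_apply, Complex.conj_conj, mul_comm]
  rw [integral_congr_ae e2] at key
  exact key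

/-- A Hilbert–Schmidt operator is compact. -/
lemma compact_op (A : SqKernel μ) : IsCompactOperator A.op := by
  obtain ⟨w, b, -⟩ := exists_hilbertBasis ℂ (α →₂[μ] ℂ)
  exact isCompactOperator_of_summable b A.op
    (summable_of_sum_le (fun i => sq_nonneg _) fun s => A.sum_norm_op_sq_le b.orthonormal s)

end SqKernel

/-- An orthonormal family in a separable inner product space is countable. -/
lemma countable_of_orthonormal {E : Type*} [NormedAddCommGroup E] [InnerProductSpace ℂ E]
    [TopologicalSpace.SeparableSpace E] {ι : Type*} {b : ι → E} (hb : Orthonormal ℂ b) :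
    Countable ι := by
  obtain ⟨s, hs, hd⟩ := TopologicalSpace.exists_countable_dense E
  have hex : ∀ i, ∃ x ∈ s, dist (b i) x < 1 / 2 := fun i =>
    Metric.mem_closure_iff.1 (hd (b i)) (1 / 2) (by norm_num)
  choose f hf hfd using hex
  have hinj : Function.Injective f := fun i j h => by
    by_contra hne
    have h1 : dist (b i) (b j) < 1 :=
      lt_of_le_of_lt (dist_triangle _ (f i) _) (by
        have h2 : dist (f i) (b j) < 1 / 2 := by rw [h, dist_comm]; exact hfd j
        linarith [hfd i])
    have h2 : ‖b i - b j‖ ^ 2 = 2 := by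
      rw [@norm_sub_sq ℂ, hb.1 i, hb.1 j, hb.2 hne]
      norm_num
    rw [dist_eq_norm] at h1
    nlinarith [norm_nonneg (b i - b j)]
  have : Countable s := hs.to_subtype
  exact Function.Injective.countable (f := fun i => (⟨f i, hf i⟩ : s))
    (fun i j h => hinj (congrArg Subtype.val h))

end Fermat.LT
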