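import Fermat.Agent.LT.Reduce

/-!
# Finite volume

`domain_finite`: a fundamental domain of `PGL₂(F)` on points has finite measure, as a Siegel set
has (`ptMeasure_siegel_lt_top`).
-/

set_option autoImplicit false
open MeasureTheory Set NumberField Filter
open scoped ENNReal Pointwise

namespace Fermat.LT

variable {F : Type*} [Field F] [NumberField F] {S : Set (Place F)}

/-- A Siegel set lies in a product of cylinders. -/
lemma siegel_subset (Ω : Finset (FinPt F S)) (R c : ℝ) :
    siegel Ω R c ⊆ (Ω : Set (FinPt F S)) ×ˢ Set.pi univ fun _ : InfinitePlace F =>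
      H3.coord ⁻¹' (Metric.closedBall (0 : ℂ) R ×ˢ Set.Ici c) := by
  rintro q ⟨h1, h2, -⟩
  exact ⟨h1, fun w _ => ⟨by simpa using (h2 w).1, (h2 w).2⟩⟩

/-- A Siegel set has finite volume. -/
lemma ptMeasure_siegel_lt_top (Ω : Finset (FinPt F S)) (R : ℝ) {c : ℝ} (hc : 0 < c) :
    ptMeasure (siegel Ω R c) < ∞ := by
  classical
  have : DiscreteMeasurableSpace (FinPt F S) := ⟨fun _ => trivial⟩
  refine lt_of_le_of_lt (measure_mono (siegel_subset Ω R c)) ?_
  rw [ptMeasure, Measure.prod_prod, Measure.pi_pi]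
  refine ENNReal.mul_lt_top ?_ (ENNReal.prod_lt_top fun w _ => hmeas_box_lt_top R hc)
  rw [Measure.count_apply_finset]
  exact ENNReal.natCast_lt_top _

variable [Finite S] [IsTotallyComplex F]

/-- **Finite volume.** A fundamental domain of `PGL₂(F)` on the points has finite measure. -/
theorem domain_finite {D : Set (Pt F S)} (hD : IsFundamentalDomain (PG F) D ptMeasure) :
    ptMeasure D < ∞ := by
  obtain ⟨Ω, R, c, hc, h⟩ := exists_siegel (F := F) (S := S)
  refine lt_of_le_of_lt ?_ (ptMeasure_siegel_lt_top Ω R hc)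
  rw [hD.measure_eq_tsum (siegel Ω R c)]
  refine le_trans (measure_mono fun p hp => ?_) (measure_iUnion_le _)
  obtain ⟨γ, hγ⟩ := h p
  exact mem_iUnion.2 ⟨((γ : GL (Fin 2) F) : PG F)⁻¹, ⟨⟨γ • p, hγ,
    inv_smul_smul (γ : PG F) p⟩, hp⟩⟩

end Fermat.LT
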