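import Fermat.Agent.LT.KerAct
import Fermat.Agent.LT.HSTrace
import Fermat.Agent.LT.Volume

/-!
# Integral operators of the automorphic kernels

`DomL2` is the space of square integrable functions on the domain, on which these operators act;
their images are continuous at infinity (`continuous_appP`).
-/

set_option autoImplicit false
open MeasureTheory Filter Set NumberField
open scoped Classical ComplexConjugate InnerProductSpace

namespace Fermat.LT

variable {F : Type*} [Field F] [NumberField F] {S : Set (Place F)} [Finite S]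

/-- The measure on a fundamental domain. -/
noncomputable abbrev domMeasure (D : Set (Pt F S)) : Measure (Pt F S) := ptMeasure.restrict D

/-- Square integrable functions on the domain. -/
abbrev DomL2 (D : Set (Pt F S)) : Type _ := Pt F S →₂[domMeasure D] ℂ

variable {D : Set (Pt F S)} [IsFiniteMeasure (domMeasure D)]

omit [Finite S] in
/-- Square integrable functions on the domain are integrable. -/
lemma DomL2.integrable (φ : DomL2 D) : Integrable (fun q => φ q) (domMeasure D) :=
  (Lp.memLp φ).integrable one_le_two

namespace PKer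

variable {K L : PKer F S}

/-- The value of the operator at a point. -/
noncomputable def appP (K : PKer F S) (φ : DomL2 D) (p : Pt F S) : ℂ :=
  ∫ q, K.kap p q * φ q ∂domMeasure D

omit [IsFiniteMeasure (domMeasure D)] in
/-- The kernel is measurable in the second variable. -/
lemma aesm_kap_right (K : PKer F S) (p : Pt F S) :
    AEStronglyMeasurable (fun q => K.kap p q) (domMeasure D) :=
  (K.measurable_kap.comp measurable_prodMk_left).aestronglyMeasurable

/-- The integrand of the operator is integrable. -/
lemma integrable_kap_mul (hK : K.Bdd) (φ : DomL2 D) (p : Pt F S) :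
    Integrable (fun q => K.kap p q * φ q) (domMeasure D) := by
  obtain ⟨C, hC⟩ := hK
  exact φ.integrable.bdd_mul (c := C) (K.aesm_kap_right p) (Eventually.of_forall (hC p))

omit [IsFiniteMeasure (domMeasure D)] in
/-- The image function is invariant. -/
lemma appP_smul (K : PKer F S) (φ : DomL2 D) (γ : PG F) (p : Pt F S) :
    K.appP φ (γ • p) = K.appP φ p := by
  simp only [appP, K.kap_smul_left]

/-- The operator of a bounded kernel gives bounded functions. -/
lemma exists_appP_bound (hK : K.Bdd) (φ : DomL2 D) : ∃ C, ∀ p, ‖K.appP φ p‖ ≤ C := by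
  obtain ⟨C, hC⟩ := hK
  refine ⟨C * ∫ q, ‖φ q‖ ∂domMeasure D, fun p => ?_⟩
  refine (norm_integral_le_integral_norm _).trans ?_
  rw [← integral_const_mul]
  refine integral_mono_of_nonneg (Eventually.of_forall fun _ => norm_nonneg _)
    (φ.integrable.norm.const_mul _) (Eventually.of_forall fun q => ?_)
  change ‖K.kap p q * φ q‖ ≤ _
  rw [norm_mul]
  exact mul_le_mul_of_nonneg_right (hC p q) (norm_nonneg _)

/-- The kernel as a square integrable kernel. -/
noncomputable def toSq (K : PKer F S) (hK : K.Bdd) : SqKernel (domMeasure D) where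
  toFun := K.kap
  memLp := by
    obtain ⟨C, hC⟩ := hK
    exact MemLp.of_bound K.measurable_kap.aestronglyMeasurable C
      (Eventually.of_forall fun z => hC z.1 z.2)

/-- The integral operator. -/
noncomputable def opK (K : PKer F S) (hK : K.Bdd) : DomL2 D →L[ℂ] DomL2 D := (K.toSq hK).op

/-- The operator is the image function. -/
lemma opK_coeFn (hK : K.Bdd) (φ : DomL2 D) : K.opK hK φ =ᵐ[domMeasure D] K.appP φ :=
  (K.toSq hK).op_coeFn φ

/-- The operator is compact. -/
lemma isCompactOperator_opK (hK : K.Bdd) : IsCompactOperator (K.opK (D := D) hK) :=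
  (K.toSq hK).compact_op

/-- The composite with a bounded kernel is bounded. -/
lemma Bdd.comp (hD : IsFundamentalDomain (PG F) D ptMeasure) (hK : K.Bdd) (hL : L.Bdd) :
    (K.comp L).Bdd := by
  obtain ⟨C, hC⟩ := hK
  obtain ⟨C', hC'⟩ := hL
  refine ⟨C * C' * (domMeasure D).real univ, fun p r => ?_⟩
  rw [← K.integral_kap_mul L hD]
  refine norm_integral_le_of_norm_le_const (Eventually.of_forall fun q => ?_)
  rw [norm_mul]
  exact mul_le_mul (hC p q) (hC' q r) (norm_nonneg _) ((norm_nonneg _).trans (hC p q))

/-- Applying `K` to the operator of `L` is applying the composite kernel. -/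
lemma appP_opK (hD : IsFundamentalDomain (PG F) D ptMeasure) (hK : K.Bdd) (hL : L.Bdd) (φ : DomL2 D)
    (p : Pt F S) : K.appP (L.opK hL φ) p = (K.comp L).appP φ p := by
  have h1 : K.appP (L.opK hL φ) p = ∫ q, K.kap p q * L.appP φ q ∂domMeasure D :=
    integral_congr_ae (by filter_upwards [opK_coeFn hL φ] with q hq; rw [hq])
  obtain ⟨C, hC⟩ := hK
  obtain ⟨C', hC'⟩ := hL
  rw [h1]
  simp only [appP, ← integral_const_mul]
  rw [integral_integral_swap ?_]
  · refine integral_congr_ae (Eventually.of_forall fun r => ?_)
    change ∫ q, K.kap p q * (L.kap q r * φ r) ∂domMeasure D = (K.comp L).kap p r * φ r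
    rw [← K.integral_kap_mul L hD, ← integral_mul_const]
    simp only [mul_assoc]
  · refine Integrable.mono' (g := fun z : Pt F S × Pt F S => C * (C' * ‖φ z.2‖)) ?_ ?_ ?_
    · exact ((φ.integrable.norm.comp_snd (domMeasure D)).const_mul C').const_mul C
    · exact ((K.aesm_kap_right p).comp_fst).mul (L.measurable_kap.aestronglyMeasurable.mul
        (Lp.aestronglyMeasurable φ).comp_snd)
    · refine Eventually.of_forall fun z => ?_
      change ‖K.kap p z.1 * (L.kap z.1 z.2 * φ z.2)‖ ≤ C * (C' * ‖φ z.2‖)
      rw [norm_mul, norm_mul]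
      exact mul_le_mul (hC p z.1) (mul_le_mul_of_nonneg_right (hC' _ _) (norm_nonneg _))
        (mul_nonneg (norm_nonneg _) (norm_nonneg _)) ((norm_nonneg _).trans (hC p z.1))

/-- Composition of operators. -/
lemma opK_comp (hD : IsFundamentalDomain (PG F) D ptMeasure) (hK : K.Bdd) (hL : L.Bdd)
    (φ : DomL2 D) : K.opK hK (L.opK hL φ) = (K.comp L).opK (hK.comp hD hL) φ := by
  refine Lp.ext ?_
  filter_upwards [opK_coeFn hK (L.opK hL φ), opK_coeFn (hK.comp hD hL) φ] with p h1 h2
  rw [h1, h2, appP_opK hD hK hL]

/-- Kernels with equal sums give the same operator. -/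
lemma opK_congr {hK : K.Bdd} {hL : L.Bdd} (h : ∀ p q, K.kap p q = L.kap p q) (φ : DomL2 D) :
    K.opK hK φ = L.opK hL φ := by
  refine Lp.ext ?_
  filter_upwards [opK_coeFn hK φ, opK_coeFn hL φ] with p h1 h2
  rw [h1, h2, appP, appP]
  simp only [h]

/-- Equal kernels have equal automorphic kernels. -/
lemma kap_congr (h : ∀ p q, K.val p q = L.val p q) (p q : Pt F S) : K.kap p q = L.kap p q := by
  simp only [kap, h]

/-- A hermitian kernel has a hermitian sum. -/
lemma kap_conj (h : ∀ p q, K.val q p = conj (K.val p q)) (p q : Pt F S) :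
    K.kap q p = conj (K.kap p q) := by
  rw [kap, kap, Complex.conj_tsum, ← (Equiv.inv (PG F)).tsum_eq fun γ => K.val q (γ • p)]
  refine tsum_congr fun γ => ?_
  rw [Equiv.inv_apply, ← h, ← K.val_smul_PG γ q (γ⁻¹ • p), smul_inv_smul]

/-- The operator of a bounded hermitian kernel is symmetric. -/
lemma isSymmetric_opK (hK : K.Bdd) (h : ∀ p q, K.val q p = conj (K.val p q)) :
    (K.opK (D := D) hK).IsSymmetric := by
  intro ψ φ
  obtain ⟨C, hC⟩ := id hK
  change ⟪K.opK hK ψ, φ⟫_ℂ = ⟪ψ, K.opK hK φ⟫_ℂ
  rw [L2.inner_def, L2.inner_def]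
  -- both sides are the same double integral
  have h1 : ∫ x, ⟪K.opK hK ψ x, φ x⟫_ℂ ∂domMeasure D
      = ∫ x, ∫ y, K.kap y x * conj (ψ y) * φ x ∂domMeasure D ∂domMeasure D :=
    integral_congr_ae (by
      filter_upwards [opK_coeFn hK ψ] with x hx
      rw [hx, RCLike.inner_apply, appP, ← integral_conj, ← integral_const_mul]
      refine integral_congr_ae (Eventually.of_forall fun y => ?_)
      change φ x * conj (K.kap x y * ψ y) = _
      rw [map_mul, ← kap_conj h]
      ring)
  have h2 : ∫ y, ⟪ψ y, K.opK hK φ y⟫_ℂ ∂domMeasure D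
      = ∫ y, ∫ x, K.kap y x * conj (ψ y) * φ x ∂domMeasure D ∂domMeasure D :=
    integral_congr_ae (by
      filter_upwards [opK_coeFn hK φ] with y hy
      rw [hy, RCLike.inner_apply, appP, mul_comm, ← integral_const_mul]
      refine integral_congr_ae (Eventually.of_forall fun x => ?_)
      change conj (ψ y) * (K.kap y x * φ x) = _
      ring)
  -- Fubini, as the kernel is bounded
  rw [h1, h2, integral_integral_swap ?_]
  refine Integrable.mono' (g := fun z : Pt F S × Pt F S => C * (‖ψ z.2‖ * ‖φ z.1‖)) ?_ ?_ ?_
  · refine Integrable.const_mul ?_ C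
    have := φ.integrable.norm.mul_prod ψ.integrable.norm
    simpa [mul_comm] using this
  · exact ((K.measurable_kap.comp measurable_swap).aestronglyMeasurable.mul
      (Complex.continuous_conj.comp_aestronglyMeasurable (Lp.aestronglyMeasurable ψ).comp_snd)).mul
      (Lp.aestronglyMeasurable φ).comp_fst
  · refine Eventually.of_forall fun z => ?_
    change ‖K.kap z.2 z.1 * conj (ψ z.2) * φ z.1‖ ≤ _
    rw [norm_mul, norm_mul, RCLike.norm_conj, mul_assoc]
    exact mul_le_mul_of_nonneg_right (hC _ _) (mul_nonneg (norm_nonneg _) (norm_nonneg _))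

/-- A local kernel acts on the image. -/
lemma locAct_appP (hK : K.Bdd) (v : Place F) (l : LKer S v) (φ : DomL2 D) (p : Pt F S) :
    locAct v l (fun p => K.appP φ p) p = (K.actLoc v l).appP φ p := by
  simp only [locAct, appP, ← integral_const_mul]
  rw [← integral_finsetSum _ fun y _ => (integrable_kap_mul hK φ _).const_mul _]
  refine integral_congr_ae (Eventually.of_forall fun q => ?_)
  change ∑ y ∈ _, _ * (_ * φ q) = _ * φ q
  rw [K.kap_actLoc, locAct, Finset.sum_mul]
  simp only [mul_assoc]

/-- The kernel is measurable with one coordinate varying. -/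
lemma measurable_kap_update (K : PKer F S) (u : InfinitePlace F) (p : Pt F S) :
    Measurable fun z : H3 × Pt F S => K.kap (p.1, Function.update p.2 u z.1) z.2 := by
  refine K.measurable_kap.comp (Measurable.prodMk (measurable_const.prodMk ?_) measurable_snd)
  exact ((measurable_update p.2).comp measurable_fst)

/-- An archimedean kernel acts on the image. -/
lemma archAct_appP (hK : K.Bdd) (u : InfinitePlace F) (k : AKer) (φ : DomL2 D) (p : Pt F S) :
    archAct u k (fun p => K.appP φ p) p = (K.actArch u k).appP φ p := by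
  obtain ⟨C, hC⟩ := hK
  simp only [archAct, appP, ← integral_const_mul]
  rw [integral_integral_swap ?_]
  · refine integral_congr_ae (Eventually.of_forall fun q => ?_)
    change ∫ y, _ * (_ * φ q) ∂hmeas = _ * φ q
    rw [K.kap_actArch, archAct, ← integral_mul_const]
    simp only [mul_assoc]
  · refine Integrable.mono' (g := fun z : H3 × Pt F S => ‖k (p.2 u) z.1‖ * (C * ‖φ z.2‖)) ?_ ?_ ?_
    · exact (k.integrable _).norm.mul_prod (φ.integrable.norm.const_mul C)
    · exact ((k.continuous_right _).aestronglyMeasurable.comp_fst).mul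
        ((K.measurable_kap_update u p).aestronglyMeasurable.mul
          (Lp.aestronglyMeasurable φ).comp_snd)
    · refine Eventually.of_forall fun z => ?_
      change ‖k (p.2 u) z.1 * (K.kap _ z.2 * φ z.2)‖ ≤ _
      rw [norm_mul, norm_mul]
      exact mul_le_mul_of_nonneg_left (mul_le_mul_of_nonneg_right (hC _ _) (norm_nonneg _))
        (norm_nonneg _)

/-- The summed kernel is continuous in the archimedean variables. -/
lemma continuous_kap_left (K : PKer F S) (ν : FinPt F S) (q : Pt F S) :
    Continuous fun x : InfinitePlace F → H3 => K.kap (ν, x) q := by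
  refine continuous_iff_continuousAt.2 fun x₀ => ?_
  set A : ℝ := (∑ w, coshd ((1 : GL (Fin 2) ℂ) : H3) (x₀ w)) + 1
  set B : ℝ := ∑ w, coshd ((1 : GL (Fin 2) ℂ) : H3) (q.2 w)
  set s := (K.finite_seen ν q.1 A B).toFinset
  refine (ContinuousAt.congr (f := fun x => ∑ γ ∈ s, K.val (ν, x) (γ • q)) ?_ ?_)
  · refine (continuous_finsetSum _ fun γ _ => ?_).continuousAt
    have hc : Continuous fun x : InfinitePlace F → H3 => K.inf x (γ • q).2 :=
      K.continuous_inf.comp (continuous_id.prodMk continuous_const)
    exact (continuous_const (y := K.fin ν (γ • q).1)).mul hc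
  · filter_upwards [eventually_coshd_base_le x₀] with x hx
    refine (tsum_eq_sum fun γ hγ => ?_).symm
    by_contra hne
    exact hγ ((Set.Finite.mem_toFinset _).2 ⟨x, q.2, hx, coshd_base_le_sum q.2, hne⟩)

/-- The functions in the image of the operator are continuous in the archimedean variables. -/
lemma continuous_appP (hK : K.Bdd) (φ : DomL2 D) (ν : FinPt F S) :
    Continuous fun x : InfinitePlace F → H3 => K.appP φ (ν, x) := by
  obtain ⟨C, hC⟩ := hK
  refine continuous_of_dominated (bound := fun q => C * ‖φ q‖)
    (fun x => (K.aesm_kap_right (ν, x)).mul (Lp.aestronglyMeasurable φ))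
    (fun x => Eventually.of_forall fun q => ?_) (φ.integrable.norm.const_mul C)
    (Eventually.of_forall fun q => (K.continuous_kap_left ν q).mul continuous_const)
  change ‖K.kap _ q * φ q‖ ≤ _
  rw [norm_mul]
  exact mul_le_mul_of_nonneg_right (hC _ _) (norm_nonneg _)

end PKer

omit [IsFiniteMeasure (domMeasure D)] in
/-- The domain has finite measure. -/
lemma isFiniteMeasure_domMeasure [IsTotallyComplex F]
    (hD : IsFundamentalDomain (PG F) D ptMeasure) : IsFiniteMeasure (domMeasure D) :=
  ⟨by rw [Measure.restrict_apply_univ]; exact domain_finite hD⟩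

end Fermat.LT
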