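import Fermat.Agent.LT.FibKer
import Mathlib.NumberTheory.MulChar.Lemmas

/-!
# The kernel at a tamely ramified place

`P + P_θ`: the idempotent of the spherical vectors plus that of the vectors on which the Iwahori
subgroup acts through a fixed cubic character of the ratio of the diagonal entries.
-/

set_option autoImplicit false
open Set
open scoped Classical

namespace Fermat.LT

variable {F : Type*} [Field F] [NumberField F] {S : Set (Place F)} (v : Place F)

/-- A cubic character of the residue field, if there is one. -/
noncomputable def cubChar : MulChar (Res v) ℂ :=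
  if h : 3 ∣ Fintype.card (Res v) - 1 then
    (MulChar.exists_mulChar_orderOf (Res v) h (Complex.isPrimitiveRoot_exp 3 (by norm_num))).choose
  else 1

/-- The character has order three. -/
lemma orderOf_cubChar (h : 3 ∣ Fintype.card (Res v) - 1) : orderOf (cubChar v) = 3 := by
  rw [cubChar, dif_pos h]
  exact (MulChar.exists_mulChar_orderOf (Res v) h
    (Complex.isPrimitiveRoot_exp 3 (by norm_num))).choose_spec

/-- The value of the idempotent. -/
noncomputable def ramFun (M : GL (Fin 2) (Res v)) : ℂ :=
  let q : ℂ := Fintype.card (Res v)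
  (q * (q - 1) * (q + 1))⁻¹ +
    if (M : Matrix (Fin 2) (Fin 2) (Res v)) 1 0 = 0 then
      cubChar v ((M : Matrix (Fin 2) (Fin 2) (Res v)) 0 0 /
        (M : Matrix (Fin 2) (Fin 2) (Res v)) 1 1) * (q * (q - 1))⁻¹
    else 0

/-- The value of the idempotent ignores scalars. -/
lemma scalInv_ramFun : ScalInv (ramFun v) := by
  intro z M
  have e : ∀ i j, ((scal z * M : GL (Fin 2) (Res v)) : Matrix (Fin 2) (Fin 2) (Res v)) i j
      = (z : Res v) * (M : Matrix (Fin 2) (Fin 2) (Res v)) i j := by
    intro i j
    rw [Units.val_mul, scal_coe, Matrix.scalar_apply, Matrix.diagonal_mul]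
  have hiff : ((z : Res v) * (M : Matrix (Fin 2) (Fin 2) (Res v)) 1 0 = 0)
      ↔ (M : Matrix (Fin 2) (Fin 2) (Res v)) 1 0 = 0 := by simp
  simp only [ramFun, e, hiff, mul_div_mul_left _ _ z.ne_zero]

/-- The kernel `P + P_θ`. -/
noncomputable def ramKer (hvS : v ∈ S) : LKer S v := fibKer hvS (ramFun v) (scalInv_ramFun v)

end Fermat.LT
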