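import Fermat.Agent.LT.SphKer
import Fermat.Agent.LT.RamKer
import Fermat.Agent.LT.Statement
import Fermat.Agent.LT.Operators
import Fermat.Agent.LT.AutAct

/-!
# Test kernels on `K` and on `L`, the geometric comparison statement

On `L`: cuspidal idempotents over `v3`, spherical kernels elsewhere, arbitrary archimedean kernels.
On `K`: the cuspidal idempotent at `v3`, `P + P_θ` at the ramified places, base change of the
spherical kernels, composites at the infinite places.
-/

set_option autoImplicit false
open IsDedekindDomain NumberField MeasureTheory Polynomial Filter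
open scoped Classical

namespace Fermat.LT

/-- Odd polynomial in the Satake variable. -/
noncomputable def oddP (r : ℝ[X]) : ℂ[X] := X * (r.comp (X ^ 2)).map (algebraMap ℝ ℂ)

/-- The value of `oddP r` at a real point. -/
lemma eval_oddP (r : ℝ[X]) (x : ℝ) : (oddP r).eval (x : ℂ) = ((x * r.eval (x ^ 2) : ℝ) : ℂ) := by
  rw [oddP, eval_mul, eval_X, show (x : ℂ) = algebraMap ℝ ℂ x from rfl, eval_map_apply, eval_comp]
  simp

variable {K L : Type} [Field K] [NumberField K] [Field L] [NumberField L] [Algebra K L]

/-- The level on `K`: `v3` and the places ramified in `L`. -/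
abbrev levK (L : Type) [Field L] [NumberField L] [Algebra K L] (v3 : Place K) : Set (Place K) :=
  insert v3 (ramSet K L)

/-- The hypotheses on the fields used by the trace comparison. -/
structure GeoData (K L : Type) [Field K] [NumberField K] [Field L] [NumberField L] [Algebra K L]
    (v3 : Place K) : Prop where
  /-- `L/K` is Galois. -/
  galois : IsGalois K L
  /-- `K` is totally complex. -/
  totallyComplexK : IsTotallyComplex K
  /-- `L/K` has degree three. -/
  degree : Module.finrank K L = 3
  /-- `v3` has norm three. -/
  norm_v3 : pnorm v3 = 3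
  /-- `v3` has three places over it in `L`. -/
  split : (placesOver K L v3).ncard = 3
  /-- The places over `v3` have norm three. -/
  norm_w3 : ∀ w ∈ placesOver K L v3, pnorm w = 3
  /-- `v3` does not ramify in `L`. -/
  v3_unram : v3 ∉ ramSet K L
  /-- `v3` is the only place of `K` over `3`. -/
  only3 : ∀ v : Place K, (3 : 𝓞 K) ∈ v.asIdeal → v = v3
  /-- `K` contains a primitive cube root of unity. -/
  zeta3 : ∃ ζ : K, IsPrimitiveRoot ζ 3
  /-- The ramified places have norm congruent to one modulo three. -/
  ram_mod3 : ∀ v ∈ ramSet K L, 3 ∣ pnorm v - 1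

/-- Test data on `L`: a polynomial in `T_w` at each place and kernels at infinity. -/
structure TestData (K L : Type) [Field K] [NumberField K] [Field L] [NumberField L] [Algebra K L]
    (v3 : Place K) where
  /-- The polynomial in `T_w` at each place. -/
  h : Place L → ℂ[X]
  /-- The kernel at each infinite place. -/
  k : InfinitePlace L → AKer
  /-- Only finitely many polynomials differ from one. -/
  finite_h : {w | h w ≠ 1}.Finite
  /-- The polynomials are one over the level. -/
  h_level : ∀ v ∈ levK L v3, ∀ w ∈ placesOver K L v, h w = 1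

variable {v3 : Place K}

/-- Replace the polynomial at one place over a good place. -/
noncomputable def TestData.upd (t : TestData K L v3) {v0 : Place K} (hv0 : v0 ∉ levK L v3)
    {w0 : Place L} (hw0 : LiesOver K L w0 v0) (p : ℂ[X]) : TestData K L v3 where
  h := Function.update t.h w0 p
  k := t.k
  finite_h := (t.finite_h.insert w0).subset fun w hw => by
    by_cases h : w = w0
    · exact Or.inl h
    · exact Or.inr (by simpa [Function.update_of_ne h] using hw)
  h_level v hv w hw := by
    rw [Function.update_of_ne ?_]
    · exact t.h_level v hv w hw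
    · rintro rfl
      refine hv0 ?_
      have hw0' : w.asIdeal.under (𝓞 K) = v0.asIdeal := hw0
      have hw' : w.asIdeal.under (𝓞 K) = v.asIdeal := hw
      rwa [show v0 = v from HeightOneSpectrum.ext (hw0'.symm.trans hw')]

/-- The polynomial seen at a place of `K`. -/
noncomputable def TestData.bcPoly (t : TestData K L v3) (v : Place K) : ℂ[X] :=
  ∏ᶠ w ∈ placesOver K L v, if pnorm w = pnorm v then t.h w else cubicBC (pnorm v) (t.h w)

/-- The polynomial seen on `K` is `1` at almost all places. -/
lemma TestData.finite_bcPoly (t : TestData K L v3) : {v | t.bcPoly v ≠ 1}.Finite := by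
  have hfin : {v : Place K | ∃ w ∈ {w | t.h w ≠ 1}, LiesOver K L w v}.Finite := by
    refine (t.finite_h.biUnion (t := fun w => {v : Place K | LiesOver K L w v}) fun w
      _ => ?_).subset fun v hv => ?_
    · refine Set.Subsingleton.finite fun v hv v' hv' => HeightOneSpectrum.ext ?_
      have h1 : w.asIdeal.under (𝓞 K) = v.asIdeal := hv
      have h2 : w.asIdeal.under (𝓞 K) = v'.asIdeal := hv'
      rw [← h1, ← h2]
    · obtain ⟨w, hw, hwv⟩ := hv
      exact Set.mem_biUnion hw hwv
  refine hfin.subset fun v hv => ?_
  by_contra hne
  refine hv (finprod_mem_of_eqOn_one fun w hw => ?_)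
  have h1 : t.h w = 1 := by_contra fun h => hne ⟨w, h, hw⟩
  simp [h1, cubicBC]

variable (G : GeoData K L v3)

/-- The test kernel on `L`. -/
noncomputable def kerL (t : TestData K L v3) : PKer L (placesOver K L v3) where
  loc w := if hw : w ∈ placesOver K L v3 then eKer (G.norm_w3 w hw) hw else sphKer hw (t.h w)
  ae_one := by
    have hfin : (placesOver K L v3).Finite :=
      Set.finite_of_ncard_ne_zero (by rw [G.split]; norm_num)
    filter_upwards [hfin.compl_mem_cofinite, t.finite_h.compl_mem_cofinite] with w hw hw'
    rw [dif_neg (show w ∉ placesOver K L v3 from hw)]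
    rw [show t.h w = 1 by simpa using hw', sphKer_one]
  arch := t.k

/-- A chosen place of `L` over an infinite place of `K`. -/
noncomputable def plAbove (L : Type) [Field L] [NumberField L] [Algebra K L] (u : InfinitePlace K) :
    InfinitePlace L :=
  ((InfinitePlace.comap_surjective (K := L) (k := K)) u).choose

variable (σ : L ≃ₐ[K] L) [Finite (levK L v3)]

/-- The test kernel on `K`. -/
noncomputable def kerK (t : TestData K L v3) : PKer K (levK L v3) where
  loc v := if h3 : v = v3 then
      eKer (v := v) (by rw [h3]; exact G.norm_v3) (by rw [h3]; exact Set.mem_insert v3 _)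
    else if hv : v ∈ levK L v3 then ramKer v hv else sphKer hv (t.bcPoly v)
  ae_one := by
    filter_upwards [(Set.toFinite (levK L v3)).compl_mem_cofinite,
      t.finite_bcPoly.compl_mem_cofinite] with v hv hv'
    have hv : v ∉ levK L v3 := hv
    have h3 : v ≠ v3 := fun h => hv (by rw [h]; exact Set.mem_insert v3 _)
    rw [dif_neg h3, dif_neg hv,
      show t.bcPoly v = 1 by simpa using hv', sphKer_one]
  arch u := (t.k (plAbove L u)).comp ((t.k (σ • plAbove L u)).comp (t.k (σ • σ • plAbove L u)))

/-- **The geometric comparison**: with everything fixed away from a split good place `v0`, the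
difference of the trace on `K` and the twisted trace on `L` at odd polynomials at `w0 ∣ v0` is
given by a continuous density. -/
def GeometricStatement (K L : Type) [Field K] [NumberField K] [Field L] [NumberField L]
    [Algebra K L] : Prop :=
  ∀ (v3 : Place K) (G : GeoData K L v3) (σ : L ≃ₐ[K] L) (_ : σ ≠ 1)
    (_ : Finite (levK L v3)) (_ : Finite (placesOver K L v3))
    (hS : Stable (σ : L ≃+* L) (placesOver K L v3))
    (DK : Set (Pt K (levK L v3))) (_ : IsFundamentalDomain (PG K) DK ptMeasure)
    (DL : Set (Pt L (placesOver K L v3))) (_ : IsFundamentalDomain (PG L) DL ptMeasure)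
    (v0 : Place K) (hv0 : v0 ∉ levK L v3) (w0 : Place L) (hw0 : LiesOver K L w0 v0),
    pnorm w0 = pnorm v0 → ∀ t : TestData K L v3, (∀ w, LiesOver K L w v0 → t.h w = 1) →
    (∀ r : ℝ[X], (kerK G σ (t.upd hv0 hw0 (oddP r))).Bdd ∧
      (kerL G (t.upd hv0 hw0 (oddP r))).Bdd) →
    ∃ g : ℝ → ℂ, Continuous g ∧ ∀ r : ℝ[X],
      let t' := t.upd hv0 hw0 (oddP r)
      (∫ p in DK, (kerK G σ t').kap p p ∂ptMeasure)
        - (∫ p in DL, (kerL G t').kap p (Pt.amap hS p) ∂ptMeasure)
        = ∫ θ in (0 : ℝ)..(2 * Real.pi),
            (((2 * Real.sqrt (pnorm v0)) * Real.cos θ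
              * r.eval (((2 * Real.sqrt (pnorm v0)) * Real.cos θ) ^ 2) : ℝ) : ℂ) * g θ

end Fermat.LT
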