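import Fermat.Agent.LT.LocLMatch
import Fermat.Agent.LT.LocSplit
import Fermat.Agent.LT.Test

/-!
# The local comparison at each place of the small field

For each place a degree on the cosets over it, with equal fibre sums for the twisted kernel and the
kernel on the small field; non-vanishing gives local norms.
-/

set_option autoImplicit false
open NumberField Set
open scoped Classical Matrix

namespace Fermat.LT

variable {K L : Type} [Field K] [NumberField K] [Field L] [NumberField L] [Algebra K L]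
  {v3 : Place K}

/-- Three is a unit away from `v3`. -/
lemma val_three_eq_one (G : GeoData K L v3) {v : Place K} (hv : v ≠ v3) : v.valuation K 3 = 1 := by
  have h : (3 : 𝓞 K) ∉ v.asIdeal := fun h => hv (G.only3 v h)
  rw [← v.valuation_eq_one_iff_notMem (K := K)] at h
  rwa [map_ofNat] at h

/-- Norms of places are at least two. -/
lemma two_le_pnorm (v : Place K) : 2 ≤ pnorm v := by
  rw [← natCard_residue]; exact Finite.one_lt_card

/-- The unit condition of a good place. -/
def GoodPt (q : QDat K) (v : Place K) (g₀ : GL (Fin 2) K) : Prop :=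
  q.φ v g₀ ∈ (q.ord' v).Q.ugrp ∧ q.φ v g₀ ∉ (q.ord' v).Q.levG 1

/-- A fixed vertex of trivial degree is the base. -/
lemma QA.eq_base {E : Type*} [Field E] {w : Valuation E (WithZero (Multiplicative ℤ))} {Q : QA w}
    {G : Type*} [Group G] {φ : G →* GL (Fin 2) E} {H U : Subgroup G} (R : Q.Reps φ H U 1 1)
    (hφU : ∀ g ∈ U, φ g ∈ Q.ugrp) {ϖ : E} (hϖ : w ϖ = WithZero.exp (-1 : ℤ))
    {γ : GL (Fin 2) E} (hγ : γ ∈ Q.ugrp) (hγ1 : γ ∉ Q.levG 1) {a : GL (Fin 2) E ⧸ U0 w}
    (ha : R.deg hϖ a = ((1 : G) : G ⧸ U)) (hfix : γ • a = a) :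
    a = ((1 : GL (Fin 2) E) : GL (Fin 2) E ⧸ U0 w) := by
  obtain ⟨j, hj, u, hu, i, rfl⟩ := R.exists_param_one hϖ hφU a ha
  obtain rfl : j = 0 := by omega
  rw [pow_zero, one_mul] at hfix ⊢
  rw [Q.smul_vertex, Q.vertex_eq_iff hϖ (Q.torus.mul_mem (Q.ugrp_le_torus hγ) (Q.ugrp_le_torus hu))
    (Q.ugrp_le_torus hu)] at hfix
  have h : γ⁻¹ ∈ Q.levG i := by
    have h1 := hfix.2
    rwa [mul_inv_rev, mul_assoc, Q.torus_comm (Q.torus.inv_mem (Q.ugrp_le_torus hγ))
      (Q.ugrp_le_torus hu), inv_mul_cancel_left] at h1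
  obtain rfl : i = 0 := by
    by_contra hi
    exact hγ1 (by simpa using (Q.levG 1).inv_mem (Q.levG_antitone (show 1 ≤ i by omega) h))
  rw [QA.vertex, QA.dg_zero, mul_one, QuotientGroup.eq, mul_one]
  exact (U0 w).inv_mem (Q.ugrp_le_U0 hu)

variable (G : GeoData K L v3) (σ : L ≃ₐ[K] L) [Finite (levK L v3)] [Finite (placesOver K L v3)]
  (hS : Stable (σ : L ≃+* L) (placesOver K L v3)) (q : QDat K) (v : Place K)

/-- The local comparison data at `v`. -/
structure Pack where
  /-- The degree of a family of cosets over `v`, valued in the unit classes of the torus at `v`. -/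
  deg : OverPt K (placesOver K L v3) v → q.Γ v
  /-- The degree is equivariant for the torus. -/
  smul : ∀ g ∈ tTor q.D, ∀ x, deg ((g : PG K) • x) = (g : PG K) • deg x
  /-- Every degree is a translate of the trivial one by the torus. -/
  mem : ∀ x, ∃ t : q.T, deg x = t • q.one v
  /-- Some family has trivial degree. -/
  exists_one : ∃ x, deg x = q.one v
  /-- At a good place outside the level the base family has trivial degree. -/
  base : v.valuation K q.D = 1 → v.valuation K 2 = 1 → v ∉ levK L v3 →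
    deg OverPt.base = q.one v
  /-- At a good place outside the level a family of trivial degree fixed by an integral twist with
  `GoodPt` norm is the base family. -/
  good : v.valuation K q.D = 1 → v.valuation K 2 = 1 → v ∉ levK L v3 →
    ∀ {g₀ : GL (Fin 2) K} {δ : GL (Fin 2) L} {c : Lˣ}, GoodPt q v g₀ →
      twistN (σ : L ≃+* L) δ = scal c * iGL K L g₀ →
      (∀ w : placesOver K L v, δ ∈ lev (placesOver K L v3) w.1) →
      ∀ x, deg x = q.one v → (∀ w, x w = δ • x.prev hS w) → x = OverPt.base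
  /-- At trivial degree the fibre sum of a test kernel on `L` is finite and equals the sum of the
  kernel on `K`. -/
  sum : ∀ {g₀ : GL (Fin 2) K} {δ : GL (Fin 2) L} {c : Lˣ}, TReg q.D g₀ →
    δ ∈ tTor (algebraMap K L q.D) →
    twistN (σ : L ≃+* L) δ = scal c * iGL K L g₀ → ∀ t : TestData K L v3,
      {x | deg x = q.one v ∧ OverPt.val hS (kerL G t).loc δ x ≠ 0}.Finite ∧
      ∑' x : {x // deg x = q.one v}, OverPt.val hS (kerL G t).loc δ x.1
        = ∑' a : {a : Vert (levK L v3) v // q.degAt a = q.one v}, (kerK G σ t).loc v a.1 (g₀ • a.1)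

variable {G σ v} (hc : Cyc3 K L σ)
include hc

omit [Finite (levK L v3)] [Finite (placesOver K L v3)] hc in
/-- The factor on `L` away from `v3` is spherical. -/
lemma kerL_loc_sph {w : Place L} (hwS : w ∉ placesOver K L v3) (t : TestData K L v3) :
    (kerL G t).loc w = sphKer hwS (t.h w) := dif_neg hwS

omit [Finite (placesOver K L v3)] hc in
/-- Outside the level the kernel on `K` is locally the spherical kernel of the base changed
polynomial. -/
lemma kerK_loc_sph (hv : v ∉ levK L v3) (t : TestData K L v3) :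
    (kerK G σ t).loc v = sphKer hv (t.bcPoly v) := by
  have h3 : v ≠ v3 := fun h => hv (h ▸ Set.mem_insert _ _)
  change dite _ _ _ = _
  rw [dif_neg h3, dif_neg hv]

omit [Finite (placesOver K L v3)] hc in
/-- The factor on `K` at a ramified place. -/
lemma kerK_loc_ram (h3 : v ≠ v3) (hv : v ∈ levK L v3) (t : TestData K L v3) :
    (kerK G σ t).loc v = ramKer v hv := by
  change dite _ _ _ = _
  rw [dif_neg h3, dif_pos hv]

omit [Finite (levK L v3)] [Finite (placesOver K L v3)] in
/-- A place of `L` fixed by `σ` is the only place over its place of `K`. -/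
lemma placesOver_singleton {w : Place L} (hw : LiesOver K L w v)
    (hσ : mapPlace (σ : L ≃+* L) w = w) :
    placesOver K L v = {w} := by
  rw [hc.placesOver_eq hw, hσ, hσ]
  simp

omit [Finite (levK L v3)] [Finite (placesOver K L v3)] in
/-- At an inert place the base change is the cubic one. -/
lemma bcPoly_inert {w : Place L} (hw : LiesOver K L w v) (hσ : mapPlace (σ : L ≃+* L) w = w)
    (hn : pnorm w = pnorm v ^ 3) (t : TestData K L v3) :
    t.bcPoly v = cubicBC (pnorm v) (t.h w) := by
  rw [TestData.bcPoly, placesOver_singleton hc hw hσ, finprod_mem_singleton, if_neg]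
  have := two_le_pnorm v
  intro h
  rw [hn] at h
  have : pnorm v ^ 3 ≥ pnorm v * 4 := by
    rw [pow_succ, pow_succ, pow_one]; nlinarith
  omega

omit [Finite (levK L v3)] [Finite (placesOver K L v3)] in
/-- A ramified place lies in the level. -/
lemma mem_levK_of_ram {w : Place L} (hw : LiesOver K L w v) (he : ramE v w = 3) : v ∈ levK L v3 :=
  Set.mem_insert_of_mem _ ((hc.mem_ramSet_iff hw).2 he)

omit [Finite (levK L v3)] [Finite (placesOver K L v3)] in
/-- An unramified place away from `v3` is off the level. -/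
lemma notMem_levK {w : Place L} (hw : LiesOver K L w v) (he : ramE v w = 1) (h3 : v ≠ v3) :
    v ∉ levK L v3 := by
  rintro (h | h)
  · exact h3 h
  · rw [hc.mem_ramSet_iff hw] at h
    omega

omit [Finite (placesOver K L v3)] in
/-- Representatives at a fixed place with equal fibre sums give the data there. -/
lemma nonempty_pack_of_reps (G : GeoData K L v3) {w : Place L} (hw : LiesOver K L w v)
    (hσ : mapPlace (σ : L ≃+* L) w = w) (hwS : w ∉ placesOver K L v3)
    (T : Emb (hc.ext hw hσ) (q.ord' v).Q) (y : GL (Fin 2) L) (J : ℕ) (R : T.CosetReps y J)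
    (hJ : 0 < J)
    (hcob : J ≤ 1 ∨
      (y⁻¹ * T.twist.θ y ∈ T.Q'.ugrp ∧ T.twist.norm3 (y⁻¹ * T.twist.θ y) = 1))
    (hstd : v.valuation K q.D = 1 → v.valuation K 2 = 1 → v ∉ levK L v3 →
      T.ρ = 1 ∧ T.r = 0 ∧ y = 1 ∧ J = 1 ∧ ramE v w = 1)
    (hsum : ∀ (g₀ : GL (Fin 2) K) (δ : GL (Fin 2) L) (c : Lˣ),
      TReg q.D g₀ → δ ∈ tTor (algebraMap K L q.D) →
      twistN (σ : L ≃+* L) δ = scal c * iGL K L g₀ → ∀ t : TestData K L v3,
      ∑' a : {a : Vert (placesOver K L v3) w // Fixed.deg hc q hw hσ T R a = q.one v},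
          sphKer hwS (t.h w) a.1 (δ • Vert.amap hS hσ a.1)
        = ∑' a : {a : Vert (levK L v3) v // q.degAt a = q.one v},
          (kerK G σ t).loc v a.1 (g₀ • a.1)) :
    Nonempty (Pack G σ hS q v) := by
  -- `w` is the only place over `v`, so a point over `v` is a vertex at `w`
  have hpl := placesOver_singleton hc hw hσ
  set w' : placesOver K L v := ⟨w, hw⟩
  have hall : ∀ u : placesOver K L v, u = w' := fun ⟨u, hu⟩ => by
    rw [hpl, Set.mem_singleton_iff] at hu
    exact Subtype.ext hu
  let ev : OverPt K (placesOver K L v3) v ≃ Vert (placesOver K L v3) w :=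
    { toFun := fun x => x w'
      invFun := fun a => Function.update OverPt.base w' a
      left_inv := fun x => funext fun u => by rw [hall u]; exact Function.update_self _ _ _
      right_inv := fun a => Function.update_self _ _ _ }
  have hprev : ∀ x : OverPt K (placesOver K L v3) v, x.prev hS w' = Vert.amap hS hσ (x w') :=
      fun x =>
    x.prev_eq hS (u := w') (w := w') hσ
  have : Unique (placesOver K L v) := ⟨⟨w'⟩, hall⟩
  -- the value of a test kernel at a point is the spherical kernel at its vertex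
  have hval : ∀ (t : TestData K L v3) (δ : GL (Fin 2) L) (x : OverPt K (placesOver K L v3) v),
      OverPt.val hS (kerL G t).loc δ x =
          sphKer hwS (t.h w) (x w') (δ • Vert.amap hS hσ (x w')) := by
    intro t δ x
    rw [OverPt.val, finprod_eq_single _ w' fun u hu => absurd (hall u) hu, hprev, kerL_loc_sph hwS]
  -- at a standard place the frame is trivial
  have hdegb : v.valuation K q.D = 1 → v.valuation K 2 = 1 → v ∉ levK L v3 →
      Fixed.frame hc q hw hσ T = 1 := fun h1 h2 hv => by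
    obtain ⟨hρ, -, -, -, -⟩ := hstd h1 h2 hv
    rw [Fixed.frame, q.cj_eq_one ⟨h1, h2⟩, map_one, mul_one]
    refine Units.ext ?_
    change !![1, 0; 0, T.ρ] = _
    rw [hρ]
    ext i j
    fin_cases i <;> fin_cases j <;> simp
  refine ⟨{
    deg := fun x => Fixed.deg hc q hw hσ T R (x w')
    smul := fun g hg x => ?_
    mem := fun x => Fixed.deg_mem hc q hw hσ T R _
    exists_one := ⟨ev.symm _, by
      change Fixed.deg hc q hw hσ T R (ev (ev.symm _)) = _
      rw [Equiv.apply_symm_apply]
      exact Fixed.deg_base hc q hw hσ T R hJ⟩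
    base := fun h1 h2 hv => by
      have h := Fixed.deg_base (S := placesOver K L v3) hc q hw hσ T R hJ
      rwa [hdegb h1 h2 hv, inv_one] at h
    good := fun h1 h2 hv g₀ δ c hgood hN hlev x hx hfix => ?_
    sum := fun {g₀ δ c} hg hδ hN t => ⟨?_, ?_⟩ }⟩
  · rw [OverPt.smul_apply]
    exact Fixed.deg_smul hc q hw hσ T R hg _
  -- at a good place the only fixed vertex of degree one is the base vertex
  · obtain ⟨hρ, hr, rfl, rfl, he⟩ := hstd h1 h2 hv
    have hframe := hdegb h1 h2 hv
    set a := x w'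
    have ha : a = δ • Vert.amap hS hσ a := by rw [← hprev]; exact hfix w'
    have ha2 := twistN_smul_of_fixed hc hS hσ ha
    rw [hN, mul_smul, scal_smul_vert] at ha2
    have hfix' : T.φ (q.φ v g₀) • Fixed.toOrd hc q hw hσ T a = Fixed.toOrd hc q hw hσ T a := by
      conv_rhs => rw [← ha2]
      rw [Fixed.toOrd, Fixed.toOrd, Vert.proj_smul, ← Fixed.psi_iGL hc q hw hσ T,
        Fixed.psi_apply, hframe]
      simp
    have hγ1 : T.φ (q.φ v g₀) ∉ T.Q'.levG 1 := by
      rw [T.mem_levG'_iff hgood.1, show T.lev 1 = 1 by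
        rw [Emb.lev, hr, show (hc.ext hw hσ).e = ramE v w from rfl, he]]
      exact hgood.2
    have h := QA.eq_base (Fixed.reps hc q hw hσ T R) (Fixed.φU hc q hw hσ T)
      (unifAt_spec w) (T.φ_ugrp hgood.1) hγ1 ((Fixed.deg_eq_one_iff hc q hw hσ T R a).1 hx) hfix'
    rw [Fixed.toOrd, hframe, one_smul] at h
    funext u
    rw [hall u]
    refine (vertEquiv hwS).injective ?_
    rw [vertEquiv_apply, vertEquiv_apply, h]
    rfl
  · refine ((Fixed.finite_sph hc q hw hσ T R hg hδ hN hcob hwS hS (t.h w)).preimage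
      ev.injective.injOn).subset fun x hx => ⟨hx.1, ?_⟩
    change sphKer hwS (t.h w) (x w') _ ≠ 0
    have h := hx.2
    rw [hval] at h
    exact h
  -- both sides sum over the vertices of degree one at `w`
  · let e2 : {x : OverPt K (placesOver K L v3) v // Fixed.deg hc q hw hσ T R (x w') = q.one v} ≃
        {a : Vert (placesOver K L v3) w // Fixed.deg hc q hw hσ T R a = q.one v} :=
      ev.subtypeEquiv fun x => Iff.rfl
    refine Eq.trans ?_ ((e2.tsum_eq _).trans (hsum g₀ δ c hg hδ hN t))
    exact tsum_congr fun x => hval t δ x.1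

omit [Finite (placesOver K L v3)] in
/-- The data at a fixed place. -/
lemma nonempty_pack_fixed (G : GeoData K L v3) {w : Place L} (hw : LiesOver K L w v)
    (hσ : mapPlace (σ : L ≃+* L) w = w) (h3v : v ≠ v3) : Nonempty (Pack G σ hS q v) := by
  have h3 := val_three_eq_one G h3v
  have hwS : w ∉ placesOver K L v3 := fun h => h3v (hw.unique h)
  -- ramified or inert
  rcases hc.trichotomy hw with ⟨-, -, -, hmv⟩ | ⟨-, -, ⟨he, hn⟩ | ⟨he, hn⟩⟩
  · exact absurd hσ hmv
  · have hv := mem_levK_of_ram (v3 := v3) hc hw he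
    have hr : v ∈ ramSet K L := hv.resolve_left h3v
    obtain ⟨T, y, J, R, hJ, hu, hu1, hcase⟩ := ram_reps hc q hw h3 hσ he hn
    refine nonempty_pack_of_reps hS q hc G hw hσ hwS T y J R hJ (Or.inr ⟨hu, hu1⟩)
      (fun _ _ h => absurd hv h) fun g₀ δ c hg hδ hN t => ?_
    rw [kerK_loc_ram h3v hv, t.h_level v hv w hw]
    exact ram_sum hc q hw hwS hS h3 hσ he hn hv (G.ram_mod3 v hr) T y J R hu hu1 hcase hg hδ hN
  · have hv := notMem_levK hc hw he h3v
    obtain ⟨T, hρ, R⟩ := inert_reps hc q hw h3 hσ he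
    have hr : T.r = 0 := by
      have := T.hρ
      rw [hρ, map_one, ← WithZero.exp_zero, WithZero.exp_inj] at this
      omega
    refine nonempty_pack_of_reps hS q hc G hw hσ hwS T 1 1 R one_pos (Or.inl le_rfl)
      (fun _ _ _ => ⟨hρ, hr, rfl, rfl, he⟩) fun g₀ δ c hg hδ hN t => ?_
    rw [kerK_loc_sph hv, bcPoly_inert hc hw hσ hn]
    exact inert_sum hc q hw hwS hS h3 hσ he hn hv T hρ R hg hδ hN _

/-- The kernel on the small field at a split place. -/
lemma split_comp (G : GeoData K L v3) {w : Place L} (hw : LiesOver K L w v) (he : ramE v w = 1)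
    (hn : pnorm w = pnorm v) (hmoved : mapPlace (σ : L ≃+* L) w ≠ w)
    (hlev : v ∈ levK L v3 ↔ w ∈ placesOver K L v3) (t : TestData K L v3) :
    Split.comp hw he hlev hS (kerL G t).loc = (kerK G σ t).loc v := by
  have hw2 := hw.mapPlace σ
  have hw3 := hw2.mapPlace σ
  obtain ⟨h21, h31, h32⟩ := Split.distinct hc hmoved
  have hnu : ∀ {u : Place L}, LiesOver K L u v → pnorm u = pnorm v := fun {u} hu => by
    rcases hc.trichotomy hu with ⟨-, -, h, -⟩ | ⟨-, hfix, -⟩
    · exact h
    · have hm : w ∈ placesOver K L v := hw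
      rw [placesOver_singleton hc hu hfix, Set.mem_singleton_iff] at hm
      subst hm
      exact absurd hfix hmoved
  -- at `v3` all kernels are the idempotent ones
  by_cases h3 : v = v3
  · subst h3
    have m1 : w ∈ placesOver K L v := hw
    have m2 : mapPlace (σ : L ≃+* L) w ∈ placesOver K L v := hw2
    have m3 : mapPlace (σ : L ≃+* L) (mapPlace (σ : L ≃+* L) w) ∈ placesOver K L v := hw3
    have hmv : v ∈ levK L v := Set.mem_insert _ _
    rw [show (kerK G σ t).loc v = eKer G.norm_v3 hmv by change dite _ _ _ = _; rw [dif_pos rfl]]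
    have hl : ∀ {u : Place L} (hu : u ∈ placesOver K L v), (kerL G t).loc u =
        eKer (G.norm_w3 u hu) hu :=
      fun hu => dif_pos hu
    rw [Split.comp, Split.k2, Split.k3, hl m1, hl m2, hl m3,
      LKer.pull_eKer _ _ _ m2 m3 (G.norm_w3 _ m2) (G.norm_w3 _ m3),
      LKer.pull_eKer _ _ _ m1 m2 (G.norm_w3 _ m1) (G.norm_w3 _ m2), eKer_comp, eKer_comp,
      LKer.pull_eKer _ _ _ hmv m1 G.norm_v3 (G.norm_w3 _ m1)]
  -- elsewhere they are spherical, and the three polynomials multiply
  · have hv := notMem_levK (v3 := v3) hc hw he h3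
    have hS' : ∀ {u : Place L}, LiesOver K L u v → u ∉ placesOver K L v3 :=
      fun hu h => h3 (hu.unique h)
    rw [kerK_loc_sph hv, Split.comp, Split.k2, Split.k3, kerL_loc_sph (hS' hw),
      kerL_loc_sph (hS' hw2),
      kerL_loc_sph (hS' hw3), LKer.pull_sphKer _ _ _ (hS' hw2) (hS' hw3) (by rw [hnu hw3, hnu hw2]),
      LKer.pull_sphKer _ _ _ (hS' hw) (hS' hw2) (by rw [hnu hw2, hn]),
      LKer.pull_sphKer _ _ _ (hS' hw) (hS' hw2) (by rw [hnu hw2, hn]), sphKer_mul, sphKer_mul,
      LKer.pull_sphKer _ _ _ hv (hS' hw) hn]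
    congr 1
    rw [TestData.bcPoly, hc.placesOver_eq hw, finprod_mem_insert _ (by
        rintro (e | e)
        exacts [h21 e.symm, h31 e.symm]) (Set.toFinite _), finprod_mem_pair h32.symm,
      if_pos hn, if_pos (hnu hw2), if_pos (hnu hw3)]
    ring

/-- The data at a split place. -/
lemma nonempty_pack_split (G : GeoData K L v3) {w : Place L} (hw : LiesOver K L w v)
    (he : ramE v w = 1) (hn : pnorm w = pnorm v) (hmoved : mapPlace (σ : L ≃+* L) w ≠ w) :
    Nonempty (Pack G σ hS q v) := by
  have hw2 := hw.mapPlace σ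
  have hw3 := hw2.mapPlace σ
  have hlev : v ∈ levK L v3 ↔ w ∈ placesOver K L v3 := by
    refine ⟨fun h => ?_, fun h => hw.unique h ▸ Set.mem_insert _ _⟩
    rcases h with h | h
    · exact h ▸ hw
    · rw [hc.mem_ramSet_iff hw] at h
      omega
  set e := Split.vertIso hw he hn hlev
  have e1 : e ((1 : GL (Fin 2) K) : Vert (levK L v3) v) =
      ((1 : GL (Fin 2) L) : Vert (placesOver K L v3) w) := by
    rw [Split.vertIso_apply, Vert.fmap_mk, map_one]
  refine ⟨{
    deg := Split.deg q hw he hn hlev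
    smul := fun g hg x => Split.deg_smul q hw he hn hlev hg x
    mem := fun x => q.degAt_mem _
    exists_one :=
        ⟨Function.update OverPt.base ⟨w, hw⟩
        (e (((q.cj v)⁻¹ : GL (Fin 2) K) : Vert (levK L v3) v)), by
      rw [Split.deg, Function.update_self, Equiv.symm_apply_apply, q.degAt_cj]⟩
    base := fun h1 h2 _ => by
      rw [Split.deg, OverPt.base, ← e1, Equiv.symm_apply_apply, q.degAt_one ⟨h1, h2⟩]
    good := fun h1 h2 hv {g₀ δ c} hgood hN hlev' x hx hfix => ?_
    sum := fun {g₀ δ c} hg hδ hN t => ?_ }⟩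
  · -- at a good place a fixed point has base vertex `a` at `w`
    have hp1 := hfix ⟨w, hw⟩
    have hp2 := hfix ⟨_, hw2⟩
    have hp3 := hfix ⟨_, hw3⟩
    rw [x.prev_eq hS (u := ⟨_, hw3⟩) (w := ⟨w, hw⟩) (hc.mapPlace_three w)] at hp1
    rw [x.prev_eq hS (u := ⟨w, hw⟩) (w := ⟨_, hw2⟩) rfl] at hp2
    rw [x.prev_eq hS (u := ⟨_, hw2⟩) (w := ⟨_, hw3⟩) rfl] at hp3
    set a := e.symm (x ⟨w, hw⟩)
    have hga : g₀ • a = a := by
      have h4 : twistN (σ : L ≃+* L) δ • x ⟨w, hw⟩ = x ⟨w, hw⟩ := by
        conv_rhs => rw [hp1, hp3, hp2]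
        simp only [Vert.amap_smul, twistN, mul_smul, amap_cycle hc hS]
      rw [hN, mul_smul, scal_smul_vert] at h4
      conv_rhs => rw [show a = e.symm (x ⟨w, hw⟩) from rfl, ← h4, Split.vertIso_symm_smul]
    have hbase : a = ((1 : GL (Fin 2) K) : Vert (levK L v3) v) := by
      have hx' : (q.reps v).deg (unifAt_spec v) (q.toOrd a) =
          ((1 : GL (Fin 2) K) : GL (Fin 2) K ⧸ q.U v) :=
        (q.degAt_eq_one_iff a).1 hx
      have h := QA.eq_base (q.reps v) (fun g hg => q.φ_U hg) (unifAt_spec v) hgood.1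
          hgood.2 hx' (by
        rw [← q.toOrd_smul, hga])
      rw [QDat.toOrd, q.cj_eq_one ⟨h1, h2⟩, one_smul] at h
      refine (vertEquiv hv).injective ?_
      rw [vertEquiv_apply, vertEquiv_apply, h]
      rfl
    -- so every coordinate is the base vertex
    have hx1 : x ⟨w, hw⟩ = ((1 : GL (Fin 2) L) : Vert (placesOver K L v3) w) := by
      rw [← e1, ← hbase]; exact (e.apply_symm_apply _).symm
    have hone : ∀ (u : placesOver K L v), δ • ((1 : GL (Fin 2) L) : Vert (placesOver K L v3) u.1)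
        = ((1 : GL (Fin 2) L) : Vert (placesOver K L v3) u.1) := fun u => by
      rw [MulAction.Quotient.smul_coe, QuotientGroup.eq, smul_eq_mul, mul_one, mul_one]
      exact (lev _ _).inv_mem (hlev' u)
    rw [hx1, Vert.amap_mk, map_one, hone ⟨_, hw2⟩] at hp2
    rw [hp2, Vert.amap_mk, map_one, hone ⟨_, hw3⟩] at hp3
    funext ⟨u, hu⟩
    rcases hc.eq_or_eq_mapPlace hw hu with rfl | rfl | rfl
    exacts [hx1, hp2, hp3]
  · obtain ⟨hf, hs⟩ := Split.sum_eq hc q hw he hn hmoved hlev hS (kerL G t).loc δ hw2 hw3 hN hg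
    rw [split_comp hS hc G hw he hn hmoved hlev] at hs
    exact ⟨hf, hs⟩

/-- **Local data at every place.** Every place of `K` carries degrees on the cosets over it with
matching fibre sums of the test kernels on `L` and `K` (`Pack`). -/
theorem nonempty_pack (G : GeoData K L v3) (v : Place K) : Nonempty (Pack G σ hS q v) := by
  obtain ⟨w, hw⟩ := exists_liesOver (L := L) v
  rcases hc.trichotomy hw with ⟨-, he, hn, hmv⟩ | ⟨hone, hσ, -⟩
  · exact nonempty_pack_split hS q hc G hw he hn hmv
  · refine nonempty_pack_fixed hS q hc G hw hσ fun h => ?_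
    subst h
    rw [G.split] at hone
    omega

omit [Finite (placesOver K L v3)] in
/-- **Non-vanishing gives local norms.** At a place with one place of `L` over it, a nonzero local
sum of the kernel on `K` at `a₀ + b₀ √D` makes that element a local norm up to scalars. -/
theorem isLocNorm_of_sum (G : GeoData K L v3) (t : TestData K L v3) {v : Place K}
    (hone : (placesOver K L v).ncard = 1) {g₀ : GL (Fin 2) K} (hg : TReg q.D g₀) {a₀ b₀ : K}
    (hg0 : (g₀ : Matrix (Fin 2) (Fin 2) K) = tmat q.D a₀ b₀)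
    (hne : ∑' a : {a : Vert (levK L v3) v // q.degAt a = q.one v},
    (kerK G σ t).loc v a.1 (g₀ • a.1) ≠ 0) :
    IsLocNorm K L σ v q.D a₀ b₀ := by
  obtain ⟨w, hw⟩ := exists_liesOver (L := L) v
  have h3v : v ≠ v3 := fun h => by subst h; rw [G.split] at hone; omega
  have h3 := val_three_eq_one G h3v
  rcases hc.trichotomy hw with ⟨h, -, -, -⟩ | ⟨-, hσ, ⟨he, hn⟩ | ⟨he, hn⟩⟩
  · omega
  · have hv := mem_levK_of_ram (v3 := v3) hc hw he
    rw [kerK_loc_ram h3v hv] at hne
    exact ram_isLocNorm hc q hw h3 hσ he hn hv (G.ram_mod3 v (hv.resolve_left h3v)) hg hg0 hne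
  · have hv := notMem_levK (v3 := v3) hc hw he h3v
    rw [kerK_loc_sph hv, bcPoly_inert hc hw hσ hn] at hne
    exact inert_isLocNorm hc q hw h3 hσ he hn hv hg hg0 _ hne

end Fermat.LT
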