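import Fermat.Agent.LT.EllTorus

/-!
# Torus integrals on the point space

The integral over a fundamental domain of a group mapped to `PGL₂(F)` as local sums times one
archimedean integral.
-/

set_option autoImplicit false
open NumberField MeasureTheory Filter Set
open scoped Classical Pointwise

namespace Fermat.LT

section Local

variable {T P : Type*} [Group T] {X : P → Type*} [∀ v, MulAction T (X v)] {Γ : P → Type*}
  [∀ v, MulAction T (Γ v)] {b : ∀ v, X v} {one : ∀ v, Γ v} {d : ∀ v, X v → Γ v} {f : ∀ v, X v → ℂ}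

omit [Group T] [∀ v, MulAction T (X v)] [∀ v, MulAction T (Γ v)] in
/-- Almost all local sums are one. -/
lemma eventually_sum_eq_one
    (hgood : ∀ᶠ v in cofinite, d v (b v) = one v ∧ ∀ x,
    d v x = one v → f v x = if x = b v then 1 else 0) :
    ∀ᶠ v in cofinite, ∑' x : {x // d v x = one v}, f v x = 1 := by
  filter_upwards [hgood] with v hv
  rw [tsum_eq_single ⟨b v, hv.1⟩ fun x hx => by
      rw [hv.2 x x.2, if_neg fun e => hx (Subtype.ext e)], hv.2 _ hv.1, if_pos rfl]

omit [Group T] [∀ v, MulAction T (X v)] [∀ v, MulAction T (Γ v)] in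
/-- A vanishing local sum kills the product. -/
lemma finprod_sum_ne_zero
    (hgood : ∀ᶠ v in cofinite, d v (b v) = one v ∧ ∀ x, d v x = one v → f v x = if x = b v then
    1 else 0) (h : ∏ᶠ v, ∑' x : {x // d v x = one v}, f v x ≠ 0) (v : P) :
    ∑' x : {x // d v x = one v}, f v x ≠ 0 := by
  intro h0
  refine h (finprod_eq_zero _ v h0 ?_)
  exact (eventually_cofinite.1 (eventually_sum_eq_one (b := b) hgood)).subset fun u hu => hu

/-- A nonzero product of local sums gives a nonzero value in every admissible degree. -/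
lemma DegSys.exists_ne_zero (S : DegSys (T := T) b one d) (hf : ∀ v (t : T) x, f v (t • x) = f v x)
    (hgood : ∀ᶠ v in cofinite, d v (b v) = one v ∧ ∀ x,
      d v x = one v → f v x = if x = b v then 1 else 0)
    (h : ∏ᶠ v, ∑' x : {x // d v x = one v}, f v x ≠ 0) {c : ∀ v, Γ v} (hc : c ∈ admissible T one) :
    ∃ ω : RProd b, (fun v => d v (ω.1 v)) = c ∧ ∏ᶠ v, f v (ω.1 v) ≠ 0 := by
  obtain ⟨hc1, hc2⟩ := hc
  choose t ht using hc1
  -- each local sum is nonzero, so has a nonzero term
  have hx : ∀ v, ∃ x, d v x = one v ∧ f v x ≠ 0 := fun v => by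
    by_contra hne
    push Not at hne
    refine finprod_sum_ne_zero (b := b) hgood h v ?_
    rw [tsum_congr fun x : {x // d v x = one v} => hne x x.2, tsum_zero]
  choose x hx1 hx2 using hx
  have hgood' : ∀ᶠ v in cofinite, c v = one v ∧ d v (b v) = one v ∧ f v (b v) = 1 := by
    filter_upwards [hgood, hc2] with v hv hv'
    exact ⟨hv', hv.1, by rw [hv.2 _ hv.1, if_pos rfl]⟩
  -- translate these, taking the base point almost everywhere
  let ω : RProd b :=
      ⟨fun v => if c v = one v ∧ d v (b v) = one v ∧ f v (b v) = 1 then b v else t v • x v, by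
    filter_upwards [hgood'] with v hv
    rw [if_pos hv]⟩
  refine ⟨ω, funext fun v => ?_, fun h0 => ?_⟩
  · change d v (ite _ _ _) = _
    split_ifs with hv
    · rw [hv.2.1, hv.1]
    · rw [S.equiv, hx1, ← ht]
  -- then the product is finite with nonzero factors
  · have hfin : (Function.mulSupport fun v => f v (ω.1 v)).Finite :=
      (eventually_cofinite.1 hgood').subset fun v hv h' => hv (by
        change f v (ite _ _ _) = 1
        rw [if_pos h', h'.2.2])
    rw [finprod_eq_prod _ hfin, Finset.prod_eq_zero_iff] at h0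
    obtain ⟨v, -, hv⟩ := h0
    change f v (ite _ _ _) = 0 at hv
    split_ifs at hv with h'
    · rw [h'.2.2] at hv; exact one_ne_zero hv
    · rw [hf] at hv; exact hx2 v hv

end Local

variable {F : Type*} [Field F] [NumberField F] [IsTotallyComplex F] {S : Set (Place F)} [Finite S]
  {T : Type*} [Group T] (ι : T →* PG F)

/-- The action through `ι` on points. -/
@[reducible] noncomputable def compPt : MulAction T (Pt F S) := MulAction.compHom (Pt F S) ι

/-- The action through `ι` on the infinite factor. -/
@[reducible] noncomputable def compInf : MulAction T (InfinitePlace F → H3) :=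
  MulAction.compHom (InfinitePlace F → H3) ((infHom F).comp ι)

omit [IsTotallyComplex F] in
/-- A domain of the image is one of the group. -/
lemma isFundamentalDomain_comp (hι : Function.Injective ι) {Z : Subgroup (PG F)}
    (hrange : ∀ γ, γ ∈ Z ↔ ∃ t, ι t = γ) {D : Set (Pt F S)}
    (hD : IsFundamentalDomain Z D ptMeasure) :
    @IsFundamentalDomain T (Pt F S) _ (compPt (S := S) ι).toSMul _ D ptMeasure := by
  let := compPt (S := S) ι
  refine ⟨hD.nullMeasurableSet, ?_, fun t t' hne => ?_⟩
  · filter_upwards [hD.ae_covers] with p hp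
    obtain ⟨⟨γ, hγ⟩, hp⟩ := hp
    obtain ⟨t, rfl⟩ := (hrange γ).1 hγ
    exact ⟨t, hp⟩
  · have h :=
      hD.aedisjoint (i := ⟨ι t, (hrange _).2 ⟨t, rfl⟩⟩) (j := ⟨ι t', (hrange _).2 ⟨t', rfl⟩⟩)
      fun e => hne (hι (congrArg Subtype.val e))
    exact h

variable {P : Type*} {X : P → Type*} [∀ v, MulAction T (X v)] {Γ : P → Type*}
  [∀ v, MulAction T (Γ v)] {b : ∀ v, X v} {one : ∀ v, Γ v} {d : ∀ v, X v → Γ v} [Countable T]

omit [IsTotallyComplex F] in
/-- **The torus integral** on a countable finite factor times the symmetric space. -/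
theorem torus_integral_gen {M : Type*} [MeasurableSpace M] [DiscreteMeasurableSpace M] [Countable M]
    (fH : PG F →* Equiv.Perm M) [MulAction (PG F) (M × (InfinitePlace F → H3))]
    (hsmulPG : ∀ (γ : PG F) (p : M × (InfinitePlace F → H3)), γ • p = (fH γ p.1, infHom F γ p.2))
    (hS : DegSys (T := T) b one d) (e : M ≃ RProd b)
    (he : ∀ t ω v, (e (fH (ι t) ω)).1 v = t • (e ω).1 v)
    {f : ∀ v, X v → ℂ} {g : (InfinitePlace F → H3) → ℂ} (hf : ∀ v (t : T) x, f v (t • x) = f v x)
    (hg : ∀ t y, g (infHom F (ι t) y) = g y) (hfin : ∀ v, {x | d v x = one v ∧ f v x ≠ 0}.Finite)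
    (hgood : ∀ᶠ v in cofinite, d v (b v) = one v ∧ ∀ x,
      d v x = one v → f v x = if x = b v then 1 else 0)
    {DY : Set (InfinitePlace F → H3)} (hDm : MeasurableSet DY)
    (hDY : @IsFundamentalDomain (degStab T one) (InfinitePlace F → H3) _
      (@Subgroup.instMulAction T _ _ (compInf ι) (degStab T one)).toSMul _ DY
        (Measure.pi fun _ => hmeas))
    {D : Set (M × (InfinitePlace F → H3))}
      (hD : @IsFundamentalDomain T (M × (InfinitePlace F → H3)) _
      (MulAction.compHom (M × (InfinitePlace F → H3)) ι).toSMul _ D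
      ((Measure.count : Measure M).prod (Measure.pi fun _ => hmeas)))
    {F0 : M × (InfinitePlace F → H3) → ℂ} (hF : ∀ p, F0 p = (∏ᶠ v, f v ((e p.1).1 v)) * g p.2)
    (hI : IntegrableOn F0 D ((Measure.count : Measure M).prod (Measure.pi fun _ => hmeas))) :
    (∫ p in D, F0 p ∂((Measure.count : Measure M).prod (Measure.pi fun _ => hmeas))
        = (∑' _c : orbitReps T (admissible T one), ∏ᶠ v, ∑' x : {x // d v x = one v}, f v x)
          * ∫ y in DY, g y ∂(Measure.pi fun _ => hmeas)) ∧
      ((∑' _c : orbitReps T (admissible T one), ∏ᶠ v, ∑' x : {x // d v x = one v}, f v x) ≠ 0 →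
        IntegrableOn g DY (Measure.pi fun _ => hmeas)) := by
  let := compInf ι
  let : MulAction T (M) :=
    { smul := fun t ω => fH (ι t) ω
      one_smul := fun ω => by change fH (ι 1) ω = ω; rw [map_one, map_one]; rfl
      mul_smul := fun t s ω => by
        change fH (ι (t * s)) ω = fH (ι t) (fH (ι s) ω)
        rw [map_mul, map_mul]; rfl }
  have hmp : ∀ t : T, MeasurePreserving (fun y : InfinitePlace F → H3 => t • y)
      (Measure.pi fun _ => hmeas) (Measure.pi fun _ => hmeas) :=
        fun t => QDat.measurePreserving_inf (ι t)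
  have hsmul : ∀ (t : T) (p : M × (InfinitePlace F → H3)),
      (ι t) • p = ((t • p.1, t • p.2) : M × (InfinitePlace F → H3)) := fun t p => hsmulPG _ p
  have hD' : IsFundamentalDomain T (D : Set (M × (InfinitePlace F → H3)))
      ((Measure.count : Measure (M)).prod (Measure.pi fun _ => hmeas)) := by
    refine ⟨@IsFundamentalDomain.nullMeasurableSet T (M × (InfinitePlace F → H3)) _
      (MulAction.compHom _ ι).toSMul _ D _ hD,
      ?_, fun t t' hne => ?_⟩
    · filter_upwards [@IsFundamentalDomain.ae_covers T (M × (InfinitePlace F → H3)) _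
        (MulAction.compHom _ ι).toSMul _ D _ hD] with p hp
      obtain ⟨t, ht⟩ := hp
      have ht' : ι t • p ∈ D := ht
      rw [hsmul] at ht'
      exact ⟨t, ht'⟩
    · have h := @IsFundamentalDomain.aedisjoint T (M × (InfinitePlace F → H3)) _
        (MulAction.compHom _ ι).toSMul _ D _ hD t t' hne
      have e' : ∀ s : T, ((fun p : M × (InfinitePlace F → H3) => ι s • p) '' D)
          = (fun p : M × (InfinitePlace F → H3) => s • p) '' D :=
        fun s => Set.image_congr fun p _ => hsmul s p
      change AEDisjoint _ ((fun p : M × (InfinitePlace F → H3) => t • p) '' D)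
        ((fun p : M × (InfinitePlace F → H3) => t' • p) '' D)
      rw [← e' t, ← e' t']
      exact h
  have hI' : IntegrableOn (fun p : M × (InfinitePlace F → H3) => (∏ᶠ v, f v ((e p.1).1 v)) * g p.2)
      D ((Measure.count : Measure (M)).prod (Measure.pi fun _ => hmeas)) :=
    hI.congr_fun_ae (Eventually.of_forall hF)
  -- for integrability, slice at a point with a nonzero product
  refine ⟨?_, fun hne => ?_⟩
  · rw [← hS.integral_eq e he hmp hDm hDY hf hg hfin hgood hD' hI']
    exact integral_congr_ae (Eventually.of_forall hF)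
  · have hdom := hS.isFundamentalDomain e he hmp hDm hDY
    have hinv : ∀ (t : T) (p : M × (InfinitePlace F → H3)),
        (∏ᶠ v, f v ((e (t • p).1).1 v)) * g (t • p).2 = (∏ᶠ v, f v ((e p.1).1 v)) * g p.2 :=
            fun t p => by
      change (∏ᶠ v, f v ((e (fH (ι t) p.1)).1 v)) * g (infHom F (ι t) p.2) = _
      simp only [he, hf, hg]
    have hmpT : ∀ t : T, MeasurePreserving (fun p : M × (InfinitePlace F → H3) => t • p)
        ((Measure.count : Measure (M)).prod (Measure.pi fun _ => hmeas))
        ((Measure.count : Measure (M)).prod (Measure.pi fun _ => hmeas)) := fun t => by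
      refine MeasurePreserving.prod
        (⟨measurable_of_countable _, Measure.ext fun s hs => ?_⟩) (hmp t)
      rw [Measure.map_apply (measurable_of_countable _) hs,
        Measure.count_apply (MeasurableSet.of_discrete), Measure.count_apply hs]
      congr 1
      exact Set.encard_preimage_of_bijective (MulAction.bijective (β := M) t) s
    have : MeasurableConstSMul T (M × (InfinitePlace F → H3)) := ⟨fun t => (hmpT t).measurable⟩
    have : SMulInvariantMeasure T (M × (InfinitePlace F → H3))
        ((Measure.count : Measure (M)).prod (Measure.pi fun _ => hmeas)) :=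
      ⟨fun t _ hs => (hmpT t).measure_preimage hs.nullMeasurableSet⟩
    have hI2 := (hD'.integrableOn_iff hdom hinv).1 hI'
    obtain ⟨c, hc⟩ : (orbitReps T (admissible T one)).Nonempty := by
      by_contra hemp
      rw [Set.not_nonempty_iff_eq_empty] at hemp
      have : IsEmpty (orbitReps T (admissible T one)) := by rw [hemp]; infer_instance
      exact hne tsum_empty
    have hprod : ∏ᶠ v, ∑' x : {x // d v x = one v}, f v x ≠ 0 := fun h0 =>
      hne (by simp only [h0, tsum_zero])
    obtain ⟨ω, hω, hω0⟩ := hS.exists_ne_zero hf hgood hprod (orbitReps_subset _ hc)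
    have hmem : e.symm ω ∈ (fun ν => fun v => d v ((e ν).1 v)) ⁻¹'
        orbitReps T (Set.range fun ν => fun v => d v ((e ν).1 v)) := by
      rw [hS.range_eq e, Set.mem_preimage, Equiv.apply_symm_apply, hω]
      exact hc
    rw [IntegrableOn, torusDom, ← Measure.prod_restrict] at hI2
    have hall :
        ∀ᵐ ν ∂((Measure.count : Measure (M)).restrict ((fun ν => fun v => d v ((e ν).1 v)) ⁻¹'
        orbitReps T (Set.range fun ν => fun v => d v ((e ν).1 v)))),
        Integrable (fun y => (∏ᶠ v, f v ((e ν).1 v)) * g y)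
            ((Measure.pi fun _ => hmeas).restrict DY) :=
      hI2.prod_right_ae
    rw [ae_restrict_iff' MeasurableSet.of_discrete, Measure.ae_count_iff] at hall
    have h := hall _ hmem
    rw [Equiv.apply_symm_apply] at h
    change Integrable g _
    have h2 := h.const_mul (∏ᶠ v, f v (ω.1 v))⁻¹
    simp only [← mul_assoc, inv_mul_cancel₀ hω0, one_mul] at h2
    exact h2

omit [IsTotallyComplex F] in
/-- **The torus integral on points.** For a commutative group with degrees, the integral over a
fundamental domain is a sum of products of local sums times one integral over `DY`. -/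
theorem torus_integral (hS : DegSys (T := T) b one d) (e : FinPt F S ≃ RProd b)
    (he : ∀ t ω v, (e (finHom F S (ι t) ω)).1 v = t • (e ω).1 v)
    {f : ∀ v, X v → ℂ} {g : (InfinitePlace F → H3) → ℂ} (hf : ∀ v (t : T) x, f v (t • x) = f v x)
    (hg : ∀ t y, g (infHom F (ι t) y) = g y) (hfin : ∀ v, {x | d v x = one v ∧ f v x ≠ 0}.Finite)
    (hgood : ∀ᶠ v in cofinite, d v (b v) = one v ∧ ∀ x,
      d v x = one v → f v x = if x = b v then 1 else 0)
    {DY : Set (InfinitePlace F → H3)} (hDm : MeasurableSet DY)
    (hDY : @IsFundamentalDomain (degStab T one) (InfinitePlace F → H3) _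
      (@Subgroup.instMulAction T _ _ (compInf ι) (degStab T one)).toSMul _ DY
        (Measure.pi fun _ => hmeas))
    {D : Set (Pt F S)} (hD : @IsFundamentalDomain T (Pt F S) _ (compPt (S := S) ι).toSMul
      _ D ptMeasure)
    {F0 : Pt F S → ℂ} (hF : ∀ p, F0 p = (∏ᶠ v, f v ((e p.1).1 v)) * g p.2)
    (hI : IntegrableOn F0 D ptMeasure) :
    (∫ p in D, F0 p ∂ptMeasure
        = (∑' _c : orbitReps T (admissible T one), ∏ᶠ v, ∑' x : {x // d v x = one v}, f v x)
          * ∫ y in DY, g y ∂(Measure.pi fun _ => hmeas)) ∧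
      ((∑' _c : orbitReps T (admissible T one), ∏ᶠ v, ∑' x : {x // d v x = one v}, f v x) ≠ 0 →
        IntegrableOn g DY (Measure.pi fun _ => hmeas)) :=
  have : DiscreteMeasurableSpace (FinPt F S) := ⟨fun _ => trivial⟩
  torus_integral_gen ι (finHom F S) smul_pt_eq hS e he hf hg hfin hgood hDm hDY hD hF hI

end Fermat.LT
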