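import Fermat.Agent.LT.Statement

/-!
# Statement of the norm theorem for quadratic tori

`tmat D a b` is multiplication by `a + b √D`.  An element of `(K(√D))ˣ / Kˣ`
which is, at every place of `K` with one place of `L` above it, arbitrarily close to a twisted norm
from `L(√D)`, is one.
-/

set_option autoImplicit false
open NumberField

namespace Fermat.LT

/-- Multiplication by `a + b √D`. -/
def tmat {R : Type*} [CommRing R] (D a b : R) : Matrix (Fin 2) (Fin 2) R := !![a, D * b; b, a]

variable (K L : Type) [Field K] [NumberField K] [Field L] [NumberField L] [Algebra K L]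

/-- The twisted norm of an element of `L(√D)`. -/
noncomputable def twNorm (σ : L ≃ₐ[K] L) (D : K) (x y : L) : Matrix (Fin 2) (Fin 2) L :=
  tmat (algebraMap K L D) x y * tmat (algebraMap K L D) (σ x) (σ y)
    * tmat (algebraMap K L D) (σ (σ x)) (σ (σ y))

/-- `a + b √D` is a norm up to scalars to every precision at `v`. -/
def IsLocNorm (σ : L ≃ₐ[K] L) (v : Place K) (D a b : K) : Prop :=
  ∀ n : ℕ, ∃ (x y : L) (c N₀ N₁ : K), c ≠ 0 ∧
    twNorm K L σ D x y = tmat (algebraMap K L D) (algebraMap K L N₀) (algebraMap K L N₁) ∧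
    N₀ * N₀ - D * N₁ * N₁ ≠ 0 ∧
    v.valuation K (c * N₀ - a) ≤ WithZero.exp (-(n : ℤ)) ∧
    v.valuation K (c * N₁ - b) ≤ WithZero.exp (-(n : ℤ))

/-- For a cubic Galois extension `L` of a totally complex `K` containing the cube roots of unity:
an element of `K(√D)` which is a local norm at every place with a single place of `L` above it is a
twisted norm from `L(√D)` up to a scalar. -/
def NormStatement : Prop :=
  ∀ (σ : L ≃ₐ[K] L), σ ≠ 1 → IsGalois K L → Module.finrank K L = 3 →
    (∃ ζ : K, IsPrimitiveRoot ζ 3) → IsTotallyComplex K →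
    ∀ D a b : K, ¬ IsSquare D → a * a - D * b * b ≠ 0 →
      (∀ v : Place K, (placesOver K L v).ncard = 1 → IsLocNorm K L σ v D a b) →
      ∃ (x y : L) (c : K), c ≠ 0 ∧
        twNorm K L σ D x y =
          tmat (algebraMap K L D) (algebraMap K L (c * a)) (algebraMap K L (c * b))

end Fermat.LT
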