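import Fermat.Agent.LT.LocPrim
import Fermat.Agent.LT.NormDef

/-!
# A maximal order of a quadratic algebra at a place

For `D ≠ 0` there is a maximal monogenic order with discriminant in `D Fˣ²`, either unramified or in
Eisenstein form; `conjD` moves `a + b √D` to it.
-/

set_option autoImplicit false
open scoped Matrix Classical

namespace Fermat.LT

variable {F : Type*} [Field F] {v : Valuation F (WithZero (Multiplicative ℤ))}

/-- Natural numbers are integral. -/
lemma v_natCast_le_one (v : Valuation F (WithZero (Multiplicative ℤ))) (k : ℕ) : v (k : F) ≤ 1 :=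
  (v.mem_valuationSubring_iff _).1 (natCast_mem _ k)

namespace QA

/-- The discriminant `t² - 4 n` of the order. -/
def disc (Q : QA v) : F := Q.t * Q.t - 4 * Q.n

/-- Unramified or Eisenstein. -/
def Normal (Q : QA v) : Prop :=
  v Q.disc = 1 ∨ (v Q.t < 1 ∧ v Q.n = WithZero.exp (-1 : ℤ))

/-- The change of basis from `(1, √D)` to `(1, ω)`, when `disc = D c²`. -/
noncomputable def conjD (Q : QA v) {c : F} (hc : c ≠ 0) (h2 : (2 : F) ≠ 0) : GL (Fin 2) F :=
  Matrix.GeneralLinearGroup.mkOfDetNeZero !![1, -Q.t / c; 0, 2 / c]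
    (by simp [Matrix.det_fin_two_of, hc, h2])

variable {Q : QA v} {D c : F} (hc : c ≠ 0) (h2 : (2 : F) ≠ 0) (hD : Q.disc = D * (c * c))
include hD

/-- The change of basis carries torus coordinates in `√D` to coordinates in the order. -/
lemma conjD_mul_tmat (a b : F) :
    (Q.conjD hc h2 : Matrix (Fin 2) (Fin 2) F) * tmat D a b
      = Q.mat (a - b * Q.t / c) (2 * b / c) * (Q.conjD hc h2 : Matrix (Fin 2) (Fin 2) F) := by
  have hD' : Q.t * Q.t - 4 * Q.n = D * (c * c) := hD
  ext i j
  fin_cases i <;> fin_cases j <;> simp [conjD, tmat, mat, Matrix.mul_apply] <;> field_simp <;>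
    ring_nf
  linear_combination (-b) * hD'

/-- The conjugate of `a + b √D` lies in the torus. -/
lemma conj_mem_torus {g : GL (Fin 2) F} {a b : F}
    (hg : (g : Matrix (Fin 2) (Fin 2) F) = tmat D a b) :
    Q.conjD hc h2 * g * (Q.conjD hc h2)⁻¹ ∈ Q.torus := by
  refine ⟨a - b * Q.t / c, 2 * b / c, ?_⟩
  rw [Units.val_mul, Units.val_mul, hg, Q.conjD_mul_tmat hc h2 hD, Matrix.mul_assoc,
    ← Units.val_mul, mul_inv_cancel, Units.val_one, Matrix.mul_one]

/-- Every torus element is such a conjugate. -/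
lemma exists_conj {g : GL (Fin 2) F} (hg : g ∈ Q.torus) :
    ∃ a b, (((Q.conjD hc h2)⁻¹ * g * Q.conjD hc h2 : GL (Fin 2) F) : Matrix (Fin 2) (Fin 2) F) =
      tmat D a b := by
  obtain ⟨A, B, h⟩ := hg
  refine ⟨A + B * Q.t / 2, B * c / 2, ?_⟩
  have e := Q.conjD_mul_tmat hc h2 hD (A + B * Q.t / 2) (B * c / 2)
  rw [show A + B * Q.t / 2 - B * c / 2 * Q.t / c = A by field_simp; ring,
    show 2 * (B * c / 2) / c = B by field_simp, ← h] at e
  rw [Units.val_mul, Units.val_mul, Matrix.mul_assoc, ← e, ← Matrix.mul_assoc, ← Units.val_mul,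
    inv_mul_cancel, Units.val_one, Matrix.one_mul]

end QA

/-- The standard order at a place where `D` is a unit and `2` is invertible. -/
def stdQA {D : F} (hD : v D = 1) (h2 : v 2 = 1) : QA v where
  t := 0
  n := -D
  ht := by simp
  hn := by rw [Valuation.map_neg, hD]
  maximal r _ h := by
    rw [zero_sub, Valuation.map_neg, map_mul, h2, one_mul] at h
    rw [zero_mul, sub_zero, ← sub_eq_add_neg, Valuation.map_sub_eq_of_lt_right, hD,
      ← WithZero.exp_zero, WithZero.exp_le_exp]
    · omega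
    · rw [map_mul, hD]
      exact lt_of_le_of_lt (mul_le_of_le_one_left' h.le) h

/-- `ℤ[√D]` is maximal for a unit `D` away from two. -/
lemma stdQA_normal {D : F} (hD : v D = 1) (h2 : v 2 = 1) :
    (stdQA hD h2).Normal ∧ (stdQA hD h2).disc = D * (2 * 2) := by
  have e : (stdQA hD h2).disc = D * (2 * 2) := by simp [QA.disc, stdQA]; ring
  exact ⟨Or.inl (by rw [e, map_mul, map_mul, hD, h2, mul_one, mul_one]), e⟩

/-- Modulo the place, a form whose discriminant is no unit has a double root. -/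
lemma exists_double_root [Finite (IsLocalRing.ResidueField v.valuationSubring)] (h2 : (2 : F) ≠ 0)
    {t n : F} (ht : v t ≤ 1) (hn : v n ≤ 1) (hlt : v (t * t - 4 * n) < 1) :
    ∃ r, v r ≤ 1 ∧ v (t - 2 * r) < 1 ∧ v (r * r - t * r + n) < 1 := by
  by_cases h2v : v (2 : F) = 1
  · refine ⟨t / 2, by rw [map_div₀, h2v, div_one]; exact ht, by
      rw [mul_div_cancel₀ _ h2, sub_self, map_zero]; exact zero_lt_one, ?_⟩
    rw [show t / 2 * (t / 2) - t * (t / 2) + n = -(t * t - 4 * n) / (2 * 2) by field_simp; ring,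
      map_div₀, Valuation.map_neg, map_mul, h2v, mul_one, div_one]
    exact hlt
  · have h2lt : v (2 : F) < 1 := lt_of_le_of_ne (by
      rw [show (2 : F) = ((2 : ℕ) : F) by norm_num]; exact v_natCast_le_one v 2) h2v
    have ht1 : v t < 1 := by
      by_contra hge
      have ht1 : v t = 1 := le_antisymm ht (not_lt.1 hge)
      have : v (t * t - 4 * n) = 1 := by
        rw [Valuation.map_sub_eq_of_lt_left, map_mul, ht1, one_mul]
        rw [map_mul, map_mul, ht1, one_mul]
        refine lt_of_le_of_lt (mul_le_of_le_one_right' hn) ?_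
        rw [show (4 : F) = 2 * 2 by norm_num, map_mul]
        exact lt_of_le_of_lt (mul_le_of_le_one_left' h2lt.le) h2lt
      exact hlt.ne this
    -- the residue field has characteristic two
    have := Fintype.ofFinite (IsLocalRing.ResidueField v.valuationSubring)
    have h20 : ((2 : ℕ) : IsLocalRing.ResidueField v.valuationSubring) = 0 := by
      rw [← map_natCast (IsLocalRing.residue v.valuationSubring), residue_eq_zero_iff_v]
      change v (((2 : ℕ) : v.valuationSubring) : F) < 1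
      push_cast
      exact h2lt
    obtain ⟨p, hp⟩ := CharP.exists (IsLocalRing.ResidueField v.valuationSubring)
    obtain rfl : p = 2 := (Nat.prime_dvd_prime_iff_eq (CharP.char_is_prime
      (IsLocalRing.ResidueField v.valuationSubring) p) Nat.prime_two).1
        ((CharP.cast_eq_zero_iff _ p 2).1 h20)
    obtain ⟨z, hz⟩ := FiniteField.isSquare_of_char_two (ringChar.eq _ 2) (-resd v n)
    obtain ⟨r, hr, rfl⟩ := exists_resd_eq z
    refine ⟨r, hr, lt_of_le_of_lt (v.map_sub _ _) (max_lt ht1 ?_), ?_⟩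
    · rw [map_mul]; exact lt_of_le_of_lt (mul_le_of_le_one_right' hr) h2lt
    · have hrr : v (r * r) ≤ 1 := by rw [map_mul]; exact mul_le_one' hr hr
      have hres : v (r * r + n) < 1 := by
        rw [← resd_eq_zero_iff ((v.map_add _ _).trans (max_le hrr hn)), resd_add hrr hn,
          resd_mul hr hr, ← hz, neg_add_cancel]
      rw [show r * r - t * r + n = (r * r + n) - t * r by ring]
      refine lt_of_le_of_lt (v.map_sub _ _) (max_lt hres ?_)
      rw [map_mul]; exact lt_of_le_of_lt (mul_le_of_le_one_right' hr) ht1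

variable {ϖ : F} (hϖ : v ϖ = WithZero.exp (-1 : ℤ))
include hϖ

/-- **Existence** of a maximal order in normal form. -/
theorem exists_normal_QA [Finite (IsLocalRing.ResidueField v.valuationSubring)] {D : F} (hD : D ≠ 0)
    (h2 : (2 : F) ≠ 0) : ∃ (Q : QA v) (c : F), c ≠ 0 ∧ Q.Normal ∧ Q.disc = D * (c * c) := by
  have hϖ0 : ϖ ≠ 0 := fun e => WithZero.exp_ne_zero (by rw [← hϖ, e, map_zero])
  have hDv : v D ≠ 0 := v.ne_zero_iff.2 hD
  -- integral forms, measured by the order of the discriminant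
  let P : ℕ → Prop := fun m => ∃ t n c : F, v t ≤ 1 ∧ v n ≤ 1 ∧ c ≠ 0 ∧
    t * t - 4 * n = D * (c * c) ∧ WithZero.exp (-(m : ℤ)) ≤ v (t * t - 4 * n)
  have hP : ∃ m, P m := by
    obtain ⟨k, hk⟩ : ∃ k : ℕ, v D ≤ WithZero.exp (2 * k : ℤ) := ⟨(WithZero.log (v D)).toNat, by
      rw [← WithZero.exp_log hDv, WithZero.exp_le_exp, WithZero.log_exp]; omega⟩
    have hd : (0 : F) * 0 - 4 * -(D * (ϖ ^ k * ϖ ^ k)) = D * ((2 * ϖ ^ k) * (2 * ϖ ^ k)) := by ring
    have hne : v ((0 : F) * 0 - 4 * -(D * (ϖ ^ k * ϖ ^ k))) ≠ 0 := v.ne_zero_iff.2 (by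
      rw [hd]; exact mul_ne_zero hD (mul_self_ne_zero.2 (mul_ne_zero h2 (pow_ne_zero _ hϖ0))))
    refine ⟨(-WithZero.log (v ((0 : F) * 0 - 4 * -(D * (ϖ ^ k * ϖ ^ k))))).toNat, 0,
      -(D * (ϖ ^ k * ϖ ^ k)), 2 * ϖ ^ k, by simp, ?_, mul_ne_zero h2 (pow_ne_zero _ hϖ0), hd, ?_⟩
    · rw [Valuation.map_neg, map_mul, map_mul, map_pow, hϖ, ← WithZero.exp_nsmul]
      refine (mul_le_mul' hk le_rfl).trans ?_
      rw [← WithZero.exp_add, ← WithZero.exp_add, ← WithZero.exp_zero, WithZero.exp_le_exp]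
      simp
      omega
    · conv_rhs => rw [← WithZero.exp_log hne]
      rw [WithZero.exp_le_exp]
      omega
  obtain ⟨t, n, c, ht, hn, hc, hd, hm⟩ := Nat.find_spec hP
  -- minimality gives maximality
  have hmax : ∀ r, v r ≤ 1 → v (t - 2 * r) < 1 → WithZero.exp (-1 : ℤ) ≤ v (r * r - t * r + n) := by
    intro r hr htr
    by_contra hlt
    rw [not_le] at hlt
    have hle : v (r * r - t * r + n) ≤ WithZero.exp (-2 : ℤ) := by
      rcases eq_or_ne (v (r * r - t * r + n)) 0 with h | h
      · rw [h]; exact zero_le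
      rw [← WithZero.exp_log h, WithZero.exp_lt_exp] at hlt
      rw [← WithZero.exp_log h, WithZero.exp_le_exp]
      omega
    have he : (t - 2 * r) / ϖ * ((t - 2 * r) / ϖ) - 4 * ((r * r - t * r + n) / (ϖ * ϖ))
        = (t * t - 4 * n) / (ϖ * ϖ) := by field_simp; ring
    set m := Nat.find hP with hmdef
    have hd2 : v (t * t - 4 * n) ≤ WithZero.exp (-2 : ℤ) := by
      rw [show t * t - 4 * n = (t - 2 * r) * (t - 2 * r) - 4 * (r * r - t * r + n) by ring]
      refine (v.map_sub _ _).trans (max_le ?_ ?_) <;> rw [map_mul]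
      · exact (mul_le_mul' (le_exp_neg_one_iff.2 htr) (le_exp_neg_one_iff.2 htr)).trans
          (le_of_eq (by rw [← WithZero.exp_add]; norm_num))
      · refine (mul_le_of_le_one_left' ?_).trans hle
        rw [show (4 : F) = ((4 : ℕ) : F) by norm_num]
        exact v_natCast_le_one v 4
    have hm2 : 2 ≤ m := by
      have := hm.trans hd2
      rw [WithZero.exp_le_exp] at this
      omega
    refine Nat.find_min hP (show m - 2 < m by omega) ⟨(t - 2 * r) / ϖ,
      (r * r - t * r + n) / (ϖ * ϖ), c / ϖ, ?_, ?_, div_ne_zero hc hϖ0, ?_, ?_⟩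
    · rw [map_div₀, hϖ, div_le_one₀ (zero_lt_iff.2 WithZero.exp_ne_zero)];
        exact le_exp_neg_one_iff.2 htr
    · rw [map_div₀, map_mul, hϖ, ← WithZero.exp_add,
        div_le_one₀ (zero_lt_iff.2 WithZero.exp_ne_zero)]
      exact hle.trans (by norm_num)
    · rw [he, hd]; field_simp
    · rw [he, map_div₀, map_mul, hϖ, ← WithZero.exp_add,
        le_div_iff₀ (zero_lt_iff.2 WithZero.exp_ne_zero), ← WithZero.exp_add]
      refine le_trans (le_of_eq ?_) hm
      congr 1
      omega
  let Q₀ : QA v := ⟨t, n, ht, hn, hmax⟩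
  by_cases hu : v Q₀.disc = 1
  · exact ⟨Q₀, c, hc, Or.inl hu, hd⟩
  -- translate the double root to zero
  have hlt : v (t * t - 4 * n) < 1 := by
    refine lt_of_le_of_ne ((v.map_sub _ _).trans (max_le ?_ ?_)) hu <;> rw [map_mul]
    · exact mul_le_one' ht ht
    · refine mul_le_one' ?_ hn
      rw [show (4 : F) = ((4 : ℕ) : F) by norm_num]
      exact v_natCast_le_one v 4
  obtain ⟨r, hr, htr, hnr⟩ := exists_double_root h2 ht hn hlt
  have hn1 : v (r * r - t * r + n) = WithZero.exp (-1 : ℤ) :=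
    le_antisymm (le_exp_neg_one_iff.2 hnr) (hmax r hr htr)
  refine ⟨⟨t - 2 * r, r * r - t * r + n, htr.le, hnr.le, fun s hs h => ?_⟩, c, hc,
    Or.inr ⟨htr, hn1⟩, ?_⟩
  · rw [show s * s - (t - 2 * r) * s + (r * r - t * r + n) = (s + r) * (s + r) - t *
      (s + r) + n by ring]
    exact hmax (s + r) ((v.map_add _ _).trans (max_le hs hr)) (by
      rwa [show t - 2 * (s + r) = t - 2 * r - 2 * s by ring])
  · change (t - 2 * r) * (t - 2 * r) - 4 * (r * r - t * r + n) = _
    rw [← hd]; ring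

end Fermat.LT
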