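import Fermat.Agent.LT.LocOrb

/-!
# The vertices as classes of a torus, fibres of a degree map

A vertex is `(w diag(1, ϖ^i))` with `w` in the torus, unique up to `levG i`.
If the torus is covered by `y^j φ(h) u`, the vertices get a degree in `H / U`, equivariant for `φ`,
and the fibre of the trivial degree is parametrised by `j`, the level and a unit class.
-/

set_option autoImplicit false
open scoped Matrix Classical

namespace Fermat.LT

variable {E : Type*} [Field E] {w : Valuation E (WithZero (Multiplicative ℤ))}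

/-- A scalar comes out of a product. -/
lemma mul_scal_mul (c : Eˣ) (A u B : GL (Fin 2) E) :
    A * (scal c * u) * B = scal c * (A * u * B) := by
  rw [← mul_assoc, ← mul_assoc, ← mul_assoc, ← scal_comm]

namespace QA

variable (Q : QA w) {ϖ : E} (hϖ : w ϖ = WithZero.exp (-1 : ℤ))

/-- The vertex of a torus element at a level. -/
noncomputable def vertex (_Q : QA w) {ϖ : E} (hϖ : w ϖ = WithZero.exp (-1 : ℤ)) (i : ℕ)
    (g : GL (Fin 2) E) :
    GL (Fin 2) E ⧸ U0 w :=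
  ((g * dg hϖ i : GL (Fin 2) E) : GL (Fin 2) E ⧸ U0 w)

/-- The vertices are translated. -/
lemma smul_vertex (i : ℕ) (a g : GL (Fin 2) E) : a • Q.vertex hϖ i g = Q.vertex hϖ i (a * g) := by
  rw [vertex, MulAction.Quotient.smul_coe, smul_eq_mul, ← mul_assoc]
  rfl

/-- Every vertex is of this form. -/
lemma exists_vertex (y : GL (Fin 2) E ⧸ U0 w) : ∃ g ∈ Q.torus, ∃ i, Q.vertex hϖ i g = y := by
  obtain ⟨x, rfl⟩ := QuotientGroup.mk_surjective y
  obtain ⟨g, hg, i, hi⟩ := Q.exists_torus_dg hϖ x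
  exact ⟨g, hg, i, QuotientGroup.eq.2 hi⟩

/-- Two torus vertices agree exactly when the levels agree and the elements agree modulo that
level. -/
lemma vertex_eq_iff {g h : GL (Fin 2) E} (hg : g ∈ Q.torus) (hh : h ∈ Q.torus) {i j : ℕ} :
    Q.vertex hϖ i g = Q.vertex hϖ j h ↔ i = j ∧ g⁻¹ * h ∈ Q.levG i := by
  rw [vertex, vertex, QuotientGroup.eq, ← lvl_eq_zero_iff,
    show (g * dg hϖ i)⁻¹ * (h * dg hϖ j) = (dg hϖ i)⁻¹ * (g⁻¹ * h) * dg hϖ j by group]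
  set u := g⁻¹ * h
  have hu : u ∈ Q.torus := Q.torus.mul_mem (Q.torus.inv_mem hg) hh
  constructor
  · intro h0
    -- split by whether the primitive representative is a unit
    rcases mem_ugrp_or_isPrim' hu with hu' | ⟨c, a, b, ha, hb, m, hm, hn, hc⟩
    · obtain ⟨c, hc⟩ := hu'
      have hlvl : lvl w ((dg hϖ i)⁻¹ * (scal c * u) * dg hϖ j) = 0 := by
        rw [mul_scal_mul, lvl_mul_left w (scal_mem_withScalars _ c), h0]
      have h1 := Q.le_lvl_of_unit hϖ i j hc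
      have h2 := Q.le_lvl_of_unit hϖ j i (Q.unitGrp.inv_mem hc)
      rw [show (dg hϖ j)⁻¹ * (scal c * u)⁻¹ * dg hϖ i =
        ((dg hϖ i)⁻¹ * (scal c * u) * dg hϖ j)⁻¹ by group, lvl_inv, hlvl] at h2
      rw [hlvl] at h1
      have hij : i = j := by omega
      subst hij
      refine ⟨rfl, ?_⟩
      by_contra hno
      have hup : u ∈ Q.ugrp := ⟨c, hc⟩
      set μ := Nat.findGreatest (fun m => u ∈ Q.levG m) i
      have hμ : u ∈ Q.levG μ :=
        Nat.findGreatest_spec (P := fun m => u ∈ Q.levG m) (Nat.zero_le i) (by rwa [levG_zero])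
      have hμi : μ < i :=
        lt_of_le_of_ne (Nat.findGreatest_le i) fun e => hno (by rwa [show μ = i from e] at hμ)
      -- an exact level below `i` would give positive level
      have := dlvl_of_exact (Q := Q) hϖ hμi hμ
        (Nat.findGreatest_is_greatest (P := fun m => u ∈ Q.levG m) (Nat.lt_succ_self μ) hμi)
      rw [dlvl, h0] at this
      omega
    · exfalso
      have := Q.lvl_nonunit hϖ i j ha hb hn hc
      rw [mul_scal_mul, lvl_mul_left w (scal_mem_withScalars _ c), h0] at this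
      omega
  · rintro ⟨rfl, hm⟩
    exact dlvl_of_mem hϖ hm
where
  /-- Coordinates of torus elements. -/
  mem_ugrp_or_isPrim' {u : GL (Fin 2) E} (hu : u ∈ Q.torus) : u ∈ Q.ugrp ∨
      ∃ (c : Eˣ) (a b : E), w a ≤ 1 ∧ w b = 1 ∧ ∃ m : ℕ, 1 ≤ m ∧
        w (Q.nm a b) = WithZero.exp (-(m : ℤ)) ∧
        ((scal c * u : GL (Fin 2) E) : Matrix (Fin 2) (Fin 2) E) = Q.mat a b := by
    obtain ⟨c, a, b, h, ha, hb, hor⟩ := exists_primitive Q hu
    by_cases hn : w (Q.nm a b) = 1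
    · exact Or.inl ⟨c, a, b, ha, hb, hn, h⟩
    have hb1 := hor.resolve_left hn
    have hd : Q.nm a b ≠ 0 := by
      rw [← det_mat, ← h]; exact (Matrix.GeneralLinearGroup.det (scal c * u)).ne_zero
    have hne : w (Q.nm a b) ≠ 0 := w.ne_zero_iff.2 hd
    have hlt := lt_of_le_of_ne (Q.v_nm_le ha hb) hn
    rw [← WithZero.exp_log hne, ← WithZero.exp_zero, WithZero.exp_lt_exp] at hlt
    exact Or.inr ⟨c, a, b, ha, hb1, (-WithZero.log (w (Q.nm a b))).toNat, by omega, by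
      rw [Int.toNat_of_nonneg (by omega), neg_neg, WithZero.exp_log hne], h⟩

variable {G : Type*} [Group G] (φ : G →* GL (Fin 2) E) (H U : Subgroup G) (y : GL (Fin 2) E) (J : ℕ)

/-- `y^j φ(h)`, `j < J`, cover the torus modulo units, uniquely up to `U`. -/
structure Reps : Prop where
  /-- `y` lies in the torus. -/
  mem : y ∈ Q.torus
  /-- `φ` maps `H` into the torus. -/
  mapsTo : ∀ h ∈ H, φ h ∈ Q.torus
  /-- The `y ^ j φ h`, `j < J`, `h ∈ H`, cover the torus modulo units. -/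
  cover : ∀ x ∈ Q.torus, ∃ j < J, ∃ h ∈ H, x * (y ^ j * φ h)⁻¹ ∈ Q.ugrp
  /-- `y ^ i` and `y ^ j φ h` agree modulo units exactly for `i = j` and `h ∈ U`. -/
  unique : ∀ i < J, ∀ j < J, ∀ h ∈ H, (y ^ i)⁻¹ * (y ^ j * φ h) ∈ Q.ugrp ↔ i = j ∧ h ∈ U

variable {Q φ H U y J} (R : Q.Reps φ H U y J)
include R

/-- The representation is unique. -/
lemma Reps.unique_pair {i j : ℕ} (hi : i < J) (hj : j < J) {g h : G} (hg : g ∈ H) (hh : h ∈ H) :
    (y ^ i * φ g)⁻¹ * (y ^ j * φ h) ∈ Q.ugrp ↔ i = j ∧ g⁻¹ * h ∈ U := by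
  rw [← R.unique i hi j hj (g⁻¹ * h) (H.mul_mem (H.inv_mem hg) hh)]
  have e : (y ^ i * φ g)⁻¹ * (y ^ j * φ h) = (y ^ i)⁻¹ * (y ^ j * φ (g⁻¹ * h)) := by
    have h1 : (φ g)⁻¹ ∈ Q.torus := Q.torus.inv_mem (R.mapsTo g hg)
    have h2 : (y ^ i)⁻¹ * y ^ j ∈ Q.torus :=
      Q.torus.mul_mem (Q.torus.inv_mem (Q.torus.pow_mem R.mem i)) (Q.torus.pow_mem R.mem j)
    rw [mul_inv_rev, map_mul, map_inv,
      show (φ g)⁻¹ * (y ^ i)⁻¹ * (y ^ j * φ h) = (φ g)⁻¹ * ((y ^ i)⁻¹ * y ^ j) * φ h by group,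
      Q.torus_comm h1 h2]
    group
  rw [e]

/-- Parameters of a vertex. -/
lemma Reps.exists_param (a : GL (Fin 2) E ⧸ U0 w) :
    ∃ j < J, ∃ h ∈ H, ∃ u ∈ Q.ugrp, ∃ i, Q.vertex hϖ i (y ^ j * φ h * u) = a := by
  obtain ⟨g, hg, i, rfl⟩ := Q.exists_vertex hϖ a
  obtain ⟨j, hj, h, hh, hu⟩ := R.cover g hg
  refine ⟨j, hj, h, hh, g * (y ^ j * φ h)⁻¹, hu, i, ?_⟩
  rw [Q.torus_comm (Q.torus.mul_mem (Q.torus.pow_mem R.mem j) (R.mapsTo h hh)) (Q.ugrp_le_torus hu),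
    inv_mul_cancel_right]

/-- The degree of a vertex. -/
noncomputable def Reps.deg (a : GL (Fin 2) E ⧸ U0 w) : G ⧸ U :=
  ((R.exists_param hϖ a).choose_spec.2.choose : G ⧸ U)

/-- The data defining the degree. -/
lemma Reps.deg_spec (a : GL (Fin 2) E ⧸ U0 w) : ∃ j < J, ∃ h ∈ H, R.deg hϖ a = (h : G ⧸ U) ∧
    ∃ u ∈ Q.ugrp, ∃ i, Q.vertex hϖ i (y ^ j * φ h * u) = a :=
  ⟨_, (R.exists_param hϖ a).choose_spec.1, _,
    (R.exists_param hϖ a).choose_spec.2.choose_spec.1, rfl,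
    (R.exists_param hϖ a).choose_spec.2.choose_spec.2⟩

/-- The degree of the vertex of `y^j φ(h) u` is the class of `h`. -/
theorem Reps.deg_vertex {j : ℕ} (hj : j < J) {h : G} (hh : h ∈ H) {u : GL (Fin 2) E}
    (hu : u ∈ Q.ugrp) (i : ℕ) : R.deg hϖ (Q.vertex hϖ i (y ^ j * φ h * u)) = (h : G ⧸ U) := by
  set a := Q.vertex hϖ i (y ^ j * φ h * u) with ha
  obtain ⟨j', hj', h', hh', hdeg, u', hu', i', he⟩ := R.deg_spec hϖ a
  rw [hdeg]
  have ht : ∀ {j : ℕ} {h : G}, h ∈ H → y ^ j * φ h ∈ Q.torus := fun {j h} hh =>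
    Q.torus.mul_mem (Q.torus.pow_mem R.mem j) (R.mapsTo h hh)
  rw [ha, Q.vertex_eq_iff hϖ (Q.torus.mul_mem (ht hh') (Q.ugrp_le_torus hu'))
    (Q.torus.mul_mem (ht hh) (Q.ugrp_le_torus hu))] at he
  rw [QuotientGroup.eq]
  refine ((R.unique_pair hj' hj hh' hh).1 ?_).2
  have h1 := Q.ugrp.mul_mem (Q.ugrp.mul_mem hu' (Q.levG_le_ugrp _ he.2)) (Q.ugrp.inv_mem hu)
  convert h1 using 1
  group

/-- The degree is equivariant. -/
theorem Reps.deg_smul {g : G} (hg : g ∈ H) (a : GL (Fin 2) E ⧸ U0 w) :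
    R.deg hϖ (φ g • a) = g • R.deg hϖ a := by
  obtain ⟨j, hj, h, hh, u, hu, i, rfl⟩ := R.exists_param hϖ a
  rw [smul_vertex, R.deg_vertex hϖ hj hh hu, MulAction.Quotient.smul_coe, smul_eq_mul,
    ← R.deg_vertex hϖ hj (H.mul_mem hg hh) hu i, map_mul]
  congr 2
  rw [← mul_assoc (φ g), ← mul_assoc (φ g), Q.torus_comm (R.mapsTo g hg) (Q.torus.pow_mem R.mem j)]
  group

/-- The degree comes from the group. -/
lemma Reps.deg_mem (a : GL (Fin 2) E ⧸ U0 w) : ∃ h ∈ H, R.deg hϖ a = (h : G ⧸ U) :=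
  ⟨_, (R.exists_param hϖ a).choose_spec.2.choose_spec.1, rfl⟩

/-- A vertex of trivial degree is the vertex of `y ^ j * u` at some level, with `u` a unit. -/
lemma Reps.exists_param_one (hφU : ∀ g ∈ U, φ g ∈ Q.ugrp) (a : GL (Fin 2) E ⧸ U0 w)
    (ha : R.deg hϖ a = ((1 : G) : G ⧸ U)) :
    ∃ j < J, ∃ u ∈ Q.ugrp, ∃ i, Q.vertex hϖ i (y ^ j * u) = a := by
  obtain ⟨j, hj, h, hh, u, hu, i, rfl⟩ := R.exists_param hϖ a
  rw [R.deg_vertex hϖ hj hh hu, QuotientGroup.eq, mul_one] at ha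
  refine ⟨j, hj, φ h * u, Q.ugrp.mul_mem (hφU h ?_) hu, i, by rw [mul_assoc]⟩
  simpa using U.inv_mem ha

/-- The fibre of the trivial degree. -/
noncomputable def Reps.fibEquiv (hφU : ∀ g ∈ U, φ g ∈ Q.ugrp) :
    (Σ i : ℕ, Fin J × Q.UQ i) ≃ {a // R.deg hϖ a = ((1 : G) : G ⧸ U)} := by
  refine Equiv.ofBijective
    (fun p => ⟨Q.vertex hϖ p.1 (y ^ (p.2.1 : ℕ) * (p.2.2.out : GL (Fin 2) E)), ?_⟩) ⟨?_, ?_⟩
  · have := R.deg_vertex hϖ p.2.1.2 H.one_mem (p.2.2.out).2 p.1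
    rwa [map_one, mul_one] at this
  -- injective, since equal vertices have equal levels and congruent parameters
  · rintro ⟨i, j, u⟩ ⟨i', j', u'⟩ e
    have e' : Q.vertex hϖ i (y ^ (j : ℕ) * (u.out : GL (Fin 2) E))
        = Q.vertex hϖ i' (y ^ (j' : ℕ) * (u'.out : GL (Fin 2) E)) := congrArg Subtype.val e
    have hu := u.out.2
    have hu' := u'.out.2
    rw [Q.vertex_eq_iff hϖ (Q.torus.mul_mem (Q.torus.pow_mem R.mem _) (Q.ugrp_le_torus hu))
      (Q.torus.mul_mem (Q.torus.pow_mem R.mem _) (Q.ugrp_le_torus hu'))] at e'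
    obtain ⟨rfl, hm⟩ := e'
    have hj : j = j' := by
      refine Fin.ext ((R.unique_pair (g := 1) (h := 1) j.2 j'.2 H.one_mem H.one_mem).1 ?_).1
      rw [map_one, mul_one, mul_one]
      have h1 := Q.ugrp.mul_mem (Q.ugrp.mul_mem hu (Q.levG_le_ugrp _ hm)) (Q.ugrp.inv_mem hu')
      convert h1 using 1
      group
    subst hj
    congr 2
    rw [← QuotientGroup.out_eq' u, ← QuotientGroup.out_eq' u', QuotientGroup.eq,
      Subgroup.mem_subgroupOf]
    convert hm using 1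
    simp [mul_assoc]
  -- surjective
  · rintro ⟨a, ha⟩
    obtain ⟨j, hj, u, hu, i, rfl⟩ := R.exists_param_one hϖ hφU a ha
    refine ⟨⟨i, ⟨j, hj⟩, ((⟨u, hu⟩ : Q.ugrp) : Q.UQ i)⟩, Subtype.ext ?_⟩
    obtain ⟨k, hk⟩ := QuotientGroup.mk_out_eq_mul ((Q.levG i).subgroupOf Q.ugrp) (⟨u, hu⟩ : Q.ugrp)
    change Q.vertex hϖ i (y ^ j * ((((⟨u, hu⟩ : Q.ugrp) : Q.UQ i)).out : GL (Fin 2) E)) = _
    rw [hk]
    refine (Q.vertex_eq_iff hϖ (Q.torus.mul_mem (Q.torus.pow_mem R.mem j)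
      (Q.ugrp_le_torus ((⟨u, hu⟩ : Q.ugrp) * k).2))
      (Q.torus.mul_mem (Q.torus.pow_mem R.mem j) (Q.ugrp_le_torus hu))).2 ⟨rfl, ?_⟩
    have hk' := (Q.levG i).inv_mem (Subgroup.mem_subgroupOf.1 k.2)
    convert hk' using 1
    simp [mul_assoc]

/-- **Sum over the fibre.** The sum over the fibre of trivial degree is the sum over shifts, levels
and unit classes of the values at their vertices. -/
theorem Reps.sum_fibre [Finite (IsLocalRing.ResidueField w.valuationSubring)]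
    (hφU : ∀ g ∈ U, φ g ∈ Q.ugrp) (f : GL (Fin 2) E ⧸ U0 w → ℂ) (hf : f.support.Finite) :
    ∑' a : {a // R.deg hϖ a = ((1 : G) : G ⧸ U)}, f a
      = ∑ j ∈ Finset.range J, ∑ᶠ i, ∑ᶠ u : Q.UQ i,
        f (Q.vertex hϖ i (y ^ j * (u.out : GL (Fin 2) E))) := by
  set e := R.fibEquiv hϖ hφU
  have hfin : ∀ i, Finite (Q.UQ i) := fun i => finite_UQ hϖ i
  let _ := fun i => Fintype.ofFinite (Q.UQ i)
  set g : (Σ i : ℕ, Fin J × Q.UQ i) → ℂ := fun p => f (e p)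
  have hg : g.support.Finite := hf.preimage ((Subtype.coe_injective.comp e.injective).injOn)
  obtain ⟨N, hN⟩ : ∃ N, ∀ p ∈ g.support, p.1 < N :=
    ⟨hg.toFinset.sup (fun p => p.1) + 1, fun p hp => Nat.lt_succ_of_le
      (Finset.le_sup (f := fun p => p.1) (hg.mem_toFinset.2 hp))⟩
  rw [← e.tsum_eq (fun a => f a), show (fun p => f (e p)) = g from rfl,
    tsum_eq_sum (s := (Finset.range N).sigma fun _ => Finset.univ)
    fun p hp => by_contra fun h =>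
      hp (Finset.mem_sigma.2 ⟨Finset.mem_range.2 (hN p h), Finset.mem_univ _⟩),
    Finset.sum_sigma]
  simp only [finsum_eq_sum_of_fintype]
  have hs : ∀ j ∈ Finset.range J, ∑ᶠ i, ∑ u : Q.UQ i,
      f (Q.vertex hϖ i (y ^ j * (u.out : GL (Fin 2) E)))
      = ∑ i ∈ Finset.range N, ∑ u : Q.UQ i, f (Q.vertex hϖ i (y ^ j * (u.out : GL (Fin 2) E))) := by
    intro j hj
    refine finsum_eq_sum_of_support_subset _ fun i hi => ?_
    obtain ⟨u, -, hu⟩ := Finset.exists_ne_zero_of_sum_ne_zero hi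
    exact Finset.mem_coe.2 (Finset.mem_range.2 (hN ⟨i, ⟨j, Finset.mem_range.1 hj⟩, u⟩ hu))
  rw [Finset.sum_congr rfl hs, Finset.sum_comm]
  refine Finset.sum_congr rfl fun i _ => ?_
  rw [Fintype.sum_prod_type,
    Finset.sum_range (fun j => ∑ u : Q.UQ i, f (Q.vertex hϖ i (y ^ j * (u.out : GL (Fin 2) E))))]
  rfl

omit R

/-- Displacement by a twisted translation. -/
theorem dlvl_eq_lvl_twist (τ : Q.Twist) {x g : GL (Fin 2) E} (hx : x ∈ Q.torus)
    (hg : g ∈ Q.torus) (i : ℕ) :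
    lvl w ((g * dg hϖ i)⁻¹ * (x * τ.θ (g * dg hϖ i) * τ.dε)) = Q.dlvl hϖ i (x * (g⁻¹ * τ.θ g)) := by
  have hgx : g⁻¹ * x = x * g⁻¹ := Q.torus_comm (Q.torus.inv_mem hg) hx
  -- the image of `diag(1, ϖ^i)` differs by a unit
  set m := (dg hϖ i)⁻¹ * τ.θ (dg hϖ i) * τ.dε with hm
  have hϖ0 : ϖ ≠ 0 := ne_zero_of_unif (v := w) hϖ
  have hmU : m ∈ U0 w := by
    refine le_withScalars _ ?_
    have e : (m : Matrix (Fin 2) (Fin 2) E) = !![1, 0; 0, τ.ε * τ.s (ϖ ^ i) / ϖ ^ i] := by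
      have hinv : ((dg hϖ i)⁻¹ : GL (Fin 2) E).val = !![1, 0; 0, (ϖ ^ i)⁻¹] := by
        rw [← Units.mul_right_inj (a := dg hϖ i), ← Units.val_mul, mul_inv_cancel]
        ext k l
        fin_cases k <;> fin_cases l <;> simp [dg, Matrix.mul_apply, hϖ0]
      rw [hm, show τ.θ (dg hϖ i) = τ.dε * Matrix.GeneralLinearGroup.map (τ.s : E →+* E) (dg hϖ i) *
        τ.dε⁻¹ from rfl, mul_assoc, inv_mul_cancel_right, Units.val_mul, Units.val_mul, hinv]
      change !![1, 0; 0, (ϖ ^ i)⁻¹] *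
        (!![1, 0; 0, τ.ε] * (!![1, 0; 0, ϖ ^ i] : Matrix (Fin 2) (Fin 2) E).map τ.s) = _
      rw [show (!![1, 0; 0, ϖ ^ i] : Matrix (Fin 2) (Fin 2) E).map τ.s = !![1, 0; 0, τ.s (ϖ ^ i)] by
        ext k l
        fin_cases k <;> fin_cases l <;> simp]
      ext k l
      fin_cases k <;> fin_cases l <;> simp [Matrix.mul_apply, div_eq_inv_mul]
    have hv : w (τ.ε * τ.s (ϖ ^ i) / ϖ ^ i) = 1 := by
      rw [map_div₀, map_mul, τ.hε, one_mul, τ.hs, div_self (w.ne_zero_iff.2 (pow_ne_zero _ hϖ0))]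
    set r : w.integer := ⟨_, hv.le⟩
    have hu : IsUnit r :=
      (Valuation.Integers.isUnit_iff_valuation_eq_one (Valuation.integer.integers w)).2 hv
    have hA : IsUnit (!![1, 0; 0, r] : Matrix (Fin 2) (Fin 2) w.integer) := by
      rw [Matrix.isUnit_iff_isUnit_det, Matrix.det_fin_two_of]; simpa using hu
    refine ⟨hA.unit, Units.ext ?_⟩
    rw [e]
    change (!![1, 0; 0, r] : Matrix (Fin 2) (Fin 2) w.integer).map w.integer.subtype = _
    ext k l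
    fin_cases k <;> fin_cases l <;> simp [r]
  rw [dlvl, map_mul,
    show (g * dg hϖ i)⁻¹ * (x * (τ.θ g * τ.θ (dg hϖ i)) * τ.dε)
      = (dg hϖ i)⁻¹ * (g⁻¹ * x * τ.θ g) * dg hϖ i * m by rw [hm]; group,
    lvl_mul_right w hmU, hgx, mul_assoc x]

end QA

end Fermat.LT
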