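import Fermat.Agent.LT.TorusSum

/-!
# The torus integral as a product of local sums

`DegSys.integral_eq` is this formula, on the fundamental domain of `DegSys.isFundamentalDomain`.
-/

set_option autoImplicit false
open MeasureTheory Filter Set
open scoped Classical

namespace Fermat.LT

variable {T P : Type*} [Group T] {X : P → Type*} [∀ v, MulAction T (X v)] {Γ : P → Type*}
  [∀ v, MulAction T (Γ v)]

/-- Equivariant local degrees for a commutative group acting on a restricted product. -/
structure DegSys (b : ∀ v, X v) (one : ∀ v, Γ v) (d : ∀ v, X v → Γ v) : Prop where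
  /-- The group is commutative. -/
  comm : ∀ s t : T, s * t = t * s
  /-- The degrees are equivariant. -/
  equiv : ∀ v (t : T) x, d v (t • x) = t • d v x
  /-- Every translate of the trivial degree is a degree. -/
  surj : ∀ v (t : T), ∃ x, d v x = t • one v
  /-- Every degree is a translate of the trivial one. -/
  mem : ∀ v x, ∃ t : T, d v x = t • one v
  /-- Almost every base point has trivial degree. -/
  base : ∀ᶠ v in cofinite, d v (b v) = one v

/-- Degrees of restricted products. -/
def admissible (T : Type*) {P : Type*} [Group T] {Γ : P → Type*} [∀ v, MulAction T (Γ v)]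
    (one : ∀ v, Γ v) : Set (∀ v, Γ v) :=
  {c | (∀ v, ∃ t : T, c v = t • one v) ∧ ∀ᶠ v in cofinite, c v = one v}

/-- The common stabiliser of the degrees. -/
def degStab (T : Type*) {P : Type*} [Group T] {Γ : P → Type*} [∀ v, MulAction T (Γ v)]
    (one : ∀ v, Γ v) : Subgroup T :=
  ⨅ v, MulAction.stabilizer T (one v)

variable {b : ∀ v, X v} {one : ∀ v, Γ v} {d : ∀ v, X v → Γ v} (S : DegSys (T := T) b one d)
include S

/-- The stabiliser of a degree is that of the trivial one. -/
lemma DegSys.smul_fix_iff (v : P) (x : X v) (t : T) : t • d v x = d v x ↔ t • one v = one v := by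
  obtain ⟨s, hs⟩ := S.mem v x
  rw [hs, smul_smul, S.comm, ← smul_smul]
  exact (MulAction.injective s).eq_iff

variable {Ω Y : Type*} [MulAction T Ω] (e : Ω ≃ RProd b)
  (he : ∀ (t : T) ω v, (e (t • ω)).1 v = t • (e ω).1 v)

omit [MulAction T Ω] in
/-- The degree vectors of restricted products are exactly the admissible ones. -/
lemma DegSys.range_eq :
    range (fun ω => fun v => d v ((e ω).1 v)) = admissible T one := by
  refine Set.eq_of_subset_of_subset ?_ fun c hc => ?_
  · rintro c ⟨ω, rfl⟩
    refine ⟨fun v => S.mem v _, ?_⟩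
    filter_upwards [(e ω).2, S.base] with v h1 h2
    rw [h1, h2]
  · obtain ⟨h1, h2⟩ := hc
    choose t ht using h1
    choose x hx using fun v => S.surj v (t v)
    refine ⟨e.symm ⟨fun v => if c v = one v ∧ d v (b v) = one v then b v else x v, ?_⟩,
      funext fun v => ?_⟩
    · filter_upwards [h2, S.base] with v hv hb
      rw [if_pos ⟨hv, hb⟩]
    · simp only [Equiv.apply_symm_apply]
      split_ifs with h
      · rw [h.2, h.1]
      · rw [hx, ← ht]

variable [Countable T] [Countable Ω] [MeasurableSpace Ω] [DiscreteMeasurableSpace Ω]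
  [MeasurableSpace Y] [MulAction T Y] {μ : Measure Y} [SigmaFinite μ]
  (hmp : ∀ t : T, MeasurePreserving (fun y : Y => t • y) μ μ) {DY : Set Y} (hDm : MeasurableSet DY)
  (hDY : IsFundamentalDomain (degStab T one) DY μ)

include e he hmp hDm hDY in
/-- `torusDom` of the degrees and `DY` is a fundamental domain of the torus. -/
theorem DegSys.isFundamentalDomain :
    IsFundamentalDomain T (torusDom T (fun ω => fun v => d v ((e ω).1 v)) DY)
      ((Measure.count : Measure Ω).prod μ) := by
  refine isFundamentalDomain_torusDom _ (fun t ω => funext fun v => ?_) hmp (degStab T one)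
    (fun ω t => ?_) hDm hDY
  · change d v ((e (t • ω)).1 v) = t • d v ((e ω).1 v)
    rw [he, S.equiv]
  · simp only [degStab, Subgroup.mem_iInf, MulAction.mem_stabilizer_iff]
    refine ⟨fun h v => (S.smul_fix_iff v _ t).1 (congrFun h v), fun h => funext fun v => ?_⟩
    exact (S.smul_fix_iff v _ t).2 (h v)

variable {f : ∀ v, X v → ℂ} {g : Y → ℂ}

include e he hmp hDm hDY in
/-- **The torus integral.** Over a fundamental domain of the torus, a product of local functions
times `g` integrates to the sum over orbit representatives of products of local fibre sums, times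
one integral over `DY`. -/
theorem DegSys.integral_eq (hf : ∀ v (t : T) x, f v (t • x) = f v x)
    (hg : ∀ (t : T) y, g (t • y) = g y) (hfin : ∀ v, {x | d v x = one v ∧ f v x ≠ 0}.Finite)
    (hgood : ∀ᶠ v in cofinite, d v (b v) = one v ∧ ∀ x, d v x = one v → f v x = if x = b v then
    1 else 0) {D : Set (Ω × Y)} (hD : IsFundamentalDomain T D ((Measure.count : Measure Ω).prod μ))
    (hI : IntegrableOn (fun p : Ω × Y => (∏ᶠ v, f v ((e p.1).1 v)) * g p.2) D
    ((Measure.count : Measure Ω).prod μ)) :
    ∫ p in D, (∏ᶠ v, f v ((e p.1).1 v)) * g p.2 ∂(Measure.count : Measure Ω).prod μ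
      = (∑' _c : orbitReps T (admissible T one), ∏ᶠ v, ∑' x : {x // d v x = one v}, f v x) *
        ∫ y in DY, g y ∂μ := by
  have hmpT : ∀ t : T, MeasurePreserving (fun p : Ω × Y => t • p)
      ((Measure.count : Measure Ω).prod μ) ((Measure.count : Measure Ω).prod μ) := fun t =>
    measurePreserving_count_prod_smul t (hmp t)
  have : MeasurableConstSMul T (Ω × Y) := ⟨fun t => (hmpT t).measurable⟩
  have : SMulInvariantMeasure T (Ω × Y) ((Measure.count : Measure Ω).prod μ) :=
    ⟨fun t _ hs => (hmpT t).measure_preimage hs.nullMeasurableSet⟩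
  have hinv : ∀ (t : T) (p : Ω × Y),
      (∏ᶠ v, f v ((e (t • p).1).1 v)) * g (t • p).2 = (∏ᶠ v, f v ((e p.1).1 v)) * g p.2 :=
          fun t p => by
    simp only [Prod.smul_fst, Prod.smul_snd, he, hf, hg]
  have hdom := S.isFundamentalDomain e he hmp hDm hDY
  rw [hD.setIntegral_eq hdom hinv]
  have hI' := (hD.integrableOn_iff hdom hinv).1 hI
  unfold torusDom at hI' ⊢
  rw [integral_prod_fibres (f := fun ω => ∏ᶠ v, f v ((e ω).1 v)) (g := g) _ hI', S.range_eq e]
  congr 1
  refine tsum_congr fun c => ?_
  obtain ⟨hc1, hc2⟩ := orbitReps_subset _ c.2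
  choose t ht using hc1
  let eq : {ω // (fun v => d v ((e ω).1 v)) = c.1} ≃ {ω : RProd b // ∀ v, d v (ω.1 v) = c.1 v} :=
    e.subtypeEquiv fun ω => funext_iff
  rw [← eq.symm.tsum_eq fun ω : {ω // (fun v => d v ((e ω).1 v)) = c.1} => ∏ᶠ v, f v ((e ω.1).1 v)]
  simp only [eq, Equiv.subtypeEquiv_symm, Equiv.subtypeEquiv_apply, Equiv.apply_symm_apply]
  -- translate each fibre to the trivial degree
  have hfib : ∀ v, ∀ x, d v ((t v)⁻¹ • x) = one v ↔ d v x = c.1 v := fun v x => by
    rw [S.equiv, inv_smul_eq_iff, ← ht]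
  have hfin' : ∀ v, {x | d v x = c.1 v ∧ f v x ≠ 0}.Finite := fun v => by
    refine ((hfin v).image fun x => t v • x).subset fun x hx => ?_
    refine ⟨(t v)⁻¹ • x, ⟨(hfib v x).2 hx.1, ?_⟩, smul_inv_smul _ _⟩
    rw [hf]; exact hx.2
  have hgood' : ∀ᶠ v in cofinite, d v (b v) = c.1 v ∧ ∀ x, d v x = c.1 v →
      f v x = if x = b v then 1 else 0 := by
    filter_upwards [hgood, hc2] with v hv hcv
    rw [hcv]
    exact hv
  rw [tsum_restricted b d c.1 f hfin' hgood']
  refine finprod_congr fun v => ?_
  rw [← ((MulAction.toPerm (t v)).subtypeEquiv (p := fun x => d v x = one v) (q := fun x =>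
    d v x = c.1 v)
    fun x => by rw [← hfib v, MulAction.toPerm_apply, inv_smul_smul]).tsum_eq fun x => f v x.1]
  exact tsum_congr fun x => hf v (t v) x.1

end Fermat.LT
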