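import Fermat.Agent.LT.EllIndex
import Fermat.Agent.LT.LocAlg
import Fermat.Agent.LT.LocOrbit
import Fermat.Agent.LT.TorusInt
import Fermat.Agent.LT.FibKer

/-!
# The local data of a global quadratic torus

For `D` a maximal order at every place, the degrees of the torus modulo local units, and a domain of
the global units on the symmetric space.
-/

set_option autoImplicit false
open NumberField MeasureTheory Filter Set
open scoped Classical Matrix

namespace Fermat.LT

variable {F : Type*} [Field F] [NumberField F] {S : Set (Place F)}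

/-! ### actions of classes on the factors -/

/-- Scalars fix every coset. -/
lemma scal_smul_vert {v : Place F} (c : Fˣ) (a : Vert S v) : scal c • a = a := by
  obtain ⟨g, rfl⟩ := QuotientGroup.mk_surjective a
  rw [MulAction.Quotient.smul_coe, QuotientGroup.eq, smul_eq_mul, scal_comm, mul_inv_rev, mul_assoc,
    inv_mul_cancel, mul_one]
  by_cases hv : v ∈ S
  · rw [lev_of_mem hv]; exact (U1 _).inv_mem (scal_mem_withScalars _ c)
  · rw [lev_of_not_mem hv]; exact (U0 _).inv_mem (scal_mem_withScalars _ c)

/-- `PGL₂(F)` acts on the local vertices. -/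
noncomputable instance instMulActionPGVert {v : Place F} : MulAction (PG F) (Vert S v) :=
  MulAction.compHom (Vert S v) (QuotientGroup.lift (scalSub F)
    (MulAction.toPermHom (GL (Fin 2) F) (Vert S v))
    (fun g hg => by
      obtain ⟨c, rfl⟩ := hg
      exact Equiv.ext fun a => scal_smul_vert c a))

/-- The class acts as the matrix. -/
@[simp] lemma PG.mk_smul_vert {v : Place F} (g : GL (Fin 2) F) (a : Vert S v) :
    (g : PG F) • a = g • a := rfl

/-- Scalars act trivially at infinity. -/
lemma scal_smul_inf (c : Fˣ) (y : InfinitePlace F → H3) :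
    (fun w => atInf w (scal c) • y w) = y := by
  funext w
  exact congrFun (congrArg Prod.snd (Pt.scal_smul (S := (∅ : Set (Place F))) c (FinPt.base, y))) w

/-- The action on the archimedean factor. -/
noncomputable def infHom (F : Type*) [Field F] [NumberField F] :
    PG F →* Equiv.Perm (InfinitePlace F → H3) :=
  QuotientGroup.lift (scalSub F)
    { toFun := fun g => Equiv.piCongrRight fun w => MulAction.toPerm (atInf w g)
      map_one' := Equiv.ext fun y => funext fun w => by simp
      map_mul' := fun g h => Equiv.ext fun y => funext fun w => by simp [mul_smul] }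
    (fun g hg => by
      obtain ⟨c, rfl⟩ := hg
      exact Equiv.ext fun y => scal_smul_inf c y)

/-- The action at infinity of the class of a matrix. -/
@[simp] lemma infHom_mk (g : GL (Fin 2) F) (y : InfinitePlace F → H3) (w : InfinitePlace F) :
    infHom F (g : PG F) y w = atInf w g • y w := rfl

/-- The action on the finite factor. -/
noncomputable def finHom (F : Type*) [Field F] [NumberField F] (S : Set (Place F)) [Finite S] :
    PG F →* Equiv.Perm (FinPt F S) :=
  QuotientGroup.lift (scalSub F) (MulAction.toPermHom (GL (Fin 2) F) (FinPt F S))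
    (fun g hg => by
      obtain ⟨c, rfl⟩ := hg
      exact Equiv.ext fun ω =>
        congrArg Prod.fst (Pt.scal_smul c (ω, fun _ => ((1 : GL (Fin 2) ℂ) : H3))))

/-- The action on the finite points. -/
lemma finHom_apply [Finite S] (γ : PG F) (ω : FinPt F S) (v : Place F) :
    (finHom F S γ ω).1 v = γ • ω.1 v := by
  obtain ⟨g, rfl⟩ := QuotientGroup.mk_surjective γ
  rfl

/-- The action on points by components. -/
lemma smul_pt_eq [Finite S] (γ : PG F) (p : Pt F S) :
    γ • p = (finHom F S γ p.1, infHom F γ p.2) := by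
  obtain ⟨g, rfl⟩ := QuotientGroup.mk_surjective γ
  rfl

/-- The vertex below a coset. -/
noncomputable def Vert.proj {v : Place F} : Vert S v → GL (Fin 2) F ⧸ U0 (v.valuation F) :=
  Quotient.map' id fun a b h => by
    rw [QuotientGroup.leftRel_apply] at h ⊢
    exact lev_le_U0 S v h

/-- The vertex of the class of a matrix. -/
@[simp] lemma Vert.proj_mk {v : Place F} (g : GL (Fin 2) F) :
    Vert.proj (g : Vert S v) = (g : GL (Fin 2) F ⧸ U0 (v.valuation F)) := rfl

/-- The projection is equivariant. -/
lemma Vert.proj_smul {v : Place F} (g : GL (Fin 2) F) (a : Vert S v) :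
    Vert.proj (g • a) = g • Vert.proj a := by
  obtain ⟨h, rfl⟩ := QuotientGroup.mk_surjective a
  rfl

/-! ### orders -/

/-- A maximal order at `v` for `D`. -/
structure LocOrder (D : F) (v : Place F) where
  /-- The maximal monogenic order at `v`. -/
  Q : QA (v.valuation F)
  /-- The scale between `√D` and the generator of the order. -/
  c : F
  /-- The scale is not zero. -/
  hc : c ≠ 0
  /-- The order is unramified or Eisenstein. -/
  normal : Q.Normal
  /-- The discriminant of the order is `D c²`. -/
  disc : Q.disc = D * (c * c)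
  /-- Where `D` and `2` are units the order is `𝒪[√D]` and the scale is `2`. -/
  std : v.valuation F D = 1 → v.valuation F 2 = 1 → Q.t = 0 ∧ Q.n = -D ∧ c = 2

/-- A local order exists. -/
lemma nonempty_locOrder {D : F} (hD : D ≠ 0) (v : Place F) : Nonempty (LocOrder D v) := by
  by_cases h : v.valuation F D = 1 ∧ v.valuation F 2 = 1
  · exact ⟨⟨stdQA h.1 h.2, 2, two_ne_zero, (stdQA_normal h.1 h.2).1, (stdQA_normal h.1 h.2).2,
      fun _ _ => ⟨rfl, rfl, rfl⟩⟩⟩
  · obtain ⟨ϖ, hϖ⟩ := v.valuation_exists_uniformizer F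
    obtain ⟨Q, c, hc, hn, hd⟩ := exists_normal_QA hϖ hD two_ne_zero
    exact ⟨⟨Q, c, hc, hn, hd, fun h1 h2 => absurd ⟨h1, h2⟩ h⟩⟩

/-- A non-square `D`, defining a quadratic extension. -/
structure QDat (F : Type*) [Field F] [NumberField F] where
  /-- The radicand of the quadratic extension. -/
  D : F
  /-- The radicand is not a square. -/
  hD : ¬ IsSquare D

namespace QDat

variable (q : QDat F)

/-- `D` is not zero. -/
lemma D_ne_zero : q.D ≠ 0 := fun h => q.hD (h ▸ ⟨0, (mul_zero 0).symm⟩)

/-- A chosen maximal order at `v` for `D`. -/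
noncomputable def ord' (v : Place F) : LocOrder q.D v := (nonempty_locOrder q.D_ne_zero v).some

/-- The change of basis to the order. -/
noncomputable def cj (v : Place F) : GL (Fin 2) F := (q.ord' v).Q.conjD (q.ord' v).hc two_ne_zero

/-- Conjugation into the order. -/
noncomputable def φ (v : Place F) : GL (Fin 2) F →* GL (Fin 2) F :=
  (MulAut.conj (q.cj v)).toMonoidHom

/-- The map into the order is a conjugation. -/
lemma φ_apply (v : Place F) (g : GL (Fin 2) F) : q.φ v g = q.cj v * g * (q.cj v)⁻¹ := rfl

/-- The torus maps into the torus of the order. -/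
lemma φ_mem {v : Place F} {g : GL (Fin 2) F} (hg : g ∈ tTor q.D) :
    q.φ v g ∈ (q.ord' v).Q.torus := by
  obtain ⟨a, b, e⟩ := hg
  exact QA.conj_mem_torus (q.ord' v).hc two_ne_zero (q.ord' v).disc e

/-- The map onto the torus of the order is surjective. -/
lemma exists_φ {v : Place F} {h : GL (Fin 2) F} (hh : h ∈ (q.ord' v).Q.torus) :
    ∃ g ∈ tTor q.D, q.φ v g = h := by
  obtain ⟨a, b, e⟩ := QA.exists_conj (q.ord' v).hc two_ne_zero (q.ord' v).disc hh
  exact ⟨(q.cj v)⁻¹ * h * q.cj v, ⟨a, b, e⟩, by rw [φ_apply]; group⟩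

/-- The units of the torus at `v`. -/
noncomputable def U (v : Place F) : Subgroup (GL (Fin 2) F) :=
  tTor q.D ⊓ (q.ord' v).Q.ugrp.comap (q.φ v)

/-- The local units of the torus. -/
lemma mem_U {v : Place F} {g : GL (Fin 2) F} :
    g ∈ q.U v ↔ g ∈ tTor q.D ∧ q.φ v g ∈ (q.ord' v).Q.ugrp := Iff.rfl

/-- Scalars are local units. -/
lemma scal_mem_U (v : Place F) (c : Fˣ) : scal c ∈ q.U v := by
  refine ⟨scal_mem_tTor _ _, ?_⟩
  change q.φ v (scal c) ∈ (q.ord' v).Q.ugrp
  rw [φ_apply, ← scal_comm, mul_inv_cancel_right]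
  exact scal_mem_withScalars _ c

/-- At every place the global torus covers the torus of the order modulo units, uniquely up to the
unit subgroup. -/
lemma reps (v : Place F) : (q.ord' v).Q.Reps (q.φ v) (tTor q.D) (q.U v) 1 1 where
  mem := one_mem _
  mapsTo _ h := q.φ_mem h
  cover x hx := by
    obtain ⟨g, hg, rfl⟩ := q.exists_φ hx
    exact ⟨0, one_pos, g, hg, by simp⟩
  unique i hi j hj h hh := by
    obtain rfl : i = 0 := by omega
    obtain rfl : j = 0 := by omega
    simp [mem_U, hh]

/-- The image in `PGL₂(F)` of the units `q.U v` of the torus at `v`. -/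
noncomputable def Ub (v : Place F) : Subgroup (PG F) := (q.U v).map (QuotientGroup.mk' (scalSub F))

/-- A matrix has its class among the unit classes exactly when it is a unit of the torus. -/
lemma mem_Ub_iff {v : Place F} (g : GL (Fin 2) F) : (g : PG F) ∈ q.Ub v ↔ g ∈ q.U v := by
  refine ⟨fun ⟨t, ht, e⟩ => ?_, fun h => ⟨g, h, rfl⟩⟩
  obtain ⟨c, hc⟩ := QuotientGroup.eq.1 (show (t : PG F) = g from e)
  rw [show g = t * (t⁻¹ * g) by group, ← hc]
  exact mul_mem ht (q.scal_mem_U v c)

/-- Degrees at `v`: the classes in `PGL₂(F)` modulo the units of the torus. -/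
abbrev Γ (v : Place F) : Type _ := PG F ⧸ q.Ub v

/-- The degree of the class `1`. -/
noncomputable def one (v : Place F) : q.Γ v := ((1 : PG F) : PG F ⧸ q.Ub v)

/-- The torus of `D` in `PGL₂(F)`. -/
noncomputable abbrev T : Subgroup (PG F) := pTor F q.D

/-- The torus of quadratic data is commutative. -/
lemma T_comm (s t : q.T) : s * t = t * s := by
  obtain ⟨_, ⟨a, ha, rfl⟩⟩ := s
  obtain ⟨_, ⟨b, hb, rfl⟩⟩ := t
  refine Subtype.ext ?_
  change QuotientGroup.mk' (scalSub F) a * QuotientGroup.mk' (scalSub F) b
    = QuotientGroup.mk' (scalSub F) b * QuotientGroup.mk' (scalSub F) a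
  rw [← map_mul, ← map_mul, tTor_comm ha hb]

/-- Unit classes modulo scalars. -/
noncomputable def toΓ (v : Place F) : GL (Fin 2) F ⧸ q.U v → q.Γ v :=
  Quotient.map' (fun g : GL (Fin 2) F => (g : PG F)) fun a b h => by
    rw [QuotientGroup.leftRel_apply] at h ⊢
    exact ⟨_, h, by rw [QuotientGroup.mk'_apply, QuotientGroup.mk_mul, QuotientGroup.mk_inv]⟩

/-- The projective class of a class modulo units. -/
@[simp] lemma toΓ_mk (v : Place F) (g : GL (Fin 2) F) :
    q.toΓ v (g : GL (Fin 2) F ⧸ q.U v) = ((g : PG F) : PG F ⧸ q.Ub v) := rfl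

/-- The projection is equivariant. -/
lemma toΓ_smul (v : Place F) (g : GL (Fin 2) F) (c : GL (Fin 2) F ⧸ q.U v) :
    q.toΓ v (g • c) = (g : PG F) • q.toΓ v c := by
  obtain ⟨h, rfl⟩ := QuotientGroup.mk_surjective c
  rfl

/-- The stabiliser of the degrees consists of the global units. -/
lemma mem_degStab_iff {g : GL (Fin 2) F} (hg : g ∈ tTor q.D) :
    (⟨(g : PG F), g, hg, rfl⟩ : q.T) ∈ degStab q.T q.one ↔ ∀ v, g ∈ q.U v := by
  simp only [degStab, Subgroup.mem_iInf, MulAction.mem_stabilizer_iff]
  refine forall_congr' fun v => ?_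
  change (((g : PG F) * 1 : PG F) : PG F ⧸ q.Ub v) = _ ↔ _
  rw [mul_one, one, QuotientGroup.eq, mul_one, Subgroup.inv_mem_iff, mem_Ub_iff]

/-- Almost everywhere both `D` and `2` are units. -/
lemma eventually_std : ∀ᶠ v : Place F in cofinite, v.valuation F q.D = 1 ∧ v.valuation F 2 = 1 := by
  have h : ∀ {x : F}, x ≠ 0 → ∀ᶠ v : Place F in cofinite, v.valuation F x = 1 := fun {x} hx => by
    filter_upwards [eventually_valuation_le_one x, eventually_valuation_le_one x⁻¹] with v h1 h2
    refine le_antisymm h1 ?_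
    rw [map_inv₀] at h2
    exact (inv_le_one₀ (zero_lt_iff.2 ((v.valuation F).ne_zero_iff.2 hx))).1 h2
  exact (h q.D_ne_zero).and (h two_ne_zero)

/-- Where `D` and `2` are units the change of basis to the order is trivial. -/
lemma cj_eq_one {v : Place F} (h : v.valuation F q.D = 1 ∧ v.valuation F 2 = 1) : q.cj v = 1 := by
  obtain ⟨ht, -, hc⟩ := (q.ord' v).std h.1 h.2
  refine Units.ext ?_
  change !![1, -(q.ord' v).Q.t / (q.ord' v).c; 0, 2 / (q.ord' v).c] = _
  rw [ht, hc]
  ext i j
  fin_cases i <;> fin_cases j <;> simp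

variable [Finite S]

/-- The point fixed by the units. -/
noncomputable def ω₀ : FinPt F S :=
  ⟨fun v => (((q.cj v)⁻¹ : GL (Fin 2) F) : Vert S v), by
    filter_upwards [q.eventually_std] with v hv
    rw [q.cj_eq_one hv, inv_one]⟩

/-- Only finitely many finite points are carried into `U0` at all places by the changes of basis. -/
lemma finite_unit_orbit :
    {ω : FinPt F S | ∀ v, q.cj v * (ω.1 v).out ∈ U0 (v.valuation F)}.Finite := by
  have hout : ∀ v ∉ S, ∀ y : Vert S v, q.cj v * y.out ∈ U0 (v.valuation F) →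
      y = (((q.cj v)⁻¹ : GL (Fin 2) F) : Vert S v) := fun v hv y hy => by
    refine ((QuotientGroup.eq.2 ?_).trans (QuotientGroup.out_eq' y)).symm
    exact (lev_of_not_mem hv).ge (by rw [inv_inv]; exact hy)
  refine Set.Finite.of_finite_image (f := fun ω (v : S) => ω.1 v.1)
    ((Set.Finite.pi fun v : S => (Set.finite_range (fcl (v := v.1) S (q.cj v.1)⁻¹))).subset ?_) ?_
  · rintro _ ⟨ω, hω, rfl⟩ v -
    obtain ⟨M, hM⟩ := exists_fcl_eq v.2 (q.cj v.1)⁻¹ (y := ω.1 v.1) (by rw [inv_inv]; exact hω v.1)
    exact ⟨M, hM⟩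
  · intro a ha b hb hab
    refine Subtype.ext (funext fun v => ?_)
    by_cases hv : v ∈ S
    · exact congrFun hab ⟨v, hv⟩
    · rw [hout v hv _ (ha v), hout v hv _ (hb v)]

/-- The torus on the archimedean factor. -/
@[reducible] noncomputable def infAct : MulAction q.T (InfinitePlace F → H3) :=
  MulAction.compHom (InfinitePlace F → H3) ((infHom F).comp q.T.subtype)

/-- The projective group preserves the product measure on the archimedean factor. -/
lemma measurePreserving_inf (γ : PG F) :
    MeasurePreserving (fun (y : InfinitePlace F → H3) (w : InfinitePlace F) => infHom F γ y w)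
    (Measure.pi fun _ : InfinitePlace F => hmeas)
    (Measure.pi fun _ : InfinitePlace F => hmeas) := by
  obtain ⟨g, rfl⟩ := QuotientGroup.mk_surjective γ
  have h : MeasurePreserving (fun (x : InfinitePlace F → H3) => fun w => atInf w g • x w)
      (Measure.pi fun _ => hmeas) (Measure.pi fun _ => hmeas) :=
    measurePreserving_pi _ _ fun w => measurePreserving_smul_H3 (atInf w g)
  exact h

/-- **A domain of the global units.** The units of the torus at all places have a measurable
fundamental domain on the product of the upper half-spaces. -/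
theorem exists_unitDomain :
    ∃ DY : Set (InfinitePlace F → H3), MeasurableSet DY ∧ letI := q.infAct
    IsFundamentalDomain (degStab q.T q.one) DY (Measure.pi fun _ : InfinitePlace F => hmeas) := by
  let := q.infAct
  have hmp : ∀ t : degStab q.T q.one, MeasurePreserving (fun y : InfinitePlace F → H3 => t • y)
      (Measure.pi fun _ => hmeas) (Measure.pi fun _ => hmeas) := fun t => measurePreserving_inf _
  have : MeasurableConstSMul (degStab q.T q.one) (InfinitePlace F → H3) :=
    ⟨fun t => (hmp t).measurable⟩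
  have : SMulInvariantMeasure (degStab q.T q.one) (InfinitePlace F → H3)
      (Measure.pi fun _ => hmeas) :=
    ⟨fun t _ hs => (hmp t).measure_preimage hs.nullMeasurableSet⟩
  -- a measurable injection into `ℝ`
  obtain ⟨fr, hfr, hfi⟩ : ∃ f : (InfinitePlace F → H3) → ℝ, Measurable f ∧
      Function.Injective f := by
    let e : (InfinitePlace F → H3) → (InfinitePlace F → ℂ × ℝ) := fun y w => H3.coord (y w)
    have he : Measurable e :=
      measurable_pi_lambda _ fun w => continuous_coord.measurable.comp (measurable_pi_apply w)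
    have hr := measurableEmbedding_embeddingReal (InfinitePlace F → ℂ × ℝ)
    exact ⟨_, hr.measurable.comp he, hr.injective.comp fun p r h => funext fun w =>
      coord_injective (congrFun h w)⟩
  have hcd : Measurable fun x : H3 => coshd ((1 : GL (Fin 2) ℂ) : H3) x :=
    (continuous_coshd.comp (continuous_const.prodMk continuous_id)).measurable
  -- exhaust by balls: finitely many units meet each ball, nontrivial ones fix a null set
  refine exists_fundamentalDomain _ fr hfr hfi
    (fun n => {x | ∀ w, coshd ((1 : GL (Fin 2) ℂ) : H3) (x w) ≤ n}) (fun n => ?_)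
      (fun x => ?_) (fun n => ?_)
    fun t ht => ?_
  · rw [ofPred_forall]
    exact MeasurableSet.iInter fun w => (measurableSet_le hcd measurable_const).preimage
      (measurable_pi_apply w)
  · obtain ⟨N, hN⟩ := exists_nat_ge (∑ w, coshd ((1 : GL (Fin 2) ℂ) : H3) (x w))
    exact ⟨N, fun w =>
      le_trans (Finset.single_le_sum (f := fun u => coshd ((1 : GL (Fin 2) ℂ) : H3) (x u))
      (fun u _ => zero_le_one.trans (one_le_coshd _ _)) (Finset.mem_univ w)) hN⟩
  · refine Set.Finite.of_finite_image (f := fun t : degStab q.T q.one => ((t : q.T) : PG F)) ?_ ?_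
    · refine (((q.finite_unit_orbit (S := (∅ : Set (Place F)))).biUnion fun ω' _ =>
        finite_moving (q.ω₀ : FinPt F (∅ : Set (Place F))) ω' (n : ℝ))).subset ?_
      rintro γ ⟨⟨⟨_, g, hg, rfl⟩, hz⟩, ⟨x, hx, hx'⟩, rfl⟩
      have hU := (q.mem_degStab_iff hg).1 hz
      refine Set.mem_biUnion (x := g • q.ω₀) (fun v => ?_) ⟨g, rfl, rfl, fun w =>
        ⟨x w, hx w, hx' w⟩⟩
      show q.cj v * ((g • (q.ω₀ : FinPt F ∅)).1 v).out ∈ _
      obtain ⟨k, hk⟩ := QuotientGroup.mk_out_eq_mul (lev (∅ : Set (Place F)) v) (g * (q.cj v)⁻¹)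
      rw [show (g • (q.ω₀ : FinPt F ∅)).1 v =
        ((g * (q.cj v)⁻¹ : GL (Fin 2) F) : Vert ∅ v) from rfl, hk, ← mul_assoc, ← mul_assoc]
      exact mul_mem ((q.ord' v).Q.ugrp_le_U0 (hU v).2) (lev_le_U0 _ _ k.2)
    · exact (Subtype.val_injective.comp Subtype.val_injective).injOn
  · obtain ⟨⟨_, g, hg, rfl⟩, hz⟩ := t
    obtain ⟨w⟩ : Nonempty (InfinitePlace F) := inferInstance
    have hns : ∀ c : ℂˣ, atInf w g ≠ scal c := fun c =>
      atInf_ne_scal (fun hc => ht (Subtype.ext (Subtype.ext hc))) w c
    exact measure_mono_null (fun x hx => congrFun hx w)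
      (Measure.pi_eval_preimage_null (fun _ : InfinitePlace F => hmeas) (hmeas_fixed_null _ hns))

end QDat

end Fermat.LT
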