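import Fermat.Agent.LT.EllIndex

/-!
# The unfolded elliptic integrals

`ell_unfold` unfolds the elliptic part of the kernel on `K` and `tw_unfold` its twisted analogue,
for the comparison of traces.
-/

set_option autoImplicit false
open IsDedekindDomain NumberField MeasureTheory
open scoped Classical

namespace Fermat.LT

section Plain

variable {F : Type*} [Field F] [NumberField F]

omit [NumberField F] in
/-- The identity preserves any level. -/
lemma stable_refl (S : Set (Place F)) : Stable (RingEquiv.refl F) S := fun v => by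
  rw [show mapPlace (RingEquiv.refl F) v = v from
    HeightOneSpectrum.ext (Ideal.ext fun a => mapPlace_asIdeal (RingEquiv.refl F) v a)]

variable [IsTotallyComplex F] {S : Set (Place F)} [Finite S] (P : PKer F S)

omit [IsTotallyComplex F] in
/-- The untwisted value. -/
lemma twVal_refl (γ : TwPG (RingEquiv.refl F)) (p : Pt F S) :
    twVal P (stable_refl S) γ p = P.val p (γ.cls • p) := by
  rw [twVal, Pt.amap_refl]

/-- **The elliptic integral on the small field.** -/
theorem ell_unfold {D : Set (Pt F S)} (hD : IsFundamentalDomain (PG F) D ptMeasure) :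
    IntegrableOn (fun p => P.kapOn PG.IsEll p p) D ptMeasure ∧
      (∀ ξ : EllIdx F,
        IntegrableOn (twVal P (stable_refl S) ξ.base) (cosetDomain ξ.grp D) ptMeasure) ∧
      ∫ p in D, P.kapOn PG.IsEll p p ∂ptMeasure
        = 2⁻¹ * ∑' ξ : EllIdx F, ∫ p in cosetDomain ξ.grp D,
          twVal P (stable_refl S) ξ.base p ∂ptMeasure := by
  have e : (fun p => P.kapOn PG.IsEll p p)
      = fun p => ∑' γ, if EllP γ then twVal P (stable_refl S) γ p else 0 := by
    funext p
    simp only [twVal_refl]
    rfl
  have hup : ∀ γ : TwPG (RingEquiv.refl F), IsUpper γ.cls → ¬ EllP γ :=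
    fun γ h => PG.not_isEll_of_upper h
  refine ⟨e ▸ integrableOn_twVal_sum P (stable_refl S) hup ellP_smul hD, ?_⟩
  rw [show (fun p => P.kapOn PG.IsEll p p) = _ from e]
  exact integral_two_to_one ellP_pairPt (fun γ hγ => ncard_pairs hγ) hD
    (fun g γ p => twVal_smul P (stable_refl S) g γ p)
    (fun γ => (measurable_twVal P (stable_refl S) γ).aestronglyMeasurable)
    (lintegral_twVal_lt_top P (stable_refl S) hup ellP_smul hD)

end Plain

section Twisted

variable {K L : Type} [Field K] [NumberField K] [Field L] [NumberField L] [Algebra K L]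
  [IsTotallyComplex L] {σ : L ≃ₐ[K] L} {S : Set (Place L)} [Finite S] (P : PKer L S)
  (hS : Stable (σ : L ≃+* L) S)

/-- **The twisted elliptic integral.** The twisted elliptic part of the kernel is integrable over
`D` and integrates to half the sum over twisted indices of the integrals over their coset
domains. -/
theorem tw_unfold (hc : Cyc3 K L σ) {D : Set (Pt L S)}
    (hD : IsFundamentalDomain (PG L) D ptMeasure) :
    IntegrableOn (fun p => P.kapOn (PG.IsTwEll (σ : L ≃+* L)) p (Pt.amap hS p)) D ptMeasure ∧
      (∀ ξ : TwIdx σ, IntegrableOn (twVal P hS ξ.base) (cosetDomain ξ.grp D) ptMeasure) ∧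
      ∫ p in D, P.kapOn (PG.IsTwEll (σ : L ≃+* L)) p (Pt.amap hS p) ∂ptMeasure
        = 2⁻¹ * ∑' ξ : TwIdx σ, ∫ p in cosetDomain ξ.grp D, twVal P hS ξ.base p ∂ptMeasure := by
  have e : (fun p => P.kapOn (PG.IsTwEll (σ : L ≃+* L)) p (Pt.amap hS p))
      = fun p => ∑' γ, if TwP σ γ then twVal P hS γ p else 0 := by
    funext p
    rfl
  have hup : ∀ γ : TwPG (σ : L ≃+* L), IsUpper γ.cls → ¬ TwP σ γ := fun γ h => not_twP_of_upper h
  refine ⟨e ▸ integrableOn_twVal_sum P hS hup (twP_smul hc) hD, ?_⟩
  rw [show (fun p => P.kapOn (PG.IsTwEll (σ : L ≃+* L)) p (Pt.amap hS p)) = _ from e]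
  exact integral_two_to_one (twP_pairPt hc) (fun γ hγ => ncard_twPairs hc hγ) hD
    (fun g γ p => twVal_smul P hS g γ p)
    (fun γ => (measurable_twVal P hS γ).aestronglyMeasurable)
    (lintegral_twVal_lt_top P hS hup (twP_smul hc) hD)

end Twisted

end Fermat.LT
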