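import Fermat.Agent.LT.EllPack
import Fermat.Agent.LT.EllSum
import Fermat.Agent.LT.ArchTorus
import Fermat.Agent.LT.NormDef

/-!
# The elliptic parts match

Torus by torus: equal local sums at every place, equal archimedean integrals, and on the small field
only norm classes contribute.
-/

set_option autoImplicit false
open NumberField MeasureTheory Filter Set
open scoped Classical Pointwise Matrix

namespace Fermat.LT

/-! ### almost every place -/

section Plain

variable {F : Type} [Field F] [NumberField F] {S : Set (Place F)} (q : QDat F)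

/-- A nonzero element is a unit at almost all places. -/
lemma eventually_valuation_eq_one {x : F} (hx : x ≠ 0) :
    ∀ᶠ v : Place F in cofinite, v.valuation F x = 1 := by
  filter_upwards [eventually_valuation_le_one x, eventually_valuation_le_one x⁻¹] with v h1 h2
  refine le_antisymm h1 ?_
  rw [map_inv₀] at h2
  exact (inv_le_one₀ (zero_lt_iff.2 ((v.valuation F).ne_zero_iff.2 hx))).1 h2

/-- A regular torus element satisfies the unit condition at almost all places. -/
lemma eventually_goodPt {q : QDat F} {g₀ : GL (Fin 2) F} (hg : TReg q.D g₀) :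
    ∀ᶠ v : Place F in cofinite, GoodPt q v g₀ := by
  obtain ⟨a, b, hb, e⟩ := hg
  have hn : a * a - q.D * b * b ≠ 0 := nm_ne_zero q.hD (Or.inr hb)
  filter_upwards [q.eventually_std, eventually_valuation_le_one a, eventually_valuation_eq_one hb,
    eventually_valuation_eq_one hn] with v hv ha hb1 hn1
  obtain ⟨ht, hnQ, -⟩ := (q.ord' v).std hv.1 hv.2
  have hφ : q.φ v g₀ = g₀ := by rw [QDat.φ_apply, q.cj_eq_one hv, one_mul, inv_one, mul_one]
  have hmat : ∀ x y : F, (q.ord' v).Q.mat x y = tmat q.D x y := fun x y => by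
    simp [QA.mat, tmat, ht, hnQ]
  have hnm : ∀ x y : F, (q.ord' v).Q.nm x y = x * x - q.D * y * y := fun x y => by
    simp [QA.nm, ht, hnQ]; ring
  rw [GoodPt, hφ]
  refine ⟨⟨1, a, b, ha, hb1.le, by rw [hnm]; exact hn1, ?_⟩, ?_⟩
  · rw [show (scal (1 : Fˣ) : GL (Fin 2) F) = 1 by simp [scal], one_mul, hmat, e]
  · rintro ⟨c, a', b', -, hb', hn', h⟩
    rw [hmat, Units.val_mul, e, scal_coe] at h
    have h' : Matrix.scalar (Fin 2) (c : F) * tmat q.D a b = tmat q.D (c * a) (c * b) := by
      ext i j
      fin_cases i <;> fin_cases j <;> simp [tmat]; ring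
    rw [h'] at h
    obtain ⟨rfl, rfl⟩ := tmat_inj h
    rw [hnm, show (c : F) * a * (c * a) - q.D * (c * b) * (c * b) = c * c *
      (a * a - q.D * b * b) by ring, map_mul, hn1, mul_one, map_mul] at hn'
    rw [map_mul, hb1, mul_one] at hb'
    have hlt : v.valuation F (c : F) < 1 := lt_of_le_of_lt hb' (by
      rw [← WithZero.exp_zero, WithZero.exp_lt_exp]; omega)
    exact (ne_of_lt (lt_of_le_of_lt (mul_le_of_le_one_left' hlt.le) hlt)) hn'

/-- The base is the only fixed coset of trivial degree. -/
lemma QDat.eq_base_of_fix {q : QDat F} {v : Place F} (hv : v ∉ S)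
    (hstd : v.valuation F q.D = 1 ∧ v.valuation F 2 = 1) {g₀ : GL (Fin 2) F} (hgood : GoodPt q v g₀)
    {a : Vert S v} (ha : q.degAt a = q.one v) (hfix : g₀ • a = a) :
    a = ((1 : GL (Fin 2) F) : Vert S v) := by
  have h := QA.eq_base (q.reps v) (fun g hg => q.φ_U hg) (unifAt_spec v) hgood.1 hgood.2
    ((q.degAt_eq_one_iff a).1 ha) (by rw [← q.toOrd_smul, hfix])
  rw [QDat.toOrd, q.cj_eq_one hstd, one_smul] at h
  refine (vertEquiv hv).injective ?_
  rw [vertEquiv_apply, vertEquiv_apply, h]
  rfl

/-- The level subgroup fixes the base coset. -/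
lemma smul_base_eq_of_mem {v : Place F} {g : GL (Fin 2) F} (hg : g ∈ lev S v) :
    g • ((1 : GL (Fin 2) F) : Vert S v) = ((1 : GL (Fin 2) F) : Vert S v) := by
  rw [MulAction.Quotient.smul_coe, QuotientGroup.eq, smul_eq_mul, mul_one, mul_one]
  exact (lev _ _).inv_mem hg

/-- A matrix lies in the level subgroup at almost all places. -/
lemma eventually_mem_lev [Finite S] (g : GL (Fin 2) F) :
    ∀ᶠ v : Place F in cofinite, g ∈ lev S v := by
  filter_upwards [(Set.toFinite S).compl_mem_cofinite, eventually_mem_intGL g] with v hv hg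
  rw [lev_of_not_mem hv]
  exact le_withScalars _ hg

end Plain

/-! ### torus by torus -/

variable {K L : Type} [Field K] [NumberField K] [Field L] [NumberField L] [Algebra K L]
  {σ : L ≃ₐ[K] L}

/-- A property of almost all places of `L` holds at all places over almost every place of `K`. -/
lemma eventually_over {P : Place L → Prop} (h : ∀ᶠ w in cofinite, P w) :
    ∀ᶠ v : Place K in cofinite, ∀ w : placesOver K L v, P w.1 := by
  rw [eventually_cofinite] at h ⊢
  refine (h.image (below K)).subset fun v hv => ?_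
  simp only [Set.mem_ofPred_eq, not_forall] at hv
  obtain ⟨⟨w, hw⟩, hP⟩ := hv
  exact ⟨w, hP, liesOver_iff_below.1 hw⟩

/-- Finitely many places of `L` lie over each place of `K`. -/
lemma tendsto_below (hc : Cyc3 K L σ) :
    Tendsto (below K : Place L → Place K) cofinite cofinite := by
  refine Tendsto.cofinite_of_finite_preimage_singleton fun v => ?_
  exact (hc.finite_placesOver v).subset fun w hw => liesOver_iff_below.2 hw

/-- Points grouped by the place below. -/
noncomputable def overEquiv (hc : Cyc3 K L σ) (S : Set (Place L)) :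
    FinPt L S ≃ RProd (fun v : Place K => (OverPt.base : OverPt K S v)) where
  toFun ω := ⟨fun v w => ω.1 w.1, by
    filter_upwards [eventually_over ω.2] with v hv
    exact funext hv⟩
  invFun x := ⟨fun w => x.1 (below K w) ⟨w, liesOver_below w⟩, by
    filter_upwards [(tendsto_below hc).eventually x.2] with w hw
    rw [hw]
    rfl⟩
  left_inv ω := rfl
  right_inv x := Subtype.ext (funext fun v => funext fun ⟨w, hw⟩ => by
    obtain rfl := liesOver_iff_below.1 hw
    rfl)

/-- Products grouped by the place below. -/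
lemma finprod_below (hc : Cyc3 K L σ) (a : Place L → ℂ) (hfin : (Function.mulSupport a).Finite) :
    ∏ᶠ w, a w = ∏ᶠ v : Place K, ∏ᶠ w : placesOver K L v, a w.1 := by
  set I : Set (Place K) := below K '' Function.mulSupport a
  have h1 : ∏ᶠ w, a w = ∏ᶠ w ∈ ⋃ v ∈ I, placesOver K L v, a w := by
    rw [← finprod_mem_univ]
    refine finprod_mem_inter_mulSupport_eq' a _ _ fun w hw => ?_
    simp only [Set.mem_univ, Set.mem_iUnion, true_iff]
    exact ⟨below K w, ⟨w, hw, rfl⟩, liesOver_below w⟩
  rw [h1, finprod_mem_biUnion (t := placesOver K L) (fun v _ v' _ hne =>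
    Set.disjoint_left.2 fun w h h' => hne (LiesOver.unique h h'))
    (hfin.image _) fun v _ => hc.finite_placesOver v]
  refine Eq.trans (finprod_mem_congr rfl fun v _ => (finprod_set_coe_eq_finprod_mem _).symm) ?_
  rw [← finprod_mem_univ (fun v : Place K => ∏ᶠ w : placesOver K L v, a w.1)]
  refine finprod_mem_inter_mulSupport_eq' _ _ _ fun v hv => iff_of_true ?_ (Set.mem_univ v)
  by_contra h
  refine hv (finprod_eq_one_of_forall_eq_one fun w => ?_)
  by_contra hw
  exact h ⟨w.1, hw, liesOver_iff_below.1 w.2⟩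

section Twisted

variable {v3 : Place K} (G : GeoData K L v3) (hS : Stable (σ : L ≃+* L) (placesOver K L v3))
  [Finite (levK L v3)] [Finite (placesOver K L v3)] (t : TestData K L v3)

omit [Finite (levK L v3)] [Finite (placesOver K L v3)] [NumberField K] in
/-- The factor over `v` is invariant under what commutes with `δ`. -/
lemma val_smul_invariant {δ : GL (Fin 2) L} {g : GL (Fin 2) K} (h : Commute δ (iGL K L g))
    {v : Place K} (x : OverPt K (placesOver K L v3) v)
    (P : ∀ w : Place L, LKer (placesOver K L v3) w) :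
    OverPt.val hS P δ ((g : PG K) • x) = OverPt.val hS P δ x := by
  refine finprod_congr fun w => ?_
  have e : ((g : PG K) • x : OverPt K (placesOver K L v3) v).prev hS w =
      iGL K L g • x.prev hS w := by
    rw [OverPt.prev, OverPt.smul_apply, Vert.amap_smul, mapGL_iGL]
    rfl
  rw [OverPt.smul_apply, e, ← mul_smul, h.eq, mul_smul, (P w.1).invariant]

variable [IsTotallyComplex L]

omit [Finite (levK L v3)] [IsTotallyComplex L] in
/-- The twisted term in the factors. -/
lemma twVal_split (hc : Cyc3 K L σ) (δ : GL (Fin 2) L) (p : Pt L (placesOver K L v3)) :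
    (kerL G t).val p ((δ : PG L) • Pt.amap hS p)
      = (∏ᶠ v, OverPt.val hS (kerL G t).loc δ ((overEquiv hc _ p.1).1 v))
        * ∏ w, t.k w (p.2 w)
          (atInf w δ • extH p.2 (w.embedding.comp ((σ : L ≃+* L) : L →+* L))) := by
  rw [PG.mk_smul]
  change _ * _ = _
  congr 1
  change ∏ᶠ w, (kerL G t).loc w (p.1.1 w) ((δ • FinPt.amap hS p.1).1 w) = _
  rw [finprod_below (K := K) hc _ ((kerL G t).mulSupport_finite p.1 (δ • FinPt.amap hS p.1))]
  rfl

end Twisted

section PerTorus

variable {v3 : Place K} (G : GeoData K L v3) [Finite (levK L v3)] [Finite (placesOver K L v3)]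
  (t : TestData K L v3) {q : QDat K} {g₀ : GL (Fin 2) K}

variable (σ) in
/-- The orbital sum of `g₀`: products of local sums, one for each class of admissible degrees. -/
private noncomputable abbrev orbitalSum (q : QDat K) (g₀ : GL (Fin 2) K) : ℂ :=
  ∑' _c : orbitReps q.T (admissible q.T q.one), ∏ᶠ v,
    ∑' a : {a : Vert (levK L v3) v // q.degAt a = q.one v}, (kerK G σ t).loc v a.1 (g₀ • a.1)

omit [Finite (placesOver K L v3)] in
/-- On the small field almost every place only sees the base coset. -/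
private lemma eventually_kerK_good (hgreg : TReg q.D g₀) : ∀ᶠ v in cofinite,
    q.degAt ((1 : GL (Fin 2) K) : Vert (levK L v3) v) = q.one v ∧
      ∀ a, q.degAt a = q.one v → (kerK G σ t).loc v a (g₀ • a)
        = if a = ((1 : GL (Fin 2) K) : Vert (levK L v3) v) then 1 else 0 := by
  filter_upwards [q.eventually_std, eventually_goodPt (q := q) hgreg, (kerK G σ t).ae_one,
    (Set.toFinite (levK L v3)).compl_mem_cofinite, eventually_mem_lev (S := levK L v3) g₀] with
      v hv hgood h1 hvS hlev
  refine ⟨q.degAt_one hv, fun a ha => ?_⟩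
  rw [h1, LKer.one_apply]
  by_cases h : a = ((1 : GL (Fin 2) K) : Vert (levK L v3) v)
  · rw [if_pos h, if_pos (by rw [h, smul_base_eq_of_mem hlev])]
  · rw [if_neg h, if_neg fun e => h (q.eq_base_of_fix hvS hv hgood ha e.symm)]

omit [Finite (placesOver K L v3)] in
/-- **One torus on the small field**: the orbital sum times the archimedean integral. -/
private lemma torus_integral_small [IsTotallyComplex K] {DK : Set (Pt K (levK L v3))}
    (hDK : IsFundamentalDomain (PG K) DK ptMeasure) (hgreg : TReg q.D g₀)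
    {DY : Set (InfinitePlace K → H3)} (hDm : MeasurableSet DY)
    (hDY : @IsFundamentalDomain (degStab q.T q.one) (InfinitePlace K → H3) _
      (@Subgroup.instMulAction q.T _ _ q.infAct (degStab q.T q.one)).toSMul _ DY
        (Measure.pi fun _ => hmeas))
    (hI : IntegrableOn (twVal (kerK G σ t) (stable_refl _) (TwPG.of _ (g₀ : PG K)))
      (cosetDomain (pTor K q.D) DK) ptMeasure) :
    ∫ p in cosetDomain (pTor K q.D) DK,
        twVal (kerK G σ t) (stable_refl _) (TwPG.of _ (g₀ : PG K)) p ∂ptMeasure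
      = orbitalSum σ G t q g₀ * ∫ y in DY, (kerK G σ t).inf y (fun w => atInf w g₀ • y w)
          ∂(Measure.pi fun _ : InfinitePlace K => hmeas) := by
  -- the torus commutes with `g₀`
  have hcomm : ∀ s : q.T, ∃ h : GL (Fin 2) K, ((h : PG K) = (s : PG K)) ∧ g₀ * h = h * g₀ :=
      fun s => by
    obtain ⟨h, hh, e⟩ := s.2
    exact ⟨h, e, tTor_comm hgreg.mem hh⟩
  -- so both local and infinite factors are invariant: unfold along the torus
  exact (torus_integral (S := levK L v3) q.T.subtype (q.degSys (S := levK L v3)) (Equiv.refl _)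
    (fun s ω v => finHom_apply _ ω v) (f := fun v a => (kerK G σ t).loc v a (g₀ • a))
    (g := fun y => (kerK G σ t).inf y fun w => atInf w g₀ • y w)
    (fun v s a => by
      obtain ⟨h, e, hg⟩ := hcomm s
      change (kerK G σ t).loc v ((s : PG K) • a) (g₀ • (s : PG K) • a) = _
      rw [← e, PG.mk_smul_vert, ← mul_smul, hg, mul_smul, ((kerK G σ t).loc v).invariant])
    (fun s y => by
      obtain ⟨h, e, hg⟩ := hcomm s
      change (kerK G σ t).inf (infHom K (s : PG K) y)
        (fun w => atInf w g₀ • infHom K (s : PG K) y w) = _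
      rw [← e]
      conv_rhs => rw [← (kerK G σ t).inf_smul h]
      congr 1
      funext w
      rw [infHom_mk, ← mul_smul, ← map_mul, hg, map_mul, mul_smul])
    (fun v => q.finite_ker hgreg _) (by convert eventually_kerK_good G t hgreg) hDm hDY
    (isFundamentalDomain_comp q.T.subtype q.T.subtype_injective
      (fun γ => ⟨fun hγ => ⟨⟨γ, hγ⟩, rfl⟩, fun ⟨s, e⟩ => e ▸ s.2⟩)
      (isFundamentalDomain_cosetDomain hDK (pTor K q.D)))
    (F0 := twVal (kerK G σ t) (stable_refl _) (TwPG.of _ (g₀ : PG K)))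
    (fun p => by rw [twVal_refl, TwPG.cls_of, PG.mk_smul]; rfl) hI).1

omit [Finite (placesOver K L v3)] in
/-- **A nonzero orbital sum gives a twisted norm**, granting the norm theorem. -/
private lemma isNormCls_of_orbitalSum_ne_zero (hNorm : NormStatement K L) (hc : Cyc3 K L σ)
    (hgreg : TReg q.D g₀) (hs : orbitalSum σ G t q g₀ ≠ 0) : IsNormCls σ q.D (g₀ : PG K) := by
  have hprod : ∏ᶠ v, ∑' a : {a : Vert (levK L v3) v // q.degAt a = q.one v},
      (kerK G σ t).loc v a.1 (g₀ • a.1) ≠ 0 :=
        fun h0 => hs (by simp only [orbitalSum, h0, tsum_zero])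
  obtain ⟨a₀, b₀, hb₀, hg00⟩ := id hgreg
  have hloc : ∀ v : Place K, (placesOver K L v).ncard = 1 → IsLocNorm K L σ v q.D a₀ b₀ :=
      fun v hone =>
    isLocNorm_of_sum q hc G t hone hgreg hg00 (finprod_sum_ne_zero
      (f := fun v a => (kerK G σ t).loc v a (g₀ • a))
      (b := fun v : Place K => ((1 : GL (Fin 2) K) : Vert (levK L v3) v))
      (by convert eventually_kerK_good G t hgreg) hprod v)
  obtain ⟨x, y, c, hc0, hxy⟩ :=
    hNorm σ hc.ne_one hc.galois hc.degree G.zeta3 G.totallyComplexK q.D a₀ b₀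
    q.hD (nm_ne_zero q.hD (Or.inr hb₀)) hloc
  have hDL' := notSquare_algebraMap hc q.hD
  have hxy0 : x ≠ 0 ∨ y ≠ 0 := by
    by_contra h
    push Not at h
    rw [twNorm, h.1, h.2] at hxy
    have h0 : tmat (algebraMap K L q.D) (0 : L) 0 = 0 := by
      ext i j; fin_cases i <;> fin_cases j <;> simp [tmat]
    rw [h0, zero_mul, zero_mul] at hxy
    have h10 := congrFun (congrFun hxy 1) 0
    simp [tmat, hc0, hb₀] at h10
  refine ⟨tEl (algebraMap K L q.D) x y (nm_ne_zero hDL' hxy0), tEl_mem _ _ _ _, ?_⟩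
  rw [PG.iMap_mk]
  refine (PG.eq_iff.2 ⟨Units.map (algebraMap K L).toMonoidHom (Units.mk0 c hc0), Units.ext ?_⟩).symm
  rw [twistN, Units.val_mul, Units.val_mul, mapGL_tmat (coe_tEl _ _ _ _),
    mapGL_tmat (mapGL_tmat (coe_tEl _ _ _ _)), coe_tEl]
  refine Eq.trans hxy ?_
  rw [Units.val_mul, scal_coe, iGL_tmat hg00]
  ext i j
  fin_cases i <;> fin_cases j <;> simp [tmat]; ring

variable {hS : Stable (σ : L ≃+* L) (placesOver K L v3)} (pack : ∀ v : Place K, Pack G σ hS q v)

omit [Finite (placesOver K L v3)] in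
/-- The local comparison data form a degree system over the places of the small field. -/
private lemma degSys_pack :
    DegSys (T := q.T) (fun v : Place K => (OverPt.base : OverPt K (placesOver K L v3) v)) q.one
      (fun v => (pack v).deg) := by
  refine ⟨q.T_comm, fun v s x => ?_, fun v s => ?_, fun v x => (pack v).mem x, ?_⟩
  · obtain ⟨γ, ⟨g, hg, rfl⟩⟩ := s
    exact (pack v).smul g hg x
  · obtain ⟨γ, ⟨g, hg, rfl⟩⟩ := s
    obtain ⟨x, hx⟩ := (pack v).exists_one
    exact ⟨(g : PG K) • x, by rw [(pack v).smul g hg, hx]; rfl⟩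
  · filter_upwards [q.eventually_std, (Set.toFinite (levK L v3)).compl_mem_cofinite] with v hv hvS
    exact (pack v).base hv.1 hv.2 hvS

/-- On the large field almost every place only sees the base point. -/
private lemma eventually_pack_good (hc : Cyc3 K L σ) (hgreg : TReg q.D g₀) {δ : GL (Fin 2) L}
    {c : Lˣ} (hN : twistN (σ : L ≃+* L) δ = scal c * iGL K L g₀) :
    ∀ᶠ v in cofinite, (pack v).deg OverPt.base = q.one v ∧ ∀ x, (pack v).deg x = q.one v →
      OverPt.val hS (kerL G t).loc δ x = if x = OverPt.base then 1 else 0 := by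
  filter_upwards [q.eventually_std, eventually_goodPt (q := q) hgreg,
    (Set.toFinite (levK L v3)).compl_mem_cofinite,
    eventually_over (eventually_mem_lev (S := placesOver K L v3) δ),
    eventually_over (kerL G t).ae_one] with v hv hgood hvS hlev h1
  refine ⟨(pack v).base hv.1 hv.2 hvS, fun x hx => ?_⟩
  change ∏ᶠ w : placesOver K L v, (kerL G t).loc w.1 (x w) (δ • x.prev hS w) = _
  by_cases h : ∀ w : placesOver K L v, x w = δ • x.prev hS w
  · rw [if_pos ((pack v).good hv.1 hv.2 hvS hgood hN hlev x hx h)]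
    exact finprod_eq_one_of_forall_eq_one fun w => by rw [h1 w, LKer.one_apply, if_pos (h w)]
  · have hxb : x ≠ OverPt.base := fun e => h fun w => by
      rw [e, OverPt.prev]
      change _ = δ • Vert.amap hS _ ((1 : GL (Fin 2) L) : Vert (placesOver K L v3) _)
      rw [Vert.amap_mk, map_one, smul_base_eq_of_mem (hlev w)]
      rfl
    obtain ⟨w, hw⟩ := not_forall.1 h
    rw [if_neg hxb]
    have : Finite (placesOver K L v) := (hc.finite_placesOver v).to_subtype
    exact finprod_eq_zero _ w (by rw [h1 w, LKer.one_apply, if_neg hw]) (Set.toFinite _)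

/-- The first coordinate is equivariant. -/
private lemma coord3_infHom [IsTotallyComplex L] (γ : PG K) (y : InfinitePlace L → H3) :
    (coord3 σ (infHom L (PG.iMap K L γ) y)).1 = infHom K γ (coord3 σ y).1 := by
  obtain ⟨g, rfl⟩ := QuotientGroup.mk_surjective γ
  funext u
  rw [PG.iMap_mk, infHom_mk]
  change extH (fun w => atInf w (iGL K L g) • y w) (emb3 σ u 0) = atInf u g • extH y (emb3 σ u 0)
  rw [extH_smul]
  congr 1
  refine Units.ext (Matrix.ext fun i j => ?_)
  change emb0 L u (algebraMap K L _) = u.embedding _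
  rw [← emb0_comp (L := L) u]
  rfl

/-- A domain of the degree stabiliser pulls back along the first coordinate. -/
private lemma isFundamentalDomain_coord_preimage [IsTotallyComplex K] [IsTotallyComplex L]
    (hc : Cyc3 K L σ) {DY : Set (InfinitePlace K → H3)} (hDm : MeasurableSet DY)
    (hDY : @IsFundamentalDomain (degStab q.T q.one) (InfinitePlace K → H3) _
      (@Subgroup.instMulAction q.T _ _ q.infAct (degStab q.T q.one)).toSMul _ DY
        (Measure.pi fun _ => hmeas)) :
    MeasurableSet ((fun y => (coord3 σ y).1) ⁻¹' DY) ∧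
      @IsFundamentalDomain (degStab q.T q.one) (InfinitePlace L → H3) _
        (@Subgroup.instMulAction q.T _ _ (compInf ((PG.iMap K L).comp q.T.subtype))
          (degStab q.T q.one)).toSMul _
        ((fun y => (coord3 σ y).1) ⁻¹' DY) (Measure.pi fun _ => hmeas) := by
  let : SMul (degStab q.T q.one) (InfinitePlace K → H3) :=
    (@Subgroup.instMulAction q.T _ _ q.infAct _).toSMul
  let : SMul (degStab q.T q.one) (InfinitePlace L → H3) :=
    (@Subgroup.instMulAction q.T _ _ (compInf ((PG.iMap K L).comp q.T.subtype)) _).toSMul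
  -- the coordinate projection is quasi-measure-preserving
  obtain ⟨ec, hec, hmp⟩ := exists_coord_equiv hc
  have hqmp : Measure.QuasiMeasurePreserving (fun y => (coord3 σ y).1)
      (Measure.pi fun _ : InfinitePlace L => hmeas)
          (Measure.pi fun _ : InfinitePlace K => hmeas) := by
    have h := (Measure.quasiMeasurePreserving_fst).comp hmp.quasiMeasurePreserving
    rwa [show (Prod.fst ∘ ⇑ec : (InfinitePlace L → H3) → InfinitePlace K → H3) = fun y =>
      (coord3 σ y).1 from
      funext fun y => by rw [Function.comp_apply, hec]] at h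
  refine ⟨hqmp.measurable hDm, (hqmp.measurable hDm).nullMeasurableSet, ?_, fun s s' hne => ?_⟩
  -- the translates cover
  · filter_upwards [hqmp.ae hDY.ae_covers] with y hy
    obtain ⟨s, hs⟩ := hy
    refine ⟨s, ?_⟩
    change (coord3 σ (infHom L (PG.iMap K L ((s : q.T) : PG K)) y)).1 ∈ DY
    rw [coord3_infHom]
    exact hs
  -- and overlap in null sets
  · have h := hqmp.preimage_null (hDY.aedisjoint hne)
    refine measure_mono_null ?_ h
    rintro y ⟨⟨a, ha, rfl⟩, ⟨a', ha', e'⟩⟩
    refine ⟨⟨_, ha, ?_⟩, ⟨_, ha', ?_⟩⟩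
    · exact (coord3_infHom ((s : q.T) : PG K) a).symm
    · refine (coord3_infHom ((s' : q.T) : PG K) a').symm.trans ?_
      exact congrArg (fun y => (coord3 σ y).1) e'

omit [Finite (levK L v3)] [Finite (placesOver K L v3)] in
/-- The archimedean product on the large field is invariant under what commutes with `δ`. -/
private lemma prod_arch_smul [IsTotallyComplex L] {δ : GL (Fin 2) L} {h : GL (Fin 2) K}
    (hcomm : Commute δ (iGL K L h)) (y : InfinitePlace L → H3) :
    ∏ w, t.k w (infHom L (PG.iMap K L (h : PG K)) y w)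
        (atInf w δ • extH (infHom L (PG.iMap K L (h : PG K)) y)
          (w.embedding.comp ((σ : L ≃+* L) : L →+* L)))
      = ∏ w, t.k w (y w) (atInf w δ • extH y (w.embedding.comp ((σ : L ≃+* L) : L →+* L))) := by
  refine Finset.prod_congr rfl fun w _ => ?_
  rw [PG.iMap_mk, infHom_mk,
    show infHom L (iGL K L h : PG L) y = fun u => atInf u (iGL K L h) • y u from rfl, extH_smul,
    show Matrix.GeneralLinearGroup.map (w.embedding.comp ((σ : L ≃+* L) : L →+* L)) (iGL K L h)
      = atInf w (iGL K L h) from by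
      conv_rhs => rw [← mapGL_iGL (σ := σ) h]
      exact Units.ext rfl,
    ← mul_smul, ← map_mul, hcomm.eq, map_mul, mul_smul, (t.k w).invariant]

/-- **One torus on the large field**: the same orbital sum and the same archimedean integral. -/
private lemma torus_integral_large [IsTotallyComplex K] [IsTotallyComplex L]
    (hS : Stable (σ : L ≃+* L) (placesOver K L v3)) (hc : Cyc3 K L σ)
    {DL : Set (Pt L (placesOver K L v3))} (hDL : IsFundamentalDomain (PG L) DL ptMeasure)
    (hgreg : TReg q.D g₀) {δ : GL (Fin 2) L} (hδ : δ ∈ tTor (algebraMap K L q.D)) {c : Lˣ}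
    (hN : twistN (σ : L ≃+* L) δ = scal c * iGL K L g₀)
    {DY : Set (InfinitePlace K → H3)} (hDm : MeasurableSet DY)
    (hDY : @IsFundamentalDomain (degStab q.T q.one) (InfinitePlace K → H3) _
      (@Subgroup.instMulAction q.T _ _ q.infAct (degStab q.T q.one)).toSMul _ DY
        (Measure.pi fun _ => hmeas))
    (hI : IntegrableOn (twVal (kerL G t) hS (TwPG.of _ (δ : PG L)))
      (cosetDomain ((pTor K q.D).map (PG.iMap K L)) DL) ptMeasure) :
    ∫ p in cosetDomain ((pTor K q.D).map (PG.iMap K L)) DL,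
        twVal (kerL G t) hS (TwPG.of _ (δ : PG L)) p ∂ptMeasure
      = orbitalSum σ G t q g₀ * ∫ y in DY, (kerK G σ t).inf y (fun w => atInf w g₀ • y w)
          ∂(Measure.pi fun _ : InfinitePlace K => hmeas) := by
  choose pack _ using fun v : Place K =>
    (nonempty_pack hS q hc G v).elim fun p => (⟨p, trivial⟩ : ∃ p : Pack G σ hS q v, True)
  let ι : q.T →* PG L := (PG.iMap K L).comp q.T.subtype
  have hι : Function.Injective ι := PG.iMap_injective.comp q.T.subtype_injective
  obtain ⟨hDm', hDY'⟩ := isFundamentalDomain_coord_preimage hc hDm hDY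
  have hcomm : ∀ s : q.T, ∃ h : GL (Fin 2) K, ((h : PG K) = (s : PG K)) ∧ Commute δ (iGL K L h) :=
      fun s => by
    obtain ⟨h, ⟨a, b, e'⟩, e⟩ := s.2
    exact ⟨h, e, tTor_comm hδ ⟨_, _, iGL_tmat e'⟩⟩
  -- unfold the torus integral on the large field place by place
  have hL := torus_integral (S := placesOver K L v3) ι (degSys_pack G pack) (overEquiv hc _)
    (fun s ω v => funext fun w => finHom_apply _ ω w.1) (f := fun v x =>
      OverPt.val hS (kerL G t).loc δ x)
    (g := fun y => ∏ w,
      t.k w (y w) (atInf w δ • extH y (w.embedding.comp ((σ : L ≃+* L) : L →+* L))))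
    (fun v s x => by
      obtain ⟨h, e, hh⟩ := hcomm s
      change OverPt.val hS (kerL G t).loc δ ((s : PG K) • x) = _
      rw [← e]
      exact val_smul_invariant hS hh x _)
    (fun s y => by
      obtain ⟨h, e, hh⟩ := hcomm s
      change ∏ w, t.k w (infHom L (PG.iMap K L (s : PG K)) y w)
        (atInf w δ • extH (infHom L (PG.iMap K L (s : PG K)) y) _) = _
      rw [← e]
      exact prod_arch_smul t hh y)
    (fun v => ((pack v).sum hgreg hδ hN t).1) (eventually_pack_good G t pack hc hgreg hN) hDm' hDY'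
    (isFundamentalDomain_comp ι hι (Z := (pTor K q.D).map (PG.iMap K L))
      (fun γ => Subgroup.mem_map.trans ⟨fun ⟨a, ha, e⟩ => ⟨⟨a, ha⟩, e⟩,
        fun ⟨s, e⟩ => ⟨(s : PG K), s.2, e⟩⟩)
      (isFundamentalDomain_cosetDomain hDL _))
    (F0 := twVal (kerL G t) hS (TwPG.of _ (δ : PG L))) (fun p => twVal_split G hS t hc δ p) hI
  simp only [fun v => ((pack v).sum hgreg hδ hN t).2] at hL
  rw [hL.1]
  -- match the archimedean factor unless the orbital sum vanishes
  by_cases hs : orbitalSum σ G t q g₀ = 0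
  · exact (mul_eq_zero_of_left hs _).trans (mul_eq_zero_of_left hs _).symm
  · congr 1
    exact arch_integral hc hN t.k DY (hL.2 hs)

end PerTorus

/-- **The elliptic parts agree**, granting the norm theorem. -/
theorem ellipticStatement (hNorm : NormStatement K L) : EllipticStatement K L := by
  intro v3 G σ hσ hfS hfT hS DK hDK DL hDL v0 hv0 w0 hw0 _ t₀ _ r
  change IntegrableOn _ DK ptMeasure ∧ IntegrableOn _ DL ptMeasure ∧ _
  generalize t₀.upd hv0 hw0 (oddP r) = t
  have hc : Cyc3 K L σ := ⟨G.galois, G.degree, hσ⟩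
  have : IsTotallyComplex K := G.totallyComplexK
  have : IsTotallyComplex L :=
    ⟨fun _ => InfinitePlace.IsComplex.of_comap (algebraMap K L) (IsTotallyComplex.isComplex _)⟩
  obtain ⟨hIK, hIKξ, eK⟩ := ell_unfold (kerK G σ t) hDK
  obtain ⟨hIL, hILξ, eL⟩ := tw_unfold (kerL G t) hS hc hDL
  refine ⟨hIK, hIL, ?_⟩
  rw [eK, eL]
  congr 1
  set JK : EllIdx K → ℂ := fun ξ =>
    ∫ p in cosetDomain ξ.grp DK, twVal (kerK G σ t) (stable_refl _) ξ.base p ∂ptMeasure
  set JL : TwIdx σ → ℂ := fun ξ =>
    ∫ p in cosetDomain ξ.grp DL, twVal (kerL G t) hS ξ.base p ∂ptMeasure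
  -- per torus
  have key : ∀ ξ : EllIdx K, (JK ξ ≠ 0 → IsNormCls σ ξ.1.1 ξ.1.2) ∧
      ∀ h : IsNormCls σ ξ.1.1 ξ.1.2, JK ξ = JL ⟨ξ, h⟩ := by
    intro ξ
    obtain ⟨g₀, hg0, hgreg⟩ := ξ.2.2
    let q : QDat K := ⟨ξ.1.1, ξ.2.1.1⟩
    obtain ⟨DY, hDm, hDY⟩ := q.exists_unitDomain
    have hbase : ξ.base = TwPG.of _ (g₀ : PG K) := by rw [hg0]; rfl
    have hKeq : JK ξ = orbitalSum σ G t q g₀ * ∫ y in DY,
        (kerK G σ t).inf y (fun w => atInf w g₀ • y w)
        ∂(Measure.pi fun _ : InfinitePlace K => hmeas) := by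
      have hI := hIKξ ξ
      simp only [JK, hbase] at hI ⊢
      exact torus_integral_small G t (q := q) hDK hgreg hDm hDY hI
    refine ⟨fun hne => ?_, fun hnorm => ?_⟩
    · rw [← hg0]
      exact isNormCls_of_orbitalSum_ne_zero G t hNorm hc (q := q) hgreg
        (left_ne_zero_of_mul (hKeq ▸ hne))
    · set ξ' : TwIdx σ := ⟨ξ, hnorm⟩
      obtain ⟨c, hN⟩ : ∃ c : Lˣ, twistN (σ : L ≃+* L) ξ'.elt = scal c * iGL K L g₀ :=
        PG.eq_iff.1 (show ((iGL K L g₀ : GL (Fin 2) L) : PG L) =
            (twistN (σ : L ≃+* L) ξ'.elt : GL (Fin 2) L) by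
          rw [ξ'.twistN_elt, ← PG.iMap_mk, hg0])
      exact hKeq.trans (torus_integral_large G t (q := q) hS hc hDL hgreg ξ'.elt_mem hN hDm hDY
        (hILξ ξ')).symm
  refine Eq.trans ?_ (tsum_congr fun ξ : TwIdx σ => (key ξ.1).2 ξ.2)
  refine (Function.Injective.tsum_eq (g := fun ξ : TwIdx σ => ξ.1) Subtype.val_injective fun ξ
    hξ => ?_).symm
  exact ⟨⟨ξ, (key ξ).1 hξ⟩, rfl⟩

end Fermat.LT
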