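import Fermat.Agent.LT.Parts
import Fermat.Agent.LT.NormDef
import Fermat.Agent.LT.LocPlace

/-!
# Elliptic classes and quadratic tori

Conjugacy into `tTor D`, the normaliser, twisted classes and injectivity of the twisted norm.
-/

set_option autoImplicit false
open scoped Matrix Classical

namespace Fermat.LT

section Plain

variable {F : Type*} [Field F]

/-- The determinant is the norm form. -/
lemma det_tmat (D a b : F) : (tmat D a b).det = a * a - D * b * b := by
  simp [tmat]

/-- The torus matrices multiply like `a + b √D`. -/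
lemma tmat_mul (D a b c d : F) :
    tmat D a b * tmat D c d = tmat D (a * c + D * b * d) (a * d + b * c) := by
  ext i j
  fin_cases i <;> fin_cases j <;> simp [tmat, Matrix.mul_apply] <;> ring

/-- The coordinates are unique. -/
lemma tmat_inj {D a b c d : F} (h : tmat D a b = tmat D c d) : a = c ∧ b = d :=
  ⟨congrFun (congrFun h 0) 0, congrFun (congrFun h 1) 0⟩

/-- The identity in coordinates. -/
lemma tmat_one (D : F) : tmat D 1 0 = 1 := by
  ext i j
  fin_cases i <;> fin_cases j <;> simp [tmat]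

/-- The norm of a nonzero vector is not zero. -/
lemma nm_ne_zero {D a b : F} (hD : ¬ IsSquare D) (h : a ≠ 0 ∨ b ≠ 0) : a * a - D * b * b ≠ 0 := by
  intro h0
  rcases eq_or_ne b 0 with rfl | hb
  · simp at h0
    exact (h.resolve_right (not_not.2 rfl)) h0
  · exact hD ⟨a / b, by field_simp; linear_combination -h0⟩

/-- The torus `F(√D)ˣ`. -/
noncomputable def tTor (D : F) : Subgroup (GL (Fin 2) F) where
  carrier := {g | ∃ a b, (g : Matrix (Fin 2) (Fin 2) F) = tmat D a b}
  one_mem' := ⟨1, 0, (tmat_one D).symm⟩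
  mul_mem' := by
    rintro g h ⟨a, b, hg⟩ ⟨c, d, hh⟩
    exact ⟨_, _, by rw [Units.val_mul, hg, hh, tmat_mul]⟩
  inv_mem' := by
    rintro g ⟨a, b, hg⟩
    have hn : a * a - D * b * b ≠ 0 := by
      rw [← det_tmat, ← hg]; exact (Matrix.GeneralLinearGroup.det g).ne_zero
    refine ⟨a / (a * a - D * b * b), -b / (a * a - D * b * b), ?_⟩
    have e : tmat D (a / (a * a - D * b * b)) (-b / (a * a - D * b * b)) *
        (g : Matrix (Fin 2) (Fin 2) F) = 1 := by
      rw [hg, tmat_mul, ← tmat_one D]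
      generalize hN : a * a - D * b * b = N at hn
      congr 1 <;> field_simp
      · linear_combination hN
      · ring
    rw [← Matrix.inv_eq_left_inv e, Matrix.coe_units_inv]

/-- The torus `F(√D)ˣ` is commutative. -/
lemma tTor_comm {D : F} {g h : GL (Fin 2) F} (hg : g ∈ tTor D) (hh : h ∈ tTor D) :
    g * h = h * g := by
  obtain ⟨a, b, e⟩ := hg
  obtain ⟨c, d, e'⟩ := hh
  refine Units.ext ?_
  rw [Units.val_mul, Units.val_mul, e, e', tmat_mul, tmat_mul]
  congr 1 <;> ring

/-- Scalars lie in every torus. -/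
lemma scal_mem_tTor (D : F) (c : Fˣ) : scal c ∈ tTor D := by
  refine ⟨c, 0, ?_⟩
  rw [scal_coe]
  ext i j
  fin_cases i <;> fin_cases j <;> simp [tmat]

/-- A scalar multiplies both torus coordinates. -/
lemma scal_mul_tmat (D a b : F) (c : Fˣ) {g : GL (Fin 2) F}
    (hg : (g : Matrix (Fin 2) (Fin 2) F) = tmat D a b) :
    ((scal c * g : GL (Fin 2) F) : Matrix (Fin 2) (Fin 2) F) = tmat D (c * a) (c * b) := by
  rw [Units.val_mul, hg, scal_coe]
  ext i j
  fin_cases i <;> fin_cases j <;> simp [tmat]; ring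

/-- The element with given coordinates. -/
noncomputable def tEl (D a b : F) (h : a * a - D * b * b ≠ 0) : GL (Fin 2) F :=
  Matrix.GeneralLinearGroup.mkOfDetNeZero (tmat D a b) (by rwa [det_tmat])

/-- The matrix of a torus element. -/
lemma coe_tEl (D a b : F) (h : a * a - D * b * b ≠ 0) :
    (tEl D a b h : Matrix (Fin 2) (Fin 2) F) = tmat D a b := rfl

/-- A torus element lies in the torus. -/
lemma tEl_mem (D a b : F) (h : a * a - D * b * b ≠ 0) : tEl D a b h ∈ tTor D := ⟨a, b, rfl⟩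

/-- A regular element of the torus. -/
def TReg (D : F) (g : GL (Fin 2) F) : Prop :=
  ∃ a b, b ≠ 0 ∧ (g : Matrix (Fin 2) (Fin 2) F) = tmat D a b

/-- A regular element lies in the torus. -/
lemma TReg.mem {D : F} {g : GL (Fin 2) F} (h : TReg D g) : g ∈ tTor D :=
  let ⟨a, b, _, e⟩ := h; ⟨a, b, e⟩

/-- The discriminant of a torus matrix is `4 D b²`. -/
lemma disc2_tmat (D a b : F) : disc2 (tmat D a b) = D * (2 * b * (2 * b)) := by
  simp [disc2, tmat, Matrix.trace_fin_two_of, Matrix.det_fin_two_of]; ring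

/-- The discriminant is invariant under conjugation. -/
lemma disc2_conj (h g : GL (Fin 2) F) :
    disc2 ((h * g * h⁻¹ : GL (Fin 2) F) : Matrix (Fin 2) (Fin 2) F) =
      disc2 (g : Matrix (Fin 2) (Fin 2) F) := by
  rw [disc2, disc2, Units.val_mul, Units.val_mul, Matrix.trace_units_conj, Matrix.det_units_conj]

/-- Scaling by `c` multiplies the discriminant by `c²`. -/
lemma disc2_scal (c : Fˣ) (g : GL (Fin 2) F) :
    disc2 ((scal c * g : GL (Fin 2) F) : Matrix (Fin 2) (Fin 2) F)
      = (c : F) * c * disc2 (g : Matrix (Fin 2) (Fin 2) F) := by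
  rw [disc2, disc2, Units.val_mul, scal_coe, Matrix.scalar_apply, ← Matrix.smul_eq_diagonal_mul,
    Matrix.trace_smul, Matrix.det_smul]
  simp [Fintype.card_fin]
  ring

/-- Square factors do not matter. -/
lemma isSquare_mul_sq_iff {x c : F} (hc : c ≠ 0) : IsSquare (c * c * x) ↔ IsSquare x :=
  ⟨fun ⟨r, hr⟩ => ⟨r / c, by field_simp; linear_combination hr⟩,
    fun ⟨r, hr⟩ => ⟨c * r, by rw [hr]; ring⟩⟩

/-- An element whose discriminant is `D` times a square, and not a square, is conjugate to a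
regular element of `tTor D`. -/
theorem exists_conj_tmat (h2 : (2 : F) ≠ 0) {g : GL (Fin 2) F}
    (hns : ¬ IsSquare (disc2 (g : Matrix (Fin 2) (Fin 2) F))) {D c : F} (hc : c ≠ 0)
    (hD : disc2 (g : Matrix (Fin 2) (Fin 2) F) = D * (c * c)) :
    ∃ h : GL (Fin 2) F, TReg D (h * g * h⁻¹) := by
  set G : Matrix (Fin 2) (Fin 2) F := (g : Matrix (Fin 2) (Fin 2) F) with hG
  set b := c / 2 with hb
  set a := G.trace / 2 with ha
  have hb0 : b ≠ 0 := div_ne_zero hc h2
  have h10 : G 1 0 ≠ 0 := fun h => hns ⟨G 0 0 - G 1 1, by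
    rw [disc2, Matrix.trace_fin_two, Matrix.det_fin_two, h]; ring⟩
  have hdisc : (G 0 0 + G 1 1) * (G 0 0 + G 1 1) - 4 * (G 0 0 * G 1 1 - G 0 1 * G 1 0) =
      D * (c * c) := by
    rw [← hD, disc2, Matrix.trace_fin_two, Matrix.det_fin_two]; ring
  let P : GL (Fin 2) F :=
    Matrix.GeneralLinearGroup.mkOfDetNeZero !![1, (G 0 0 - a) / b; 0, G 1 0 / b]
    (by simp [Matrix.det_fin_two_of, h10, hb0])
  have key : G * (P : Matrix (Fin 2) (Fin 2) F) = (P : Matrix (Fin 2) (Fin 2) F) * tmat D a b := by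
    change G * !![1, (G 0 0 - a) / b; 0, G 1 0 / b] =
      !![1, (G 0 0 - a) / b; 0, G 1 0 / b] * tmat D a b
    ext i j
    fin_cases i <;> fin_cases j <;>
      simp [tmat, Matrix.mul_apply, Fin.sum_univ_two, ha, hb, Matrix.trace_fin_two] <;>
        field_simp <;>
      ring_nf
    linear_combination hdisc
  refine ⟨P⁻¹, a, b, hb0, ?_⟩
  rw [inv_inv, Units.val_mul, Units.val_mul, Matrix.mul_assoc, ← hG, key, ← Matrix.mul_assoc,
    ← Units.val_mul, inv_mul_cancel, Units.val_one, Matrix.one_mul]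

/-- `diag(1, -1)`. -/
noncomputable def wInv : GL (Fin 2) F :=
  Matrix.GeneralLinearGroup.mkOfDetNeZero !![1, 0; 0, -1] (by simp [Matrix.det_fin_two_of])

/-- `diag(1, -1)` is an involution. -/
lemma wInv_mul_self : (wInv : GL (Fin 2) F) * wInv = 1 := by
  refine Units.ext ?_
  change (!![1, 0; 0, -1] : Matrix (Fin 2) (Fin 2) F) * !![1, 0; 0, -1] = 1
  ext i j
  fin_cases i <;> fin_cases j <;> simp [Matrix.mul_apply]

/-- Conjugation by `diag(1, -1)` negates the second torus coordinate. -/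
lemma wInv_conj {D a b : F} {g : GL (Fin 2) F} (hg : (g : Matrix (Fin 2) (Fin 2) F) = tmat D a b) :
    ((wInv * g * wInv⁻¹ : GL (Fin 2) F) : Matrix (Fin 2) (Fin 2) F) = tmat D a (-b) := by
  rw [inv_eq_of_mul_eq_one_right (wInv_mul_self (F := F)), Units.val_mul, Units.val_mul, hg]
  change !![1, 0; 0, -1] * tmat D a b * !![1, 0; 0, -1] = _
  ext i j
  fin_cases i <;> fin_cases j <;> simp [tmat, Matrix.mul_apply]

/-- The involution normalises the torus. -/
lemma wInv_conj_mem {D : F} {g : GL (Fin 2) F} (hg : g ∈ tTor D) : wInv * g * wInv⁻¹ ∈ tTor D := by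
  obtain ⟨a, b, h⟩ := hg
  exact ⟨_, _, wInv_conj h⟩

/-- `diag(1, -1)` is outside the torus. -/
lemma wInv_notMem (h2 : (2 : F) ≠ 0) (D : F) : (wInv : GL (Fin 2) F) ∉ tTor D := by
  rintro ⟨a, b, h⟩
  have e0 := congrFun (congrFun h 0) 0
  have e1 := congrFun (congrFun h 1) 1
  simp [tmat, wInv] at e0 e1
  exact h2 (by linear_combination e0 - e1)

/-- **Normaliser of a regular element.** An element conjugating a regular element of the torus into
the torus lies in the torus or in its translate by `wInv`. -/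
theorem normalizer_cases (h2 : (2 : F) ≠ 0) {D : F} (hD : D ≠ 0) {x h : GL (Fin 2) F}
    (hx : TReg D x) (hh : h * x * h⁻¹ ∈ tTor D) : h ∈ tTor D ∨ wInv * h ∈ tTor D := by
  obtain ⟨a, b, hb, e⟩ := hx
  obtain ⟨a', b', e'⟩ := hh
  have hmul : (h : Matrix (Fin 2) (Fin 2) F) * tmat D a b =
      tmat D a' b' * (h : Matrix (Fin 2) (Fin 2) F) := by
    rw [← e, ← e', ← Units.val_mul, ← Units.val_mul, inv_mul_cancel_right]
  -- Trace and determinant force `a' = a` and `b' = ± b`.
  have htr : a' = a := by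
    have := congrArg Matrix.trace e'
    rw [Units.val_mul, Units.val_mul, Matrix.trace_units_conj, e] at this
    simp [tmat, Matrix.trace_fin_two_of] at this
    have h' : (2 : F) * (a' - a) = 0 := by linear_combination -this
    exact sub_eq_zero.1 ((mul_eq_zero.1 h').resolve_left h2)
  have hdet : D * b' * b' = D * b * b := by
    have := congrArg Matrix.det e'
    rw [Units.val_mul, Units.val_mul, Matrix.det_units_conj, e, det_tmat, det_tmat, htr] at this
    linear_combination this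
  subst htr
  set p := (h : Matrix (Fin 2) (Fin 2) F) 0 0 with hp
  set q := (h : Matrix (Fin 2) (Fin 2) F) 0 1 with hq
  set r := (h : Matrix (Fin 2) (Fin 2) F) 1 0 with hr
  set s := (h : Matrix (Fin 2) (Fin 2) F) 1 1 with hs
  have e10 := congrFun (congrFun hmul 1) 0
  have e00 := congrFun (congrFun hmul 0) 0
  have e11 := congrFun (congrFun hmul 1) 1
  have e01 := congrFun (congrFun hmul 0) 1
  simp only [tmat, Matrix.mul_apply, Fin.sum_univ_two, ← hp, ← hq, ← hr, ← hs, Matrix.of_apply,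
    Matrix.cons_val', Matrix.cons_val_zero, Matrix.cons_val_one,
      Matrix.cons_val_fin_one] at e10 e00 e11 e01
  have hsign : b' = b ∨ b' = -b := by
    have h' : D * ((b' - b) * (b' + b)) = 0 := by linear_combination hdet
    rcases mul_eq_zero.1 ((mul_eq_zero.1 h').resolve_left hD) with h'' | h''
    · exact Or.inl (sub_eq_zero.1 h'')
    · exact Or.inr (eq_neg_of_add_eq_zero_left h'')
  -- For each sign the commutation puts `h` or `wInv * h` in the torus.
  rcases hsign with rfl | rfl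
  · refine Or.inl ⟨p, r, ?_⟩
    have hs' : s = p := mul_right_cancel₀ hb (by linear_combination e10)
    have hq' : q = D * r := mul_right_cancel₀ hb (by linear_combination e00)
    ext i j
    fin_cases i <;> fin_cases j <;> simp [tmat, ← hp, ← hq, ← hr, ← hs, hs', hq']
  · refine Or.inr ⟨p, -r, ?_⟩
    have hs' : s = -p := mul_right_cancel₀ hb (by linear_combination e10)
    have hq' : q = -(D * r) := mul_right_cancel₀ hb (by linear_combination e00)
    rw [Units.val_mul]
    change !![1, 0; 0, -1] * (h : Matrix (Fin 2) (Fin 2) F) = _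
    ext i j
    fin_cases i <;> fin_cases j <;>
      simp [tmat, Matrix.mul_apply, ← hp, ← hq, ← hr, ← hs, hs', hq']

/-- Conjugates stay in one square class. -/
lemma class_unique {D D' : F} {x y h : GL (Fin 2) F} (h2 : (2 : F) ≠ 0) (hx : TReg D x)
    (hy : TReg D' y) {c : Fˣ} (e : y = scal c * (h * x * h⁻¹)) :
    ∃ r : F, r ≠ 0 ∧ D' = D * (r * r) := by
  obtain ⟨a, b, hb, ex⟩ := hx
  obtain ⟨a', b', hb', ey⟩ := hy
  have h' := congrArg (fun g : GL (Fin 2) F => disc2 (g : Matrix (Fin 2) (Fin 2) F)) e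
  rw [disc2_scal, disc2_conj, ey, ex, disc2_tmat, disc2_tmat] at h'
  refine ⟨(c : F) * b / b', div_ne_zero (mul_ne_zero c.ne_zero hb) hb', ?_⟩
  field_simp
  have h4 : (4 : F) ≠ 0 := by rw [show (4 : F) = 2 * 2 by norm_num]; exact mul_ne_zero h2 h2
  refine mul_left_cancel₀ h4 ?_
  linear_combination h'

variable (F) in
/-- The image in `PGL₂`. -/
noncomputable abbrev pTor (D : F) : Subgroup (PG F) := (tTor D).map (QuotientGroup.mk' (scalSub F))

/-- A matrix has its class in the projective torus exactly when it lies in the torus. -/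
lemma mem_pTor_iff {D : F} (g : GL (Fin 2) F) : (g : PG F) ∈ pTor F D ↔ g ∈ tTor D := by
  refine ⟨fun ⟨t, ht, e⟩ => ?_, fun h => ⟨g, h, rfl⟩⟩
  obtain ⟨c, hc⟩ := QuotientGroup.eq.1 (show (t : PG F) = g from e)
  rw [show g = t * (t⁻¹ * g) by group, ← hc]
  exact (tTor D).mul_mem ht (scal_mem_tTor D c)

end Plain

section Twisted

variable {K L : Type} [Field K] [NumberField K] [Field L] [NumberField L] [Algebra K L]
  {σ : L ≃ₐ[K] L} (hc : Cyc3 K L σ)

/-- The inclusion on matrices. -/
noncomputable abbrev iGL (K L : Type) [Field K] [Field L] [Algebra K L] :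
    GL (Fin 2) K →* GL (Fin 2) L :=
  Matrix.GeneralLinearGroup.map (algebraMap K L)

omit [NumberField K] [NumberField L] in
/-- The entries of an extended matrix. -/
lemma coe_iGL (g : GL (Fin 2) K) :
    (iGL K L g : Matrix (Fin 2) (Fin 2) L) = (g : Matrix (Fin 2) (Fin 2) K).map (algebraMap K L) :=
      rfl

omit [NumberField K] [NumberField L] in
/-- The inclusion of matrices maps torus coordinates to their images. -/
lemma iGL_tmat {D a b : K} {g : GL (Fin 2) K} (hg : (g : Matrix (Fin 2) (Fin 2) K) = tmat D a b) :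
    (iGL K L g : Matrix (Fin 2) (Fin 2) L) = tmat (algebraMap K L D) (algebraMap K L a)
    (algebraMap K L b) := by
  rw [coe_iGL, hg]
  ext i j
  fin_cases i <;> fin_cases j <;> simp [tmat]

omit [NumberField K] [NumberField L] in
/-- The generator fixes extended matrices. -/
lemma mapGL_iGL (g : GL (Fin 2) K) : mapGL (σ : L ≃+* L) (iGL K L g) = iGL K L g :=
  Units.ext (Matrix.ext fun _ _ => σ.commutes _)

omit [NumberField K] [NumberField L] in
/-- An automorphism over `K` acts on torus coordinates entrywise. -/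
lemma mapGL_tmat {D : K} {a b : L} {g : GL (Fin 2) L}
    (hg : (g : Matrix (Fin 2) (Fin 2) L) = tmat (algebraMap K L D) a b) :
    (mapGL (σ : L ≃+* L) g : Matrix (Fin 2) (Fin 2) L) = tmat (algebraMap K L D) (σ a) (σ b) := by
  rw [coe_mapGL, hg]
  ext i j
  fin_cases i <;> fin_cases j <;> simp [tmat]

omit [NumberField K] [NumberField L] in
/-- The generator preserves the extended torus. -/
lemma mapGL_mem_tTor {D : K} {g : GL (Fin 2) L} (hg : g ∈ tTor (algebraMap K L D)) :
    mapGL (σ : L ≃+* L) g ∈ tTor (algebraMap K L D) := by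
  obtain ⟨a, b, h⟩ := hg
  exact ⟨_, _, mapGL_tmat h⟩

include hc

/-- The generator has order three on matrices. -/
lemma mapGL_three (g : GL (Fin 2) L) :
    mapGL (σ : L ≃+* L) (mapGL (σ : L ≃+* L) (mapGL (σ : L ≃+* L) g)) = g :=
  Units.ext (Matrix.ext fun _ _ => hc.apply_three _)

/-- Twisted conjugation conjugates the twisted norm. -/
lemma twistN_cobound (g δ : GL (Fin 2) L) :
    twistN (σ : L ≃+* L) (g * δ * (mapGL (σ : L ≃+* L) g)⁻¹) =
      g * twistN (σ : L ≃+* L) δ * g⁻¹ := by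
  simp only [twistN, map_mul, map_inv, mapGL_three hc]
  group

/-- The generator conjugates the twisted norm. -/
lemma mapGL_twistN (δ : GL (Fin 2) L) :
    mapGL (σ : L ≃+* L) (twistN (σ : L ≃+* L) δ) = δ⁻¹ * twistN (σ : L ≃+* L) δ * δ := by
  simp only [twistN, map_mul, mapGL_three hc]
  group

/-- A square of `L` in `K` is a square of `K`. -/
lemma isSquare_algebraMap_iff {x : K} : IsSquare (algebraMap K L x) ↔ IsSquare x := by
  refine ⟨fun ⟨y, hy⟩ => ?_, fun h => h.map _⟩
  have hy2 : σ y * σ y = y * y := by rw [← map_mul, ← hy, σ.commutes]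
  rcases mul_self_eq_mul_self_iff.1 hy2 with h | h
  · obtain ⟨k, rfl⟩ := hc.fix h
    exact ⟨k, (algebraMap K L).injective (by rw [hy, map_mul])⟩
  · have h' := hc.apply_three y
    rw [h, map_neg, map_neg, h, map_neg, h] at h'
    simp only [neg_neg] at h'
    have : y = 0 := by linear_combination (-(1 : L) / 2) * h'
    exact ⟨0, (algebraMap K L).injective (by rw [hy, this]; simp)⟩

/-- A non-square stays one in a cubic extension. -/
lemma notSquare_algebraMap {D : K} (hD : ¬ IsSquare D) : ¬ IsSquare (algebraMap K L D) :=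
  fun h => hD ((isSquare_algebraMap_iff hc).1 h)

omit hc [NumberField K] [NumberField L] in
/-- Scaling multiplies the twisted norm by a scalar. -/
lemma twistN_scal (c : Lˣ) (δ : GL (Fin 2) L) :
    ∃ d : Lˣ, twistN (σ : L ≃+* L) (scal c * δ) = scal d * twistN (σ : L ≃+* L) δ := by
  refine ⟨c * Units.map (σ : L ≃+* L).toRingHom.toMonoidHom c *
    Units.map (σ : L ≃+* L).toRingHom.toMonoidHom
      (Units.map (σ : L ≃+* L).toRingHom.toMonoidHom c), ?_⟩
  simp only [twistN, map_mul, mapGL_scal]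
  rw [scal_mul_mul_mul, scal_mul_mul_mul]
  rfl

/-- The twisted norm of a torus element is rational. -/
theorem exists_twistN {D : K} {x : GL (Fin 2) L} (hx : x ∈ tTor (algebraMap K L D)) :
    ∃ γ ∈ tTor D, twistN (σ : L ≃+* L) x = iGL K L γ := by
  set N := twistN (σ : L ≃+* L) x with hN
  have hNm : N ∈ tTor (algebraMap K L D) :=
    (tTor _).mul_mem ((tTor _).mul_mem hx (mapGL_mem_tTor hx)) (mapGL_mem_tTor (mapGL_mem_tTor hx))
  have hfix : mapGL (σ : L ≃+* L) N = N := by
    rw [hN, mapGL_twistN hc, ← hN, mul_assoc, tTor_comm hNm hx, inv_mul_cancel_left]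
  obtain ⟨a, b, e⟩ := hNm
  have e' := mapGL_tmat (σ := σ) e
  rw [hfix, e] at e'
  obtain ⟨ha, hb⟩ := tmat_inj e'
  obtain ⟨a₀, rfl⟩ := hc.fix ha.symm
  obtain ⟨b₀, rfl⟩ := hc.fix hb.symm
  have hn : a₀ * a₀ - D * b₀ * b₀ ≠ 0 := fun h => by
    apply (Matrix.GeneralLinearGroup.det N).ne_zero
    rw [Matrix.GeneralLinearGroup.val_det_apply, e, det_tmat, ← map_mul, ← map_mul,
      ← map_mul, ← map_sub, h, map_zero]
  exact ⟨tEl D a₀ b₀ hn, tEl_mem _ _ _ _, Units.ext (by rw [e, iGL_tmat (coe_tEl _ _ _ hn)])⟩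

/-- **Fixed up to scalars comes from `K`.** -/
theorem exists_of_mapGL_eq {D : K} (hD : ¬ IsSquare D) {t : GL (Fin 2) L}
    (ht : t ∈ tTor (algebraMap K L D)) {c : Lˣ} (h : mapGL (σ : L ≃+* L) t = scal c * t) :
    ∃ (d : Lˣ) (γ : GL (Fin 2) K), γ ∈ tTor D ∧ t = scal d * iGL K L γ := by
  obtain ⟨a, b, e⟩ := ht
  have e' := mapGL_tmat (σ := σ) e
  rw [h, scal_mul_tmat _ _ _ c e] at e'
  obtain ⟨ha, hb⟩ := tmat_inj e'
  rcases eq_or_ne b 0 with rfl | hb0
  · have ha0 : a ≠ 0 := fun h0 => (Matrix.GeneralLinearGroup.det t).ne_zero (by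
      rw [Matrix.GeneralLinearGroup.val_det_apply, e, det_tmat, h0]; ring)
    refine ⟨Units.mk0 a ha0, 1, one_mem _, Units.ext ?_⟩
    rw [map_one, mul_one, e, scal_coe]
    ext i j
    fin_cases i <;> fin_cases j <;> simp [tmat]
  · have hfix : σ (a / b) = a / b := by
      rw [map_div₀, ← ha, ← hb, mul_div_mul_left _ _ c.ne_zero]
    obtain ⟨r, hr⟩ := hc.fix hfix
    have hn : r * r - D * 1 * 1 ≠ 0 := nm_ne_zero hD (Or.inr one_ne_zero)
    refine ⟨Units.mk0 b hb0, tEl D r 1 hn, tEl_mem _ _ _ _, Units.ext ?_⟩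
    rw [e, scal_mul_tmat _ _ _ _ (iGL_tmat (coe_tEl D r 1 hn)), hr, map_one]
    congr 1 <;> simp; field_simp

/-- **The twisted norm is injective up to coboundaries and scalars.** -/
theorem cobound_of_twistN_eq {D : K} (hD : ¬ IsSquare D) {x y : GL (Fin 2) L}
    (hx : x ∈ tTor (algebraMap K L D)) (hy : y ∈ tTor (algebraMap K L D)) {c : Lˣ}
    (h : twistN (σ : L ≃+* L) x = scal c * twistN (σ : L ≃+* L) y) :
    ∃ (d : Lˣ) (t : GL (Fin 2) L), t ∈ tTor (algebraMap K L D) ∧
      x = scal d * (t * y * (mapGL (σ : L ≃+* L) t)⁻¹) := by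
  have hDL := notSquare_algebraMap hc hD
  set T := tTor (algebraMap K L D)
  set z := x * y⁻¹ with hzdef
  have hz : z ∈ T := T.mul_mem hx (T.inv_mem hy)
  -- the norm of `z` is the scalar `c`
  have hNmul : twistN (σ : L ≃+* L) x = twistN (σ : L ≃+* L) z * twistN (σ : L ≃+* L) y := by
    conv_lhs => rw [show x = z * y by rw [hzdef, inv_mul_cancel_right]]
    simp only [twistN, map_mul]
    have m1 := mapGL_mem_tTor (σ := σ) hz
    have m2 := mapGL_mem_tTor (σ := σ) m1
    have n1 := mapGL_mem_tTor (σ := σ) hy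
    set z1 := mapGL (σ : L ≃+* L) z
    set z2 := mapGL (σ : L ≃+* L) z1
    set y1 := mapGL (σ : L ≃+* L) y
    set y2 := mapGL (σ : L ≃+* L) y1
    calc z * y * (z1 * y1) * (z2 * y2) = z * (y * z1) * (y1 * z2) * y2 := by group
      _ = z * (z1 * y) * (z2 * y1) * y2 := by rw [tTor_comm hy m1, tTor_comm n1 m2]
      _ = z * z1 * (y * z2) * y1 * y2 := by group
      _ = z * z1 * (z2 * y) * y1 * y2 := by rw [tTor_comm hy m2]
      _ = _ := by group
  have hNz : twistN (σ : L ≃+* L) z = scal c := mul_right_cancel (hNmul.symm.trans h)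
  have hcfix : σ (c : L) = c := by
    obtain ⟨γ, -, hγ⟩ := exists_twistN hc hz
    have := congrArg (fun g : GL (Fin 2) L => (g : Matrix (Fin 2) (Fin 2) L) 0 0)
      (mapGL_iGL (σ := σ) γ)
    rw [← hγ, hNz] at this
    simpa [coe_mapGL] using this
  obtain ⟨za, zb, ez⟩ := id hz
  set n : L := za * za - algebraMap K L D * zb * zb with hn
  have hn0 : n ≠ 0 := by
    rw [hn, ← det_tmat, ← ez]; exact (Matrix.GeneralLinearGroup.det z).ne_zero
  have hnorm : n * σ n * σ (σ n) = (c : L) * c := by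
    have := congrArg (fun g : GL (Fin 2) L => ((g : Matrix (Fin 2) (Fin 2) L)).det) hNz
    simp only [twistN, Units.val_mul, Matrix.det_mul, ez, mapGL_tmat ez, mapGL_tmat (mapGL_tmat ez),
      scal_coe] at this
    rw [det_tmat, det_tmat, det_tmat] at this
    simp only [Matrix.scalar_apply, Matrix.det_diagonal, Fin.prod_univ_two] at this
    rw [← this, hn]
    simp only [map_sub, map_mul, σ.commutes]
  -- normalise the norm to one
  set e : L := n / (c : L) with he
  have he0 : e ≠ 0 := div_ne_zero hn0 c.ne_zero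
  set Z := scal (Units.mk0 e he0) * z with hZ
  have eZ := scal_mul_tmat _ _ _ (Units.mk0 e he0) ez
  rw [← hZ, Units.val_mk0] at eZ
  have hNe : e * σ e * σ (σ e) * (c : L) = 1 := by
    rw [he]; simp only [map_div₀, hcfix]
    field_simp
    linear_combination hnorm
  have hNZ : twistN (σ : L ≃+* L) Z = 1 := by
    refine Units.ext ?_
    have := congrArg (fun g : GL (Fin 2) L => (g : Matrix (Fin 2) (Fin 2) L)) hNz
    simp only [twistN, Units.val_mul, ez, mapGL_tmat ez, mapGL_tmat (mapGL_tmat ez), tmat_mul,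
      scal_coe] at this
    simp only [twistN, Units.val_mul, eZ, mapGL_tmat eZ, mapGL_tmat (mapGL_tmat eZ), tmat_mul,
      Units.val_one, map_mul]
    rw [show Matrix.scalar (Fin 2) (c : L) = tmat (algebraMap K L D) c 0 by
      ext i j; fin_cases i <;> fin_cases j <;> simp [tmat]] at this
    obtain ⟨t1, t2⟩ := tmat_inj this
    rw [← tmat_one (algebraMap K L D)]
    congr 1
    · linear_combination (e * σ e * σ (σ e)) * t1 + hNe
    · linear_combination (e * σ e * σ (σ e)) * t2
  -- resolvent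
  set A := e * za
  set B := e * zb
  set A' := A * σ A + algebraMap K L D * B * σ B
  set B' := A * σ B + B * σ A
  obtain ⟨r, hr⟩ : ∃ r : L, r + A * σ r + A' * σ (σ r) ≠ 0 ∨ B * σ r + B' * σ (σ r) ≠ 0 := by
    obtain ⟨θ, hθ⟩ : ∃ θ, σ θ ≠ θ := by
      by_contra! h; exact hc.ne_one (AlgEquiv.ext h)
    by_contra! hall
    have e1 := (hall 1).1
    have e2 := (hall θ).1
    have e3 := (hall (θ * θ)).1
    simp only [map_one, map_mul, mul_one] at e1 e2 e3
    have h0 : (θ - σ θ) * (θ - σ (σ θ)) = 0 := by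
      linear_combination e3 - (σ θ + σ (σ θ)) * e2 + σ θ * σ (σ θ) * e1
    rcases mul_eq_zero.1 h0 with h0 | h0
    · exact hθ (sub_eq_zero.1 h0).symm
    · refine hθ ?_
      conv_lhs => rw [sub_eq_zero.1 h0, hc.apply_three]
  set ta := r + A * σ r + A' * σ (σ r)
  set tb := B * σ r + B' * σ (σ r)
  have ht : ta * ta - algebraMap K L D * tb * tb ≠ 0 := nm_ne_zero hDL hr
  set t := tEl (algebraMap K L D) ta tb ht
  have hte : Z * mapGL (σ : L ≃+* L) t = t := by
    refine Units.ext ?_
    have := congrArg (fun g : GL (Fin 2) L => (g : Matrix (Fin 2) (Fin 2) L)) hNZ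
    simp only [twistN, Units.val_mul, eZ, mapGL_tmat eZ, mapGL_tmat (mapGL_tmat eZ), tmat_mul,
      Units.val_one] at this
    rw [← tmat_one (algebraMap K L D)] at this
    obtain ⟨t1, t2⟩ := tmat_inj this
    rw [Units.val_mul, eZ, mapGL_tmat (coe_tEl _ _ _ ht), tmat_mul, coe_tEl]
    simp only [ta, tb, A', B', map_add, map_mul, σ.commutes, hc.apply_three]
    congr 1
    · linear_combination r * t1
    · linear_combination r * t2
  have hZt : Z = t * (mapGL (σ : L ≃+* L) t)⁻¹ := eq_mul_inv_of_mul_eq hte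
  refine ⟨(Units.mk0 e he0)⁻¹, t, tEl_mem _ _ _ ht, ?_⟩
  have m1 : (mapGL (σ : L ≃+* L) t)⁻¹ ∈ T := T.inv_mem (mapGL_mem_tTor (tEl_mem _ _ _ ht))
  rw [mul_assoc t y, tTor_comm hy m1, ← mul_assoc t, ← hZt, hZ, ← mul_assoc,
    ← mul_assoc, ← scal_mul,
    inv_mul_cancel, show (scal (1 : Lˣ) : GL (Fin 2) L) = 1 by
      simp [scal], one_mul, hzdef, inv_mul_cancel_right]

/-- **Twisted classes meet the tori.** A `δ` whose twisted norm has non-square discriminant is
twisted conjugate into the torus of some non-square `D₀` of `K`, with regular norm. -/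
theorem exists_cobound_tmat {δ : GL (Fin 2) L}
    (hns : ¬ IsSquare (disc2 (twistN (σ : L ≃+* L) δ : Matrix (Fin 2) (Fin 2) L))) :
    ∃ D₀ : K, D₀ ≠ 0 ∧ ¬ IsSquare D₀ ∧ ∀ (D c : K), c ≠ 0 → D₀ = D * (c * c) →
      ∃ g, g * δ * (mapGL (σ : L ≃+* L) g)⁻¹ ∈ tTor (algebraMap K L D) ∧
        TReg (algebraMap K L D) (twistN (σ : L ≃+* L) (g * δ * (mapGL (σ : L ≃+* L) g)⁻¹)) := by
  set N := twistN (σ : L ≃+* L) δ with hN
  set d := disc2 (N : Matrix (Fin 2) (Fin 2) L)
  have hd : σ d = d := by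
    have e1 : disc2 ((mapGL (σ : L ≃+* L) N : GL (Fin 2) L) : Matrix (Fin 2) (Fin 2) L) = σ d := by
      rw [coe_mapGL]
      simp [d, disc2, Matrix.trace_fin_two, Matrix.det_fin_two, map_ofNat]
    rw [← e1, hN, mapGL_twistN hc]
    conv_lhs => rw [show δ⁻¹ * twistN (σ : L ≃+* L) δ * δ = δ⁻¹ * twistN (σ : L ≃+* L) δ *
      δ⁻¹⁻¹ by rw [inv_inv]]
    rw [disc2_conj]
  obtain ⟨D₀, hD₀⟩ := hc.fix hd
  refine ⟨D₀, fun h => hns ⟨0, by show d = _; rw [← hD₀, h, map_zero, mul_zero]⟩,
    fun h => hns (by show IsSquare d; rw [← hD₀]; exact h.map _), fun D c hc0 hDc => ?_⟩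
  obtain ⟨g, hg⟩ :=
    exists_conj_tmat (two_ne_zero) hns (c := algebraMap K L c) (D := algebraMap K L D)
    ((map_ne_zero _).2 hc0) (by change d = _; rw [← hD₀, hDc, map_mul, map_mul])
  set δ' := g * δ * (mapGL (σ : L ≃+* L) g)⁻¹ with hδ'
  have hY : twistN (σ : L ≃+* L) δ' = g * N * g⁻¹ := twistN_cobound hc g δ
  rw [← hY] at hg
  refine ⟨g, ?_, hg⟩
  -- `δ'` commutes with its norm, which is fixed
  obtain ⟨a, b, hb, e⟩ := id hg
  set Y := twistN (σ : L ≃+* L) δ' with hYdef
  have hfix : mapGL (σ : L ≃+* L) Y = δ'⁻¹ * Y * δ' := mapGL_twistN hc δ'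
  have hY' := mapGL_tmat (σ := σ) e
  -- trace and determinant are fixed
  have ha : σ a = a := by
    have := congrArg Matrix.trace hY'
    rw [hfix, Units.val_mul, Units.val_mul, Matrix.trace_units_conj', e] at this
    simp [tmat, Matrix.trace_fin_two_of] at this
    linear_combination (-(1 : L) / 2) * this
  have hb2 : σ b = b ∨ σ b = -b := by
    have := congrArg Matrix.det hY'
    rw [hfix, Units.val_mul, Units.val_mul, Matrix.det_units_conj', e, det_tmat,
      det_tmat, ha] at this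
    have h' : algebraMap K L D * ((σ b - b) * (σ b + b)) = 0 := by linear_combination this
    have hDL : algebraMap K L D ≠ 0 := fun h => hns (by
      show IsSquare d
      rw [← hD₀, hDc, map_mul, h, zero_mul]; exact ⟨0, (mul_zero 0).symm⟩)
    rcases mul_eq_zero.1 ((mul_eq_zero.1 h').resolve_left hDL) with h'' | h''
    · exact Or.inl (sub_eq_zero.1 h'')
    · exact Or.inr (eq_neg_of_add_eq_zero_left h'')
  have hbfix : σ b = b := by
    rcases hb2 with h | h
    · exact h
    · have h' := hc.apply_three b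
      rw [h, map_neg, map_neg, h, map_neg, h] at h'
      simp only [neg_neg] at h'
      exact absurd (by linear_combination (-(1 : L) / 2) * h') hb
  have hYfix : mapGL (σ : L ≃+* L) Y = Y := Units.ext (by rw [hY', ha, hbfix, e])
  rw [hfix] at hYfix
  have hcomm : δ' * Y * δ'⁻¹ = Y := by
    conv_lhs => rw [← hYfix]
    group
  rcases normalizer_cases two_ne_zero (fun h => hns (by
    show IsSquare d
    rw [← hD₀, hDc, map_mul, h, zero_mul]; exact ⟨0, (mul_zero 0).symm⟩)) hg
      (by rw [hcomm]; exact hg.mem) with h | h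
  · exact h
  · exfalso
    obtain ⟨p, q, hpq⟩ := h
    have hw : wInv * δ' * Y * (wInv * δ')⁻¹ = wInv * Y * wInv⁻¹ := by
      conv_rhs => rw [← hcomm]
      group
    have hc' : wInv * δ' * Y * (wInv * δ')⁻¹ = Y := by
      rw [tTor_comm (show wInv * δ' ∈ tTor _ from ⟨p, q, hpq⟩) hg.mem, mul_inv_cancel_right]
    rw [hc'] at hw
    have h' := congrArg (fun g : GL (Fin 2) L => (g : Matrix (Fin 2) (Fin 2) L)) hw
    rw [wInv_conj e, e] at h'
    exact hb (by linear_combination (1 / 2 : L) * (tmat_inj h').2)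

end Twisted

end Fermat.LT
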