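import Fermat.Agent.LT.NormDef
import Fermat.Agent.LT.LocPlace
import Fermat.Agent.LT.GlobTorus
import Fermat.Agent.CFT.Kummer.NormTheorem

/-!
# Local norms everywhere are norms up to scalars

For `z = a + b√D` the element `z / z̄` is a local norm everywhere in the cubic extension
`L(√D)/K(√D)`, hence a norm; so `z = z³ / z²` is a norm times a scalar.
-/

set_option autoImplicit false
open IsDedekindDomain NumberField
open scoped Pointwise

namespace Fermat.LT

/-- The quadratic algebra `F[√D]`. -/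
abbrev QM {F : Type} [Field F] (D : F) : Type := QuadraticAlgebra F D 0

/-- The quadratic algebra of a non-square is a field. -/
lemma fact_nonsquare {F : Type} [Field F] {D : F} (hD : ¬ IsSquare D) :
    Fact (∀ r : F, r ^ 2 ≠ D + 0 * r) :=
  ⟨fun r h => hD ⟨r, by rw [zero_mul, add_zero] at h; rw [← h, sq]⟩⟩

/-- The matrix `tmat` of an element of the algebra is multiplicative. -/
lemma tmat_mul_qm {F : Type} [Field F] {D : F} (x y : QM D) :
    tmat D (x * y).re (x * y).im = tmat D x.re x.im * tmat D y.re y.im := by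
  rw [tmat_mul]
  congr 1; simp

/-- Small differences. -/
lemma le_ord_combine {F : Type} [Field F] [NumberField F] (P : Fermat.CFT.Pl F) {d0 d1 ω : F}
    {n : ℤ} (hω : ω ≠ 0) (h0 : d0 = 0 ∨ n ≤ Fermat.CFT.ord P d0)
    (h1 : d1 = 0 ∨ n ≤ Fermat.CFT.ord P d1) :
    d0 + d1 * ω = 0 ∨ n - |Fermat.CFT.ord P ω| ≤ Fermat.CFT.ord P (d0 + d1 * ω) := by
  by_cases hs : d0 + d1 * ω = 0
  · exact Or.inl hs
  refine Or.inr (Fermat.CFT.ord_add_ge P hs ?_ ?_)
  · rcases h0 with h | h
    · exact Or.inl h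
    · exact Or.inr (by linarith [abs_nonneg (Fermat.CFT.ord P ω)])
  · by_cases hd : d1 = 0
    · exact Or.inl (by rw [hd, zero_mul])
    · refine Or.inr ?_
      rw [Fermat.CFT.ord_mul P hd hω]
      have h := h1.resolve_left hd
      linarith [neg_abs_le (Fermat.CFT.ord P ω)]

/-- Close elements have close conjugate quotients. -/
lemma closeOne_quot {F : Type} [Field F] [NumberField F] (P : Fermat.CFT.Pl F) {z z' u u' : F}
    {m N : ℤ} (hz : z ≠ 0) (hz' : z' ≠ 0) (hm : 0 ≤ m)
    (hN : m + |Fermat.CFT.ord P z| + |Fermat.CFT.ord P z'| < N)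
    (hu : u - z = 0 ∨ N ≤ Fermat.CFT.ord P (u - z))
    (hu' : u' - z' = 0 ∨ N ≤ Fermat.CFT.ord P (u' - z')) :
    Fermat.CFT.CloseOne P m (z / z' / (u / u')) := by
  have hb := abs_nonneg (Fermat.CFT.ord P z)
  have hb' := abs_nonneg (Fermat.CFT.ord P z')
  have hc := le_abs_self (Fermat.CFT.ord P z)
  have hc' := le_abs_self (Fermat.CFT.ord P z')
  have hd' := neg_abs_le (Fermat.CFT.ord P z')
  have key : ∀ {z u : F}, z ≠ 0 → Fermat.CFT.ord P z < N →
      (u - z = 0 ∨ N ≤ Fermat.CFT.ord P (u - z)) → u ≠ 0 ∧ Fermat.CFT.ord P u =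
          Fermat.CFT.ord P z := by
    intro z u hz hlt h
    have hne : u ≠ 0 := fun e => by
      rcases h with h | h
      · exact hz (by rw [e, zero_sub, neg_eq_zero] at h; exact h)
      · rw [e, zero_sub, Fermat.CFT.ord_neg] at h; omega
    refine ⟨hne, ?_⟩
    have e : u = z + (u - z) := by ring
    conv_lhs => rw [e]
    refine Fermat.CFT.ord_add_eq_of_lt P hz ?_
    rcases h with h | h
    exacts [Or.inl h, Or.inr (by omega)]
  -- orders are unchanged
  obtain ⟨hu0, hou⟩ := key hz (by omega) hu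
  obtain ⟨hu0', hou'⟩ := key hz' (by omega) hu'
  by_cases h1 : z / z' / (u / u') = 1
  · exact Or.inl h1
  refine Or.inr ?_
  have e : z / z' / (u / u') - 1 = (z * (u' - z') + -(z' * (u - z))) / (z' * u) := by
    field_simp; ring
  have hnum : z * (u' - z') + -(z' * (u - z)) ≠ 0 := fun h => h1 (by
    rw [← sub_eq_zero, e, h, zero_div])
  -- the difference from one has large order
  rw [e, Fermat.CFT.ord_div P hnum (mul_ne_zero hz' hu0), Fermat.CFT.ord_mul P hz' hu0, hou]
  have hlow : m + Fermat.CFT.ord P z + Fermat.CFT.ord P z'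
      ≤ Fermat.CFT.ord P (z * (u' - z') + -(z' * (u - z))) := by
    refine Fermat.CFT.ord_add_ge P hnum ?_ ?_
    · by_cases h : u' - z' = 0
      · exact Or.inl (by rw [h, mul_zero])
      · refine Or.inr ?_
        rw [Fermat.CFT.ord_mul P hz h]
        have := hu'.resolve_left h
        omega
    · by_cases h : u - z = 0
      · exact Or.inl (by rw [h, mul_zero, neg_zero])
      · refine Or.inr ?_
        rw [Fermat.CFT.ord_neg, Fermat.CFT.ord_mul P hz' h]
        have := hu.resolve_left h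
        omega
  omega

variable (K L : Type) [Field K] [NumberField K] [Field L] [NumberField L] [Algebra K L]

section Quad

variable {K L}

/-- The inclusion of `K[√D]` into `L[√D]`. -/
private def qmIncl (D : K) : QM D →+* QM (algebraMap K L D) where
  toFun z := ⟨algebraMap K L z.re, algebraMap K L z.im⟩
  map_one' := QuadraticAlgebra.ext (map_one (algebraMap K L)) (map_zero (algebraMap K L))
  map_mul' x y := by ext <;> simp
  map_zero' := by ext <;> simp
  map_add' x y := by ext <;> simp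

variable {σ : L ≃ₐ[K] L} {D : K} [Algebra (QM D) (QM (algebraMap K L D))]
  (hι : ∀ z : QM D, algebraMap (QM D) (QM (algebraMap K L D)) z =
    ⟨algebraMap K L z.re, algebraMap K L z.im⟩)

/-- The coordinatewise extension of `σ` to `L[√D]`. -/
private def qmAut (σ : L ≃ₐ[K] L)
    (hι : ∀ z : QM D, algebraMap (QM D) (QM (algebraMap K L D)) z =
      ⟨algebraMap K L z.re, algebraMap K L z.im⟩) :
    QM (algebraMap K L D) ≃ₐ[QM D] QM (algebraMap K L D) where
  toFun z := ⟨σ z.re, σ z.im⟩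
  invFun z := ⟨σ.symm z.re, σ.symm z.im⟩
  left_inv z := by ext <;> simp
  right_inv z := by ext <;> simp
  map_mul' x y := by ext <;> simp
  map_add' x y := by ext <;> simp
  commutes' z := by rw [hι]; ext <;> simp

variable {σE : QM (algebraMap K L D) ≃ₐ[QM D] QM (algebraMap K L D)}
  (hσE : ∀ z, σE z = ⟨σ z.re, σ z.im⟩)
  [Fact (∀ r : K, r ^ 2 ≠ D + 0 * r)] [Fact (∀ r : L, r ^ 2 ≠ algebraMap K L D + 0 * r)]
  [NumberField (QM D)] [NumberField (QM (algebraMap K L D))]

include hσE in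
omit [NumberField (QM D)] [NumberField (QM ((algebraMap K L) D))] in
/-- A nonsplit place of `K(√D)` lies over a place with one place of `L` above it. -/
private lemma ncard_placesOver_of_nonsplit
    [IsScalarTower K (QM D) (QM (algebraMap K L D))] (hc : Cyc3 K L σ) {P : Fermat.CFT.Pl (QM D)}
    (hP : Fermat.CFT.IsNonsplit σE P) :
    (placesOver K L (Fermat.CFT.plUnder K P)).ncard = 1 := by
  obtain ⟨Q, hQ⟩ := Fermat.CFT.exists_plUnder_eq (F := (QM (algebraMap K L D))) P
  set w : Place L := Fermat.CFT.plUnder L Q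
  have hw : LiesOver K L w (Fermat.CFT.plUnder K P) := by
    change (Q.asIdeal.under (𝓞 L)).under (𝓞 K) = P.asIdeal.under (𝓞 K)
    rw [← hQ, Fermat.CFT.asIdeal_plUnder, Ideal.under_under, Ideal.under_under]
  have hfix : mapPlace (σ : L ≃+* L) w = w := by
    refine (HeightOneSpectrum.ext (Ideal.IsMaximal.eq_of_le w.isMaximal
      (mapPlace (σ : L ≃+* L) w).isPrime.ne_top fun x hx => ?_)).symm
    rw [mapPlace_asIdeal_eq, Ideal.mem_pointwise_smul_iff_inv_smul_mem]
    have h1 : algebraMap (𝓞 L) (𝓞 (QM (algebraMap K L D))) x ∈ Q.asIdeal := hx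
    have h2 := congrArg HeightOneSpectrum.asIdeal (hP Q hQ)
    rw [Fermat.CFT.smul_asIdeal] at h2
    rw [← h2, Ideal.mem_pointwise_smul_iff_inv_smul_mem] at h1
    change algebraMap (𝓞 L) (𝓞 (QM (algebraMap K L D))) (σ⁻¹ • x) ∈ Q.asIdeal
    convert h1 using 1
    refine RingOfIntegers.ext ?_
    change algebraMap L (QM (algebraMap K L D)) (σ⁻¹ (x : L)) =
      σE⁻¹ (algebraMap L (QM (algebraMap K L D)) (x : L))
    apply σE.injective
    change _ = σE (σE.symm (algebraMap L (QM (algebraMap K L D)) (x : L)))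
    rw [AlgEquiv.apply_symm_apply, hσE]
    exact QuadraticAlgebra.ext (σ.apply_symm_apply (x : L)) (map_zero σ)
  rcases hc.trichotomy hw with ⟨-, -, -, h⟩ | ⟨h, -⟩
  exacts [absurd hfix h, h]

omit [NumberField L] [Algebra (QM D) (QM (algebraMap K L D))]
  [Fact (∀ r : L, r ^ 2 ≠ algebraMap K L D + 0 * r)] [NumberField (QM (algebraMap K L D))] in
/-- A scaled approximation of `a + b√D` has a close conjugate quotient. -/
private lemma closeOne_of_approx (P : Fermat.CFT.Pl (QM D)) {a b c N₀ N₁ : K} {m : ℤ} (hm : 0 ≤ m)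
    (hz : (⟨a, b⟩ : QM D) ≠ 0) (hzc : (⟨a, -b⟩ : QM D) ≠ 0) (hc0 : c ≠ 0) {n : ℕ}
    (hn : m + |Fermat.CFT.ord P (⟨a, b⟩ : QM D)| + |Fermat.CFT.ord P (⟨a, -b⟩ : QM D)|
      + |Fermat.CFT.ord P (⟨0, 1⟩ : QM D)| + 1 ≤ n)
    (hv0 : (Fermat.CFT.plUnder K P).valuation K (c * N₀ - a) ≤ WithZero.exp (-(n : ℤ)))
    (hv1 : (Fermat.CFT.plUnder K P).valuation K (c * N₁ - b) ≤ WithZero.exp (-(n : ℤ))) :
    Fermat.CFT.CloseOne P m
      ((⟨a, b⟩ : QM D) / ⟨a, -b⟩ / ((⟨N₀, N₁⟩ : QM D) / ⟨N₀, -N₁⟩)) := by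
  set ω : (QM D) := ⟨0, 1⟩
  have hω : ω ≠ 0 := fun h => one_ne_zero (congrArg QuadraticAlgebra.im h)
  set cM : (QM D) := algebraMap K (QM D) c
  have hcM : cM ≠ 0 := (map_ne_zero _).2 hc0
  rw [show (⟨N₀, N₁⟩ : (QM D)) / ⟨N₀, -N₁⟩ = (cM * ⟨N₀, N₁⟩) / (cM * ⟨N₀, -N₁⟩) from
    (mul_div_mul_left _ _ hcM).symm]
  have hsmall : ∀ (d : K), (Fermat.CFT.plUnder K P).valuation K d ≤ WithZero.exp (-(n : ℤ)) →
      algebraMap K (QM D) d = 0 ∨ (n : ℤ) ≤ Fermat.CFT.ord P (algebraMap K (QM D) d) :=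
          fun d hd => by
    by_cases h : d = 0
    · exact Or.inl (by rw [h, map_zero])
    · refine Or.inr ?_
      rw [Fermat.CFT.ord_algebraMap_eq]
      have h1 := (Fermat.CFT.le_ord_iff (Fermat.CFT.plUnder K P) h (n : ℤ)).2 hd
      have h2 := Fermat.CFT.plRamIdx_pos (K := K) P
      nlinarith
  refine closeOne_quot P hz hzc hm (N := (n : ℤ) - |Fermat.CFT.ord P ω|) (by omega) ?_ ?_
  · rw [show cM * (⟨N₀, N₁⟩ : (QM D)) - ⟨a, b⟩ = algebraMap K (QM D) (c * N₀ - a) +
        algebraMap K (QM D) (c * N₁ - b) * ω by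
      ext <;> simp [cM, ω]]
    exact le_ord_combine P hω (hsmall _ hv0) (hsmall _ hv1)
  · rw [show cM * (⟨N₀, -N₁⟩ : (QM D)) - ⟨a, -b⟩ = algebraMap K (QM D) (c * N₀ - a) +
        algebraMap K (QM D) (-(c * N₁ - b)) * ω by
      ext <;> simp [cM, ω]; ring]
    refine le_ord_combine P hω (hsmall _ hv0) (hsmall _ ?_)
    rwa [Valuation.map_neg]

variable (hnorm : ∀ X : QM (algebraMap K L D),
  algebraMap (QM D) (QM (algebraMap K L D)) (Algebra.norm (QM D) X) = X * σE X * σE (σE X))

include hι hσE hnorm in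
omit [NumberField K] [NumberField L] [Fact (∀ r : K, r ^ 2 ≠ D + 0 * r)] [NumberField (QM D)]
  [NumberField (QM (algebraMap K L D))] in
/-- The twisted norm is the norm from `L(√D)` to `K(√D)`. -/
private lemma twNorm_eq_norm (X : QM (algebraMap K L D)) :
    twNorm K L σ D X.re X.im = tmat (algebraMap K L D)
      (algebraMap K L (Algebra.norm (QM D) X).re) (algebraMap K L (Algebra.norm (QM D) X).im) := by
  have h := hnorm X
  rw [hι, hσE, hσE] at h
  rw [← show _ = algebraMap K L (Algebra.norm (QM D) X).re from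
    (congrArg QuadraticAlgebra.re h).symm,
    ← show _ = algebraMap K L (Algebra.norm (QM D) X).im from (congrArg QuadraticAlgebra.im h).symm,
    tmat_mul_qm, tmat_mul_qm, twNorm]

include hι hσE hnorm in
omit [NumberField (QM D)] [NumberField (QM (algebraMap K L D))] in
/-- The norm commutes with conjugation. -/
private lemma norm_conj_coords {x y : L} {N₀ N₁ : K}
    (h : Algebra.norm (QM D) (⟨x, y⟩ : QM (algebraMap K L D)) = ⟨N₀, N₁⟩) :
    Algebra.norm (QM D) (⟨x, -y⟩ : QM (algebraMap K L D)) = ⟨N₀, -N₁⟩ := by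
  have hcomm : ∀ u : (QM (algebraMap K L D)), σE (star u) = star (σE u) := fun u => by
    ext <;> simp [hσE]
  apply (algebraMap (QM D) (QM (algebraMap K L D))).injective
  rw [hnorm, show (⟨x, -y⟩ : QM (algebraMap K L D)) = star ⟨x, y⟩ by ext <;> simp, hcomm, hcomm,
    ← star_mul', ← star_mul', ← hnorm, h, hι, hι]
  ext <;> simp

omit [NumberField L] [NumberField (QM D)] [NumberField (QM (algebraMap K L D))] in
/-- The norm to `K(√D)` of a quotient. -/
private lemma qmNorm_div (U : QM (algebraMap K L D)) {V : QM (algebraMap K L D)} (hV : V ≠ 0)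
    [Module.Finite (QM D) (QM (algebraMap K L D))] :
    Algebra.norm (QM D) (U / V) = Algebra.norm (QM D) U / Algebra.norm (QM D) V := by
  rw [eq_div_iff (Algebra.norm_ne_zero_iff.2 hV), ← map_mul, div_mul_cancel₀ U hV]

include hι hσE hnorm in
/-- The conjugate quotient is a local norm at nonsplit places. -/
private lemma quot_mem_localNorms [Fact (Nat.Prime 3)]
    [IsScalarTower K (QM D) (QM (algebraMap K L D))] [IsGalois (QM D) (QM (algebraMap K L D))]
    (hc : Cyc3 K L σ) {ζ : QM D} {a b : K} (hz : (⟨a, b⟩ : QM D) ≠ 0) (hzc : (⟨a, -b⟩ : QM D) ≠ 0)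
    (hloc : ∀ v : Place K, (placesOver K L v).ncard = 1 → IsLocNorm K L σ v D a b)
    {P : Fermat.CFT.Pl (QM D)} (hP : Fermat.CFT.IsNonsplit σE P) :
    Units.mk0 ((⟨a, b⟩ : QM D) / ⟨a, -b⟩) (div_ne_zero hz hzc)
      ∈ Fermat.CFT.localNorms 3 ζ (QM (algebraMap K L D)) P := by
  set m : ℤ := (Fermat.CFT.localLevel 3 ζ P : ℤ)
  obtain ⟨x, y, c, N₀, N₁, hc0, hxy, hN0, hv0, hv1⟩ :=
    hloc _ (ncard_placesOver_of_nonsplit hσE hc hP)
      (m + |Fermat.CFT.ord P (⟨a, b⟩ : QM D)| + |Fermat.CFT.ord P (⟨a, -b⟩ : QM D)|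
        + |Fermat.CFT.ord P (⟨0, 1⟩ : QM D)| + 1).toNat
  set X : (QM (algebraMap K L D)) := ⟨x, y⟩
  set Xc : (QM (algebraMap K L D)) := ⟨x, -y⟩
  obtain ⟨e0, e1⟩ := tmat_inj ((twNorm_eq_norm hι hσE hnorm X).symm.trans hxy)
  have hNX : Algebra.norm (QM D) X = ⟨N₀, N₁⟩ :=
    QuadraticAlgebra.ext ((algebraMap K L).injective e0) ((algebraMap K L).injective e1)
  have hNXc : Algebra.norm (QM D) Xc = ⟨N₀, -N₁⟩ := norm_conj_coords hι hσE hnorm hNX
  have hXc : Xc ≠ 0 := fun h => hN0 (by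
    have h' := hNXc
    rw [h, Algebra.norm_zero] at h'
    rw [← show 0 = N₀ from congrArg QuadraticAlgebra.re h',
      ← show 0 = N₁ from neg_eq_zero.1 (congrArg QuadraticAlgebra.im h').symm |>.symm]
    ring)
  have hX : X ≠ 0 := fun h => hXc (by
    rw [show Xc = star X by ext <;> simp [Xc, X], h, star_zero])
  refine Fermat.CFT.mem_localNorms_of_close (y := X / Xc) (div_ne_zero hX hXc) ?_
  rw [qmNorm_div _ hXc, hNX, hNXc, Units.val_mk0]
  exact closeOne_of_approx P (Int.natCast_nonneg _) hz hzc hc0 (Int.self_le_toNat _) hv0 hv1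

end Quad

/-- **Local norms everywhere are norms up to scalars.** -/
theorem normStatement : NormStatement K L := by
  intro σ hσ hgal hdeg ⟨ζ, hζ⟩ _ D a b hD hn hloc
  have hc : Cyc3 K L σ := ⟨hgal, hdeg, hσ⟩
  have : Fact (Nat.Prime 3) := ⟨Nat.prime_three⟩
  have : Fact (∀ r : K, r ^ 2 ≠ D + 0 * r) := fact_nonsquare hD
  have : Fact (∀ r : L, r ^ 2 ≠ algebraMap K L D + 0 * r) :=
    fact_nonsquare (notSquare_algebraMap hc hD)
  let : NumberField (QM D) := NumberField.of_module_finite K (QM D)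
  let : NumberField (QM (algebraMap K L D)) :=
    NumberField.of_module_finite L (QM (algebraMap K L D))
  let : Algebra (QM D) (QM (algebraMap K L D)) := (qmIncl D).toAlgebra
  have hι : ∀ z : QM D, algebraMap (QM D) (QM (algebraMap K L D)) z =
      ⟨algebraMap K L z.re, algebraMap K L z.im⟩ := fun z => rfl
  have : IsScalarTower K (QM D) (QM (algebraMap K L D)) :=
      IsScalarTower.of_algebraMap_eq fun x => by
    rw [hι]
    exact QuadraticAlgebra.ext rfl (map_zero (algebraMap K L)).symm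
  have : Module.Finite K (QM (algebraMap K L D)) := Module.Finite.trans L (QM (algebraMap K L D))
  have : Module.Finite (QM D) (QM (algebraMap K L D)) :=
    Module.Finite.of_restrictScalars_finite K (QM D) (QM (algebraMap K L D))
  -- the generator
  let σE := qmAut σ hι
  have hσE : ∀ z : (QM (algebraMap K L D)), σE z = ⟨σ z.re, σ z.im⟩ := fun z => rfl
  have hσE1 : σE ≠ 1 := fun h => hσ (AlgEquiv.ext fun x => by
    simpa [hσE] using congrArg QuadraticAlgebra.re
      (congrArg (fun g : (QM (algebraMap K L D)) ≃ₐ[(QM D)] (QM (algebraMap K L D)) => g ⟨x, 0⟩) h))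
  have hfin : Module.finrank (QM D) (QM (algebraMap K L D)) = 3 := by
    have h1 := Module.finrank_mul_finrank K (QM D) (QM (algebraMap K L D))
    have h2 := Module.finrank_mul_finrank K L (QM (algebraMap K L D))
    rw [QuadraticAlgebra.finrank_eq_two] at h1 h2
    rw [hdeg] at h2
    omega
  have hcube : σE ^ 3 = 1 := AlgEquiv.ext fun z => by
    change σE (σE (σE z)) = z
    ext <;> simp [hσE, hc.apply_three]
  have : IsGalois (QM D) (QM (algebraMap K L D)) := by
    refine IsGalois.of_card_aut_eq_finrank (QM D) (QM (algebraMap K L D)) (le_antisymm ?_ ?_)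
    · rw [Nat.card_eq_fintype_card]; exact AlgEquiv.card_le
    · rw [hfin, ← orderOf_eq_prime hcube hσE1]
      exact Nat.le_of_dvd Nat.card_pos (orderOf_dvd_natCard σE)
  have hζM : IsPrimitiveRoot (algebraMap K (QM D) ζ) 3 :=
    hζ.map_of_injective (algebraMap K (QM D)).injective
  -- the element
  set z : (QM D) := ⟨a, b⟩
  set zc : (QM D) := ⟨a, -b⟩
  have hz : z ≠ 0 := fun h => hn (by
    rw [show a = 0 from congrArg QuadraticAlgebra.re h, show b = 0 from
      congrArg QuadraticAlgebra.im h]; ring)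
  have hzc : zc ≠ 0 := fun h => hn (by
    rw [show a = 0 from congrArg QuadraticAlgebra.re h,
      show b = 0 from neg_eq_zero.1 (congrArg QuadraticAlgebra.im h)]; ring)
  -- norms in coordinates
  have hnorm : ∀ X : (QM (algebraMap K L D)), algebraMap (QM D) (QM (algebraMap K L D))
      (Algebra.norm (QM D) X) = X * σE X * σE (σE X) := fun X => by
    rw [Fermat.CFT.algebraMap_norm_eq_prod_pow hfin hσE1, Finset.prod_range_succ,
      Finset.prod_range_succ, Finset.prod_range_one]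
    rfl
  obtain ⟨Y, hY⟩ := Fermat.CFT.exists_norm_eq_of_localNorms hfin hσE1 hζM (by norm_num) _
    fun P hP => quot_mem_localNorms hι hσE hnorm hc hz hzc hloc hP
  have hY0 : Y ≠ 0 := fun h => div_ne_zero hz hzc (by rw [← hY, h, Algebra.norm_zero])
  refine ⟨(algebraMap (QM D) (QM (algebraMap K L D)) z / Y).re,
    (algebraMap (QM D) (QM (algebraMap K L D)) z / Y).im, a * a - D * b * b, hn, ?_⟩
  rw [twNorm_eq_norm hι hσE hnorm, qmNorm_div _ hY0, hY, Algebra.norm_algebraMap, hfin]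
  have e : z ^ 3 / (z / zc) = ⟨(a * a - D * b * b) * a, (a * a - D * b * b) * b⟩ := by
    rw [show z ^ 3 / (z / zc) = z * (z * zc) by field_simp]
    ext <;> simp [z, zc] <;> ring
  rw [e]

end Fermat.LT
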