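import Fermat.Agent.LT.Elliptic
import Fermat.Agent.LT.Norm

/-!
# The elliptic comparison

`ellipticStatement_proved`: the elliptic parts of the traces on `K` and `L` agree, by the sums
over the tori (`Elliptic`) and the norm map (`Norm`). It is one of the two inputs of
`geometricStatement_of_parts` (`LT/Parts`), used in `LT/Sys/Proved`.
-/

set_option autoImplicit false

namespace Fermat.LT

/-- **The elliptic parts agree.** `EllipticStatement`, the matching of the elliptic parts of the two
traces, holds. -/
theorem ellipticStatement_proved (K L : Type) [Field K] [NumberField K] [Field L] [NumberField L]
    [Algebra K L] : EllipticStatement K L :=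
  ellipticStatement (normStatement K L)

end Fermat.LT
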