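import Fermat.Agent.LT.FinSpace

/-!
# Entry bounds at one place and congruences of conjugates

`exists_entry_bound` bounds the entries of a matrix and its inverse, so that
`conj_mem_congGL_of_near` keeps conjugates of deep congruence elements congruent to one.
-/

set_option autoImplicit false

namespace Fermat.LT

variable {F : Type*} [Field F] (v : Valuation F (WithZero (Multiplicative ℤ)))

/-- Entries of a matrix and its inverse are bounded by a power. -/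
lemma exists_entry_bound (g : GL (Fin 2) F) : ∃ m : ℕ, ∀ i j,
    v ((g : Matrix (Fin 2) (Fin 2) F) i j) ≤ WithZero.exp (m : ℤ) ∧
    v (((g⁻¹ : GL (Fin 2) F) : Matrix (Fin 2) (Fin 2) F) i j) ≤ WithZero.exp (m : ℤ) := by
  have key : ∀ (z : WithZero (Multiplicative ℤ)) (k : ℕ), (WithZero.log z).toNat ≤ k →
      z ≤ WithZero.exp (k : ℤ) := fun z k h => by
    rcases eq_or_ne z 0 with rfl | hz
    · exact zero_le
    · rw [← WithZero.exp_log hz, WithZero.exp_le_exp]; omega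
  set f : Fin 2 × Fin 2 → ℕ := fun p => max
    (WithZero.log (v ((g : Matrix (Fin 2) (Fin 2) F) p.1 p.2))).toNat
    (WithZero.log (v (((g⁻¹ : GL (Fin 2) F) : Matrix (Fin 2) (Fin 2) F) p.1 p.2))).toNat
  refine ⟨Finset.univ.sup f, fun i j => ?_⟩
  have hf : f (i, j) ≤ Finset.univ.sup f := Finset.le_sup (Finset.mem_univ _)
  exact ⟨key _ _ ((le_max_left _ _).trans hf), key _ _ ((le_max_right _ _).trans hf)⟩

/-- Conjugation by a matrix with entries bounded by `exp m` costs a depth of `2 m`. -/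
lemma v_conj_sub_one_le {g δ : GL (Fin 2) F} {m n : ℕ}
    (hm : ∀ i j, v ((g : Matrix (Fin 2) (Fin 2) F) i j) ≤ WithZero.exp (m : ℤ) ∧
      v (((g⁻¹ : GL (Fin 2) F) : Matrix (Fin 2) (Fin 2) F) i j) ≤ WithZero.exp (m : ℤ))
    (h : ∀ i j, v ((δ : Matrix (Fin 2) (Fin 2) F) i j - (1 : Matrix (Fin 2) (Fin 2) F) i j)
      ≤ WithZero.exp (-((2 * m + n : ℕ) : ℤ))) (i j : Fin 2) :
    v (((g⁻¹ * δ * g : GL (Fin 2) F) : Matrix (Fin 2) (Fin 2) F) i j
      - (1 : Matrix (Fin 2) (Fin 2) F) i j) ≤ WithZero.exp (-(n : ℤ)) := by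
  have e1 : ((g⁻¹ * δ * g : GL (Fin 2) F) : Matrix (Fin 2) (Fin 2) F) - 1
      = ((g⁻¹ : GL (Fin 2) F) : Matrix (Fin 2) (Fin 2) F) * ((δ : Matrix (Fin 2) (Fin 2) F) - 1)
        * (g : Matrix (Fin 2) (Fin 2) F) := by
    rw [Matrix.mul_sub, Matrix.sub_mul, Matrix.mul_one, ← Units.val_mul, ← Units.val_mul,
      ← Units.val_mul, inv_mul_cancel, Units.val_one]
  rw [show ((g⁻¹ * δ * g : GL (Fin 2) F) : Matrix (Fin 2) (Fin 2) F) i j
      - (1 : Matrix (Fin 2) (Fin 2) F) i j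
    = ((((g⁻¹ * δ * g : GL (Fin 2) F) : Matrix (Fin 2) (Fin 2) F)) - 1) i j from rfl, e1,
    Matrix.mul_apply]
  refine v.map_sum_le fun k _ => ?_
  rw [map_mul, Matrix.mul_apply]
  refine (mul_le_mul' (v.map_sum_le
    (g := WithZero.exp (m : ℤ) * WithZero.exp (-((2 * m + n : ℕ) : ℤ))) fun l _ => ?_)
    (hm k j).1).trans ?_
  · rw [map_mul]
    exact mul_le_mul' (hm i l).2 (h l k)
  · rw [← WithZero.exp_add, ← WithZero.exp_add, WithZero.exp_le_exp]
    push_cast; omega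

/-- Conjugates of matrices congruent to one to depth `2 m + 1` are congruent to one. -/
lemma conj_mem_congGL_of_near [NumberField F] {g δ : GL (Fin 2) F} {m : ℕ}
    (hm : ∀ i j, v ((g : Matrix (Fin 2) (Fin 2) F) i j) ≤ WithZero.exp (m : ℤ) ∧
      v (((g⁻¹ : GL (Fin 2) F) : Matrix (Fin 2) (Fin 2) F) i j) ≤ WithZero.exp (m : ℤ))
    (h : ∀ i j, v ((δ : Matrix (Fin 2) (Fin 2) F) i j - (1 : Matrix (Fin 2) (Fin 2) F) i j)
      ≤ WithZero.exp (-((2 * m + 1 : ℕ) : ℤ)))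
    (h' : ∀ i j, v (((δ⁻¹ : GL (Fin 2) F) : Matrix (Fin 2) (Fin 2) F) i j
      - (1 : Matrix (Fin 2) (Fin 2) F) i j) ≤ WithZero.exp (-((2 * m + 1 : ℕ) : ℤ))) :
    g⁻¹ * δ * g ∈ congGL v := by
  have hlt : WithZero.exp (-((1 : ℕ) : ℤ)) < (1 : WithZero (Multiplicative ℤ)) := by
    rw [← WithZero.exp_zero, WithZero.exp_lt_exp]; norm_num
  have hint : ∀ x y : F, v (x - y) ≤ WithZero.exp (-((1 : ℕ) : ℤ)) → v y ≤ 1 → v x ≤ 1 :=
    fun x y hxy hy => sub_add_cancel x y ▸ (v.map_add _ _).trans (max_le (hxy.trans hlt.le) hy)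
  have hone : ∀ i j, v ((1 : Matrix (Fin 2) (Fin 2) F) i j) ≤ 1 := fun i j => by
    fin_cases i <;> fin_cases j <;> simp
  refine ⟨mem_intGL_of_le (fun i j => hint _ _ (v_conj_sub_one_le v hm h i j) (hone i j))
    fun i j => ?_, fun i j => (v_conj_sub_one_le v hm h i j).trans_lt hlt⟩
  rw [show (g⁻¹ * δ * g)⁻¹ = g⁻¹ * δ⁻¹ * g by group]
  exact hint _ _ (v_conj_sub_one_le v hm h' i j) (hone i j)

end Fermat.LT
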