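import Fermat.Agent.LT.H3Dist

/-!
# The invariant measure `dx dy dt / t³` on `H3`

`hmeas` is the measure in the coordinates `hmk`; `measurePreserving_smul_H3` says that every
matrix preserves it.
-/

set_option autoImplicit false
open MeasureTheory Set
open scoped ENNReal Matrix ComplexConjugate

namespace Fermat.LT

/-- The Borel sets of `H3`. -/
noncomputable instance H3.instMeasurableSpace : MeasurableSpace H3 := borel H3
/-- `H3` is a Borel space. -/
instance H3.instBorelSpace : BorelSpace H3 := ⟨rfl⟩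

/-- `dx dy dt / t³` on coordinates. -/
noncomputable def hvol : Measure (ℂ × ℝ) :=
  (volume.restrict ((univ : Set ℂ) ×ˢ Ioi (0 : ℝ))).withDensity
    fun p => ENNReal.ofReal ((p.2 ^ 3)⁻¹)

/-- Coordinates to points. -/
noncomputable def hmk (p : ℂ × ℝ) : H3 := H3.mk p.1 p.2

/-- The map from coordinates to points is measurable. -/
lemma measurable_hmk : Measurable hmk := by
  have hs : MeasurableSet {p : ℂ × ℝ | 0 < p.2} := measurableSet_lt measurable_const measurable_snd
  have e : hmk = fun p : ℂ × ℝ => if h : 0 < p.2 then (triMat p.1 h : H3)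
      else ((1 : GL (Fin 2) ℂ) : H3) := funext fun p => rfl
  have hval : Continuous fun q : {p : ℂ × ℝ | 0 < p.2} => (triMat q.1.1 q.2 : GL (Fin 2) ℂ) := by
    rw [Units.continuous_iff]
    have hm : Continuous fun q : {p : ℂ × ℝ | 0 < p.2} =>
        (!![(q.1.2 : ℂ), q.1.1; 0, 1] : Matrix (Fin 2) (Fin 2) ℂ) := by
      refine continuous_matrix fun i j => ?_
      fin_cases i <;> fin_cases j <;> simp <;> fun_prop
    refine ⟨hm, ?_⟩
    have hne : ∀ q : {p : ℂ × ℝ | 0 < p.2}, ((q.1.2 : ℂ)) ≠ 0 := fun q =>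
      Complex.ofReal_ne_zero.2 (ne_of_gt q.2)
    have e2 : (fun q : {p : ℂ × ℝ | 0 < p.2} =>
        (((triMat q.1.1 q.2 : GL (Fin 2) ℂ)⁻¹ : GL (Fin 2) ℂ) : Matrix (Fin 2) (Fin 2) ℂ))
        = fun q => (!![((q.1.2 : ℂ))⁻¹, -q.1.1 / q.1.2; 0, 1] : Matrix (Fin 2) (Fin 2) ℂ) := by
      funext q
      rw [Matrix.coe_units_inv, coe_triMat]
      refine Matrix.inv_eq_left_inv ?_
      ext i j
      fin_cases i <;> fin_cases j <;>
        simp [Matrix.mul_apply, inv_mul_cancel₀ (hne q), neg_div]; field_simp [hne q]; ring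
    rw [e2]
    refine continuous_matrix fun i j => ?_
    fin_cases i <;> fin_cases j <;> simp <;>
      first
        | exact (Complex.continuous_ofReal.comp (by fun_prop)).inv₀ hne
        | exact (continuous_neg.comp (by fun_prop)).div (by fun_prop) hne
        | fun_prop
  rw [e]
  exact Measurable.dite (s := {p : ℂ × ℝ | 0 < p.2})
    ((QuotientGroup.continuous_mk.comp hval).measurable)
    measurable_const hs

/-- The invariant measure `dx dy dt / t³` on `H3`. -/
noncomputable def hmeas : Measure H3 := hvol.map hmk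

/-- Integration against `hvol` is integration of `G / t³` over the upper half space. -/
lemma lintegral_hvol (G : ℂ × ℝ → ℝ≥0∞) :
    ∫⁻ p, G p ∂hvol = ∫⁻ p in (univ : Set ℂ) ×ˢ Ioi (0 : ℝ),
      ENNReal.ofReal ((p.2 ^ 3)⁻¹) * G p := by
  rw [hvol, lintegral_withDensity_eq_lintegral_mul_non_measurable _ (by fun_prop)]
  · rfl
  · exact Filter.Eventually.of_forall fun p => ENNReal.ofReal_lt_top

/-- The volume as an iterated integral. -/
lemma lintegral_hvol_iter (G : ℂ × ℝ → ℝ≥0∞) (hG : Measurable G) :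
    ∫⁻ p, G p ∂hvol = ∫⁻ z : ℂ, ∫⁻ t in Ioi (0 : ℝ), ENNReal.ofReal ((t ^ 3)⁻¹) * G (z, t) := by
  rw [lintegral_hvol, Measure.volume_eq_prod, ← Measure.prod_restrict, Measure.restrict_univ,
    lintegral_prod _ (by fun_prop)]

/-- The measure is the image of the volume. -/
lemma lintegral_hmeas {F : H3 → ℝ≥0∞} (hF : Measurable F) :
    ∫⁻ x, F x ∂hmeas = ∫⁻ p, F (hmk p) ∂hvol := lintegral_map hF measurable_hmk

/-- `T` preserves the integrals of nonnegative measurable functions of the coordinates. -/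
def PreservesVol (T : ℂ × ℝ → ℂ × ℝ) : Prop :=
  ∀ G : ℂ × ℝ → ℝ≥0∞, Measurable G → ∫⁻ p, G (T p) ∂hvol = ∫⁻ p, G p ∂hvol

/-- Affine maps of the upper half space preserve the volume. -/
lemma preservesVol_affine (α β : ℂ) (hα : α ≠ 0) :
    PreservesVol fun p => (α * p.1 + β, ‖α‖ * p.2) := by
  intro G hG
  rw [lintegral_hvol_iter (fun p => G ((fun p => (α * p.1 + β, ‖α‖ * p.2)) p))
    (hG.comp (by fun_prop)), lintegral_hvol_iter _ hG]
  set r := ‖α‖ with hr
  have hr0 : 0 < r := norm_pos_iff.2 hα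
  -- Scaling the height multiplies the inner integral by `|α| ^ 2`,
  let H : ℂ → ℝ≥0∞ := fun z => ∫⁻ t in Ioi (0 : ℝ), ENNReal.ofReal ((t ^ 3)⁻¹) * G (z, t)
  have hH : Measurable H :=
    Measurable.lintegral_prod_right' (f := fun q : ℂ × ℝ => ENNReal.ofReal ((q.2 ^ 3)⁻¹) * G q)
      (by fun_prop)
  have h1 : ∀ z : ℂ, ∫⁻ t in Ioi (0 : ℝ), ENNReal.ofReal ((t ^ 3)⁻¹) * G (z, r * t)
      = ENNReal.ofReal (r ^ 2) * H z := fun z => by
    have himg : (fun t => r * t) '' Ioi (0 : ℝ) = Ioi 0 := by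
      rw [image_mul_left_Ioi hr0, mul_zero]
    have := lintegral_image_eq_lintegral_abs_deriv_mul measurableSet_Ioi
      (f := fun t => r * t) (f' := fun _ => r) (s := Ioi 0)
      (fun x _ => by simpa using (hasDerivWithinAt_id x (Ioi 0)).const_mul r)
      ((mul_right_injective₀ hr0.ne').injOn)
      (fun s => ENNReal.ofReal ((s ^ 3)⁻¹) * G (z, s))
    rw [himg] at this
    simp only [H]
    rw [this, ← lintegral_const_mul' _ _ ENNReal.ofReal_ne_top]
    refine setLIntegral_congr_fun measurableSet_Ioi fun t ht => ?_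
    have ht' : (0 : ℝ) < t := ht
    rw [← mul_assoc (ENNReal.ofReal |r|), ← mul_assoc, ← ENNReal.ofReal_mul (abs_nonneg r),
      ← ENNReal.ofReal_mul (sq_nonneg r), abs_of_pos hr0]
    congr 2
    field_simp
  simp only [h1]
  rw [lintegral_const_mul' _ _ ENNReal.ofReal_ne_top]
  -- and the horizontal affine map divides the outer one by the same.
  have hlin : Measure.map (fun z : ℂ => α * z) volume
      = ENNReal.ofReal ((r ^ 2)⁻¹) • (volume : Measure ℂ) := by
    have hdet : LinearMap.det (LinearMap.mulLeft ℝ α) = r ^ 2 := by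
      have : Algebra.norm ℝ α = r ^ 2 := by
        rw [Algebra.norm_complex_apply, Complex.normSq_eq_norm_sq]
      rw [← this, Algebra.norm_apply]; rfl
    have := Measure.map_linearMap_addHaar_eq_smul_addHaar (volume : Measure ℂ)
      (f := LinearMap.mulLeft ℝ α) (by rw [hdet]; positivity)
    rw [hdet, abs_of_pos (by positivity)] at this
    exact this
  have h2 : ∫⁻ z, H (α * z + β) = ENNReal.ofReal ((r ^ 2)⁻¹) * ∫⁻ z, H z := by
    rw [← lintegral_map (f := fun z => H (z + β)) (hH.comp (by fun_prop))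
      (by fun_prop : Measurable fun z : ℂ => α * z), hlin, lintegral_smul_measure,
      lintegral_add_right_eq_self (μ := (volume : Measure ℂ)) H β]
    rfl
  rw [h2, ← mul_assoc, ← ENNReal.ofReal_mul (sq_nonneg r), mul_inv_cancel₀ (by positivity),
    ENNReal.ofReal_one, one_mul]

/-- The inversion in coordinates. -/
noncomputable def hinv (p : ℂ × ℝ) : ℂ × ℝ :=
  (-conj p.1 / ((Complex.normSq p.1 + p.2 ^ 2 : ℝ) : ℂ), p.2 / (Complex.normSq p.1 + p.2 ^ 2))

/-- Substitute `R = |z|² + t²`. -/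
lemma lintegral_hvol_height (G : ℂ × ℝ → ℝ≥0∞) (hG : Measurable G) :
    ∫⁻ p, G p ∂hvol = ∫⁻ R in Ioi (0 : ℝ), ∫⁻ z : ℂ,
      {z : ℂ | Complex.normSq z < R}.indicator
        (fun z => ENNReal.ofReal ((2 * (R - Complex.normSq z) ^ 2)⁻¹)
          * G (z, Real.sqrt (R - Complex.normSq z))) z := by
  let Φ : ℂ × ℝ → ℝ≥0∞ := fun q => {q : ℂ × ℝ | Complex.normSq q.1 < q.2}.indicator
    (fun q => ENNReal.ofReal ((2 * (q.2 - Complex.normSq q.1) ^ 2)⁻¹)
      * G (q.1, Real.sqrt (q.2 - Complex.normSq q.1))) q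
  have hΦ : Measurable Φ :=
    Measurable.indicator (by fun_prop) (measurableSet_lt (by fun_prop) measurable_snd)
  -- substitute `R = |z| ^ 2 + t ^ 2` in the height
  have hz : ∀ z : ℂ, ∫⁻ t in Ioi (0 : ℝ), ENNReal.ofReal ((t ^ 3)⁻¹) * G (z, t)
      = ∫⁻ R in Ioi (0 : ℝ), Φ (z, R) := fun z => by
    set a := Complex.normSq z with ha
    have ha0 : 0 ≤ a := Complex.normSq_nonneg z
    have himg : (fun t => a + t ^ 2) '' Ioi (0 : ℝ) = Ioi a := by
      ext R
      refine ⟨?_, fun hR => ⟨Real.sqrt (R - a), Real.sqrt_pos.2 (sub_pos.2 hR), ?_⟩⟩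
      · rintro ⟨t, ht, rfl⟩
        exact lt_add_of_pos_right a (pow_pos ht 2)
      · simp [Real.sq_sqrt (sub_nonneg.2 (le_of_lt (show a < R from hR)))]
    have hinj : InjOn (fun t : ℝ => a + t ^ 2) (Ioi 0) := fun s hs t ht h => by
      have h' : s ^ 2 = t ^ 2 := by simpa using h
      exact (pow_left_inj₀ (le_of_lt hs) (le_of_lt ht) two_ne_zero).1 h'
    have hsub : ∫⁻ R in Ioi (0 : ℝ), Φ (z, R) = ∫⁻ R in Ioi a, Φ (z, R) := by
      rw [← lintegral_indicator measurableSet_Ioi, ← lintegral_indicator measurableSet_Ioi]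
      refine lintegral_congr fun R => ?_
      by_cases hR : a < R
      · rw [indicator_of_mem (show R ∈ Ioi a from hR),
          indicator_of_mem (show R ∈ Ioi (0 : ℝ) from lt_of_le_of_lt ha0 hR)]
      · rw [indicator_of_notMem (show R ∉ Ioi a from hR)]
        by_cases hR0 : R ∈ Ioi (0 : ℝ)
        · rw [indicator_of_mem hR0]
          exact indicator_of_notMem
            (show (z, R) ∉ {q : ℂ × ℝ | Complex.normSq q.1 < q.2} from hR) _
        · rw [indicator_of_notMem hR0]
    rw [hsub, ← himg, lintegral_image_eq_lintegral_abs_deriv_mul measurableSet_Ioi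
      (f' := fun t => 2 * t) (fun x _ => by
        simpa using ((hasDerivWithinAt_id x (Ioi 0)).pow 2).const_add a) hinj]
    refine setLIntegral_congr_fun measurableSet_Ioi fun t ht => ?_
    have ht' : (0 : ℝ) < t := ht
    simp only [Φ]
    rw [indicator_of_mem (by
      change Complex.normSq z < a + t ^ 2
      exact lt_add_of_pos_right a (pow_pos ht' 2))]
    simp only [← ha, add_sub_cancel_left, Real.sqrt_sq ht'.le]
    rw [← mul_assoc, ← ENNReal.ofReal_mul (abs_nonneg _), abs_of_pos (by positivity)]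
    congr 2
    field_simp
  rw [lintegral_hvol_iter _ hG]
  simp only [hz]
  -- swap the integrals
  rw [lintegral_lintegral_swap (f := fun z R => Φ (z, R)) hΦ.aemeasurable]
  rfl

/-- The inversion preserves the volume. -/
lemma preservesVol_hinv : PreservesVol hinv := by
  intro G hG
  have hm : Measurable hinv := by unfold hinv; fun_prop
  rw [lintegral_hvol_height (fun p => G (hinv p)) (hG.comp hm), lintegral_hvol_height G hG]
  let Ψ : ℝ → ℂ → ℝ≥0∞ := fun S => {u : ℂ | Complex.normSq u < S}.indicator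
    fun u => ENNReal.ofReal ((2 * (S - Complex.normSq u) ^ 2)⁻¹)
      * G (u, Real.sqrt (S - Complex.normSq u))
  have hΨ : ∀ S, Measurable (Ψ S) := fun S =>
    Measurable.indicator (by fun_prop) (measurableSet_lt (by fun_prop) measurable_const)
  have himg : (fun R : ℝ => R⁻¹) '' Ioi (0 : ℝ) = Ioi 0 := by
    ext S
    exact ⟨fun ⟨R, hR, h⟩ => h ▸ inv_pos.2 (show (0 : ℝ) < R from hR),
      fun hS => ⟨S⁻¹, show (0 : ℝ) < S⁻¹ from inv_pos.2 hS, inv_inv S⟩⟩
  conv_rhs => rw [← himg]
  rw [lintegral_image_eq_lintegral_abs_deriv_mul measurableSet_Ioi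
    (f' := fun R => -(R ^ 2)⁻¹)
    (fun x hx => (hasDerivAt_inv (ne_of_gt (show (0 : ℝ) < x from hx))).hasDerivWithinAt)
    inv_injective.injOn]
  -- at height `|z|² + t² = R`, rescale `z ↦ -z̄/R`
  refine setLIntegral_congr_fun measurableSet_Ioi fun R hR => ?_
  have hR0 : (0 : ℝ) < R := hR
  have hR2 : (0 : ℝ) < R ^ 2 := by positivity
  change _ = _ * ∫⁻ z, Ψ R⁻¹ z
  have hscale : Measure.map (fun z : ℂ => (-R⁻¹) • conj z) volume
      = ENNReal.ofReal (R ^ 2) • (volume : Measure ℂ) := by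
    rw [show (fun z : ℂ => (-R⁻¹) • conj z)
        = (fun z : ℂ => (-R⁻¹) • z) ∘ Complex.conjLIE from rfl,
      ← Measure.map_map (by fun_prop) Complex.conjLIE.continuous.measurable,
      Complex.conjLIE.measurePreserving.map_eq, Measure.map_addHaar_smul _ (by simp [hR0.ne']),
      Complex.finrank_real_complex]
    congr 2
    rw [neg_sq, inv_pow, inv_inv, abs_of_pos hR2]
  have hsub : ∫⁻ z, Ψ R⁻¹ ((-R⁻¹) • conj z) = ENNReal.ofReal (R ^ 2) * ∫⁻ u, Ψ R⁻¹ u := by
    rw [← lintegral_map (hΨ _) (by fun_prop : Measurable fun z : ℂ => (-R⁻¹) • conj z), hscale,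
      lintegral_smul_measure]
    rfl
  have hpt : ∀ z : ℂ, {z : ℂ | Complex.normSq z < R}.indicator
      (fun z => ENNReal.ofReal ((2 * (R - Complex.normSq z) ^ 2)⁻¹)
        * G (hinv (z, Real.sqrt (R - Complex.normSq z)))) z
      = ENNReal.ofReal ((R ^ 4)⁻¹) * Ψ R⁻¹ ((-R⁻¹) • conj z) := fun z => by
    have hn : Complex.normSq ((-R⁻¹) • conj z) = (R ^ 2)⁻¹ * Complex.normSq z := by
      rw [Complex.real_smul, map_mul, Complex.normSq_ofReal, Complex.normSq_conj]
      ring
    by_cases hz : Complex.normSq z < R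
    · have hmem : Complex.normSq ((-R⁻¹) • conj z) < R⁻¹ := by
        rw [hn, inv_mul_lt_iff₀ hR2, sq, mul_assoc, mul_inv_cancel₀ hR0.ne', mul_one]
        exact hz
      rw [indicator_of_mem (show z ∈ {z : ℂ | Complex.normSq z < R} from hz)]
      simp only [Ψ]
      rw [indicator_of_mem (show _ ∈ {u : ℂ | Complex.normSq u < R⁻¹} from hmem), hn, ← mul_assoc,
        ← ENNReal.ofReal_mul (by positivity)]
      have hd : R⁻¹ - (R ^ 2)⁻¹ * Complex.normSq z = (R - Complex.normSq z) / R ^ 2 := by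
        field_simp
      have hne : R - Complex.normSq z ≠ 0 := (sub_pos.2 hz).ne'
      congr 2
      · rw [hd]; field_simp
      · simp only [hinv, Real.sq_sqrt (sub_pos.2 hz).le, add_sub_cancel]
        refine Prod.ext ?_ ?_
        · simp [Complex.real_smul, div_eq_inv_mul]
        · rw [hd, Real.sqrt_div (sub_pos.2 hz).le, Real.sqrt_sq hR0.le]
    · have hnmem : ¬ Complex.normSq ((-R⁻¹) • conj z) < R⁻¹ := by
        rw [hn, inv_mul_lt_iff₀ hR2, sq, mul_assoc, mul_inv_cancel₀ hR0.ne', mul_one]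
        exact hz
      rw [indicator_of_notMem (show z ∉ {z : ℂ | Complex.normSq z < R} from hz)]
      simp only [Ψ]
      rw [indicator_of_notMem (show _ ∉ {u : ℂ | Complex.normSq u < R⁻¹} from hnmem), mul_zero]
  simp only [hpt]
  rw [lintegral_const_mul' _ _ ENNReal.ofReal_ne_top, hsub, ← mul_assoc,
    ← ENNReal.ofReal_mul (by positivity), abs_neg, abs_of_pos (inv_pos.2 hR2)]
  congr 2
  field_simp

/-- Elements whose translation preserves the measure. -/
def volGroup : Subgroup (GL (Fin 2) ℂ) where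
  carrier := {g | MeasurePreserving (fun x : H3 => g • x) hmeas hmeas}
  one_mem' := by
    change MeasurePreserving (fun x : H3 => (1 : GL (Fin 2) ℂ) • x) hmeas hmeas
    simp only [one_smul]
    exact MeasurePreserving.id hmeas
  mul_mem' := fun {a b} ha hb => by
    simpa [Function.comp_def, mul_smul] using ha.comp hb
  inv_mem' := fun {a} ha => by
    change MeasurePreserving _ _ _
    exact MeasurePreserving.symm
      (Homeomorph.smul a (α := H3)).toMeasurableEquiv ha

/-- A transformation preserving the volume in coordinates preserves the measure. -/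
lemma mem_volGroup_of_coord {g : GL (Fin 2) ℂ} {T : ℂ × ℝ → ℂ × ℝ} (hT : PreservesVol T)
    (h : ∀ p : ℂ × ℝ, 0 < p.2 → hmk (T p) = g • hmk p) : g ∈ volGroup := by
  refine ⟨(continuous_const_smul g).measurable, Measure.ext_of_lintegral _ fun F hF => ?_⟩
  have hgF : Measurable fun x => F (g • x) := hF.comp (continuous_const_smul g).measurable
  rw [lintegral_map hF (continuous_const_smul g).measurable, lintegral_hmeas hgF,
    lintegral_hmeas hF, ← hT (fun p => F (hmk p)) (hF.comp measurable_hmk), lintegral_hvol,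
    lintegral_hvol]
  refine setLIntegral_congr_fun (MeasurableSet.univ.prod measurableSet_Ioi) fun p hp => ?_
  simp only [h p hp.2]

/-- An upper triangular matrix acts in coordinates by an affine map. -/
lemma herm_tri_eq {g : GL (Fin 2) ℂ} (h : (g : Matrix (Fin 2) (Fin 2) ℂ) 1 0 = 0) (z : ℂ) {t : ℝ}
    (ht : 0 < t) : H3.coord (g • H3.mk z t)
      = ((g : Matrix (Fin 2) (Fin 2) ℂ) 0 0 / (g : Matrix (Fin 2) (Fin 2) ℂ) 1 1 * z
          + (g : Matrix (Fin 2) (Fin 2) ℂ) 0 1 / (g : Matrix (Fin 2) (Fin 2) ℂ) 1 1,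
        ‖(g : Matrix (Fin 2) (Fin 2) ℂ) 0 0 / (g : Matrix (Fin 2) (Fin 2) ℂ) 1 1‖ * t) := by
  set G : Matrix (Fin 2) (Fin 2) ℂ := ↑g with hG
  have hdet : G 0 0 * G 1 1 ≠ 0 := by
    have := (Matrix.GeneralLinearGroup.det g).ne_zero
    rw [Matrix.GeneralLinearGroup.val_det_apply, ← hG, Matrix.det_fin_two, h] at this
    simpa using this
  obtain ⟨h0, h1⟩ := mul_ne_zero_iff.1 hdet
  rw [H3.mk_of_pos z ht, MulAction.Quotient.smul_coe, H3.coord_mk, zc, tc, herm_eq, herm_eq,
    smul_eq_mul, Units.val_mul, Matrix.det_mul, ← hG, coe_triMat]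
  simp only [Matrix.mul_apply, Fin.sum_univ_two, h, Matrix.det_fin_two]
  simp [abs_of_pos ht, Complex.mul_conj, Complex.normSq_eq_norm_sq]
  constructor
  · have hn : ((‖G 1 1‖ : ℂ)) ^ 2 = G 1 1 * conj (G 1 1) := by
      rw [Complex.mul_conj, Complex.normSq_eq_norm_sq]; push_cast; ring
    rw [hn]
    have hc : conj (G 1 1) ≠ 0 := (map_ne_zero _).2 h1
    field_simp
  · have : 0 < ‖G 1 1‖ := norm_pos_iff.2 h1
    norm_cast
    field_simp

/-- Upper triangular matrices preserve the measure. -/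
lemma upper_mem_volGroup {g : GL (Fin 2) ℂ} (h : (g : Matrix (Fin 2) (Fin 2) ℂ) 1 0 = 0) :
    g ∈ volGroup := by
  have hdet := (Matrix.GeneralLinearGroup.det g).ne_zero
  rw [Matrix.GeneralLinearGroup.val_det_apply, Matrix.det_fin_two, h, mul_zero, sub_zero] at hdet
  obtain ⟨h0, h1⟩ := mul_ne_zero_iff.1 hdet
  refine mem_volGroup_of_coord (preservesVol_affine _ ((g : Matrix (Fin 2) (Fin 2) ℂ) 0 1
    / (g : Matrix (Fin 2) (Fin 2) ℂ) 1 1) (div_ne_zero h0 h1)) fun p hp => ?_
  rw [← H3.mk_coord (g • hmk p), hmk, hmk, herm_tri_eq h _ hp]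

/-- The matrix `[[0, -1], [1, 0]]` of the inversion. -/
noncomputable def wMat : GL (Fin 2) ℂ :=
  Matrix.GeneralLinearGroup.mkOfDetNeZero !![0, -1; 1, 0] (by simp [Matrix.det_fin_two])

/-- The Weyl element preserves the measure. -/
lemma wMat_mem_volGroup : wMat ∈ volGroup := by
  refine mem_volGroup_of_coord preservesVol_hinv fun p hp => ?_
  rw [← H3.mk_coord (wMat • hmk p)]
  change H3.mk _ _ = H3.mk _ _
  rw [hmk, H3.mk_of_pos p.1 hp, MulAction.Quotient.smul_coe, H3.coord_mk, zc, tc, herm_eq, herm_eq,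
    smul_eq_mul, Units.val_mul, Matrix.det_mul, coe_triMat]
  have hw : (wMat : Matrix (Fin 2) (Fin 2) ℂ) = !![0, -1; 1, 0] := rfl
  rw [hw]
  simp [hinv, Matrix.det_fin_two, abs_of_pos hp, Complex.mul_conj]
  ring_nf

/-- All of `GL₂(ℂ)` preserves the invariant measure. -/
theorem mem_volGroup (g : GL (Fin 2) ℂ) : g ∈ volGroup := by
  set G : Matrix (Fin 2) (Fin 2) ℂ := ↑g with hG
  rcases eq_or_ne (G 1 0) 0 with h | h
  · exact upper_mem_volGroup h
  · set n : GL (Fin 2) ℂ := Matrix.GeneralLinearGroup.mkOfDetNeZero !![1, -(G 0 0 / G 1 0); 0, 1]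
      (by simp [Matrix.det_fin_two]) with hn
    set b : GL (Fin 2) ℂ := wMat * n * g with hb
    have hb0 : (b : Matrix (Fin 2) (Fin 2) ℂ) 1 0 = 0 := by
      rw [hb, hn]
      change ((!![0, -1; 1, 0] : Matrix (Fin 2) (Fin 2) ℂ) * !![1, -(G 0 0 / G 1 0); 0, 1]
          * G) 1 0 = 0
      simp [Matrix.mul_apply, Fin.sum_univ_two]
      field_simp
      ring
    have e : g = n⁻¹ * wMat⁻¹ * b := by rw [hb]; group
    rw [e]
    refine volGroup.mul_mem (volGroup.mul_mem (volGroup.inv_mem ?_)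
      (volGroup.inv_mem wMat_mem_volGroup)) (upper_mem_volGroup hb0)
    exact upper_mem_volGroup (by rw [hn]; rfl)

/-- Every matrix preserves the measure. -/
theorem measurePreserving_smul_H3 (g : GL (Fin 2) ℂ) :
    MeasurePreserving (fun x : H3 => g • x) hmeas hmeas := mem_volGroup g

/-- For measurable functions `hIntegral` is the integral against the invariant measure. -/
lemma hIntegral_eq_integral {f : H3 → ℂ} (hf : AEStronglyMeasurable f hmeas) :
    hIntegral f = ∫ x, f x ∂hmeas := by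
  rw [hmeas, integral_map measurable_hmk.aemeasurable hf, hvol,
    integral_withDensity_eq_integral_toReal_smul (by fun_prop)
      (Filter.Eventually.of_forall fun p => ENNReal.ofReal_lt_top)]
  refine setIntegral_congr_fun (MeasurableSet.univ.prod measurableSet_Ioi) fun p hp => ?_
  have : (0 : ℝ) < p.2 := hp.2
  simp [hmk, ENNReal.toReal_ofReal, this.le]

end Fermat.LT
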