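import Mathlib

/-!
# Regular trees given by their distance function

`RegTree` is a `(q + 1)`-regular tree described by its distance function; `Vertex` gives the
example used.
-/

set_option autoImplicit false

namespace Fermat.LT

/-- A `(q+1)`-regular tree, described by its distance function. -/
structure RegTree (X : Type*) (q : ℕ) where
  /-- The distance function of the tree. -/
  dist : X → X → ℕ
  /-- Distance zero means equality. -/
  eq_iff : ∀ x y, dist x y = 0 ↔ x = y
  /-- The distance is symmetric. -/
  symm : ∀ x y, dist x y = dist y x
  /-- From `x ≠ y` exactly one neighbour of `x` is closer to `y`, the others farther by one. -/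
  step : ∀ x y, x ≠ y → ∃ z, dist x z = 1 ∧ dist z y + 1 = dist x y ∧
    ∀ z', dist x z' = 1 → z' ≠ z → dist z' y = dist x y + 1
  /-- Every point has finitely many neighbours. -/
  nbr_finite : ∀ x, {z | dist x z = 1}.Finite
  /-- Every point has `q + 1` neighbours. -/
  nbr_card : ∀ x, {z | dist x z = 1}.ncard = q + 1

namespace RegTree

variable {X : Type*} {q : ℕ} (T : RegTree X q)

/-- A point has distance zero to itself. -/
@[simp] lemma dist_self (x : X) : T.dist x x = 0 := (T.eq_iff x x).2 rfl

end RegTree

end Fermat.LT
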