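import Fermat.Agent.LT.Sphere
import Fermat.Agent.LT.Tree

/-!
# Homothety classes of lattices form a regular tree

`vtree` is this tree, with distance `vdist`; the neighbours of a class are the lines of the
residue plane (`nbrEquiv`).
-/

set_option autoImplicit false

namespace Fermat.LT

variable {F : Type*} [Field F] (v : Valuation F (WithZero (Multiplicative ℤ)))

local notation "κ" => IsLocalRing.ResidueField v.valuationSubring

/-- Tree distance of two cosets. -/
noncomputable def vdist : GL (Fin 2) F ⧸ U0 v → GL (Fin 2) F ⧸ U0 v → ℕ :=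
  Quotient.lift₂ (fun g h => lvl v (g⁻¹ * h)) (by
    intro g h g' h' hg hh
    have hg' : g⁻¹ * g' ∈ U0 v := QuotientGroup.leftRel_apply.1 hg
    have hh' : h⁻¹ * h' ∈ U0 v := QuotientGroup.leftRel_apply.1 hh
    rw [show g'⁻¹ * h' = (g⁻¹ * g')⁻¹ * ((g⁻¹ * h) * (h⁻¹ * h')) by group,
      lvl_mul_left v ((U0 v).inv_mem hg'), lvl_mul_right v hh'])

/-- The distance between classes of matrices. -/
@[simp] lemma vdist_mk (g h : GL (Fin 2) F) :
    vdist v (g : GL (Fin 2) F ⧸ U0 v) (h : GL (Fin 2) F ⧸ U0 v) = lvl v (g⁻¹ * h) := rfl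

/-- The neighbours of a coset are parametrised by the lines of the residue plane. -/
noncomputable def nbrEquiv {ϖ : F} (hϖ : v ϖ = WithZero.exp (-1 : ℤ)) (g : GL (Fin 2) F) :
    {y | vdist v (g : GL (Fin 2) F ⧸ U0 v) y = 1} ≃
      {ℓ : Submodule κ (Fin 2 → κ) // Module.finrank κ ℓ = 1} := by
  refine Equiv.ofBijective (fun y => ⟨dir v (g⁻¹ * y.1.out), finrank_dir v ?_⟩) ⟨?_, ?_⟩
  · have h := y.2
    simp only [Set.mem_ofPred_eq] at h
    rw [← QuotientGroup.out_eq' y.1, vdist_mk] at h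
    omega
  · rintro ⟨y, hy⟩ ⟨y', hy'⟩ h
    simp only [Subtype.mk.injEq] at h
    simp only [Set.mem_ofPred_eq] at hy hy'
    rw [← QuotientGroup.out_eq' y, vdist_mk] at hy
    rw [← QuotientGroup.out_eq' y', vdist_mk] at hy'
    have e := (step_coset_eq_iff v hy hy').2 h
    rw [QuotientGroup.eq] at e
    apply Subtype.ext
    change y = y'
    rw [← QuotientGroup.out_eq' y, ← QuotientGroup.out_eq' y', QuotientGroup.eq]
    simpa [mul_assoc] using e
  · rintro ⟨ℓ, hℓ⟩
    obtain ⟨h, h1, h2⟩ := exists_step_dir v hϖ hℓ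
    refine ⟨⟨((g * h : GL (Fin 2) F) : GL (Fin 2) F ⧸ U0 v), ?_⟩, Subtype.ext ?_⟩
    · change vdist v (g : GL (Fin 2) F ⧸ U0 v) ((g * h : GL (Fin 2) F) : GL (Fin 2) F ⧸ U0 v) = 1
      rw [vdist_mk, inv_mul_cancel_left, h1]
    · have hk : (g * h)⁻¹ * ((g * h : GL (Fin 2) F) : GL (Fin 2) F ⧸ U0 v).out ∈ U0 v := by
        rw [← QuotientGroup.eq, QuotientGroup.out_eq']
      have := dir_mul_right v (g := h) hk
      change dir v (g⁻¹ * ((g * h : GL (Fin 2) F) : GL (Fin 2) F ⧸ U0 v).out) = ℓ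
      rw [← h2]
      rw [show h * ((g * h)⁻¹ * ((g * h : GL (Fin 2) F) : GL (Fin 2) F ⧸ U0 v).out)
        = g⁻¹ * ((g * h : GL (Fin 2) F) : GL (Fin 2) F ⧸ U0 v).out by group] at this
      exact this

/-- The tree of homothety classes of lattices. -/
noncomputable def vtree [Finite κ] {ϖ : F} (hϖ : v ϖ = WithZero.exp (-1 : ℤ)) :
    RegTree (GL (Fin 2) F ⧸ U0 v) (Nat.card κ) where
  dist := vdist v
  eq_iff x y := by
    obtain ⟨g, rfl⟩ := QuotientGroup.mk_surjective x
    obtain ⟨h, rfl⟩ := QuotientGroup.mk_surjective y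
    rw [vdist_mk, lvl_eq_zero_iff, QuotientGroup.eq]
  symm x y := by
    obtain ⟨g, rfl⟩ := QuotientGroup.mk_surjective x
    obtain ⟨h, rfl⟩ := QuotientGroup.mk_surjective y
    rw [vdist_mk, vdist_mk, ← lvl_inv, mul_inv_rev, inv_inv]
  step x y hxy := by
    obtain ⟨g, rfl⟩ := QuotientGroup.mk_surjective x
    obtain ⟨h, rfl⟩ := QuotientGroup.mk_surjective y
    have hpos : 0 < lvl v (g⁻¹ * h) := by
      rw [Nat.pos_iff_ne_zero, Ne, lvl_eq_zero_iff, ← QuotientGroup.eq]; exact hxy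
    -- the step towards `y` is the neighbour in the direction of `g⁻¹ * h`
    obtain ⟨w, hw1, hw2⟩ := exists_step_dir v hϖ (finrank_dir v hpos)
    refine ⟨((g * w : GL (Fin 2) F) : GL (Fin 2) F ⧸ U0 v), ?_, ?_, ?_⟩
    · rw [vdist_mk, inv_mul_cancel_left, hw1]
    · rw [vdist_mk, vdist_mk, mul_inv_rev, mul_assoc]
      exact lvl_inv_mul_of_dir_eq v hw1 hw2
    -- every other neighbour is one further away
    · intro z hz hne
      obtain ⟨k, rfl⟩ := QuotientGroup.mk_surjective z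
      rw [vdist_mk] at hz
      have hd : dir v (g⁻¹ * k) ≠ dir v (g⁻¹ * h) := fun e => hne (by
        have := (step_coset_eq_iff v hz hw1).2 (e.trans hw2.symm)
        rw [QuotientGroup.eq] at this ⊢
        simpa [mul_assoc] using this)
      have := lvl_inv_mul_of_dir_ne v hpos hz hd
      rw [show (g⁻¹ * k)⁻¹ * (g⁻¹ * h) = k⁻¹ * h by group] at this
      rw [vdist_mk, vdist_mk, this]
  nbr_finite x := by
    obtain ⟨g, rfl⟩ := QuotientGroup.mk_surjective x
    have : Finite {ℓ : Submodule κ (Fin 2 → κ) // Module.finrank κ ℓ = 1} :=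
      Finite.of_equiv _ (Projectivization.equivSubmodule κ (Fin 2 → κ))
    exact Set.finite_coe_iff.1 (Finite.of_equiv _ (nbrEquiv v hϖ g).symm)
  nbr_card x := by
    obtain ⟨g, rfl⟩ := QuotientGroup.mk_surjective x
    -- neighbours correspond to the lines in `κ²`
    rw [← Nat.card_coe_set_eq, Nat.card_congr (nbrEquiv v hϖ g), card_lines]

end Fermat.LT
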