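import Fermat.Agent.LT.Setting
import Fermat.Agent.LT.H3Measure
import Fermat.Agent.LT.Vertex

/-!
# The point space: action, countability, measure

`FinPt.base` is the base point and `ptMeasure` the measure; `measurePreserving_smul_pt` says that
`GL₂(F)` preserves it.
-/

set_option autoImplicit false
open IsDedekindDomain NumberField MeasureTheory Filter
open scoped Classical

namespace Fermat.LT

variable {F : Type*} [Field F] [NumberField F]

/-- A number field is countable. -/
instance countable_numberField : Countable F :=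
  Countable.of_equiv _ (Module.finBasis ℚ F).equivFun.toEquiv.symm

/-- Its integers are countable. -/
instance countable_ringOfIntegers : Countable (𝓞 F) :=
  Function.Injective.countable RingOfIntegers.coe_injective

/-- There are countably many places. -/
instance countable_place : Countable (Place F) := by
  have : Countable (Ideal (𝓞 F)) := by
    refine Function.Surjective.countable (f := fun s : Finset (𝓞 F) =>
      Ideal.span (s : Set (𝓞 F))) ?_
    intro I
    exact (IsNoetherian.noetherian I)
  exact Function.Injective.countable (f := HeightOneSpectrum.asIdeal)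
    (fun _ _ h => HeightOneSpectrum.ext h)

/-- `GL₂(F)` is countable. -/
instance countable_GL : Countable (GL (Fin 2) F) :=
  Function.Injective.countable
    (f := fun g : GL (Fin 2) F => fun i j => (g : Matrix (Fin 2) (Fin 2) F) i j)
    (fun _ _ h => Units.ext (Matrix.ext fun i j => congrFun (congrFun h i) j))

/-- An element of the field is non-integral at only finitely many places. -/
lemma finite_places_gt_one (x : F) : {v : Place F | 1 < v.valuation F x}.Finite := by
  obtain ⟨a, b, hb, rfl⟩ := IsFractionRing.div_surjective (A := 𝓞 F) x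
  have hb0 : (b : 𝓞 F) ≠ 0 := nonZeroDivisors.ne_zero hb
  refine (Ideal.finite_factors (I := Ideal.span {b}) (by simpa using hb0)).subset fun v hv => ?_
  simp only [Set.mem_ofPred_eq] at hv ⊢
  by_contra h
  rw [Ideal.dvd_span_singleton, ← v.valuation_eq_one_iff_notMem (K := F)] at h
  rw [map_div₀, h, div_one] at hv
  exact hv.not_ge (v.valuation_le_one a)

/-- An element is integral at almost all places. -/
lemma eventually_valuation_le_one (x : F) :
    ∀ᶠ v : Place F in cofinite, v.valuation F x ≤ 1 := by
  rw [eventually_cofinite]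
  simpa [not_le] using finite_places_gt_one x

omit [NumberField F] in
/-- Membership in `GL₂(O_v)`. -/
lemma mem_intGL_of_le {v : Valuation F (WithZero (Multiplicative ℤ))} {g : GL (Fin 2) F}
    (h : ∀ i j, v ((g : Matrix (Fin 2) (Fin 2) F) i j) ≤ 1)
    (h' : ∀ i j, v (((g⁻¹ : GL (Fin 2) F) : Matrix (Fin 2) (Fin 2) F) i j) ≤ 1) :
    g ∈ intGL v := by
  let A : Matrix (Fin 2) (Fin 2) v.integer := Matrix.of fun i j => ⟨_, h i j⟩
  let B : Matrix (Fin 2) (Fin 2) v.integer := Matrix.of fun i j => ⟨_, h' i j⟩
  have hA : A.map v.integer.subtype = (g : Matrix (Fin 2) (Fin 2) F) := by ext i j; rfl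
  have hB : B.map v.integer.subtype = ((g⁻¹ : GL (Fin 2) F) : Matrix (Fin 2) (Fin 2) F) := by
    ext i j; rfl
  have hinj : Function.Injective (fun M : Matrix (Fin 2) (Fin 2) v.integer =>
      M.map v.integer.subtype) := Matrix.map_injective Subtype.coe_injective
  have h1 : A * B = 1 := hinj (by
    change (A * B).map v.integer.subtype =
      (1 : Matrix (Fin 2) (Fin 2) v.integer).map v.integer.subtype
    rw [Matrix.map_mul, hA, hB, Matrix.map_one _ (map_zero _) (map_one _), ← Units.val_mul,
      mul_inv_cancel, Units.val_one])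
  exact ⟨⟨A, B, h1, mul_eq_one_comm.1 h1⟩, Units.ext hA⟩

/-- A matrix is integral invertible at almost all places. -/
lemma eventually_mem_intGL (g : GL (Fin 2) F) :
    ∀ᶠ v : Place F in cofinite, g ∈ intGL (v.valuation F) := by
  have h : ∀ᶠ v : Place F in cofinite, ∀ i j,
      v.valuation F ((g : Matrix (Fin 2) (Fin 2) F) i j) ≤ 1
        ∧ v.valuation F (((g⁻¹ : GL (Fin 2) F) : Matrix (Fin 2) (Fin 2) F) i j) ≤ 1 :=
    eventually_all.2 fun i => eventually_all.2 fun j =>
      (eventually_valuation_le_one _).and (eventually_valuation_le_one _)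
  filter_upwards [h] with v hv
  exact mem_intGL_of_le (fun i j => (hv i j).1) (fun i j => (hv i j).2)

variable {S : Set (Place F)}

/-- A matrix fixes the base coset at almost all places. -/
lemma eventually_smul_base [Finite S] (g : GL (Fin 2) F) :
    ∀ᶠ v : Place F in cofinite, g • ((1 : GL (Fin 2) F) : Vert S v) =
      ((1 : GL (Fin 2) F) : Vert S v) := by
  have hS : ∀ᶠ v : Place F in cofinite, v ∉ S :=
    (Set.toFinite S).compl_mem_cofinite
  filter_upwards [hS, eventually_mem_intGL g] with v hv hg
  rw [MulAction.Quotient.smul_coe, QuotientGroup.eq, lev_of_not_mem hv]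
  simpa using (U0 (v.valuation F)).inv_mem (le_withScalars _ hg)

/-- The diagonal action on the finite points. -/
noncomputable instance instMulActionFinPt [Finite S] : MulAction (GL (Fin 2) F) (FinPt F S) where
  smul g ω := ⟨fun v => g • ω.1 v, by
    filter_upwards [ω.2, eventually_smul_base (S := S) g] with v h1 h2
    rw [h1, h2]⟩
  one_smul ω := Subtype.ext (funext fun v => one_smul _ (ω.1 v))
  mul_smul g h ω := Subtype.ext (funext fun v => mul_smul g h (ω.1 v))

/-- The components of a translate. -/
@[simp] lemma FinPt.smul_apply [Finite S] (g : GL (Fin 2) F) (ω : FinPt F S) (v : Place F) :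
    (g • ω).1 v = g • ω.1 v := rfl

/-- The base point. -/
noncomputable def FinPt.base : FinPt F S :=
  ⟨fun v => ((1 : GL (Fin 2) F) : Vert S v), Eventually.of_forall fun _ => rfl⟩

/-- There are countably many finite points. -/
instance countable_finPt : Countable (FinPt F S) := by
  have : Countable (Σ v : Place F, Vert S v) := by
    have : ∀ v : Place F, Countable (Vert S v) := fun v =>
      Function.Surjective.countable QuotientGroup.mk_surjective
    infer_instance
  let enc : FinPt F S → Finset (Σ v : Place F, Vert S v) := fun ω =>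
    (eventually_cofinite.1 ω.2).toFinset.image fun v => ⟨v, ω.1 v⟩
  refine Function.Injective.countable (f := enc) fun ω ω' h => ?_
  apply Subtype.ext
  funext v
  by_cases hv : ω.1 v = ((1 : GL (Fin 2) F) : Vert S v)
  · by_cases hv' : ω'.1 v = ((1 : GL (Fin 2) F) : Vert S v)
    · rw [hv, hv']
    · have hm : (⟨v, ω'.1 v⟩ : Σ v : Place F, Vert S v) ∈ enc ω := by
        rw [h]; exact Finset.mem_image.2 ⟨v, by simpa using hv', rfl⟩
      obtain ⟨u, hu, he⟩ := Finset.mem_image.1 hm
      obtain rfl : u = v := congrArg Sigma.fst he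
      exact eq_of_heq (Sigma.mk.inj he).2
  · have hm : (⟨v, ω.1 v⟩ : Σ v : Place F, Vert S v) ∈ enc ω' := by
      rw [← h]; exact Finset.mem_image.2 ⟨v, by simpa using hv, rfl⟩
    obtain ⟨u, hu, he⟩ := Finset.mem_image.1 hm
    obtain rfl : u = v := congrArg Sigma.fst he
    exact (eq_of_heq (Sigma.mk.inj he).2).symm

/-- The finite points are discrete. -/
instance instMeasurableSpaceFinPt : MeasurableSpace (FinPt F S) := ⊤

/-- The diagonal action on the points. -/
noncomputable instance instMulActionPt [Finite S] : MulAction (GL (Fin 2) F) (Pt F S) where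
  smul g p := (g • p.1, fun w => atInf w g • p.2 w)
  one_smul p := Prod.ext (one_smul _ p.1) (funext fun w => by
    change atInf w 1 • p.2 w = p.2 w
    rw [map_one, one_smul])
  mul_smul g h p := Prod.ext (mul_smul g h p.1) (funext fun w => by
    change atInf w (g * h) • p.2 w = atInf w g • (atInf w h • p.2 w)
    rw [map_mul, mul_smul])

/-- The finite part of a translate. -/
@[simp] lemma Pt.smul_fst [Finite S] (g : GL (Fin 2) F) (p : Pt F S) : (g • p).1 = g • p.1 := rfl

/-- The infinite part of a translate. -/
@[simp] lemma Pt.smul_snd [Finite S] (g : GL (Fin 2) F) (p : Pt F S) (w : InfinitePlace F) :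
    (g • p).2 w = atInf w g • p.2 w := rfl

/-- Invariance under all rational matrices. -/
lemma isInvariant_iff [Finite S] {Φ : Pt F S → ℂ} :
    IsInvariant Φ ↔ ∀ (g : GL (Fin 2) F) (p : Pt F S), Φ (g • p) = Φ p := by
  refine ⟨fun h g p => h g p (g • p) (fun v => rfl) (fun w => rfl), fun h g p q h1 h2 => ?_⟩
  rw [show q = g • p from Prod.ext (Subtype.ext (funext h1)) (funext h2), h]

/-- Scalars act trivially. -/
lemma Pt.scal_smul [Finite S] (c : Fˣ) (p : Pt F S) : scal c • p = p := by
  refine Prod.ext (Subtype.ext (funext fun v => ?_)) (funext fun w => ?_)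
  · obtain ⟨g, hg⟩ := QuotientGroup.mk_surjective (p.1.1 v)
    rw [Pt.smul_fst, FinPt.smul_apply, ← hg, MulAction.Quotient.smul_coe, QuotientGroup.eq,
      smul_eq_mul, scal_comm, mul_inv_rev, mul_assoc, inv_mul_cancel, mul_one]
    by_cases hv : v ∈ S
    · rw [lev_of_mem hv]; exact (U1 _).inv_mem (scal_mem_withScalars _ c)
    · rw [lev_of_not_mem hv]; exact (U0 _).inv_mem (scal_mem_withScalars _ c)
  · obtain ⟨g, hg⟩ := QuotientGroup.mk_surjective (p.2 w)
    have e : atInf w (scal c) = scal (Units.map w.embedding.toMonoidHom c) := by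
      refine Units.ext ?_
      change (Matrix.scalar (Fin 2) (c : F)).map w.embedding = Matrix.scalar (Fin 2) (w.embedding c)
      rw [Matrix.scalar_apply, Matrix.scalar_apply, Matrix.diagonal_map (map_zero _)]
    rw [Pt.smul_snd, ← hg, MulAction.Quotient.smul_coe, QuotientGroup.eq, smul_eq_mul, e,
      scal_comm, mul_inv_rev, mul_assoc, inv_mul_cancel, mul_one]
    refine UC.inv_mem ⟨(Complex.normSq (w.embedding (c : F)) : ℂ), ?_, ?_⟩
    · simp
    · rw [scal_coe]
      simp [Matrix.scalar_apply, Complex.normSq_eq_conj_mul_self]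

/-- The measure on points. -/
noncomputable def ptMeasure : Measure (Pt F S) :=
  (Measure.count : Measure (FinPt F S)).prod (Measure.pi fun _ => hmeas)

/-- A cusp box has finite measure. -/
lemma hmeas_box_lt_top (R : ℝ) {c : ℝ} (hc : 0 < c) :
    hmeas (H3.coord ⁻¹' (Metric.closedBall (0 : ℂ) R ×ˢ Set.Ici c)) < ⊤ := by
  have hm : MeasurableSet (H3.coord ⁻¹' (Metric.closedBall (0 : ℂ) R ×ˢ Set.Ici c)) :=
    (measurableSet_closedBall.prod measurableSet_Ici).preimage continuous_coord.measurable
  rw [hmeas, Measure.map_apply measurable_hmk hm, hvol,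
    withDensity_apply _ (hm.preimage measurable_hmk),
    ← lintegral_indicator (hm.preimage measurable_hmk)]
  -- compare with the Euclidean box weighted by `t⁻³`
  have hle : ∫⁻ p in (Set.univ : Set ℂ) ×ˢ Set.Ioi (0 : ℝ),
      (hmk ⁻¹' (H3.coord ⁻¹' (Metric.closedBall (0 : ℂ) R ×ˢ Set.Ici c))).indicator
        (fun p => ENNReal.ofReal ((p.2 ^ 3)⁻¹)) p
      ≤ ∫⁻ p : ℂ × ℝ, (Metric.closedBall (0 : ℂ) R ×ˢ Set.Ici c).indicator
        (fun p => ENNReal.ofReal ((p.2 ^ 3)⁻¹)) p := by
    rw [← lintegral_indicator (MeasurableSet.univ.prod measurableSet_Ioi)]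
    refine lintegral_mono fun p => ?_
    by_cases hp : p ∈ (Set.univ : Set ℂ) ×ˢ Set.Ioi (0 : ℝ)
    · rw [Set.indicator_of_mem hp]
      have e : H3.coord (hmk p) = p := H3.coord_mk_of_pos p.1 hp.2
      by_cases hq : p ∈ Metric.closedBall (0 : ℂ) R ×ˢ Set.Ici c
      · rw [Set.indicator_of_mem hq,
          Set.indicator_of_mem (show p ∈ hmk ⁻¹' _ by simpa [Set.mem_preimage, e] using hq)]
      · rw [Set.indicator_of_notMem (show p ∉ hmk ⁻¹' _ by simpa [Set.mem_preimage, e] using hq)]
        exact zero_le
    · rw [Set.indicator_of_notMem hp]; exact zero_le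
  refine lt_of_le_of_lt hle ?_
  rw [lintegral_indicator (measurableSet_closedBall.prod measurableSet_Ici),
    Measure.volume_eq_prod, setLIntegral_prod _ (by fun_prop)]
  simp only [lintegral_const, Measure.restrict_apply_univ]
  rw [mul_comm]
  -- a disc of finite area times a convergent integral
  refine ENNReal.mul_lt_top measure_closedBall_lt_top ?_
  have hI : IntegrableOn (fun t : ℝ => (t ^ 3)⁻¹) (Set.Ici c) := by
    have h := integrableOn_Ioi_rpow_of_lt (a := (-3 : ℝ)) (by norm_num) hc
    rw [integrableOn_Ici_iff_integrableOn_Ioi]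
    refine h.congr_fun (fun t ht => ?_) measurableSet_Ioi
    have ht0 : (0 : ℝ) < t := lt_trans hc ht
    show t ^ (-3 : ℝ) = (t ^ 3)⁻¹
    rw [Real.rpow_neg ht0.le, ← Real.rpow_natCast]; norm_num
  exact lt_of_le_of_lt (lintegral_mono fun t => Real.ofReal_le_enorm _) hI.hasFiniteIntegral

/-- The invariant measure is σ-finite. -/
instance sigmaFinite_hmeas : SigmaFinite hmeas := by
  -- exhaust by the boxes `‖z‖ ≤ n`, `t ≥ (n + 1)⁻¹`
  refine ⟨⟨⟨fun n => H3.coord ⁻¹' (Metric.closedBall (0 : ℂ) n ×ˢ Set.Ici ((n + 1 : ℝ)⁻¹)),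
    fun _ => trivial, fun n => ?_, ?_⟩⟩⟩
  · exact hmeas_box_lt_top n (by positivity)
  · refine Set.eq_univ_of_forall fun x => ?_
    obtain ⟨n, hn⟩ := exists_nat_ge (max ‖(H3.coord x).1‖ ((H3.coord x).2⁻¹))
    refine Set.mem_iUnion.2 ⟨n, ⟨?_, ?_⟩⟩
    · simpa using (le_max_left _ _).trans hn
    · have := H3.coord_pos x
      change ((n + 1 : ℝ)⁻¹) ≤ (H3.coord x).2
      rw [inv_le_comm₀ (by positivity) this]
      linarith [(le_max_right _ _).trans hn]

/-- `GL₂(F)` preserves the measure on points. -/
theorem measurePreserving_smul_pt [Finite S] (g : GL (Fin 2) F) :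
    MeasurePreserving (fun p : Pt F S => g • p) (ptMeasure (F := F) (S := S))
      (ptMeasure (F := F) (S := S)) := by
  have h1 : MeasurePreserving (fun ω : FinPt F S => g • ω) (Measure.count : Measure (FinPt F S))
      (Measure.count : Measure (FinPt F S)) := by
    refine ⟨measurable_from_top, Measure.ext fun s hs => ?_⟩
    rw [Measure.map_apply measurable_from_top hs,
      Measure.count_apply (hs.preimage measurable_from_top), Measure.count_apply hs]
    congr 1
    exact Set.encard_preimage_of_bijective (MulAction.bijective (β := FinPt F S) g) s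
  have h2 : MeasurePreserving (fun (x : InfinitePlace F → H3) => fun w => atInf w g • x w)
      (Measure.pi fun _ => hmeas) (Measure.pi fun _ => hmeas) :=
    measurePreserving_pi _ _ fun w => measurePreserving_smul_H3 (atInf w g)
  exact h1.prod h2

end Fermat.LT
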