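import Fermat.Agent.LT.H3

/-!
# Upper half space coordinates on `H3`, the point pair invariant

`H3.coord` gives the coordinates `(z, t)`; by `H3.mk_coord` they determine the point.
-/

set_option autoImplicit false
open scoped Matrix ComplexConjugate

namespace Fermat.LT

/-- The hermitian form `g gᴴ`. -/
noncomputable def herm (g : GL (Fin 2) ℂ) : Matrix (Fin 2) (Fin 2) ℂ :=
  (g : Matrix (Fin 2) (Fin 2) ℂ) * (g : Matrix (Fin 2) (Fin 2) ℂ)ᴴ

/-- The entries of `g gᴴ`. -/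
lemma herm_eq (g : GL (Fin 2) ℂ) (i j : Fin 2) :
    herm g i j = (g : Matrix (Fin 2) (Fin 2) ℂ) i 0 * conj ((g : Matrix (Fin 2) (Fin 2) ℂ) j 0)
      + (g : Matrix (Fin 2) (Fin 2) ℂ) i 1 * conj ((g : Matrix (Fin 2) (Fin 2) ℂ) j 1) := by
  simp [herm, Matrix.mul_apply]

/-- The lower diagonal entry of `g gᴴ` is positive. -/
lemma herm11_re_pos (g : GL (Fin 2) ℂ) : 0 < (herm g 1 1).re := by
  rw [herm_eq, Complex.mul_conj, Complex.mul_conj, Complex.add_re, Complex.ofReal_re,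
    Complex.ofReal_re]
  have h := (Matrix.GeneralLinearGroup.det g).ne_zero
  rw [Matrix.GeneralLinearGroup.val_det_apply, Matrix.det_fin_two] at h
  rcases eq_or_ne ((g : Matrix (Fin 2) (Fin 2) ℂ) 1 0) 0 with h0 | h0
  · have h1 : (g : Matrix (Fin 2) (Fin 2) ℂ) 1 1 ≠ 0 := fun h1 => h (by rw [h0, h1]; ring)
    have := Complex.normSq_pos.2 h1
    have := Complex.normSq_nonneg ((g : Matrix (Fin 2) (Fin 2) ℂ) 1 0)
    linarith
  · have := Complex.normSq_pos.2 h0
    have := Complex.normSq_nonneg ((g : Matrix (Fin 2) (Fin 2) ℂ) 1 1)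
    linarith

/-- The lower diagonal entry of `g gᴴ` is real. -/
lemma herm11_ofReal (g : GL (Fin 2) ℂ) : herm g 1 1 = ((herm g 1 1).re : ℂ) := by
  rw [herm_eq, Complex.mul_conj, Complex.mul_conj]; simp

/-- Elements of `UC` scale `g gᴴ`. -/
lemma UC.mul_conjTranspose {k : GL (Fin 2) ℂ} (hk : k ∈ UC) :
    ∃ r : ℝ, 0 < r ∧ (k : Matrix (Fin 2) (Fin 2) ℂ) * (k : Matrix (Fin 2) (Fin 2) ℂ)ᴴ
      = Matrix.scalar (Fin 2) (r : ℂ) ∧ ‖(k : Matrix (Fin 2) (Fin 2) ℂ).det‖ = r := by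
  obtain ⟨c, hc, h⟩ := hk
  set K : Matrix (Fin 2) (Fin 2) ℂ := ↑k with hK
  have h00 := congrFun (congrFun h 0) 0
  simp only [Matrix.mul_apply, Fin.sum_univ_two, Matrix.conjTranspose_apply, Matrix.scalar_apply,
    Matrix.diagonal_apply_eq, RCLike.star_def] at h00
  rw [← Complex.normSq_eq_conj_mul_self, ← Complex.normSq_eq_conj_mul_self] at h00
  set r := Complex.normSq (K 0 0) + Complex.normSq (K 1 0) with hr
  have hcr : c = (r : ℂ) := by rw [← h00, hr]; push_cast; ring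
  have hr0 : 0 < r := by
    rcases (add_nonneg (Complex.normSq_nonneg (K 0 0)) (Complex.normSq_nonneg (K 1 0))).lt_or_eq
      with h' | h'
    · exact h'
    · exact absurd (by rw [hcr, hr, ← h']; simp) hc
  refine ⟨r, hr0, ?_, ?_⟩
  · have h1 : (Matrix.scalar (Fin 2) c⁻¹ * Kᴴ) * K = 1 := by
      rw [Matrix.mul_assoc, h, ← map_mul, inv_mul_cancel₀ hc, map_one]
    have h2 := mul_eq_one_comm.1 h1
    rw [Matrix.scalar_apply, ← Matrix.smul_eq_diagonal_mul, Matrix.mul_smul] at h2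
    have h3 := congrArg (c • ·) h2
    simp only [smul_smul, mul_inv_cancel₀ hc, one_smul] at h3
    rw [h3, ← hcr, Matrix.scalar_apply, Matrix.smul_one_eq_diagonal]
  · have hd := congrArg Matrix.det h
    rw [Matrix.det_mul, Matrix.det_conjTranspose, hcr, Matrix.scalar_apply,
      Matrix.det_diagonal] at hd
    simp only [Fin.prod_univ_two, RCLike.star_def] at hd
    rw [← Complex.normSq_eq_conj_mul_self, ← Complex.ofReal_mul, Complex.ofReal_inj,
      Complex.normSq_eq_norm_sq] at hd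
    nlinarith [norm_nonneg K.det]

/-- Coordinate `z` of `g`. -/
noncomputable def zc (g : GL (Fin 2) ℂ) : ℂ := herm g 0 1 / herm g 1 1

/-- Coordinate `t` of `g`. -/
noncomputable def tc (g : GL (Fin 2) ℂ) : ℝ :=
  ‖(g : Matrix (Fin 2) (Fin 2) ℂ).det‖ / (herm g 1 1).re

/-- The height is positive. -/
lemma tc_pos (g : GL (Fin 2) ℂ) : 0 < tc g :=
  div_pos (norm_pos_iff.2 (Matrix.GeneralLinearGroup.det g).ne_zero) (herm11_re_pos g)

/-- Right multiplication by `UC` scales the form `g gᴴ` and the determinant by one positive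
factor. -/
lemma herm_mul_UC (g : GL (Fin 2) ℂ) {k : GL (Fin 2) ℂ} (hk : k ∈ UC) :
    ∃ r : ℝ, 0 < r ∧ herm (g * k) = (r : ℂ) • herm g ∧
      ‖((g * k : GL (Fin 2) ℂ) : Matrix (Fin 2) (Fin 2) ℂ).det‖
        = r * ‖(g : Matrix (Fin 2) (Fin 2) ℂ).det‖ := by
  obtain ⟨r, hr, h, hd⟩ := UC.mul_conjTranspose hk
  refine ⟨r, hr, ?_, by rw [Units.val_mul, Matrix.det_mul, norm_mul, hd, mul_comm]⟩
  set G : Matrix (Fin 2) (Fin 2) ℂ := ↑g with hG
  set K : Matrix (Fin 2) (Fin 2) ℂ := ↑k with hK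
  change ((g * k : GL (Fin 2) ℂ) : Matrix (Fin 2) (Fin 2) ℂ)
    * ((g * k : GL (Fin 2) ℂ) : Matrix (Fin 2) (Fin 2) ℂ)ᴴ = _
  rw [Units.val_mul, ← hG, ← hK, Matrix.conjTranspose_mul, Matrix.mul_assoc,
    ← Matrix.mul_assoc K, h, Matrix.scalar_apply, ← Matrix.smul_eq_diagonal_mul, Matrix.mul_smul]
  rfl

/-- The horizontal coordinate is right invariant. -/
lemma zc_mul_UC (g : GL (Fin 2) ℂ) {k : GL (Fin 2) ℂ} (hk : k ∈ UC) : zc (g * k) = zc g := by
  obtain ⟨r, hr, h, -⟩ := herm_mul_UC g hk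
  have : (r : ℂ) ≠ 0 := by exact_mod_cast hr.ne'
  simp [zc, h, mul_div_mul_left _ _ this]

/-- The height is right invariant. -/
lemma tc_mul_UC (g : GL (Fin 2) ℂ) {k : GL (Fin 2) ℂ} (hk : k ∈ UC) : tc (g * k) = tc g := by
  obtain ⟨r, hr, h, hd⟩ := herm_mul_UC g hk
  rw [tc, tc, hd, h, Matrix.smul_apply, smul_eq_mul, Complex.re_ofReal_mul,
    mul_div_mul_left _ _ hr.ne']

/-- Coordinates of a point. -/
noncomputable def H3.coord : H3 → ℂ × ℝ :=
  Quotient.lift (fun g => (zc g, tc g)) fun a b hab => by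
    have h : a⁻¹ * b ∈ UC := QuotientGroup.leftRel_apply.1 hab
    have hz := zc_mul_UC a h
    have ht := tc_mul_UC a h
    rw [mul_inv_cancel_left] at hz ht
    simp [hz, ht]

/-- The coordinates of the class of a matrix. -/
@[simp] lemma H3.coord_mk (g : GL (Fin 2) ℂ) : H3.coord (g : H3) = (zc g, tc g) := rfl

/-- The height of a point is positive. -/
lemma H3.coord_pos (x : H3) : 0 < (H3.coord x).2 := by
  obtain ⟨g, rfl⟩ := QuotientGroup.mk_surjective x
  exact tc_pos g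

/-- The triangular matrix of coordinates. -/
noncomputable def triMat (z : ℂ) {t : ℝ} (ht : 0 < t) : GL (Fin 2) ℂ :=
  Matrix.GeneralLinearGroup.mkOfDetNeZero !![(t : ℂ), z; 0, 1]
    (by simp [Matrix.det_fin_two, ht.ne'])

/-- The point with given coordinates. -/
lemma H3.mk_of_pos (z : ℂ) {t : ℝ} (ht : 0 < t) : H3.mk z t = (triMat z ht : H3) := by
  rw [H3.mk, dif_pos ht]; rfl

/-- The entries of the triangular matrix. -/
lemma coe_triMat (z : ℂ) {t : ℝ} (ht : 0 < t) :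
    ((triMat z ht : GL (Fin 2) ℂ) : Matrix (Fin 2) (Fin 2) ℂ) = !![(t : ℂ), z; 0, 1] := rfl

/-- The coordinates of the point with given coordinates. -/
lemma H3.coord_mk_of_pos (z : ℂ) {t : ℝ} (ht : 0 < t) : H3.coord (H3.mk z t) = (z, t) := by
  rw [H3.mk_of_pos z ht, H3.coord_mk, zc, tc, herm_eq, herm_eq, coe_triMat]
  simp [Matrix.det_fin_two, abs_of_pos ht]

/-- Every element is a triangular matrix times an element of `UC`. -/
lemma eq_triMat (g : GL (Fin 2) ℂ) : (g : H3) = (triMat (zc g) (tc_pos g) : H3) := by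
  rw [QuotientGroup.eq]
  set A := triMat (zc g) (tc_pos g) with hA
  set k := g⁻¹ * A with hk
  set ρ : ℝ := (herm g 1 1).re with hρ
  have hρ0 : 0 < ρ := herm11_re_pos g
  -- `A Aᴴ = g gᴴ / ρ`
  have hh : herm A = ((ρ⁻¹ : ℝ) : ℂ) • herm g := by
    have h01 : herm g 1 0 = conj (herm g 0 1) := by simp [herm_eq]; ring
    have hdet : ((‖(g : Matrix (Fin 2) (Fin 2) ℂ).det‖ ^ 2 : ℝ) : ℂ)
        = herm g 0 0 * herm g 1 1 - herm g 0 1 * herm g 1 0 := by
      rw [← Matrix.det_fin_two, herm, Matrix.det_mul, Matrix.det_conjTranspose, RCLike.star_def,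
        Complex.mul_conj, Complex.normSq_eq_norm_sq]
    have hρc : herm g 1 1 = (ρ : ℂ) := herm11_ofReal g
    have hρne : (ρ : ℂ) ≠ 0 := by exact_mod_cast hρ0.ne'
    ext i j
    rw [Matrix.smul_apply, smul_eq_mul, herm_eq A, hA, coe_triMat, zc, tc]
    rw [← hρ, hρc]
    fin_cases i <;> fin_cases j
    · simp [h01] at hdet ⊢
      rw [hρc] at hdet
      field_simp
      linear_combination hdet
    · simp
      field_simp
    · simp [h01]
      field_simp
    · simp [hρc]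
      field_simp
  set G : Matrix (Fin 2) (Fin 2) ℂ := ↑g with hG
  have hAk : (A : Matrix (Fin 2) (Fin 2) ℂ) = G * (k : Matrix (Fin 2) (Fin 2) ℂ) := by
    rw [hG, ← Units.val_mul, hk, mul_inv_cancel_left]
  set K : Matrix (Fin 2) (Fin 2) ℂ := ↑k with hK
  have hGinv : IsUnit G := g.isUnit
  have hKK : K * Kᴴ = Matrix.scalar (Fin 2) ((ρ⁻¹ : ℝ) : ℂ) := by
    have e1 : G * (K * Kᴴ) * Gᴴ = G * Matrix.scalar (Fin 2) ((ρ⁻¹ : ℝ) : ℂ) * Gᴴ := by
      have : herm A = G * (K * Kᴴ) * Gᴴ := by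
        rw [herm, hAk, Matrix.conjTranspose_mul, Matrix.mul_assoc, Matrix.mul_assoc,
          Matrix.mul_assoc]
      rw [← this, hh, herm, ← hG,
        ← (Matrix.scalar_commute ((ρ⁻¹ : ℝ) : ℂ) (fun x => mul_comm _ x) G).eq,
        Matrix.scalar_apply, ← Matrix.smul_eq_diagonal_mul, Matrix.smul_mul]
    exact hGinv.mul_left_cancel ((g.isUnit.star).mul_right_cancel e1)
  have hinv : k⁻¹ ∈ UC := by
    refine ⟨(ρ : ℂ), by exact_mod_cast hρ0.ne', ?_⟩
    set K' : Matrix (Fin 2) (Fin 2) ℂ := ↑k⁻¹ with hK'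
    have hk1 : K' * K = 1 := by rw [hK', hK, ← Units.val_mul, inv_mul_cancel]; rfl
    have hk2 : K * K' = 1 := by rw [hK', hK, ← Units.val_mul, mul_inv_cancel]; rfl
    have h3 : Kᴴ = K' * Matrix.scalar (Fin 2) ((ρ⁻¹ : ℝ) : ℂ) := by
      rw [← hKK, ← Matrix.mul_assoc, hk1, Matrix.one_mul]
    have h4 : K'ᴴ * Kᴴ = 1 := by rw [← Matrix.conjTranspose_mul, hk2, Matrix.conjTranspose_one]
    rw [h3, ← Matrix.mul_assoc] at h4
    calc K'ᴴ * K' = K'ᴴ * K' * Matrix.scalar (Fin 2) ((ρ⁻¹ : ℝ) : ℂ)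
          * Matrix.scalar (Fin 2) (ρ : ℂ) := by
          rw [Matrix.mul_assoc (K'ᴴ * K'), ← map_mul, ← Complex.ofReal_mul,
            inv_mul_cancel₀ hρ0.ne', Complex.ofReal_one, map_one, Matrix.mul_one]
      _ = Matrix.scalar (Fin 2) (ρ : ℂ) := by rw [h4, Matrix.one_mul]
  exact inv_inv k ▸ UC.inv_mem hinv

/-- A point is determined by its coordinates. -/
lemma H3.mk_coord (x : H3) : H3.mk (H3.coord x).1 (H3.coord x).2 = x := by
  obtain ⟨g, rfl⟩ := QuotientGroup.mk_surjective x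
  rw [H3.coord_mk, H3.mk_of_pos _ (tc_pos g), ← eq_triMat g]

/-- The coordinates of `H3` are continuous. -/
lemma continuous_coord : Continuous H3.coord := by
  have hh : ∀ i j, Continuous fun g : GL (Fin 2) ℂ => herm g i j := fun i j => by
    simp only [herm_eq]; fun_prop
  refine Continuous.quotient_lift ?_ _
  refine Continuous.prodMk ?_ ?_
  · exact (hh 0 1).div (hh 1 1) fun g h => by
      have := herm11_re_pos g; rw [h] at this; simp at this
  · refine Continuous.div ?_ (Complex.continuous_re.comp (hh 1 1)) fun g => (herm11_re_pos g).ne'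
    simp only [Matrix.det_fin_two]
    fun_prop

end Fermat.LT
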