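import Fermat.Agent.LT.H3Coord

/-!
# The point pair invariant of `H3`

`cd` is `cosh` of the distance in coordinates; `coshd_eq_cd` identifies it with the invariant
`coshd`, which is symmetric (`coshd_comm`).
-/

set_option autoImplicit false
open scoped Matrix ComplexConjugate

namespace Fermat.LT

/-- An element `k` of `UC` satisfies `kᴴ k = k kᴴ = ‖det k‖ > 0`. -/
lemma UC.det_norm_pos {k : GL (Fin 2) ℂ} (hk : k ∈ UC) :
    ∃ r : ℝ, 0 < r ∧ (k : Matrix (Fin 2) (Fin 2) ℂ)ᴴ * (k : Matrix (Fin 2) (Fin 2) ℂ)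
      = Matrix.scalar (Fin 2) (r : ℂ) ∧
      (k : Matrix (Fin 2) (Fin 2) ℂ) * (k : Matrix (Fin 2) (Fin 2) ℂ)ᴴ
      = Matrix.scalar (Fin 2) (r : ℂ) ∧ ‖(k : Matrix (Fin 2) (Fin 2) ℂ).det‖ = r := by
  obtain ⟨r, hr, h1, h2⟩ := UC.mul_conjTranspose hk
  obtain ⟨c, hc, h⟩ := hk
  refine ⟨r, hr, ?_, h1, h2⟩
  set K : Matrix (Fin 2) (Fin 2) ℂ := ↑k
  have e1 : (Matrix.scalar (Fin 2) c⁻¹ * Kᴴ) * K = 1 := by
    rw [Matrix.mul_assoc, h, ← map_mul, inv_mul_cancel₀ hc, map_one]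
  have e2 := mul_eq_one_comm.1 e1
  rw [Matrix.scalar_apply, ← Matrix.smul_eq_diagonal_mul, Matrix.mul_smul, h1] at e2
  have e3 := congrFun (congrFun e2 0) 0
  simp at e3
  have : c = (r : ℂ) := by field_simp at e3; exact e3.symm
  rw [h, this]

/-- The invariant is right invariant under the compact subgroup. -/
lemma coshd0_mul_right (g : GL (Fin 2) ℂ) {k : GL (Fin 2) ℂ} (hk : k ∈ UC) :
    coshd0 (g * k) = coshd0 g := by
  obtain ⟨r, hr, -, h, hd⟩ := UC.det_norm_pos hk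
  rw [coshd0, coshd0, Units.val_mul, Matrix.det_mul, norm_mul, hd, Matrix.conjTranspose_mul,
    Matrix.trace_mul_comm, Matrix.mul_assoc, ← Matrix.mul_assoc (k : Matrix (Fin 2) (Fin 2) ℂ), h,
    Matrix.scalar_apply, ← Matrix.smul_eq_diagonal_mul, Matrix.mul_smul, Matrix.trace_smul,
    Matrix.trace_mul_comm, smul_eq_mul, Complex.re_ofReal_mul,
    show 2 * (‖(g : Matrix (Fin 2) (Fin 2) ℂ).det‖ * r)
      = r * (2 * ‖(g : Matrix (Fin 2) (Fin 2) ℂ).det‖) by ring, mul_div_mul_left _ _ hr.ne']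

/-- The invariant is left invariant under the compact subgroup. -/
lemma coshd0_mul_left (g : GL (Fin 2) ℂ) {k : GL (Fin 2) ℂ} (hk : k ∈ UC) :
    coshd0 (k * g) = coshd0 g := by
  obtain ⟨r, hr, h, -, hd⟩ := UC.det_norm_pos hk
  rw [coshd0, coshd0, Units.val_mul, Matrix.det_mul, norm_mul, hd, Matrix.conjTranspose_mul,
    Matrix.mul_assoc, ← Matrix.mul_assoc ((k : Matrix (Fin 2) (Fin 2) ℂ)ᴴ), h,
    Matrix.scalar_apply, ← Matrix.smul_eq_diagonal_mul, Matrix.mul_smul, Matrix.trace_smul,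
    smul_eq_mul, Complex.re_ofReal_mul,
    show 2 * (r * ‖(g : Matrix (Fin 2) (Fin 2) ℂ).det‖)
      = r * (2 * ‖(g : Matrix (Fin 2) (Fin 2) ℂ).det‖) by ring, mul_div_mul_left _ _ hr.ne']

/-- The point pair invariant of two cosets is that of `g⁻¹ h` from the base point. -/
lemma coshd_mk_mk (g h : GL (Fin 2) ℂ) : coshd (g : H3) (h : H3) = coshd0 (g⁻¹ * h) := by
  obtain ⟨a, ha⟩ := QuotientGroup.mk_out_eq_mul UC g
  obtain ⟨b, hb⟩ := QuotientGroup.mk_out_eq_mul UC h
  rw [coshd, ha, hb, mul_inv_rev,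
    show (a : GL (Fin 2) ℂ)⁻¹ * g⁻¹ * (h * b) = (a : GL (Fin 2) ℂ)⁻¹ * (g⁻¹ * h) * b by group,
    coshd0_mul_right _ b.2, coshd0_mul_left _ (UC.inv_mem a.2)]

/-- The point pair invariant is invariant under `GL₂(ℂ)`. -/
lemma coshd_smul (g : GL (Fin 2) ℂ) (x y : H3) : coshd (g • x) (g • y) = coshd x y := by
  obtain ⟨a, rfl⟩ := QuotientGroup.mk_surjective x
  obtain ⟨b, rfl⟩ := QuotientGroup.mk_surjective y
  rw [MulAction.Quotient.smul_coe, MulAction.Quotient.smul_coe, coshd_mk_mk, coshd_mk_mk]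
  simp [mul_assoc]

/-- `cosh d = (|z - z'|² + t² + t'²) / (2 t t')`. -/
noncomputable def cd (p q : ℂ × ℝ) : ℝ :=
  (Complex.normSq (p.1 - q.1) + p.2 ^ 2 + q.2 ^ 2) / (2 * (p.2 * q.2))

/-- In coordinates the point pair invariant is the hyperbolic cosine formula. -/
lemma coshd_mk (z z' : ℂ) {t t' : ℝ} (ht : 0 < t) (ht' : 0 < t') :
    coshd (H3.mk z t) (H3.mk z' t') = cd (z, t) (z', t') := by
  rw [H3.mk_of_pos z ht, H3.mk_of_pos z' ht', coshd_mk_mk]
  set m := (triMat z ht)⁻¹ * triMat z' ht' with hm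
  have hne : (t : ℂ) ≠ 0 := by exact_mod_cast ht.ne'
  have he : (m : Matrix (Fin 2) (Fin 2) ℂ) = !![(t' : ℂ) / t, (z' - z) / t; 0, 1] := by
    have : (triMat z ht : Matrix (Fin 2) (Fin 2) ℂ) * !![(t' : ℂ) / t, (z' - z) / t; 0, 1]
        = (triMat z' ht' : Matrix (Fin 2) (Fin 2) ℂ) := by
      rw [coe_triMat, coe_triMat]
      ext i j
      fin_cases i <;> fin_cases j <;> simp [Matrix.mul_apply, mul_div_cancel₀ _ hne]
    rw [hm, Units.val_mul, ← this, ← Matrix.mul_assoc, ← Units.val_mul, inv_mul_cancel]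
    simp
  have htr : (((m : Matrix (Fin 2) (Fin 2) ℂ)ᴴ * (m : Matrix (Fin 2) (Fin 2) ℂ)).trace).re
      = Complex.normSq ((t' : ℂ) / t) + Complex.normSq ((z' - z) / t) + 1 := by
    rw [he]
    simp [Matrix.trace_fin_two, Matrix.mul_apply, Complex.normSq_apply]
    ring
  have hdet : ‖(m : Matrix (Fin 2) (Fin 2) ℂ).det‖ = t' / t := by
    rw [he, Matrix.det_fin_two_of]
    simp [abs_of_pos ht, abs_of_pos ht']
  rw [coshd0, htr, hdet, cd, Complex.normSq_div, Complex.normSq_div, Complex.normSq_ofReal,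
    Complex.normSq_ofReal, show z - z' = -(z' - z) by ring, Complex.normSq_neg]
  field_simp
  ring

/-- The invariant in coordinates. -/
lemma coshd_eq_cd (x y : H3) : coshd x y = cd (H3.coord x) (H3.coord y) := by
  conv_lhs => rw [← H3.mk_coord x, ← H3.mk_coord y]
  rw [coshd_mk _ _ (H3.coord_pos x) (H3.coord_pos y)]

/-- The formula is symmetric. -/
lemma cd_comm (p q : ℂ × ℝ) : cd p q = cd q p := by
  rw [cd, cd, ← neg_sub p.1 q.1, Complex.normSq_neg, mul_comm p.2]; ring_nf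

/-- The invariant is symmetric. -/
lemma coshd_comm (x y : H3) : coshd x y = coshd y x := by
  rw [coshd_eq_cd, coshd_eq_cd, cd_comm]

/-- The point pair invariant is at least `1`. -/
lemma one_le_coshd (x y : H3) : 1 ≤ coshd x y := by
  rw [coshd_eq_cd, cd]
  have hx := H3.coord_pos x
  have hy := H3.coord_pos y
  rw [le_div_iff₀ (by positivity)]
  nlinarith [sq_nonneg ((H3.coord x).2 - (H3.coord y).2),
    Complex.normSq_nonneg ((H3.coord x).1 - (H3.coord y).1)]

/-- The point pair invariant is continuous. -/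
lemma continuous_coshd : Continuous fun p : H3 × H3 => coshd p.1 p.2 := by
  simp only [coshd_eq_cd, cd]
  have h1 : Continuous fun p : H3 × H3 => H3.coord p.1 := continuous_coord.comp continuous_fst
  have h2 : Continuous fun p : H3 × H3 => H3.coord p.2 := continuous_coord.comp continuous_snd
  refine Continuous.div ?_ ?_ fun p => ?_
  · exact ((Complex.continuous_normSq.comp (h1.fst.sub h2.fst)).add (h1.snd.pow 2)).add
      (h2.snd.pow 2)
  · exact continuous_const.mul (h1.snd.mul h2.snd)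
  · have := H3.coord_pos p.1; have := H3.coord_pos p.2; positivity

end Fermat.LT
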