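import Fermat.Agent.LT.FinSpace

/-!
# `PGL₂(F)` acts properly on the point space

`finite_moving`: only finitely many classes move a bounded set to a bounded set.
-/

set_option autoImplicit false
open IsDedekindDomain NumberField MeasureTheory Filter
open scoped Classical Matrix ComplexConjugate

namespace Fermat.LT

section Local

variable {F : Type*} [Field F] (v : Valuation F (WithZero (Multiplicative ℤ)))

/-- An integral multiple bounds the level by the order of its determinant. -/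
lemma lvl_le_of_integral {g : GL (Fin 2) F} {M : Matrix (Fin 2) (Fin 2) v.valuationSubring} {c : F}
    (hc : c ≠ 0) (e : toF v M = c • (g : Matrix (Fin 2) (Fin 2) F)) :
    (lvl v g : ℤ) ≤ ord v (toF v M).det := by
  obtain ⟨P, hP⟩ := exists_rep v g
  have hPd := hP.det_ne_zero v
  have h1 := hP.lvl_eq v
  obtain ⟨⟨i, j, hij⟩, d, hd, eP⟩ := hP
  have hMP : toF v M = (c / d) • toF v P := by rw [e, eP, smul_smul, div_mul_cancel₀ _ hd]
  have hne : c / d ≠ 0 := div_ne_zero hc hd
  have hle : v (c / d) ≤ 1 := by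
    have h2 := congrArg v (congrFun (congrFun hMP i) j)
    simp only [toF, Matrix.map_apply, Matrix.smul_apply, smul_eq_mul, map_mul] at h2
    rw [Subring.subtype_apply, Subring.subtype_apply, hij, mul_one] at h2
    exact h2 ▸ (v.mem_valuationSubring_iff _).1 (M i j).2
  rw [h1, hMP, Matrix.det_smul, Fintype.card_fin, ord_mul v (pow_ne_zero _ hne) hPd, ord_pow]
  have := (ord_nonneg_iff v hne).2 hle
  omega

/-- The level is subadditive. -/
lemma lvl_mul_le (g h : GL (Fin 2) F) : lvl v (g * h) ≤ lvl v g + lvl v h := by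
  obtain ⟨M, hM⟩ := exists_rep v g
  obtain ⟨N, hN⟩ := exists_rep v h
  have h1 := hM.lvl_eq v
  have h2 := hN.lvl_eq v
  have hMd := hM.det_ne_zero v
  have hNd := hN.det_ne_zero v
  obtain ⟨-, c, hc, e⟩ := hM
  obtain ⟨-, d, hd, e'⟩ := hN
  have h3 := lvl_le_of_integral v (g := g * h) (M := M * N) (mul_ne_zero hc hd)
    (by rw [toF_mul, e, e', Units.val_mul, Matrix.smul_mul, Matrix.mul_smul, smul_smul])
  rw [toF_mul, Matrix.det_mul, ord_mul v hMd hNd] at h3
  omega

/-- The homogeneous coordinates `g_ij g_kl / det g`. -/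
noncomputable def quad (g : GL (Fin 2) F) (x : (Fin 2 × Fin 2) × Fin 2 × Fin 2) : F :=
  (g : Matrix (Fin 2) (Fin 2) F) x.1.1 x.1.2 * (g : Matrix (Fin 2) (Fin 2) F) x.2.1 x.2.2
    / (g : Matrix (Fin 2) (Fin 2) F).det

/-- The homogeneous coordinates are bounded by the level. -/
lemma v_quad_le (g : GL (Fin 2) F) (x : (Fin 2 × Fin 2) × Fin 2 × Fin 2) :
    v (quad g x) ≤ WithZero.exp (lvl v g : ℤ) := by
  obtain ⟨M, hM⟩ := exists_rep v g
  have hd := hM.det_ne_zero v
  have h1 := hM.lvl_eq v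
  obtain ⟨-, c, hc, e⟩ := hM
  have hq : quad g x = toF v M x.1.1 x.1.2 * toF v M x.2.1 x.2.2 / (toF v M).det := by
    rw [quad, e, Matrix.det_smul, Matrix.smul_apply, Matrix.smul_apply, Fintype.card_fin]
    simp only [smul_eq_mul]
    field_simp
  rw [hq, map_div₀, map_mul, v_eq_exp v hd, ← h1, WithZero.exp_neg, div_inv_eq_mul]
  refine mul_le_of_le_one_left' (mul_le_one' ?_ ?_) <;>
    exact (v.mem_valuationSubring_iff _).1 (Subtype.coe_prop _)

end Local

/-- `coshd0` is submultiplicative up to `2`. -/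
lemma coshd0_mul_le (g h : GL (Fin 2) ℂ) : coshd0 (g * h) ≤ 2 * coshd0 g * coshd0 h := by
  have key : ∀ A : Matrix (Fin 2) (Fin 2) ℂ, (Aᴴ * A).trace.re = Complex.normSq (A 0 0)
      + Complex.normSq (A 1 0) + (Complex.normSq (A 0 1) + Complex.normSq (A 1 1)) := fun A => by
    simp [Matrix.trace_fin_two, Matrix.mul_apply, ← Complex.normSq_eq_conj_mul_self]
  have cs : ∀ a b c d : ℂ, Complex.normSq (a * c + b * d)
      ≤ (Complex.normSq a + Complex.normSq b) * (Complex.normSq c + Complex.normSq d) := by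
    intro a b c d
    have h1 : Complex.normSq (a * c + b * d) + Complex.normSq (conj b * c - conj a * d)
        = (Complex.normSq a + Complex.normSq b) * (Complex.normSq c + Complex.normSq d) := by
      simp [Complex.normSq_apply]; ring
    linarith [Complex.normSq_nonneg (conj b * c - conj a * d)]
  set G : Matrix (Fin 2) (Fin 2) ℂ := ↑g with hG
  set H : Matrix (Fin 2) (Fin 2) ℂ := ↑h with hH
  have hdg : 0 < ‖G.det‖ := norm_pos_iff.2 (Matrix.GeneralLinearGroup.det g).ne_zero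
  have hdh : 0 < ‖H.det‖ := norm_pos_iff.2 (Matrix.GeneralLinearGroup.det h).ne_zero
  rw [coshd0, coshd0, coshd0, Units.val_mul, ← hG, ← hH, key, key, key, Matrix.det_mul, norm_mul]
  rw [show ∀ N M : ℝ, 2 * (N / (2 * ‖G.det‖)) * (M / (2 * ‖H.det‖))
      = N * M / (2 * (‖G.det‖ * ‖H.det‖)) from fun N M => by field_simp]
  refine div_le_div_of_nonneg_right ?_ (by positivity)
  simp only [Matrix.mul_apply, Fin.sum_univ_two]
  nlinarith [cs (G 0 0) (G 0 1) (H 0 0) (H 1 0), cs (G 1 0) (G 1 1) (H 0 0) (H 1 0),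
    cs (G 0 0) (G 0 1) (H 0 1) (H 1 1), cs (G 1 0) (G 1 1) (H 0 1) (H 1 1)]

/-- The quadratic expressions are bounded by twice the invariant. -/
lemma norm_quad_le (g : GL (Fin 2) ℂ) (x : (Fin 2 × Fin 2) × Fin 2 × Fin 2) :
    ‖quad g x‖ ≤ 2 * coshd0 g := by
  set G : Matrix (Fin 2) (Fin 2) ℂ := ↑g with hG
  have key : (Gᴴ * G).trace.re = ‖G 0 0‖ ^ 2 + ‖G 1 0‖ ^ 2 + (‖G 0 1‖ ^ 2 + ‖G 1 1‖ ^ 2) := by
    simp [Matrix.trace_fin_two, Matrix.mul_apply, ← Complex.normSq_eq_conj_mul_self,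
      Complex.normSq_eq_norm_sq, -Complex.ofReal_pow]
  have hb : ∀ i j, ‖G i j‖ ^ 2 ≤ (Gᴴ * G).trace.re := fun i j => by
    rw [key]
    fin_cases i <;> fin_cases j <;> simp only [Fin.zero_eta, Fin.mk_one] <;>
      nlinarith [sq_nonneg ‖G 0 0‖, sq_nonneg ‖G 1 0‖, sq_nonneg ‖G 0 1‖, sq_nonneg ‖G 1 1‖]
  rw [quad, coshd0, ← hG, norm_div, norm_mul,
    show 2 * ((Gᴴ * G).trace.re / (2 * ‖G.det‖)) = (Gᴴ * G).trace.re / ‖G.det‖ by ring]
  refine div_le_div_of_nonneg_right ?_ (norm_nonneg _)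
  nlinarith [hb x.1.1 x.1.2, hb x.2.1 x.2.2, sq_nonneg (‖G x.1.1 x.1.2‖ - ‖G x.2.1 x.2.2‖)]

variable (F : Type*) [Field F]

/-- Scalar matrices. -/
noncomputable def scalSub : Subgroup (GL (Fin 2) F) :=
  (Units.map (Matrix.scalar (Fin 2) (α := F)).toMonoidHom).range

/-- The scalars form a normal subgroup. -/
instance scalSub_normal : (scalSub F).Normal := by
  refine ⟨fun n hn g => ?_⟩
  obtain ⟨c, rfl⟩ := hn
  have h : scal c * g = g * scal c := scal_comm c g
  rw [show Units.map (Matrix.scalar (Fin 2) (α := F)).toMonoidHom c = scal c from rfl, ← h,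
    mul_inv_cancel_right]
  exact ⟨c, rfl⟩

/-- `PGL₂(F)`. -/
abbrev PG : Type _ := GL (Fin 2) F ⧸ scalSub F

variable {F}

/-- `quad` determines an element up to scalars. -/
lemma quad_injective {g h : GL (Fin 2) F} (e : quad g = quad h) :
    ((g : PG F) = (h : PG F)) := by
  set G : Matrix (Fin 2) (Fin 2) F := ↑g with hG
  set H : Matrix (Fin 2) (Fin 2) F := ↑h with hH
  have hg : G.det ≠ 0 := (Matrix.GeneralLinearGroup.det g).ne_zero
  have hh : H.det ≠ 0 := (Matrix.GeneralLinearGroup.det h).ne_zero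
  obtain ⟨i, j, hij⟩ : ∃ i j, G i j ≠ 0 := by
    by_contra! h0
    exact hg (by simp [Matrix.det_fin_two, h0])
  have hsq : ∀ k l, G i j * G k l * H.det = H i j * H k l * G.det := fun k l => by
    have := congrFun e ((i, j), (k, l))
    simp only [quad, ← hG, ← hH] at this
    field_simp at this
    linear_combination this
  have hHij : H i j ≠ 0 := fun h0 => by
    have := hsq i j
    rw [h0] at this
    simp [hij, hh] at this
  set c : F := G i j * H.det / (H i j * G.det) with hc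
  have hc0 : c ≠ 0 := div_ne_zero (mul_ne_zero hij hh) (mul_ne_zero hHij hg)
  rw [QuotientGroup.eq]
  refine ⟨Units.mk0 c hc0, ?_⟩
  have hs : h = g * scal (Units.mk0 c hc0) := by
    rw [← scal_comm]
    refine Units.ext ?_
    rw [Units.val_mul, scal_coe, Matrix.scalar_apply, ← Matrix.smul_eq_diagonal_mul]
    ext k l
    simp only [Matrix.smul_apply, smul_eq_mul, Units.val_mk0, hc, ← hG, ← hH]
    field_simp
    linear_combination -(hsq k l)
  rw [hs, inv_mul_cancel_left]
  rfl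

variable [NumberField F]

/-- A class moving one coset to another has bounded level. -/
lemma lvl_le_add_of_mem_U0 {v : Place F} {g a c : GL (Fin 2) F}
    (h : (g * a)⁻¹ * c ∈ U0 (v.valuation F)) :
    lvl (v.valuation F) g ≤ lvl (v.valuation F) a + lvl (v.valuation F) c :=
  calc lvl (v.valuation F) g
      = lvl (v.valuation F) (c * ((g * a)⁻¹ * c)⁻¹ * a⁻¹) := by congr 1; group
    _ ≤ lvl (v.valuation F) (c * ((g * a)⁻¹ * c)⁻¹) + lvl (v.valuation F) a⁻¹ := lvl_mul_le _ _ _
    _ = lvl (v.valuation F) a + lvl (v.valuation F) c := by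
        rw [lvl_mul_right _ ((U0 _).inv_mem h), lvl_inv, add_comm]

/-- The chosen representative of a base coset lies in `U0`. -/
lemma out_one_mem_U0 {v : Place F} {H : Subgroup (GL (Fin 2) F)} (hH : H ≤ U0 (v.valuation F)) :
    ((1 : GL (Fin 2) F) : GL (Fin 2) F ⧸ H).out ∈ U0 (v.valuation F) := by
  obtain ⟨k, hk⟩ := QuotientGroup.mk_out_eq_mul H (1 : GL (Fin 2) F)
  rw [hk, one_mul]
  exact hH k.2

/-- Finitely many elements with bounded poles and bounded conjugates. -/
lemma finite_bounded_elements (b : Place F → ℕ) (hb : {v | b v ≠ 0}.Finite) (C : ℝ) :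
    {x : F | (∀ v : Place F, v.valuation F x ≤ WithZero.exp (b v : ℤ)) ∧
      ∀ φ : F →+* ℂ, ‖φ x‖ ≤ C}.Finite := by
  -- a common denominator `d`
  obtain ⟨d, hd0, hd⟩ : ∃ d : 𝓞 F, d ≠ 0 ∧
      ∀ v : Place F, v.valuation F (algebraMap (𝓞 F) F d) ≤ WithZero.exp (-(b v : ℤ)) := by
    let I : Ideal (𝓞 F) := ∏ v ∈ hb.toFinset, v.asIdeal ^ b v
    have hI : I ≠ ⊥ := by
      simp only [I, ← Ideal.zero_eq_bot, ne_eq, Finset.prod_eq_zero_iff, not_exists, not_and]
      exact fun v _ => pow_ne_zero _ v.ne_bot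
    obtain ⟨d, hdI, hd0⟩ := Submodule.exists_mem_ne_zero_of_ne_bot hI
    refine ⟨d, hd0, fun v => ?_⟩
    rw [HeightOneSpectrum.valuation_of_algebraMap, HeightOneSpectrum.intValuation_le_pow_iff_mem]
    by_cases hv : b v = 0
    · simp [hv]
    · exact Ideal.le_of_dvd (Finset.dvd_prod_of_mem (fun u : Place F => u.asIdeal ^ b u)
        (hb.mem_toFinset.2 hv)) hdI
  have hd' : (d : F) ≠ 0 := by exact_mod_cast hd0
  refine Set.Finite.of_finite_image (f := fun x => (d : F) * x) ?_
    ((mul_right_injective₀ hd').injOn)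
  -- then only finitely many bounded integers remain
  refine (NumberField.Embeddings.finite_of_norm_le F ℂ ((∑ φ : F →+* ℂ, ‖φ (d : F)‖) * C)).subset ?_
  rintro y ⟨x, ⟨hx, hx'⟩, rfl⟩
  refine ⟨?_, fun φ => ?_⟩
  · have hint : (d : F) * x ∈ (algebraMap (𝓞 F) F).range := by
      refine HeightOneSpectrum.mem_integers_of_valuation_le_one F _ fun v => ?_
      rw [map_mul]
      calc _ ≤ WithZero.exp (-(b v : ℤ)) * WithZero.exp (b v : ℤ) := mul_le_mul' (hd v) (hx v)
        _ = 1 := by rw [← WithZero.exp_add]; simp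
    obtain ⟨z, hz⟩ := hint
    show IsIntegral ℤ ((d : F) * x)
    rw [← hz]
    exact RingOfIntegers.isIntegral_coe z
  · rw [map_mul, norm_mul]
    exact mul_le_mul (Finset.single_le_sum (f := fun ψ : F →+* ℂ => ‖ψ (d : F)‖)
      (fun _ _ => norm_nonneg _) (Finset.mem_univ φ)) (hx' φ) (norm_nonneg _)
      (Finset.sum_nonneg fun _ _ => norm_nonneg _)

/-- Only finitely many `γ` of bounded levels move a bounded set to a bounded set. -/
theorem finite_moving_of_lvl (b : Place F → ℕ) (hb : {v | b v ≠ 0}.Finite) (R : ℝ) :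
    {γ : PG F | ∃ g : GL (Fin 2) F, (g : PG F) = γ ∧ (∀ v, lvl (v.valuation F) g ≤ b v) ∧
      ∀ w, ∃ x : H3, coshd ((1 : GL (Fin 2) ℂ) : H3) x ≤ R ∧
        coshd ((1 : GL (Fin 2) ℂ) : H3) (atInf w g • x) ≤ R}.Finite := by
  -- the finite set of possible coordinates
  let P : Set F := {x | (∀ v : Place F, v.valuation F x ≤ WithZero.exp (b v : ℤ)) ∧
    ∀ φ : F →+* ℂ, ‖φ x‖ ≤ 2 * (2 * (2 * R ^ 2))}
  have hfin : P.Finite := finite_bounded_elements b hb _
  -- injection
  let Q : Set ((Fin 2 × Fin 2) × Fin 2 × Fin 2 → F) := Set.pi Set.univ fun _ => P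
  have hQ : Q.Finite := Set.Finite.pi fun _ => hfin
  let qt : PG F → ((Fin 2 × Fin 2) × Fin 2 × Fin 2 → F) := fun γ => quad γ.out
  have hqt : ∀ (g : GL (Fin 2) F), qt (g : PG F) = quad g := by
    intro g
    obtain ⟨⟨_, ⟨c, rfl⟩⟩, hc⟩ := QuotientGroup.mk_out_eq_mul (scalSub F) g
    funext x
    simp only [qt, hc, quad]
    rw [show Units.map (Matrix.scalar (Fin 2) (α := F)).toMonoidHom c = scal c from
      rfl, ← scal_comm,
      Units.val_mul, scal_coe, Matrix.scalar_apply, ← Matrix.smul_eq_diagonal_mul, Matrix.det_smul]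
    simp only [Matrix.smul_apply, smul_eq_mul, Fintype.card_fin]
    field_simp
  refine Set.Finite.of_finite_image (f := qt) (hQ.subset ?_) ?_
  · rintro _ ⟨γ, ⟨g, rfl, hg, hx⟩, rfl⟩
    rw [hqt]
    refine Set.mem_univ_pi.2 fun x => ⟨fun v => ?_, ?_⟩
    · exact (v_quad_le (v.valuation F) g x).trans (WithZero.exp_le_exp.2 (by exact_mod_cast hg v))
    · intro φ
      obtain ⟨w, hw⟩ : ∃ w : InfinitePlace F, w = InfinitePlace.mk φ := ⟨_, rfl⟩
      have hnorm : ‖φ (quad g x)‖ = ‖w.embedding (quad g x)‖ := by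
        rw [hw, InfinitePlace.norm_embedding_eq, InfinitePlace.apply]
      have hq : w.embedding (quad g x) = quad (atInf w g) x := by
        simp only [quad, atInf]
        rw [map_div₀, map_mul, RingHom.map_det]
        rfl
      obtain ⟨y, hy1, hy2⟩ := hx w
      obtain ⟨a, rfl⟩ := QuotientGroup.mk_surjective y
      rw [MulAction.Quotient.smul_coe, smul_eq_mul, coshd_mk_mk, inv_one, one_mul] at hy2
      rw [coshd_mk_mk, inv_one, one_mul] at hy1
      have hinv : coshd0 a⁻¹ ≤ R := by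
        have e := coshd_comm (a : H3) ((1 : GL (Fin 2) ℂ) : H3)
        rw [coshd_mk_mk, coshd_mk_mk, mul_one, inv_one, one_mul] at e
        linarith
      have hpos : ∀ h : GL (Fin 2) ℂ, 1 ≤ coshd0 h := fun h => by
        have := one_le_coshd ((1 : GL (Fin 2) ℂ) : H3) (h : H3)
        rwa [coshd_mk_mk, inv_one, one_mul] at this
      rw [hnorm, hq]
      refine (norm_quad_le _ x).trans ?_
      have h2 := coshd0_mul_le (atInf w g * a) a⁻¹
      rw [mul_inv_cancel_right] at h2
      have hR : (1 : ℝ) ≤ R := (hpos a).trans hy1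
      nlinarith [mul_le_mul hy2 hinv (zero_le_one.trans (hpos a⁻¹)) (zero_le_one.trans hR)]
  · intro a _ b _ hab
    obtain ⟨g, rfl⟩ := QuotientGroup.mk_surjective a
    obtain ⟨h, rfl⟩ := QuotientGroup.mk_surjective b
    rw [hqt, hqt] at hab
    exact quad_injective hab

variable {S : Set (Place F)} [Finite S]

/-- `PGL₂(F)` acts on the points. -/
noncomputable instance instMulActionPG : MulAction (PG F) (Pt F S) :=
  MulAction.compHom (Pt F S) (QuotientGroup.lift (scalSub F)
    (MulAction.toPermHom (GL (Fin 2) F) (Pt F S))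
    (fun g hg => by
      obtain ⟨c, rfl⟩ := hg
      exact Equiv.ext fun p => Pt.scal_smul c p))

/-- The class acts as the matrix. -/
@[simp] lemma PG.mk_smul (g : GL (Fin 2) F) (p : Pt F S) : (g : PG F) • p = g • p := rfl

/-- Only finitely many `γ` move a bounded set at `ω` to a bounded set at `ω'`. -/
theorem finite_moving (ω ω' : FinPt F S) (R : ℝ) :
    {γ : PG F | ∃ g : GL (Fin 2) F, (g : PG F) = γ ∧ g • ω = ω' ∧
      ∀ w, ∃ x : H3, coshd ((1 : GL (Fin 2) ℂ) : H3) x ≤ R ∧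
        coshd ((1 : GL (Fin 2) ℂ) : H3) (atInf w g • x) ≤ R}.Finite := by
  refine (finite_moving_of_lvl
    (fun v => lvl (v.valuation F) (ω.1 v).out + lvl (v.valuation F) (ω'.1 v).out) ?_ R).subset ?_
  · exact (eventually_cofinite.1 (ω.2.and ω'.2)).subset fun v hv h =>
      hv (by simp [h, (lvl_eq_zero_iff _ _).2 (out_one_mem_U0 (lev_le_U0 S v))])
  · rintro _ ⟨g, rfl, rfl, hx⟩
    refine ⟨g, rfl, fun v => lvl_le_add_of_mem_U0 (lev_le_U0 S v ?_), hx⟩
    rw [← QuotientGroup.eq, ← smul_eq_mul, ← MulAction.Quotient.smul_coe, QuotientGroup.out_eq',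
      QuotientGroup.out_eq']
    rfl

end Fermat.LT
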