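import Fermat.Agent.LT.FinSpace
import Fermat.Agent.LT.PGroup

/-!
# Invariant kernels of finite range on `H3`

`AKer` is the type of these kernels, `AKer.ofRadial` the kernel of a function of the distance and
`AKer.comp` their composition.
-/

set_option autoImplicit false
open MeasureTheory Set Filter Topology
open scoped ENNReal

namespace Fermat.LT

/-- The coordinates induce the topology of `H3`. -/
lemma isInducing_coord : Topology.IsInducing H3.coord := by
    refine ⟨le_antisymm continuous_coord.le_induced ?_⟩
    intro s hs
    -- the inverse of `coord` is continuous on the upper half space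
    refine ⟨{p | 0 < p.2} ∩ hmk ⁻¹' s, ?_, ?_⟩
    · have hc : ContinuousOn hmk {p : ℂ × ℝ | 0 < p.2} := by
        refine continuousOn_iff_continuous_domRestrict.2 ?_
        have hval : Continuous fun q : {p : ℂ × ℝ | 0 < p.2} =>
            (triMat q.1.1 q.2 : GL (Fin 2) ℂ) := by
          rw [Units.continuous_iff]
          have hne : ∀ q : {p : ℂ × ℝ | 0 < p.2}, ((q.1.2 : ℂ)) ≠ 0 := fun q =>
            Complex.ofReal_ne_zero.2 (ne_of_gt q.2)
          refine ⟨?_, ?_⟩
          · change Continuous fun q : {p : ℂ × ℝ | 0 < p.2} =>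
              (!![(q.1.2 : ℂ), q.1.1; 0, 1] : Matrix (Fin 2) (Fin 2) ℂ)
            refine continuous_matrix fun i j => ?_
            fin_cases i <;> fin_cases j <;> simp <;> fun_prop
          · simp only [Matrix.coe_units_inv, coe_triMat, Matrix.inv_def, Matrix.adjugate_fin_two_of,
              Matrix.det_fin_two_of, Ring.inverse_eq_inv', mul_one, mul_zero, sub_zero]
            refine continuous_matrix fun i j => ?_
            fin_cases i <;> fin_cases j <;> simp <;>
              first
                | exact (Complex.continuous_ofReal.comp (by fun_prop)).inv₀ hne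
                | exact ((Complex.continuous_ofReal.comp (by fun_prop)).inv₀ hne).mul (by fun_prop)
                | fun_prop
        have : Set.domRestrict {p : ℂ × ℝ | 0 < p.2} hmk = fun q => (triMat q.1.1 q.2 : H3) :=
          funext fun q => H3.mk_of_pos _ q.2
        rw [this]
        exact QuotientGroup.continuous_mk.comp hval
      exact hc.isOpen_inter_preimage (isOpen_lt continuous_const continuous_snd) hs
    · ext x
      simp only [mem_preimage, mem_inter_iff, mem_ofPred_eq, hmk, H3.mk_coord]
      exact ⟨fun h => h.2, fun h => ⟨H3.coord_pos x, h⟩⟩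

/-- `H3` is second countable. -/
instance H3.instSecondCountable : SecondCountableTopology H3 :=
  isInducing_coord.secondCountableTopology

/-- `H3` is Hausdorff. -/
instance H3.instT2 : T2Space H3 :=
  (Topology.IsEmbedding.mk isInducing_coord fun a b h => by
    rw [← H3.mk_coord a, ← H3.mk_coord b, h]).t2Space

/-- Triangle inequality for `coshd`. -/
lemma coshd_triangle (x y z : H3) : coshd x z ≤ 2 * coshd x y * coshd y z := by
  obtain ⟨a, rfl⟩ := QuotientGroup.mk_surjective x
  obtain ⟨b, rfl⟩ := QuotientGroup.mk_surjective y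
  obtain ⟨c, rfl⟩ := QuotientGroup.mk_surjective z
  rw [coshd_mk_mk, coshd_mk_mk, coshd_mk_mk]
  have h := coshd0_mul_le (a⁻¹ * b) (b⁻¹ * c)
  rwa [mul_assoc, mul_inv_cancel_left] at h

/-- Bounded regions have finite measure. -/
lemma hmeas_ball_lt_top (x : H3) (R : ℝ) : hmeas {y | coshd x y ≤ R} < ∞ := by
  obtain ⟨g, rfl⟩ := QuotientGroup.mk_surjective x
  have hm : ∀ z : H3, MeasurableSet {y | coshd z y ≤ R} := fun z =>
    measurableSet_le (continuous_coshd.comp (continuous_const.prodMk continuous_id)).measurable
      measurable_const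
  -- Move the centre to the base point.
  have e : {y | coshd (g : H3) y ≤ R}
      = (fun y => g⁻¹ • y) ⁻¹' {y | coshd ((1 : GL (Fin 2) ℂ) : H3) y ≤ R} := by
    ext y
    simp only [mem_preimage, mem_ofPred_eq]
    rw [← coshd_smul g⁻¹ (g : H3) y, MulAction.Quotient.smul_coe, smul_eq_mul, inv_mul_cancel]
  rw [e, (measurePreserving_smul_H3 g⁻¹).measure_preimage (hm _).nullMeasurableSet, hmeas,
    Measure.map_apply measurable_hmk (hm _), hvol,
      withDensity_apply _ ((hm _).preimage measurable_hmk),
    Measure.restrict_restrict ((hm _).preimage measurable_hmk)]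
  -- There the ball lies in a compact box with height bounded below.
  set T : Set (ℂ × ℝ) :=
    Metric.closedBall 0 (2 * |R| + 1) ×ˢ Set.Icc ((2 * |R| + 1)⁻¹) (2 * |R| + 1) with hT
  have hsub : hmk ⁻¹' {y | coshd ((1 : GL (Fin 2) ℂ) : H3) y ≤ R} ∩ univ ×ˢ Ioi 0 ⊆ T := by
    rintro ⟨z, t⟩ ⟨h, -, ht⟩
    have ht : 0 < t := ht
    have h1 : H3.coord ((1 : GL (Fin 2) ℂ) : H3) = (0, 1) := by
      simp [zc, tc, herm_eq]
    rw [mem_preimage, mem_ofPred_eq, coshd_eq_cd, h1,
      show H3.coord (hmk (z, t)) = (z, t) from H3.coord_mk_of_pos z ht, cd,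
      div_le_iff₀ (by positivity)] at h
    simp only [zero_sub, Complex.normSq_neg, one_pow, one_mul] at h
    set A := 2 * |R| + 1 with hA
    have hRA : R * (2 * t) ≤ |R| * (2 * t) := by gcongr; exact le_abs_self R
    have htA : t ≤ A := by
      nlinarith [Complex.normSq_nonneg z, sq_nonneg (t - A), abs_nonneg R]
    refine ⟨?_, ?_, htA⟩
    · rw [Metric.mem_closedBall, dist_zero_right]
      have hz : ‖z‖ ^ 2 ≤ A ^ 2 := by
        rw [← Complex.normSq_eq_norm_sq]
        nlinarith [abs_nonneg R, sq_nonneg t]
      exact (sq_le_sq₀ (norm_nonneg _) (by positivity)).1 hz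
    · rw [inv_le_iff_one_le_mul₀ (by positivity)]
      nlinarith [Complex.normSq_nonneg z]
  refine lt_of_le_of_lt (lintegral_mono_set hsub) ?_
  refine lt_of_le_of_lt (setLIntegral_mono measurable_const
    (fun p hp => ENNReal.ofReal_le_ofReal (show (p.2 ^ 3)⁻¹ ≤ (2 * |R| + 1) ^ 3 from ?_))) ?_
  · have h0 : (0 : ℝ) < (2 * |R| + 1)⁻¹ := by positivity
    have := pow_le_pow_left₀ h0.le hp.2.1 3
    rw [inv_pow] at this
    exact inv_le_of_inv_le₀ (by positivity) this
  · rw [setLIntegral_const]
    refine ENNReal.mul_lt_top ENNReal.ofReal_lt_top ?_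
    exact ((isCompact_closedBall _ _).prod isCompact_Icc).measure_lt_top

/-- The distance from the base point of one member of a finite family is at most the sum over the
family. -/
lemma coshd_base_le_sum {ι : Type*} [Fintype ι] (x : ι → H3) (i : ι) :
    coshd ((1 : GL (Fin 2) ℂ) : H3) (x i) ≤ ∑ j, coshd ((1 : GL (Fin 2) ℂ) : H3) (x j) :=
  Finset.single_le_sum (f := fun j => coshd ((1 : GL (Fin 2) ℂ) : H3) (x j))
    (fun _ _ => zero_le_one.trans (one_le_coshd _ _)) (Finset.mem_univ i)

/-- A point at bounded distance from a bounded point is bounded. -/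
lemma coshd_base_le_of_coshd {x y : H3} {A r : ℝ} (hx : coshd ((1 : GL (Fin 2) ℂ) : H3) x ≤ A)
    (h : coshd x y ≤ r) : coshd ((1 : GL (Fin 2) ℂ) : H3) y ≤ 2 * A * r :=
  (coshd_triangle _ x _).trans (mul_le_mul (mul_le_mul_of_nonneg_left hx two_pos.le) h
    (zero_le_one.trans (one_le_coshd _ _))
    (mul_nonneg two_pos.le ((zero_le_one.trans (one_le_coshd _ _)).trans hx)))

/-- Near a point of a finite power of `H3` the distances from the base point stay bounded. -/
lemma eventually_coshd_base_le {ι : Type*} [Fintype ι] (x₀ : ι → H3) :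
    ∀ᶠ x : ι → H3 in 𝓝 x₀, ∀ i, coshd ((1 : GL (Fin 2) ℂ) : H3) (x i)
      ≤ (∑ j, coshd ((1 : GL (Fin 2) ℂ) : H3) (x₀ j)) + 1 := by
  refine eventually_all.2 fun i => ?_
  have hc : ContinuousAt (fun x : ι → H3 => coshd ((1 : GL (Fin 2) ℂ) : H3) (x i)) x₀ :=
    (continuous_coshd.comp (continuous_const.prodMk (continuous_apply i))).continuousAt
  refine (hc.eventually_lt_const ?_).mono fun x hx => le_of_lt hx
  linarith [coshd_base_le_sum x₀ i]

/-- A continuous invariant kernel of finite range. -/
structure AKer where
  /-- The kernel on pairs of points of `H3`. -/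
  toFun : H3 → H3 → ℂ
  /-- The kernel is jointly continuous. -/
  cont : Continuous fun p : H3 × H3 => toFun p.1 p.2
  /-- The kernel is invariant under `GL₂(ℂ)` acting on both variables. -/
  invariant : ∀ (g : GL (Fin 2) ℂ) (x y : H3), toFun (g • x) (g • y) = toFun x y
  /-- The range, measured by `coshd`. -/
  range : ℝ
  /-- The kernel vanishes beyond its range. -/
  eq_zero : ∀ x y, range < coshd x y → toFun x y = 0
  /-- A uniform bound on the values. -/
  bound : ℝ
  /-- The values are at most `bound` in norm. -/
  le_bound : ∀ x y, ‖toFun x y‖ ≤ bound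

namespace AKer

/-- A kernel as a function. -/
instance : CoeFun AKer fun _ => H3 → H3 → ℂ := ⟨AKer.toFun⟩

/-- A kernel is continuous in the second variable. -/
lemma continuous_right (k : AKer) (x : H3) : Continuous (k x) :=
  k.cont.comp (continuous_const.prodMk continuous_id)

/-- A kernel is continuous in the first variable. -/
lemma continuous_left (k : AKer) (y : H3) : Continuous fun x => k x y :=
  k.cont.comp (continuous_id.prodMk continuous_const)

/-- The bound is nonnegative. -/
lemma bound_nonneg (k : AKer) : 0 ≤ k.bound :=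
  (norm_nonneg _).trans (k.le_bound ((1 : GL (Fin 2) ℂ) : H3) ((1 : GL (Fin 2) ℂ) : H3))

/-- A kernel is bounded by its bound on its range. -/
lemma norm_le_indicator (k : AKer) (x y : H3) :
    ‖k x y‖ ≤ {y | coshd x y ≤ k.range}.indicator (fun _ => k.bound) y := by
  by_cases h : coshd x y ≤ k.range
  · rw [indicator_of_mem (show y ∈ {y | coshd x y ≤ k.range} from h)]; exact k.le_bound x y
  · rw [indicator_of_notMem (show y ∉ {y | coshd x y ≤ k.range} from h),
      k.eq_zero x y (not_le.1 h), norm_zero]

/-- Indicators of balls are integrable. -/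
lemma integrable_indicator (x : H3) (R C : ℝ) :
    Integrable ({y | coshd x y ≤ R}.indicator fun _ => C) hmeas :=
  (integrable_indicator_iff (measurableSet_le
    (continuous_coshd.comp (continuous_const.prodMk continuous_id)).measurable
      measurable_const)).2 (integrableOn_const (hmeas_ball_lt_top x R).ne)

/-- A kernel is integrable in the second variable. -/
lemma integrable (k : AKer) (x : H3) : Integrable (k x) hmeas :=
  (integrable_indicator x k.range k.bound).mono' (k.continuous_right x).aestronglyMeasurable
    (Eventually.of_forall (k.norm_le_indicator x))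

/-- The total mass of an invariant kernel is constant along orbits. -/
lemma integral_norm_smul (k : AKer) (g : GL (Fin 2) ℂ) (x : H3) :
    ∫ y, ‖k (g • x) y‖ ∂hmeas = ∫ y, ‖k x y‖ ∂hmeas := by
  rw [← (measurePreserving_smul_H3 g).integral_comp
    (MeasurableEquiv.smul g).measurableEmbedding]
  simp only [k.invariant]

end AKer

/-- The kernel attached to a function of `cosh` of the distance. -/
noncomputable def AKer.ofRadial (k : ℝ → ℝ) (hk : Continuous k) (hs : HasCompactSupport k) :
    AKer where
  toFun x y := (k (coshd x y) : ℂ)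
  cont := Complex.continuous_ofReal.comp (hk.comp continuous_coshd)
  invariant g x y := by rw [coshd_smul]
  range := (hs.isCompact.bddAbove).some
  eq_zero x y h := by
    have := (hs.isCompact.bddAbove).some_mem
    have h0 : coshd x y ∉ tsupport k := fun hm => absurd (this hm) (not_le.2 h)
    simp [image_eq_zero_of_notMem_tsupport h0]
  bound := (hk.bounded_above_of_compact_support hs).choose
  le_bound x y := by
    rw [Complex.norm_real]
    exact (hk.bounded_above_of_compact_support hs).choose_spec _

/-- Composition of two kernels. -/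
noncomputable def AKer.comp (a b : AKer) : AKer where
  toFun x z := ∫ y, a x y * b y z ∂hmeas
  cont := by
    refine continuous_iff_continuousAt.2 fun p₀ => ?_
    refine MeasureTheory.continuousAt_of_dominated
      (bound := {y | coshd p₀.1 y ≤ 2 * 2 * |a.range|}.indicator fun _ => a.bound * b.bound)
      (Eventually.of_forall fun p =>
        ((a.continuous_right p.1).mul (b.continuous_left p.2)).aestronglyMeasurable)
      ?_ (AKer.integrable_indicator _ _ _)
      (Eventually.of_forall fun y =>
        (((a.continuous_left y).comp continuous_fst).mul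
          ((b.continuous_right y).comp continuous_snd)).continuousAt)
    -- near `p₀` the integrand is supported in one ball around `p₀.1`
    have hnhds : ∀ᶠ p : H3 × H3 in 𝓝 p₀, coshd p₀.1 p.1 < 2 := by
      have hc : ContinuousAt (fun p : H3 × H3 => coshd p₀.1 p.1) p₀ :=
        (continuous_coshd.comp (continuous_const.prodMk continuous_fst)).continuousAt
      refine hc.eventually_lt_const ?_
      obtain ⟨g, hg⟩ := QuotientGroup.mk_surjective p₀.1
      change coshd p₀.1 p₀.1 < 2
      rw [← hg, coshd_mk_mk, inv_mul_cancel]
      simp [coshd0]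
    filter_upwards [hnhds] with p hp
    refine Eventually.of_forall fun y => ?_
    by_cases h : coshd p.1 y ≤ a.range
    · have : y ∈ {y | coshd p₀.1 y ≤ 2 * 2 * |a.range|} := by
        refine (coshd_triangle p₀.1 p.1 y).trans ?_
        exact mul_le_mul (mul_le_mul_of_nonneg_left hp.le two_pos.le) (h.trans (le_abs_self _))
          (zero_le_one.trans (one_le_coshd _ _)) (by positivity)
      rw [indicator_of_mem this, norm_mul]
      exact mul_le_mul (a.le_bound _ _) (b.le_bound _ _) (norm_nonneg _) a.bound_nonneg
    · rw [a.eq_zero _ _ (not_le.1 h), zero_mul, norm_zero]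
      exact indicator_nonneg (fun _ _ => mul_nonneg a.bound_nonneg b.bound_nonneg) y
  invariant g x z := by
    rw [← (measurePreserving_smul_H3 g).integral_comp
      (MeasurableEquiv.smul g).measurableEmbedding]
    simp only [a.invariant, b.invariant]
  range := 2 * |a.range| * |b.range|
  eq_zero x z h := by
    -- the triangle inequality bounds the range
    refine integral_eq_zero_of_ae (Eventually.of_forall fun y => ?_)
    change a x y * b y z = 0
    by_contra hne
    rw [mul_eq_zero, not_or] at hne
    have h1 : coshd x y ≤ a.range := not_lt.1 fun h' => hne.1 (a.eq_zero _ _ h')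
    have h2 : coshd y z ≤ b.range := not_lt.1 fun h' => hne.2 (b.eq_zero _ _ h')
    refine absurd ((coshd_triangle x y z).trans ?_) (not_le.2 h)
    exact mul_le_mul (mul_le_mul_of_nonneg_left (h1.trans (le_abs_self _)) two_pos.le)
      (h2.trans (le_abs_self _)) (zero_le_one.trans (one_le_coshd _ _)) (by positivity)
  bound := b.bound * ∫ y, ‖a ((1 : GL (Fin 2) ℂ) : H3) y‖ ∂hmeas
  le_bound x z := by
    obtain ⟨g, rfl⟩ := QuotientGroup.mk_surjective x
    refine (norm_integral_le_integral_norm _).trans ?_
    rw [show ((g : GL (Fin 2) ℂ) : H3) = g • ((1 : GL (Fin 2) ℂ) : H3) by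
      rw [MulAction.Quotient.smul_coe, smul_eq_mul, mul_one]]
    rw [← a.integral_norm_smul g, ← integral_const_mul]
    refine integral_mono_of_nonneg (Eventually.of_forall fun y => norm_nonneg _)
      ((a.integrable _).norm.const_mul _) (Eventually.of_forall fun y => ?_)
    change ‖a _ y * b y z‖ ≤ b.bound * ‖a _ y‖
    rw [norm_mul, mul_comm]
    exact mul_le_mul_of_nonneg_right (b.le_bound _ _) (norm_nonneg _)

end Fermat.LT
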