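import Fermat.Agent.LT.Kern

/-!
# Composition of product kernels, unfolding over a fundamental domain

`integral_domain_tsum` is the unfolding and `integral_kap_mul` the composition of the summed
kernels.
-/

set_option autoImplicit false
open MeasureTheory Filter Set NumberField
open scoped Classical

namespace Fermat.LT

variable {F : Type*} [Field F] [NumberField F] {S : Set (Place F)}

/-- Summing over the group and integrating over a domain is integrating over everything. -/
theorem integral_domain_tsum {G X : Type*} [Group G] [Countable G] [MulAction G X]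
    [MeasurableSpace X] {μ : Measure X} [MeasurableConstSMul G X] [SMulInvariantMeasure G X μ]
    {D : Set X} (hD : IsFundamentalDomain G D μ) {f : X → ℂ} (hf : Integrable f μ) :
    ∫ x in D, ∑' g : G, f (g • x) ∂μ = ∫ x, f x ∂μ := by
  rw [hD.integral_eq_tsum'' f hf]
  refine integral_tsum (fun g => ?_) ?_
  · exact ((hf.1.comp_measurePreserving (measurePreserving_smul g μ))).restrict
  · rw [← hD.lintegral_eq_tsum'' fun x => ‖f x‖ₑ]
    exact hf.2.ne

/-- Summing a product of local kernels over the restricted product is the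
product of the local sums. -/
theorem finsum_finprod_mul_finprod {ι : Type*} {V : ι → Type*} {b : ∀ v, V v}
    {k l : ∀ v, V v → V v → ℂ} (hrow : ∀ v a, {c | k v a c ≠ 0}.Finite)
    {ω ω'' : {ω : ∀ v, V v // ∀ᶠ v in cofinite, ω v = b v}}
    (hev : ∀ᶠ v in cofinite, (∀ a c, k v a c = if a = c then 1 else 0) ∧
      (∀ a c, l v a c = if a = c then 1 else 0) ∧ ω.1 v = ω''.1 v) :
    ∑ᶠ ω' : {ω : ∀ v, V v // ∀ᶠ v in cofinite, ω v = b v},
        (∏ᶠ v, k v (ω.1 v) (ω'.1 v)) * ∏ᶠ v, l v (ω'.1 v) (ω''.1 v)
      = ∏ᶠ v, ∑ᶠ y, k v (ω.1 v) y * l v y (ω''.1 v) := by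
  set E := (eventually_cofinite.1 hev).toFinset with hE
  have hout : ∀ v ∉ E, (∀ a c, k v a c = if a = c then 1 else 0) ∧
      (∀ a c, l v a c = if a = c then 1 else 0) ∧ ω.1 v = ω''.1 v := fun v hv => by
    by_contra h
    exact hv (by rw [hE, Set.Finite.mem_toFinset]; exact h)
  let t : ∀ v : E, Finset (V v.1) := fun v => (hrow v.1 (ω.1 v.1)).toFinset
  let ext : (∀ v : E, V v.1) → {ω : ∀ v, V v // ∀ᶠ v in cofinite, ω v = b v} := fun f =>
    ⟨fun v => if h : v ∈ E then f ⟨v, h⟩ else ω.1 v, by
      filter_upwards [ω.2, E.finite_toSet.compl_mem_cofinite] with v h hv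
      simp only [Set.mem_compl_iff, Finset.mem_coe] at hv
      simp [hv, h]⟩
  have hfin : ∀ g : ι → ℂ, (∀ v ∉ E, g v = 1) → ∏ᶠ v, g v = ∏ v : E, g v.1 := fun g h => by
    rw [finprod_eq_prod_of_mulSupport_subset _ (s := E) fun v hv =>
      by_contra fun hne => hv (h v hne)]
    exact (Finset.prod_coe_sort E g).symm
  -- only finitely many places contribute
  have hR : ∏ᶠ v, ∑ᶠ y, k v (ω.1 v) y * l v y (ω''.1 v)
      = ∏ v : E, ∑ y ∈ t v, k v.1 (ω.1 v.1) y * l v.1 y (ω''.1 v.1) := by
    rw [hfin _ fun v hv => ?_]
    · refine Finset.prod_congr rfl fun v _ => finsum_eq_sum_of_support_subset _ fun y hy => ?_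
      simpa [t] using left_ne_zero_of_mul hy
    · obtain ⟨h1, h2, h3⟩ := hout v hv
      rw [finsum_eq_single _ (ω''.1 v) fun y
        hy => by rw [h2, if_neg hy, mul_zero], h1, h2, if_pos h3, if_pos rfl, mul_one]
  rw [hR, Finset.prod_univ_sum]
  -- every point of the support is supported in the product of the rows
  have hsub : (Function.support fun ω' : {ω : ∀ v, V v // ∀ᶠ v in cofinite, ω v = b v} =>
      (∏ᶠ v, k v (ω.1 v) (ω'.1 v)) * ∏ᶠ v, l v (ω'.1 v) (ω''.1 v)) ⊆
          ↑((Fintype.piFinset t).image ext) := by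
    intro ω' h
    have hK : ∀ v, k v (ω.1 v) (ω'.1 v) ≠ 0 := fun v h0 => left_ne_zero_of_mul h
      (finprod_eq_zero _ v h0 (by
        refine (E.finite_toSet.union
          ((eventually_cofinite.1 ω.2).union (eventually_cofinite.1 ω'.2))).subset fun u hu => ?_
        by_contra hne
        simp only [Set.mem_union, Finset.mem_coe, Set.mem_ofPred_eq, not_or, not_not] at hne
        exact hu (by simp [(hout u hne.1).1, hne.2.1, hne.2.2])))
    refine Finset.mem_coe.2 (Finset.mem_image.2 ⟨fun v => ω'.1 v.1, ?_, ?_⟩)
    · exact Fintype.mem_piFinset.2 fun v => by simpa [t] using hK v.1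
    · refine Subtype.ext (funext fun v => ?_)
      simp only [ext]
      split_ifs with hv
      · rfl
      · have := hK v
        rw [(hout v hv).1] at this
        by_contra hne
        exact this (if_neg hne)
  rw [finsum_eq_sum_of_support_subset _ hsub, Finset.sum_image]
  · refine Finset.sum_congr rfl fun f _ => ?_
    rw [hfin _ (fun v hv => ?_), hfin _ (fun v hv => ?_), ← Finset.prod_mul_distrib]
    · refine Finset.prod_congr rfl fun v _ => ?_
      simp [ext]
    all_goals
      obtain ⟨h1, h2, h3⟩ := hout v hv
      simp [ext, hv, h1, h2, h3]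
  · intro f _ g _ h
    funext v
    have := congrFun (congrArg Subtype.val h) v.1
    simpa [ext] using this

/-- A finitely supported function is integrable for counting, with integral its sum. -/
theorem integral_count_eq_finsum {M : Type*} [MeasurableSpace M] [DiscreteMeasurableSpace M]
    [Countable M] {f : M → ℂ} (hf : (Function.support f).Finite) :
    Integrable f Measure.count ∧ ∫ x, f x ∂Measure.count = ∑ᶠ x, f x := by
  have hi : Integrable f Measure.count := integrable_count_iff.2
    (summable_of_hasFiniteSupport (hf.subset fun x hx => norm_ne_zero_iff.1 hx))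
  refine ⟨hi, ?_⟩
  rw [integral_countable hi]
  simp only [measureReal_def, Measure.count_singleton, ENNReal.toReal_one, one_smul]
  exact tsum_eq_finsum hf

/-- Where only finitely many terms meet the support of `k`, the product is integrable. -/
theorem integrable_mul_tsum_of_finset {G X : Type*} [MeasurableSpace X] {μ : Measure X} (k : X → ℂ)
    (f : G → X → ℂ) (s : Finset G) (hs : ∀ y, k y ≠ 0 → ∀ g ∉ s, f g y = 0)
    (hi : ∀ g, Integrable (fun y => k y * f g y) μ) :
    Integrable (fun y => k y * ∑' g, f g y) μ := by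
  refine (integrable_finsetSum s fun g _ => hi g).congr (Eventually.of_forall fun y => ?_)
  change ∑ g ∈ s, k y * f g y = k y * ∑' g, f g y
  by_cases h : k y = 0
  · simp [h]
  · rw [tsum_eq_sum (hs y h), Finset.mul_sum]

/-- Where only finitely many terms meet the support of `k`, the sum goes outside the integral. -/
theorem integral_mul_tsum_of_finset {G X : Type*} [MeasurableSpace X] {μ : Measure X} (k : X → ℂ)
    (f : G → X → ℂ) (s : Finset G) (hs : ∀ y, k y ≠ 0 → ∀ g ∉ s, f g y = 0)
    (hi : ∀ g, Integrable (fun y => k y * f g y) μ) :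
    ∫ y, k y * ∑' g, f g y ∂μ = ∑' g, ∫ y, k y * f g y ∂μ := by
  have hk : ∀ y, k y * ∑' g, f g y = ∑ g ∈ s, k y * f g y := fun y => by
    by_cases h : k y = 0
    · simp [h]
    · rw [tsum_eq_sum (hs y h), Finset.mul_sum]
  simp only [hk]
  rw [integral_finsetSum _ fun g _ => hi g]
  refine (tsum_eq_sum fun g hg => integral_eq_zero_of_ae (Eventually.of_forall fun y => ?_)).symm
  by_cases h : k y = 0
  · simp [h]
  · simp [hs y h g hg]

namespace LKer

variable {v : Place F}

/-- Kernels with equal values are equal. -/
@[ext] lemma ext' {k l : LKer S v} (h : ∀ a b, k a b = l a b) : k = l := by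
  cases k; cases l; congr; funext a b; exact h a b

/-- The identity is neutral on the left, as kernels. -/
lemma one_comp_eq (k : LKer S v) : (one S v).comp k = k := ext' (one_comp k)

/-- The values of a composite. -/
lemma comp_apply (k l : LKer S v) (a c : Vert S v) : k.comp l a c = ∑ᶠ b, k a b * l b c := rfl

end LKer

namespace PKer

variable (K L : PKer F S)

/-- Composition of product kernels. -/
noncomputable def comp : PKer F S where
  loc v := (K.loc v).comp (L.loc v)
  ae_one := by
    filter_upwards [K.ae_one, L.ae_one] with v h1 h2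
    rw [h1, h2, LKer.one_comp_eq]
  arch w := (K.arch w).comp (L.arch w)

/-- The finite factors compose. -/
lemma fin_comp (ω ω'' : FinPt F S) :
    ∑ᶠ ω', K.fin ω ω' * L.fin ω' ω'' = (K.comp L).fin ω ω'' :=
  finsum_finprod_mul_finprod (fun v a => (K.loc v).finite_row a) (((K.eventually_eq ω ω'').and
    (L.eventually_eq ω ω'')).mono fun v h => ⟨fun a c => by rw [h.1.1, LKer.one_apply]; congr 1,
      fun a c => by rw [h.2.1, LKer.one_apply]; congr 1, h.1.2⟩)

/-- The product of infinite factors is integrable. -/
lemma integrable_inf_mul (x z : InfinitePlace F → H3) :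
    Integrable (fun y => K.inf x y * L.inf y z) (Measure.pi fun _ => hmeas) := by
  simp only [inf, ← Finset.prod_mul_distrib]
  refine Integrable.fintype_prod (f := fun w y => K.arch w (x w) y * L.arch w y (z w)) fun w => ?_
  exact ((K.arch w).integrable (x w)).mul_bdd
    ((L.arch w).continuous_left (z w)).aestronglyMeasurable
    (Eventually.of_forall fun y => (L.arch w).le_bound y (z w))

/-- The infinite factors compose. -/
lemma inf_comp (x z : InfinitePlace F → H3) :
    ∫ y, K.inf x y * L.inf y z ∂(Measure.pi fun _ => hmeas) = (K.comp L).inf x z := by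
  simp only [inf, ← Finset.prod_mul_distrib]
  exact integral_fintype_prod_eq_prod fun w y => K.arch w (x w) y * L.arch w y (z w)

variable [Finite S]

omit [Finite S] in
/-- The kernel at two points is a finite sum over the row of finite points. -/
lemma val_eq_sum (p q : Pt F S) :
    K.val p q = ∑ ω ∈ (K.finite_row p.1).toFinset, if q.1 = ω then
      K.fin p.1 ω * K.inf p.2 q.2 else 0 := by
  rw [Finset.sum_ite_eq]
  split_ifs with h
  · rfl
  · rw [Set.Finite.mem_toFinset, Set.mem_ofPred_eq, not_not] at h
    rw [val, h, zero_mul]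

omit [Finite S] in
/-- Kernel values multiply factor by factor. -/
lemma val_mul_val (p q r : Pt F S) :
    K.val p q * L.val q r = K.fin p.1 q.1 * L.fin q.1 r.1 * (K.inf p.2 q.2 * L.inf q.2 r.2) := by
  simp only [val]; ring

omit [Finite S] in
/-- Only the finitely many points of a row contribute to a product of finite factors. -/
lemma finite_support_fin_mul (ω ω'' : FinPt F S) :
    (Function.support fun ω' => K.fin ω ω' * L.fin ω' ω'').Finite :=
  (K.finite_row ω).subset fun _ h => left_ne_zero_of_mul h

omit [Finite S] in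
/-- The product of two kernel values is integrable in the middle point. -/
lemma integrable_val_mul (p r : Pt F S) :
    Integrable (fun q => K.val p q * L.val q r) ptMeasure := by
  have : DiscreteMeasurableSpace (FinPt F S) := ⟨fun _ => trivial⟩
  simp only [K.val_mul_val L]
  -- elaborated without the expected type, against which the unifier runs for seconds
  have h := (integral_count_eq_finsum (K.finite_support_fin_mul L p.1 r.1)).1.mul_prod
    (K.integrable_inf_mul L p.2 r.2)
  exact h

omit [Finite S] in
/-- The composition formula. -/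
theorem integral_val_mul (p r : Pt F S) :
    ∫ q, K.val p q * L.val q r ∂ptMeasure = (K.comp L).val p r := by
  have : DiscreteMeasurableSpace (FinPt F S) := ⟨fun _ => trivial⟩
  simp only [K.val_mul_val L]
  unfold ptMeasure
  rw [integral_prod_mul (fun ω => K.fin p.1 ω * L.fin ω r.1) fun y => K.inf p.2 y * L.inf y r.2,
    (integral_count_eq_finsum (K.finite_support_fin_mul L p.1 r.1)).2, K.fin_comp L, K.inf_comp L]
  rfl

/-- The group elements contributing on the support of `K.val p`. -/
lemma exists_finset_seen (p r : Pt F S) :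
    ∃ s : Finset (PG F), ∀ q, K.val p q ≠ 0 → ∀ δ ∉ s, L.val q (δ • r) = 0 := by
  set A : ℝ := 2 * (∑ w, coshd ((1 : GL (Fin 2) ℂ) : H3) (p.2 w)) * K.range
  set B : ℝ := ∑ w, coshd ((1 : GL (Fin 2) ℂ) : H3) (r.2 w)
  have hfin : (⋃ ω ∈ {ω | K.fin p.1 ω ≠ 0}, {γ : PG F | ∃ x y : InfinitePlace F → H3,
      (∀ w, coshd ((1 : GL (Fin 2) ℂ) : H3) (x w) ≤ A) ∧
      (∀ w, coshd ((1 : GL (Fin 2) ℂ) : H3) (y w) ≤ B) ∧
      L.val (ω, x) (γ • (r.1, y)) ≠ 0}).Finite :=
    (K.finite_row p.1).biUnion fun ω _ => L.finite_seen ω r.1 A B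
  refine ⟨hfin.toFinset, fun q hq δ hδ => ?_⟩
  by_contra hne
  refine hδ (hfin.mem_toFinset.2 ?_)
  rw [val, mul_ne_zero_iff] at hq
  refine mem_biUnion hq.1 ⟨q.2, r.2, fun w => ?_, fun w => ?_, hne⟩
  · exact coshd_base_le_of_coshd (coshd_base_le_sum p.2 w)
      (not_lt.1 fun h => hq.2 (K.inf_eq_zero h))
  · exact coshd_base_le_sum r.2 w

/-- **Composition of the summed kernels.** The integral over a fundamental domain of the product of
two summed kernels is the summed kernel of the composition. -/
theorem integral_kap_mul {D : Set (Pt F S)} (hD : IsFundamentalDomain (PG F) D ptMeasure)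
    (p r : Pt F S) :
    ∫ q in D, K.kap p q * L.kap q r ∂ptMeasure = (K.comp L).kap p r := by
  obtain ⟨s, hs⟩ := K.exists_finset_seen L p r
  have hi := fun δ : PG F => K.integrable_val_mul L p (δ • r)
  have hint : Integrable (fun q => K.val p q * L.kap q r) ptMeasure :=
    integrable_mul_tsum_of_finset _ _ s hs hi
  have hunf : ∀ q, K.kap p q * L.kap q r = ∑' γ : PG F, K.val p (γ • q) * L.kap (γ • q) r :=
      fun q => by
    rw [kap, ← tsum_mul_right]
    simp only [L.kap_smul_left]
  simp only [hunf]
  rw [integral_domain_tsum hD hint]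
  exact (integral_mul_tsum_of_finset _ _ s hs hi).trans
    (tsum_congr fun δ => K.integral_val_mul L p (δ • r))

end PKer

end Fermat.LT
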