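import Fermat.Agent.LT.Approx
import Fermat.Agent.LT.KernComp

/-!
# Heights of lines

`ht u p` is the height factor of the line of `u` at the point `p`; `one_le_ht_mul` says that two
lines are not high at the same point.
-/

set_option autoImplicit false
open IsDedekindDomain NumberField Filter
open scoped Classical Matrix ComplexConjugate

namespace Fermat.LT

variable {F : Type*} [Field F] [NumberField F]

/-- The normalised absolute value at a finite place. -/
noncomputable abbrev vabs (v : Place F) : AbsoluteValue F ℝ := HeightOneSpectrum.adicAbv F v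

/-- The normalised absolute value is the norm to the power minus the order. -/
lemma vabs_eq (v : Place F) {x : F} (hx : x ≠ 0) :
    vabs v x = (pnorm v : ℝ) ^ (-ord (v.valuation F) x) := by
  rw [vabs, HeightOneSpectrum.adicAbv_def, v_eq_exp (v.valuation F) hx,
    WithZeroMulInt.toNNReal_neg_apply _ WithZero.exp_ne_zero]
  rw [NNReal.coe_zpow]
  rfl

/-- The normalised absolute value is at most `1` exactly on integral elements. -/
lemma vabs_le_one_iff (v : Place F) (x : F) : vabs v x ≤ 1 ↔ v.valuation F x ≤ 1 := by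
  rcases eq_or_ne x 0 with rfl | hx
  · simp
  have h1 : (1 : ℝ) < pnorm v := by exact_mod_cast HeightOneSpectrum.one_lt_absNorm v
  rw [vabs_eq v hx, ← ord_nonneg_iff (v.valuation F) hx, zpow_le_one_iff_right₀ h1]
  omega

/-- The normalised absolute value is `1` exactly on units. -/
lemma vabs_eq_one_iff (v : Place F) {x : F} (hx : x ≠ 0) :
    vabs v x = 1 ↔ v.valuation F x = 1 := by
  have h1 : (1 : ℝ) < pnorm v := by exact_mod_cast HeightOneSpectrum.one_lt_absNorm v
  rw [vabs_eq v hx, ← ord_eq_zero_iff (v.valuation F) hx,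
    zpow_eq_one_iff_right₀ (zero_le_one.trans h1.le) h1.ne', neg_eq_zero]

/-- The ultrametric inequality. -/
lemma vabs_add_le (v : Place F) (x y : F) : vabs v (x + y) ≤ max (vabs v x) (vabs v y) :=
  HeightOneSpectrum.adicAbv_add_le_max F v x y

/-- A nonzero element has absolute value `1` at almost all places. -/
lemma finite_vabs_ne_one {x : F} (hx : x ≠ 0) : {v : Place F | vabs v x ≠ 1}.Finite := by
  refine ((finite_places_gt_one x).union (finite_places_gt_one x⁻¹)).subset fun v hv => ?_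
  rw [Set.mem_ofPred_eq, Ne, vabs_eq_one_iff v hx] at hv
  rcases lt_or_gt_of_ne hv with h | h
  · right
    simp only [Set.mem_ofPred_eq, map_inv₀]
    exact (one_lt_inv₀ (zero_lt_iff.2 (by simpa using hx))).2 h
  · exact Or.inl h

/-- The product formula over places. -/
theorem product_formula {x : F} (hx : x ≠ 0) :
    (∏ w : InfinitePlace F, w x ^ w.mult) * ∏ᶠ v : Place F, vabs v x = 1 := by
  rw [← prod_abs_eq_one hx, ← finprod_comp_equiv FinitePlace.equivHeightOneSpectrum.symm]
  congr 1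
  refine finprod_congr fun v => ?_
  rw [FinitePlace.equivHeightOneSpectrum_symm_apply, FinitePlace.norm_embedding]

/-- Squared norm of a row vector at a finite place. -/
noncomputable def nfin (v : Place F) (u : Fin 2 → F) (g : GL (Fin 2) F) : ℝ :=
  max (vabs v ((u ᵥ* (g : Matrix (Fin 2) (Fin 2) F)) 0))
      (vabs v ((u ᵥ* (g : Matrix (Fin 2) (Fin 2) F)) 1)) ^ 2
    / vabs v (g : Matrix (Fin 2) (Fin 2) F).det

/-- An integral matrix does not increase the sup norm. -/
lemma vecMul_max_le (v : Place F) (x : Fin 2 → F) {k : GL (Fin 2) F}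
    (hk : k ∈ intGL (v.valuation F)) :
    max (vabs v ((x ᵥ* (k : Matrix (Fin 2) (Fin 2) F)) 0))
      (vabs v ((x ᵥ* (k : Matrix (Fin 2) (Fin 2) F)) 1)) ≤ max (vabs v (x 0)) (vabs v (x 1)) := by
  obtain ⟨k0, rfl⟩ := hk
  have hk1 : ∀ i j, vabs v (((Matrix.GeneralLinearGroup.map (v.valuation F).integer.subtype k0 :
      GL (Fin 2) F) : Matrix (Fin 2) (Fin 2) F) i j) ≤ 1 := fun i j =>
    (vabs_le_one_iff v _).2 ((k0 : Matrix (Fin 2) (Fin 2) (v.valuation F).integer) i j).2
  refine max_le ?_ ?_ <;>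
  · simp only [Matrix.vecMul, dotProduct, Fin.sum_univ_two]
    refine (vabs_add_le v _ _).trans (max_le_max ?_ ?_) <;>
      · rw [map_mul]; exact mul_le_of_le_one_right (apply_nonneg _ _) (hk1 _ _)

/-- An integral invertible matrix has determinant of absolute value `1`. -/
lemma vabs_det_intGL (v : Place F) {k : GL (Fin 2) F} (hk : k ∈ intGL (v.valuation F)) :
    vabs v (k : Matrix (Fin 2) (Fin 2) F).det = 1 := by
  have h : ∀ {m : GL (Fin 2) F}, m ∈ intGL (v.valuation F) →
      vabs v (m : Matrix (Fin 2) (Fin 2) F).det ≤ 1 := by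
    intro m hm
    obtain ⟨m0, rfl⟩ := hm
    rw [vabs_le_one_iff]
    have : ((Matrix.GeneralLinearGroup.map (v.valuation F).integer.subtype m0 :
        GL (Fin 2) F) : Matrix (Fin 2) (Fin 2) F).det
        = ((m0 : Matrix (Fin 2) (Fin 2) (v.valuation F).integer).det : F) :=
      (RingHom.map_det _ _).symm
    rw [this]
    exact (m0 : Matrix (Fin 2) (Fin 2) (v.valuation F).integer).det.2
  refine le_antisymm (h hk) ?_
  have h2 := h ((intGL _).inv_mem hk)
  rw [Matrix.coe_units_inv, Matrix.det_nonsing_inv, Ring.inverse_eq_inv', map_inv₀] at h2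
  exact (inv_le_one_iff₀.1 h2).resolve_left (not_le.2 ((vabs v).pos k.det_ne_zero))

/-- The local squared norm ignores scalars on the right. -/
lemma nfin_mul_scal (v : Place F) (u : Fin 2 → F) (g : GL (Fin 2) F) (c : Fˣ) :
    nfin v u (g * scal c) = nfin v u g := by
  have e : u ᵥ* ((g * scal c : GL (Fin 2) F) : Matrix (Fin 2) (Fin 2) F)
      = (c : F) • (u ᵥ* (g : Matrix (Fin 2) (Fin 2) F)) := by
    rw [Units.val_mul, scal_coe, Matrix.scalar_apply, ← Matrix.vecMul_vecMul]
    ext i; simp [Matrix.vecMul_diagonal, mul_comm]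
  have hc : 0 < vabs v (c : F) := (vabs v).pos c.ne_zero
  rw [nfin, nfin, e, Units.val_mul, scal_coe, Matrix.scalar_apply, Matrix.det_mul,
    Matrix.det_diagonal]
  simp only [Pi.smul_apply, smul_eq_mul, map_mul, Fin.prod_univ_two, ← mul_max_of_nonneg _ _ hc.le]
  have := (vabs v).pos g.det_ne_zero
  field_simp

/-- The local height is invariant under integral matrices. -/
lemma nfin_mul_intGL (v : Place F) (u : Fin 2 → F) (g : GL (Fin 2) F) {k : GL (Fin 2) F}
    (hk : k ∈ intGL (v.valuation F)) : nfin v u (g * k) = nfin v u g := by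
  rw [nfin, nfin, Units.val_mul, Matrix.det_mul, map_mul, vabs_det_intGL v hk, mul_one,
    ← Matrix.vecMul_vecMul]
  congr 2
  refine le_antisymm (vecMul_max_le v _ hk) ?_
  have := vecMul_max_le v ((u ᵥ* (g : Matrix (Fin 2) (Fin 2) F)) ᵥ* (k : Matrix (Fin 2) (Fin 2) F))
    ((intGL _).inv_mem hk)
  rwa [Matrix.vecMul_vecMul _ (k : Matrix (Fin 2) (Fin 2) F), ← Units.val_mul, mul_inv_cancel,
    Units.val_one, Matrix.vecMul_one] at this

/-- The local height is invariant under the maximal subgroup. -/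
lemma nfin_mul_U0 (v : Place F) (u : Fin 2 → F) (g : GL (Fin 2) F) {k : GL (Fin 2) F}
    (hk : k ∈ U0 (v.valuation F)) : nfin v u (g * k) = nfin v u g := by
  obtain ⟨c, hc⟩ := hk
  rw [← nfin_mul_scal v u (g * k) c, mul_assoc, ← scal_comm, nfin_mul_intGL v u g hc]

/-- Left multiplication moves to the row vector, up to the absolute value of the determinant. -/
lemma nfin_mul_left (v : Place F) (u : Fin 2 → F) (γ g : GL (Fin 2) F) :
    nfin v u (γ * g) = nfin v (u ᵥ* (γ : Matrix (Fin 2) (Fin 2) F)) g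
      / vabs v (γ : Matrix (Fin 2) (Fin 2) F).det := by
  rw [nfin, nfin, Units.val_mul, Matrix.det_mul, map_mul, Matrix.vecMul_vecMul, div_div,
    mul_comm (vabs v (γ : Matrix (Fin 2) (Fin 2) F).det)]

/-- Squared norm of a row vector at a complex place. -/
noncomputable def ninf0 (u : Fin 2 → ℂ) (g : GL (Fin 2) ℂ) : ℝ :=
  ((∑ i, ∑ j, u i * herm g i j * conj (u j)).re) / ‖(g : Matrix (Fin 2) (Fin 2) ℂ).det‖

/-- The formula for the infinite height. -/
lemma ninf0_eq (u : Fin 2 → ℂ) (g : GL (Fin 2) ℂ) :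
    ninf0 u g = (Complex.normSq ((u ᵥ* (g : Matrix (Fin 2) (Fin 2) ℂ)) 0)
      + Complex.normSq ((u ᵥ* (g : Matrix (Fin 2) (Fin 2) ℂ)) 1))
      / ‖(g : Matrix (Fin 2) (Fin 2) ℂ).det‖ := by
  rw [ninf0]
  congr 1
  simp [Fin.sum_univ_two, herm_eq, Matrix.vecMul, dotProduct, Complex.normSq_apply]
  ring

/-- The infinite height is invariant under the compact subgroup. -/
lemma ninf0_mul_UC (u : Fin 2 → ℂ) (g : GL (Fin 2) ℂ) {k : GL (Fin 2) ℂ} (hk : k ∈ UC) :
    ninf0 u (g * k) = ninf0 u g := by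
  obtain ⟨r, hr, h, hd⟩ := herm_mul_UC g hk
  rw [ninf0, ninf0, h, hd]
  have e : ∑ i, ∑ j, u i * ((r : ℂ) • herm g) i j * conj (u j)
      = (r : ℂ) * ∑ i, ∑ j, u i * herm g i j * conj (u j) := by
    simp [Fin.sum_univ_two]; ring
  rw [e, Complex.re_ofReal_mul, mul_div_mul_left _ _ hr.ne']

/-- The infinite height of a translate. -/
lemma ninf0_mul_left (u : Fin 2 → ℂ) (γ g : GL (Fin 2) ℂ) :
    ninf0 u (γ * g) = ninf0 (u ᵥ* (γ : Matrix (Fin 2) (Fin 2) ℂ)) g
      / ‖(γ : Matrix (Fin 2) (Fin 2) ℂ).det‖ := by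
  rw [ninf0_eq, ninf0_eq, Units.val_mul, Matrix.det_mul, norm_mul, Matrix.vecMul_vecMul, div_div,
    mul_comm ‖(γ : Matrix (Fin 2) (Fin 2) ℂ).det‖]

/-- Squared norm of a row vector at a point of `H3`. -/
noncomputable def ninf (u : Fin 2 → ℂ) : H3 → ℝ :=
  Quotient.lift (fun g => ninf0 u g) fun a b hab => by
    have h : a⁻¹ * b ∈ UC := QuotientGroup.leftRel_apply.1 hab
    have := ninf0_mul_UC u a h
    rw [mul_inv_cancel_left] at this
    exact this.symm

/-- The height of the class of a matrix at infinity. -/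
@[simp] lemma ninf_mk (u : Fin 2 → ℂ) (g : GL (Fin 2) ℂ) : ninf u (g : H3) = ninf0 u g := rfl

/-- The squared norm at a point of `H3` in coordinates. -/
lemma ninf_coord (u : Fin 2 → ℂ) (x : H3) :
    ninf u x = (Complex.normSq (u 0) * (H3.coord x).2 ^ 2
      + Complex.normSq (u 0 * (H3.coord x).1 + u 1)) / (H3.coord x).2 := by
  conv_lhs => rw [← H3.mk_coord x, H3.mk_of_pos _ (H3.coord_pos x)]
  rw [ninf_mk, ninf0_eq, coe_triMat]
  have := H3.coord_pos x
  simp [Matrix.vecMul, dotProduct, Fin.sum_univ_two, Matrix.det_fin_two_of, Complex.normSq_mul,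
    Complex.normSq_ofReal, abs_of_pos this]
  ring_nf

/-- The squared norm is continuous on `H3`. -/
lemma continuous_ninf (u : Fin 2 → ℂ) : Continuous (ninf u) := by
  have : ninf u = fun x => (Complex.normSq (u 0) * (H3.coord x).2 ^ 2
      + Complex.normSq (u 0 * (H3.coord x).1 + u 1)) / (H3.coord x).2 := funext (ninf_coord u)
  rw [this]
  exact Continuous.div (((continuous_const.mul (continuous_coord.snd.pow 2))).add
    (Complex.continuous_normSq.comp
      ((continuous_const.mul continuous_coord.fst).add continuous_const)))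
    continuous_coord.snd fun x => (H3.coord_pos x).ne'

variable {S : Set (Place F)}

/-- The local factor at a finite place. -/
noncomputable def nloc (v : Place F) (u : Fin 2 → F) (y : Vert S v) : ℝ := nfin v u y.out

/-- The height of the class of a matrix at a place. -/
@[simp] lemma nloc_mk (v : Place F) (u : Fin 2 → F) (g : GL (Fin 2) F) :
    nloc v u (g : Vert S v) = nfin v u g := by
  obtain ⟨k, hk⟩ := QuotientGroup.mk_out_eq_mul (lev S v) g
  rw [nloc, hk, nfin_mul_U0 v u g (lev_le_U0 S v k.2)]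

/-- Image of a row vector at an infinite place. -/
noncomputable def embVec (w : InfinitePlace F) (u : Fin 2 → F) :
    Fin 2 → ℂ := fun i => w.embedding (u i)

/-- The height factor of a line at a point: small means high in the cusp of the line. -/
noncomputable def ht (u : Fin 2 → F) (p : Pt F S) : ℝ :=
  (∏ᶠ v, nloc v u (p.1.1 v)) * ∏ w, ninf (embVec w u) (p.2 w) ^ w.mult

/-- The finite squared norm of a nonzero vector is positive. -/
lemma nfin_pos (v : Place F) {u : Fin 2 → F} (hu : u ≠ 0) (g : GL (Fin 2) F) : 0 < nfin v u g := by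
  refine div_pos (pow_pos ?_ 2) ((vabs v).pos g.det_ne_zero)
  by_contra hle
  rw [not_lt, max_le_iff] at hle
  have h0 := (vabs v).eq_zero.1 (le_antisymm hle.1 (apply_nonneg _ _))
  have h1 := (vabs v).eq_zero.1 (le_antisymm hle.2 (apply_nonneg _ _))
  have : u ᵥ* (g : Matrix (Fin 2) (Fin 2) F) = 0 := by
    funext i; fin_cases i
    · exact h0
    · exact h1
  exact hu (Matrix.vecMul_injective_iff_isUnit.2 g.isUnit (by simpa using this))

/-- The archimedean squared norm of a nonzero vector is positive. -/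
lemma ninf_pos {u : Fin 2 → ℂ} (hu : u ≠ 0) (x : H3) : 0 < ninf u x := by
  rw [ninf_coord]
  refine div_pos ?_ (H3.coord_pos x)
  rcases eq_or_ne (u 0) 0 with h | h
  · have h1 : u 1 ≠ 0 := fun h1 => hu (by funext i; fin_cases i <;> assumption)
    simp [h, Complex.normSq_pos.2 h1]
  · exact add_pos_of_pos_of_nonneg (mul_pos (Complex.normSq_pos.2 h) (pow_pos (H3.coord_pos x) 2))
      (Complex.normSq_nonneg _)

/-- The local factor of a nonzero vector is `1` at almost all places. -/
lemma eventually_nloc_eq_one {u : Fin 2 → F} (hu : u ≠ 0) (ω : FinPt F S) :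
    ∀ᶠ v in cofinite, nloc v u (ω.1 v) = 1 := by
  obtain ⟨i, hi⟩ := Function.ne_iff.1 hu
  filter_upwards [ω.2, eventually_valuation_le_one (u 0), eventually_valuation_le_one (u 1),
    (finite_vabs_ne_one hi).compl_mem_cofinite] with v hv h0 h1 hvi
  simp only [Set.mem_compl_iff, Set.mem_ofPred_eq, not_not] at hvi
  rw [hv, nloc_mk, nfin]
  simp only [Units.val_one, Matrix.vecMul_one, Matrix.det_one, map_one, div_one]
  have hle : max (vabs v (u 0)) (vabs v (u 1)) ≤ 1 :=
    max_le ((vabs_le_one_iff v _).2 h0) ((vabs_le_one_iff v _).2 h1)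
  have hge : 1 ≤ max (vabs v (u 0)) (vabs v (u 1)) := by
    rw [← hvi]
    fin_cases i
    · exact le_max_left _ _
    · exact le_max_right _ _
  rw [le_antisymm hle hge, one_pow]

omit [NumberField F] in
/-- A nonzero vector stays nonzero at infinity. -/
lemma embVec_ne_zero (w : InfinitePlace F) {u : Fin 2 → F} (hu : u ≠ 0) : embVec w u ≠ 0 := by
  obtain ⟨i, hi⟩ := Function.ne_iff.1 hu
  exact fun h => hi (w.embedding.injective (by simpa [embVec] using congrFun h i))

/-- The height factor of a line is positive. -/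
lemma ht_pos {u : Fin 2 → F} (hu : u ≠ 0) (p : Pt F S) : 0 < ht u p := by
  refine mul_pos ?_ (Finset.prod_pos fun w _ => pow_pos (ninf_pos (embVec_ne_zero w hu) _) _)
  have hf : (Function.mulSupport fun v => nloc v u (p.1.1 v)).Finite :=
    eventually_cofinite.1 (eventually_nloc_eq_one hu p.1)
  rw [finprod_eq_prod _ hf]
  exact Finset.prod_pos fun v _ => nfin_pos v hu _

/-- The infinite factor of a translated point. -/
lemma ninf_atInf_smul (u : Fin 2 → F) (γ : GL (Fin 2) F) (w : InfinitePlace F) (x : H3) :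
    ninf (embVec w u) (atInf w γ • x)
      = ninf (embVec w (u ᵥ* (γ : Matrix (Fin 2) (Fin 2) F))) x /
        w (γ : Matrix (Fin 2) (Fin 2) F).det := by
  obtain ⟨g, rfl⟩ := QuotientGroup.mk_surjective x
  rw [MulAction.Quotient.smul_coe, smul_eq_mul, ninf_mk, ninf_mk, ninf0_mul_left]
  have e1 : embVec w u ᵥ* ((atInf w γ : GL (Fin 2) ℂ) : Matrix (Fin 2) (Fin 2) ℂ)
      = embVec w (u ᵥ* (γ : Matrix (Fin 2) (Fin 2) F)) := by
    funext i
    simp [embVec, Matrix.vecMul, dotProduct, atInf]
  have e2 : ‖((atInf w γ : GL (Fin 2) ℂ) : Matrix (Fin 2) (Fin 2) ℂ).det‖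
      = w (γ : Matrix (Fin 2) (Fin 2) F).det := by
    rw [← InfinitePlace.norm_embedding_eq, RingHom.map_det]; rfl
  rw [e1, e2]

/-- `ht (u γ) = ht u ∘ γ`. -/
theorem ht_smul [Finite S] {u : Fin 2 → F} (hu : u ≠ 0) (γ : GL (Fin 2) F) (p : Pt F S) :
    ht u (γ • p) = ht (u ᵥ* (γ : Matrix (Fin 2) (Fin 2) F)) p := by
  set u' := u ᵥ* (γ : Matrix (Fin 2) (Fin 2) F)
  set d := (γ : Matrix (Fin 2) (Fin 2) F).det
  have hu' : u' ≠ 0 :=
    fun h => hu (Matrix.vecMul_injective_iff_isUnit.2 γ.isUnit (by simpa using h))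
  have hfin : ∀ v, nloc v u ((γ • p).1.1 v) = nloc v u' (p.1.1 v) / vabs v d := fun v => by
    obtain ⟨g, hg⟩ := QuotientGroup.mk_surjective (p.1.1 v)
    rw [Pt.smul_fst, FinPt.smul_apply, ← hg, MulAction.Quotient.smul_coe, smul_eq_mul, nloc_mk,
      nloc_mk, nfin_mul_left]
  have hinf : ∀ w : InfinitePlace F,
      ninf (embVec w u) ((γ • p).2 w) = ninf (embVec w u') (p.2 w) / w d := fun w => by
    rw [Pt.smul_snd]; exact ninf_atInf_smul u γ w _
  have hd : d ≠ 0 := γ.det_ne_zero
  rw [ht, ht]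
  simp only [hfin, hinf, div_pow, Finset.prod_div_distrib]
  rw [finprod_div_distrib (eventually_cofinite.1 (eventually_nloc_eq_one hu' p.1))
    (finite_vabs_ne_one hd), div_mul_div_comm, mul_comm (∏ᶠ v, vabs v d), product_formula hd,
    div_one]

/-- Proportional vectors have the same height. -/
theorem ht_smul_vec [Finite S] {u : Fin 2 → F} (hu : u ≠ 0) (c : Fˣ) (p : Pt F S) :
    ht ((c : F) • u) p = ht u p := by
  have h := ht_smul hu (scal c) p
  rw [Pt.scal_smul] at h
  rw [h]
  congr 1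
  funext i
  rw [scal_coe, Matrix.scalar_apply, Matrix.vecMul_diagonal, Pi.smul_apply, smul_eq_mul, mul_comm]

/-- **Two lines are not high simultaneously**, for arbitrary local matrices. -/
theorem one_le_ht_mul_gen {u u' : Fin 2 → F} (h : u 0 * u' 1 - u 1 * u' 0 ≠ 0)
    {γ : Place F → GL (Fin 2) F} (x : InfinitePlace F → H3)
    (hs : (Function.mulSupport fun v => nfin v u (γ v)).Finite)
    (hs' : (Function.mulSupport fun v => nfin v u' (γ v)).Finite) :
    1 ≤ ((∏ᶠ v, nfin v u (γ v)) * ∏ w, ninf (embVec w u) (x w) ^ w.mult)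
      * ((∏ᶠ v, nfin v u' (γ v)) * ∏ w, ninf (embVec w u') (x w) ^ w.mult) := by
  set D := u 0 * u' 1 - u 1 * u' 0 with hD
  -- at a finite place: the ultrametric inequality for the determinant
  have hfin : ∀ v, vabs v D ^ 2 ≤ nfin v u (γ v) * nfin v u' (γ v) := fun v => by
    rw [nfin, nfin, div_mul_div_comm,
      le_div_iff₀ (mul_pos ((vabs v).pos (γ v).det_ne_zero) ((vabs v).pos (γ v).det_ne_zero)),
      ← mul_pow, ← sq, ← mul_pow]
    refine pow_le_pow_left₀ (mul_nonneg (apply_nonneg _ _) (apply_nonneg _ _)) ?_ 2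
    rw [← map_mul]
    set a := u ᵥ* (γ v : Matrix (Fin 2) (Fin 2) F) with ha
    set b := u' ᵥ* (γ v : Matrix (Fin 2) (Fin 2) F) with hb
    have e : D * (γ v : Matrix (Fin 2) (Fin 2) F).det = a 0 * b 1 - a 1 * b 0 := by
      simp [ha, hb, hD, Matrix.vecMul, dotProduct, Fin.sum_univ_two, Matrix.det_fin_two]; ring
    rw [e, sub_eq_add_neg]
    refine (vabs_add_le v _ _).trans (max_le ?_ ?_)
    · rw [map_mul]
      exact mul_le_mul (le_max_left _ _) (le_max_right _ _) (apply_nonneg _ _)
        (le_max_of_le_left (apply_nonneg _ _))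
    · rw [AbsoluteValue.map_neg, map_mul]
      exact mul_le_mul (le_max_right _ _) (le_max_left _ _) (apply_nonneg _ _)
        (le_max_of_le_left (apply_nonneg _ _))
  -- at an infinite place: Lagrange's identity
  have hinf : ∀ w : InfinitePlace F,
      w D ^ 2 ≤ ninf (embVec w u) (x w) * ninf (embVec w u') (x w) := fun w => by
    obtain ⟨g, hg⟩ := QuotientGroup.mk_surjective (x w)
    rw [← hg, ninf_mk, ninf_mk, ninf0_eq, ninf0_eq, div_mul_div_comm]
    set G := ‖(g : Matrix (Fin 2) (Fin 2) ℂ).det‖ with hG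
    have hG0 : 0 < G := norm_pos_iff.2 g.det_ne_zero
    rw [le_div_iff₀ (mul_pos hG0 hG0), ← sq, ← mul_pow,
      ← InfinitePlace.norm_embedding_eq, ← norm_mul, ← Complex.normSq_eq_norm_sq]
    set a := embVec w u ᵥ* (g : Matrix (Fin 2) (Fin 2) ℂ) with ha
    set b := embVec w u' ᵥ* (g : Matrix (Fin 2) (Fin 2) ℂ) with hb
    have e : w.embedding D * (g : Matrix (Fin 2) (Fin 2) ℂ).det = a 0 * b 1 - a 1 * b 0 := by
      simp [ha, hb, hD, embVec, Matrix.vecMul, dotProduct, Fin.sum_univ_two,
        Matrix.det_fin_two]; ring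
    rw [e]
    have : Complex.normSq (a 0 * b 1 - a 1 * b 0)
        + Complex.normSq (a 0 * conj (b 0) + a 1 * conj (b 1))
        = (Complex.normSq (a 0) + Complex.normSq (a 1)) *
            (Complex.normSq (b 0) + Complex.normSq (b 1)) := by
      simp [Complex.normSq_apply]; ring
    linarith [Complex.normSq_nonneg (a 0 * conj (b 0) + a 1 * conj (b 1))]
  -- the product formula
  have hD2 : (1 : ℝ) = (∏ᶠ v, vabs v D ^ 2) * ∏ w : InfinitePlace F, (w D ^ 2) ^ w.mult := by
    rw [← finprod_pow (finite_vabs_ne_one h)]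
    simp only [pow_right_comm _ 2]
    rw [Finset.prod_pow, ← mul_pow, mul_comm, product_formula h, one_pow]
  rw [hD2, mul_mul_mul_comm, ← finprod_mul_distrib hs hs', ← Finset.prod_mul_distrib]
  set E := ((finite_vabs_ne_one h).union (hs.union hs')).toFinset with hE
  rw [finprod_eq_prod_of_mulSupport_subset (s := E), finprod_eq_prod_of_mulSupport_subset (s := E)]
  · refine mul_le_mul (Finset.prod_le_prod (fun v _ => sq_nonneg _) fun v _ => hfin v)
      (Finset.prod_le_prod (fun w _ => pow_nonneg (sq_nonneg _) _) fun w _ => ?_)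
      (Finset.prod_nonneg fun w _ => pow_nonneg (sq_nonneg _) _)
      (Finset.prod_nonneg fun v _ => (sq_nonneg _).trans (hfin v))
    rw [← mul_pow]
    exact pow_le_pow_left₀ (sq_nonneg _) (hinf w) _
  · intro v hv
    by_contra hne
    simp [hE] at hne
    exact hv (by simp [hne.2.1, hne.2.2])
  · intro v hv
    by_contra hne
    simp [hE] at hne
    exact hv (by simp [hne.1])

/-- **Two lines are not high simultaneously.** -/
theorem one_le_ht_mul {u u' : Fin 2 → F} (hu : u ≠ 0) (hu' : u' ≠ 0)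
    (h : u 0 * u' 1 - u 1 * u' 0 ≠ 0) (p : Pt F S) : 1 ≤ ht u p * ht u' p :=
  one_le_ht_mul_gen h p.2 (eventually_cofinite.1 (eventually_nloc_eq_one hu p.1))
    (eventually_cofinite.1 (eventually_nloc_eq_one hu' p.1))

end Fermat.LT
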