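import Fermat.Agent.LT.Parts

/-!
# Functionals killed with finitely many constant terms have continuous densities

`hasDensity_of_vanish` gives a trigonometric polynomial as density, by the Fourier coefficients
`integral_eval_eChar` of the Satake transform.
-/

set_option autoImplicit false
open Polynomial MeasureTheory
open scoped ComplexConjugate

namespace Fermat.LT

/-- `θ ↦ exp (-i k θ)`. -/
noncomputable def eChar (k : ℤ) (θ : ℝ) : ℂ := Complex.exp (-((k : ℂ) * θ * Complex.I))

/-- The characters of the circle are continuous. -/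
lemma continuous_eChar (k : ℤ) : Continuous (eChar k) := by unfold eChar; fun_prop

/-- Multiplication by `2 cos θ` shifts the index both ways. -/
lemma eChar_mul_cos (k : ℤ) (θ : ℝ) :
    (2 * (Real.cos θ : ℂ)) * eChar k θ = eChar (k - 1) θ + eChar (k + 1) θ := by
  rw [Complex.ofReal_cos, Complex.two_cos, eChar, eChar, eChar, add_mul, ← Complex.exp_add,
    ← Complex.exp_add]
  push_cast
  congr 1 <;> congr 1 <;> ring

/-- Only the trivial character has a nonzero integral. -/
lemma integral_eChar (k : ℤ) :
    ∫ θ in (0 : ℝ)..(2 * Real.pi), eChar k θ = if k = 0 then 2 * (Real.pi : ℂ) else 0 := by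
  split_ifs with hk
  · simp [hk, eChar]
  · have hc : -((k : ℂ) * Complex.I) ≠ 0 :=
      neg_ne_zero.2 (mul_ne_zero (Int.cast_ne_zero.2 hk) Complex.I_ne_zero)
    rw [show eChar k = fun θ : ℝ => Complex.exp (-((k : ℂ) * Complex.I) * θ) by
      funext θ; rw [eChar]; congr 1; ring, integral_exp_mul_complex hc]
    have e : Complex.exp (-((k : ℂ) * Complex.I) * ((2 * Real.pi : ℝ) : ℂ)) = 1 := by
      rw [← Complex.exp_int_mul_two_pi_mul_I (-k)]
      congr 1
      push_cast; ring
    rw [e]
    simp

/-- **Fourier coefficients of the Satake transform.** -/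
theorem integral_eval_eChar (q : ℕ) (p : ℂ[X]) : ∀ k : ℤ,
    ∫ θ in (0 : ℝ)..(2 * Real.pi), p.eval ((((2 * Real.sqrt q) * Real.cos θ : ℝ)) : ℂ) * eChar k θ
      = 2 * (Real.pi : ℂ) * (sat q p).coeff k := by
  induction p using Polynomial.induction_on with
  | C c =>
    intro k
    simp only [eval_C, intervalIntegral.integral_const_mul, integral_eChar]
    -- constants: only the coefficient at `0` survives
    have e : (sat q (Polynomial.C c)).coeff k = if k = 0 then c else 0 := by
      rw [sat, aeval_C, ← LaurentPolynomial.C_eq_algebraMap, LaurentPolynomial.C_apply]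
    rw [e]
    split_ifs <;> ring
  | add f g hf hg =>
    intro k
    have hI : ∀ r : ℂ[X], IntervalIntegrable
        (fun θ : ℝ => r.eval ((((2 * Real.sqrt q) * Real.cos θ : ℝ)) : ℂ) * eChar k θ) volume 0
            (2 * Real.pi) :=
      fun r => ((r.continuous.comp (by fun_prop)).mul (continuous_eChar k)).intervalIntegrable _ _
    simp only [eval_add, add_mul]
    rw [intervalIntegral.integral_add (hI f) (hI g), hf, hg, ← mul_add]
    congr 1
    simp [sat, map_add]
  | monomial n c h =>
    intro k
    rw [show Polynomial.C c * X ^ (n + 1) = X * (Polynomial.C c * X ^ n) by ring, sat_X_mul]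
    set f : ℂ[X] := Polynomial.C c * X ^ n
    -- one factor `X` shifts the character up and down
    have e : ∀ θ : ℝ, (X * f).eval ((((2 * Real.sqrt q) * Real.cos θ : ℝ)) : ℂ) * eChar k θ
        = ((Real.sqrt q : ℝ) : ℂ) *
          (f.eval ((((2 * Real.sqrt q) * Real.cos θ : ℝ)) : ℂ) * eChar (k - 1) θ)
          + ((Real.sqrt q : ℝ) : ℂ) *
              (f.eval ((((2 * Real.sqrt q) * Real.cos θ : ℝ)) : ℂ) * eChar (k + 1) θ) := by
      intro θ
      rw [eval_mul, eval_X, ← mul_add, ← mul_add, ← eChar_mul_cos]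
      push_cast
      ring
    have hI : ∀ j, IntervalIntegrable (fun θ : ℝ => ((Real.sqrt q : ℝ) : ℂ) *
        (f.eval ((((2 * Real.sqrt q) * Real.cos θ : ℝ)) : ℂ) * eChar j θ)) volume 0
            (2 * Real.pi) := fun j =>
      (continuous_const.mul
        ((f.continuous.comp (by fun_prop)).mul (continuous_eChar j))).intervalIntegrable _ _
    simp only [e]
    rw [intervalIntegral.integral_add (hI _) (hI _), intervalIntegral.integral_const_mul,
      intervalIntegral.integral_const_mul, h, h]
    ring

/-- `oddP` is additive. -/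
lemma oddP_add (r s : ℝ[X]) : oddP (r + s) = oddP r + oddP s := by
  simp [oddP, mul_add]

/-- `oddP` is homogeneous over `ℝ`. -/
lemma oddP_smul (a : ℝ) (r : ℝ[X]) : oddP (a • r) = Polynomial.C (a : ℂ) * oddP r := by
  simp [oddP, Polynomial.smul_eq_C_mul, mul_comp, mul_left_comm]

/-- `gsum` is homogeneous. -/
lemma gsum_const_mul (q : ℕ) (c : ℂ) (h : ℕ → ℂ) (n : ℕ) :
    gsum q (fun m => c * h m) n = c * gsum q h n := by
  rw [gsum, gsum, ← smul_eq_mul c, smul_finsum]
  exact finsum_congr fun r => by rw [smul_eq_mul]; ring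

/-- The constant terms are additive on kernels of bounded support. -/
lemma ctil_add {q : ℕ} {h h' : ℕ → ℂ} {D : ℕ} (hD : ∀ m, D < m → h m = 0)
    (hD' : ∀ m, D < m → h' m = 0) (n : ℕ) : ctil q (h + h') n = ctil q h n + ctil q h' n := by
  rw [ctil, ctil, ctil, gsum_eq_sum q hD n (D + 1) (by omega),
    gsum_eq_sum q hD' n (D + 1) (by omega),
    gsum_eq_sum q (h := h + h') (D := D) (fun m hm => by simp [hD m hm, hD' m hm]) n
      (D + 1) (by omega)]
  simp only [Pi.add_apply, mul_add, Finset.sum_add_distrib]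
  ring

/-- **A functional vanishing where the constant terms up to `M` do has a density**, a trigonometric
polynomial. -/
theorem hasDensity_of_vanish {q : ℕ} (hq : 0 < q) {J : ℝ[X] → ℂ}
    (hadd : ∀ r s, J (r + s) = J r + J s) (hsmul : ∀ (a : ℝ) r, J (a • r) = (a : ℂ) * J r)
    (hreal : ∀ r n, conj (ctil q (kern q (oddP r)) n) = ctil q (kern q (oddP r)) n) (M : ℕ)
    (h0 : ∀ r, (∀ n ≤ M, ctil q (kern q (oddP r)) n = 0) → J r = 0) : HasDensity q J := by
  have hD : ∀ (r : ℝ[X]) (D : ℕ), (oddP r).natDegree ≤ D → ∀ m, D < m → kern q (oddP r) m = 0 :=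
    fun r D hle m hm => kern_eq_zero q _ m (lt_of_le_of_lt hle hm)
  -- the constant terms as real functionals
  let L : Fin (M + 1) → (ℝ[X] →ₗ[ℝ] ℝ) := fun n =>
    { toFun := fun r => (ctil q (kern q (oddP r)) n).re
      map_add' := fun r s => by
        rw [oddP_add, show kern q (oddP r + oddP s) = kern q (oddP r) +
          kern q (oddP s) by simp [kern],
          ctil_add (hD r (max (oddP r).natDegree (oddP s).natDegree) (le_max_left _ _))
            (hD s _ (le_max_right _ _)),
          Complex.add_re]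
      map_smul' := fun a r => by
        rw [oddP_smul, show kern q (Polynomial.C (a : ℂ) * oddP r) = fun m =>
            (a : ℂ) * kern q (oddP r) m by
          funext m; simp [kern, Module.End.mul_apply, Module.algebraMap_end_apply],
          ctil, gsum_const_mul, RingHom.id_apply, smul_eq_mul, ← Complex.re_ofReal_mul, ctil]
        congr 1
        ring }
  have hL : ∀ (n : Fin (M + 1)) r, ctil q (kern q (oddP r)) n = ((L n r : ℝ) : ℂ) := fun n r =>
    (Complex.conj_eq_iff_re.1 (hreal r n)).symm
  let Jre : ℝ[X] →ₗ[ℝ] ℝ :=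
    { toFun := fun r => (J r).re
      map_add' := fun r s => by rw [hadd, Complex.add_re]
      map_smul' := fun a r => by rw [hsmul, Complex.re_ofReal_mul]; rfl }
  let Jim : ℝ[X] →ₗ[ℝ] ℝ :=
    { toFun := fun r => (J r).im
      map_add' := fun r s => by rw [hadd, Complex.add_im]
      map_smul' := fun a r => by rw [hsmul, Complex.im_ofReal_mul]; rfl }
  -- `J` vanishes on their common kernel, hence is a combination of them
  have hker : ∀ r, r ∈ ⨅ n, (L n).ker → J r = 0 := fun r hr => by
    simp only [Submodule.mem_iInf, LinearMap.mem_ker] at hr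
    refine h0 r fun n hn => ?_
    have := hL ⟨n, Nat.lt_succ_of_le hn⟩ r
    rw [this, hr, Complex.ofReal_zero]
  have h1 := mem_span_of_iInf_ker_le_ker (L := L) (K := Jre) fun r hr => by
    change (J r).re = 0; rw [hker r hr]; simp
  have h2 := mem_span_of_iInf_ker_le_ker (L := L) (K := Jim) fun r hr => by
    change (J r).im = 0; rw [hker r hr]; simp
  obtain ⟨a, ha⟩ := (Submodule.mem_span_range_iff_exists_fun ℝ).1 h1
  obtain ⟨b, hb⟩ := (Submodule.mem_span_range_iff_exists_fun ℝ).1 h2
  have hJ : ∀ r, J r = ∑ n : Fin (M + 1), ((a n : ℂ) + (b n : ℂ) * Complex.I) *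
      ctil q (kern q (oddP r)) n := by
    intro r
    have er : ∑ n, a n * L n r = (J r).re := by
      have := congrArg (fun f : ℝ[X] →ₗ[ℝ] ℝ => f r) ha
      simpa [LinearMap.sum_apply, Jre] using this
    have ei : ∑ n, b n * L n r = (J r).im := by
      have := congrArg (fun f : ℝ[X] →ₗ[ℝ] ℝ => f r) hb
      simpa [LinearMap.sum_apply, Jim] using this
    simp only [hL, add_mul, Finset.sum_add_distrib]
    rw [← Complex.re_add_im (J r), ← er, ← ei]
    push_cast
    rw [Finset.sum_mul]
    congr 1
    exact Finset.sum_congr rfl fun n _ => by ring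
  -- each constant term is a Fourier coefficient
  set s : ℂ := ((Real.sqrt q : ℝ) : ℂ)
  have hs : s ≠ 0 := Complex.ofReal_ne_zero.2 (Real.sqrt_ne_zero'.2 (by exact_mod_cast hq))
  set c : Fin (M + 1) → ℂ :=
    fun n => ((a n : ℂ) + (b n : ℂ) * Complex.I) / (2 * (Real.pi : ℂ) * s ^ (n : ℕ))
  refine ⟨fun θ => ∑ n : Fin (M + 1), c n * eChar ((n : ℕ) : ℤ) θ,
    continuous_finsetSum _ fun n _ => continuous_const.mul (continuous_eChar _), fun r => ?_⟩
  simp only [← eval_oddP, Finset.mul_sum]
  have hint : ∀ n ∈ (Finset.univ : Finset (Fin (M + 1))), IntervalIntegrable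
      (fun θ : ℝ => (oddP r).eval ((((2 * Real.sqrt q) * Real.cos θ : ℝ)) : ℂ) *
        (c n * eChar ((n : ℕ) : ℤ) θ))
      volume 0 (2 * Real.pi) := fun n _ =>
    (((oddP r).continuous.comp (by fun_prop)).mul
      (continuous_const.mul (continuous_eChar _))).intervalIntegrable _ _
  rw [intervalIntegral.integral_finsetSum hint, hJ r]
  refine Finset.sum_congr rfl fun n _ => ?_
  simp only [mul_left_comm _ (c n)]
  rw [intervalIntegral.integral_const_mul, integral_eval_eChar, (sat_coeff q (oddP r) n).1]
  have hpi : (Real.pi : ℂ) ≠ 0 := Complex.ofReal_ne_zero.2 Real.pi_ne_zero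
  have hsn := pow_ne_zero (n : ℕ) hs
  simp only [c]
  field_simp
  rfl

end Fermat.LT
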