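import Fermat.Agent.LT.HypVanish
import Fermat.Agent.LT.HypDensity

/-!
# A density for a part seen through diagonal classes

The part is the limit of its truncations; a truncation is a sum over diagonal classes, and each of
those integrals vanishes when finitely many constant terms do.
-/

set_option autoImplicit false
open NumberField MeasureTheory Filter Set Polynomial
open scoped Classical ENNReal Topology

namespace Fermat.LT

variable {F : Type*} [Field F] [NumberField F] {S : Set (Place F)} [Finite S] [IsTotallyComplex F]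
  {τ : F ≃+* F}

/-- Every point lies in some low part. -/
theorem exists_mem_lowSet (p : Pt F S) : ∃ ε : ℝ, 0 < ε ∧ p ∈ lowSet F S ε := by
  obtain ⟨Ω, R₀, c, hc, hΩ⟩ := exists_siegel (F := F) (S := S)
  obtain ⟨g, hg⟩ := hΩ p
  set q := g • p
  set a := ht (eInf : Fin 2 → F) q
  have ha : 0 < a := ht_pos eInf_ne_zero q
  refine ⟨min a a⁻¹, lt_min ha (inv_pos.2 ha), ?_⟩
  refine (lowSet_smul (min a a⁻¹) (g : PG F) p).1 fun u hu => ?_
  rw [PG.mk_smul]
  by_cases h : u 0 = 0
  · have h1 : u 1 ≠ 0 := fun h1 => hu (by funext i; fin_cases i <;> assumption)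
    have eu : u = ((Units.mk0 (u 1) h1 : Fˣ) : F) • (eInf : Fin 2 → F) := by
      funext i; fin_cases i <;> simp [eInf, h]
    rw [eu, ht_smul_vec eInf_ne_zero]
    exact min_le_left _ _
  · have h2 := one_le_ht_mul hu eInf_ne_zero (by simpa [eInf] using h) q
    refine (min_le_right _ _).trans ?_
    rw [inv_le_iff_one_le_mul₀ ha]
    exact h2

variable (hS : Stable τ S) (Pr : TwPG τ → Prop)

/-- The twisted diagonal of the summed kernel, restricted to the classes with `Pr`. -/
noncomputable def partFun (P : PKer F S) (p : Pt F S) : ℂ :=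
  ∑' γ : TwPG τ, if Pr γ then twVal P hS γ p else 0

omit [IsTotallyComplex F] in
/-- At each point the restricted sum has finite support. -/
lemma summable_partFun (P : PKer F S) (p : Pt F S) :
    Summable fun γ : TwPG τ => if Pr γ then twVal P hS γ p else 0 :=
  summable_of_hasFiniteSupport ((P.finite_support p (Pt.amap hS p)).subset fun γ hγ => by
    by_contra h
    simp only [Set.mem_ofPred_eq, not_not] at h
    exact hγ (by
      change (if Pr γ then twVal P hS γ p else 0) = 0
      rw [show twVal P hS γ p = 0 from h, ite_self]))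

/-- **A part seen through diagonal classes has a density**: its classes where the kernels do not
vanish are conjugates of `diag (α ξ, 1)`; their blocks at `B₀` are killed with the constant term
`nn ξ`, those at `B₃` always. -/
theorem hasDensity_part {Ξ : Type*} [Countable Ξ] (α : Ξ → Fˣ) (nn : Ξ → ℕ) (P : ℝ[X] → PKer F S)
    {D : Set (Pt F S)} (hD : IsFundamentalDomain (PG F) D ptMeasure)
    (hinv : ∀ (δ : PG F) γ, Pr (δ • γ) ↔ Pr γ) (hbase : ∀ ξ, Pr (diagCls τ (α ξ)))
    (htwo : ∀ γ, (∃ pr, pairPt (fun _ : Ξ => dTor τ) (fun ξ => diagCls τ (α ξ)) pr = γ) →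
      {pr | pairPt (fun _ : Ξ => dTor τ) (fun ξ => diagCls τ (α ξ)) pr = γ}.ncard = 2)
    (hsupp : ∀ r γ p, Pr γ → twVal (P r) hS γ p ≠ 0 →
      ∃ pr, pairPt (fun _ : Ξ => dTor τ) (fun ξ => diagCls τ (α ξ)) pr = γ)
    (hfix : ∀ ξ (x : F), τ x * (α ξ : F) = x → x = 0) {q : ℕ} (hq : 0 < q) (M : ℕ)
    (hM : ∀ r ξ p, twVal (P r) hS (diagCls τ (α ξ)) p ≠ 0 → nn ξ ≤ M) {B₀ B₃ : Finset (Place F)}
    (hdisj : Disjoint B₀ B₃)
    (hk₀ : ∀ r ξ, ctil q (kern q (oddP r)) (nn ξ) = 0 → KillsBlock (P r) hS (α ξ) B₀)
    (hk₃ : ∀ r ξ, KillsBlock (P r) hS (α ξ) B₃)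
    (hreal : ∀ r n, starRingEnd ℂ (ctil q (kern q (oddP r)) n) = ctil q (kern q (oddP r)) n)
    (hadd : ∀ r s x y, (P (r + s)).val x y = (P r).val x y + (P s).val x y)
    (hsmul : ∀ (a : ℝ) r x y, (P (a • r)).val x y = (a : ℂ) * (P r).val x y)
    (hI : ∀ r, IntegrableOn (partFun hS Pr (P r)) D ptMeasure) :
    HasDensity q (fun r => ∫ p in D, partFun hS Pr (P r) p ∂ptMeasure) := by
  refine hasDensity_of_vanish hq (fun r s => ?_) (fun a r => ?_) hreal M fun r hr => ?_
  · rw [← integral_add (hI r) (hI s)]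
    refine integral_congr_ae (Eventually.of_forall fun p => ?_)
    show partFun hS Pr (P (r + s)) p = _
    simp only [partFun]
    rw [← (summable_partFun hS Pr (P r) p).tsum_add (summable_partFun hS Pr (P s) p)]
    refine tsum_congr fun γ => ?_
    split_ifs
    · exact hadd r s _ _
    · rw [add_zero]
  · rw [← integral_const_mul]
    refine integral_congr_ae (Eventually.of_forall fun p => ?_)
    show partFun hS Pr (P (a • r)) p = _
    simp only [partFun]
    rw [← tsum_mul_left]
    refine tsum_congr fun γ => ?_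
    split_ifs
    · exact hsmul a r _ _
    · rw [mul_zero]
  obtain ⟨ε₀, hε₀, hax⟩ := exists_axes_radius hS (P r)
  set H : Ξ → Subgroup (PG F) := fun _ => dTor τ
  set base : Ξ → TwPG τ := fun ξ => diagCls τ (α ξ)
  set Q : TwPG τ → Prop := fun γ => ∃ pr, pairPt H base pr = γ
  have hQP : ∀ γ, Q γ → Pr γ := by
    rintro _ ⟨⟨ξ, c⟩, rfl⟩
    exact (hinv _ _).2 (hbase ξ)
  -- the truncation vanishes
  have key : ∀ ε, 0 < ε → ε ≤ ε₀ → ε ≤ 1 →
      ∫ p in D, (lowSet F S ε).indicator (partFun hS Pr (P r)) p ∂ptMeasure = 0 := by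
    intro ε hε hεe hε1
    set Fε : TwPG τ → Pt F S → ℂ := fun γ => (lowSet F S ε).indicator (twVal (P r) hS γ)
    have hF : ∀ (g : PG F) γ p, Fε (g • γ) (g • p) = Fε γ p := fun g γ p => by
      simp only [Fε, indicator_apply, lowSet_smul, twVal_smul]
    have hm : ∀ γ, AEStronglyMeasurable (Fε γ) (ptMeasure (F := F) (S := S)) := fun γ =>
      ((measurable_twVal (P r) hS γ).indicator (measurableSet_lowSet ε)).aestronglyMeasurable
    have hlin : ∀ δ, 0 < δ →
        ∫⁻ p in D, ∑' γ, (if Q γ then ‖(lowSet F S δ).indicator (twVal (P r) hS γ) p‖ₑ else 0)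
        ∂ptMeasure < ∞ := fun δ hδ => by
      obtain ⟨C, hC⟩ := exists_low_bound hS (P r) hδ
      refine lt_of_le_of_lt (lintegral_mono (g := fun _ => ENNReal.ofReal C) fun p => ?_) ?_
      · by_cases hp : p ∈ lowSet F S δ
        · refine le_trans (ENNReal.tsum_le_tsum fun γ => ?_) (hC p hp)
          split_ifs
          · rw [indicator_of_mem hp]
          · exact zero_le
        · simp [indicator_of_notMem hp]
      · rw [setLIntegral_const]
        exact ENNReal.mul_lt_top ENNReal.ofReal_lt_top (domain_finite hD)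
    have htwo' : ∀ δ, 0 < δ → ∀ ξ, IntegrableOn ((lowSet F S δ).indicator (twVal (P r) hS (base ξ)))
        (cosetDomain (dTor τ) D) ptMeasure := fun δ hδ =>
      (integral_two_to_one (P := Q) (H := H) (base := base) (fun pr => ⟨pr, rfl⟩) htwo hD
        (F := fun γ => (lowSet F S δ).indicator (twVal (P r) hS γ))
        (fun g γ p => by simp only [indicator_apply, lowSet_smul, twVal_smul])
        (fun γ => ((measurable_twVal (P r) hS γ).indicator
          (measurableSet_lowSet δ)).aestronglyMeasurable)
        (hlin δ hδ)).1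
    have e : ∀ p, (lowSet F S ε).indicator (partFun hS Pr (P r)) p =
        ∑' γ, if Q γ then Fε γ p else 0 := by
      intro p
      simp only [Fε, indicator_apply, partFun]
      by_cases hp : p ∈ lowSet F S ε
      · simp only [if_pos hp]
        refine tsum_congr fun γ => ?_
        by_cases hv : twVal (P r) hS γ p = 0
        · simp [hv]
        · by_cases hg : Pr γ
          · rw [if_pos hg, if_pos (hsupp r γ p hg hv)]
          · rw [if_neg hg, if_neg fun h => hg (hQP γ h)]
      · simp [hp]
    rw [integral_congr_ae (Eventually.of_forall e),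
      (integral_two_to_one (P := Q) (H := H) (base := base) (fun pr => ⟨pr, rfl⟩) htwo hD hF hm
        (hlin ε hε)).2]
    refine mul_eq_zero_of_right _ ((tsum_congr fun ξ => ?_).trans tsum_zero)
    by_cases hn : nn ξ ≤ M
    · exact integral_low_diag_zero (P r) hS (isFundamentalDomain_cosetDomain hD (dTor τ)) hdisj
        (hk₀ r ξ (hr _ hn)) (hk₃ r ξ) (hax (α ξ) (hfix ξ)) (fun δ hδ => htwo' δ hδ ξ) hε hεe hε1
    · refine (integral_congr_ae (Eventually.of_forall fun p => ?_)).trans (integral_zero _ _)
      change Fε (base ξ) p = 0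
      simp only [Fε, indicator_apply]
      rw [show twVal (P r) hS (base ξ) p = 0 from by_contra fun h => hn (hM r ξ p h), ite_self]
  -- the limit
  set e : ℕ → ℝ := fun k => min ε₀ 1 / ((k : ℝ) + 1)
  have he0 : ∀ k, 0 < e k := fun k => div_pos (lt_min hε₀ one_pos) (by positivity)
  have hele : ∀ k, e k ≤ min ε₀ 1 := fun k =>
    div_le_self (lt_min hε₀ one_pos).le (le_add_of_nonneg_left (Nat.cast_nonneg k))
  have hlim : Tendsto (fun k => ∫ p in D,
      (lowSet F S (e k)).indicator (partFun hS Pr (P r)) p ∂ptMeasure)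
      atTop (𝓝 (∫ p in D, partFun hS Pr (P r) p ∂ptMeasure)) := by
    refine tendsto_integral_of_dominated_convergence (fun p => ‖partFun hS Pr (P r) p‖)
      (fun k => ((hI r).1.indicator (measurableSet_lowSet _))) (hI r).norm
      (fun k => Eventually.of_forall fun p => norm_indicator_le_norm_self _ _)
        (Eventually.of_forall fun p => ?_)
    obtain ⟨δ, hδ, hp⟩ := exists_mem_lowSet p
    have ht : Tendsto e atTop (𝓝 0) := by
      refine Tendsto.div_atTop tendsto_const_nhds ?_
      exact tendsto_atTop_add_const_right _ _ tendsto_natCast_atTop_atTop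
    refine tendsto_const_nhds.congr' ?_
    filter_upwards [(tendsto_order.1 ht).2 δ hδ] with k hk
    rw [indicator_of_mem (show p ∈ lowSet F S (e k) from fun u hu => hk.le.trans (hp u hu))]
  refine tendsto_nhds_unique hlim ?_
  simp only [fun k => key (e k) (he0 k) ((hele k).trans (min_le_left _ _))
    ((hele k).trans (min_le_right _ _))]
  exact tendsto_const_nhds

end Fermat.LT
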