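import Fermat.Agent.LT.HypTorus

/-!
# The truncated integral of a diagonal class vanishes

The cut-off turns into a length `2 L + ℓ`.  The part of `ℓ` from one block is
killed by the sums over the heights at the other, and the rest by those at the block itself.
-/

set_option autoImplicit false
open NumberField MeasureTheory Filter Set
open scoped Classical Matrix

namespace Fermat.LT

variable {F : Type*} [Field F] [NumberField F] {S : Set (Place F)} [Finite S] [IsTotallyComplex F]
  {τ : F ≃+* F}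

/-- The class of `diag (α, 1)`. -/
noncomputable def diagCls (τ : F ≃+* F) (α : Fˣ) : TwPG τ := TwPG.of τ (upMat α (0 : F) : PG F)

/-- The sums over the local heights at the places of `B` vanish. -/
def KillsBlock (P : PKer F S) (hS : Stable τ S) (α : Fˣ) (B : Finset (Place F)) : Prop :=
  ∀ ν : FinPt F S, ∑' μ : {μ : FinPt F S // (∀ w ∉ B, μ.1 w = ν.1 w) ∧
      ∀ w ∈ B, nloc w (eInf : Fin 2 → F) (μ.1 w) = nloc w (eInf : Fin 2 → F) (ν.1 w)},
    P.fin μ.1 (upMat α (0 : F) • FinPt.amap hS μ.1) = 0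

/-- A summable family with vanishing sum on every fibre of a map has sum zero. -/
lemma tsum_eq_zero_of_fibres {Ω Y : Type*} (π : Ω → Y) {f : Ω → ℂ} (hs : Summable f)
    (h : ∀ ν : Ω, ∑' μ : {μ // π μ = π ν}, f μ = 0) : ∑' x, f x = 0 := by
  have hs' : Summable fun c : (Σ y : Set.range π, {μ // Set.rangeFactorization π μ = y}) =>
      f (Equiv.sigmaFiberEquiv (Set.rangeFactorization π) c) :=
    (Equiv.sigmaFiberEquiv _).summable_iff.2 hs
  rw [← (Equiv.sigmaFiberEquiv (Set.rangeFactorization π)).tsum_eq, hs'.tsum_sigma]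
  refine (tsum_congr fun y => ?_).trans tsum_zero
  obtain ⟨_, ν, rfl⟩ := y
  rw [← h ν]
  exact (Equiv.subtypeEquivRight fun μ => by simp [Set.rangeFactorization, Subtype.ext_iff]).tsum_eq
    fun μ : {μ // π μ = π ν} => f μ

variable (P : PKer F S) (hS : Stable τ S)

omit [IsTotallyComplex F] [NumberField F] in
/-- The diagonal class is fixed by its torus. -/
lemma smul_diagCls (t : dTor τ) (α : Fˣ) : (t : PG F) • diagCls τ α = diagCls τ α := by
  obtain ⟨a, ha, e⟩ := mem_dTor.1 t.2
  change TwPG.of τ _ = TwPG.of τ _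
  rw [← e, PG.amap_mk, mapGL_upMat_zero ha]
  congr 1
  change (upMat a 0 : PG F) * (upMat α 0 : PG F) * _ = _
  rw [← QuotientGroup.mk_mul, upMat_diag_comm, QuotientGroup.mk_mul, mul_inv_cancel_right]

/-- The twisted term of a diagonal class is invariant under the torus. -/
lemma twVal_diag_invariant (α : Fˣ) (t : dTor τ) (p : Pt F S) :
    twVal P hS (diagCls τ α) (t • p) = twVal P hS (diagCls τ α) p := by
  conv_lhs => rw [← smul_diagCls t α]
  exact twVal_smul P hS _ _ _

omit [IsTotallyComplex F] in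
/-- The twisted term of a diagonal class is invariant under the flow. -/
lemma twVal_diag_flow (α : Fˣ) (s : ℝ) (p : Pt F S) :
    twVal P hS (diagCls τ α) (scaleFlow s p) = twVal P hS (diagCls τ α) p := by
  rw [twVal, twVal, diagCls, TwPG.cls_of, PG.mk_smul, PG.mk_smul, scaleFlow_amap, ← scaleFlow_upMat]
  generalize upMat α (0 : F) • Pt.amap hS p = q
  change _ * _ = _ * _
  congr 1
  exact Finset.prod_congr rfl fun w _ => (P.arch w).invariant _ _ _

omit [Finite S] [IsTotallyComplex F] in
/-- The local product of the two axis heights of a matrix is at least one. -/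
lemma one_le_nfin_axes (v : Place F) (g : GL (Fin 2) F) :
    1 ≤ nfin v (eInf : Fin 2 → F) g * nfin v ![1, 0] g := by
  rw [nfin, nfin, div_mul_div_comm,
    le_div_iff₀ (mul_pos ((vabs v).pos g.det_ne_zero) ((vabs v).pos g.det_ne_zero)), one_mul,
      ← sq, ← mul_pow]
  refine pow_le_pow_left₀ (apply_nonneg _ _) ?_ 2
  set M : Matrix (Fin 2) (Fin 2) F := (g : Matrix (Fin 2) (Fin 2) F)
  have e1 : ((eInf : Fin 2 → F) ᵥ* M) = M 1 := by funext i; simp [eInf, Matrix.vecMul, dotProduct]
  have e0 : (![(1 : F), 0] ᵥ* M) = M 0 := by funext i; simp [Matrix.vecMul, dotProduct]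
  rw [e1, e0, Matrix.det_fin_two, sub_eq_add_neg]
  refine (vabs_add_le v _ _).trans (max_le ?_ ?_)
  · rw [map_mul, mul_comm]
    exact mul_le_mul (le_max_right _ _) (le_max_left _ _) (apply_nonneg _ _)
      (le_max_of_le_left (apply_nonneg _ _))
  · rw [AbsoluteValue.map_neg, map_mul, mul_comm]
    exact mul_le_mul (le_max_left _ _) (le_max_right _ _) (apply_nonneg _ _)
      (le_max_of_le_left (apply_nonneg _ _))

omit [IsTotallyComplex F] in
omit [Finite S] in
/-- The product of the two axis heights of a family of local matrices split at a block. -/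
theorem ht_mul_split_gen (B : Finset (Place F)) {g : Place F → GL (Fin 2) F}
    (x : InfinitePlace F → H3)
    (hg : (Function.mulSupport fun w => nfin w (eInf : Fin 2 → F) (g w)).Finite)
    (hg' : (Function.mulSupport fun w => nfin w ![1, 0] (g w)).Finite) :
    ∃ R : ℝ, 1 ≤ R ∧ ∀ h : Place F → GL (Fin 2) F,
      (Function.mulSupport fun w => nfin w (eInf : Fin 2 → F) (h w)).Finite →
      (Function.mulSupport fun w => nfin w ![1, 0] (h w)).Finite →
      (∀ w ∉ B, nfin w (eInf : Fin 2 → F) (h w) = nfin w eInf (g w) ∧ nfin w ![1, 0] (h w) =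
        nfin w ![1, 0] (g w)) →
      ((∏ᶠ w, nfin w (eInf : Fin 2 → F) (h w)) * ∏ w,
        ninf (embVec w (eInf : Fin 2 → F)) (x w) ^ w.mult)
          * ((∏ᶠ w, nfin w ![1, 0] (h w)) * ∏ w, ninf (embVec w ![(1 : F), 0]) (x w) ^ w.mult)
        = (∏ w ∈ B, (nfin w (eInf : Fin 2 → F) (h w) * nfin w ![1, 0] (h w))) * R := by
  set f : (Place F → GL (Fin 2) F) → Place F → ℝ :=
    fun h w => nfin w (eInf : Fin 2 → F) (h w) * nfin w ![1, 0] (h w)
  set I : ℝ :=
    ∏ w, (ninf (embVec w (eInf : Fin 2 → F)) (x w) * ninf (embVec w ![(1 : F), 0]) (x w)) ^ w.mult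
  have hfs : (Function.mulSupport (f g)).Finite :=
    (hg.union hg').subset (Function.mulSupport_mul _ _)
  -- outside `B` and the support of `g` every factor is `1`
  set T := hfs.toFinset ∪ B
  refine ⟨(∏ w ∈ T \ B, f g w) * I, one_le_mul_of_one_le_of_one_le (Finset.one_le_prod fun w _ =>
    one_le_nfin_axes w _) (Finset.one_le_prod fun w _ => one_le_pow₀ ?_), fun h hh hh' heq => ?_⟩
  -- each infinite factor is at least `1`
  · rw [show embVec w (eInf : Fin 2 → F) = ![0, 1] by funext i; fin_cases i <;> simp [embVec, eInf],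
      show embVec w ![(1 : F), 0] = ![1, 0] by funext i; fin_cases i <;> simp [embVec],
      ninf_coord, ninf_coord]
    have hc := H3.coord_pos (x w)
    simp
    rw [inv_mul_eq_div, le_div_iff₀ hc, one_mul, le_div_iff₀ hc, ← sq]
    exact le_add_of_nonneg_right (Complex.normSq_nonneg _)
  · have hout : ∀ w ∉ B, f h w = f g w := fun w hw => by simp only [f, (heq w hw).1, (heq w hw).2]
    -- split the finite product into `B` and the part where `h` agrees with `g`
    rw [mul_mul_mul_comm, ← finprod_mul_distrib hh hh', ← Finset.prod_mul_distrib]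
    simp only [← mul_pow]
    rw [show (∏ᶠ w, nfin w (eInf : Fin 2 → F) (h w) * nfin w ![1, 0] (h w)) = ∏ w ∈ T, f h w from
      finprod_eq_prod_of_mulSupport_subset (f h) fun w hw => by
        by_contra hT
        simp only [T, Finset.coe_union, Set.mem_union, Finset.mem_coe, Set.Finite.mem_toFinset,
          Function.mem_mulSupport, not_or, not_not] at hT
        exact hw ((hout w hT.2).trans hT.1),
      ← Finset.prod_sdiff (Finset.subset_union_right : B ⊆ T),
      Finset.prod_congr rfl (fun w hw => hout w (Finset.mem_sdiff.1 hw).2)]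
    ring

omit [IsTotallyComplex F] in
/-- **An integral killed by one block.** If the sums over the heights at the places of `B` vanish,
so does the integral of the twisted diagonal term against a weight seeing only those heights at
`B`. -/
theorem integral_block_zero {α : Fˣ} {B : Finset (Place F)} (hk : KillsBlock P hS α B)
    (W : Pt F S → ℝ) (hW : ∀ μ ν : FinPt F S, (∀ w ∉ B, μ.1 w = ν.1 w) →
      (∀ w ∈ B, nloc w (eInf : Fin 2 → F) (μ.1 w) = nloc w (eInf : Fin 2 → F) (ν.1 w)) →
      ∀ y, W (μ, y) = W (ν, y))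
    (hI : Integrable (fun p => W p • twVal P hS (diagCls τ α) p) ptMeasure) :
    ∫ p, W p • twVal P hS (diagCls τ α) p ∂ptMeasure = 0 := by
  have : DiscreteMeasurableSpace (FinPt F S) := ⟨fun _ => trivial⟩
  set H : FinPt F S × (InfinitePlace F → H3) → ℂ :=
    fun p => W p • twVal P hS (diagCls τ α) p with hH
  have hI' : Integrable H
    ((Measure.count : Measure (FinPt F S)).prod (Measure.pi fun _ => hmeas)) := hI
  change ∫ p, H p ∂((Measure.count : Measure (FinPt F S)).prod (Measure.pi fun _ => hmeas)) = 0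
  -- Fubini: sum over the finite points first
  rw [integral_prod_symm H hI']
  refine integral_eq_zero_of_ae ?_
  filter_upwards [hI'.prod_left_ae] with y hy
  change ∫ ν, H (ν, y) ∂(Measure.count : Measure (FinPt F S)) = 0
  have hs : Summable fun ν => H (ν, y) := Summable.of_norm (integrable_count_iff.1 hy)
  rw [integral_countable hy]
  simp only [measureReal_def, Measure.count_singleton, ENNReal.toReal_one, one_smul]
  -- group them by their components off `B` and their norms on `B`
  let π : FinPt F S → ({w : Place F // w ∉ B} → Σ w, Vert S w) × ({w : Place F // w ∈ B} → ℝ) :=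
      fun μ =>
    (fun w => ⟨w.1, μ.1 w.1⟩, fun w => nloc w.1 (eInf : Fin 2 → F) (μ.1 w.1))
  refine tsum_eq_zero_of_fibres π hs fun ν => ?_
  have hπ : ∀ μ, π μ = π ν ↔ (∀ w ∉ B, μ.1 w = ν.1 w) ∧
      ∀ w ∈ B, nloc w (eInf : Fin 2 → F) (μ.1 w) = nloc w (eInf : Fin 2 → F) (ν.1 w) := fun μ => by
    simp only [π, Prod.mk.injEq, funext_iff, Sigma.mk.injEq, Subtype.forall, heq_eq_eq, true_and]
  -- on each fibre only `P.fin` varies, and its sum vanishes
  have hterm : ∀ μ, π μ = π ν → H (μ, y) = ((W (ν, y) : ℂ)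
      * P.inf y (fun w => atInf w (upMat α (0 : F)) • extH y (w.embedding.comp (τ : F →+* F))))
        * P.fin μ (upMat α (0 : F) • FinPt.amap hS μ) := fun μ hμ => by
    rw [hH]
    change W (μ, y) • twVal P hS (diagCls τ α) (μ, y) = _
    rw [hW μ ν ((hπ μ).1 hμ).1 ((hπ μ).1 hμ).2 y, twVal, diagCls, TwPG.cls_of, PG.mk_smul,
      Complex.real_smul]
    change _ * (P.fin μ (upMat α (0 : F) • FinPt.amap hS μ)
      * P.inf y fun w => atInf w (upMat α (0 : F)) • extH y (w.embedding.comp (τ : F →+* F))) = _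
    ring
  rw [tsum_congr fun μ : {μ // π μ = π ν} => hterm μ.1 μ.2, tsum_mul_left,
    ← (Equiv.subtypeEquivRight hπ).symm.tsum_eq]
  refine mul_eq_zero_of_right _ ?_
  exact hk ν

omit [Finite S] [IsTotallyComplex F] in
/-- The local product of the two axis heights is at least one. -/
lemma one_le_nloc_mul (v : Place F) (a : Vert S v) :
    1 ≤ nloc v (eInf : Fin 2 → F) a * nloc v ![1, 0] a :=
  one_le_nfin_axes v a.out

omit [IsTotallyComplex F] in
/-- The vector of the axis through `0` is nonzero. -/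
lemma axis_zero_ne : (![1, 0] : Fin 2 → F) ≠ 0 := fun h => by simpa using congrFun h 0

/-- The logarithm of the local products over a block. -/
noncomputable def blockLog (B : Finset (Place F)) (p : Pt F S) : ℝ :=
  Real.log (∏ w ∈ B, (nloc w (eInf : Fin 2 → F) (p.1.1 w) * nloc w ![1, 0] (p.1.1 w)))

/-- The logarithm of the product of the two axis heights. -/
noncomputable def axisLog (p : Pt F S) : ℝ :=
  Real.log (ht (eInf : Fin 2 → F) p * ht ![1, 0] p)

omit [Finite S] [IsTotallyComplex F] in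
/-- The product of the heights split at a block. -/
lemma ht_mul_split (B : Finset (Place F)) (p : Pt F S) : ∃ R : ℝ, 1 ≤ R ∧
    ht (eInf : Fin 2 → F) p * ht ![1, 0] p
      = (∏ w ∈ B, (nloc w (eInf : Fin 2 → F) (p.1.1 w) * nloc w ![1, 0] (p.1.1 w))) * R ∧
    ∀ q : Pt F S, q.2 = p.2 → (∀ w ∉ B, q.1.1 w = p.1.1 w) →
      ht (eInf : Fin 2 → F) q * ht ![1, 0] q
        = (∏ w ∈ B, (nloc w (eInf : Fin 2 → F) (q.1.1 w) * nloc w ![1, 0] (q.1.1 w))) * R := by
  have hfs : ∀ {u : Fin 2 → F}, u ≠ 0 →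
      ∀ ω : FinPt F S, (Function.mulSupport fun w => nloc w u (ω.1 w)).Finite :=
    fun hu ω => eventually_cofinite.1 (eventually_nloc_eq_one hu ω)
  obtain ⟨R, hR, h⟩ := ht_mul_split_gen B (g := fun w => (p.1.1 w).out) p.2 (hfs eInf_ne_zero p.1)
    (hfs axis_zero_ne p.1)
  refine ⟨R, hR, h _ (hfs eInf_ne_zero p.1) (hfs axis_zero_ne p.1) fun _ _ => ⟨rfl, rfl⟩,
    fun q h2 h1 => ?_⟩
  rw [ht, ht, h2]
  exact h _ (hfs eInf_ne_zero q.1) (hfs axis_zero_ne q.1) fun w hw => by
    rw [h1 w hw]; exact ⟨rfl, rfl⟩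

omit [Finite S] [IsTotallyComplex F] in
/-- The logarithm over a block lies between zero and that of the whole product. -/
lemma blockLog_bounds (B : Finset (Place F)) (p : Pt F S) :
    0 ≤ blockLog B p ∧ blockLog B p ≤ axisLog p := by
  have h1 : 1 ≤ ∏ w ∈ B, (nloc w (eInf : Fin 2 → F) (p.1.1 w) * nloc w ![1, 0] (p.1.1 w)) :=
    Finset.one_le_prod fun w _ => one_le_nloc_mul w _
  obtain ⟨R, hR, e, -⟩ := ht_mul_split B p
  refine ⟨Real.log_nonneg h1, Real.log_le_log (zero_lt_one.trans_le h1) ?_⟩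
  rw [e]
  exact le_mul_of_one_le_right (zero_le_one.trans h1) hR

omit [Finite S] [IsTotallyComplex F] in
/-- The logarithm of the product of the axis heights is nonnegative. -/
lemma axisLog_nonneg (p : Pt F S) : 0 ≤ axisLog p :=
  (blockLog_bounds ∅ p).1.trans (blockLog_bounds ∅ p).2

omit [IsTotallyComplex F] [Finite S] in
/-- The logarithm of the product of the axis heights is measurable. -/
lemma measurable_axisLog : Measurable (axisLog : Pt F S → ℝ) :=
  Real.measurable_log.comp ((measurable_ht _).mul (measurable_ht _))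

omit [IsTotallyComplex F] in
/-- The torus fixes both axes, hence the product of their heights. -/
lemma axisLog_dTor (t : dTor τ) (p : Pt F S) : axisLog (t • p) = axisLog p := by
  obtain ⟨a, -, ha⟩ := mem_dTor.1 t.2
  rw [axisLog, axisLog, Subgroup.smul_def, ← ha, PG.mk_smul, ht_eInf_upMat_smul,
    ht_smul axis_zero_ne,
    show (![1, 0] : Fin 2 → F) ᵥ* (upMat a (0 : F) : Matrix (Fin 2) (Fin 2) F) =
        (a : F) • ![1, 0] by
      funext i; fin_cases i <;> simp [Matrix.vecMul, dotProduct],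
    ht_smul_vec axis_zero_ne]

omit [Finite S] in
/-- The flow moves the two axis heights inversely. -/
lemma axisLog_scaleFlow (s : ℝ) (p : Pt F S) : axisLog (scaleFlow s p) = axisLog p := by
  rw [axisLog, axisLog, ht_eInf_scaleFlow, ht_zero_scaleFlow]
  congr 1
  rw [mul_mul_mul_comm, ← Real.exp_add, neg_add_cancel, Real.exp_zero, mul_one]

omit [Finite S] [IsTotallyComplex F] in
/-- The part of the axis logarithm away from a block does not see the block. -/
lemma axisLog_sub_blockLog {B : Finset (Place F)} {μ ν : FinPt F S}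
    (h : ∀ w ∉ B, μ.1 w = ν.1 w) (y : InfinitePlace F → H3) :
    axisLog (μ, y) - blockLog B (μ, y) = axisLog (ν, y) - blockLog B (ν, y) := by
  obtain ⟨R, hR, e, e'⟩ := ht_mul_split B ((ν, y) : Pt F S)
  have e'' := e' (μ, y) rfl h
  have hpos : ∀ ρ : Pt F S, 0 < ∏ w ∈ B,
      (nloc w (eInf : Fin 2 → F) (ρ.1.1 w) * nloc w ![1, 0] (ρ.1.1 w)) :=
    fun ρ => Finset.prod_pos fun w _ => zero_lt_one.trans_le (one_le_nloc_mul w _)
  simp only [axisLog, blockLog, e, e'']
  rw [Real.log_mul (hpos (μ, y)).ne' (zero_lt_one.trans_le hR).ne',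
    Real.log_mul (hpos (ν, y)).ne' (zero_lt_one.trans_le hR).ne']
  ring

/-- A weight cut down to one slab of the height flow. -/
noncomputable def slab (ψ : Pt F S → ℝ) (p : Pt F S) : ℝ :=
  if 0 ≤ hPhi p ∧ hPhi p < 1 then ψ p else 0

omit [Finite S] [IsTotallyComplex F] in
/-- A slab of a torus weight only depends on the local heights at `∞` on a block. -/
lemma slab_congr {ψ : Pt F S → ℝ} (hψk : ∀ p q, torKey p = torKey q → ψ p = ψ q)
    {B : Finset (Place F)} {μ ν : FinPt F S} (h1 : ∀ w ∉ B, μ.1 w = ν.1 w)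
    (h2 : ∀ w ∈ B, nloc w (eInf : Fin 2 → F) (μ.1 w) = nloc w (eInf : Fin 2 → F) (ν.1 w))
    (y : InfinitePlace F → H3) : slab ψ (μ, y) = slab ψ (ν, y) := by
  have hall : ∀ w, nloc w (eInf : Fin 2 → F) (μ.1 w) = nloc w (eInf : Fin 2 → F) (ν.1 w) :=
      fun w => by
    by_cases hw : w ∈ B
    · exact h2 w hw
    · rw [h1 w hw]
  have e1 : hPhi (μ, y) = hPhi (ν, y) := by
    simp only [hPhi, ht]
    congr 3
    exact finprod_congr hall
  have e2 : ψ (μ, y) = ψ (ν, y) := hψk _ _ (Prod.ext (funext hall) rfl)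
  simp only [slab, e1, e2]

/-- **A truncated integral is the integral against a slab of weight**, the cut-off becoming the
factor `-2 log δ + axisLog`. -/
lemma integral_low_eq_slab {α : Fˣ} {D : Set (Pt F S)}
    (hD : @IsFundamentalDomain (dTor τ) (Pt F S) _ _ _ D ptMeasure) {ψ : Pt F S → ℝ}
    (hψm : Measurable ψ) (hψ0 : ∀ p, 0 ≤ ψ p)
    (hψ1 : ∀ p, HasSum (fun t : dTor τ => ψ (t • p)) 1) {δ : ℝ} (hδ : 0 < δ) (hδ1 : δ ≤ 1)
    (hax : ∀ p, twVal P hS (diagCls τ α) p ≠ 0 →
      (p ∈ lowSet F S δ ↔ δ ≤ ht (eInf : Fin 2 → F) p ∧ δ ≤ ht ![1, 0] p))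
    (hint : IntegrableOn ((lowSet F S δ).indicator (twVal P hS (diagCls τ α))) D ptMeasure) :
    Integrable (fun p => (slab ψ p * (-2 * Real.log δ + axisLog p)) •
        twVal P hS (diagCls τ α) p) ptMeasure ∧
      ∫ p, (slab ψ p * (-2 * Real.log δ + axisLog p)) • twVal P hS (diagCls τ α) p ∂ptMeasure
        = ∫ p in D, (lowSet F S δ).indicator (twVal P hS (diagCls τ α)) p ∂ptMeasure := by
  have : DiscreteMeasurableSpace (FinPt F S) := ⟨fun _ => trivial⟩
  rw [show -2 * Real.log δ = 2 * -Real.log δ by ring]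
  exact (isHeightFlow_scale τ).integral_cutoff hD hψm hψ0 hψ1 measurable_axisLog axisLog_nonneg
    axisLog_dTor axisLog_scaleFlow (measurable_twVal P hS _) (twVal_diag_invariant P hS α)
    (twVal_diag_flow P hS α) (neg_nonneg.2 (Real.log_nonpos hδ.le hδ1))
    (fun p hp => (hax p hp).trans
      (le_and_le_iff_log (ht_pos eInf_ne_zero p) (ht_pos axis_zero_ne p) hδ)) hint

/-- **The truncated integral of a diagonal class vanishes.** -/
theorem integral_low_diag_zero {α : Fˣ} {D : Set (Pt F S)}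
    (hD : @IsFundamentalDomain (dTor τ) (Pt F S) _ _ _ D ptMeasure) {B₀ B₃ : Finset (Place F)}
    (hdisj : Disjoint B₀ B₃) (hk₀ : KillsBlock P hS α B₀) (hk₃ : KillsBlock P hS α B₃) {ε₀ : ℝ}
    (hax : ∀ p, twVal P hS (diagCls τ α) p ≠ 0 → ∀ ε ≤ ε₀,
      (p ∈ lowSet F S ε ↔ ε ≤ ht (eInf : Fin 2 → F) p ∧ ε ≤ ht ![1, 0] p))
    (hint : ∀ ε, 0 < ε → IntegrableOn ((lowSet F S ε).indicator (twVal P hS (diagCls τ α))) D
    ptMeasure) {ε : ℝ} (hε : 0 < ε) (hε₀ : ε ≤ ε₀) (hε1 : ε ≤ 1) :
    ∫ p in D, (lowSet F S ε).indicator (twVal P hS (diagCls τ α)) p ∂ptMeasure = 0 := by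
  have : DiscreteMeasurableSpace (FinPt F S) := ⟨fun _ => trivial⟩
  set G := twVal P hS (diagCls τ α)
  have hG : Measurable G := measurable_twVal P hS _
  obtain ⟨ψ, hψm, hψ0, hψ1, hψk⟩ := exists_torus_weight (S := S) τ
  have hΦ := isHeightFlow_scale (S := S) τ
  -- the truncated integral is an integral over a slab against `-2 log δ + axisLog`
  have hcut : ∀ δ, 0 < δ → δ ≤ ε₀ → δ ≤ 1 →
      Integrable (fun p => (slab ψ p * (-2 * Real.log δ + axisLog p)) • G p) ptMeasure ∧
      ∫ p, (slab ψ p * (-2 * Real.log δ + axisLog p)) • G p ∂ptMeasure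
        = ∫ p in D, (lowSet F S δ).indicator G p ∂ptMeasure := fun δ hδ hδ₀ hδ1 =>
    integral_low_eq_slab P hS hD hψm hψ0 hψ1 hδ hδ1 (fun p hp => hax p hp δ hδ₀) (hint δ hδ)
  obtain ⟨hA, hAeq⟩ := hcut ε hε hε₀ hε1
  have hee : ε / Real.exp 1 ≤ ε := div_le_self hε.le (by linarith [Real.add_one_le_exp (1 : ℝ)])
  obtain ⟨hA', -⟩ := hcut (ε / Real.exp 1) (by positivity) (hee.trans hε₀) (hee.trans hε1)
  -- two cuts make the `axisLog` part integrable
  obtain ⟨-, hℓ⟩ := integrable_of_two_cuts hε hA hA'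
  have hbm : ∀ B : Finset (Place F), Measurable fun p : Pt F S => blockLog B p := fun B =>
    (measurable_of_countable fun ν : FinPt F S =>
      Real.log (∏ w ∈ B, (nloc w (eInf : Fin 2 → F) (ν.1 w) * nloc w ![1, 0] (ν.1 w)))).comp
        measurable_fst
  have hslabm : Measurable (slab ψ) :=
    Measurable.ite ((measurableSet_le measurable_const hΦ.measφ).inter
      (measurableSet_lt hΦ.measφ measurable_const)) hψm measurable_const
  have hb3 : Integrable (fun p => (slab ψ p * blockLog B₃ p) • G p) ptMeasure := by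
    refine hℓ.mono ((hslabm.mul (hbm _)).smul hG).aestronglyMeasurable
      (Eventually.of_forall fun p => ?_)
    rw [norm_smul, norm_smul]
    refine mul_le_mul_of_nonneg_right ?_ (norm_nonneg _)
    rw [norm_mul, norm_mul]
    refine mul_le_mul_of_nonneg_left ?_ (norm_nonneg _)
    rw [Real.norm_of_nonneg (blockLog_bounds B₃ p).1, Real.norm_of_nonneg (axisLog_nonneg p)]
    exact (blockLog_bounds B₃ p).2
  -- split off the part of `B₃`; each part is killed by one of the blocks
  have hdec : ∀ p, (slab ψ p * (-2 * Real.log ε + axisLog p)) • G p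
      = (slab ψ p * (-2 * Real.log ε + (axisLog p - blockLog B₃ p))) • G p +
          (slab ψ p * blockLog B₃ p) • G p := fun p => by
    rw [← add_smul]; congr 1; ring
  have hb3' : Integrable
      (fun p => (slab ψ p * (-2 * Real.log ε + (axisLog p - blockLog B₃ p))) • G p) ptMeasure := by
    refine (hA.sub hb3).congr (Eventually.of_forall fun p => ?_)
    simp only [Pi.sub_apply]
    rw [hdec]; abel
  rw [← hAeq]
  simp only [hdec]
  rw [integral_add hb3' hb3, integral_block_zero P hS hk₃ _ ?_ hb3',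
    integral_block_zero P hS hk₀ _ ?_ hb3, add_zero]
  · intro μ ν h1 h2 y
    rw [slab_congr hψk h1 h2 y]
    congr 1
    simp only [blockLog]
    rw [Finset.prod_congr rfl fun w hw => by rw [h1 w (Finset.disjoint_right.1 hdisj hw)]]
  · intro μ ν h1 h2 y
    rw [slab_congr hψk h1 h2 y, axisLog_sub_blockLog h1 y]

end Fermat.LT
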