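import Fermat.Agent.LT.EllIndex
import Fermat.Agent.LT.HypVanish

/-!
# Diagonal classes: two ways, diagonalisation, parity

`ncard_diag_pairs` says that a diagonal class arises in exactly two ways; `exists_diagonal`
diagonalises and `disc_ne_zero_of_odd` uses the parity.
-/

set_option autoImplicit false
open Set Polynomial
open scoped Classical Matrix

namespace Fermat.LT

section Parity

variable {F : Type*} [Field F] (v : Valuation F (WithZero (Multiplicative ℤ)))

/-- The level has the parity of the determinant. -/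
lemma lvl_parity (g : GL (Fin 2) F) :
    ((lvl v g : ℤ) - ord v (g : Matrix (Fin 2) (Fin 2) F).det) % 2 = 0 := by
  obtain ⟨M, hM⟩ := exists_rep v g
  have hl := hM.lvl_eq v
  obtain ⟨-, c, hc, e⟩ := hM
  rw [e, Matrix.det_smul, Fintype.card_fin, ord_mul v (pow_ne_zero _ hc) g.det_ne_zero,
    ord_pow] at hl
  omega

end Parity

/-- Kernels of odd polynomials live on odd levels. -/
lemma kern_oddP_eq_zero (q : ℕ) (r : ℝ[X]) : ∀ n : ℕ, n % 2 = 0 → kern q (oddP r) n = 0 := by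
  have flip : ∀ (h : ℕ → ℂ) (e : ℕ), (∀ n, n % 2 = e % 2 → h n = 0) → ∀ n, n % 2 = (e + 1) % 2 →
      stepKer q h n = 0 := by
    intro h e he n hn
    rcases n with _ | m
    · rw [stepKer_zero, he 1 (by omega), mul_zero]
    · rw [stepKer_succ, he m (by omega), he (m + 2) (by omega)]; simp
  have even : ∀ n, n % 2 = 1 % 2 → kern q ((r.comp (X ^ 2)).map (algebraMap ℝ ℂ)) n = 0 := by
    induction r using Polynomial.induction_on with
    | C c =>
      intro n hn
      simp only [C_comp, Polynomial.map_C, kern, aeval_C, Module.algebraMap_end_apply,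
        Pi.smul_apply, delta0]
      rw [if_neg (by omega), smul_zero]
    | add f g hf hg =>
      intro n hn
      simp only [add_comp, Polynomial.map_add]
      simp only [kern, map_add, LinearMap.add_apply, Pi.add_apply] at hf hg ⊢
      rw [hf n hn, hg n hn, add_zero]
    | monomial k c h =>
      rw [show (Polynomial.C c * (X : ℝ[X]) ^ (k + 1)).comp ((X : ℝ[X]) ^ 2) = X *
          (X * (Polynomial.C c * (X : ℝ[X]) ^ k).comp ((X : ℝ[X]) ^ 2)) by
        simp [mul_comp]; ring]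
      simp only [Polynomial.map_mul (p := (X : ℝ[X])), Polynomial.map_X, kern_X_mul]
      exact flip _ 0 fun n hn => flip _ 1 h n (by omega)
  intro n hn
  rw [oddP, kern_X_mul]
  exact flip _ 1 even n (by omega)

section Diagonalise

variable {F : Type*} [Field F] [NumberField F]

/-- A square nonzero discriminant gives eigenvectors. -/
lemma exists_diagonal {g : GL (Fin 2) F} (hsq : IsSquare (disc2 (g : Matrix (Fin 2) (Fin 2) F)))
    (hne : disc2 (g : Matrix (Fin 2) (Fin 2) F) ≠ 0) :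
    ∃ (h : GL (Fin 2) F) (l₁ l₂ : Fˣ), l₁ ≠ l₂ ∧
      (g : Matrix (Fin 2) (Fin 2) F) * (h : Matrix (Fin 2) (Fin 2) F)
        = (h : Matrix (Fin 2) (Fin 2) F) * !![(l₁ : F), 0; 0, (l₂ : F)] := by
  set M : Matrix (Fin 2) (Fin 2) F := (g : Matrix (Fin 2) (Fin 2) F) with hMdef
  obtain ⟨s, hs⟩ := hsq
  have hs0 : s ≠ 0 := fun h => hne (by rw [hs, h, mul_zero])
  have hdisc : M 0 0 ^ 2 + 2 * M 0 0 * M 1 1 + M 1 1 ^ 2 - 4 * (M 0 0 * M 1 1 - M 0 1 * M 1 0) =
      s * s := by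
    rw [← hs, disc2, Matrix.trace_fin_two, Matrix.det_fin_two]; ring
  have hdet : M 0 0 * M 1 1 - M 0 1 * M 1 0 ≠ 0 := by
    rw [← Matrix.det_fin_two]; exact g.det_ne_zero
  -- A triangular matrix has the eigenvalues on the diagonal.
  by_cases h10 : M 1 0 = 0
  · have hab : M 0 0 * M 1 1 ≠ 0 := by simpa [h10] using hdet
    have hne' : M 1 1 - M 0 0 ≠ 0 := fun h => hne (by
      rw [hs, ← hdisc, h10, sub_eq_zero.1 h]; ring)
    refine ⟨Matrix.GeneralLinearGroup.mkOfDetNeZero !![1, M 0 1; 0, M 1 1 - M 0 0] (by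
        simp [Matrix.det_fin_two, hne']), Units.mk0 _ (left_ne_zero_of_mul hab),
          Units.mk0 _ (right_ne_zero_of_mul hab),
      fun h => hne' (by rw [sub_eq_zero]; exact (congrArg Units.val h).symm), ?_⟩
    ext i j
    fin_cases i <;> fin_cases j <;> simp [Matrix.mul_apply, h10] <;> ring
  -- Otherwise they are `(tr ± s) / 2`, with eigenvectors `(λ - M₁₁, M₁₀)`.
  · set a := (M 0 0 + M 1 1 + s) / 2 with ha
    set b := (M 0 0 + M 1 1 - s) / 2 with hb
    have h2 : (2 : F) ≠ 0 := two_ne_zero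
    have hab : a * b = M 0 0 * M 1 1 - M 0 1 * M 1 0 := by
      rw [ha, hb]; field_simp; linear_combination hdisc
    have hab0 : a * b ≠ 0 := by rw [hab]; exact hdet
    have hne' : a ≠ b := fun h => hs0 (by
      have : a - b = 0 := sub_eq_zero.2 h
      rw [ha, hb] at this; field_simp at this; linear_combination this / 2)
    refine ⟨Matrix.GeneralLinearGroup.mkOfDetNeZero !![a - M 1 1, b - M 1 1; M 1 0, M 1 0] (by
        rw [Matrix.det_fin_two]
        simp only [Matrix.of_apply, Matrix.cons_val', Matrix.cons_val_zero, Matrix.cons_val_one,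
          Matrix.cons_val_fin_one]
        rw [← sub_mul]
        exact mul_ne_zero (by rw [sub_sub_sub_cancel_right]; exact sub_ne_zero.2 hne') h10),
      Units.mk0 a (left_ne_zero_of_mul hab0), Units.mk0 b (right_ne_zero_of_mul hab0),
      fun h => hne' (congrArg Units.val h), ?_⟩
    have hsum : a + b = M 0 0 + M 1 1 := by rw [ha, hb]; field_simp; ring
    ext i j
    fin_cases i <;> fin_cases j <;> simp [Matrix.mul_apply] <;>
      first | linear_combination -(a * hsum) +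
                hab | linear_combination -(b * hsum) + hab | linear_combination (0 : F) * hsum

/-- A determinant of odd order forces a nonzero discriminant. -/
lemma disc_ne_zero_of_odd (v : Valuation F (WithZero (Multiplicative ℤ))) {g : GL (Fin 2) F}
    (hodd : ord v (g : Matrix (Fin 2) (Fin 2) F).det % 2 = 1) :
    disc2 (g : Matrix (Fin 2) (Fin 2) F) ≠ 0 := by
  intro h0
  set M : Matrix (Fin 2) (Fin 2) F := (g : Matrix (Fin 2) (Fin 2) F)
  have e : M.det = M.trace / 2 * (M.trace / 2) := by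
    rw [disc2] at h0
    field_simp
    linear_combination -h0
  have hne : M.trace / 2 ≠ 0 := fun h => g.det_ne_zero (by rw [e, h, mul_zero])
  rw [e, ord_mul v hne hne] at hodd
  omega

end Diagonalise

section Two

variable {F : Type*} [Field F] [NumberField F] {τ : F ≃+* F}

omit [NumberField F] in
/-- A pair of a diagonal class and a coset is the twisted conjugate of `diag(α, 1)`. -/
lemma diag_val {Ξ : Type*} (α : Ξ → Fˣ) (ξ : Ξ) (k : GL (Fin 2) F) :
    (pairPt (fun _ : Ξ => dTor τ) (fun ξ => diagCls τ (α ξ)) ⟨ξ, ((k : PG F) : PG F ⧸ dTor τ)⟩).cls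
      = ((k * upMat (α ξ) 0 * (mapGL τ k)⁻¹ : GL (Fin 2) F) : PG F) := by
  obtain ⟨⟨_, ⟨a, ha, rfl⟩⟩, hout⟩ := QuotientGroup.mk_out_eq_mul (dTor τ) (k : PG F)
  change (((k : PG F) : PG F ⧸ dTor τ).out • diagCls τ (α ξ)).cls = _
  rw [hout, TwPG.cls_smul, map_mul, PG.amap_mk, PG.amap_mk, mapGL_upMat_zero ha,
    diagCls, TwPG.cls_of,
    ← QuotientGroup.mk_mul, ← QuotientGroup.mk_mul, ← QuotientGroup.mk_mul, ← QuotientGroup.mk_inv,
    ← QuotientGroup.mk_mul, mul_inv_rev, mul_assoc k, upMat_diag_comm a (α ξ)]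
  congr 1; group

/-- The matrix `[[0, t], [1, 0]]`. -/
noncomputable def antiMat (t : Fˣ) : GL (Fin 2) F :=
  Matrix.GeneralLinearGroup.mkOfDetNeZero !![0, (t : F); 1, 0] (by simp [Matrix.det_fin_two])

omit [NumberField F] in
/-- Two pairs with the same value are equal, unless the quotient of their matrices is
antidiagonal. -/
lemma diag_pairs_rel {Ξ : Type*} (α : Ξ → Fˣ) (hfix : ∀ ξ (x : F), τ x * (α ξ : F) = x → x = 0)
    (hinj : ∀ ξ ξ' (t : F), t ≠ 0 → (α ξ' : F) * τ t = t * (α ξ : F) → ξ = ξ')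
    (ξ ξ' : Ξ) (k k' : GL (Fin 2) F)
    (h : pairPt (fun _ : Ξ => dTor τ) (fun ξ => diagCls τ (α ξ))
        ⟨ξ, ((k : PG F) : PG F ⧸ dTor τ)⟩
      = pairPt (fun _ : Ξ => dTor τ) (fun ξ => diagCls τ (α ξ))
        ⟨ξ', ((k' : PG F) : PG F ⧸ dTor τ)⟩) :
    (((k'⁻¹ * k : GL (Fin 2) F) : Matrix (Fin 2) (Fin 2) F) 1 1 ≠ 0 →
        (⟨ξ, ((k : PG F) : PG F ⧸ dTor τ)⟩ : Σ _ : Ξ, PG F ⧸ dTor τ) =
          ⟨ξ', ((k' : PG F) : PG F ⧸ dTor τ)⟩) ∧
      (((k'⁻¹ * k : GL (Fin 2) F) : Matrix (Fin 2) (Fin 2) F) 1 1 = 0 →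
        ((k'⁻¹ * k : GL (Fin 2) F) : Matrix (Fin 2) (Fin 2) F) 0 0 = 0) := by
  have h' := congrArg TwPG.cls h
  rw [diag_val, diag_val] at h'
  obtain ⟨c, hc⟩ := PG.eq_iff.1 h'
  set n := k'⁻¹ * k with hn
  have hmat : upMat (α ξ') 0 * mapGL τ n = scal c * (n * upMat (α ξ) 0) := by
    rw [hn, map_mul, map_inv,
      show upMat (α ξ') 0 * ((mapGL τ k')⁻¹ * mapGL τ k) =
          k'⁻¹ * (k' * upMat (α ξ') 0 * (mapGL τ k')⁻¹) * mapGL τ k by
        group, hc, ← mul_assoc k'⁻¹, ← scal_comm c k'⁻¹]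
    group
  have hent := fun i j =>
    congrFun (congrFun (congrArg (fun x : GL (Fin 2) F => (x : Matrix (Fin 2) (Fin 2) F)) hmat) i)
    -- compare the entries of `diag(α',1) τ(n) = c n diag(α,1)`
    j
  have e00 := hent 0 0
  have e01 := hent 0 1
  have e10 := hent 1 0
  have e11 := hent 1 1
  simp [coe_mapGL, Matrix.mul_apply] at e00 e01 e10 e11
  set N : Matrix (Fin 2) (Fin 2) F := (n : Matrix (Fin 2) (Fin 2) F) with hNdef
  have hdet := n.det_ne_zero
  rw [Matrix.det_fin_two, ← hNdef] at hdet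
  refine ⟨fun h11 => ?_, fun h11 => ?_⟩
  · have h10 : N 1 0 = 0 := by
      by_contra h10
      have := hfix ξ (N 1 1 / N 1 0) (by
        rw [map_div₀, e11, e10]
        field_simp [h10, h11, (α ξ).ne_zero])
      simp [h10, h11] at this
    have h00 : N 0 0 ≠ 0 := fun h0 => hdet (by rw [h0, h10]; ring)
    have h01 : N 0 1 = 0 := by
      by_contra h01
      have := hfix ξ' (N 0 1 / N 1 1) (by
        rw [map_div₀, div_mul_eq_mul_div, mul_comm, e01, e11]
        field_simp)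
      simp [h01, h11] at this
    -- then `n` is diagonal, with ratio a point of the torus
    set t := N 0 0 / N 1 1 with ht
    have ht0 : t ≠ 0 := div_ne_zero h00 h11
    have heq : (α ξ' : F) * τ t = t * (α ξ : F) := by
      rw [ht, map_div₀, ← mul_div_assoc, e00, e11]
      field_simp
    obtain rfl := hinj ξ ξ' t ht0 heq
    refine Sigma.ext rfl (heq_of_eq ?_)
    have hfixt : τ t = t := mul_left_cancel₀ (α ξ).ne_zero (heq.trans (mul_comm _ _))
    rw [eq_comm, QuotientGroup.eq, ← QuotientGroup.mk_inv, ← QuotientGroup.mk_mul, ← hn, mem_dTor]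
    refine ⟨Units.mk0 t ht0, hfixt, PG.eq_iff.2 ⟨Units.mk0 _ h11, Units.ext ?_⟩⟩
    rw [← hNdef, Units.val_mul, scal_coe, coe_upMat, Matrix.scalar_apply,
      ← Matrix.smul_eq_diagonal_mul]
    ext i j
    fin_cases i <;> fin_cases j <;> simp [h10, h01, ht, mul_div_cancel₀ _ h11]
  · have h10 : N 1 0 ≠ 0 := fun h0 => hdet (by rw [h0, h11]; ring)
    by_contra h00
    have := hfix ξ' (N 0 0 / N 1 0) (by
      rw [map_div₀, div_mul_eq_mul_div, mul_comm, e00, e10]
      field_simp [h10, (α ξ).ne_zero])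
    simp [h00, h10] at this

omit [NumberField F] in
/-- **Diagonal classes: exactly two ways.** -/
theorem ncard_diag_pairs {Ξ : Type*} (α : Ξ → Fˣ) (hfix : ∀ ξ (x : F), τ x * (α ξ : F) = x → x = 0)
    (hinj : ∀ ξ ξ' (t : F), t ≠ 0 → (α ξ' : F) * τ t = t * (α ξ : F) → ξ = ξ')
    (hpartner : ∀ ξ, ∃ ξ' : Ξ, ∃ t : F, t ≠ 0 ∧ (α ξ : F) * ((α ξ' : F) * τ t) = t) {γ : TwPG τ}
    (hγ : ∃ pr, pairPt (fun _ : Ξ => dTor τ) (fun ξ => diagCls τ (α ξ)) pr = γ) :
    {pr | pairPt (fun _ : Ξ => dTor τ) (fun ξ => diagCls τ (α ξ)) pr = γ}.ncard = 2 := by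
  have rel := diag_pairs_rel α hfix hinj
  obtain ⟨⟨ξ, q⟩, hp⟩ := hγ
  obtain ⟨k', rfl⟩ := QuotientGroup.mk_surjective q
  obtain ⟨k, rfl⟩ := QuotientGroup.mk_surjective k'
  -- the given pair `p₀` and its partner `p₁`, moved by an antidiagonal element
  obtain ⟨ξ₁, t, ht0, ht⟩ := hpartner ξ
  set w : GL (Fin 2) F := antiMat (Units.mk0 t ht0)
  set p₀ : Σ _ : Ξ, PG F ⧸ dTor τ := ⟨ξ, ((k : PG F) : PG F ⧸ dTor τ)⟩
  set p₁ : Σ _ : Ξ, PG F ⧸ dTor τ := ⟨ξ₁, (((k * w⁻¹ : GL (Fin 2) F) : PG F) : PG F ⧸ dTor τ)⟩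
  have h1 : pairPt (fun _ : Ξ => dTor τ) (fun ξ => diagCls τ (α ξ)) p₁ = γ := by
    rw [← hp]
    change (pairPt (fun _ : Ξ => dTor τ) (fun ξ => diagCls τ (α ξ)) p₁).cls =
      (pairPt (fun _ : Ξ => dTor τ) (fun ξ => diagCls τ (α ξ)) p₀).cls
    rw [diag_val, diag_val]
    refine PG.eq_iff.2 ⟨α ξ, ?_⟩
    have hw : w⁻¹ * upMat (α ξ₁) 0 * mapGL τ w = scal (α ξ)⁻¹ * upMat (α ξ) 0 := by
      rw [mul_assoc, inv_mul_eq_iff_eq_mul]
      refine Units.ext (Matrix.ext fun i j => ?_)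
      have hα := (α ξ).ne_zero
      fin_cases i <;> fin_cases j <;>
        simp [w, antiMat, coe_mapGL, Matrix.mul_apply, Units.val_inv_eq_inv_val]
      all_goals field_simp
      all_goals linear_combination ht
    rw [map_mul, map_inv, mul_inv_rev, inv_inv,
      show k * w⁻¹ * upMat (α ξ₁) 0 * (mapGL τ w * (mapGL τ k)⁻¹)
        = k * (w⁻¹ * upMat (α ξ₁) 0 * mapGL τ w) * (mapGL τ k)⁻¹ by group, hw]
    rw [← mul_assoc k, ← scal_comm (α ξ)⁻¹ k]
    simp only [← mul_assoc, ← scal_mul, mul_inv_cancel]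
    simp [scal]
  have h11w : ∀ ξ' ξ'', ∀ g g' : GL (Fin 2) F,
      (⟨ξ', ((g : PG F) : PG F ⧸ dTor τ)⟩ : Σ _ : Ξ, PG F ⧸ dTor τ) =
        ⟨ξ'', ((g' : PG F) : PG F ⧸ dTor τ)⟩ →
      ((g'⁻¹ * g : GL (Fin 2) F) : Matrix (Fin 2) (Fin 2) F) 1 1 ≠ 0 := by
    intro ξ' ξ'' g g' e
    obtain ⟨-, e2⟩ := Sigma.mk.inj e
    have e2' := (eq_of_heq e2).symm
    rw [QuotientGroup.eq, ← QuotientGroup.mk_inv, ← QuotientGroup.mk_mul, mem_dTor] at e2'
    obtain ⟨a, -, ha⟩ := e2'
    obtain ⟨c, hc⟩ := PG.eq_iff.1 ha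
    rw [hc]
    simp [Matrix.mul_apply, c.ne_zero]
  have hne : p₀ ≠ p₁ := fun e => h11w _ _ _ _ e (by
    rw [show (k * w⁻¹)⁻¹ * k = w by group]
    simp [w, antiMat])
  rw [show {pr | pairPt (fun _ : Ξ => dTor τ) (fun ξ => diagCls τ (α ξ)) pr = γ} = {p₀, p₁} from
    Set.eq_of_subset_of_subset ?_ ?_, Set.ncard_pair hne]
  -- every pair in the fibre is one of the two
  · rintro ⟨ξ', q⟩ hq
    obtain ⟨k'', rfl⟩ := QuotientGroup.mk_surjective q
    obtain ⟨g, rfl⟩ := QuotientGroup.mk_surjective k''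
    have hr0 := rel ξ' ξ g k (hq.trans hp.symm)
    by_cases h : ((k⁻¹ * g : GL (Fin 2) F) : Matrix (Fin 2) (Fin 2) F) 1 1 = 0
    · right
      have h00 := hr0.2 h
      refine Set.mem_singleton_iff.2 ((rel ξ' ξ₁ g (k * w⁻¹) (hq.trans h1.symm)).1 ?_)
      have hdet := (k⁻¹ * g).det_ne_zero
      rw [Matrix.det_fin_two, h, h00] at hdet
      rw [show (k * w⁻¹)⁻¹ * g = w * (k⁻¹ * g) by group, Units.val_mul]
      simp only [Matrix.mul_apply, Fin.sum_univ_two]
      simp [w, antiMat]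
      intro h01
      exact hdet (by
        simp only [Units.val_mul, Matrix.coe_units_inv] at h01 ⊢
        rw [h01]; ring)
    · exact Or.inl (hr0.1 h)
  · rintro pr (rfl | rfl) <;> assumption

end Two

end Fermat.LT
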