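import Fermat.Agent.LT.EllUnfold
import Fermat.Agent.LT.EllPack
import Fermat.Agent.LT.HypAssemble
import Fermat.Agent.LT.HypPairs

/-!
# The density of the non-elliptic part on the small field

`hyp_density_K` shows that on `K` the non-elliptic part of the trace, as a function of the odd
polynomial at a place, has a density.
-/

set_option autoImplicit false
open IsDedekindDomain NumberField MeasureTheory Filter Set Polynomial
open scoped Classical Matrix ComplexConjugate

namespace Fermat.LT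

/-- Real kernels have real constant terms. -/
lemma ctil_real_of_kern_real {q : ℕ} (p : ℂ[X]) (h : ∀ n, conj (kern q p n) = kern q p n) (n : ℕ) :
    conj (ctil q (kern q p) n) = ctil q (kern q p) n := by
  rw [ctil, gsum_eq_sum q (kern_eq_zero q p) n (p.natDegree + 1) (by omega)]
  simp [map_sum, h]

/-- `oddP r` has real coefficients. -/
lemma oddP_eq_map (r : ℝ[X]) : oddP r = (X * r.comp (X ^ 2)).map (algebraMap ℝ ℂ) := by
  rw [oddP, Polynomial.map_mul, Polynomial.map_X]

/-- The kernel is additive in the odd polynomial. -/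
lemma kern_oddP_add (q : ℕ) (r s : ℝ[X]) (n : ℕ) :
    kern q (oddP (r + s)) n = kern q (oddP r) n + kern q (oddP s) n := by
  rw [oddP_add]; simp [kern]

/-- The kernel is homogeneous in the odd polynomial. -/
lemma kern_oddP_smul (q : ℕ) (a : ℝ) (r : ℝ[X]) (n : ℕ) :
    kern q (oddP (a • r)) n = (a : ℂ) * kern q (oddP r) n := by
  rw [oddP_smul]; simp [kern, Module.End.mul_apply, Module.algebraMap_end_apply]

/-- The constant terms of an odd real polynomial are real. -/
lemma ctil_oddP_conj (q : ℕ) (r : ℝ[X]) (n : ℕ) :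
    conj (ctil q (kern q (oddP r)) n) = ctil q (kern q (oddP r)) n := by
  refine ctil_real_of_kern_real _ (fun m => ?_) n
  rw [oddP_eq_map]
  exact kern_conj _ _ m

section Matrices

variable {F : Type*} [Field F]

/-- Where the kernel of an odd polynomial does not vanish at the level of a conjugate of `g`, the
determinant of `g` has odd order. -/
lemma ord_det_odd_of_kern_ne_zero (v : Valuation F (WithZero (Multiplicative ℤ))) (q : ℕ) (r : ℝ[X])
    {g b : GL (Fin 2) F} (h : kern q (oddP r) (lvl v (b⁻¹ * (g * b))) ≠ 0) :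
    ord v (g : Matrix (Fin 2) (Fin 2) F).det % 2 = 1 := by
  have hodd : lvl v (b⁻¹ * (g * b)) % 2 = 1 := by
    by_contra hne
    exact h (kern_oddP_eq_zero _ r _ (by omega))
  have hp := lvl_parity v (b⁻¹ * (g * b))
  have hd : ((b⁻¹ * (g * b) : GL (Fin 2) F) : Matrix (Fin 2) (Fin 2) F).det =
      (g : Matrix (Fin 2) (Fin 2) F).det := by
    have h1 : ((b⁻¹ * (g * b) : GL (Fin 2) F) : Matrix (Fin 2) (Fin 2) F).det
        * (b : Matrix (Fin 2) (Fin 2) F).det =
            (g : Matrix (Fin 2) (Fin 2) F).det * (b : Matrix (Fin 2) (Fin 2) F).det := by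
      rw [mul_comm, ← Matrix.det_mul, ← Units.val_mul, mul_inv_cancel_left, Units.val_mul,
        Matrix.det_mul]
    exact mul_right_cancel₀ b.det_ne_zero h1
  rw [hd] at hp
  omega

/-- A scalar times a torus element is diagonal. -/
lemma coe_scal_mul_upMat_div [NumberField F] (a b : Fˣ) :
    ((scal b * upMat (a * b⁻¹) 0 : GL (Fin 2) F) : Matrix (Fin 2) (Fin 2) F) =
      !![(a : F), 0; 0, (b : F)] := by
  rw [Units.val_mul, scal_coe, coe_upMat, Matrix.scalar_apply, ← Matrix.smul_eq_diagonal_mul]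
  have := b.ne_zero
  ext i j
  fin_cases i <;> fin_cases j <;> simp [Units.val_inv_eq_inv_val]; field_simp

/-- The determinant of a diagonalised matrix is the product of the eigenvalues. -/
lemma det_of_diagonalised {g h : GL (Fin 2) F} {l₁ l₂ : Fˣ}
    (he : (g : Matrix (Fin 2) (Fin 2) F) * (h : Matrix (Fin 2) (Fin 2) F)
      = (h : Matrix (Fin 2) (Fin 2) F) * !![(l₁ : F), 0; 0, (l₂ : F)]) :
    (g : Matrix (Fin 2) (Fin 2) F).det = (l₁ : F) * l₂ := by
  have := congrArg Matrix.det he
  rw [Matrix.det_mul, Matrix.det_mul, Matrix.det_fin_two_of, mul_comm] at this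
  have := mul_left_cancel₀ h.det_ne_zero this
  simpa using this

end Matrices

section Generic

variable {F : Type*} [Field F] [NumberField F] {S : Set (Place F)}

/-- A kernel varying at one place is linear in what varies. -/
lemma PKer.val_linear {P₁ P₂ P : PKer F S} {v : Place F} (c₁ c₂ : ℂ)
    (h₁ : ∀ u ≠ v, P₁.loc u = P.loc u) (h₂ : ∀ u ≠ v, P₂.loc u = P.loc u) (ha₁ : P₁.arch = P.arch)
    (ha₂ : P₂.arch = P.arch) (h : ∀ a b, P.loc v a b = c₁ * P₁.loc v a b + c₂ * P₂.loc v a b)
    (x y : Pt F S) :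
    P.val x y = c₁ * P₁.val x y + c₂ * P₂.val x y := by
  have e : ∀ {Q : PKer F S}, (∀ u ≠ v, Q.loc u = P.loc u) → Q.arch = P.arch →
      Q.val x y = Q.loc v (x.1.1 v) (y.1.1 v)
        * ((∏ᶠ (u : Place F) (_ : u ≠ v), P.loc u (x.1.1 u) (y.1.1 u)) * P.inf x.2 y.2) := by
    intro Q hQ hQa
    rw [PKer.val, Q.fin_eq_mul v, mul_assoc]
    refine congrArg₂ (· * ·) rfl (congrArg₂ (· * ·) ?_ ?_)
    · exact finprod_congr fun u => finprod_congr fun hu => by rw [hQ u hu]
    · simp only [PKer.inf, hQa]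
  rw [e h₁ ha₁, e h₂ ha₂, e (fun _ _ => rfl) rfl, h]
  ring

/-- Where the spherical kernel of an odd polynomial does not vanish at `(a, g • a)`, the determinant
of `g` has odd valuation. -/
lemma odd_of_sph_ne_zero {v : Place F} (hv : v ∉ S) (r : ℝ[X]) (g : GL (Fin 2) F) (a : Vert S v)
    (h : sphKer hv (oddP r) a (g • a) ≠ 0) :
    ord (v.valuation F) (g : Matrix (Fin 2) (Fin 2) F).det % 2 = 1 := by
  obtain ⟨b, rfl⟩ := QuotientGroup.mk_surjective a
  rw [sphKer_apply, MulAction.Quotient.smul_coe, vd_mk, smul_eq_mul] at h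
  exact ord_det_odd_of_kern_ne_zero _ _ r h

/-- Absolute values between `C⁻¹` and `C` bound the exponent. -/
lemma exists_ord_bound (v : Place F) (C : ℝ) :
    ∃ M : ℕ, ∀ x : F, x ≠ 0 → vabs v x ≤ C → 1 ≤ C * vabs v x →
    (ord (v.valuation F) x).natAbs ≤ M := by
  have hq : (1 : ℝ) < pnorm v := by exact_mod_cast HeightOneSpectrum.one_lt_absNorm v
  obtain ⟨M, hM⟩ := pow_unbounded_of_one_lt C hq
  refine ⟨M, fun x hx h1 h2 => ?_⟩
  rw [vabs_eq v hx] at h1 h2
  set n := ord (v.valuation F) x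
  have hz : ∀ k : ℤ, (pnorm v : ℝ) ^ k ≤ C → k ≤ M := fun k hk => by
    by_contra hlt
    have h3 : (pnorm v : ℝ) ^ (M : ℤ) ≤ (pnorm v : ℝ) ^ k := zpow_le_zpow_right₀ hq.le (by omega)
    rw [zpow_natCast] at h3
    linarith
  have h3 := hz (-n) h1
  have h4 := hz n (by
    rw [zpow_neg] at h2
    rw [← one_mul ((pnorm v : ℝ) ^ n)]
    exact (le_div_iff₀ (zpow_pos (zero_lt_one.trans hq) _)).1 (by rwa [div_eq_mul_inv]))
  omega

end Generic

variable {K L : Type} [Field K] [NumberField K] [Field L] [NumberField L] [Algebra K L]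
  {v3 v0 : Place K}

/-- Setting `p` at a place of degree one over `v0`, the polynomials being `1` over `v0`, makes the
base changed polynomial at `v0` equal to `p`. -/
lemma finprod_bc_update_self {w0 : Place L} (hw0 : LiesOver K L w0 v0) (hpn : pnorm w0 = pnorm v0)
    (h : Place L → ℂ[X]) (ht : ∀ w, LiesOver K L w v0 → h w = 1) (p : ℂ[X]) :
    (∏ᶠ w ∈ placesOver K L v0, if pnorm w = pnorm v0 then Function.update h w0 p w
      else cubicBC (pnorm v0) (Function.update h w0 p w)) = p := by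
  have h1 : ∀ w ∈ placesOver K L v0, w ≠ w0 → Function.update h w0 p w = 1 := fun w hw hne => by
    rw [Function.update_of_ne hne]; exact ht w hw
  rw [show (∏ᶠ w ∈ placesOver K L v0, if pnorm w = pnorm v0 then Function.update h w0 p w
      else cubicBC (pnorm v0) (Function.update h w0 p w))
    = ∏ᶠ w ∈ ({w0} : Set (Place L)), if pnorm w = pnorm v0 then Function.update h w0 p w
      else cubicBC (pnorm v0) (Function.update h w0 p w) from ?_, finprod_mem_singleton, if_pos hpn]
  · exact Function.update_self (β := fun _ => ℂ[X]) w0 p h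
  · refine finprod_mem_inter_mulSupport_eq' _ _ _ fun w hw => ⟨fun hmem => ?_, ?_⟩
    · by_contra hne
      exact hw (by simp [h1 w hmem hne, cubicBC])
    · rintro rfl; exact hw0

/-- The update does not matter at the other places of `K`. -/
lemma finprod_bc_update_ne {w0 : Place L} (hw0 : LiesOver K L w0 v0) {v : Place K} (hv : v ≠ v0)
    (h : Place L → ℂ[X]) (p p' : ℂ[X]) :
    (∏ᶠ w ∈ placesOver K L v, if pnorm w = pnorm v then Function.update h w0 p w
      else cubicBC (pnorm v) (Function.update h w0 p w))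
    = ∏ᶠ w ∈ placesOver K L v, if pnorm w = pnorm v then Function.update h w0 p' w
      else cubicBC (pnorm v) (Function.update h w0 p' w) := by
  refine finprod_mem_congr rfl fun w hw => ?_
  have hne : w ≠ w0 := fun e => hv ((e ▸ hw : LiesOver K L w0 v).unique hw0)
  rw [Function.update_of_ne hne, Function.update_of_ne hne]

/-- Updating by `p` at a place with a degree one place over it makes the base changed polynomial
`p`. -/
lemma bcPoly_upd_self (t : TestData K L v3) (hv0 : v0 ∉ levK L v3) {w0 : Place L}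
    (hw0 : LiesOver K L w0 v0) (hpn : pnorm w0 = pnorm v0)
    (ht : ∀ w, LiesOver K L w v0 → t.h w = 1) (p : ℂ[X]) :
    (t.upd hv0 hw0 p).bcPoly v0 = p :=
  finprod_bc_update_self hw0 hpn t.h ht p

/-- The update does not matter at the other places of `K`. -/
lemma bcPoly_upd_ne (t : TestData K L v3) (hv0 : v0 ∉ levK L v3) {w0 : Place L}
    (hw0 : LiesOver K L w0 v0) {v : Place K} (hv : v ≠ v0) (p p' : ℂ[X]) :
    (t.upd hv0 hw0 p).bcPoly v = (t.upd hv0 hw0 p').bcPoly v :=
  finprod_bc_update_ne hw0 hv t.h p p'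

section Small

variable (G : GeoData K L v3) (σ : L ≃ₐ[K] L) [Finite (levK L v3)] (t : TestData K L v3)
  (hv0 : v0 ∉ levK L v3) {w0 : Place L} (hw0 : LiesOver K L w0 v0) (hpn : pnorm w0 = pnorm v0)
  (ht : ∀ w, LiesOver K L w v0 → t.h w = 1)

include hpn ht in
/-- At `v0` the updated kernel is the spherical kernel of the odd polynomial. -/
lemma kerK_upd_v0 (r : ℝ[X]) :
    (kerK G σ (t.upd hv0 hw0 (oddP r))).loc v0 = sphKer hv0 (oddP r) := by
  rw [kerK_loc_sph hv0, bcPoly_upd_self t hv0 hw0 hpn ht]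

/-- Off `v0` the updated kernel does not depend on the polynomial. -/
lemma kerK_upd_ne {v : Place K} (hv : v ≠ v0) (p p' : ℂ[X]) :
    (kerK G σ (t.upd hv0 hw0 p)).loc v = (kerK G σ (t.upd hv0 hw0 p')).loc v := by
  change dite _ _ _ = dite _ _ _
  rw [bcPoly_upd_ne t hv0 hw0 hv p p']

/-- At infinity the updated kernel does not depend on the polynomial. -/
lemma kerK_upd_arch (p p' : ℂ[X]) :
    (kerK G σ (t.upd hv0 hw0 p)).arch = (kerK G σ (t.upd hv0 hw0 p')).arch := rfl

/-- A vanishing sum over each local height at one place kills that one-place block. -/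
lemma killsBlock_singleton [IsTotallyComplex K] (P : PKer K (levK L v3)) {ξ : Kˣ} {v : Place K}
    (h : ∀ d : ℝ, ∑' a : {a : Vert (levK L v3) v // nloc v (eInf : Fin 2 → K) a = d},
      P.loc v a.1 (upMat ξ 0 • a.1) = 0) : KillsBlock P (stable_refl _) ξ {v} := by
  intro ν
  have hid : ∀ μ : FinPt K (levK L v3), FinPt.amap (stable_refl _) μ = μ := fun μ =>
    congrArg Prod.fst (Pt.amap_refl (stable_refl _) (μ, fun _ => ((1 : GL (Fin 2) ℂ) : H3)))
  let e : {μ : FinPt K (levK L v3) // (∀ w ∉ ({v} : Finset (Place K)), μ.1 w = ν.1 w) ∧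
      ∀ w ∈ ({v} : Finset (Place K)), nloc w (eInf : Fin 2 → K) (μ.1 w) =
        nloc w (eInf : Fin 2 → K) (ν.1 w)}
      ≃ {a : Vert (levK L v3) v // nloc v (eInf : Fin 2 → K) a =
          nloc v (eInf : Fin 2 → K) (ν.1 v)} :=
    { toFun := fun μ => ⟨μ.1.1 v, μ.2.2 v (Finset.mem_singleton_self v)⟩
      invFun := fun a => ⟨ν.set v a.1, fun w hw => FinPt.set_of_ne ν (by simpa using hw) _,
          fun w hw => by
        obtain rfl := Finset.mem_singleton.1 hw
        rw [FinPt.set_self]; exact a.2⟩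
      left_inv := fun μ => Subtype.ext (Subtype.ext (funext fun w => by
        by_cases hw : w = v
        · subst hw; exact FinPt.set_self _ _ _
        · exact (FinPt.set_of_ne ν hw _).trans (μ.2.1 w (by simpa using hw)).symm))
      right_inv := fun a => Subtype.ext (FinPt.set_self _ _ _) }
  simp only [hid]
  rw [← e.symm.tsum_eq]
  have he : ∀ a, P.fin (e.symm a).1 (upMat ξ (0 : K) • (e.symm a).1)
      = (∏ᶠ (u : Place K) (_ : u ≠ v), P.loc u (ν.1 u) (upMat ξ (0 : K) • ν.1 u))
        * P.loc v a.1 (upMat ξ (0 : K) • a.1) := fun a => by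
    rw [P.fin_eq_mul v, mul_comm]
    refine congrArg₂ (· * ·) (finprod_congr fun u => finprod_congr fun hu => ?_) ?_
    · change P.loc u ((ν.set v a.1).1 u) (upMat ξ (0 : K) • (ν.set v a.1).1 u) = _
      rw [FinPt.set_of_ne ν hu]
    · change P.loc v ((ν.set v a.1).1 v) (upMat ξ (0 : K) • (ν.set v a.1).1 v) = _
      rw [FinPt.set_self]
  rw [tsum_congr he, tsum_mul_left, h, mul_zero]

include hpn ht in
/-- **The small field**: the non-elliptic part of the trace has a density. -/
theorem hyp_density_K {DK : Set (Pt K (levK L v3))} (hDK : IsFundamentalDomain (PG K) DK ptMeasure)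
    (hI : ∀ r, IntegrableOn
      (fun p => (kerK G σ (t.upd hv0 hw0 (oddP r))).kapOn (fun γ => ¬ γ.IsEll) p p) DK ptMeasure) :
    HasDensity (pnorm v0) (fun r =>
      ∫ p in DK, (kerK G σ (t.upd hv0 hw0 (oddP r))).kapOn (fun γ => ¬ γ.IsEll) p p
        ∂ptMeasure) := by
  have : IsTotallyComplex K := G.totallyComplexK
  set P : ℝ[X] → PKer K (levK L v3) := fun r => kerK G σ (t.upd hv0 hw0 (oddP r))
  set τ : K ≃+* K := RingEquiv.refl K
  let hS : Stable τ (levK L v3) := stable_refl _
  set Pr : TwPG τ → Prop := fun γ => ¬ γ.cls.IsEll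
  have e : ∀ r p, (P r).kapOn (fun γ => ¬ γ.IsEll) p p = partFun hS Pr (P r) p := fun r p => by
    rw [partFun, PKer.kapOn]
    simp only [twVal_refl]
    refine tsum_congr fun γ => ?_
    simp only [Pr]
    congr
  replace hI : ∀ r, IntegrableOn (partFun hS Pr (P r)) DK ptMeasure := fun r =>
    (hI r).congr_fun_ae (Eventually.of_forall (e r))
  change HasDensity _ (fun r => ∫ p in DK, (P r).kapOn (fun γ => ¬ γ.IsEll) p p ∂ptMeasure)
  simp only [e]
  -- the index set: the ratios of odd valuation at `v0`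
  let Ξ := {ξ : Kˣ // ord (v0.valuation K) (ξ : K) % 2 = 1}
  set α : Ξ → Kˣ := fun ξ => ξ.1
  set nn : Ξ → ℕ := fun ξ => (ord (v0.valuation K) (ξ.1 : K)).natAbs
  have hξ1 : ∀ ξ : Ξ, ξ.1 ≠ 1 := fun ξ h => by
    have := ξ.2; rw [h, Units.val_one, ord_one] at this; omega
  have hfix : ∀ (ξ : Ξ) (x : K), τ x * (α ξ : K) = x → x = 0 := fun ξ x h => by
    by_contra hx
    exact hξ1 ξ (Units.ext (mul_left_cancel₀ hx (h.trans (mul_one x).symm)))
  obtain ⟨C, -, hC⟩ := exists_block_bound hS (P 0) {v0} (fun w => by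
    rw [show mapPlace τ w = w from
      HeightOneSpectrum.ext (Ideal.ext fun a => mapPlace_asIdeal τ w a)])
  obtain ⟨M, hM⟩ := exists_ord_bound v0 C
  have : Countable Kˣ := Units.val_injective.countable
  have : Countable Ξ := inferInstanceAs (Countable {ξ : Kˣ // ord (v0.valuation K) (ξ : K) % 2 = 1})
  refine hasDensity_part hS Pr α nn P hDK ?_ ?_ ?_ ?_ hfix
    (zero_lt_one.trans (HeightOneSpectrum.one_lt_absNorm v0)) M ?_ (B₀ := {v0}) (B₃ := {v3}) ?_ ?_
      ?_ ?_ ?_ ?_ hI
  · exact fun δ γ => not_congr (ellP_smul δ γ)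
  · -- the diagonal classes are not elliptic
    intro ξ
    exact fun h => PG.not_isEll_of_upper ⟨_, rfl, by simp [α]⟩ h
  · -- `ξ` and `ξ⁻¹` give the same classes
    intro γ hγ
    refine ncard_diag_pairs α hfix (fun ξ ξ' t ht0 h => Subtype.ext (Units.ext ?_)) (fun ξ => ?_) hγ
    · exact (mul_left_cancel₀ ht0 ((mul_comm _ _).trans h)).symm
    · refine ⟨⟨ξ.1⁻¹, ?_⟩, 1, one_ne_zero, ?_⟩
      · have := ξ.2
        rw [Units.val_inv_eq_inv_val, ord_inv]; omega
      · simp [α, τ]
  · -- the classes where the kernel is not zero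
    intro r γ p hPr hne
    obtain ⟨g, hg⟩ := QuotientGroup.mk_surjective γ.cls
    rw [twVal_refl, ← hg, PG.mk_smul, PKer.val, mul_ne_zero_iff, PKer.fin_ne_zero] at hne
    have h0 := hne.1 v0
    rw [show (P r).loc v0 = sphKer hv0 (oddP r) from kerK_upd_v0 G σ t hv0 hw0 hpn ht r] at h0
    have hodd := odd_of_sph_ne_zero hv0 r g _ h0
    have hsq : IsSquare (disc2 (g : Matrix (Fin 2) (Fin 2) K)) := by
      by_contra h
      exact hPr (by rw [← hg, PG.isEll_iff]; exact h)
    obtain ⟨h, l₁, l₂, hl, he⟩ := exists_diagonal hsq (disc_ne_zero_of_odd _ hodd)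
    rw [det_of_diagonalised he, ord_mul _ l₁.ne_zero l₂.ne_zero] at hodd
    let ξ : Ξ := ⟨l₁ * l₂⁻¹, by
      rw [Units.val_mul, ord_mul _ l₁.ne_zero (l₂⁻¹).ne_zero, Units.val_inv_eq_inv_val,
        ord_inv]; omega⟩
    refine ⟨⟨ξ, ((h : PG K) : PG K ⧸ dTor τ)⟩, ?_⟩
    change (pairPt (fun _ : Ξ => dTor τ) (fun ξ => diagCls τ (α ξ)) _).cls = γ.cls
    rw [diag_val, ← hg]
    refine PG.eq_iff.2 ⟨l₂, ?_⟩
    have hh : g * h = h * (scal l₂ * upMat (l₁ * l₂⁻¹) 0) := by
      refine Units.ext ?_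
      rw [Units.val_mul, he, Units.val_mul, coe_scal_mul_upMat_div]
    have hm : mapGL τ h = h := Units.ext (by rw [coe_mapGL]; rfl)
    rw [hm, ← mul_assoc, ← mul_assoc]
    change g = scal l₂ * h * upMat (l₁ * l₂⁻¹) 0 * h⁻¹
    rw [eq_mul_inv_iff_mul_eq, hh, ← mul_assoc, scal_comm]
  · -- the block at `v0` bounds the valuation of `ξ`
    intro r ξ p hne
    obtain ⟨h1, h2⟩ := hC (P r) (fun w hw => kerK_upd_ne G σ t hv0 hw0 (by simpa using hw) _ _)
      (kerK_upd_arch G σ t hv0 hw0 _ _) ξ.1 p hne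
    rw [Finset.prod_singleton] at h1 h2
    exact hM _ ξ.1.ne_zero h1 h2
  · rw [Finset.disjoint_singleton]
    exact fun h => hv0 (h ▸ Set.mem_insert _ _)
  · -- the block at `v0`
    intro r ξ h0
    refine killsBlock_singleton (P r) fun d => ?_
    rw [show (P r).loc v0 = sphKer hv0 (oddP r) from kerK_upd_v0 G σ t hv0 hw0 hpn ht r]
    refine tsum_sph_fibre hv0 (oddP r) (m := nn ξ) ?_ ?_ h0 d
    · simp [nn, α]
    · have := ξ.2
      simp only [nn]; omega
  · -- the block at `v3`
    intro r ξ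
    refine killsBlock_singleton (P r) fun d => ?_
    rw [show (P r).loc v3 =
      eKer G.norm_v3 (Set.mem_insert v3 _) by change dite _ _ _ = _; rw [dif_pos rfl]]
    exact tsum_cusp_fibre (cuspLoc_eKer _ _) (hξ1 ξ) d
  · exact fun r n => ctil_oddP_conj _ r n
  · intro r s x y
    have h := PKer.val_linear (P₁ := P r) (P₂ := P s) (P := P (r + s)) (v := v0) 1 1
      (fun u hu => kerK_upd_ne G σ t hv0 hw0 hu _ _) (fun u hu => kerK_upd_ne G σ t hv0 hw0 hu _ _)
        (kerK_upd_arch G σ t hv0 hw0 _ _) (kerK_upd_arch G σ t hv0 hw0 _ _)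
      (fun a b => by
        simp only [show ∀ r, (P r).loc v0 = sphKer hv0 (oddP r) from
          kerK_upd_v0 G σ t hv0 hw0 hpn ht, one_mul, sphKer_apply, kern_oddP_add]) x y
    simpa using h
  · intro a r x y
    have h := PKer.val_linear (P₁ := P r) (P₂ := P r) (P := P (a • r)) (v := v0) (a : ℂ) 0
      (fun u hu => kerK_upd_ne G σ t hv0 hw0 hu _ _) (fun u hu => kerK_upd_ne G σ t hv0 hw0 hu _ _)
        (kerK_upd_arch G σ t hv0 hw0 _ _) (kerK_upd_arch G σ t hv0 hw0 _ _)
      (fun a' b => by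
        simp only [show ∀ r, (P r).loc v0 = sphKer hv0 (oddP r) from
          kerK_upd_v0 G σ t hv0 hw0 hpn ht, zero_mul, add_zero, sphKer_apply, kern_oddP_smul]) x y
    simpa using h

end Small

end Fermat.LT
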