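import Fermat.Agent.LT.HypSplit
import Fermat.Agent.LT.HypK
import Fermat.Agent.LT.Elliptic

/-!
# The density of the non-elliptic part on the large field

The twisted classes which are not elliptic are, where the kernel is not zero, twisted conjugates of
`diag (α, 1)` with rational norm of odd valuation at `v0`.
-/

set_option autoImplicit false
open IsDedekindDomain NumberField MeasureTheory Filter Set Polynomial
open scoped Classical Matrix ComplexConjugate

namespace Fermat.LT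

variable {K L : Type} [Field K] [NumberField K] [Field L] [NumberField L] [Algebra K L]
  {σ : L ≃ₐ[K] L} {v3 v0 : Place K}

section Cubic

variable (hc : Cyc3 K L σ)
include hc

/-- An element of norm `1` in a cubic extension has the form `t / σ t`. -/
lemma cubic_h90 {x : L} (hx : x * σ x * σ (σ x) = 1) : ∃ t : L, t ≠ 0 ∧ x * σ t = t := by
  obtain ⟨θ, hθ⟩ : ∃ θ, σ θ ≠ θ := by
    by_contra h
    simp only [not_exists, not_not] at h
    exact hc.ne_one (AlgEquiv.ext h)
  set y : L → L := fun z => z + x * σ z + x * σ x * σ (σ z) with hy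
  have hrel : ∀ z, x * σ (y z) = y z := fun z => by
    simp only [hy, map_add, map_mul]
    rw [hc.apply_three z]
    linear_combination z * hx
  by_contra hno
  simp only [not_exists, not_and] at hno
  have hy0 : ∀ z, z + x * σ z + x * σ x * σ (σ z) = 0 := fun z => by
    by_contra h
    exact hno _ h (hrel z)
  have h1 := hy0 1
  have h2 := hy0 θ
  have h3 := hy0 (θ * θ)
  simp only [map_one, map_mul, mul_one] at h1 h2 h3
  have hne2 : σ (σ θ) - θ ≠ 0 := sub_ne_zero.2 fun h => hθ (by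
    conv_lhs => rw [← h]
    exact hc.apply_three θ)
  have hne3 : σ (σ θ) - σ θ ≠ 0 := sub_ne_zero.2 fun h => hθ (σ.injective h)
  have hx0 : x ≠ 0 := by rintro rfl; simp at hx
  have key : x * σ x * ((σ (σ θ) - θ) * (σ (σ θ) - σ θ)) = 0 := by
    linear_combination h3 - (σ θ + θ) * h2 + σ θ * θ * h1
  exact mul_ne_zero (mul_ne_zero hx0 (by simpa using hx0)) (mul_ne_zero hne2 hne3) key

omit hc [NumberField K] [NumberField L] in
/-- The twisted norm of `diag (α, 1)` is `diag (ξ, 1)`, `ξ` the norm of `α`. -/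
lemma twistN_upMat {α : Lˣ} {ξ : Kˣ} (h : (α : L) * σ α * σ (σ α) = algebraMap K L ξ) :
    twistN (σ : L ≃+* L) (upMat α 0) = iGL K L (upMat ξ 0) := by
  refine Units.ext ?_
  rw [twistN, mapGL_upMat, mapGL_upMat, upMat_mul, upMat_mul, coe_iGL, coe_upMat, coe_upMat]
  ext i j
  fin_cases i <;> fin_cases j <;> simp [h]

/-- Matrices commuting up to the twist with a diagonal one are diagonal. -/
lemma diagonal_of_twist {m : Matrix (Fin 2) (Fin 2) L} (hdet : m.det ≠ 0) {l₁ l₂ : L} (hl : l₁ ≠ l₂)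
    (h : m * !![σ l₁, 0; 0, σ l₂] = !![l₁, 0; 0, l₂] * m) :
    σ l₁ = l₁ ∧ σ l₂ = l₂ ∧ m 0 1 = 0 ∧ m 1 0 = 0 := by
  have e00 := congrFun (congrFun h 0) 0
  have e01 := congrFun (congrFun h 0) 1
  have e10 := congrFun (congrFun h 1) 0
  have e11 := congrFun (congrFun h 1) 1
  simp [Matrix.mul_apply, mul_comm] at e00 e01 e10 e11
  rw [Matrix.det_fin_two] at hdet
  by_cases h00 : m 0 0 = 0
  · exfalso
    have h01 : m 0 1 ≠ 0 := fun h0 => hdet (by rw [h00, h0]; ring)
    have h10 : m 1 0 ≠ 0 := fun h0 => hdet (by rw [h00, h0]; ring)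
    have a1 : σ l₂ = l₁ := mul_left_cancel₀ h01 (e01.trans (mul_comm _ _))
    have a2 : σ l₁ = l₂ := mul_left_cancel₀ h10 (e10.trans (mul_comm _ _))
    have : σ (σ l₁) = l₁ := by rw [a2, a1]
    have a3 : σ l₁ = l₁ := by
      conv_lhs => rw [← this]
      exact hc.apply_three l₁
    exact hl (a3 ▸ a2)
  · have a1 : σ l₁ = l₁ := mul_left_cancel₀ h00 (e00.trans (mul_comm _ _))
    have h01 : m 0 1 = 0 := by
      by_contra h01
      have a2 : σ l₂ = l₁ := mul_left_cancel₀ h01 (e01.trans (mul_comm _ _))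
      exact hl (σ.injective (a1.trans a2.symm))
    have h11 : m 1 1 ≠ 0 := fun h0 => hdet (by rw [h01, h0]; ring)
    have a4 : σ l₂ = l₂ := mul_left_cancel₀ h11 (e11.trans (mul_comm _ _))
    refine ⟨a1, a4, h01, ?_⟩
    by_contra h10
    exact hl (a1.symm.trans (mul_left_cancel₀ h10 (e10.trans (mul_comm _ _))))

/-- An element of norm other than one fixes no nonzero vector up to the twist. -/
lemma eq_zero_of_twist_fixed {c x : L} (hN : c * σ c * σ (σ c) ≠ 1) (h : σ x * c = x) : x = 0 := by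
  by_contra hx
  have hσx : σ x ≠ 0 := by simpa using hx
  have hσσx : σ (σ x) ≠ 0 := by simpa using hx
  have h1 := congrArg σ h
  have h2 := congrArg σ h1
  rw [map_mul] at h1 h2
  rw [map_mul, hc.apply_three] at h2
  refine hN (mul_left_cancel₀ (mul_ne_zero (mul_ne_zero hx hσx) hσσx) ?_)
  linear_combination (σ (σ x) * σ c * x * σ (σ c)) * h + (x * x * σ (σ c)) * h1 + (x * σ x) * h2

/-- Twisting does not change the norm. -/
lemma twNorm_eq_of_twist {c c' s : L} (hs : s ≠ 0) (h : c' * σ s = s * c) :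
    c' * σ c' * σ (σ c') = c * σ c * σ (σ c) := by
  refine mul_right_cancel₀ (mul_ne_zero (mul_ne_zero hs (show σ s ≠ 0 by simpa using hs))
    (show σ (σ s) ≠ 0 by simpa using hs)) ?_
  have h1 := congrArg σ h
  have h2 := congrArg σ h1
  rw [map_mul, map_mul] at h1
  rw [map_mul, map_mul, map_mul, map_mul, hc.apply_three] at h2
  calc c' * σ c' * σ (σ c') * (s * σ s * σ (σ s)) =
         (c' * σ s) * (σ c' * σ (σ s)) * (σ (σ c') * s) := by ring
    _ = _ := by rw [h, h1, h2]; ring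

/-- The norm of a unit comes from `K`. -/
lemma exists_norm_unit (a : Lˣ) : ∃ ξ : Kˣ, algebraMap K L ξ = (a : L) * σ a * σ (σ a) := by
  obtain ⟨x, hx⟩ := hc.fix (x := (a : L) * σ a * σ (σ a)) (by
    simp only [map_mul]
    rw [hc.apply_three]
    ring)
  exact ⟨Units.mk0 x fun h0 => by simp [h0] at hx, hx⟩

/-- Scalars of equal norm give twist-conjugate diagonal matrices. -/
lemma exists_twist_conj {a b : Lˣ} (h : (b : L) * σ b * σ (σ b) = (a : L) * σ a * σ (σ a)) :
    ∃ s : Lˣ, upMat s (0 : L) * upMat b 0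
      = upMat a 0 * upMat (Units.map ((σ : L ≃+* L) : L →+* L).toMonoidHom s) 0 := by
  obtain ⟨s, hs, hs'⟩ := cubic_h90 hc (x := (a : L) / b) (by
    simp only [map_div₀, div_mul_div_comm]
    rw [h, div_self]
    simp)
  refine ⟨Units.mk0 s hs, ?_⟩
  rw [upMat_mul, upMat_mul]
  congr 1
  · refine Units.ext ?_
    rw [Units.val_mul, Units.val_mul]
    change s * (b : L) = (a : L) * σ s
    rw [div_mul_eq_mul_div, div_eq_iff b.ne_zero] at hs'
    exact hs'.symm
  · simp

/-- A twisted class with split, separable norm is twisted-conjugate to a diagonal one. -/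
lemma exists_twist_diagonal (g : GL (Fin 2) L)
    (hsq : IsSquare (disc2 (twistN (σ : L ≃+* L) g : Matrix (Fin 2) (Fin 2) L)))
    (hne : disc2 (twistN (σ : L ≃+* L) g : Matrix (Fin 2) (Fin 2) L) ≠ 0) :
    ∃ (h : GL (Fin 2) L) (a b : Lˣ),
      g = h * (scal b * upMat (a * b⁻¹) 0) * (mapGL (σ : L ≃+* L) h)⁻¹ ∧
      (twistN (σ : L ≃+* L) g : Matrix (Fin 2) (Fin 2) L).det
        = (a : L) * σ a * σ (σ a) * ((b : L) * σ b * σ (σ b)) := by
  set τ : L ≃+* L := (σ : L ≃+* L)
  -- diagonalise the norm; the conjugated class then commutes with it up to `τ`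
  obtain ⟨h, l₁, l₂, hl, he⟩ := exists_diagonal hsq hne
  set D : GL (Fin 2) L := scal l₂ * upMat (l₁ * l₂⁻¹) 0
  have hD : (D : Matrix (Fin 2) (Fin 2) L) = !![(l₁ : L), 0; 0, (l₂ : L)] :=
    coe_scal_mul_upMat_div l₁ l₂
  have hND : twistN τ g * h = h * D := Units.ext (by rw [Units.val_mul, he, Units.val_mul, hD])
  obtain ⟨m, hm⟩ : ∃ m, m = h⁻¹ * g * mapGL τ h := ⟨_, rfl⟩
  have hNm : twistN τ m = D := by
    have := twistN_cobound hc h⁻¹ g
    rw [map_inv, inv_inv, inv_inv] at this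
    rw [hm, this, mul_assoc, hND, inv_mul_cancel_left]
  have hcomm : m * mapGL τ D = D * m := by
    rw [← hNm, mapGL_twistN hc, mul_assoc, mul_inv_cancel_left]
  have hcomm' := congrArg (fun x : GL (Fin 2) L => (x : Matrix (Fin 2) (Fin 2) L)) hcomm
  simp only [Units.val_mul, coe_mapGL, hD] at hcomm'
  obtain ⟨s1, s2, m01, m10⟩ := diagonal_of_twist hc m.det_ne_zero (fun e => hl (Units.ext e)) (by
    rw [← hcomm']
    congr 1
    ext i j
    fin_cases i <;> fin_cases j <;> simp [τ])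
  have hmdet := m.det_ne_zero
  rw [Matrix.det_fin_two, m01, m10, mul_zero, sub_zero] at hmdet
  -- its entries have the prescribed norms
  set a : Lˣ := Units.mk0 _ (left_ne_zero_of_mul hmdet)
  set b : Lˣ := Units.mk0 _ (right_ne_zero_of_mul hmdet)
  have hmab : m = scal b * upMat (a * b⁻¹) 0 := by
    refine Units.ext ?_
    rw [coe_scal_mul_upMat_div]
    ext i j
    fin_cases i <;> fin_cases j <;> simp [m01, m10, a, b]
  have hDe := congrArg (fun x : GL (Fin 2) L => (x : Matrix (Fin 2) (Fin 2) L)) hNm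
  simp only [twistN, Units.val_mul, coe_mapGL, hD] at hDe
  have n1 : (a : L) * σ a * σ (σ a) = l₁ := by
    have := congrFun (congrFun hDe 0) 0
    simpa [Matrix.mul_apply, m01, m10, a, τ] using this
  have n2 : (b : L) * σ b * σ (σ b) = l₂ := by
    have := congrFun (congrFun hDe 1) 1
    simpa [Matrix.mul_apply, m01, m10, b, τ] using this
  refine ⟨h, a, b, ?_, ?_⟩
  · have e' : g = h * m * (mapGL τ h)⁻¹ := by rw [hm]; group
    rw [← hmab]
    exact e'
  · rw [n1, n2]
    exact det_of_diagonalised he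

/-- The product of the absolute values over a three-cycle is that of the norm. -/
lemma prod_vabs_cycle {u : Place L} (h21 : mapPlace (σ : L ≃+* L) u ≠ u)
    (h31 : mapPlace (σ : L ≃+* L) (mapPlace (σ : L ≃+* L) u) ≠ u)
    (h32 : mapPlace (σ : L ≃+* L) (mapPlace (σ : L ≃+* L) u) ≠ mapPlace (σ : L ≃+* L) u) (x : L) :
    ∏ w ∈ ({u, mapPlace (σ : L ≃+* L) u, mapPlace (σ : L ≃+* L) (mapPlace (σ : L ≃+* L) u)} :
      Finset (Place L)),
      vabs w x = vabs u (x * σ x * σ (σ x)) := by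
  rw [map_mul, map_mul, Finset.prod_insert (by simpa using ⟨h21.symm, h31.symm⟩),
    Finset.prod_pair h32.symm]
  set τ : L ≃+* L := (σ : L ≃+* L)
  set u1 := mapPlace τ u
  set u2 := mapPlace τ u1
  have a2 : vabs u (σ x) = vabs u2 x := vabs_mapPlace (hc.mapPlace_three u) _
  have a1 : vabs u (σ (σ x)) = vabs u1 x :=
    (vabs_mapPlace (hc.mapPlace_three u) _).trans
      (vabs_mapPlace (τ := τ) (show mapPlace τ u1 = u2 from rfl) _)
  rw [a1, a2]
  ring

/-- The absolute values of `α` over a split place multiply to that of its norm. -/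
lemma prod_vabs_over {v : Place K} {w : Place L} (hw : LiesOver K L w v)
    (hmoved : mapPlace (σ : L ≃+* L) w ≠ w)
    (hval : ∀ x : K, vabs w (algebraMap K L x) = vabs v x) {α : L} {ξ : K}
    (hN : α * σ α * σ (σ α) = algebraMap K L ξ) :
    ∏ u ∈ (hc.finite_placesOver v).toFinset, vabs u α = vabs v ξ := by
  obtain ⟨h21, h31, h32⟩ := Split.distinct hc hmoved
  rw [← hval, ← hN, ← prod_vabs_cycle hc h21 h31 h32]
  refine Finset.prod_congr ?_ fun _ _ => rfl
  ext u
  simp only [Set.Finite.mem_toFinset, hc.placesOver_eq hw, Finset.mem_insert, Finset.mem_singleton]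
  rfl

/-- Inverse norms give twist partners. -/
lemma exists_twist_inv {a b : Lˣ}
    (h : (a : L) * σ a * σ (σ a) * ((b : L) * σ b * σ (σ b)) = 1) :
    ∃ s : L, s ≠ 0 ∧ (a : L) * ((b : L) * σ s) = s := by
  obtain ⟨s, hs, hs'⟩ := cubic_h90 hc (x := (a : L) * b) (by
    simp only [map_mul]
    linear_combination h)
  exact ⟨s, hs, by rw [← mul_assoc]; exact hs'⟩

/-- A twisted class with split norm of odd valuation has the shape `k · diag (α, 1) · τ k⁻¹` up to a
scalar, with `α` of odd norm. -/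
lemma exists_twist_class {v : Place K} {w : Place L}
    (hord : ∀ x : K, ord (w.valuation L) (algebraMap K L x) = ord (v.valuation K) x)
    (g : GL (Fin 2) L)
    (hsq : IsSquare (disc2 (twistN (σ : L ≃+* L) g : Matrix (Fin 2) (Fin 2) L)))
    (hodd : ord (w.valuation L) (twistN (σ : L ≃+* L) g : Matrix (Fin 2) (Fin 2) L).det % 2 = 1) :
    ∃ ξ : Kˣ, ord (v.valuation K) (ξ : K) % 2 = 1 ∧
      (∃ α : Lˣ, (α : L) * σ α * σ (σ α) = algebraMap K L ξ) ∧
      ∀ α : Lˣ, (α : L) * σ α * σ (σ α) = algebraMap K L ξ → ∃ (k : GL (Fin 2) L) (b : Lˣ),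
        g = scal b * (k * upMat α 0 * (mapGL (σ : L ≃+* L) k)⁻¹) := by
  set τ : L ≃+* L := (σ : L ≃+* L)
  obtain ⟨h, a, b, hgab, hdet⟩ := exists_twist_diagonal hc g hsq (disc_ne_zero_of_odd _ hodd)
  obtain ⟨ξa, hξa⟩ := exists_norm_unit hc a
  obtain ⟨ξb, hξb⟩ := exists_norm_unit hc b
  have hab : ((a * b⁻¹ : Lˣ) : L) * σ (a * b⁻¹ : Lˣ) * σ (σ ((a * b⁻¹ : Lˣ) : L))
      = algebraMap K L ((ξa * ξb⁻¹ : Kˣ) : K) := by
    simp only [Units.val_mul, Units.val_inv_eq_inv_val, map_mul, map_inv₀, hξa, hξb, mul_inv]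
    ring
  rw [hdet, ← hξa, ← hξb, ← map_mul, hord, ord_mul _ ξa.ne_zero ξb.ne_zero] at hodd
  refine ⟨ξa * ξb⁻¹, ?_, ⟨a * b⁻¹, hab⟩, fun α hα => ?_⟩
  · rw [Units.val_mul, Units.val_inv_eq_inv_val, ord_mul _ ξa.ne_zero (inv_ne_zero ξb.ne_zero),
      ord_inv]
    omega
  · obtain ⟨su, hsu⟩ : ∃ su : Lˣ, upMat su (0 : L) * upMat α 0
        = upMat (a * b⁻¹) 0 * upMat (Units.map (τ : L →+* L).toMonoidHom su) 0 :=
      exists_twist_conj hc (hα.trans hab.symm)
    refine ⟨h * upMat su 0, b, ?_⟩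
    rw [map_mul, mapGL_upMat, mul_inv_rev, mul_assoc h, hsu,
      show g = h * (scal b * upMat (a * b⁻¹) 0) * (mapGL τ h)⁻¹ from hgab]
    simp only [← mul_assoc, ← scal_comm b h]
    group

end Cubic

/-- The normalised absolute value at a split place restricts. -/
lemma vabs_algebraMap_split {w : Place L} {v : Place K} (hw : LiesOver K L w v) (he : ramE v w = 1)
    (hpn : pnorm w = pnorm v) (x : K) : vabs w (algebraMap K L x) = vabs v x := by
  rcases eq_or_ne x 0 with rfl | hx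
  · simp
  rw [vabs_eq w ((_root_.map_ne_zero _).2 hx), vabs_eq v hx, hpn, ord, ord, Split.val_iota hw he]

section Keeps

variable {S : Set (Place L)} (hS : Stable (σ : L ≃+* L) S)
  (P : ∀ u : Place L, LKer S u) {w : Place L}

omit [NumberField K] in
/-- An identity kernel at `σ w` keeps heights when pulled back to `w`. -/
lemma keepsHeight_k2_one (h : P (mapPlace (σ : L ≃+* L) w) = LKer.one S _) :
    KeepsHeight (Split.k2 (w := w) hS P) := by
  intro a b hab
  erw [Split.k2, LKer.pull_apply, h, LKer.one_apply, ne_eq, ite_eq_right_iff,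
    Classical.not_imp] at hab
  rw [Vert.fmap_injective _ _ _ hab.1]

omit [NumberField K] in
/-- An identity kernel at `σ² w` keeps heights when pulled back to `w`. -/
lemma keepsHeight_k3_one
    (h : P (mapPlace (σ : L ≃+* L) (mapPlace (σ : L ≃+* L) w)) = LKer.one S _) :
    KeepsHeight (Split.k3 (w := w) hS P) := by
  intro a b hab
  erw [Split.k3, LKer.pull_apply, LKer.pull_apply, h, LKer.one_apply, ne_eq, ite_eq_right_iff,
    Classical.not_imp] at hab
  rw [Vert.fmap_injective _ _ _ (Vert.fmap_injective _ _ _ hab.1)]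

omit [NumberField K] in
/-- The cuspidal idempotent at `σ w` keeps heights when pulled back to `w`. -/
lemma keepsHeight_k2_eKer (h0 : w ∈ S) (n0 : pnorm w = 3) (h1 : mapPlace (σ : L ≃+* L) w ∈ S)
    (n1 : pnorm (mapPlace (σ : L ≃+* L) w) = 3) (h : P (mapPlace (σ : L ≃+* L) w) = eKer n1 h1) :
    KeepsHeight (Split.k2 (w := w) hS P) := by
  erw [Split.k2, h, LKer.pull_eKer _ _ _ h0 h1 n0 n1]
  exact keepsHeight_eKer _ _

omit [NumberField K] in
/-- The cuspidal idempotent at `σ² w` keeps heights when pulled back to `w`. -/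
lemma keepsHeight_k3_eKer (h0 : w ∈ S) (n0 : pnorm w = 3) (h1 : mapPlace (σ : L ≃+* L) w ∈ S)
    (n1 : pnorm (mapPlace (σ : L ≃+* L) w) = 3)
    (h2 : mapPlace (σ : L ≃+* L) (mapPlace (σ : L ≃+* L) w) ∈ S)
    (n2 : pnorm (mapPlace (σ : L ≃+* L) (mapPlace (σ : L ≃+* L) w)) = 3)
    (h : P (mapPlace (σ : L ≃+* L) (mapPlace (σ : L ≃+* L) w)) = eKer n2 h2) :
    KeepsHeight (Split.k3 (w := w) hS P) := by
  erw [Split.k3, h, LKer.pull_eKer _ _ _ h1 h2 n1 n2, LKer.pull_eKer _ _ _ h0 h1 n0 n1]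
  exact keepsHeight_eKer _ _

end Keeps

section Large

variable (G : GeoData K L v3) [Finite (levK L v3)] [Finite (placesOver K L v3)]
  (hS : Stable (σ : L ≃+* L) (placesOver K L v3))

/-- The block over one place. -/
lemma killsBlock_over (hc : Cyc3 K L σ) (t : TestData K L v3) {v : Place K}
    {w : Place L} (hw : LiesOver K L w v) (he : ramE v w = 1) (hn : pnorm w = pnorm v)
    (hmoved : mapPlace (σ : L ≃+* L) w ≠ w) (hlev : v ∈ levK L v3 ↔ w ∈ placesOver K L v3)
    (hk2 : KeepsHeight (Split.k2 (w := w) hS (kerL G t).loc))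
    (hk3 : KeepsHeight (Split.k3 (w := w) hS (kerL G t).loc)) {α : Lˣ} {ξ : Kˣ}
    (hN : (α : L) * σ α * σ (σ α) = algebraMap K L ξ) (hξ : ξ ≠ 1)
    (hkill : ∀ d : ℝ, ∑' a : {a : Vert (levK L v3) v // nloc v (eInf : Fin 2 → K) a = d},
      (kerK G σ t).loc v a.1 (upMat ξ 0 • a.1) = 0) :
    KillsBlock (kerL G t) hS α (hc.finite_placesOver v).toFinset := by
  intro ν
  set B := (hc.finite_placesOver v).toFinset
  have hB : ∀ {u : Place L}, u ∈ B ↔ u ∈ placesOver K L v := Set.Finite.mem_toFinset _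
  set c : placesOver K L v → ℝ := fun u => nloc u.1 (eInf : Fin 2 → L) (ν.1 u.1)
  -- families over `v` correspond to points differing from `ν` only in the block
  let glue : OverPt K (placesOver K L v3) v → FinPt L (placesOver K L v3) := fun x =>
    ⟨fun u => if h : u ∈ placesOver K L v then x ⟨u, h⟩ else ν.1 u, by
      filter_upwards [(hc.finite_placesOver v).compl_mem_cofinite, ν.2] with u hu hν
      rw [dif_neg (show u ∉ placesOver K L v from hu)]
      exact hν⟩
  let e : {μ : FinPt L (placesOver K L v3) // (∀ u ∉ B, μ.1 u = ν.1 u) ∧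
      ∀ u ∈ B, nloc u (eInf : Fin 2 → L) (μ.1 u) = nloc u (eInf : Fin 2 → L) (ν.1 u)} ≃
      {x : OverPt K (placesOver K L v3) v // ∀ u : placesOver K L v,
          nloc u.1 (eInf : Fin 2 → L) (x u) = c u} :=
    { toFun := fun μ => ⟨fun u => μ.1.1 u.1, fun u => μ.2.2 u.1 (hB.2 u.2)⟩
      invFun := fun x => ⟨glue x.1, fun u hu => dif_neg (fun h => hu (hB.2 h)), fun u hu => by
        change nloc u _ (dite _ _ _) = _
        rw [dif_pos (hB.1 hu)]
        exact x.2 ⟨u, hB.1 hu⟩⟩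
      left_inv := fun μ => Subtype.ext (Subtype.ext (funext fun u => by
        change dite _ _ _ = _
        split_ifs with h
        · rfl
        · exact (μ.2.1 u fun h' => h (hB.1 h')).symm))
      right_inv := fun x => Subtype.ext (funext fun u => dif_pos u.2) }
  set δ : GL (Fin 2) L := upMat α 0
  set Cst : ℂ := ∏ᶠ (v' : Place K) (_ : v' ≠ v),
    OverPt.val hS (kerL G t).loc δ ((fun u => ν.1 u.1) : OverPt K (placesOver K L v3) v')
  -- the kernel value factors into the block and the other places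
  have key : ∀ x : OverPt K (placesOver K L v3) v,
      (kerL G t).fin (glue x) (δ • FinPt.amap hS (glue x))
      = Cst * OverPt.val hS (kerL G t).loc δ x := by
    intro x
    have hfin := (kerL G t).mulSupport_finite (glue x) (δ • FinPt.amap hS (glue x))
    set F : Place K → ℂ := fun v' =>
      OverPt.val hS (kerL G t).loc δ ((fun u => (glue x).1 u.1) : OverPt K (placesOver K L v3) v')
    have hF : (Function.mulSupport F).Finite := by
      refine (eventually_cofinite.1 (eventually_over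
        (P := fun u => (kerL G t).loc u ((glue x).1 u) ((δ • FinPt.amap hS (glue x)).1 u) = 1)
        (eventually_cofinite.2 hfin))).subset fun v' hv' h => hv' ?_
      exact finprod_eq_one_of_forall_eq_one fun u => h u
    change ∏ᶠ u, (kerL G t).loc u ((glue x).1 u) ((δ • FinPt.amap hS (glue x)).1 u) = _
    rw [finprod_below (K := K) hc _ hfin]
    change ∏ᶠ v', F v' = _
    rw [← mul_finprod_cond_ne v hF, mul_comm]
    refine congrArg₂ (· * ·) (finprod_congr fun v' => finprod_congr fun hv' => ?_) ?_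
    · refine congrArg (OverPt.val hS (kerL G t).loc δ) (funext fun u => ?_)
      exact dif_neg fun h => hv' (LiesOver.unique u.2 h)
    · exact congrArg (OverPt.val hS (kerL G t).loc δ) (funext fun u => dif_pos u.2)
  rw [← e.symm.tsum_eq]
  refine (tsum_congr fun x : {x : OverPt K (placesOver K L v3) v // ∀ u : placesOver K L v,
    nloc u.1 (eInf : Fin 2 → L) (x u) = c u} => key x.1).trans ?_
  rw [tsum_mul_left, Split.tsum_fibre_zero hc hw he hn hmoved hlev hS (kerL G t).loc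
    (twistN_upMat hN) hξ hk2 hk3
    (fun d => by rw [split_comp hS hc G hw he hn hmoved hlev t]; exact hkill d) c, mul_zero]

variable (t : TestData K L v3) (hv0 : v0 ∉ levK L v3) {w0 : Place L} (hw0 : LiesOver K L w0 v0)

omit [Finite (levK L v3)] [Finite (placesOver K L v3)] [NumberField K] in
/-- The places over `v0` are not over `v3`. -/
lemma notMem_over_v0 {w : Place L} (hv0 : v0 ∉ levK L v3) (hw : LiesOver K L w v0) :
    w ∉ placesOver K L v3 := fun h => hv0 (hw.unique h ▸ Set.mem_insert _ _)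

omit [Finite (levK L v3)] [Finite (placesOver K L v3)] in
/-- Off `w0` the updated kernel does not depend on the polynomial. -/
lemma kerL_upd_ne {w : Place L} (hw : w ≠ w0) (p p' : ℂ[X]) :
    (kerL G (t.upd hv0 hw0 p)).loc w = (kerL G (t.upd hv0 hw0 p')).loc w := by
  change dite _ _ _ = dite _ _ _
  have e : ∀ q, (t.upd hv0 hw0 q).h w = t.h w := fun q => Function.update_of_ne hw _ _
  rw [e, e]

omit [Finite (levK L v3)] [Finite (placesOver K L v3)] in
/-- At `w0` the updated kernel is the spherical kernel of the polynomial. -/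
lemma kerL_upd_self (p : ℂ[X]) :
    (kerL G (t.upd hv0 hw0 p)).loc w0 = sphKer (notMem_over_v0 hv0 hw0) p := by
  rw [kerL_loc_sph (notMem_over_v0 hv0 hw0)]
  exact congrArg _ (Function.update_self (β := fun _ => ℂ[X]) w0 p t.h)

variable (hpn : pnorm w0 = pnorm v0) (ht : ∀ w, LiesOver K L w v0 → t.h w = 1)

omit [Finite (levK L v3)] [Finite (placesOver K L v3)] in
include ht in
/-- At the other places over `v0` it is the identity. -/
lemma kerL_upd_one {w : Place L} (hw : LiesOver K L w v0) (hne : w ≠ w0) (p : ℂ[X]) :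
    (kerL G (t.upd hv0 hw0 p)).loc w = LKer.one _ w := by
  rw [kerL_loc_sph (notMem_over_v0 hv0 hw), show (t.upd hv0 hw0 p).h w = 1 from
    (Function.update_of_ne hne _ _).trans (ht w hw), sphKer_one]

omit [Finite (levK L v3)] in
include ht in
/-- Where the kernel at an odd polynomial is not zero the twisted norm has odd valuation. -/
lemma odd_det_twistN_of_ne_zero (hc : Cyc3 K L σ) (hmoved : mapPlace (σ : L ≃+* L) w0 ≠ w0)
    (r : ℝ[X])
    (g : GL (Fin 2) L) (p : Pt L (placesOver K L v3))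
    (hne : ∀ u, (kerL G (t.upd hv0 hw0 (oddP r))).loc u (p.1.1 u) ((g • Pt.amap hS p).1.1 u) ≠ 0) :
    ord (w0.valuation L) (twistN (σ : L ≃+* L) g : Matrix (Fin 2) (Fin 2) L).det % 2 = 1 := by
  set τ : L ≃+* L := (σ : L ≃+* L)
  obtain ⟨h21, h31, -⟩ := Split.distinct hc hmoved
  set w1 := mapPlace τ w0
  set w2 := mapPlace τ w1
  have hw1 : LiesOver K L w1 v0 := hw0.mapPlace σ
  have hw2 : LiesOver K L w2 v0 := hw1.mapPlace σ
  have hwS := notMem_over_v0 hv0 hw0
  have hat : ∀ {u u' : Place L} (h : mapPlace τ u = u'),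
      (g • Pt.amap hS p).1.1 u' = g • Vert.amap hS h (p.1.1 u) :=
    fun {u u'} h => by
      obtain rfl : u = (mapPlace τ).symm u' := by rw [← h, Equiv.symm_apply_apply]
      rfl
  have h3 : mapPlace τ w2 = w0 := hc.mapPlace_three w0
  have f1 := hne w1
  have f2 := hne w2
  have f0 := hne w0
  rw [show (kerL G (t.upd hv0 hw0 (oddP r))).loc w1 = LKer.one _ w1
    from kerL_upd_one G t hv0 hw0 ht hw1 h21 _, hat (u := w0) rfl,
    LKer.one_apply, ne_eq, ite_eq_right_iff, Classical.not_imp] at f1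
  rw [show (kerL G (t.upd hv0 hw0 (oddP r))).loc w2 = LKer.one _ w2
    from kerL_upd_one G t hv0 hw0 ht hw2 h31 _, hat (u := w1) rfl,
    LKer.one_apply, ne_eq, ite_eq_right_iff, Classical.not_imp] at f2
  rw [show (kerL G (t.upd hv0 hw0 (oddP r))).loc w0 = sphKer hwS (oddP r)
    from kerL_upd_self G t hv0 hw0 _, hat (u := w2) h3,
    f2.1, f1.1] at f0
  simp only [Vert.amap_smul, amap_cycle hc hS] at f0
  rw [← mul_smul, ← mul_smul] at f0
  exact odd_of_sph_ne_zero hwS r (twistN τ g) _ f0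

omit [NumberField K] [Finite (levK L v3)] in
/-- The partial kernel function in the two notations. -/
lemma kapOn_eq_partFun (Q : PKer L (placesOver K L v3)) (p : Pt L (placesOver K L v3)) :
    Q.kapOn (fun γ => ¬ γ.IsTwEll (σ : L ≃+* L)) p (Pt.amap hS p)
      = partFun hS (fun γ => ¬ TwP σ γ) Q p := by
  rw [partFun, PKer.kapOn]
  refine tsum_congr fun γ => ?_
  simp only [TwP, twVal]
  congr

include hpn ht in
/-- The block over `v0` kills the odd classes. -/
lemma killsBlock_over_v0 [IsTotallyComplex L] (hc : Cyc3 K L σ) (he0 : ramE v0 w0 = 1)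
    (hmoved : mapPlace (σ : L ≃+* L) w0 ≠ w0) (r : ℝ[X]) {α : Lˣ} {ξ : Kˣ}
    (hN : (α : L) * σ α * σ (σ α) = algebraMap K L ξ) (hodd : ord (v0.valuation K) (ξ : K) % 2 = 1)
    (h0 : ctil (pnorm v0) (kern (pnorm v0) (oddP r)) (ord (v0.valuation K) (ξ : K)).natAbs = 0) :
    KillsBlock (kerL G (t.upd hv0 hw0 (oddP r))) hS α (hc.finite_placesOver v0).toFinset := by
  obtain ⟨h21, h31, -⟩ := Split.distinct hc hmoved
  have hw1 := hw0.mapPlace σ
  have hξ1 : ξ ≠ 1 := fun h => by rw [h, Units.val_one, ord_one] at hodd; omega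
  have hlev : v0 ∈ levK L v3 ↔ w0 ∈ placesOver K L v3 :=
    ⟨fun h => absurd h hv0, fun h => absurd h (notMem_over_v0 hv0 hw0)⟩
  refine killsBlock_over G hS hc (t.upd hv0 hw0 (oddP r)) hw0 he0 hpn hmoved hlev
    (keepsHeight_k2_one hS _ (kerL_upd_one G t hv0 hw0 ht hw1 h21 _))
    (keepsHeight_k3_one hS _ (kerL_upd_one G t hv0 hw0 ht (hw1.mapPlace σ) h31 _))
    hN hξ1 fun d => ?_
  rw [kerK_upd_v0 G σ t hv0 hw0 hpn ht r]
  refine tsum_sph_fibre hv0 (oddP r) ?_ ?_ h0 d
  · simp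
  · omega

/-- The block over `v3` kills the classes with `ξ ≠ 1`. -/
lemma killsBlock_over_v3 [IsTotallyComplex L] (hc : Cyc3 K L σ) (r : ℝ[X]) {α : Lˣ} {ξ : Kˣ}
    (hN : (α : L) * σ α * σ (σ α) = algebraMap K L ξ) (hξ1 : ξ ≠ 1) :
    KillsBlock (kerL G (t.upd hv0 hw0 (oddP r))) hS α (hc.finite_placesOver v3).toFinset := by
  set τ : L ≃+* L := (σ : L ≃+* L)
  obtain ⟨u3, hu3⟩ := exists_liesOver (L := L) v3
  obtain ⟨-, he3, hn3, hmv3⟩ | ⟨h1, -⟩ := hc.trichotomy hu3
  swap
  · rw [G.split] at h1; omega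
  have hlev3 : v3 ∈ levK L v3 ↔ u3 ∈ placesOver K L v3 := iff_of_true (Set.mem_insert _ _) hu3
  have m1 : mapPlace τ u3 ∈ placesOver K L v3 := hu3.mapPlace σ
  have m2 : mapPlace τ (mapPlace τ u3) ∈ placesOver K L v3 := (hu3.mapPlace σ).mapPlace σ
  have hl : ∀ {u : Place L} (hu : u ∈ placesOver K L v3),
      (kerL G (t.upd hv0 hw0 (oddP r))).loc u = eKer (G.norm_w3 u hu) hu := fun hu => dif_pos hu
  refine killsBlock_over G hS hc (t.upd hv0 hw0 (oddP r)) hu3 he3 hn3 hmv3 hlev3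
    (keepsHeight_k2_eKer hS _ hu3 (G.norm_w3 _ hu3) m1 (G.norm_w3 _ m1) (hl m1))
    (keepsHeight_k3_eKer hS _ hu3 (G.norm_w3 _ hu3) m1 (G.norm_w3 _ m1) m2 (G.norm_w3 _ m2)
      (hl m2)) hN hξ1
    fun d => ?_
  rw [show (kerK G σ (t.upd hv0 hw0 (oddP r))).loc v3 = eKer G.norm_v3 (Set.mem_insert v3 _) by
    change dite _ _ _ = _; rw [dif_pos rfl]]
  exact tsum_cusp_fibre (cuspLoc_eKer _ _) hξ1 d

omit [Finite (levK L v3)] [Finite (placesOver K L v3)] in
/-- Values are linear in the odd polynomial. -/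
lemma val_upd_combination {r r₁ r₂ : ℝ[X]} (c₁ c₂ : ℂ)
    (h : ∀ q n, kern q (oddP r) n = c₁ * kern q (oddP r₁) n + c₂ * kern q (oddP r₂) n)
    (x y : Pt L (placesOver K L v3)) :
    (kerL G (t.upd hv0 hw0 (oddP r))).val x y = c₁ * (kerL G (t.upd hv0 hw0 (oddP r₁))).val x y
      + c₂ * (kerL G (t.upd hv0 hw0 (oddP r₂))).val x y :=
  have hk : ∀ q, (kerL G (t.upd hv0 hw0 q)).arch = t.k := fun _ => rfl
  PKer.val_linear (P₁ := kerL G (t.upd hv0 hw0 (oddP r₁))) (P₂ := kerL G (t.upd hv0 hw0 (oddP r₂)))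
    (P := kerL G (t.upd hv0 hw0 (oddP r))) (v := w0) c₁ c₂
    (fun u hu => kerL_upd_ne G t hv0 hw0 hu _ _) (fun u hu => kerL_upd_ne G t hv0 hw0 hu _ _)
    ((hk (oddP r₁)).trans (hk _).symm) ((hk (oddP r₂)).trans (hk _).symm)
    (fun a b => by simp only [kerL_upd_self, sphKer_apply, h]) x y

include hpn ht in
/-- **The large field**: the non-elliptic part of the twisted trace has a density. -/
theorem hyp_density_L (hσ : σ ≠ 1) {DL : Set (Pt L (placesOver K L v3))}
    (hDL : IsFundamentalDomain (PG L) DL ptMeasure)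
    (hI : ∀ r, IntegrableOn (fun p => (kerL G (t.upd hv0 hw0 (oddP r))).kapOn
      (fun γ => ¬ γ.IsTwEll (σ : L ≃+* L)) p (Pt.amap hS p)) DL ptMeasure) :
    HasDensity (pnorm v0) (fun r => ∫ p in DL, (kerL G (t.upd hv0 hw0 (oddP r))).kapOn
      (fun γ => ¬ γ.IsTwEll (σ : L ≃+* L)) p (Pt.amap hS p) ∂ptMeasure) := by
  have hc : Cyc3 K L σ := ⟨G.galois, G.degree, hσ⟩
  have : IsTotallyComplex K := G.totallyComplexK
  have : IsTotallyComplex L :=
    ⟨fun _ => InfinitePlace.IsComplex.of_comap (algebraMap K L) (IsTotallyComplex.isComplex _)⟩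
  set τ : L ≃+* L := (σ : L ≃+* L)
  set P : ℝ[X] → PKer L (placesOver K L v3) := fun r => kerL G (t.upd hv0 hw0 (oddP r))
  set Pr : TwPG τ → Prop := fun γ => ¬ TwP σ γ
  have e : ∀ r p, (P r).kapOn (fun γ => ¬ γ.IsTwEll τ) p (Pt.amap hS p) = partFun hS Pr (P r) p :=
    fun r p => kapOn_eq_partFun hS (P r) p
  replace hI : ∀ r, IntegrableOn (partFun hS Pr (P r)) DL ptMeasure := fun r =>
    (hI r).congr_fun_ae (Eventually.of_forall (e r))
  change HasDensity _ (fun r => ∫ p in DL,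
    (P r).kapOn (fun γ => ¬ γ.IsTwEll τ) p (Pt.amap hS p) ∂ptMeasure)
  simp only [e]
  -- `v0` is split in `L`
  obtain ⟨-, he0, -, hmv0⟩ | ⟨-, -, ⟨he', -⟩ | ⟨-, hn'⟩⟩ := hc.trichotomy hw0
  rotate_left
  · exact absurd (mem_levK_of_ram (v3 := v3) hc hw0 he') hv0
  · have h := two_le_pnorm v0
    rw [hpn] at hn'
    nlinarith [mul_le_mul h h (by norm_num) (by omega)]
  have hval := vabs_algebraMap_split hw0 he0 hpn
  have hord : ∀ x : K, ord (w0.valuation L) (algebraMap K L x) = ord (v0.valuation K) x :=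
      fun x => by
    rw [ord, ord, Split.val_iota hw0 he0]
  -- the index set
  let Ξ := {ξ : Kˣ // ord (v0.valuation K) (ξ : K) % 2 = 1 ∧
    ∃ α : Lˣ, (α : L) * σ α * σ (σ α) = algebraMap K L ξ}
  set α : Ξ → Lˣ := fun ξ => ξ.2.2.choose
  have hα : ∀ ξ : Ξ, (α ξ : L) * σ (α ξ) * σ (σ (α ξ)) = algebraMap K L ξ.1 :=
    fun ξ => ξ.2.2.choose_spec
  set nn : Ξ → ℕ := fun ξ => (ord (v0.valuation K) (ξ.1 : K)).natAbs
  have hξ1 : ∀ ξ : Ξ, ξ.1 ≠ 1 := fun ξ h => by
    have := ξ.2.1; rw [h, Units.val_one, ord_one] at this; omega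
  have hfix : ∀ (ξ : Ξ) (x : L), τ x * (α ξ : L) = x → x = 0 := fun ξ x h =>
    eq_zero_of_twist_fixed hc (by
      rw [hα, ← map_one (algebraMap K L)]
      exact fun e => hξ1 ξ (Units.ext ((algebraMap K L).injective e))) h
  set B₀ := (hc.finite_placesOver v0).toFinset
  set B₃ := (hc.finite_placesOver v3).toFinset
  obtain ⟨C, -, hC⟩ := exists_block_bound hS (P 0) B₀ (fun w => by
    simp only [B₀, Set.Finite.mem_toFinset]
    refine ⟨fun h => ?_, fun h => (show LiesOver K L w v0 from h).mapPlace σ⟩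
    have := liesOver_symm (σ := σ) (K := K) h
    rwa [Equiv.symm_apply_apply] at this)
  obtain ⟨M, hM⟩ := exists_ord_bound v0 C
  have : Countable Kˣ := Units.val_injective.countable
  have : Countable Ξ := inferInstanceAs (Countable {ξ : Kˣ // ord (v0.valuation K) (ξ : K) % 2 = 1 ∧
    ∃ α : Lˣ, (α : L) * σ α * σ (σ α) = algebraMap K L ξ})
  have hk : ∀ q, (kerL G (t.upd hv0 hw0 q)).arch = t.k := fun q => rfl
  refine hasDensity_part hS Pr α nn P hDL ?_ ?_ ?_ ?_ hfix
    (zero_lt_one.trans (HeightOneSpectrum.one_lt_absNorm v0)) M ?_ (B₀ := B₀) (B₃ := B₃) ?_ ?_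
      ?_ ?_ ?_ ?_ hI
  · exact fun δ γ => not_congr (twP_smul hc δ γ)
  · exact fun ξ => not_twP_of_upper ⟨_, rfl, by simp⟩
  · intro γ hγ
    refine ncard_diag_pairs α hfix (fun ξ ξ' s hs h => ?_) (fun ξ => ?_) hγ
    · exact (Subtype.ext (Units.ext ((algebraMap K L).injective
        ((hα ξ').symm.trans ((twNorm_eq_of_twist hc hs h).trans (hα ξ)))))).symm
    · let ξ' : Ξ := ⟨ξ.1⁻¹, by
        have := ξ.2.1
        rw [Units.val_inv_eq_inv_val, ord_inv]; omega, (α ξ)⁻¹, by
        rw [Units.val_inv_eq_inv_val, Units.val_inv_eq_inv_val, map_inv₀, map_inv₀, map_inv₀,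
          ← mul_inv, ← mul_inv, hα]⟩
      exact ⟨ξ', exists_twist_inv hc (by
        rw [hα, hα, ← map_mul, ← Units.val_mul, show ξ.1 * ξ'.1 = 1 from mul_inv_cancel ξ.1,
          Units.val_one, map_one])⟩
  · -- the classes where the kernel is not zero
    intro r γ p hPr hne
    obtain ⟨g, hg⟩ := QuotientGroup.mk_surjective γ.cls
    rw [twVal, ← hg, PG.mk_smul, PKer.val, mul_ne_zero_iff, PKer.fin_ne_zero] at hne
    have hodd := odd_det_twistN_of_ne_zero G hS t hv0 hw0 ht hc hmv0 r g p hne.1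
    have hsq : IsSquare (disc2 (twistN τ g : Matrix (Fin 2) (Fin 2) L)) := by
      by_contra h
      exact hPr (by rw [TwP, ← hg, isTwEll_iff]; exact h)
    obtain ⟨ξ, hξo, hξN, hcls⟩ := exists_twist_class hc hord g hsq hodd
    obtain ⟨k, b, hk⟩ := hcls (α ⟨ξ, hξo, hξN⟩) (hα _)
    refine ⟨⟨⟨ξ, hξo, hξN⟩, ((k : PG L) : PG L ⧸ dTor τ)⟩, ?_⟩
    change (pairPt (fun _ : Ξ => dTor τ) (fun ξ => diagCls τ (α ξ)) _).cls = γ.cls
    rw [diag_val, ← hg]
    exact PG.eq_iff.2 ⟨b, hk⟩
  · -- the block over `v0`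
    intro r ξ p hne
    obtain ⟨h1, h2⟩ := hC (P r) (fun w hw => kerL_upd_ne G t hv0 hw0 (fun e => hw (by
      rw [e]; exact (Set.Finite.mem_toFinset _).2 hw0)) _ _) ((hk _).trans (hk _).symm) (α ξ) p hne
    have hprod : ∏ w ∈ B₀, vabs w (α ξ : L) = vabs v0 (ξ.1 : K) :=
      prod_vabs_over hc hw0 hmv0 hval (hα ξ)
    rw [hprod] at h1 h2
    exact hM _ ξ.1.ne_zero h1 h2
  · refine Finset.disjoint_left.2 fun u hu hu' => hv0 ?_
    rw [Set.Finite.mem_toFinset] at hu hu'
    exact (LiesOver.unique hu hu') ▸ Set.mem_insert _ _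
  · exact fun r ξ h0 => killsBlock_over_v0 G hS t hv0 hw0 hpn ht hc he0 hmv0 r (hα ξ) ξ.2.1 h0
  · exact fun r ξ => killsBlock_over_v3 G hS t hv0 hw0 hc r (hα ξ) (hξ1 ξ)
  · exact fun r n => ctil_oddP_conj _ r n
  · intro r s x y
    simpa using val_upd_combination G t hv0 hw0 (r := r + s) (r₁ := r) (r₂ := s) 1 1
      (fun q n => by rw [kern_oddP_add, one_mul, one_mul]) x y
  · intro a r x y
    simpa using val_upd_combination G t hv0 hw0 (r := a • r) (r₁ := r) (r₂ := r) (a : ℂ) 0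
      (fun q n => by rw [kern_oddP_smul, zero_mul, add_zero]) x y

end Large

end Fermat.LT
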