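import Fermat.Agent.LT.HypK
import Fermat.Agent.LT.HypL

/-!
# Densities for the non-elliptic parts

`hypStatement`: each non-elliptic part of the traces is given by a continuous density (`LT/Parts`).
-/

set_option autoImplicit false

namespace Fermat.LT

/-- **The non-elliptic parts have densities.** -/
theorem hypStatement (K L : Type) [Field K] [NumberField K] [Field L] [NumberField L]
    [Algebra K L] : HypStatement K L := by
  intro v3 G σ hσ hfS hfT hS DK hDK DL hDL v0 hv0 w0 hw0 hpn t ht _ hI
  exact ⟨hyp_density_K G σ t hv0 hw0 hpn ht hDK fun r => (hI r).1,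
    hyp_density_L G hS t hv0 hw0 hpn ht hσ hDL fun r => (hI r).2⟩

end Fermat.LT
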