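import Mathlib

/-!
# Integrals over a domain along a measure preserving flow

A function invariant under the group and under a flow translating `φ`, cut off
to an interval in `φ`, integrates like the length of the interval on one unit slab.  An invariant
function integrates over a domain like its product with a partition of unity.  Together these give
`IsHeightFlow.integral_cutoff`, a truncated integral as an integral against one slab of weight.
-/

set_option autoImplicit false
open MeasureTheory Filter Set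
open scoped ENNReal

namespace Fermat.LT

variable {T X : Type*} [Group T] [Countable T] [MulAction T X] [MeasurableSpace X] {μ : Measure X}
  [MeasurableConstSMul T X] [SMulInvariantMeasure T X μ] {D : Set X}

/-- A flow translating an invariant coordinate. -/
structure IsHeightFlow (T : Type*) {X : Type*} [SMul T X] [MeasurableSpace X] (μ : Measure X)
    (Φ : ℝ → X → X) (φ : X → ℝ) : Prop where
  /-- Every time map preserves the measure. -/
  mp : ∀ s, MeasurePreserving (Φ s) μ μ
  /-- The flow commutes with the group action. -/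
  comm : ∀ (t : T) s x, Φ s (t • x) = t • Φ s x
  /-- The flow at `-s` undoes the flow at `s`. -/
  left_inv : ∀ s x, Φ (-s) (Φ s x) = x
  /-- The coordinate is measurable. -/
  measφ : Measurable φ
  /-- The coordinate is invariant under the group. -/
  invφ : ∀ (t : T) x, φ (t • x) = φ x
  /-- The flow at `s` adds `s` to the coordinate. -/
  shift : ∀ s x, φ (Φ s x) = φ x + s

namespace IsHeightFlow

variable {Φ : ℝ → X → X} {φ : X → ℝ} (hΦ : IsHeightFlow T μ Φ φ)
include hΦ

omit [Countable T] [MeasurableConstSMul T X] [SMulInvariantMeasure T X μ] in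
/-- The flow at `-s` is also a right inverse of the flow at `s`. -/
lemma right_inv (s : ℝ) (x : X) : Φ s (Φ (-s) x) = x := by
  simpa using hΦ.left_inv (-s) x

omit [Countable T] [MeasurableConstSMul T X] [SMulInvariantMeasure T X μ] in
/-- The flow carries fundamental domains to fundamental domains. -/
lemma image_domain (hD : IsFundamentalDomain T D μ) (s : ℝ) :
    IsFundamentalDomain T (Φ s '' D) μ := by
  let e : X ≃ X := ⟨Φ s, Φ (-s), hΦ.left_inv s, hΦ.right_inv s⟩
  exact hD.image_of_equiv e (hΦ.mp (-s)).quasiMeasurePreserving (Equiv.refl T) fun t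
    x => hΦ.comm t s x

/-- **Moving the cut-off to one slab.** The integral of an invariant `G` over `lo ≤ φ ≤ hi` equals
that of `(hi - lo) G` over the slab `0 ≤ φ < 1`. -/
theorem integral_interval [SigmaFinite μ] (hD : IsFundamentalDomain T D μ) {lo hi : X → ℝ}
    {G : X → ℂ} (hlo : Measurable lo) (hhi : Measurable hi) (hG : Measurable G)
    (hle : ∀ x, lo x ≤ hi x) (hloT : ∀ (t : T) x, lo (t • x) = lo x)
    (hhiT : ∀ (t : T) x, hi (t • x) = hi x) (hGT : ∀ (t : T) x, G (t • x) = G x)
    (hloΦ : ∀ s x, lo (Φ s x) = lo x) (hhiΦ : ∀ s x, hi (Φ s x) = hi x)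
    (hGΦ : ∀ s x, G (Φ s x) = G x)
    (hI : IntegrableOn (fun x => if lo x ≤ φ x ∧ φ x ≤ hi x then G x else 0) D μ) :
    IntegrableOn (fun x => if 0 ≤ φ x ∧ φ x < 1 then (hi x - lo x : ℝ) • G x else 0) D μ ∧
      ∫ x in D, (if lo x ≤ φ x ∧ φ x ≤ hi x then G x else 0) ∂μ
        = ∫ x in D, (if 0 ≤ φ x ∧ φ x < 1 then (hi x - lo x : ℝ) • G x else 0) ∂μ := by
  classical
  let A : Set (X × ℝ) := {z | (lo z.1 ≤ φ z.1 ∧ φ z.1 ≤ hi z.1) ∧ (φ z.1 - 1 < z.2 ∧ z.2 ≤ φ z.1)}
  let B : Set (X × ℝ) :=
    {z | (0 ≤ φ z.1 ∧ φ z.1 < 1) ∧ (lo z.1 - φ z.1 ≤ z.2 ∧ z.2 ≤ hi z.1 - φ z.1)}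
  have hA : MeasurableSet A := by
    have h1 : Measurable fun z : X × ℝ => lo z.1 := hlo.comp measurable_fst
    have h2 : Measurable fun z : X × ℝ => hi z.1 := hhi.comp measurable_fst
    have h3 : Measurable fun z : X × ℝ => φ z.1 := hΦ.measφ.comp measurable_fst
    exact ((measurableSet_le h1 h3).inter (measurableSet_le h3 h2)).inter
      ((measurableSet_lt (h3.sub_const 1) measurable_snd).inter
        (measurableSet_le measurable_snd h3))
  have hB : MeasurableSet B := by
    have h1 : Measurable fun z : X × ℝ => lo z.1 := hlo.comp measurable_fst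
    have h2 : Measurable fun z : X × ℝ => hi z.1 := hhi.comp measurable_fst
    have h3 : Measurable fun z : X × ℝ => φ z.1 := hΦ.measφ.comp measurable_fst
    exact ((measurableSet_le measurable_const h3).inter
      (measurableSet_lt h3 measurable_const)).inter
      ((measurableSet_le (h1.sub h3) measurable_snd).inter
        (measurableSet_le measurable_snd (h2.sub h3)))
  let H : X × ℝ → ℂ := A.indicator fun z => G z.1
  let K : X × ℝ → ℂ := B.indicator fun z => G z.1
  have hHm : Measurable H := (hG.comp measurable_fst).indicator hA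
  have hKm : Measurable K := (hG.comp measurable_fst).indicator hB
  have hHK : ∀ (s : ℝ) x, H (Φ s x, s) = K (x, s) := fun s x => by
    have hmem : (Φ s x, s) ∈ A ↔ (x, s) ∈ B := by
      simp only [A, B, mem_ofPred_eq, hloΦ, hhiΦ, hΦ.shift]
      constructor
      · rintro ⟨⟨a1, a2⟩, a3, a4⟩
        exact ⟨⟨by linarith, by linarith⟩, by linarith, by linarith⟩
      · rintro ⟨⟨a1, a2⟩, a3, a4⟩
        exact ⟨⟨by linarith, by linarith⟩, by linarith, by linarith⟩
    simp only [H, K, indicator_apply, hmem, hGΦ]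
  have hHT : ∀ (s : ℝ) (t : T) x, H (t • x, s) = H (x, s) := fun s t x => by
    simp only [H, indicator_apply, A, mem_ofPred_eq, hloT, hhiT, hΦ.invφ, hGT]
  -- integrals along the parameter
  have hHint : ∀ x, Integrable (fun s => H (x, s)) volume ∧
      ∫ s, H (x, s) = (if lo x ≤ φ x ∧ φ x ≤ hi x then G x else 0) ∧
      ∫ s, ‖H (x, s)‖ = ‖if lo x ≤ φ x ∧ φ x ≤ hi x then G x else 0‖ := fun x => by
    by_cases h : lo x ≤ φ x ∧ φ x ≤ hi x
    · have e : (fun s => H (x, s)) = (Ioc (φ x - 1) (φ x)).indicator fun _ => G x := by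
        funext s; simp [H, A, indicator_apply, h]
      have e' : (fun s => ‖H (x, s)‖) = (Ioc (φ x - 1) (φ x)).indicator fun _ => ‖G x‖ := by
        funext s; rw [congrFun e s, norm_indicator_eq_indicator_norm]
      rw [e, e', if_pos h]
      refine ⟨(integrable_indicator_iff measurableSet_Ioc).2
        (integrableOn_const (by simp)), ?_, ?_⟩ <;> simp [integral_indicator measurableSet_Ioc]
    · have e : ∀ s, H (x, s) = 0 := fun s => indicator_of_notMem (fun hm => h hm.1) _
      simp [e, h]
  have hKint : ∀ x, ∫ s, K (x, s) = (if 0 ≤ φ x ∧ φ x < 1 then (hi x - lo x : ℝ) • G x else 0) ∧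
      ∫ s, ‖K (x, s)‖ = ‖if 0 ≤ φ x ∧ φ x < 1 then (hi x - lo x : ℝ) • G x else 0‖ := fun x => by
    by_cases h : 0 ≤ φ x ∧ φ x < 1
    · have e : (fun s => K (x, s)) = (Icc (lo x - φ x) (hi x - φ x)).indicator fun _ => G x := by
        funext s; simp [K, B, indicator_apply, h]
      have e' : (fun s => ‖K (x, s)‖) =
          (Icc (lo x - φ x) (hi x - φ x)).indicator fun _ => ‖G x‖ := by
        funext s; rw [congrFun e s, norm_indicator_eq_indicator_norm]
      rw [e, e', if_pos h, norm_smul]
      constructor <;>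
        simp [integral_indicator measurableSet_Icc, hle x, abs_of_nonneg]
    · have e : ∀ s, K (x, s) = 0 := fun s => indicator_of_notMem (fun hm => h hm.1) _
      simp [e, h]
  -- a parameter at a time
  have hmove : ∀ (E : Type) [NormedAddCommGroup E] [NormedSpace ℝ E] (f : ℂ → E) (s : ℝ),
      ∫ x in D, f (K (x, s)) ∂μ = ∫ x in D, f (H (x, s)) ∂μ := fun E _ _ f s => by
    simp only [← hHK s]
    have he : MeasurableEmbedding (Φ s) := by
      let e : X ≃ᵐ X := { toEquiv := ⟨Φ s, Φ (-s), hΦ.left_inv s, hΦ.right_inv s⟩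
                          measurable_toFun := (hΦ.mp s).measurable
                          measurable_invFun := (hΦ.mp (-s)).measurable }
      exact e.measurableEmbedding
    rw [← (hΦ.mp s).setIntegral_image_emb he (fun x => f (H (x, s))) D]
    exact (hΦ.image_domain hD s).setIntegral_eq hD fun t x => by rw [hHT]
  have hH2 : Integrable H ((μ.restrict D).prod volume) := by
    refine (integrable_prod_iff hHm.aestronglyMeasurable).2 ⟨Eventually.of_forall fun x =>
      (hHint x).1, ?_⟩
    simp only [fun x => (hHint x).2.2]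
    exact hI.norm
  have hK2 : Integrable K ((μ.restrict D).prod volume) := by
    refine (integrable_prod_iff' hKm.aestronglyMeasurable).2 ⟨?_, ?_⟩
    · filter_upwards [hH2.prod_left_ae] with s hs
      have hm : AEStronglyMeasurable (fun x => K (x, s)) (μ.restrict D) :=
        (hKm.comp measurable_prodMk_right).aestronglyMeasurable
      refine ⟨hm, ?_⟩
      have he : MeasurableEmbedding (Φ s) := by
        let e : X ≃ᵐ X := { toEquiv := ⟨Φ s, Φ (-s), hΦ.left_inv s, hΦ.right_inv s⟩
                            measurable_toFun := (hΦ.mp s).measurable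
                            measurable_invFun := (hΦ.mp (-s)).measurable }
        exact e.measurableEmbedding
      have h1 : IntegrableOn (fun x => H (x, s)) (Φ s '' D) μ :=
        ((hΦ.image_domain hD s).integrableOn_iff hD fun t x => hHT s t x).2 hs
      have h2 := ((hΦ.mp s).integrableOn_image he).1 h1
      simp only [Function.comp_def, hHK] at h2
      exact h2.2
    · have e : (fun s => ∫ x, ‖K (x, s)‖ ∂μ.restrict D) = fun s => ∫ x, ‖H (x, s)‖ ∂μ.restrict D :=
        funext fun s => hmove ℝ (fun z => ‖z‖) s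
      rw [e]
      exact hH2.integral_norm_prod_right
  refine ⟨?_, ?_⟩
  · have h := hK2.integral_prod_left
    simp only [fun x => (hKint x).1] at h
    exact h
  · have eH : ∫ x in D, (if lo x ≤ φ x ∧ φ x ≤ hi x then G x else 0) ∂μ =
        ∫ z, H z ∂(μ.restrict D).prod volume := by
      rw [integral_prod H hH2]
      simp only [fun x => (hHint x).2.1]
    have eK : ∫ x in D, (if 0 ≤ φ x ∧ φ x < 1 then (hi x - lo x : ℝ) • G x else 0) ∂μ
        = ∫ z, K z ∂(μ.restrict D).prod volume := by
      rw [integral_prod K hK2]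
      simp only [fun x => (hKint x).1]
    rw [eH, eK, integral_prod_symm H hH2, integral_prod_symm K hK2]
    exact integral_congr_ae (Eventually.of_forall fun s => (hmove ℂ id s).symm)

end IsHeightFlow

/-- **Invariant functions against a partition of unity.** -/
theorem integral_weight (hD : IsFundamentalDomain T D μ) {ψ : X → ℝ} (hψ : Measurable ψ)
    (h0 : ∀ x, 0 ≤ ψ x) (h1 : ∀ x, HasSum (fun t : T => ψ (t • x)) 1) {H : X → ℂ}
    (hH : Measurable H) (hHT : ∀ (t : T) x, H (t • x) = H x) (hI : IntegrableOn H D μ) :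
    Integrable (fun x => ψ x • H x) μ ∧ ∫ x, ψ x • H x ∂μ = ∫ x in D, H x ∂μ := by
  have hm : Measurable fun x => ψ x • H x := hψ.smul hH
  have hinv1 : ∀ x, HasSum (fun t : T => ψ (t⁻¹ • x)) 1 :=
    fun x => (Equiv.inv T).hasSum_iff.2 (h1 x)
  have hmt : ∀ t : T, Measurable fun x => ψ (t⁻¹ • x) • H (t⁻¹ • x) := fun t =>
    hm.comp (measurable_const_smul _)
  have hn : ∀ x, ∑' t : T, ‖ψ (t⁻¹ • x) • H (t⁻¹ • x)‖ₑ = ‖H x‖ₑ := fun x => by
    have e : ∀ t : T, ‖ψ (t⁻¹ • x) • H (t⁻¹ • x)‖ₑ = ENNReal.ofReal (ψ (t⁻¹ • x)) * ‖H x‖ₑ :=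
        fun t => by
      rw [enorm_smul, hHT, Real.enorm_eq_ofReal (h0 _)]
    simp only [e, ENNReal.tsum_mul_right]
    rw [← ENNReal.ofReal_tsum_of_nonneg (fun t => h0 _) (hinv1 x).summable, (hinv1 x).tsum_eq,
      ENNReal.ofReal_one, one_mul]
  have hfin : ∫⁻ x, ‖ψ x • H x‖ₑ ∂μ < ∞ := by
    rw [hD.lintegral_eq_tsum', ← lintegral_tsum fun t : T => (hmt t).enorm.aemeasurable]
    simp only [hn]
    exact hI.2
  have hint : Integrable (fun x => ψ x • H x) μ := ⟨hm.aestronglyMeasurable, hfin⟩
  refine ⟨hint, ?_⟩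
  rw [hD.integral_eq_tsum' _ hint, ← integral_tsum (fun t : T =>
    (hmt t).aestronglyMeasurable)]
  · refine integral_congr_ae (Eventually.of_forall fun x => ?_)
    change ∑' t : T, ψ (t⁻¹ • x) • H (t⁻¹ • x) = H x
    simp only [hHT]
    rw [(hinv1 x).summable.tsum_smul_const, (hinv1 x).tsum_eq, one_smul]
  · rw [← lintegral_tsum fun t : T => (hmt t).enorm.aemeasurable]
    simp only [hn]
    exact hI.2.ne

/-- **A cut-off integral is the integral against one slab of a partition of unity**: if on the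
support of `G` the set `L` is the interval `[-Λ - ℓ, Λ]` in `φ`, the weight of the slab is scaled
by `2 Λ + ℓ`. -/
theorem IsHeightFlow.integral_cutoff [SigmaFinite μ] {Φ : ℝ → X → X} {φ : X → ℝ}
    (hΦ : IsHeightFlow T μ Φ φ) (hD : IsFundamentalDomain T D μ) {ψ : X → ℝ} (hψ : Measurable ψ)
    (h0 : ∀ x, 0 ≤ ψ x) (h1 : ∀ x, HasSum (fun t : T => ψ (t • x)) 1) {ℓ : X → ℝ}
    (hℓ : Measurable ℓ) (hℓ0 : ∀ x, 0 ≤ ℓ x) (hℓT : ∀ (t : T) x, ℓ (t • x) = ℓ x)
    (hℓΦ : ∀ s x, ℓ (Φ s x) = ℓ x) {G : X → ℂ} (hG : Measurable G)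
    (hGT : ∀ (t : T) x, G (t • x) = G x) (hGΦ : ∀ s x, G (Φ s x) = G x) {L : Set X} {Λ : ℝ}
    (hΛ : 0 ≤ Λ) (hL : ∀ x, G x ≠ 0 → (x ∈ L ↔ -Λ - ℓ x ≤ φ x ∧ φ x ≤ Λ))
    (hint : IntegrableOn (L.indicator G) D μ) :
    Integrable (fun x => ((if 0 ≤ φ x ∧ φ x < 1 then ψ x else 0) * (2 * Λ + ℓ x)) • G x) μ ∧
      ∫ x, ((if 0 ≤ φ x ∧ φ x < 1 then ψ x else 0) * (2 * Λ + ℓ x)) • G x ∂μ
        = ∫ x in D, L.indicator G x ∂μ := by
  classical
  set lo : X → ℝ := fun x => -Λ - ℓ x
  -- the cutoff is an interval in the height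
  have heq : ∀ x, L.indicator G x = if lo x ≤ φ x ∧ φ x ≤ Λ then G x else 0 := fun x => by
    rcases eq_or_ne (G x) 0 with h | h
    · simp [indicator_apply, h]
    rw [indicator_apply]
    exact if_congr (hL x h) rfl rfl
  have hI : IntegrableOn (fun x => if lo x ≤ φ x ∧ φ x ≤ Λ then G x else 0) D μ :=
    hint.congr_fun_ae (Eventually.of_forall heq)
  -- integrate along the flow
  obtain ⟨i1, i2⟩ := hΦ.integral_interval hD (lo := lo) (hi := fun _ => Λ) (G := G)
    (measurable_const.sub hℓ) measurable_const hG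
    (fun x => by change -Λ - ℓ x ≤ Λ; linarith [hℓ0 x])
    (fun t x => by simp only [lo, hℓT]) (fun _ _ => rfl) hGT
    (fun s x => by simp only [lo, hℓΦ]) (fun _ _ => rfl) hGΦ hI
  -- then unfold with the partition of unity `ψ`
  obtain ⟨i3, i4⟩ := integral_weight hD hψ h0 h1
    (H := fun x => if 0 ≤ φ x ∧ φ x < 1 then (Λ - lo x : ℝ) • G x else 0)
    (Measurable.ite ((measurableSet_le measurable_const hΦ.measφ).inter
      (measurableSet_lt hΦ.measφ measurable_const))
      ((measurable_const.sub (measurable_const.sub hℓ)).smul hG) measurable_const)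
    (fun t x => by simp only [hΦ.invφ, lo, hℓT, hGT]) i1
  have e : ∀ x, ψ x • (if 0 ≤ φ x ∧ φ x < 1 then (Λ - lo x : ℝ) • G x else 0)
      = ((if 0 ≤ φ x ∧ φ x < 1 then ψ x else 0) * (2 * Λ + ℓ x)) • G x := fun x => by
    simp only [lo]
    split_ifs
    · rw [smul_smul]; congr 1; ring
    · simp
  simp only [e] at i3 i4
  refine ⟨i3, i4.trans (i2.symm.trans ?_)⟩
  exact integral_congr_ae (Eventually.of_forall fun x => (heq x).symm)

omit [Group T] [Countable T] [MulAction T X] [MeasurableConstSMul T X]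
  [SMulInvariantMeasure T X μ] in
/-- A weight affine in the logarithm of the cut-off integrates at two cut-offs only if both of its
parts do. -/
lemma integrable_of_two_cuts {w ℓ : X → ℝ} {G : X → ℂ} {η : ℝ} (hη : 0 < η)
    (h : Integrable (fun x => (w x * (-2 * Real.log η + ℓ x)) • G x) μ)
    (h' : Integrable (fun x => (w x * (-2 * Real.log (η / Real.exp 1) + ℓ x)) • G x) μ) :
    Integrable (fun x => w x • G x) μ ∧ Integrable (fun x => (w x * ℓ x) • G x) μ := by
  have h1 : Integrable (fun x => w x • G x) μ := by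
    refine ((h'.sub h).smul (2⁻¹ : ℝ)).congr (Eventually.of_forall fun x => ?_)
    simp only [Pi.smul_apply, Pi.sub_apply]
    rw [Real.log_div hη.ne' (Real.exp_ne_zero _), Real.log_exp, ← sub_smul, smul_smul]
    congr 1
    ring
  refine ⟨h1, (h.sub (h1.smul (-2 * Real.log η))).congr (Eventually.of_forall fun x => ?_)⟩
  change (w x * (-2 * Real.log η + ℓ x)) • G x - (-2 * Real.log η) • w x • G x = _
  rw [smul_smul, ← sub_smul]
  congr 1
  ring

/-- `δ ≤ a` and `δ ≤ b` as an interval in `-log a`, its length growing with `log (a b)`. -/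
lemma le_and_le_iff_log {a b δ : ℝ} (ha : 0 < a) (hb : 0 < b) (hδ : 0 < δ) :
    δ ≤ a ∧ δ ≤ b ↔
      -(-Real.log δ) - Real.log (a * b) ≤ -Real.log a ∧ -Real.log a ≤ -Real.log δ := by
  rw [Real.log_mul ha.ne' hb.ne', ← Real.log_le_log_iff hδ ha, ← Real.log_le_log_iff hδ hb]
  constructor <;> rintro ⟨h, h'⟩ <;> constructor <;> linarith

end Fermat.LT
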