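import Fermat.Agent.LT.KapBound
import Fermat.Agent.LT.SphKer
import Fermat.Agent.LT.LocMap

/-!
# Local sums over the cosets of one height for a split torus element

For `g = (ξ 0; 0 1)` the cosets of a fixed height at `∞` are the translates of finitely many by
unipotents.  A cuspidal kernel sums to zero over them, a spherical one gives the scaled constant
term at `|ord ξ|`.
-/

set_option autoImplicit false
open IsDedekindDomain NumberField Set
open scoped Classical Matrix

namespace Fermat.LT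

section Balls

variable {F : Type*} [Field F] [NumberField F] (v : Place F)

/-- Balls around zero. -/
def vball (n : ℤ) : AddSubgroup F where
  carrier := {x | v.valuation F x ≤ WithZero.exp n}
  zero_mem' := by simp
  add_mem' {x y} hx hy := ((v.valuation F).map_add x y).trans (max_le hx hy)
  neg_mem' {x} hx := by simpa [Valuation.map_neg] using hx

/-- Membership in a ball. -/
lemma mem_vball {n : ℤ} {x : F} : x ∈ vball v n ↔ v.valuation F x ≤ WithZero.exp n := Iff.rfl

/-- The ball of radius one consists of the integers at `v`. -/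
lemma mem_vball_zero {x : F} : x ∈ vball v 0 ↔ v.valuation F x ≤ 1 := by
  rw [mem_vball, WithZero.exp_zero]

/-- The balls increase with the radius. -/
lemma vball_mono {i j : ℤ} (h : i ≤ j) : vball v i ≤ vball v j :=
  fun _ hx => hx.trans (WithZero.exp_le_exp.2 h)

/-- Consecutive balls have index `pnorm v`. -/
lemma relIndex_vball_succ (i : ℤ) : (vball v i).relIndex (vball v (i + 1)) = pnorm v := by
  obtain ⟨ϖ, hϖ⟩ := v.valuation_exists_uniformizer F
  have hϖ0 : ϖ ≠ 0 := fun h => by rw [h, map_zero] at hϖ; exact WithZero.exp_ne_zero hϖ.symm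
  set c : F := ϖ ^ (i + 1) with hcdef
  have hc : v.valuation F c = WithZero.exp (-(i + 1)) := by
    rw [hcdef, map_zpow₀, hϖ, ← WithZero.exp_zsmul]; congr 1; simp
  have hc0 : c ≠ 0 := zpow_ne_zero _ hϖ0
  have hint : ∀ x : vball v (i + 1), (x : F) * c ∈ (v.valuation F).valuationSubring := fun x => by
    rw [Valuation.mem_valuationSubring_iff, map_mul, hc]
    refine (mul_le_mul' x.2 le_rfl).trans (le_of_eq ?_)
    rw [← WithZero.exp_add]; simp
  -- multiplication by `c` and reduction, onto the residue field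
  let f : vball v (i + 1) →+ IsLocalRing.ResidueField (v.valuation F).valuationSubring :=
    { toFun := fun x => IsLocalRing.residue _ ⟨(x : F) * c, hint x⟩
      map_zero' := by
        rw [show (⟨((0 : vball v (i + 1)) : F) * c, hint 0⟩ :
          (v.valuation F).valuationSubring) = 0 from Subtype.ext (zero_mul c), map_zero]
      map_add' := fun x y => by
        rw [← map_add]
        congr 1
        exact Subtype.ext (add_mul _ _ c) }
  -- its kernel is the smaller ball
  have hker : f.ker = (vball v i).addSubgroupOf (vball v (i + 1)) := by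
    ext x
    rw [AddMonoidHom.mem_ker, AddSubgroup.mem_addSubgroupOf, mem_vball]
    change IsLocalRing.residue _ _ = 0 ↔ _
    rw [residue_eq_zero_iff_v]
    change v.valuation F ((x : F) * c) < 1 ↔ _
    rcases eq_or_ne (x : F) 0 with h0 | h0
    · simp [h0]
    rw [map_mul, hc, v_eq_exp (v.valuation F) h0, ← WithZero.exp_add, ← WithZero.exp_zero,
      WithZero.exp_lt_exp, WithZero.exp_le_exp]
    omega
  have hsurj : Function.Surjective f := by
    intro z
    obtain ⟨⟨y, hy⟩, rfl⟩ := IsLocalRing.residue_surjective z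
    refine ⟨⟨y / c, ?_⟩, ?_⟩
    · rw [mem_vball, map_div₀, hc, div_le_iff₀ (zero_lt_iff.2 WithZero.exp_ne_zero),
        ← WithZero.exp_add]
      simpa using (Valuation.mem_valuationSubring_iff _ _).1 hy
    · change IsLocalRing.residue _ _ = _
      congr 1
      exact Subtype.ext (div_mul_cancel₀ y hc0)
  -- so the index is the order of the residue field
  rw [AddSubgroup.relIndex, ← hker, AddSubgroup.index_ker, f.range_eq_top.2 hsurj,
    AddSubgroup.card_top, natCard_residue]

/-- Balls whose radii differ by `n` steps have index `pnorm v ^ n`. -/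
lemma relIndex_vball (i : ℤ) : ∀ n : ℕ, (vball v i).relIndex (vball v (i + n)) = pnorm v ^ n
  | 0 => by simp
  | n + 1 => by
    rw [← AddSubgroup.relIndex_mul_relIndex (vball v i) (vball v (i + n)) _
        (vball_mono v (by omega)) (vball_mono v (by omega)), relIndex_vball i n, pow_succ,
      show i + ((n + 1 : ℕ) : ℤ) = i + n + 1 by push_cast; ring, relIndex_vball_succ]

/-- The classes of a ball modulo the integers. -/
noncomputable def ballMap (n : ℕ) :
    (vball v (n : ℤ) ⧸ (vball v 0).addSubgroupOf (vball v (n : ℤ))) →+ F ⧸ vball v 0 :=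
  QuotientAddGroup.map _ _ (vball v (n : ℤ)).subtype (fun _ hx => hx)

/-- A ball modulo the integers embeds into `F` modulo the integers. -/
lemma ballMap_injective (n : ℕ) : Function.Injective (ballMap v n) := by
  rw [injective_iff_map_eq_zero]
  rintro ⟨x⟩ h
  exact (QuotientAddGroup.eq_zero_iff _).2 ((QuotientAddGroup.eq_zero_iff (x : F)).1 h)

/-- The quotient of two balls is finite. -/
lemma finite_ball_quot (i : ℤ) (n : ℕ) :
    Finite (vball v (i + n) ⧸ (vball v i).addSubgroupOf (vball v (i + n))) := by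
  refine Nat.finite_of_card_ne_zero ?_
  rw [← AddSubgroup.index_eq_card]
  change (vball v i).relIndex _ ≠ 0
  rw [relIndex_vball]
  exact pow_ne_zero _
    (Nat.pos_iff_ne_zero.1 (zero_lt_one.trans (HeightOneSpectrum.one_lt_absNorm v)))

/-- The classes of a ball, as a finite set. -/
noncomputable def ballSet (n : ℕ) : Finset (F ⧸ vball v 0) :=
  have : Finite (vball v (n : ℤ) ⧸ (vball v 0).addSubgroupOf (vball v (n : ℤ))) := by
    have := finite_ball_quot v 0 n
    rwa [zero_add] at this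
  (Set.finite_range (ballMap v n)).toFinset

/-- The finite set of a ball consists of the classes of its elements. -/
lemma mk_mem_ballSet {n : ℕ} {x : F} :
    (x : F ⧸ vball v 0) ∈ ballSet v n ↔ v.valuation F x ≤ WithZero.exp (n : ℤ) := by
  rw [ballSet, Set.Finite.mem_toFinset]
  constructor
  · rintro ⟨⟨y⟩, hy⟩
    have h : -(y : F) + x ∈ vball v 0 := QuotientAddGroup.eq.1 hy
    have := (vball v (n : ℤ)).add_mem y.2 (vball_mono v (Int.natCast_nonneg n) h)
    simpa [mem_vball] using this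
  · exact fun h => ⟨((⟨x, h⟩ : vball v (n : ℤ)) :
      vball v (n : ℤ) ⧸ (vball v 0).addSubgroupOf (vball v (n : ℤ))), rfl⟩

/-- A ball of radius `n` has `q ^ n` classes modulo the integers. -/
lemma card_ballSet (n : ℕ) : (ballSet v n).card = pnorm v ^ n := by
  have : Finite (vball v (n : ℤ) ⧸ (vball v 0).addSubgroupOf (vball v (n : ℤ))) := by
    have := finite_ball_quot v 0 n
    rwa [zero_add] at this
  rw [ballSet, ← Nat.card_eq_card_finite_toFinset,
    Nat.card_range_of_injective (ballMap_injective v n), ← AddSubgroup.index_eq_card]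
  have := relIndex_vball v 0 n
  rwa [zero_add] at this

/-- A function of the size summed over a ball. -/
lemma sum_ballSet (h : ℕ → ℂ) (f : F ⧸ vball v 0 → ℂ)
    (hf : ∀ (x : F) (j : ℕ), v.valuation F x ≤ WithZero.exp (j : ℤ) →
      (j = 0 ∨ v.valuation F x = WithZero.exp (j : ℤ)) → f (x : F ⧸ vball v 0) = h j) :
    ∀ n : ℕ, ∑ x ∈ ballSet v n, f x
      = h 0 + ((pnorm v : ℂ) - 1) * ∑ r ∈ Finset.range n, (pnorm v : ℂ) ^ r * h (r + 1)
  | 0 => by
    -- radius `0` is a single point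
    have e : ballSet v 0 = {0} := by
      refine Finset.eq_singleton_iff_unique_mem.2 ⟨?_, ?_⟩
      · exact (mk_mem_ballSet v).2 (by simp : v.valuation F (0 : F) ≤ _)
      · rintro ⟨x⟩ hx
        exact (QuotientAddGroup.eq_zero_iff x).2 ((mk_mem_ballSet v).1 hx)
    rw [e, Finset.sum_singleton, Finset.range_zero, Finset.sum_empty, mul_zero, add_zero]
    exact hf 0 0 (by simp) (Or.inl rfl)
  | n + 1 => by
    have hsub : ballSet v n ⊆ ballSet v (n + 1) := by
      rintro ⟨x⟩ hx
      exact (mk_mem_ballSet v).2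
        (((mk_mem_ballSet v).1 hx).trans (WithZero.exp_le_exp.2 (by omega)))
    -- each new shell carries the value `h (n + 1)`
    rw [← Finset.sum_sdiff hsub, sum_ballSet h f hf n,
      Finset.sum_congr rfl (g := fun _ => h (n + 1)) fun x hx => ?_, Finset.sum_const,
      Finset.card_sdiff_of_subset hsub, card_ballSet, card_ballSet, nsmul_eq_mul,
        Finset.sum_range_succ]
    · have hq : 1 ≤ pnorm v := (HeightOneSpectrum.one_lt_absNorm v).le
      rw [Nat.cast_sub (Nat.pow_le_pow_right hq (Nat.le_succ n))]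
      push_cast
      rw [pow_succ]
      ring
    · obtain ⟨x, rfl⟩ := QuotientAddGroup.mk_surjective x
      rw [Finset.mem_sdiff, mk_mem_ballSet, mk_mem_ballSet] at hx
      refine hf x (n + 1) hx.1 (Or.inr ?_)
      rcases eq_or_ne x 0 with rfl | h0
      · simp at hx
      rw [v_eq_exp (v.valuation F) h0, WithZero.exp_inj]
      rw [v_eq_exp (v.valuation F) h0, WithZero.exp_le_exp, WithZero.exp_le_exp] at hx
      push_cast at hx ⊢
      omega

end Balls

variable {F : Type*} [Field F] [NumberField F] {S : Set (Place F)} {v : Place F}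

/-! ### heights at one place -/

/-- The local height of `∞` at `(a x; 0 1)` is `|a|⁻¹`. -/
lemma nfin_eInf_upMat (v : Place F) (a : Fˣ) (x : F) :
    nfin v (eInf : Fin 2 → F) (upMat a x) = (vabs v (a : F))⁻¹ := by
  simp [nfin, eInf, Matrix.det_fin_two, Matrix.vecMul, dotProduct]

/-- An upper triangular translation divides the local height at `∞` by the absolute value of `a`. -/
lemma nloc_eInf_smul (a : Fˣ) (x : F) (y : Vert S v) :
    nloc v (eInf : Fin 2 → F) (upMat a x • y) = nloc v (eInf : Fin 2 → F) y / vabs v (a : F) := by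
  obtain ⟨g, rfl⟩ := QuotientGroup.mk_surjective y
  rw [MulAction.Quotient.smul_coe, nloc_mk, nloc_mk, smul_eq_mul, nfin_mul_left, eInf_vecMul_upMat]
  simp [Matrix.det_fin_two]

/-- The base vertex has height one at `∞`. -/
lemma nloc_eInf_base :
    nloc v (eInf : Fin 2 → F) ((1 : GL (Fin 2) F) : Vert S v) = 1 := by
  rw [nloc_mk, ← upMat_one, nfin_eInf_upMat]
  simp

omit [NumberField F] in
/-- A diagonal matrix conjugates a translation into the scaled one. -/
lemma upMat_comm_unip (ξ : Fˣ) (x : F) :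
    upMat ξ 0 * upMat 1 x = upMat 1 ((ξ : F) * x) * upMat ξ 0 := by
  rw [upMat_mul, upMat_mul, mul_one, one_mul, Units.val_one]
  simp

omit [NumberField F] in
/-- Diagonal matrices commute. -/
lemma upMat_diag_comm (a b : Fˣ) : upMat a (0 : F) * upMat b 0 = upMat b 0 * upMat a 0 := by
  rw [upMat_mul, upMat_mul, mul_comm a b]; simp

/-- A matrix giving `∞` local height one is a unipotent times an element of `U0`. -/
lemma exists_unip_of_nfin_eq_one {g : GL (Fin 2) F} (h : nfin v (eInf : Fin 2 → F) g = 1) :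
    ∃ (x : F) (k : GL (Fin 2) F), k ∈ U0 (v.valuation F) ∧ g = upMat 1 x * k := by
  obtain ⟨a, b, hab⟩ := exists_upMat_mod_U0 (v.valuation F) g
  have ha : vabs v (a : F) = 1 := by
    have e : g = upMat a b * ((upMat a b)⁻¹ * g) := by group
    rw [e, nfin_mul_U0 v _ _ hab, nfin_eInf_upMat, inv_eq_one] at h
    exact h
  refine ⟨b, upMat a 0 * ((upMat a b)⁻¹ * g), (U0 _).mul_mem ?_ hab, ?_⟩
  · exact le_withScalars _ (upMat_mem_intGL _ ((vabs_eq_one_iff v a.ne_zero).1 ha) (by simp))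
  · rw [← mul_assoc, upMat_mul, one_mul, mul_zero, zero_add, mul_inv_cancel_left]

/-- The cosets of height one. -/
lemma exists_unip_form {y : Vert S v} (h : nloc v (eInf : Fin 2 → F) y = 1) :
    ∃ (x : F) (k : GL (Fin 2) F), k ∈ U0 (v.valuation F) ∧ y =
      ((upMat 1 x * k : GL (Fin 2) F) : Vert S v) := by
  obtain ⟨g, rfl⟩ := QuotientGroup.mk_surjective y
  rw [nloc_mk] at h
  obtain ⟨x, k, hk, rfl⟩ := exists_unip_of_nfin_eq_one h
  exact ⟨x, k, hk, rfl⟩

/-! ### levels -/

section Lvl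

variable {vv : Valuation F (WithZero (Multiplicative ℤ))}

omit [NumberField F] in
/-- Conjugating `diag(ξ, 1)` by a unipotent gives `(ξ (ξ - 1)x; 0 1)`. -/
lemma upMat_conj_unip (ξ : Fˣ) (x : F) :
    (upMat (1 : Fˣ) x)⁻¹ * (upMat ξ 0 * upMat 1 x) = upMat ξ (((ξ : F) - 1) * x) := by
  rw [upMat_inv, upMat_mul, upMat_mul, inv_one, one_mul, mul_one, Units.val_one]
  congr 1
  ring

omit [NumberField F] in
/-- Bounded displacement bounds the unipotent coordinate. -/
lemma v_le_of_lvl {ξ : Fˣ} {y : F} {D : ℕ} (h : lvl vv (upMat ξ y) ≤ D) :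
    vv y ≤ WithZero.exp ((2 * D : ℕ) : ℤ) := by
  have hle : WithZero.exp (lvl vv (upMat ξ y) : ℤ) ≤ WithZero.exp (D : ℤ) :=
    WithZero.exp_le_exp.2 (by exact_mod_cast h)
  have h1 := (v_quad_le vv (upMat ξ y) ((0, 0), (0, 0))).trans hle
  have h2 := (v_quad_le vv (upMat ξ y) ((0, 1), (1, 1))).trans hle
  rw [show quad (upMat ξ y) ((0, 0), (0, 0)) = (ξ : F) by simp [quad, Matrix.det_fin_two]] at h1
  rw [show quad (upMat ξ y) ((0, 1), (1, 1)) = y / (ξ : F) by simp [quad, Matrix.det_fin_two]] at h2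
  rw [← div_mul_cancel₀ y ξ.ne_zero, map_mul]
  refine (mul_le_mul' h2 h1).trans (le_of_eq ?_)
  rw [← WithZero.exp_add]; push_cast; ring_nf

omit [NumberField F] in
/-- If a multiple of `g` is integral with a unit entry, the level is the order of its
determinant. -/
lemma lvl_eq_of_prim {g : GL (Fin 2) F} {c : F} (hc : c ≠ 0)
    (M : Matrix (Fin 2) (Fin 2) F) (e : M = c • (g : Matrix (Fin 2) (Fin 2) F))
    (hint : ∀ i j, vv (M i j) ≤ 1) (i j : Fin 2) (hij : vv (M i j) = 1) :
    (lvl vv g : ℤ) = ord vv M.det := by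
  let N : Matrix (Fin 2) (Fin 2) vv.valuationSubring :=
    Matrix.of fun i j => ⟨M i j, (vv.mem_valuationSubring_iff _).2 (hint i j)⟩
  have hN : toF vv N = M := by ext a b; rfl
  have h : IsRep vv g N := ⟨⟨i, j, hij⟩, c, hc, by rw [hN, e]⟩
  have := h.lvl_eq vv
  rw [hN] at this
  exact this

/-- The displacement of a translate of the base. -/
lemma lvl_upMat_odd {ξ : Fˣ} {m : ℕ} (hm : |ord vv (ξ : F)| = (m : ℤ)) (hm0 : m ≠ 0) {x : F} {j : ℕ}
    (hx : vv x ≤ WithZero.exp (j : ℤ)) (hj : j = 0 ∨ vv x = WithZero.exp (j : ℤ)) :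
    lvl vv (upMat ξ (((ξ : F) - 1) * x)) = m + 2 * j := by
  set n := ord vv (ξ : F) with hn
  have hvξ : vv (ξ : F) = WithZero.exp (-n) := v_eq_exp vv ξ.ne_zero
  have hn0 : n ≠ 0 := fun h => hm0 (by rw [h, abs_zero] at hm; omega)
  have hξ1 : vv ((ξ : F) - 1) = WithZero.exp (max 0 (-n)) := by
    rcases lt_or_gt_of_ne hn0 with h | h
    · rw [Valuation.map_sub_eq_of_lt_left _
        (by rw [map_one, hvξ, ← WithZero.exp_zero, WithZero.exp_lt_exp]; omega),
        hvξ, max_eq_right (by omega)]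
    · rw [Valuation.map_sub_eq_of_lt_right _
        (by rw [map_one, hvξ, ← WithZero.exp_zero, WithZero.exp_lt_exp]; omega),
        map_one, max_eq_left (by omega), WithZero.exp_zero]
  have hdet : ∀ c : F, (c • (upMat ξ (((ξ : F) - 1) * x) : Matrix (Fin 2) (Fin 2) F)).det =
      c * c * ξ := by
    intro c; simp [Matrix.det_fin_two]; ring
  suffices h : (lvl vv (upMat ξ (((ξ : F) - 1) * x)) : ℤ) = |n| + 2 * (j : ℤ) by omega
  -- the level is read off the largest entry
  rcases eq_or_ne j 0 with rfl | hj0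
  · rw [Nat.cast_zero, WithZero.exp_zero] at hx
    rcases lt_or_gt_of_ne hn0 with h | h
    · -- `ξ` is large
      have hc : (ξ⁻¹ : Fˣ).val ≠ 0 := (ξ⁻¹).ne_zero
      rw [lvl_eq_of_prim hc _ rfl (fun a b => ?_) 0 0 (by simp), hdet,
        ord_mul vv (mul_ne_zero hc hc) ξ.ne_zero,
        ord_mul vv hc hc, Units.val_inv_eq_inv_val, ord_inv, abs_of_neg h]
      · simp; ring
      · have hi : vv ((ξ : F)⁻¹) ≤ 1 := by
          rw [map_inv₀, hvξ, ← WithZero.exp_neg, ← WithZero.exp_zero, WithZero.exp_le_exp]; omega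
        fin_cases a <;> fin_cases b <;> simp [hi, -map_inv₀]
        rw [hξ1, map_inv₀, hvξ, ← WithZero.exp_neg, ← mul_assoc, ← WithZero.exp_add,
          show -(-n) + max 0 (-n) = 0 by omega, WithZero.exp_zero, one_mul]
        exact hx
    · rw [lvl_eq_of_prim one_ne_zero _ rfl (fun a b => ?_) 1 1 (by simp), hdet, one_mul,
        one_mul, abs_of_pos h]
      · simp; rfl
      · have hi : vv (ξ : F) ≤ 1 := by rw [hvξ, ← WithZero.exp_zero, WithZero.exp_le_exp]; omega
        fin_cases a <;> fin_cases b <;> simp [hi]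
        rw [max_eq_left (show -n ≤ 0 by omega), WithZero.exp_zero] at hξ1
        rw [hξ1, one_mul]
        exact hx
  · have hx' : vv x = WithZero.exp (j : ℤ) := hj.resolve_left hj0
    set y := ((ξ : F) - 1) * x with hy
    have hvy : vv y = WithZero.exp (max 0 (-n) + j) := by
      rw [hy, map_mul, hξ1, hx', WithZero.exp_add]
    have hy0 : y ≠ 0 := fun h0 => by rw [h0, map_zero] at hvy; exact WithZero.exp_ne_zero hvy.symm
    have hordy : ord vv y = -(max 0 (-n) + j) := by
      have := v_eq_exp vv hy0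
      rw [hvy, WithZero.exp_inj] at this
      omega
    rw [lvl_eq_of_prim (inv_ne_zero hy0) _ rfl (fun a b => ?_) 0 1 (by simp [hy0]), hdet,
      ord_mul vv (mul_ne_zero (inv_ne_zero hy0) (inv_ne_zero hy0)) ξ.ne_zero,
      ord_mul vv (inv_ne_zero hy0) (inv_ne_zero hy0), ord_inv, hordy, ← hn]
    · rcases lt_or_gt_of_ne hn0 with h | h
      · rw [abs_of_neg h, max_eq_right (by omega)]; ring
      · rw [abs_of_pos h, max_eq_left (by omega)]; ring
    · have hi : vv (y⁻¹) ≤ 1 := by
        rw [map_inv₀, hvy, ← WithZero.exp_neg, ← WithZero.exp_zero, WithZero.exp_le_exp]; omega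
      have hi2 : vv (y⁻¹ * (ξ : F)) ≤ 1 := by
        rw [map_mul, map_inv₀, hvy, hvξ, ← WithZero.exp_neg, ← WithZero.exp_add,
          ← WithZero.exp_zero, WithZero.exp_le_exp]
        omega
      fin_cases a <;> fin_cases b <;> simp [hi, hi2, hy0, -map_inv₀, -map_mul]

end Lvl

/-! ### the sums -/

/-- Every local height of `∞` is that of a diagonal matrix. -/
lemma exists_vabs_inv_eq_nfin (g : GL (Fin 2) F) :
    ∃ a : Fˣ, (vabs v (a : F))⁻¹ = nfin v (eInf : Fin 2 → F) g := by
  obtain ⟨a, b, hab⟩ := exists_upMat_mod_U0 (v.valuation F) g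
  refine ⟨a, ?_⟩
  rw [show g = upMat a b * ((upMat a b)⁻¹ * g) by group, nfin_mul_U0 v _ _ hab, nfin_eInf_upMat]

/-- Where the diagonal scales heights `nl`, the points of any height translate those of height
one, compatibly with invariant kernels. -/
lemma fibre_translate_gen {X : Type*} [MulAction (GL (Fin 2) F) X] (nl : X → ℝ)
    (hnl : ∀ (a : Fˣ) y, nl (upMat a 0 • y) = nl y / vabs v (a : F)) (k : X → X → ℂ)
    (hk : ∀ (g : GL (Fin 2) F) a b, k (g • a) (g • b) = k a b) (ξ a₀ : Fˣ) {d : ℝ}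
    (hd : (vabs v (a₀ : F))⁻¹ = d) :
    ∃ e : {a : X // nl a = 1} ≃ {a : X // nl a = d}, (∀ a, (e a).1 = upMat a₀ 0 • a.1) ∧
      ∀ a, k (e a).1 (upMat ξ 0 • (e a).1) = k a.1 (upMat ξ 0 • a.1) := by
  have hn0 : vabs v (a₀ : F) ≠ 0 := ((vabs v).pos a₀.ne_zero).ne'
  let e : {a : X // nl a = 1} ≃ {a : X // nl a = d} :=
    { toFun := fun a => ⟨upMat a₀ 0 • a.1, by rw [hnl, a.2, one_div, hd]⟩
      invFun := fun a => ⟨(upMat a₀ (0 : F))⁻¹ • a.1, by
        rw [show (upMat a₀ (0 : F))⁻¹ = upMat a₀⁻¹ 0 by rw [upMat_inv]; simp, hnl, a.2,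
          Units.val_inv_eq_inv_val, map_inv₀, div_inv_eq_mul, ← hd, inv_mul_cancel₀ hn0]⟩
      left_inv := fun a => Subtype.ext (inv_smul_smul _ _)
      right_inv := fun a => Subtype.ext (smul_inv_smul _ _) }
  refine ⟨e, fun a => rfl, fun a => ?_⟩
  change k (upMat a₀ 0 • a.1) (upMat ξ 0 • upMat a₀ 0 • a.1) = _
  rw [← mul_smul, upMat_diag_comm, mul_smul, hk]

/-- The coset sum of height `d` as one of height one. -/
lemma fibre_translate (k : LKer S v) (ξ : Fˣ) (d : ℝ) (g : GL (Fin 2) F)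
    (hd : nloc v (eInf : Fin 2 → F) (g : Vert S v) = d) :
    ∃ α : Fˣ, ∃ e : {a : Vert S v // nloc v (eInf : Fin 2 → F) a = 1} ≃
      {a : Vert S v // nloc v (eInf : Fin 2 → F) a = d}, (∀ a, (e a).1 = upMat α 0 • a.1) ∧
      ∀ a, k (e a).1 (upMat ξ 0 • (e a).1) = k a.1 (upMat ξ 0 • a.1) := by
  obtain ⟨a₀, ha⟩ := exists_vabs_inv_eq_nfin (v := v) g
  exact ⟨a₀, fibre_translate_gen _ (fun a y => nloc_eInf_smul a 0 y) k k.invariant ξ a₀
    (ha.trans (by rw [← hd, nloc_mk]))⟩

/-- Bounded displacement within the height one. -/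
lemma unip_bound (k : LKer S v) :
    ∃ D : ℕ, ∀ (ξ : Fˣ) (x y : F) (u : GL (Fin 2) F), u ∈ U0 (v.valuation F) →
    k ((upMat 1 x * u : GL (Fin 2) F) : Vert S v)
      (upMat 1 y • upMat ξ 0 • ((upMat 1 x * u : GL (Fin 2) F) : Vert S v)) ≠ 0 →
    v.valuation F (((ξ : F) - 1) * x + y) ≤ WithZero.exp (D : ℤ) := by
  obtain ⟨D, hD⟩ := k.exists_lvl_bound
  refine ⟨2 * D, fun ξ x y u hu h => ?_⟩
  have h1 := hD _ _ h
  rw [MulAction.Quotient.smul_coe, MulAction.Quotient.smul_coe] at h1
  rw [← vd, vd_mk] at h1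
  refine v_le_of_lvl (ξ := ξ) ?_
  refine le_trans (le_of_eq ?_) h1
  rw [smul_eq_mul, smul_eq_mul, show (upMat 1 x * u)⁻¹ * (upMat 1 y * (upMat ξ 0 * (upMat 1 x * u)))
    = u⁻¹ * ((upMat (1 : Fˣ) x)⁻¹ * (upMat 1 y * (upMat ξ 0 * upMat 1 x))) * u by group,
    lvl_mul_right _ hu, lvl_mul_left _ ((U0 _).inv_mem hu)]
  congr 1
  rw [upMat_inv, upMat_mul, upMat_mul, upMat_mul, inv_one, one_mul, one_mul, mul_one, Units.val_one]
  congr 1
  ring

/-- Finitely many cosets in a bounded part of the height one. -/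
lemma finite_height_one (N : ℕ) :
    {a : Vert S v | ∃ (x : F) (u : GL (Fin 2) F), u ∈ U0 (v.valuation F) ∧
      v.valuation F x ≤ WithZero.exp (N : ℤ) ∧ a =
        ((upMat 1 x * u : GL (Fin 2) F) : Vert S v)}.Finite := by
  obtain ⟨s, hs, hs'⟩ := exists_finset_U0_coset v
  refine ((ballSet v N ×ˢ s).finite_toSet.image
    fun p => ((upMat 1 p.1.out * p.2 : GL (Fin 2) F) : Vert S v)).subset ?_
  rintro a ⟨x, u, hu, hx, rfl⟩
  set z : F := (x : F ⧸ vball v 0).out
  have hz : -z + x ∈ vball v 0 := QuotientAddGroup.eq.1 (QuotientAddGroup.out_eq' _)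
  have hu' : upMat 1 (-z + x) * u ∈ U0 (v.valuation F) :=
    (U0 _).mul_mem (le_withScalars _ (upMat_mem_intGL _ (by simp) ((mem_vball_zero v).1 hz))) hu
  obtain ⟨g, hg, hg'⟩ := hs' _ hu'
  refine ⟨((x : F ⧸ vball v 0), g),
    Finset.mem_coe.2 (Finset.mem_product.2 ⟨(mk_mem_ballSet v).2 hx, hg⟩), ?_⟩
  change ((upMat 1 z * g : GL (Fin 2) F) : Vert S v) = _
  rw [eq_comm, QuotientGroup.eq]
  have e : (upMat 1 x * u)⁻¹ * (upMat 1 z * g) = (upMat 1 (-z + x) * u)⁻¹ * g := by
    rw [show upMat (1 : Fˣ) (-z + x) = (upMat 1 z)⁻¹ * upMat 1 x by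
      rw [upMat_inv, upMat_mul]; simp [add_comm]]
    group
  rw [e]
  by_cases hvS : v ∈ S
  · exact (lev_of_mem hvS).ge hg'
  · exact (lev_of_not_mem hvS).ge (U1_le_U0 _ hg')

/-- Finitely many cosets of one height are moved boundedly. -/
theorem finite_fibre_support (k : LKer S v) {ξ : Fˣ} (hξ : ξ ≠ 1) (d : ℝ) :
    {a : Vert S v | nloc v (eInf : Fin 2 → F) a = d ∧ k a (upMat ξ 0 • a) ≠ 0}.Finite := by
  by_cases hne : ∃ g : GL (Fin 2) F, nloc v (eInf : Fin 2 → F) (g : Vert S v) = d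
  swap
  · refine Set.finite_empty.subset fun a ha => hne ⟨a.out, ?_⟩
    rw [QuotientGroup.out_eq']; exact ha.1
  obtain ⟨g, hg⟩ := hne
  obtain ⟨α, e, he, he'⟩ := fibre_translate k ξ d g hg
  obtain ⟨D, hD⟩ := unip_bound k
  have h1 : (ξ : F) - 1 ≠ 0 := sub_ne_zero.2 fun h => hξ (Units.ext h)
  set l := WithZero.log (v.valuation F ((ξ : F) - 1))
  refine ((finite_height_one (S := S) (v := v) ((D : ℤ) - l).toNat).image fun a =>
    upMat α 0 • a).subset ?_
  rintro a ⟨ha, hne'⟩
  obtain ⟨⟨b, hb⟩, eb⟩ := e.surjective ⟨a, ha⟩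
  have ea : upMat α 0 • b = a := (he ⟨b, hb⟩).symm.trans (congrArg Subtype.val eb)
  refine ⟨b, ?_, ea⟩
  obtain ⟨x, u, hu, rfl⟩ := exists_unip_form hb
  refine ⟨x, u, hu, ?_, rfl⟩
  have h2 := hD ξ x 0 u hu (by
    rw [upMat_one, one_smul]
    rw [← he' ⟨_, hb⟩, eb]
    exact hne')
  rw [add_zero, map_mul] at h2
  rcases eq_or_ne x 0 with rfl | hx0
  · simp
  rw [← WithZero.exp_log ((v.valuation F).ne_zero_iff.2 h1),
    ← WithZero.exp_log ((v.valuation F).ne_zero_iff.2 hx0), ← WithZero.exp_add,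
      WithZero.exp_le_exp] at h2
  rw [← WithZero.exp_log ((v.valuation F).ne_zero_iff.2 hx0), WithZero.exp_le_exp]
  omega

/-- If the kernel sum over the height one fibre vanishes, so does the sum over every fibre. -/
lemma tsum_fibre_translate (k : LKer S v) (ξ : Fˣ) (d : ℝ)
    (h : ∑' a : {a : Vert S v // nloc v (eInf : Fin 2 → F) a = 1}, k a.1 (upMat ξ 0 • a.1) = 0) :
    ∑' a : {a : Vert S v // nloc v (eInf : Fin 2 → F) a = d}, k a.1 (upMat ξ 0 • a.1) = 0 := by
  by_cases hne : ∃ g : GL (Fin 2) F, nloc v (eInf : Fin 2 → F) (g : Vert S v) = d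
  · obtain ⟨g, hg⟩ := hne
    obtain ⟨α, e, -, he'⟩ := fibre_translate k ξ d g hg
    rw [← e.tsum_eq]
    simp only [he']
    exact h
  · have : IsEmpty {a : Vert S v // nloc v (eInf : Fin 2 → F) a = d} :=
      ⟨fun a => hne ⟨a.1.out, by rw [QuotientGroup.out_eq']; exact a.2⟩⟩
    exact tsum_empty

/-- **A spherical kernel summed with a weight over the height one.** -/
theorem tsum_sph_weight_fibre_one (hv : v ∉ S) (p : Polynomial ℂ) {ξ : Fˣ} {m : ℕ}
    (hm : |ord (v.valuation F) (ξ : F)| = (m : ℤ)) (hm0 : m ≠ 0) (W : Vert S v → ℂ) (g : ℕ → ℂ)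
    (hW : ∀ (x : F) (j : ℕ), v.valuation F x ≤ WithZero.exp (j : ℤ) →
      (j = 0 ∨ v.valuation F x = WithZero.exp (j : ℤ)) →
      W (upMat 1 x • ((1 : GL (Fin 2) F) : Vert S v)) = g j) :
    ∑' a : {a : Vert S v // nloc v (eInf : Fin 2 → F) a = 1},
        W a.1 * sphKer hv p a.1 (upMat ξ 0 • a.1)
      = g 0 * kern (pnorm v) p m + ((pnorm v : ℂ) - 1) * ∑ r ∈ Finset.range (p.natDegree + 1),
          (pnorm v : ℂ) ^ r * (g (r + 1) * kern (pnorm v) p (m + 2 * (r + 1))) := by
  set o : Vert S v := ((1 : GL (Fin 2) F) : Vert S v)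
  -- cosets of height one are translates of the base by classes modulo the integers
  have hwell : ∀ x y : F, -x + y ∈ vball v 0 → upMat (1 : Fˣ) x • o = upMat 1 y • o :=
      fun x y h => by
    rw [show y = x + (-x + y) by ring, upMat_add, mul_smul,
      unip_fix_base hv ((mem_vball_zero v).1 h)]
  let Ψ : F ⧸ vball v 0 → {a : Vert S v // nloc v (eInf : Fin 2 → F) a = 1} :=
    Quotient.lift (fun x => ⟨upMat 1 x • o, by rw [nloc_eInf_smul, nloc_eInf_base]; simp⟩)
      (fun x y h => Subtype.ext (hwell x y (QuotientAddGroup.leftRel_apply.1 h)))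
  have hbij : Function.Bijective Ψ := by
    constructor
    · rintro ⟨x⟩ ⟨y⟩ h
      have h' : upMat (1 : Fˣ) x • o = upMat 1 y • o := congrArg Subtype.val h
      refine QuotientAddGroup.eq.2 ?_
      have h2 : upMat (1 : Fˣ) (-x + y) • o = o := by
        rw [show upMat (1 : Fˣ) (-x + y) = (upMat 1 x)⁻¹ * upMat 1 y by
          rw [upMat_inv, upMat_mul]; simp [add_comm], mul_smul, ← h', inv_smul_smul]
      have h3 := (upMat_smul_bound h2).2
      rw [lvl_base_out] at h3
      simpa [mem_vball] using h3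
    · rintro ⟨a, ha⟩
      obtain ⟨x, u, hu, rfl⟩ := exists_unip_form ha
      refine ⟨(x : F ⧸ vball v 0), Subtype.ext ?_⟩
      change upMat (1 : Fˣ) x • o = _
      rw [MulAction.Quotient.smul_coe, smul_eq_mul, mul_one, QuotientGroup.eq, lev_of_not_mem hv,
        ← mul_assoc, inv_mul_cancel, one_mul]
      exact hu
  rw [← (Equiv.ofBijective Ψ hbij).tsum_eq]
  set h := kern (pnorm v) p
  have hval : ∀ (x : F) (j : ℕ), v.valuation F x ≤ WithZero.exp (j : ℤ) →
      (j = 0 ∨ v.valuation F x = WithZero.exp (j : ℤ)) →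
      W (Ψ (x : F ⧸ vball v 0)).1 * sphKer hv p (Ψ (x : F ⧸ vball v 0)).1
        (upMat ξ 0 • (Ψ (x : F ⧸ vball v 0)).1) = g j * h (m + 2 * j) := by
    intro x j hx hj
    change W (upMat 1 x • o) * sphKer hv p (upMat 1 x • o) (upMat ξ 0 • upMat 1 x • o) = _
    rw [hW x j hx hj]
    congr 1
    rw [sphKer_apply, MulAction.Quotient.smul_coe, MulAction.Quotient.smul_coe, vd_mk]
    congr 1
    simp only [smul_eq_mul, mul_one]
    rw [upMat_conj_unip]
    exact lvl_upMat_odd hm hm0 hx hj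
  -- only classes up to the degree contribute
  set D := p.natDegree
  rw [tsum_eq_sum (s := ballSet v (D + 1)) fun x hx => ?_]
  · simp only [Equiv.ofBijective_apply]
    rw [sum_ballSet v (fun j => g j * h (m + 2 * j)) _ hval (D + 1)]
    rfl
  · obtain ⟨x, rfl⟩ := QuotientAddGroup.mk_surjective x
    rw [mk_mem_ballSet, not_le] at hx
    have hx0 : x ≠ 0 := fun h0 => by simp [h0] at hx
    obtain ⟨j, hj⟩ : ∃ j : ℕ, v.valuation F x = WithZero.exp (j : ℤ) := by
      refine ⟨(WithZero.log (v.valuation F x)).toNat, ?_⟩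
      rw [← WithZero.exp_log ((v.valuation F).ne_zero_iff.2 hx0), WithZero.exp_lt_exp] at hx
      rw [Int.toNat_of_nonneg (by omega), WithZero.exp_log ((v.valuation F).ne_zero_iff.2 hx0)]
    rw [hj, WithZero.exp_lt_exp] at hx
    rw [Equiv.ofBijective_apply, hval x j hj.le (Or.inr hj),
      show h (m + 2 * j) = 0 from kern_eq_zero _ p _ (show D < m + 2 * j by omega), mul_zero]

/-- **Spherical kernels: the scaled constant term.** -/
theorem tsum_sph_fibre_one (hv : v ∉ S) (p : Polynomial ℂ) {ξ : Fˣ} {m : ℕ}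
    (hm : |ord (v.valuation F) (ξ : F)| = (m : ℤ)) (hm0 : m ≠ 0) :
    ∑' a : {a : Vert S v // nloc v (eInf : Fin 2 → F) a = 1}, sphKer hv p a.1 (upMat ξ 0 • a.1)
      = ctil (pnorm v) (kern (pnorm v) p) m := by
  rw [ctil, gsum_eq_sum (pnorm v) (kern_eq_zero _ p) m (p.natDegree + 1) (by omega)]
  simpa [mul_add, add_assoc] using tsum_sph_weight_fibre_one hv p hm hm0 (fun _ => 1)
    (fun _ => 1) fun _ _ _ _ => rfl

/-- The sum over the height one may be translated. -/
lemma tsum_height_one_translate (k : LKer S v) {ξ : Fˣ} (h1 : (ξ : F) - 1 ≠ 0) (y : F) :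
    ∑' a : {a : Vert S v // nloc v (eInf : Fin 2 → F) a = 1}, k a.1 (upMat ξ 0 • a.1)
      = ∑' a : {a : Vert S v // nloc v (eInf : Fin 2 → F) a = 1},
          k a.1 (upMat 1 y • upMat ξ 0 • a.1) := by
  set H : Set (Vert S v) := {a | nloc v (eInf : Fin 2 → F) a = 1}
  change ∑' a : H, k a.1 (upMat ξ 0 • a.1) = ∑' a : H, k a.1 (upMat 1 y • upMat ξ 0 • a.1)
  set x₀ := y / ((ξ : F) - 1)
  let e : H ≃ H :=
    { toFun := fun a => ⟨upMat 1 x₀ • a.1, by
        change nloc v _ _ = 1
        rw [nloc_eInf_smul, a.2]; simp⟩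
      invFun := fun a => ⟨(upMat (1 : Fˣ) x₀)⁻¹ • a.1, by
        change nloc v _ _ = 1
        rw [upMat_inv, nloc_eInf_smul, a.2]; simp⟩
      left_inv := fun a => Subtype.ext (inv_smul_smul _ _)
      right_inv := fun a => Subtype.ext (smul_inv_smul _ _) }
  have hterm : ∀ a : H, k (e a).1 (upMat ξ 0 • (e a).1) = k a.1 (upMat 1 y • upMat ξ 0 • a.1) :=
      fun a => by
    change k (upMat 1 x₀ • a.1) (upMat ξ 0 • upMat 1 x₀ • a.1) = _
    have hy' : x₀ * ((ξ : F) - 1) = y := div_mul_cancel₀ y h1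
    rw [← mul_smul, upMat_comm_unip,
      show upMat (1 : Fˣ) ((ξ : F) * x₀) = upMat 1 x₀ * upMat 1 y by
        rw [← upMat_add]; congr 1; linear_combination hy',
      mul_assoc, mul_smul, mul_smul, k.invariant]
  rw [← e.tsum_eq, tsum_congr hterm]

/-- **Cuspidal kernels sum to zero over a height.** -/
theorem tsum_cusp_fibre_one {k : LKer S v} (hk : CuspLoc k) {ξ : Fˣ} (hξ : ξ ≠ 1) :
    ∑' a : {a : Vert S v // nloc v (eInf : Fin 2 → F) a = 1}, k a.1 (upMat ξ 0 • a.1) = 0 := by
  obtain ⟨D₀, hD₀⟩ := unip_bound k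
  set D : ℕ := D₀ + (WithZero.log (v.valuation F ((ξ : F) - 1))).toNat with hDdef
  have hD : ∀ (ξ' : Fˣ) (x y : F) (u : GL (Fin 2) F), u ∈ U0 (v.valuation F) →
      k ((upMat 1 x * u : GL (Fin 2) F) : Vert S v)
        (upMat 1 y • upMat ξ' 0 • ((upMat 1 x * u : GL (Fin 2) F) : Vert S v)) ≠ 0 →
      v.valuation F (((ξ' : F) - 1) * x + y) ≤ WithZero.exp (D : ℤ) := fun ξ' x y u hu h =>
    (hD₀ ξ' x y u hu h).trans (WithZero.exp_le_exp.2 (by omega))
  set H : Set (Vert S v) := {a | nloc v (eInf : Fin 2 → F) a = 1}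
  have h1 : (ξ : F) - 1 ≠ 0 := sub_ne_zero.2 fun h => hξ (Units.ext h)
  set l := WithZero.log (v.valuation F ((ξ : F) - 1))
  set A := (finite_height_one (S := S) (v := v) ((D : ℤ) - l).toNat).toFinset
  have hAH : ∀ a ∈ A, a ∈ H := by
    intro a ha
    obtain ⟨x, u, hu, -, rfl⟩ := (Set.Finite.mem_toFinset _).1 ha
    change nloc v _ _ = 1
    rw [nloc_mk, nfin_mul_U0 v _ _ hu, nfin_eInf_upMat]; simp
  -- translations by the ball do not leave `A`
  have hA : ∀ a ∈ H, ∀ y, v.valuation F y ≤ WithZero.exp (D : ℤ) →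
      k a (upMat 1 y • upMat ξ 0 • a) ≠ 0 → a ∈ A := by
    intro a ha y hy hne
    obtain ⟨x, u, hu, rfl⟩ := exists_unip_form ha
    refine (Set.Finite.mem_toFinset _).2 ⟨x, u, hu, ?_, rfl⟩
    have h2 : v.valuation F (((ξ : F) - 1) * x) ≤ WithZero.exp (D : ℤ) := by
      have := (vball v (D : ℤ)).sub_mem (hD ξ x y u hu hne) hy
      simpa [mem_vball] using this
    rcases eq_or_ne x 0 with rfl | hx0
    · simp
    rw [map_mul, ← WithZero.exp_log ((v.valuation F).ne_zero_iff.2 h1),
      ← WithZero.exp_log ((v.valuation F).ne_zero_iff.2 hx0), ← WithZero.exp_add,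
        WithZero.exp_le_exp] at h2
    rw [← WithZero.exp_log ((v.valuation F).ne_zero_iff.2 hx0), WithZero.exp_le_exp]
    omega
  set T : F → ℂ := fun y => ∑ a ∈ A, k a (upMat 1 y • upMat ξ 0 • a) with hT
  -- the sum may be translated
  have hmove : ∀ y, v.valuation F y ≤ WithZero.exp (D : ℤ) →
      ∑' a : H, k a.1 (upMat ξ 0 • a.1) = T y := by
    intro y hy
    refine (tsum_height_one_translate k h1 y).trans ?_
    change ∑' a : H, k a.1 (upMat 1 y • upMat ξ 0 • a.1) = T y
    rw [hT]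
    rw [tsum_subtype H fun a => k a (upMat 1 y • upMat ξ 0 • a),
      tsum_eq_sum (s := A) fun a ha => ?_]
    · exact Finset.sum_congr rfl fun a ha => Set.indicator_of_mem (hAH a ha) _
    · rw [Set.indicator_apply_eq_zero]
      intro haH
      by_contra hne
      exact ha (hA a haH y hy hne)
  -- small translations fix the finitely many cosets
  choose n hn using fun a : Vert S v => exists_unip_fix v (upMat ξ (0 : F) • a)
  set N := A.sup n
  set i : ℤ := -(N : ℤ)
  set B := vball v (i + ((N + D : ℕ) : ℤ))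
  have : Finite (B ⧸ (vball v i).addSubgroupOf B) := finite_ball_quot v i (N + D)
  let _ := Fintype.ofFinite (B ⧸ (vball v i).addSubgroupOf B)
  have hB : ∀ {y : F}, y ∈ B ↔ v.valuation F y ≤ WithZero.exp (D : ℤ) := fun {y} => by
    rw [mem_vball]
    simp [i]
  have hzero : ∀ a ∈ A, ∑ z : B ⧸ (vball v i).addSubgroupOf B,
      k a (upMat 1 (z.out : F) • upMat ξ 0 • a) = 0 := by
    intro a ha
    set c₀ := upMat ξ (0 : F) • a
    set φ : B ⧸ (vball v i).addSubgroupOf B → Vert S v := fun z => upMat 1 (z.out : F) • c₀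
    have hout : ∀ y : B, φ (y : B ⧸ (vball v i).addSubgroupOf B) = upMat 1 (y : F) • c₀ :=
        fun y => by
      have h0 : -(y : B ⧸ (vball v i).addSubgroupOf B).out + y ∈ (vball v i).addSubgroupOf B :=
        QuotientAddGroup.eq.1 (QuotientAddGroup.out_eq' _)
      have h : -((y : B ⧸ (vball v i).addSubgroupOf B).out : F) + (y : F) ∈ vball v i :=
        AddSubgroup.mem_addSubgroupOf.1 h0
      change upMat 1 _ • c₀ = _
      conv_rhs => rw [show (y : F) = ((y : B ⧸ (vball v i).addSubgroupOf B).out : F)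
        + (-((y : B ⧸ (vball v i).addSubgroupOf B).out : F) + (y : F)) by ring, upMat_add, mul_smul]
      rw [hn a _ (((mem_vball v).1 h).trans (WithZero.exp_le_exp.2 (by
        have := Finset.le_sup (f := n) ha
        omega)))]
    have hadd : ∀ z z', φ (z + z') = upMat 1 (z.out : F) • φ z' := fun z z' => by
      conv_lhs => rw [← QuotientAddGroup.out_eq' z, ← QuotientAddGroup.out_eq' z',
        ← QuotientAddGroup.mk_add, hout, AddSubgroup.coe_add, upMat_add, mul_smul]
    have hstep : ∀ z, ∃ g : Vert S v → Vert S v, Function.Injective g ∧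
        ∀ z', φ (z + z') = g (φ z') := fun z => ⟨_, MulAction.injective _, hadd z⟩
    rw [sum_comp_of_translate φ (fun c => k a c) hstep]
    refine smul_eq_zero.2 (Or.inr ?_)
    refine Eq.trans ?_ (hk a c₀)
    refine (finsum_mem_eq_sum_of_inter_support_eq _ ?_).symm
    ext c
    simp only [Set.mem_inter_iff, Set.mem_range, Function.mem_support, Finset.coe_image,
      Finset.coe_univ, Set.image_univ]
    constructor
    · rintro ⟨⟨y, rfl⟩, hne⟩
      refine ⟨⟨((⟨y, ?_⟩ : B) : B ⧸ (vball v i).addSubgroupOf B), hout _⟩, hne⟩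
      obtain ⟨x, u, hu, hx, rfl⟩ := (Set.Finite.mem_toFinset _).1 ha
      have h2 := hD ξ x y u hu hne
      have h3 : v.valuation F (((ξ : F) - 1) * x) ≤ WithZero.exp (D : ℤ) := by
        rcases eq_or_ne x 0 with rfl | hx0
        · simp
        rw [← WithZero.exp_log ((v.valuation F).ne_zero_iff.2 hx0), WithZero.exp_le_exp] at hx
        rw [map_mul, ← WithZero.exp_log ((v.valuation F).ne_zero_iff.2 h1),
          ← WithZero.exp_log ((v.valuation F).ne_zero_iff.2 hx0), ← WithZero.exp_add,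
            WithZero.exp_le_exp]
        rcases le_or_gt 0 ((D : ℤ) - l) with h | h <;> omega
      refine hB.2 ?_
      have := (vball v (D : ℤ)).sub_mem h2 h3
      simpa [mem_vball] using this
    · rintro ⟨⟨z, rfl⟩, hne⟩
      exact ⟨⟨_, rfl⟩, hne⟩
  have key : (Fintype.card (B ⧸ (vball v i).addSubgroupOf B) : ℂ) * ∑' a : H,
      k a.1 (upMat ξ 0 • a.1) = 0 := by
    rw [← nsmul_eq_mul, ← Finset.card_univ, ← Finset.sum_const,
      Finset.sum_congr rfl fun z _ => hmove (z.out : F) (hB.1 z.out.2), hT, Finset.sum_comm]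
    exact Finset.sum_eq_zero hzero
  rcases mul_eq_zero.1 key with h | h
  · exact absurd (Nat.cast_eq_zero.1 h) Fintype.card_ne_zero
  · exact h

/-- **A spherical kernel with vanishing constant term.** -/
theorem tsum_sph_fibre (hv : v ∉ S) (p : Polynomial ℂ) {ξ : Fˣ} {m : ℕ}
    (hm : |ord (v.valuation F) (ξ : F)| = (m : ℤ)) (hm0 : m ≠ 0)
    (h0 : ctil (pnorm v) (kern (pnorm v) p) m = 0) (d : ℝ) :
    ∑' a : {a : Vert S v // nloc v (eInf : Fin 2 → F) a = d},
      sphKer hv p a.1 (upMat ξ 0 • a.1) = 0 :=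
  tsum_fibre_translate _ ξ d (by rw [tsum_sph_fibre_one hv p hm hm0, h0])

/-- **A cuspidal kernel.** The sums of a cuspidal kernel at a diagonal element `ξ ≠ 1` vanish over
each local height at `∞`. -/
theorem tsum_cusp_fibre {k : LKer S v} (hk : CuspLoc k) {ξ : Fˣ} (hξ : ξ ≠ 1) (d : ℝ) :
    ∑' a : {a : Vert S v // nloc v (eInf : Fin 2 → F) a = d}, k a.1 (upMat ξ 0 • a.1) = 0 :=
  tsum_fibre_translate _ ξ d (tsum_cusp_fibre_one hk hξ)

end Fermat.LT
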