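import Fermat.Agent.LT.EllBound
import Fermat.Agent.LT.HypLocal

/-!
# Heights under field automorphisms, high lines seen by a kernel, bounded diagonal classes

`exists_axes_radius` says that only axes are high on the support of a diagonal class;
`exists_block_bound` bounds the classes seen, `exists_low_bound` the sum on the low part.
-/

set_option autoImplicit false
open IsDedekindDomain NumberField MeasureTheory Filter Set
open scoped Classical Matrix ComplexConjugate

namespace Fermat.LT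

variable {F : Type*} [Field F] [NumberField F]

/-! ### automorphisms -/

/-- Automorphisms preserve normalised absolute values. -/
lemma vabs_mapPlace {τ : F ≃+* F} {v u : Place F} (hu : mapPlace τ v = u) (x : F) :
    vabs u (τ x) = vabs v x := by
  subst hu
  rcases eq_or_ne x 0 with rfl | hx
  · simp
  rw [vabs_eq _ (by simpa using hx), vabs_eq _ hx, pnorm_mapPlace, ord, ord, valuation_mapPlace]

/-- A row vector moved back. -/
def symVec (τ : F ≃+* F) (u : Fin 2 → F) : Fin 2 → F := fun i => τ.symm (u i)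

omit [NumberField F] in
/-- A vector moved back stays nonzero. -/
lemma symVec_ne_zero {τ : F ≃+* F} {u : Fin 2 → F} (hu : u ≠ 0) : symVec τ u ≠ 0 := fun h =>
  hu (funext fun i => τ.symm.injective (by simpa [symVec] using congrFun h i))

omit [NumberField F] in
/-- The vector of `∞` is fixed. -/
lemma symVec_eInf (τ : F ≃+* F) : symVec τ (eInf : Fin 2 → F) = eInf := by
  funext i; fin_cases i <;> simp [symVec, eInf]

/-- An automorphism carries local squared norms to those of the vector moved back. -/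
lemma nfin_mapGL {τ : F ≃+* F} {v u : Place F} (hu : mapPlace τ v = u) (x : Fin 2 → F)
    (g : GL (Fin 2) F) : nfin u x (mapGL τ g) = nfin v (symVec τ x) g := by
  rw [nfin, nfin]
  have e : ∀ i, (x ᵥ* (mapGL τ g : Matrix (Fin 2) (Fin 2) F)) i
      = τ ((symVec τ x ᵥ* (g : Matrix (Fin 2) (Fin 2) F)) i) := fun i => by
    simp [Matrix.vecMul, dotProduct, symVec, coe_mapGL]
  have ed : (mapGL τ g : Matrix (Fin 2) (Fin 2) F).det = τ (g : Matrix (Fin 2) (Fin 2) F).det := by
    rw [coe_mapGL]; exact (RingHom.map_det (τ : F →+* F) _).symm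
  rw [e, e, ed, vabs_mapPlace hu, vabs_mapPlace hu, vabs_mapPlace hu]

variable {S : Set (Place F)}

/-- An automorphism carries local factors to those of the vector moved back. -/
lemma nloc_amap {τ : F ≃+* F} (hS : Stable τ S) {v u : Place F} (hu : mapPlace τ v = u)
    (x : Fin 2 → F) (a : Vert S v) : nloc u x (Vert.amap hS hu a) = nloc v (symVec τ x) a := by
  obtain ⟨g, rfl⟩ := QuotientGroup.mk_surjective a
  rw [Vert.amap_mk, nloc_mk, nloc_mk, nfin_mapGL hu]

/-- Conjugating vector and point does not change the local height. -/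
lemma ninf_cj (u : Fin 2 → ℂ) (x : H3) : ninf (fun i => conj (u i)) (H3.cj x) = ninf u x := by
  rw [ninf_coord, ninf_coord, H3.coord_cj]
  simp only [← map_mul, ← map_add, Complex.normSq_conj]

omit [NumberField F] in
/-- The local height at an embedding is the one at its place. -/
lemma ninf_extH [IsTotallyComplex F] (u : Fin 2 → F) (y : InfinitePlace F → H3) (φ : F →+* ℂ) :
    ninf (fun i => φ (u i)) (extH y φ) = ninf (embVec (InfinitePlace.mk φ) u)
      (y (InfinitePlace.mk φ)) := by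
  rcases InfinitePlace.embedding_mk_eq φ with h | h
  · rw [extH, if_pos h.symm, show (fun i => φ (u i)) = embVec (InfinitePlace.mk φ) u by
      funext i; rw [embVec, h]]
  · have hφ : φ = ComplexEmbedding.conjugate (InfinitePlace.mk φ).embedding := by
      rw [h, ComplexEmbedding.conjugate, star_star]
    conv_lhs => rw [hφ, extH_conjugate, extH_embedding]
    exact ninf_cj (embVec (InfinitePlace.mk φ) u) _

variable [IsTotallyComplex F]

/-- The infinite part of the height under an automorphism. -/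
theorem prod_ninf_extH (τ : F ≃+* F) (u : Fin 2 → F) (x : InfinitePlace F → H3) :
    ∏ w, ninf (embVec w u) (extH x (w.embedding.comp (τ : F →+* F))) ^ w.mult
      = ∏ w, ninf (embVec w (symVec τ u)) (x w) ^ w.mult := by
  have hbij := bijective_placeComp τ
  rw [← hbij.prod_comp (fun w => ninf (embVec w (symVec τ u)) (x w) ^ w.mult)]
  refine Finset.prod_congr rfl fun w _ => ?_
  rw [InfinitePlace.mult, InfinitePlace.mult,
    if_neg (InfinitePlace.not_isReal_iff_isComplex.2 (IsTotallyComplex.isComplex w)),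
    if_neg (InfinitePlace.not_isReal_iff_isComplex.2 (IsTotallyComplex.isComplex _))]
  congr 1
  rw [← ninf_extH]
  congr 1
  funext i
  simp [embVec, symVec]

/-- The height of a transported point. -/
theorem ht_amap {τ : F ≃+* F} (hS : Stable τ S) (u : Fin 2 → F) (p : Pt F S) :
    ht u (Pt.amap hS p) = ht (symVec τ u) p := by
  rw [ht, ht]
  congr 1
  · rw [← finprod_comp_equiv (mapPlace τ)]
    refine finprod_congr fun v => ?_
    obtain ⟨g, hg⟩ := QuotientGroup.mk_surjective (p.1.1 v)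
    rw [show (Pt.amap hS p).1.1 (mapPlace τ v) = Vert.amap hS rfl (p.1.1 v) by
      rw [← hg, Vert.amap_mk]; exact FinPt.amap_apply hS p.1 rfl hg.symm, nloc_amap]
  · exact prod_ninf_extH τ u p.2

/-! ### the low part -/

variable (F S) in
/-- No line is high. -/
def lowSet (ε : ℝ) : Set (Pt F S) := {p | ∀ u : Fin 2 → F, u ≠ 0 → ε ≤ ht u p}

variable [Finite S]

omit [IsTotallyComplex F] in
/-- The set without high lines is invariant under the projective group. -/
lemma lowSet_smul (ε : ℝ) (γ : PG F) (p : Pt F S) : γ • p ∈ lowSet F S ε ↔ p ∈ lowSet F S ε := by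
  suffices h : ∀ (g : GL (Fin 2) F) (q : Pt F S), q ∈ lowSet F S ε → g • q ∈ lowSet F S ε by
    obtain ⟨g, rfl⟩ := QuotientGroup.mk_surjective γ
    rw [PG.mk_smul]
    exact ⟨fun hp => by simpa using h g⁻¹ _ hp, h g p⟩
  intro g q hq u hu
  rw [ht_smul hu]
  exact hq _ fun h => hu (Matrix.vecMul_injective_iff_isUnit.2 g.isUnit (by simpa using h))

omit [IsTotallyComplex F] [Finite S] in
/-- Heights are measurable on points. -/
lemma measurable_ht (u : Fin 2 → F) : Measurable (ht u : Pt F S → ℝ) := by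
  refine measurable_from_prod_countable_right fun ν => ?_
  change Measurable fun y : InfinitePlace F → H3 =>
    (∏ᶠ v, nloc v u (ν.1 v)) * ∏ w, ninf (embVec w u) (y w) ^ w.mult
  exact (continuous_const.mul (continuous_finsetProd _ fun w _ =>
    ((continuous_ninf (embVec w u)).comp (continuous_apply w)).pow _)).measurable

omit [IsTotallyComplex F] [Finite S] in
/-- The set without high lines is measurable. -/
lemma measurableSet_lowSet (ε : ℝ) : MeasurableSet (lowSet F S ε) := by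
  have : lowSet F S ε = ⋂ u : {u : Fin 2 → F // u ≠ 0}, {p | ε ≤ ht u.1 p} := by
    ext p; simp [lowSet]
  rw [this]
  exact MeasurableSet.iInter fun u => measurableSet_le measurable_const (measurable_ht _)

omit [IsTotallyComplex F] in
/-- The height of `∞` is invariant under the Borel subgroup. -/
lemma ht_eInf_upMat_smul (a : Fˣ) (x : F) (p : Pt F S) :
    ht (eInf : Fin 2 → F) (upMat a x • p) = ht eInf p := by
  rw [ht_smul eInf_ne_zero, eInf_vecMul_upMat]

/-- **Points seen by the kernel have comparable heights at every line.** -/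
theorem exists_ht_comparable_all (K : PKer F S) : ∃ κ : ℝ, 1 ≤ κ ∧
    ∀ (u : Fin 2 → F), u ≠ 0 → ∀ p q : Pt F S, K.val p q ≠ 0 →
      ht u q ≤ κ * ht u p ∧ ht u p ≤ κ * ht u q := by
  obtain ⟨Ω, hΩ⟩ := exists_borel_reps (F := F) (S := S)
  obtain ⟨κ, hκ1, hκ⟩ := exists_ht_comparable K Ω
  refine ⟨κ, hκ1, fun u hu p q hne => ?_⟩
  obtain ⟨g, rfl⟩ := exists_eInf_vecMul hu
  simp only [← ht_smul eInf_ne_zero g]
  rw [← K.val_smul g] at hne
  generalize g • p = p' at hne ⊢
  generalize g • q = q' at hne ⊢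
  obtain ⟨a, x, ω₀, hω₀, hω⟩ := hΩ p'.1
  rw [← K.val_smul (upMat a x)⁻¹] at hne
  have h := hκ _ _ (by
    show ((upMat a x)⁻¹ • p').1 ∈ Ω
    rwa [Pt.smul_fst, ← hω, inv_smul_smul]) hne
  rwa [upMat_inv, ht_eInf_upMat_smul, ht_eInf_upMat_smul] at h

omit [IsTotallyComplex F] in
omit [Finite S] in
/-- A balanced point whose height is not too small lies in a ball. -/
theorem coshd_base_le_of_height {x : InfinitePlace F → H3} {R R₀ c Φ ε φ : ℝ} (hR1 : 1 ≤ R)
    (hR : R₀ ≤ R) (hc : 0 < c) (hε : 0 < ε) (hφ : φ ≤ Φ) (hΦ : 0 ≤ Φ)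
    (h2 : ∀ w, ‖(H3.coord (x w)).1‖ ≤ R ∧ c ≤ (H3.coord (x w)).2)
    (h3 : ∀ w u, (H3.coord (x w)).2 ≤ R₀ * (H3.coord (x u)).2)
    (h : ε ≤ φ / ∏ u, (H3.coord (x u)).2 ^ 2) (w : InfinitePlace F) :
    coshd ((1 : GL (Fin 2) ℂ) : H3) (x w) ≤ (R ^ 2 + 1 + (R * (1 + Φ / ε) + c) ^ 2) / (2 * c) := by
  refine coshd_base_le hc (h2 w).1 (h2 w).2 ?_
  have hd : (0 : ℝ) ≤ Φ / ε := by positivity
  have hP : 0 < ∏ u, (H3.coord (x u)).2 ^ 2 := Finset.prod_pos fun u _ => pow_pos (H3.coord_pos _) 2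
  have hPle : ∏ u, (H3.coord (x u)).2 ^ 2 ≤ Φ / ε := by
    rw [le_div_iff₀ hP] at h
    rw [le_div_iff₀ hε, mul_comm]
    exact h.trans hφ
  have h1 : ((H3.coord (x w)).2 ^ 2) ^ Fintype.card (InfinitePlace F)
      ≤ ((R * (1 + Φ / ε)) ^ 2) ^ Fintype.card (InfinitePlace F) := by
    rw [mul_pow R, mul_pow]
    refine le_trans ?_
      (mul_le_mul_of_nonneg_left ((hPle.trans (le_add_of_nonneg_left zero_le_one)).trans
      ((le_self_pow₀ (le_add_of_nonneg_right hd) two_ne_zero).trans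
        (le_self_pow₀ (one_le_pow₀ (le_add_of_nonneg_right hd)) Fintype.card_ne_zero)))
          (by positivity))
    rw [← Finset.card_univ, ← Finset.prod_const, ← Finset.prod_const, ← Finset.prod_mul_distrib]
    refine Finset.prod_le_prod (fun u _ => sq_nonneg _) fun u _ => ?_
    rw [← mul_pow]
    exact pow_le_pow_left₀ (H3.coord_pos _).le
      ((h3 w u).trans (mul_le_mul_of_nonneg_right hR (H3.coord_pos _).le)) 2
  exact ((sq_le_sq₀ (H3.coord_pos _).le (by positivity)).1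
    ((pow_le_pow_iff_left₀ (sq_nonneg _) (sq_nonneg _) Fintype.card_ne_zero).1 h1)).trans
      (le_add_of_nonneg_right hc.le)

omit [NumberField F] [IsTotallyComplex F] [Finite S] in
/-- A family bounded on a finite set and zero outside has bounded sum. -/
theorem tsum_enorm_le_card_mul {ι : Type*} {f : ι → ℂ} {B : ℝ} {T : Finset ι} {N : ℕ}
    (hN : T.card ≤ N) (hB : ∀ i, ‖f i‖ ≤ B) (h0 : ∀ i, f i ≠ 0 → i ∈ T) :
    ∑' i, ‖f i‖ₑ ≤ ENNReal.ofReal (N * B) := by
  rw [tsum_eq_sum (s := T) fun i hi => enorm_eq_zero.2 (by_contra fun hne => hi (h0 i hne)),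
    ENNReal.ofReal_mul (Nat.cast_nonneg _), ENNReal.ofReal_natCast]
  refine (Finset.sum_le_sum (g := fun _ => ENNReal.ofReal B) fun i _ => ?_).trans ?_
  · rw [← ofReal_norm]; exact ENNReal.ofReal_le_ofReal (hB i)
  · rw [Finset.sum_const, nsmul_eq_mul]
    gcongr

omit [Finite S] [IsTotallyComplex F] in
/-- **High lines on the support of a diagonal class are axes.** -/
theorem le_height_of_axes {H : (Fin 2 → F) → ℝ} {τ : F ≃+* F} {α : Fˣ} {κ ε : ℝ} (hκ : 1 ≤ κ)
    (hε : ε ≤ 1 / (κ + 1)) (hα : ∀ x : F, τ x * (α : F) = x → x = 0) (hpos : ∀ {u}, u ≠ 0 → 0 < H u)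
    (hsmul : ∀ {u}, u ≠ 0 → ∀ c : Fˣ, H ((c : F) • u) = H u)
    (hmul : ∀ {u u'}, u ≠ 0 → u' ≠ 0 → u 0 * u' 1 - u 1 * u' 0 ≠ 0 → 1 ≤ H u * H u')
    (hcomp : ∀ {u}, u ≠ 0 →
      H (symVec τ (u ᵥ* (upMat α (0 : F) : Matrix (Fin 2) (Fin 2) F))) ≤ κ * H u)
    (hinf : ε ≤ H eInf) (hzero : ε ≤ H ![1, 0]) {u : Fin 2 → F} (hu : u ≠ 0) : ε ≤ H u := by
  by_contra hlt
  rw [not_le] at hlt
  set g : GL (Fin 2) F := upMat α 0
  have h1 := hcomp hu
  have hug : u ᵥ* (g : Matrix (Fin 2) (Fin 2) F) ≠ 0 := fun h =>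
    hu (Matrix.vecMul_injective_iff_isUnit.2 g.isUnit (by simpa using h))
  set u' := symVec τ (u ᵥ* (g : Matrix (Fin 2) (Fin 2) F)) with hu'
  -- the two lines agree
  have hd : u 0 * u' 1 - u 1 * u' 0 = 0 := by
    by_contra hd
    have h2 := hmul hu (symVec_ne_zero hug) hd
    have hup := hpos hu
    have hκ0 : 0 < κ + 1 := by linarith
    have h3 : H u * H u' ≤ κ * (1 / (κ + 1)) := by
      have : H u ≤ 1 / (κ + 1) := (hlt.trans_le hε).le
      calc H u * H u' ≤ H u * (κ * H u) := mul_le_mul_of_nonneg_left h1 hup.le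
        _ ≤ 1 * (κ * (1 / (κ + 1))) := by
            refine mul_le_mul (this.trans ?_) (mul_le_mul_of_nonneg_left this (by linarith))
              (by positivity) zero_le_one
            rw [div_le_one hκ0]; linarith
        _ = _ := one_mul _
    have : κ * (1 / (κ + 1)) < 1 := by rw [mul_one_div, div_lt_one hκ0]; linarith
    linarith
  have e : u' 0 = τ.symm (u 0) * τ.symm (α : F) ∧ u' 1 = τ.symm (u 1) := by
    simp [u', g, symVec, mul_comm, map_mul, Matrix.vecHead, Matrix.vecTail]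
  rw [e.1, e.2] at hd
  have hax : u 0 = 0 ∨ u 1 = 0 := by
    refine or_iff_not_imp_left.2 fun h0 => ?_
    have h0' : τ (u 0) ≠ 0 := by simpa using h0
    have := hα (u 1 / u 0) (by
      have hd' := congrArg τ hd
      simp at hd'
      rw [map_div₀]
      field_simp
      linear_combination -hd')
    simpa [h0] using this
  rcases hax with h | h
  · have h1' : u 1 ≠ 0 := fun h1' => hu (by funext i; fin_cases i <;> assumption)
    have eu : u = ((Units.mk0 (u 1) h1' : Fˣ) : F) • (eInf : Fin 2 → F) := by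
      funext i; fin_cases i <;> simp [eInf, h]
    rw [eu, hsmul eInf_ne_zero] at hlt
    linarith
  · have h1' : u 0 ≠ 0 := fun h1' => hu (by funext i; fin_cases i <;> assumption)
    have eu : u = ((Units.mk0 (u 0) h1' : Fˣ) : F) • ![1, 0] := by
      funext i; fin_cases i <;> simp [h]
    rw [eu, hsmul (fun h0 => by simpa using congrFun h0 0)] at hlt
    linarith

variable {τ : F ≃+* F} (hS : Stable τ S)

/-- **On the low part the whole kernel sum is bounded.** -/
theorem exists_low_bound (K : PKer F S) {ε : ℝ} (hε : 0 < ε) :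
    ∃ C : ℝ, ∀ p ∈ lowSet F S ε, ∑' γ : TwPG τ, ‖twVal K hS γ p‖ₑ ≤ ENNReal.ofReal C := by
  obtain ⟨Ω, R₀, c, hc, hΩ⟩ := exists_siegel (F := F) (S := S)
  set R := max R₀ 1
  obtain ⟨B, hB0, hB⟩ := exists_val_bound K Ω
  set Φ : ℝ := ∑ ν ∈ Ω, phiInf ν
  set A : ℝ := (R ^ 2 + 1 + (R * (1 + Φ / ε) + c) ^ 2) / (2 * c)
  set Γ : Finset (PG F) := Ω.biUnion fun ν => (K.finite_seen ν (FinPt.amap hS ν) A A).toFinset
  refine ⟨Γ.card * B, fun p₀ hp₀ => ?_⟩
  obtain ⟨g₁, hg₁⟩ := hΩ p₀
  rw [← (MulAction.toPerm ((g₁ : PG F)⁻¹) : Equiv.Perm (TwPG τ)).tsum_eq]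
  have e : ∀ γ, twVal K hS ((g₁ : PG F)⁻¹ • γ) p₀ = twVal K hS γ (g₁ • p₀) := fun γ => by
    rw [← twVal_smul K hS (g₁ : PG F), smul_inv_smul, PG.mk_smul]
  simp only [MulAction.toPerm_apply, e]
  have hε' : ε ≤ ht (eInf : Fin 2 → F) (g₁ • p₀) :=
    ((lowSet_smul ε (g₁ : PG F) p₀).2 hp₀) _ eInf_ne_zero
  generalize g₁ • p₀ = p at hg₁ hε' ⊢
  obtain ⟨hp1, hp2, hp3⟩ := hg₁
  have hlow : ∀ w, coshd ((1 : GL (Fin 2) ℂ) : H3) (p.2 w) ≤ A :=
    coshd_base_le_of_height (le_max_right _ _) (le_max_left _ _) hc hε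
      (Finset.single_le_sum (f := fun ν => phiInf ν) (fun ν _ => (phiInf_pos ν).le) hp1)
      (Finset.sum_nonneg fun ν _ => (phiInf_pos ν).le)
      (fun w => ⟨(hp2 w).1.trans (le_max_left _ _), (hp2 w).2⟩) hp3 (ht_eInf p ▸ hε')
  refine tsum_enorm_le_card_mul (T := Γ.image (TwPG.of τ)) Finset.card_image_le
      (fun γ => hB _ _ hp1) fun γ hne =>
    Finset.mem_image.2 ⟨γ.cls, Finset.mem_biUnion.2 ⟨p.1, hp1, (Set.Finite.mem_toFinset _).2
      ⟨p.2, (Pt.amap hS p).2, hlow, fun w => ?_, hne⟩⟩, rfl⟩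
  change coshd _ (extH p.2 _) ≤ A
  rw [(coord_extH p.2 _).2]
  exact hlow _

/-- **Only the axes can be high on the support of a diagonal class.** -/
theorem exists_axes_radius (K : PKer F S) :
    ∃ ε₀ : ℝ, 0 < ε₀ ∧ ∀ (α : Fˣ), (∀ x : F, τ x * (α : F) = x → x = 0) →
    ∀ p : Pt F S, twVal K hS (TwPG.of τ (upMat α (0 : F) : PG F)) p ≠ 0 →
    ∀ ε ≤ ε₀, (p ∈ lowSet F S ε ↔ ε ≤ ht (eInf : Fin 2 → F) p ∧ ε ≤ ht ![1, 0] p) := by
  obtain ⟨κ, hκ1, hκ⟩ := exists_ht_comparable_all K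
  refine ⟨1 / (κ + 1), by positivity, fun α hα p hp ε hε =>
    ⟨fun h => ⟨h _ eInf_ne_zero, h _ fun h0 => by simpa using congrFun h0 0⟩, fun h u hu => ?_⟩⟩
  rw [twVal, TwPG.cls_of, PG.mk_smul] at hp
  refine le_height_of_axes (H := fun u => ht u p) hκ1 hε hα (fun hu => ht_pos hu p) (fun hu c =>
    ht_smul_vec hu c p) (fun hu hu' hd => one_le_ht_mul hu hu' hd p) (fun {v} hv => ?_) h.1 h.2 hu
  have h1 := (hκ v hv p _ hp).1
  rwa [ht_smul hv, ht_amap] at h1

/-! ### bounded classes -/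

omit [IsTotallyComplex F] [Finite S] in
/-- Right multiplication changes the local squared norm at most by the norm to the level. -/
lemma nfin_mul_le (v : Place F) (u : Fin 2 → F) (g h : GL (Fin 2) F) :
    nfin v u (g * h) ≤ nfin v u g * (pnorm v : ℝ) ^ lvl (v.valuation F) h := by
  obtain ⟨M, hM⟩ := exists_rep (v.valuation F) h
  have hd := hM.det_ne_zero (v.valuation F)
  have hl := hM.lvl_eq (v.valuation F)
  obtain ⟨-, c, hc, e⟩ := hM
  rw [← nfin_mul_scal v u (g * h) (Units.mk0 c hc)]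
  have e' : ((g * h * scal (Units.mk0 c hc) : GL (Fin 2) F) : Matrix (Fin 2) (Fin 2) F)
      = (g : Matrix (Fin 2) (Fin 2) F) * toF (v.valuation F) M := by
    rw [mul_assoc, ← scal_comm, Units.val_mul, Units.val_mul, scal_coe, Matrix.scalar_apply,
      ← Matrix.smul_eq_diagonal_mul, e]
    rfl
  rw [nfin, nfin, e', Matrix.det_mul, map_mul, ← Matrix.vecMul_vecMul,
    vabs_eq v (x := (toF (v.valuation F) M).det) hd, ← hl, zpow_neg, zpow_natCast]
  set x := u ᵥ* (g : Matrix (Fin 2) (Fin 2) F)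
  have hq : (0 : ℝ) < (pnorm v : ℝ) ^ lvl (v.valuation F) h :=
    pow_pos (by exact_mod_cast zero_lt_one.trans (HeightOneSpectrum.one_lt_absNorm v)) _
  rw [← div_div, div_inv_eq_mul, div_mul_eq_mul_div, div_mul_eq_mul_div]
  refine div_le_div_of_nonneg_right (mul_le_mul_of_nonneg_right (pow_le_pow_left₀
    (le_max_of_le_left (apply_nonneg _ _)) ?_ 2) hq.le) (apply_nonneg _ _)
  refine max_le ?_ ?_ <;>
  · simp only [Matrix.vecMul, dotProduct, Fin.sum_univ_two]
    refine (vabs_add_le v _ _).trans (max_le_max ?_ ?_) <;>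
      · rw [map_mul]
        exact mul_le_of_le_one_right (apply_nonneg _ _)
          ((vabs_le_one_iff v _).2 (((v.valuation F).mem_valuationSubring_iff _).1
            (Subtype.coe_prop _)))

omit [Finite S] [IsTotallyComplex F] in
/-- Matrices at bounded displacement have comparable local heights of `∞`. -/
lemma nfin_le_of_lvl {v : Place F} {g h : GL (Fin 2) F} {D : ℕ}
    (hl : lvl (v.valuation F) (g⁻¹ * h) ≤ D) :
    nfin v (eInf : Fin 2 → F) h ≤ (pnorm v : ℝ) ^ D * nfin v eInf g ∧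
      nfin v (eInf : Fin 2 → F) g ≤ (pnorm v : ℝ) ^ D * nfin v eInf h := by
  have hq : (1 : ℝ) ≤ pnorm v := by exact_mod_cast (HeightOneSpectrum.one_lt_absNorm v).le
  have key : ∀ g h : GL (Fin 2) F, lvl (v.valuation F) (g⁻¹ * h) ≤ D →
      nfin v (eInf : Fin 2 → F) h ≤ (pnorm v : ℝ) ^ D * nfin v eInf g := fun g h hl => by
    have h1 := nfin_mul_le v (eInf : Fin 2 → F) g (g⁻¹ * h)
    rw [mul_inv_cancel_left] at h1
    refine h1.trans ?_
    rw [mul_comm]
    exact mul_le_mul_of_nonneg_right (pow_le_pow_right₀ hq hl) (nfin_pos v eInf_ne_zero g).le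
  refine ⟨key _ _ hl, key _ _ ?_⟩
  rw [← lvl_inv, mul_inv_rev, inv_inv]
  exact hl

omit [Finite S] [IsTotallyComplex F] in
/-- A kernel changes the local height boundedly. -/
lemma exists_nloc_le {v : Place F} (k : LKer S v) : ∃ C : ℝ, 1 ≤ C ∧ (k = LKer.one S v → C = 1) ∧
    ∀ a b : Vert S v, k a b ≠ 0 → nloc v (eInf : Fin 2 → F) b ≤ C * nloc v eInf a ∧
      nloc v (eInf : Fin 2 → F) a ≤ C * nloc v eInf b := by
  by_cases hk : k = LKer.one S v
  · refine ⟨1, le_rfl, fun _ => rfl, fun a b h => ?_⟩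
    rw [hk, LKer.one_apply, ne_eq, ite_eq_right_iff, Classical.not_imp] at h
    rw [h.1, one_mul]; exact ⟨le_rfl, le_rfl⟩
  obtain ⟨D, hD⟩ := k.exists_lvl_bound
  exact ⟨(pnorm v : ℝ) ^ D,
    one_le_pow₀ (by exact_mod_cast (HeightOneSpectrum.one_lt_absNorm v).le),
    fun h => absurd h hk, fun a b h => nfin_le_of_lvl (hD a b h)⟩

omit [IsTotallyComplex F] [Finite S] [NumberField F] in
/-- A set of places stable under `τ` is stable under its inverse. -/
lemma symm_mem_iff {B : Finset (Place F)} (hB : ∀ w, mapPlace τ w ∈ B ↔ w ∈ B) (w : Place F) :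
    (mapPlace τ).symm w ∈ B ↔ w ∈ B := by
  rw [← hB, Equiv.apply_symm_apply]

omit [Finite S] in
/-- Points at bounded distance have comparable height factors at infinity. -/
lemma prod_ninf_eInf_le {x y : InfinitePlace F → H3} {r : ℝ} (hxy : ∀ w, coshd (x w) (y w) ≤ r) :
    ∏ w, ninf (embVec w (eInf : Fin 2 → F)) (y w) ^ w.mult
      ≤ (1 + 2 * |r|) ^ (2 * Fintype.card (InfinitePlace F))
        * ∏ w, ninf (embVec w (eInf : Fin 2 → F)) (x w) ^ w.mult := by
  simp only [pow_mul, ← Finset.card_univ, ← Finset.prod_const, ← Finset.prod_mul_distrib]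
  refine Finset.prod_le_prod (fun w _ =>
    pow_nonneg (ninf_pos (embVec_ne_zero w eInf_ne_zero) _).le _) fun w _ => ?_
  rw [InfinitePlace.mult,
    if_neg (InfinitePlace.not_isReal_iff_isComplex.2 (IsTotallyComplex.isComplex w)), ← mul_pow]
  refine pow_le_pow_left₀ (ninf_pos (embVec_ne_zero w eInf_ne_zero) _).le ?_ 2
  rw [show embVec w (eInf : Fin 2 → F) = ![0, 1] by funext i; fin_cases i <;> simp [embVec, eInf],
    ninf_infty, ninf_infty]
  have hx := H3.coord_pos (x w)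
  have hy := H3.coord_pos (y w)
  rw [← div_eq_mul_inv, le_div_iff₀ hx, inv_mul_le_iff₀ hy, mul_comm]
  refine (coord_le_coshd (x w) (y w)).trans ?_
  refine mul_le_mul_of_nonneg_right ?_ hy.le
  linarith [hxy w, le_abs_self r]

omit [Finite S] in
/-- **Local heights which agree off a block bound the class at the block.** -/
theorem block_bound_gen {B : Finset (Place F)} (hB : ∀ w, mapPlace τ w ∈ B ↔ w ∈ B)
    {c : Place F → ℝ} (hc1 : ∀ v, 1 ≤ c v) {E : Finset (Place F)} (hcE : ∀ v ∉ E, c v = 1)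
    {f g : Place F → ℝ} {α : Fˣ} (hf0 : ∀ w, 0 < f w) (hg0 : ∀ w, 0 < g w)
    (hfs : (Function.mulSupport f).Finite) (hgs : (Function.mulSupport g).Finite)
    (hgf : ∀ w, g w = f ((mapPlace τ).symm w) / vabs w (α : F))
    (hout : ∀ w ∉ B, g w ≤ c w * f w ∧ f w ≤ c w * g w) {x y : InfinitePlace F → H3} {r : ℝ}
    (hr : ∀ w, coshd (x w) (y w) ≤ r)
    (hht : (∏ᶠ w, g w) * ∏ w, ninf (embVec w (eInf : Fin 2 → F)) (y w) ^ w.mult
      = (∏ᶠ w, f w) * ∏ w, ninf (embVec w (eInf : Fin 2 → F)) (x w) ^ w.mult) :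
    ∏ w ∈ B, vabs w (α : F) ≤ (∏ v ∈ E, c v) *
      (1 + 2 * |r|) ^ (2 * Fintype.card (InfinitePlace F)) ∧
      1 ≤ (∏ v ∈ E, c v) * (1 + 2 * |r|) ^ (2 * Fintype.card (InfinitePlace F))
        * ∏ w ∈ B, vabs w (α : F) := by
  set Cf : ℝ := ∏ v ∈ E, c v
  set Ci : ℝ := (1 + 2 * |r|) ^ (2 * Fintype.card (InfinitePlace F))
  have hCf : 1 ≤ Cf := Finset.one_le_prod fun v _ => hc1 v
  have hα0 : ∀ w, 0 < vabs w (α : F) := fun w => (vabs w).pos α.ne_zero
  set P : ℝ := ∏ w, ninf (embVec w (eInf : Fin 2 → F)) (x w) ^ w.mult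
  set Q : ℝ := ∏ w, ninf (embVec w (eInf : Fin 2 → F)) (y w) ^ w.mult
  have hP0 : 0 < P :=
    Finset.prod_pos fun w _ => pow_pos (ninf_pos (embVec_ne_zero w eInf_ne_zero) _) _
  have hQ0 : 0 < Q :=
    Finset.prod_pos fun w _ => pow_pos (ninf_pos (embVec_ne_zero w eInf_ne_zero) _) _
  have hinfle : Q ≤ Ci * P ∧ P ≤ Ci * Q :=
    ⟨prod_ninf_eInf_le hr, prod_ninf_eInf_le fun w => (coshd_comm _ _).trans_le (hr w)⟩
  -- the finite products over a common finite set
  set T := hfs.toFinset ∪ hgs.toFinset ∪ E ∪ B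
  have hTf : ∏ᶠ w, f w = ∏ w ∈ T, f w :=
    finprod_eq_prod_of_mulSupport_subset _ fun w hw => by simp [T, hw]
  have hTg : ∏ᶠ w, g w = ∏ w ∈ T, g w :=
    finprod_eq_prod_of_mulSupport_subset _ fun w hw => by simp [T, hw]
  have hBT : B ⊆ T := Finset.subset_union_right
  have heq : (∏ w ∈ T \ B, g w) * (∏ w ∈ B, g w) * Q = (∏ w ∈ T \ B, f w) * (∏ w ∈ B, f w) * P := by
    rw [Finset.prod_sdiff hBT, Finset.prod_sdiff hBT, ← hTf, ← hTg]
    exact hht
  have hBg : ∏ w ∈ B, g w = (∏ w ∈ B, f w) / ∏ w ∈ B, vabs w (α : F) := by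
    simp only [hgf, Finset.prod_div_distrib]
    congr 1
    exact Finset.prod_equiv (mapPlace τ).symm (fun w => (symm_mem_iff hB w).symm) fun w _ => rfl
  have hcT : ∏ w ∈ T \ B, c w ≤ Cf := by
    rw [← Finset.prod_subset (s₁ := (T \ B) ∩ E) Finset.inter_subset_left fun w hw hw' =>
      hcE w fun h => hw' (Finset.mem_inter.2 ⟨hw, h⟩)]
    exact Finset.prod_le_prod_of_subset_of_one_le Finset.inter_subset_right
      (fun w _ => zero_le_one.trans (hc1 w)) fun w _ _ => hc1 w
  set N := ∏ w ∈ B, vabs w (α : F)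
  set X := ∏ w ∈ T \ B, g w
  set Y := ∏ w ∈ T \ B, f w
  have hN0 : 0 < N := Finset.prod_pos fun w _ => hα0 w
  have hX0 : 0 < X := Finset.prod_pos fun w _ => hg0 w
  have hY0 : 0 < Y := Finset.prod_pos fun w _ => hf0 w
  -- off the block the products agree up to the constant, so the class is bounded at the block
  have hXY : X ≤ Cf * Y ∧ Y ≤ Cf * X := by
    constructor
    · refine (Finset.prod_le_prod (fun w _ => (hg0 w).le) fun w hw =>
        (hout w (Finset.mem_sdiff.1 hw).2).1).trans ?_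
      rw [Finset.prod_mul_distrib]; exact mul_le_mul_of_nonneg_right hcT hY0.le
    · refine (Finset.prod_le_prod (fun w _ => (hf0 w).le) fun w hw =>
        (hout w (Finset.mem_sdiff.1 hw).2).2).trans ?_
      rw [Finset.prod_mul_distrib]; exact mul_le_mul_of_nonneg_right hcT hX0.le
  have hfB : 0 < ∏ w ∈ B, f w := Finset.prod_pos fun w _ => hf0 w
  rw [hBg] at heq
  have hN : X * Q = Y * P * N := by
    field_simp at heq
    linear_combination heq
  refine ⟨le_of_mul_le_mul_left (a := Y * P) ?_ (mul_pos hY0 hP0),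
    le_of_mul_le_mul_left (a := Y * P) ?_ (mul_pos hY0 hP0)⟩
  · rw [← hN]
    refine (mul_le_mul hXY.1 hinfle.1 hQ0.le (by positivity)).trans (le_of_eq ?_)
    ring
  · rw [mul_one]
    refine (mul_le_mul hXY.2 hinfle.2 hP0.le (by positivity)).trans (le_of_eq ?_)
    linear_combination (Cf * Ci) * hN

/-- **The classes seen are bounded at the moving block.** -/
theorem exists_block_bound (K₀ : PKer F S) (B : Finset (Place F))
    (hB : ∀ w, mapPlace τ w ∈ B ↔ w ∈ B) :
    ∃ C : ℝ, 1 ≤ C ∧ ∀ K : PKer F S, (∀ w ∉ B, K.loc w = K₀.loc w) → K.arch = K₀.arch →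
      ∀ (α : Fˣ) (p : Pt F S), twVal K hS (TwPG.of τ (upMat α (0 : F) : PG F)) p ≠ 0 →
      ∏ w ∈ B, vabs w (α : F) ≤ C ∧ 1 ≤ C * ∏ w ∈ B, vabs w (α : F) := by
  choose c hc1 hcone hc using fun v : Place F => exists_nloc_le (K₀.loc v)
  set E := (eventually_cofinite.1 K₀.ae_one).toFinset
  refine ⟨(∏ v ∈ E, c v) * (1 + 2 * |K₀.range|) ^ (2 * Fintype.card (InfinitePlace F)),
    one_le_mul_of_one_le_of_one_le (Finset.one_le_prod fun v _ => hc1 v)
      (one_le_pow₀ (le_add_of_nonneg_right (by positivity))), fun K hloc harch α p hne => ?_⟩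
  rw [twVal, TwPG.cls_of, PG.mk_smul, PKer.val, mul_ne_zero_iff] at hne
  obtain ⟨hfin, hinf⟩ := hne
  set q : Pt F S := upMat α (0 : F) • Pt.amap hS p with hqdef
  refine block_bound_gen hB hc1 (fun v hv => hcone v (by simpa [E] using hv))
    (f := fun w => nloc w (eInf : Fin 2 → F) (p.1.1 w)) (g := fun w =>
      nloc w (eInf : Fin 2 → F) (q.1.1 w))
    (fun w => nfin_pos w eInf_ne_zero _) (fun w => nfin_pos w eInf_ne_zero _)
    (eventually_cofinite.1 (eventually_nloc_eq_one eInf_ne_zero p.1))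
    (eventually_cofinite.1 (eventually_nloc_eq_one eInf_ne_zero q.1))
    (fun w => ?_) (fun w hw => ?_) (x := p.2) (y := q.2) (fun w => ?_) ?_
  · change nloc w _ ((upMat α (0 : F) • Pt.amap hS p).1.1 w) = _
    rw [Pt.smul_fst, FinPt.smul_apply, nloc_eInf_smul]
    congr 1
    change nloc w _ ((FinPt.amap hS p.1).1 w) = _
    obtain ⟨h, hh⟩ := QuotientGroup.mk_surjective (p.1.1 ((mapPlace τ).symm w))
    rw [FinPt.amap_apply hS p.1 (Equiv.apply_symm_apply _ w) hh.symm,
      ← Vert.amap_mk hS (Equiv.apply_symm_apply _ w), hh, nloc_amap, symVec_eInf]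
  · have h := (K.fin_ne_zero.1 hfin) w
    rw [hloc w hw] at h
    exact hc w _ _ h
  · have h := not_lt.1 fun hlt => hinf (K.inf_eq_zero (x := p.2) (y := q.2) (w := w) hlt)
    rwa [PKer.range, harch] at h
  · change ht (eInf : Fin 2 → F) q = ht eInf p
    rw [hqdef, ht_eInf_upMat_smul, ht_amap, symVec_eInf]

end Fermat.LT
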