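import Fermat.Agent.LT.LocSplit
import Fermat.Agent.LT.HypVanish

/-!
# Sums over the heights at the places over a split place

Along the cycle of places the twisted product sums to the composite kernel on the small field.
-/

set_option autoImplicit false
open Filter Set
open scoped Classical Matrix

namespace Fermat.LT

section Generic

variable {F : Type*} [Field F] [NumberField F] {S : Set (Place F)} {v : Place F}

/-- The kernel preserves the height at `∞`. -/
def KeepsHeight (k : LKer S v) : Prop :=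
  ∀ a b : Vert S v, k a b ≠ 0 → nloc v (eInf : Fin 2 → F) b = nloc v (eInf : Fin 2 → F) a

/-- The kernel of the cuspidal idempotent preserves the height at `∞`. -/
lemma keepsHeight_eKer (hv : pnorm v = 3) (hvS : v ∈ S) : KeepsHeight (eKer (S := S) hv hvS) := by
  intro a b h
  obtain ⟨g, rfl⟩ := QuotientGroup.mk_surjective a
  obtain ⟨k, hk⟩ := QuotientGroup.mk_out_eq_mul (lev S v) g
  have h1 := mem_U0_of_eKer_ne_zero hv h
  rw [hk] at h1
  rw [nloc_mk, ← nfin_mul_U0 v _ g (lev_le_U0 S v k.2), nloc,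
    ← nfin_mul_U0 v _ (g * (k : GL (Fin 2) F)) h1]
  rw [mul_inv_cancel_left]

/-- The absolute kernel. -/
noncomputable def LKer.absKer (k : LKer S v) : LKer S v where
  toFun a b := (‖k a b‖ : ℝ)
  invariant g a b := by simp only [k.invariant]
  finite_row a := (k.finite_row a).subset fun b hb h => hb (by
    show ((‖k a b‖ : ℝ) : ℂ) = 0
    rw [h, norm_zero, Complex.ofReal_zero])

/-- **Two steps along a twisted cycle compose.** -/
lemma tsum_cycle (k₁ k₂ k₃ : LKer S v) (g₁ g₂ g₃ : GL (Fin 2) F) (a : Vert S v) :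
    (Function.support fun p : Vert S v × Vert S v => k₁ a (g₁ • p.2) * k₃ p.2 (g₂ • p.1) *
    k₂ p.1 (g₃ • a)).Finite ∧
    ∑' p : Vert S v × Vert S v, k₁ a (g₁ • p.2) * k₃ p.2 (g₂ • p.1) * k₂ p.1 (g₃ • a)
      = k₁.comp (k₃.comp k₂) a ((g₁ * g₂ * g₃) • a) := by
  let e : Vert S v × Vert S v ≃ Vert S v × Vert S v :=
    (MulAction.toPerm (g₁ * g₂)).prodCongr (MulAction.toPerm g₁)
  set f : Vert S v × Vert S v → ℂ := fun p => k₁ a p.2 * k₃ p.2 p.1 * k₂ p.1 ((g₁ * g₂ * g₃) • a)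
  have hf : ∀ p, k₁ a (g₁ • p.2) * k₃ p.2 (g₂ • p.1) * k₂ p.1 (g₃ • a) = f (e p) := fun p => by
    change _ = k₁ a (g₁ • p.2) * k₃ (g₁ • p.2) ((g₁ * g₂) • p.1) * k₂ ((g₁ * g₂) • p.1)
      ((g₁ * g₂ * g₃) • a)
    rw [mul_smul (g₁ * g₂) g₃, k₂.invariant, mul_smul g₁ g₂, k₃.invariant]
  set U := (k₁.row a).biUnion fun c => (k₃.row c).image fun b => (b, c)
  have hU : ∀ p, f p ≠ 0 → p ∈ U := fun p hp => Finset.mem_biUnion.2
    ⟨p.2, LKer.mem_row.2 (left_ne_zero_of_mul (left_ne_zero_of_mul hp)),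
      Finset.mem_image.2 ⟨p.1, LKer.mem_row.2 (right_ne_zero_of_mul (left_ne_zero_of_mul hp)), rfl⟩⟩
  refine ⟨(U.finite_toSet.preimage e.injective.injOn).subset fun p hp => hU _ (by rwa [← hf]), ?_⟩
  rw [tsum_congr hf, e.tsum_eq f, tsum_eq_sum (s := U) fun p hp => by_contra fun h => hp (hU p h),
    Finset.sum_biUnion ?_, LKer.comp_eq_sum]
  · refine Finset.sum_congr rfl fun c _ => ?_
    rw [Finset.sum_image fun x _ y _ h => (Prod.mk.inj h).1, LKer.comp_eq_sum, Finset.mul_sum]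
    exact Finset.sum_congr rfl fun b _ => by simp only [f]; ring
  · intro x _ y _ hne
    refine Finset.disjoint_left.2 fun p hp hp' => hne ?_
    obtain ⟨_, -, rfl⟩ := Finset.mem_image.1 hp
    obtain ⟨_, -, h⟩ := Finset.mem_image.1 hp'
    exact (congrArg Prod.snd h).symm

omit [NumberField F] in
/-- An automorphism sends `diag(a, 1)` to `diag(τ a, 1)`. -/
lemma mapGL_upMat (τ : F ≃+* F) (a : Fˣ) :
    mapGL τ (upMat a (0 : F)) = upMat (Units.map (τ : F →+* F).toMonoidHom a) 0 := by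
  refine Units.ext (Matrix.ext fun i j => ?_)
  rw [coe_mapGL, coe_upMat, coe_upMat]
  fin_cases i <;> fin_cases j <;> simp

end Generic

variable {K L : Type} [Field K] [NumberField K] [Field L] [NumberField L] [Algebra K L]
  {σ : L ≃ₐ[K] L} {v : Place K} {w : Place L}

/-- The identification of cosets at a split place preserves the local height at `∞`. -/
lemma nloc_vertIso {SK : Set (Place K)} {S : Set (Place L)} (hw : LiesOver K L w v)
    (he : ramE v w = 1) (hn : pnorm w = pnorm v) (hlev : v ∈ SK ↔ w ∈ S) (a : Vert SK v) :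
    nloc w (eInf : Fin 2 → L) (Split.vertIso hw he hn hlev a) = nloc v (eInf : Fin 2 → K) a := by
  obtain ⟨g, rfl⟩ := QuotientGroup.mk_surjective a
  have hv : ∀ x : K, vabs w (algebraMap K L x) = vabs v x := fun x => by
    rcases eq_or_ne x 0 with rfl | hx
    · simp
    rw [vabs_eq w ((map_ne_zero _).2 hx), vabs_eq v hx, hn, ord, ord, Split.val_iota hw he]
  rw [Split.vertIso_apply, Vert.fmap_mk, nloc_mk, nloc_mk, nfin, nfin]
  have e : ∀ i,
      ((eInf : Fin 2 → L) ᵥ* ((Matrix.GeneralLinearGroup.map (algebraMap K L) g : GL (Fin 2) L) :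
      Matrix (Fin 2) (Fin 2) L)) i =
          algebraMap K L (((eInf : Fin 2 → K) ᵥ* (g : Matrix (Fin 2) (Fin 2) K)) i) := fun i => by
    simp [eInf, Matrix.vecMul, dotProduct]
  have ed : ((Matrix.GeneralLinearGroup.map (algebraMap K L) g : GL (Fin 2) L) : Matrix (Fin 2)
      (Fin 2) L).det
      = algebraMap K L (g : Matrix (Fin 2) (Fin 2) K).det :=
        (RingHom.map_det (algebraMap K L) _).symm
  rw [e, e, ed, hv, hv, hv]

variable (hc : Cyc3 K L σ) (hw : LiesOver K L w v) (he : ramE v w = 1) (hn : pnorm w = pnorm v)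
  (hmoved : mapPlace (σ : L ≃+* L) w ≠ w) {SK : Set (Place K)} {S : Set (Place L)}
  (hlev : v ∈ SK ↔ w ∈ S) (hS : Stable (σ : L ≃+* L) S) (P : ∀ u : Place L, LKer S u)
    {α : Lˣ} {ξ : Kˣ}

include hc hw hS in
/-- Prescribing the heights at the places over `v` prescribes the three heights at `w` of the
transported triple. -/
lemma Split.nloc_triple_iff (hw2 : LiesOver K L (mapPlace (σ : L ≃+* L) w) v)
    (hw3 : LiesOver K L (mapPlace (σ : L ≃+* L) (mapPlace (σ : L ≃+* L) w)) v)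
    (c : placesOver K L v → ℝ) (x : OverPt K S v) :
    (∀ u : placesOver K L v, nloc u.1 (eInf : Fin 2 → L) (x u) = c u) ↔
      nloc w (eInf : Fin 2 → L) (Split.triple hw hS hw2 hw3 hc x).1 = c ⟨w, hw⟩ ∧
      nloc w (eInf : Fin 2 → L) (Split.triple hw hS hw2 hw3 hc x).2.1 = c ⟨_, hw2⟩ ∧
      nloc w (eInf : Fin 2 → L) (Split.triple hw hS hw2 hw3 hc x).2.2 = c ⟨_, hw3⟩ := by
  have hm : ∀ {u u' : Place L} (h : mapPlace (σ : L ≃+* L) u = u') (a : Vert S u),
      nloc u' (eInf : Fin 2 → L) (Vert.amap hS h a) = nloc u eInf a := fun h a => by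
    rw [nloc_amap, symVec_eInf]
  simp only [Split.triple, hm]
  refine ⟨fun h => ⟨h ⟨w, hw⟩, h ⟨_, hw2⟩, h ⟨_, hw3⟩⟩, fun h u => ?_⟩
  obtain ⟨u, hu⟩ := u
  rcases hc.eq_or_eq_mapPlace hw hu with rfl | rfl | rfl
  exacts [h.1, h.2.1, h.2.2]

include hw he hn hlev in
/-- Over the fibre of height `d` finitely many starting points carry a nonzero cycle, so the cycle
sums are those of the composite kernel. -/
lemma Split.tsum_cycle_fibre (k₁ k₂ k₃ : LKer S w) (g₁ g₂ g₃ : GL (Fin 2) L) (hξ : ξ ≠ 1)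
    (hg : g₁ * g₂ * g₃ = iGL K L (upMat ξ 0)) (d : ℝ) :
    ∑' p : {p : Vert S w × Vert S w × Vert S w // nloc w (eInf : Fin 2 → L) p.1 = d},
      k₁ p.1.1 (g₁ • p.1.2.2) * k₃ p.1.2.2 (g₂ • p.1.2.1) * k₂ p.1.2.1 (g₃ • p.1.1)
      = ∑' a : {a : Vert S w // nloc w (eInf : Fin 2 → L) a = d},
        k₁.comp (k₃.comp k₂) a.1 (iGL K L (upMat ξ 0) • a.1) := by
  set N : Vert S w → ℝ := nloc w (eInf : Fin 2 → L)
  set f : Vert S w × Vert S w × Vert S w → ℂ := fun p =>
    k₁ p.1 (g₁ • p.2.2) * k₃ p.2.2 (g₂ • p.2.1) * k₂ p.2.1 (g₃ • p.1) with hf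
  set e := Split.vertIso hw he hn hlev
  -- finitely many starting points carry a cycle
  have hinner : ∀ a : Vert S w, (Function.support fun p : Vert S w × Vert S w => f (a, p)).Finite ∧
      ∑' p : Vert S w × Vert S w, f (a, p) = k₁.comp (k₃.comp k₂) a (iGL K L (upMat ξ 0) • a) :=
    fun a => hg ▸ tsum_cycle k₁ k₂ k₃ g₁ g₂ g₃ a
  have hA : {a : Vert S w | N a = d ∧ ∃ p, f (a, p) ≠ 0}.Finite := by
    refine ((finite_fibre_support ((k₁.absKer.comp (k₃.absKer.comp k₂.absKer)).pull (algebraMap K L)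
      (Split.val_iota hw he) hlev) hξ d).image e).subset ?_
    rintro a ⟨ha, p, hp⟩
    obtain ⟨a₀, rfl⟩ := e.surjective a
    have ha' : nloc w (eInf : Fin 2 → L) (e a₀) = d := ha
    rw [nloc_vertIso hw he hn hlev] at ha'
    refine ⟨a₀, ⟨ha', ?_⟩, rfl⟩
    rw [LKer.pull_apply, Vert.fmap_smul, ← Split.vertIso_apply hw he hn hlev]
    change k₁.absKer.comp (k₃.absKer.comp k₂.absKer) (e a₀) (iGL K L (upMat ξ 0) • e a₀) ≠ 0
    rw [← hg, ← (tsum_cycle k₁.absKer k₂.absKer k₃.absKer g₁ g₂ g₃ (e a₀)).2]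
    have e' : ∀ q : Vert S w × Vert S w, k₁.absKer (e a₀) (g₁ • q.2) *
        k₃.absKer q.2 (g₂ • q.1) * k₂.absKer q.1 (g₃ • e a₀) =
          ((‖f (e a₀, q)‖ : ℝ) : ℂ) := fun q => by
      change ((‖_‖ : ℝ) : ℂ) * ((‖_‖ : ℝ) : ℂ) * ((‖_‖ : ℝ) : ℂ) = _
      simp only [hf, norm_mul, Complex.ofReal_mul]
    simp only [e']
    rw [← Complex.ofReal_tsum, Complex.ofReal_ne_zero]
    have hs : Summable fun q => ‖f (e a₀, q)‖ :=
      summable_of_hasFiniteSupport ((hinner (e a₀)).1.subset fun q hq h0 => hq (by simp [h0]))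
    exact ne_of_gt (lt_of_lt_of_le (norm_pos_iff.2 hp) (hs.le_tsum p fun q _ => norm_nonneg _))
  -- sum over the starting point first
  let E : {p : Vert S w × Vert S w × Vert S w // N p.1 = d} ≃ {a : Vert S w // N a = d} ×
      (Vert S w × Vert S w) :=
    { toFun := fun p => (⟨p.1.1, p.2⟩, p.1.2)
      invFun := fun q => ⟨(q.1.1, q.2), q.1.2⟩
      left_inv := fun p => rfl
      right_inv := fun q => rfl }
  rw [← E.symm.tsum_eq]
  change ∑' q : {a : Vert S w // N a = d} × (Vert S w × Vert S w), f (E.symm q).1 = _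
  have hs : Summable fun q : {a : Vert S w // N a = d} × (Vert S w × Vert S w) =>
      f (E.symm q).1 := by
    refine summable_of_hasFiniteSupport ((((hA.preimage Subtype.val_injective.injOn).biUnion
      (t := fun a : {a : Vert S w // N a = d} =>
        (fun p => (a, p)) '' (Function.support fun p => f (a.1, p)))
      fun a _ => (hinner a.1).1.image _)).subset fun q hq => ?_)
    exact Set.mem_biUnion (x := q.1) ⟨q.1.2, q.2, hq⟩ ⟨q.2, hq, rfl⟩
  rw [hs.tsum_prod' fun a : {a : Vert S w // N a = d} =>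
    summable_of_hasFiniteSupport (hinner a.1).1]
  exact tsum_congr fun a : {a : Vert S w // N a = d} => (hinner a.1).2

include hc hw he hn hmoved hlev hS in
/-- **A split block.** At a split place, if the composed kernel on `K` has vanishing sums over each
height, so has the product kernel on the places of `L` over it. -/
theorem Split.tsum_fibre_zero (hN : twistN (σ : L ≃+* L) (upMat α 0) = iGL K L (upMat ξ 0))
    (hξ : ξ ≠ 1)
    (hk2 : KeepsHeight (Split.k2 (w := w) hS P)) (hk3 : KeepsHeight (Split.k3 (w := w) hS P))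
    (hkill : ∀ d : ℝ, ∑' a : {a : Vert SK v // nloc v (eInf : Fin 2 → K) a = d},
      Split.comp hw he hlev hS P a.1 (upMat ξ 0 • a.1) = 0)
    (c : placesOver K L v → ℝ) :
    ∑' x : {x : OverPt K S v // ∀ u : placesOver K L v, nloc u.1 (eInf : Fin 2 → L) (x u) = c u},
      OverPt.val hS P (upMat α 0) x.1 = 0 := by
  have hw2 := hw.mapPlace σ
  have hw3 := hw2.mapPlace σ
  set δ : GL (Fin 2) L := upMat α 0
  set k2 := Split.k2 (w := w) hS P
  set k3 := Split.k3 (w := w) hS P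
  set e := Split.vertIso hw he hn hlev
  set T := Equiv.ofBijective _ (Split.triple_bijective hc hw hmoved hS hw2 hw3)
  set f : Vert S w × Vert S w × Vert S w → ℂ := fun p => (P w) p.1 (δ • p.2.2)
      * k3 p.2.2 (mapGL (σ : L ≃+* L) δ • p.2.1) *
        k2 p.2.1 (mapGL (σ : L ≃+* L) (mapGL (σ : L ≃+* L) δ) • p.1) with hf
  have hval : ∀ x, OverPt.val hS P δ x = f (T x) := Split.val_triple hc hw hmoved hS P δ hw2 hw3
  set c1 := c ⟨w, hw⟩
  set c2 := c ⟨mapPlace (σ : L ≃+* L) w, hw2⟩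
  set c3 := c ⟨mapPlace (σ : L ≃+* L) (mapPlace (σ : L ≃+* L) w), hw3⟩
  set N : Vert S w → ℝ := nloc w (eInf : Fin 2 → L)
  have hcond : ∀ x : OverPt K S v,
      (∀ u : placesOver K L v, nloc u.1 (eInf : Fin 2 → L) (x u) = c u) ↔
      N (T x).1 = c1 ∧ N (T x).2.1 = c2 ∧ N (T x).2.2 = c3 :=
    Split.nloc_triple_iff hc hw hS hw2 hw3 c
  clear_value T
  let E0 : {p : Vert S w × Vert S w × Vert S w // N p.1 = c1 ∧ N p.2.1 = c2 ∧ N p.2.2 = c3} ≃
      {x : OverPt K S v // ∀ u : placesOver K L v, nloc u.1 (eInf : Fin 2 → L) (x u) = c u} :=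
    { toFun := fun p => ⟨T.symm p.1, (hcond _).2 (by rw [T.apply_symm_apply]; exact p.2)⟩
      invFun := fun x => ⟨T x.1, (hcond _).1 x.2⟩
      left_inv := fun p => Subtype.ext (T.apply_symm_apply p.1)
      right_inv := fun x => Subtype.ext (T.symm_apply_apply x.1) }
  refine (E0.tsum_eq (fun x : {x : OverPt K S v // ∀ u : placesOver K L v,
      nloc u.1 (eInf : Fin 2 → L) (x u) = c u} =>
    OverPt.val hS P δ x.1)).symm.trans ?_
  refine (tsum_congr (g := fun p : {p : Vert S w × Vert S w × Vert S w // N p.1 = c1 ∧ N p.2.1 =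
      c2 ∧ N p.2.2 = c3} =>
    f p.1) fun p => ?_).trans ?_
  · exact (hval (T.symm p.1)).trans (congrArg f (T.apply_symm_apply p.1))
  -- the other two heights follow from the first
  set t2 := vabs w (((Units.map ((σ : L ≃+* L) : L →+* L).toMonoidHom
    (Units.map ((σ : L ≃+* L) : L →+* L).toMonoidHom α)) : Lˣ) : L)
  set t1 := vabs w (((Units.map ((σ : L ≃+* L) : L →+* L).toMonoidHom α) : Lˣ) : L)
  have hchain : ∀ p, f p ≠ 0 → N p.2.1 = N p.1 / t2 ∧ N p.2.2 = N p.2.1 / t1 := by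
    intro p hp
    have hb := hk2 _ _ (right_ne_zero_of_mul hp)
    have hc' := hk3 _ _ (right_ne_zero_of_mul (left_ne_zero_of_mul hp))
    rw [mapGL_upMat, mapGL_upMat, nloc_eInf_smul] at hb
    rw [mapGL_upMat, nloc_eInf_smul] at hc'
    exact ⟨hb.symm, hc'.symm⟩
  -- unless the prescribed heights are compatible every term vanishes
  by_cases hcompat : c2 = c1 / t2 ∧ c3 = c2 / t1
  swap
  · refine (tsum_congr fun p : {p : Vert S w × Vert S w × Vert S w // N p.1 = c1 ∧ N p.2.1 = c2 ∧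
        N p.2.2 = c3} =>
      ?_).trans tsum_zero
    by_contra hne
    obtain ⟨h2, h3⟩ := hchain p.1 hne
    obtain ⟨a1, a2, a3⟩ := p.2
    rw [a1, a2] at h2
    rw [a2, a3] at h3
    exact hcompat ⟨h2, h3⟩
  have hsum : ∑' p : {p : Vert S w × Vert S w × Vert S w // N p.1 = c1 ∧ N p.2.1 = c2 ∧
      N p.2.2 = c3}, f p.1
      = ∑' p : {p : Vert S w × Vert S w × Vert S w // N p.1 = c1}, f p.1 := by
    change ∑' p : ↥{p : Vert S w × Vert S w × Vert S w | N p.1 = c1 ∧ N p.2.1 = c2 ∧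
      N p.2.2 = c3}, f p.1
      = ∑' p : ↥{p : Vert S w × Vert S w × Vert S w | N p.1 = c1}, f p.1
    rw [tsum_subtype, tsum_subtype]
    refine tsum_congr fun p => ?_
    rcases eq_or_ne (f p) 0 with h | h
    · simp [Set.indicator_apply, h]
    obtain ⟨h2, h3⟩ := hchain p h
    simp only [Set.indicator_apply, Set.mem_ofPred_eq]
    refine if_congr ⟨fun h' => h'.1, fun h' => ⟨h', ?_, ?_⟩⟩ rfl rfl
    · rw [h2, h', hcompat.1]
    · rw [h3, h2, h', hcompat.2, hcompat.1]
  refine hsum.trans ?_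
  refine (Split.tsum_cycle_fibre hw he hn hlev (P w) k2 k3 δ (mapGL (σ : L ≃+* L) δ)
    (mapGL (σ : L ≃+* L) (mapGL (σ : L ≃+* L) δ)) hξ (by rw [← hN]; rfl) c1).trans ?_
  rw [← (e.subtypeEquiv (p := fun a => nloc v (eInf : Fin 2 → K) a = c1) (q := fun a => N a = c1)
    fun a => by simp only [N, e, nloc_vertIso hw he hn hlev]).tsum_eq]
  refine (tsum_congr fun a => ?_).trans (hkill c1)
  rw [Split.comp, LKer.pull_apply, Vert.fmap_smul]
  rfl

end Fermat.LT
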