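import Fermat.Agent.LT.HypFlow
import Fermat.Agent.LT.HypHeight

/-!
# The diagonal torus on the point space

A partition of unity that only sees the local heights at `∞`, and the scaling flow.
-/

set_option autoImplicit false
open NumberField MeasureTheory Filter Set
open scoped Classical Matrix ComplexConjugate

namespace Fermat.LT

/-- **A partition of unity along a key.** For a countable group compatible with a key, covered by
key sets of finite return, some nonnegative measurable function of the key has translates summing to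
one. -/
theorem exists_weight {T X Q : Type*} [Group T] [Countable T] [MulAction T X] [MeasurableSpace X]
    [MeasurableConstSMul T X] (key : X → Q)
    (hkey : ∀ (t : T) x x', key x = key x' → key (t • x) = key (t • x')) (B : ℕ → Set X)
    (hB : ∀ n, MeasurableSet (B n)) (hBk : ∀ n x x', key x = key x' → x ∈ B n → x' ∈ B n)
    (hcov : ∀ x, ∃ n, x ∈ B n) (hfin : ∀ n x, {t : T | t • x ∈ B n}.Finite) :
    ∃ ψ : X → ℝ, Measurable ψ ∧ (∀ x, 0 ≤ ψ x) ∧ (∀ x, HasSum (fun t : T => ψ (t • x)) 1) ∧
      ∀ x x', key x = key x' → ψ x = ψ x' := by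
  let A : Set X := ⋃ n, B n ∩ ⋂ k ∈ Finset.range n, ⋂ t : T, ((t • ·) ⁻¹' B k)ᶜ
  have hA : MeasurableSet A := MeasurableSet.iUnion fun n => (hB n).inter
    (MeasurableSet.biInter (Finset.range n).countable_toSet fun k _ =>
      MeasurableSet.iInter fun t => ((measurable_const_smul t) (hB k)).compl)
  have hmemA : ∀ x, x ∈ A ↔ ∃ n, x ∈ B n ∧ ∀ k < n, ∀ t : T, t • x ∉ B k := fun x => by simp [A]
  have hAk : ∀ x x', key x = key x' → x ∈ A → x' ∈ A := by
    intro x x' h hx
    obtain ⟨n, hn, hn'⟩ := (hmemA x).1 hx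
    exact (hmemA x').2 ⟨n, hBk n x x' h hn, fun k hk t ht =>
      hn' k hk t (hBk k _ _ (hkey t _ _ h.symm) ht)⟩
  have hAk' : ∀ x x', key x = key x' → (x ∈ A ↔ x' ∈ A) := fun x x' h => ⟨hAk _ _ h, hAk _ _ h.symm⟩
  let Φ : X → ℝ := A.indicator fun _ => 1
  -- on each orbit only the translates meeting the least `B n` lie in `A`
  have horb : ∀ x, {t : T | t • x ∈ A}.Finite ∧ ∃ t : T, t • x ∈ A := by
    intro x
    have hex : ∃ n, ∃ t : T, t • x ∈ B n := by
      obtain ⟨n, hn⟩ := hcov x
      exact ⟨n, 1, by rwa [one_smul]⟩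
    set n₀ := Nat.find hex
    obtain ⟨t₀, ht₀⟩ := Nat.find_spec hex
    refine ⟨(hfin n₀ x).subset fun t ht => ?_, t₀, (hmemA _).2 ⟨n₀, ht₀, fun k hk t ht =>
      Nat.find_min hex hk ⟨t * t₀, by rwa [mul_smul]⟩⟩⟩
    obtain ⟨n, hn, hn'⟩ := (hmemA _).1 ht
    have h1 : n₀ ≤ n := Nat.find_min' hex ⟨t, hn⟩
    rcases lt_or_eq_of_le h1 with hlt | rfl
    · exact absurd ht₀ (by simpa [smul_smul] using hn' n₀ hlt (t₀ * t⁻¹))
    · exact hn
  have hsum : ∀ x, Summable fun t : T => Φ (t • x) := fun x =>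
    summable_of_hasFiniteSupport ((horb x).1.subset fun t ht => by
      by_contra h
      exact ht (indicator_of_notMem (s := A) (a := t • x) h _))
  -- normalise the indicator of `A` by its orbit sums
  let Sx : X → ℝ := fun x => ∑' t : T, Φ (t • x)
  have hΦ0 : ∀ x, 0 ≤ Φ x := fun x => indicator_nonneg (fun _ _ => zero_le_one) x
  have hS0 : ∀ x, 0 < Sx x := fun x => by
    obtain ⟨t, ht⟩ := (horb x).2
    refine lt_of_lt_of_le ?_ ((hsum x).le_tsum t fun u _ => hΦ0 _)
    simp [Φ, indicator_of_mem ht]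
  have hSinv : ∀ (t : T) x, Sx (t • x) = Sx x := fun t x => by
    simp only [Sx, smul_smul]
    exact (Equiv.mulRight t).tsum_eq fun u => Φ (u • x)
  have hΦm : Measurable Φ := measurable_const.indicator hA
  have hSm : Measurable Sx := by
    refine measurable_of_tendsto_metrizable' (u := (atTop : Filter (Finset T)))
      (f := fun s x => ∑ t ∈ s, Φ (t • x)) (fun s => ?_) (tendsto_pi_nhds.2 fun x =>
        (hsum x).hasSum)
    exact Finset.measurable_fun_sum _ fun t _ => hΦm.comp (measurable_const_smul t)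
  refine ⟨fun x => Φ x / Sx x, hΦm.div hSm, fun x => div_nonneg (hΦ0 x) (hS0 x).le, fun x => ?_,
    fun x x' h => ?_⟩
  · have h := (hsum x).hasSum.div_const (Sx x)
    rw [show (∑' t : T, Φ (t • x)) / Sx x = 1 from div_self (hS0 x).ne'] at h
    simpa only [hSinv] using h
  · change Φ x / Sx x = Φ x' / Sx x'
    congr 1
    · simp only [Φ, indicator_apply, hAk' x x' h]
    · exact tsum_congr fun t => by simp only [Φ, indicator_apply, hAk' _ _ (hkey t x x' h)]

variable {F : Type*} [Field F] [NumberField F]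

/-! ### the torus -/

/-- The diagonal torus over the fixed field. -/
noncomputable def dTor (τ : F ≃+* F) : Subgroup (PG F) where
  carrier := {γ | ∃ a : Fˣ, τ (a : F) = a ∧ (upMat a 0 : PG F) = γ}
  one_mem' := ⟨1, by simp, by rw [upMat_one]; rfl⟩
  mul_mem' := by
    rintro _ _ ⟨a, ha, rfl⟩ ⟨b, hb, rfl⟩
    exact ⟨a * b, by simp [ha, hb], by rw [← QuotientGroup.mk_mul, upMat_mul]; simp⟩
  inv_mem' := by
    rintro _ ⟨a, ha, rfl⟩
    exact ⟨a⁻¹, by simp [ha], by rw [← QuotientGroup.mk_inv, upMat_inv]; simp⟩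

omit [NumberField F] in
/-- Membership in the torus. -/
lemma mem_dTor {τ : F ≃+* F} {γ : PG F} :
    γ ∈ dTor τ ↔ ∃ a : Fˣ, τ (a : F) = a ∧ (upMat a 0 : PG F) = γ := Iff.rfl

omit [NumberField F] in
/-- An automorphism fixing `a` fixes `diag(a, 1)`. -/
lemma mapGL_upMat_zero {τ : F ≃+* F} {a : Fˣ} (ha : τ (a : F) = a) :
    mapGL τ (upMat a 0) = upMat a 0 := by
  refine Units.ext (Matrix.ext fun i j => ?_)
  rw [coe_mapGL, coe_upMat]
  fin_cases i <;> fin_cases j <;> simp [ha]

/-- What the weight sees, for local heights `nl`. -/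
noncomputable def wKey {M : Type*} (nl : M → Place F → ℝ) (p : M × (InfinitePlace F → H3)) :
    (Place F → ℝ) × (InfinitePlace F → ℝ) :=
  (nl p.1, fun w => (H3.coord (p.2 w)).2)

/-- **The weight** on a countable finite factor with local heights `nl` times the symmetric
space. -/
theorem exists_torus_weight_gen {M : Type*} [MeasurableSpace M] [DiscreteMeasurableSpace M]
    [Countable M] [Nonempty M] {τ : F ≃+* F} [MulAction (dTor τ) (M × (InfinitePlace F → H3))]
    [MeasurableConstSMul (dTor τ) (M × (InfinitePlace F → H3))] (nl : M → Place F → ℝ)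
    (hnl : ∀ ω v, nl ω v ≠ 0)
    (hsmul : ∀ (t : dTor τ) (p : M × (InfinitePlace F → H3)), ∃ a : Fˣ,
    (upMat a 0 : PG F) = (t : PG F) ∧
      wKey nl (t • p) =
        (fun v => (wKey nl p).1 v / vabs v (a : F), fun w => w (a : F) * (wKey nl p).2 w)) :
    ∃ ψ : M × (InfinitePlace F → H3) → ℝ, Measurable ψ ∧ (∀ p, 0 ≤ ψ p) ∧
      (∀ p, HasSum (fun t : dTor τ => ψ (t • p)) 1) ∧ ∀ p q, wKey nl p = wKey nl q → ψ p = ψ q := by
  obtain ⟨en, hen⟩ := exists_surjective_nat M
  -- exhaust by the sets of the first `n + 1` local heights and bounded archimedean heights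
  let B : ℕ → Set (M × (InfinitePlace F → H3)) := fun n => {p | (∃ k ∈ Finset.range (n + 1),
      (wKey nl p).1 = fun v => nl (en k) v) ∧
    ∀ w, (H3.coord (p.2 w)).2 ∈ Set.Icc ((n + 1 : ℝ)⁻¹) (n + 1)}
  refine exists_weight (wKey nl) (fun t x x' h => ?_) B (fun n => ?_)
    (fun n x x' h hx => ?_) (fun x => ?_) fun n x => ?_
  · obtain ⟨a, ha, e⟩ := hsmul t x
    obtain ⟨a', ha', e'⟩ := hsmul t x'
    have : a = a' := congrArg Prod.fst (upMat_PG_injective (F := F) (show
      (fun z : Fˣ × F => (upMat z.1 z.2 : PG F)) (a, 0) =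
        (fun z : Fˣ × F => (upMat z.1 z.2 : PG F)) (a', 0) from ha.trans ha'.symm))
    rw [e, e', h, this]
  · refine MeasurableSet.inter ?_ ?_
    · exact measurable_fst (MeasurableSet.of_discrete (s := {ν : M | ∃ k ∈ Finset.range (n + 1),
        (fun v => nl ν v) = fun v => nl (en k) v}))
    · change MeasurableSet {p : M × (InfinitePlace F → H3) |
        ∀ w : InfinitePlace F, (H3.coord (p.2 w)).2 ∈ Set.Icc ((n + 1 : ℝ)⁻¹) (n + 1)}
      rw [ofPred_forall]
      exact MeasurableSet.iInter fun w => measurableSet_Icc.preimage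
        (continuous_coord.snd.measurable.comp ((measurable_pi_apply w).comp measurable_snd))
  · obtain ⟨⟨k, hk, e⟩, h2⟩ := hx
    refine ⟨⟨k, hk, by rw [← h]; exact e⟩, fun w => ?_⟩
    have := congrFun (congrArg Prod.snd h) w
    simp only [wKey] at this
    rw [← this]; exact h2 w
  · obtain ⟨k, hk⟩ := hen x.1
    obtain ⟨N, hN⟩ := exists_nat_ge (∑ w, ((H3.coord (x.2 w)).2 + ((H3.coord (x.2 w)).2)⁻¹))
    refine ⟨max k N, ⟨k, Finset.mem_range.2 (by omega), by rw [hk]; rfl⟩, fun w => ?_⟩
    have hpos : ∀ u, 0 < (H3.coord (x.2 u)).2 := fun u => H3.coord_pos _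
    have h1 : (H3.coord (x.2 w)).2 + ((H3.coord (x.2 w)).2)⁻¹ ≤ (N : ℝ) :=
      (Finset.single_le_sum (f := fun u => (H3.coord (x.2 u)).2 + ((H3.coord (x.2 u)).2)⁻¹)
        (fun u _ => (add_pos (hpos u) (inv_pos.2 (hpos u))).le) (Finset.mem_univ w)).trans hN
    have h2 : (N : ℝ) ≤ ((max k N : ℕ) : ℝ) := by exact_mod_cast le_max_right k N
    have h3 := inv_pos.2 (hpos w)
    refine ⟨?_, by linarith [hpos w]⟩
    rw [inv_le_comm₀ (by positivity) (hpos w)]
    linarith [hpos w]
  · -- finitely many elements move `x` into `B n`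
    have hfinA : ∀ k, {a : Fˣ | (∀ v, nl x.1 v / vabs v (a : F)
        = nl (en k) v) ∧ ∀ w : InfinitePlace F, w (a : F) * (H3.coord (x.2 w)).2 ≤
            n + 1}.Finite := by
      intro k
      by_cases hne : ∃ a₀ : Fˣ, ∀ v, nl x.1 v / vabs v (a₀ : F)
        = nl (en k) v
      swap
      · exact Set.finite_empty.subset fun a ha => hne ⟨a, ha.1⟩
      obtain ⟨a₀, ha₀⟩ := hne
      -- the ratios `a / a₀` are integral with bounded absolute values
      set C : ℝ := ∑ w : InfinitePlace F, (n + 1) / ((H3.coord (x.2 w)).2 * w (a₀ : F))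
      have hfinC := finite_bounded_elements (F := F) (fun _ => 0) (by simp) C
      refine ((hfinC.preimage (f := fun a : Fˣ => ((a * a₀⁻¹ : Fˣ) : F)) ?_)).subset ?_
      · exact fun a _ b _ h => mul_right_cancel (Units.ext h)
      rintro a ⟨ha, ha'⟩
      refine ⟨fun v => ?_, fun φ => ?_⟩
      · rw [Nat.cast_zero, WithZero.exp_zero, ← vabs_le_one_iff]
        have e := (ha v).trans (ha₀ v).symm
        rw [div_eq_div_iff ((vabs v).pos a.ne_zero).ne' ((vabs v).pos a₀.ne_zero).ne'] at e
        have h0 : nl x.1 v ≠ 0 := hnl _ _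
        have e2 := mul_left_cancel₀ h0 e
        change vabs v ((a * a₀⁻¹ : Fˣ) : F) ≤ 1
        rw [Units.val_mul, map_mul, Units.val_inv_eq_inv_val, map_inv₀, e2,
          mul_inv_cancel₀ ((vabs v).pos a.ne_zero).ne']
      · set w := InfinitePlace.mk φ
        have hw : ∀ b : F, ‖φ b‖ = w b := fun b => (InfinitePlace.apply φ b).symm
        change ‖φ ((a * a₀⁻¹ : Fˣ) : F)‖ ≤ C
        rw [hw, Units.val_mul, map_mul, Units.val_inv_eq_inv_val, map_inv₀]
        have hc := H3.coord_pos (x.2 w)
        have h0 : 0 < w (a₀ : F) := InfinitePlace.pos_iff.2 a₀.ne_zero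
        refine le_trans ?_ (Finset.single_le_sum (f := fun w : InfinitePlace F =>
          ((n : ℝ) + 1) / ((H3.coord (x.2 w)).2 * w (a₀ : F))) (fun u _ =>
            div_nonneg (by positivity)
            (mul_nonneg (H3.coord_pos _).le (apply_nonneg _ _))) (Finset.mem_univ w))
        rw [le_div_iff₀ (mul_pos hc h0)]
        calc w (a : F) * (w (a₀ : F))⁻¹ * ((H3.coord (x.2 w)).2 * w (a₀ : F))
            = w (a : F) * (H3.coord (x.2 w)).2 := by field_simp
          _ ≤ n + 1 := ha' w
    refine Set.Finite.of_finite_image (f := fun t : dTor τ => (t : PG F)) ?_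
      Subtype.val_injective.injOn
    refine (((Finset.range (n + 1)).finite_toSet.biUnion fun k _ => hfinA k).image
      fun a => ((upMat a 0 : GL (Fin 2) F) : PG F)).subset ?_
    rintro _ ⟨t, ⟨⟨k, hk, e⟩, h2⟩, rfl⟩
    obtain ⟨a, ha, e'⟩ := hsmul t x
    refine ⟨a, Set.mem_biUnion (Finset.mem_coe.2 hk) ⟨fun v => ?_, fun w => ?_⟩, ha⟩
    · rw [← congrFun e v]
      exact (congrFun (congrArg Prod.fst e') v).symm
    · have h3 := (h2 w).2
      rw [show (H3.coord ((t • x).2 w)).2 = w (a : F) * (H3.coord (x.2 w)).2 from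
        congrFun (congrArg Prod.snd e') w] at h3
      exact h3

variable {S : Set (Place F)} [Finite S] [IsTotallyComplex F]

/-- What the weight sees: the local norms of `(0 1)` at the finite places and the heights at
infinity. -/
noncomputable def torKey (p : Pt F S) : (Place F → ℝ) × (InfinitePlace F → ℝ) :=
  (fun v => nloc v (eInf : Fin 2 → F) (p.1.1 v), fun w => (H3.coord (p.2 w)).2)

omit [IsTotallyComplex F] in
/-- The torus scales what the weight sees by the absolute values of its entry. -/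
lemma torKey_smul {τ : F ≃+* F} (t : dTor τ) (p : Pt F S) :
    ∃ a : Fˣ, (upMat a 0 : PG F) = (t : PG F) ∧
      torKey (t • p) =
        (fun v => (torKey p).1 v / vabs v (a : F), fun w => w (a : F) * (torKey p).2 w) := by
  obtain ⟨a, -, ha⟩ := mem_dTor.1 t.2
  refine ⟨a, ha, ?_⟩
  rw [Subgroup.smul_def, ← ha, PG.mk_smul]
  refine Prod.ext (funext fun v => ?_) (funext fun w => ?_)
  · change nloc v _ ((upMat a (0 : F) • p).1.1 v) = _
    rw [Pt.smul_fst, FinPt.smul_apply, nloc_eInf_smul]
    rfl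
  · change (H3.coord ((upMat a (0 : F) • p).2 w)).2 = _
    rw [Pt.smul_snd, coord_upMat_smul]
    rfl

omit [IsTotallyComplex F] in
/-- **The weight.** The diagonal torus has a nonnegative measurable weight, depending only on
`torKey`, whose translates sum to one. -/
theorem exists_torus_weight (τ : F ≃+* F) :
    ∃ ψ : Pt F S → ℝ, Measurable ψ ∧ (∀ p, 0 ≤ ψ p) ∧
      (∀ p, HasSum (fun t : dTor τ => ψ (t • p)) 1) ∧
      ∀ p q, torKey p = torKey q → ψ p = ψ q := by
  have : DiscreteMeasurableSpace (FinPt F S) := ⟨fun _ => trivial⟩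
  have : Nonempty (FinPt F S) := ⟨FinPt.base⟩
  exact exists_torus_weight_gen (fun (ω : FinPt F S) v => nloc v (eInf : Fin 2 → F) (ω.1 v))
    (fun _ v => (nfin_pos v eInf_ne_zero _).ne') torKey_smul

/-! ### the flow -/

/-- `diag (e^s, 1)`. -/
noncomputable def scaleC (s : ℝ) : GL (Fin 2) ℂ :=
  Matrix.GeneralLinearGroup.mkOfDetNeZero !![(Real.exp s : ℂ), 0; 0, 1] (by
    simp [Matrix.det_fin_two])

/-- The matrix of the scaling. -/
@[simp] lemma coe_scaleC (s : ℝ) :
    (scaleC s : Matrix (Fin 2) (Fin 2) ℂ) = !![(Real.exp s : ℂ), 0; 0, 1] := rfl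

/-- The scaling is real. -/
lemma cGL_scaleC (s : ℝ) : cGL (scaleC s) = scaleC s := by
  refine Units.ext (Matrix.ext fun i j => ?_)
  rw [coe_cGL, coe_scaleC]
  fin_cases i <;> fin_cases j <;> simp [← Complex.exp_conj]

omit [NumberField F] [IsTotallyComplex F] in
/-- The scaling commutes with the torus. -/
lemma scaleC_comm_atInf (s : ℝ) (w : InfinitePlace F) (a : Fˣ) :
    scaleC s * atInf w (upMat a 0) = atInf w (upMat a 0) * scaleC s := by
  refine Units.ext (Matrix.ext fun i j => ?_)
  fin_cases i <;> fin_cases j <;> simp [atInf, Matrix.mul_apply, mul_comm]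

/-- `diag(eˢ, 1)` scales both coordinates by `eˢ`. -/
lemma coord_scaleC (s : ℝ) (y : H3) :
    H3.coord (scaleC s • y) = ((Real.exp s : ℂ) * (H3.coord y).1, Real.exp s * (H3.coord y).2) := by
  conv_lhs => rw [← H3.mk_coord y, H3.mk_of_pos _ (H3.coord_pos y), MulAction.Quotient.smul_coe,
    smul_eq_mul, H3.coord_mk]
  rw [zc_mul_triMat_of_upper _ (by simp), tc_mul_triMat]
  simp [Matrix.det_fin_two_of, Complex.norm_exp]

/-- Scaling back. -/
lemma scaleC_neg_smul (s : ℝ) (x : H3) : scaleC (-s) • scaleC s • x = x := by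
  refine coord_injective ?_
  rw [coord_scaleC, coord_scaleC, Real.exp_neg]
  have := (Real.exp_pos s).ne'
  refine Prod.ext ?_ ?_
  · simp [-Complex.ofReal_exp]
  · show _ = (H3.coord x).2
    field_simp

omit [IsTotallyComplex F] in
/-- The scaling multiplies the product of the squared archimedean heights by `eˢ`. -/
lemma prod_coord_scale (s : ℝ) (y : InfinitePlace F → H3) :
    ∏ w, (H3.coord (scaleC (s / (2 * Fintype.card (InfinitePlace F))) • y w)).2 ^ 2
      = Real.exp s * ∏ w, (H3.coord (y w)).2 ^ 2 := by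
  simp only [coord_scaleC, mul_pow, Finset.prod_mul_distrib, Finset.prod_const, Finset.card_univ]
  rw [← pow_mul, ← Real.exp_nat_mul]
  congr 2
  push_cast
  field_simp

/-- The scaling multiplies the archimedean height factor of the other axis by `eˢ`. -/
lemma prod_ninf_scale (s : ℝ) (y : InfinitePlace F → H3) :
    ∏ w, ninf (embVec w ![(1 : F), 0]) (scaleC (s / (2 * Fintype.card (InfinitePlace F))) • y w)
        ^ w.mult
      = (∏ w, ninf (embVec w ![(1 : F), 0]) (y w) ^ w.mult) * Real.exp s := by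
  have key : ∀ w : InfinitePlace F,
      ninf (embVec w ![1, 0]) (scaleC (s / (2 * Fintype.card (InfinitePlace F))) • y w) ^ w.mult
      = ninf (embVec w ![1, 0]) (y w) ^ w.mult * Real.exp (s / Fintype.card (InfinitePlace F)) :=
          fun w => by
    have e : embVec w ![(1 : F), 0] = ![1, 0] := by funext i; fin_cases i <;> simp [embVec]
    rw [InfinitePlace.mult,
      if_neg (InfinitePlace.not_isReal_iff_isComplex.2 (IsTotallyComplex.isComplex w)), e,
      show Real.exp (s / Fintype.card (InfinitePlace F)) =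
          Real.exp (s / (2 * Fintype.card (InfinitePlace F))) ^ 2 by
        rw [← Real.exp_nat_mul]; congr 1; push_cast; field_simp,
      ← mul_pow]
    congr 1
    rw [ninf_coord, ninf_coord, coord_scaleC]
    have hc := H3.coord_pos (y w)
    simp [Complex.normSq_mul, Complex.normSq_ofReal, -Complex.ofReal_exp]
    field_simp
  rw [Finset.prod_congr rfl fun w _ => key w, Finset.prod_mul_distrib, Finset.prod_const,
    Finset.card_univ, ← Real.exp_nat_mul]
  congr 2
  field_simp

/-- The flow scaling all infinite places. -/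
noncomputable def scaleFlow (s : ℝ) (p : Pt F S) : Pt F S :=
  (p.1, fun w => scaleC (s / (2 * Fintype.card (InfinitePlace F))) • p.2 w)

omit [NumberField F] [IsTotallyComplex F] in
/-- Scaling commutes with passing to an arbitrary embedding. -/
lemma extH_scale (s : ℝ) (y : InfinitePlace F → H3) (φ : F →+* ℂ) :
    extH (fun w => scaleC s • y w) φ = scaleC s • extH y φ := by
  unfold extH
  split_ifs
  · rfl
  · rw [H3.cj_smul, cGL_scaleC]

omit [Finite S] [IsTotallyComplex F] in
/-- The flow commutes with the automorphism. -/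
lemma scaleFlow_amap {τ : F ≃+* F} (hS : Stable τ S) (s : ℝ) (p : Pt F S) :
    Pt.amap hS (scaleFlow s p) = scaleFlow s (Pt.amap hS p) :=
  Prod.ext rfl (funext fun _ => extH_scale _ _ _)

omit [IsTotallyComplex F] in
/-- The scaling flow commutes with diagonal matrices. -/
lemma scaleFlow_upMat (s : ℝ) (a : Fˣ) (p : Pt F S) :
    scaleFlow s (upMat a (0 : F) • p) = upMat a (0 : F) • scaleFlow s p := by
  refine Prod.ext rfl (funext fun w => ?_)
  change scaleC _ • (upMat a (0 : F) • p).2 w = (upMat a (0 : F) • scaleFlow s p).2 w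
  rw [Pt.smul_snd, Pt.smul_snd, ← mul_smul, scaleC_comm_atInf, mul_smul]
  rfl

omit [Finite S] in
/-- The scaling flow divides the height of `∞` by `eˢ`. -/
lemma ht_eInf_scaleFlow (s : ℝ) (p : Pt F S) :
    ht (eInf : Fin 2 → F) (scaleFlow s p) = ht (eInf : Fin 2 → F) p * Real.exp (-s) := by
  rw [ht_eInf, ht_eInf]
  change phiInf p.1 / ∏ w, (H3.coord (scaleC _ • p.2 w)).2 ^ 2 = _
  rw [prod_coord_scale, Real.exp_neg]
  field_simp

omit [Finite S] in
/-- The scaling flow multiplies the height of the other axis by `eˢ`. -/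
lemma ht_zero_scaleFlow (s : ℝ) (p : Pt F S) :
    ht ![1, 0] (scaleFlow s p) = ht ![1, 0] p * Real.exp s := by
  rw [ht, ht, mul_assoc]
  exact congrArg (_ * ·) (prod_ninf_scale s p.2)

/-- Minus the logarithm of the height of `∞`. -/
noncomputable def hPhi (p : Pt F S) : ℝ := -Real.log (ht (eInf : Fin 2 → F) p)

omit [IsTotallyComplex F] in
/-- Minus the log height of `∞` is invariant under the torus. -/
lemma hPhi_dTor {τ : F ≃+* F} (t : dTor τ) (p : Pt F S) : hPhi (t • p) = hPhi p := by
  obtain ⟨a, -, ha⟩ := mem_dTor.1 t.2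
  rw [hPhi, hPhi, Subgroup.smul_def, ← ha, PG.mk_smul, ht_eInf_upMat_smul]

/-- **The flow is a height flow.** The scaling flow preserves the measure, commutes with the
diagonal torus and translates `hPhi` by the time (`IsHeightFlow`). -/
theorem isHeightFlow_scale (τ : F ≃+* F) :
    IsHeightFlow (dTor τ) (ptMeasure (F := F) (S := S)) scaleFlow hPhi where
  mp s := (MeasurePreserving.id (Measure.count : Measure (FinPt F S))).prod
    (measurePreserving_pi (fun _ : InfinitePlace F => hmeas) (fun _ => hmeas)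
      (f := fun _ => (scaleC (s / (2 * Fintype.card (InfinitePlace F))) • ·)) fun _ =>
        measurePreserving_smul_H3 _)
  comm t s p := by
    obtain ⟨a, -, ha⟩ := mem_dTor.1 t.2
    rw [Subgroup.smul_def, Subgroup.smul_def, ← ha, PG.mk_smul, PG.mk_smul, scaleFlow_upMat]
  left_inv s p := Prod.ext rfl (funext fun w => by
    change scaleC (-s / _) • scaleC (s / _) • p.2 w = p.2 w
    rw [neg_div, scaleC_neg_smul])
  measφ := ((Real.measurable_log.comp (measurable_ht _))).neg
  invφ := hPhi_dTor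
  shift s p := by
    rw [hPhi, hPhi, ht_eInf_scaleFlow,
      Real.log_mul (ht_pos eInf_ne_zero p).ne' (Real.exp_ne_zero _), Real.log_exp]
    ring

end Fermat.LT
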