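import Mathlib

/-!
# Hilbert–Schmidt integral operators on `L²`

`op` is the bounded operator of a square integrable kernel (`SqKernel`);
`isCompactOperator_of_summable` gives compactness.
-/

set_option autoImplicit false
open MeasureTheory Filter Topology
open scoped InnerProductSpace ComplexConjugate

namespace Fermat.LT

variable {α : Type*} [MeasurableSpace α] {μ : Measure α} [SFinite μ]

omit [SFinite μ] in
/-- The squared `L²` norm is the integral of the squared norm of any representative. -/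
lemma norm_sq_eq_integral {f : α →₂[μ] ℂ} {g : α → ℂ} (h : f =ᵐ[μ] g) :
    ‖f‖ ^ 2 = ∫ x, ‖g x‖ ^ 2 ∂μ := by
  rw [← inner_self_eq_norm_sq (𝕜 := ℂ), L2.inner_def]
  have e : (fun x => ⟪f x, f x⟫_ℂ) =ᵐ[μ] fun x => ((‖g x‖ ^ 2 : ℝ) : ℂ) := by
    filter_upwards [h] with x hx
    rw [hx, inner_self_eq_norm_sq_to_K]
    simp
  rw [integral_congr_ae e, integral_complex_ofReal]
  simp

/-- Square integrable kernel. -/
structure SqKernel (μ : Measure α) where
  /-- The kernel on pairs of points. -/
  toFun : α → α → ℂ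
  /-- The kernel is square integrable for the product measure. -/
  memLp : MemLp (Function.uncurry toFun) 2 (μ.prod μ)

namespace SqKernel

variable (K : SqKernel μ)

/-- Almost every row is measurable. -/
lemma aesm_right : ∀ᵐ x ∂μ, AEStronglyMeasurable (K.toFun x) μ :=
  K.memLp.1.prodMk_left

omit [SFinite μ] in
/-- The kernel is square integrable. -/
lemma integrable_sq : Integrable (fun z : α × α => ‖K.toFun z.1 z.2‖ ^ 2) (μ.prod μ) :=
  (memLp_two_iff_integrable_sq_norm K.memLp.1).1 K.memLp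

/-- Almost every row is square integrable. -/
lemma memLp_right : ∀ᵐ x ∂μ, MemLp (K.toFun x) 2 μ := by
  filter_upwards [K.aesm_right, K.integrable_sq.prod_right_ae] with x h1 h2
  exact (memLp_two_iff_integrable_sq_norm h1).2 h2

/-- The squared `L²` norm of `K(x, ·)`. -/
noncomputable def rowSq (x : α) : ℝ := ∫ y, ‖K.toFun x y‖ ^ 2 ∂μ

/-- The squared row norms are integrable. -/
lemma integrable_rowSq : Integrable K.rowSq μ := K.integrable_sq.integral_prod_left

/-- Total square integral. -/
noncomputable def normSq : ℝ := ∫ z, ‖K.toFun z.1 z.2‖ ^ 2 ∂μ.prod μ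

/-- The squared norm is the integral of the squared row norms. -/
lemma normSq_eq : K.normSq = ∫ x, K.rowSq x ∂μ := integral_prod _ K.integrable_sq

/-- Value of the operator on `ψ`. -/
noncomputable def appFun (ψ : α →₂[μ] ℂ) (x : α) : ℂ := ∫ y, K.toFun x y * ψ y ∂μ

omit [SFinite μ] in
/-- The operator evaluates as the inner product with the conjugate row of the kernel. -/
lemma appFun_eq_inner (ψ : α →₂[μ] ℂ) {x : α} (h : MemLp (fun y => conj (K.toFun x y)) 2 μ) :
    K.appFun ψ x = ⟪h.toLp _, ψ⟫_ℂ := by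
  rw [L2.inner_def, appFun]
  refine integral_congr_ae ?_
  filter_upwards [h.coeFn_toLp] with y hy
  rw [hy, RCLike.inner_apply]
  simp [mul_comm]

omit [SFinite μ] in
/-- The conjugate of a row is square integrable. -/
lemma memLp_conj {x : α} (h : MemLp (K.toFun x) 2 μ) :
    MemLp (fun y => conj (K.toFun x y)) 2 μ :=
  h.of_le (Complex.continuous_conj.comp_aestronglyMeasurable h.1)
    (Eventually.of_forall fun _ => by simp)

omit [SFinite μ] in
/-- The norm of a conjugate row. -/
lemma norm_toLp_conj_sq {x : α} (h : MemLp (fun y => conj (K.toFun x y)) 2 μ) :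
    ‖h.toLp _‖ ^ 2 = K.rowSq x := by
  rw [norm_sq_eq_integral h.coeFn_toLp, rowSq]
  simp

/-- The image function is measurable. -/
lemma appFun_aesm (ψ : α →₂[μ] ℂ) : AEStronglyMeasurable (K.appFun ψ) μ :=
  (K.memLp.1.mul ((Lp.aestronglyMeasurable ψ).comp_snd)).integral_prod_right'

/-- Cauchy–Schwarz for the image. -/
lemma appFun_sq_le (ψ : α →₂[μ] ℂ) : ∀ᵐ x ∂μ, ‖K.appFun ψ x‖ ^ 2 ≤ K.rowSq x * ‖ψ‖ ^ 2 := by
  filter_upwards [K.memLp_right] with x hx
  have h := K.memLp_conj hx
  rw [K.appFun_eq_inner ψ h, ← K.norm_toLp_conj_sq h, ← mul_pow]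
  exact pow_le_pow_left₀ (norm_nonneg _) (norm_inner_le_norm _ _) 2

/-- The operator maps `L²` into `L²`. -/
lemma appFun_memLp (ψ : α →₂[μ] ℂ) : MemLp (K.appFun ψ) 2 μ := by
  rw [memLp_two_iff_integrable_sq_norm (K.appFun_aesm ψ)]
  refine (K.integrable_rowSq.mul_const (‖ψ‖ ^ 2)).mono' ?_ ?_
  · exact ((continuous_pow 2).comp continuous_norm).comp_aestronglyMeasurable (K.appFun_aesm ψ)
  · filter_upwards [K.appFun_sq_le ψ] with x hx
    simpa using hx

/-- The operator as a linear map. -/
noncomputable def opLin : (α →₂[μ] ℂ) →ₗ[ℂ] (α →₂[μ] ℂ) where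
  toFun ψ := (K.appFun_memLp ψ).toLp _
  map_add' ψ φ := by
    rw [← MemLp.toLp_add, MemLp.toLp_eq_toLp_iff]
    filter_upwards [K.memLp_right] with x hx
    rw [Pi.add_apply, K.appFun_eq_inner _ (K.memLp_conj hx), K.appFun_eq_inner _ (K.memLp_conj hx),
      K.appFun_eq_inner _ (K.memLp_conj hx), inner_add_right]
  map_smul' c ψ := by
    rw [RingHom.id_apply, ← MemLp.toLp_const_smul, MemLp.toLp_eq_toLp_iff]
    filter_upwards [K.memLp_right] with x hx
    rw [Pi.smul_apply, K.appFun_eq_inner _ (K.memLp_conj hx),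
      K.appFun_eq_inner _ (K.memLp_conj hx), inner_smul_right, smul_eq_mul]

/-- The operator norm is at most the Hilbert–Schmidt norm. -/
lemma norm_opLin_le (ψ : α →₂[μ] ℂ) : ‖K.opLin ψ‖ ≤ Real.sqrt K.normSq * ‖ψ‖ := by
  rw [← abs_of_nonneg (norm_nonneg (K.opLin ψ)), ← Real.sqrt_sq (norm_nonneg ψ),
    ← Real.sqrt_mul (show 0 ≤ K.normSq from integral_nonneg fun _ => sq_nonneg _),
    ← Real.sqrt_sq_eq_abs]
  refine Real.sqrt_le_sqrt ?_
  rw [norm_sq_eq_integral (f := K.opLin ψ) (K.appFun_memLp ψ).coeFn_toLp, K.normSq_eq,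
    ← integral_mul_const]
  exact integral_mono_ae ((memLp_two_iff_integrable_sq_norm (K.appFun_aesm ψ)).1 (K.appFun_memLp ψ))
    (K.integrable_rowSq.mul_const _) (K.appFun_sq_le ψ)

/-- The bounded operator on `L²` given by a square integrable kernel. -/
noncomputable def op : (α →₂[μ] ℂ) →L[ℂ] (α →₂[μ] ℂ) :=
  K.opLin.mkContinuous (Real.sqrt K.normSq) K.norm_opLin_le

/-- The operator is the image function. -/
lemma op_coeFn (ψ : α →₂[μ] ℂ) : K.op ψ =ᵐ[μ] K.appFun ψ := (K.appFun_memLp ψ).coeFn_toLp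

/-- Bessel: Hilbert–Schmidt bound for any finite orthonormal family. -/
lemma sum_norm_op_sq_le {ι : Type*} {b : ι → α →₂[μ] ℂ} (hb : Orthonormal ℂ b) (s : Finset ι) :
    ∑ i ∈ s, ‖K.op (b i)‖ ^ 2 ≤ K.normSq := by
  have hI : ∀ i, Integrable (fun x => ‖K.appFun (b i) x‖ ^ 2) μ := fun i =>
    (memLp_two_iff_integrable_sq_norm (K.appFun_aesm _)).1 (K.appFun_memLp _)
  simp only [fun i => norm_sq_eq_integral (K.op_coeFn (b i))]
  rw [← integral_finsetSum s fun i _ => hI i, K.normSq_eq]
  refine integral_mono_ae (integrable_finsetSum s fun i _ => hI i) K.integrable_rowSq ?_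
  filter_upwards [K.memLp_right] with x hx
  have h := K.memLp_conj hx
  simp only [K.appFun_eq_inner _ h, norm_inner_symm (h.toLp _)]
  exact (hb.sum_inner_products_le (h.toLp _)).trans (K.norm_toLp_conj_sq h).le

end SqKernel

/-- An operator with a summable Hilbert–Schmidt series is compact. -/
theorem isCompactOperator_of_summable {E : Type*} [NormedAddCommGroup E] [InnerProductSpace ℂ E]
    [CompleteSpace E] {ι : Type*} (b : HilbertBasis ι ℂ E) (A : E →L[ℂ] E)
    (h : Summable fun i => ‖A (b i)‖ ^ 2) : IsCompactOperator A := by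
  classical
  let R : Finset ι → E →L[ℂ] E := fun s => ∑ i ∈ s,
    (innerSL ℂ (b i)).smulRight (A (b i))
  have hR : ∀ s, IsCompactOperator (R s) := fun s => by
    induction s using Finset.induction with
    | empty => simp only [R, Finset.sum_empty]; exact isCompactOperator_zero
    | insert j s hj ih =>
      simp only [R, Finset.sum_insert hj]
      refine IsCompactOperator.add ?_ ih
      have : ((innerSL ℂ (b j)).smulRight (A (b j)) : E → E)
          = ((1 : ℂ →L[ℂ] ℂ).smulRight (A (b j))) ∘ (innerSL ℂ (b j)) := by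
        funext x; simp
      rw [show (⇑(((innerSL ℂ (b j)).smulRight (A (b j))) : E →ₗ[ℂ] E) : E → E) = _ from this]
      exact (isCompactOperator_of_locallyCompactSpace_rng
        ((1 : ℂ →L[ℂ] ℂ).smulRight (A (b j)))).comp_clm (innerSL ℂ (b j))
  -- finite rank partial sums converge in norm
  refine isCompactOperator_of_tendsto (F := R) (l := atTop) ?_ (Eventually.of_forall hR)
  rw [Metric.tendsto_atTop]
  intro ε hε
  obtain ⟨s₀, hs₀⟩ := summable_iff_vanishing.1 h (Metric.ball 0 (ε ^ 2 / 4))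
    (Metric.ball_mem_nhds 0 (by positivity))
  refine ⟨s₀, fun s hs => ?_⟩
  rw [dist_eq_norm]
  refine lt_of_le_of_lt (ContinuousLinearMap.opNorm_le_bound _ (M := ε / 2) (by positivity)
    fun x => ?_) (by linarith)
  have hx : HasSum (fun i => b.repr x i • A (b i)) (A x) := by
    simpa [Function.comp_def] using (b.hasSum_repr x).mapL A
  have hRs : R s x = ∑ i ∈ s, b.repr x i • A (b i) := by
    simp [R, b.repr_apply_apply]
  -- Cauchy–Schwarz bounds a tail
  have key : ∀ t : Finset ι, Disjoint t s₀ → ‖∑ i ∈ t, b.repr x i • A (b i)‖ ≤ ε / 2 * ‖x‖ := by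
    intro t ht
    refine (norm_sum_le _ _).trans ?_
    simp only [norm_smul]
    refine (Real.sum_mul_le_sqrt_mul_sqrt t _ _).trans ?_
    rw [mul_comm]
    refine mul_le_mul ?_ ?_ (Real.sqrt_nonneg _) (by positivity)
    · rw [Real.sqrt_le_left (by positivity)]
      have h2 := hs₀ t ht
      rw [Metric.mem_ball, dist_zero_right, Real.norm_eq_abs,
        abs_of_nonneg (Finset.sum_nonneg fun i _ => sq_nonneg _)] at h2
      nlinarith
    · rw [Real.sqrt_le_left (norm_nonneg _)]
      simp only [b.repr_apply_apply]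
      exact b.orthonormal.sum_inner_products_le x
  have hlim : Tendsto (fun u : Finset ι => (R s x) - ∑ i ∈ u, b.repr x i • A (b i)) atTop
      (𝓝 ((R s - A) x)) := by
    simpa using tendsto_const_nhds.sub hx
  refine le_of_tendsto hlim.norm (eventually_atTop.2 ⟨s, fun u hu => ?_⟩)
  rw [hRs, norm_sub_rev, ← Finset.sum_sdiff hu, add_sub_cancel_right]
  exact key _ (Finset.disjoint_left.2 fun i hi hi0 => (Finset.mem_sdiff.1 hi).2 (hs hi0))

end Fermat.LT
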