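import Fermat.Agent.LT.H3Swap
import Fermat.Agent.LT.KernComp

/-!
# Composing a product kernel with a kernel at one place

`locAct` and `archAct` apply a kernel at one place to functions of points; `kap_actArch` and
`Bdd.actLoc` carry this to the summed kernels.
-/

set_option autoImplicit false
open MeasureTheory Filter Set NumberField
open scoped Classical

namespace Fermat.LT

section

/-- Composition of kernels with finite rows is associative. -/
theorem finsum_comp_assoc {X : Type*} {k l : X → X → ℂ} (hk : ∀ a, {b | k a b ≠ 0}.Finite)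
    (hl : ∀ a, {b | l a b ≠ 0}.Finite) (m : X → X → ℂ) (a d : X) :
    ∑ᶠ c, (∑ᶠ b, k a b * l b c) * m c d = ∑ᶠ b, k a b * ∑ᶠ c, l b c * m c d := by
  set R := (hk a).toFinset with hR
  set T := R.biUnion fun b => (hl b).toFinset with hT
  have hmem : ∀ {b}, k a b ≠ 0 → b ∈ R := fun h => (hk a).mem_toFinset.2 h
  have e1 : ∀ f : X → ℂ, ∑ᶠ b, k a b * f b = ∑ b ∈ R, k a b * f b := fun f =>
    finsum_eq_sum_of_support_subset _ fun b hb => hmem (left_ne_zero_of_mul hb)
  rw [e1, finsum_eq_sum_of_support_subset _ (s := T) fun c hc => ?_]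
  · simp only [e1, Finset.sum_mul]
    rw [Finset.sum_comm]
    refine Finset.sum_congr rfl fun b hb => ?_
    rw [finsum_eq_sum_of_support_subset _ (s := T) fun c hc =>
      Finset.mem_biUnion.2 ⟨b, hb, (hl b).mem_toFinset.2 (left_ne_zero_of_mul hc)⟩, Finset.mul_sum]
    exact Finset.sum_congr rfl fun c _ => mul_assoc _ _ _
  · have h := left_ne_zero_of_mul hc
    rw [e1] at h
    obtain ⟨b, hb, hne⟩ := Finset.exists_ne_zero_of_sum_ne_zero h
    exact Finset.mem_biUnion.2 ⟨b, hb, (hl b).mem_toFinset.2 (right_ne_zero_of_mul hne)⟩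

/-- An invariant kernel against a bounded function is bounded by its mass. -/
lemma AKer.norm_integral_mul_le (k : AKer) (x : H3) {f : H3 → ℂ} {C : ℝ} (hC : ∀ y, ‖f y‖ ≤ C) :
    ‖∫ y, k x y * f y ∂hmeas‖ ≤ k.mass * C := by
  refine (norm_integral_le_integral_norm _).trans ?_
  rw [← k.integral_norm x, ← integral_mul_const]
  refine integral_mono_of_nonneg (Eventually.of_forall fun _ => norm_nonneg _)
    ((k.integrable _).norm.mul_const _) (Eventually.of_forall fun y => ?_)
  change ‖k x y * _‖ ≤ _
  rw [norm_mul]
  exact mul_le_mul_of_nonneg_left (hC _) (norm_nonneg _)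

variable {ι : Type*} [Fintype ι]

/-- A kernel against a product of kernels with one variable moving integrates to the product with
that factor composed. -/
theorem integral_prod_update_comp (a : ι → AKer) (u : ι) (k : AKer) (x z : ι → H3) :
    ∫ y, k (x u) y * ∏ w, a w (Function.update x u y w) (z w) ∂hmeas
      = ∏ w, Function.update a u (k.comp (a u)) w (x w) (z w) := by
  have h1 : ∀ y, k (x u) y * ∏ w, a w (Function.update x u y w) (z w)
      = (k (x u) y * a u y (z u)) * ∏ w ∈ Finset.univ.erase u, a w (x w) (z w) := fun y => by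
    rw [← Finset.mul_prod_erase _ _ (Finset.mem_univ u), Function.update_self, ← mul_assoc]
    congr 1
    exact Finset.prod_congr rfl fun w hw => by
      rw [Function.update_of_ne (Finset.ne_of_mem_erase hw)]
  simp only [h1]
  rw [integral_mul_const, ← Finset.mul_prod_erase _ _ (Finset.mem_univ u), Function.update_self]
  congr 1
  exact Finset.prod_congr rfl fun w hw => by
    rw [Function.update_of_ne (Finset.ne_of_mem_erase hw)]

/-- A kernel against a product of kernels with one variable moving is integrable. -/
lemma integrable_mul_prod_update (a : ι → AKer) (u : ι) (k : AKer) (x z : ι → H3) :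
    Integrable (fun y => k (x u) y * ∏ w, a w (Function.update x u y w) (z w)) hmeas := by
  refine (k.integrable _).mul_bdd (c := ∏ w, (a w).bound) ?_ (Eventually.of_forall fun y => ?_)
  · exact (continuous_finsetProd _ fun w _ => ((a w).continuous_left (z w)).comp
      ((continuous_apply w).comp (continuous_const.update u continuous_id))).aestronglyMeasurable
  · rw [norm_prod]
    exact Finset.prod_le_prod (fun w _ => norm_nonneg _) fun w _ => (a w).le_bound _ _

/-- Moving one member of a finite family a bounded distance keeps it in a bounded region. -/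
lemma coshd_base_update_le {x : ι → H3} {u : ι} {y : H3} {r : ℝ} (h : coshd (x u) y ≤ r) (w : ι) :
    coshd ((1 : GL (Fin 2) ℂ) : H3) (Function.update x u y w)
      ≤ (∑ v, coshd ((1 : GL (Fin 2) ℂ) : H3) (x v))
        + 2 * (∑ v, coshd ((1 : GL (Fin 2) ℂ) : H3) (x v)) * |r| := by
  have hM : 0 ≤ ∑ v, coshd ((1 : GL (Fin 2) ℂ) : H3) (x v) :=
    Finset.sum_nonneg fun _ _ => zero_le_one.trans (one_le_coshd _ _)
  by_cases hw : w = u
  · subst hw
    rw [Function.update_self]
    exact (coshd_base_le_of_coshd (coshd_base_le_sum x w) (h.trans (le_abs_self r))).trans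
      (le_add_of_nonneg_left hM)
  · rw [Function.update_of_ne hw]
    exact (coshd_base_le_sum x w).trans
      (le_add_of_nonneg_right (mul_nonneg (mul_nonneg two_pos.le hM) (abs_nonneg _)))

end

variable {F : Type*} [Field F] [NumberField F] {S : Set (Place F)}

/-- The component that was set. -/
@[simp] lemma FinPt.set_self (ν : FinPt F S) (v : Place F) (y : Vert S v) :
    (ν.set v y).1 v = y := by
  simp [FinPt.set]

/-- The other components are unchanged. -/
lemma FinPt.set_of_ne (ν : FinPt F S) {v u : Place F} (h : u ≠ v) (y : Vert S v) :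
    (ν.set v y).1 u = ν.1 u := by
  simp [FinPt.set, Function.update_of_ne h]

/-- Setting a component twice keeps the last value. -/
@[simp] lemma FinPt.set_set (ν : FinPt F S) (v : Place F) (y z : Vert S v) :
    (ν.set v y).set v z = ν.set v z :=
  Subtype.ext (Function.update_idem y z ν.1)

/-- Setting components at different places commutes. -/
lemma FinPt.set_comm (ν : FinPt F S) {v u : Place F} (h : v ≠ u) (y : Vert S v) (z : Vert S u) :
    (ν.set v y).set u z = (ν.set u z).set v y :=
  Subtype.ext (Function.update_comm h y z ν.1)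

/-- Setting a component to its own value changes nothing. -/
@[simp] lemma FinPt.set_eq_self (ν : FinPt F S) (v : Place F) : ν.set v (ν.1 v) = ν :=
  Subtype.ext (funext fun u => by
    by_cases h : u = v
    · subst h; simp
    · rw [FinPt.set_of_ne _ h])

/-- The group action commutes with setting one component. -/
lemma FinPt.smul_set [Finite S] (g : GL (Fin 2) F) (ν : FinPt F S) (v : Place F) (y : Vert S v) :
    g • ν.set v y = (g • ν).set v (g • y) :=
  Subtype.ext (funext fun u => by
    by_cases h : u = v
    · subst h; simp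
    · rw [FinPt.smul_apply, FinPt.set_of_ne _ h, FinPt.set_of_ne _ h, FinPt.smul_apply])

namespace LKer

variable {v : Place F}

/-- Finitely many points of a row. -/
noncomputable def row (k : LKer S v) (a : Vert S v) : Finset (Vert S v) := (k.finite_row a).toFinset

/-- The row is the support. -/
lemma mem_row {k : LKer S v} {a b : Vert S v} : b ∈ k.row a ↔ k a b ≠ 0 :=
  (k.finite_row a).mem_toFinset

/-- Total mass of a row. -/
noncomputable def mass (k : LKer S v) : ℝ :=
  ∑ y ∈ k.row ((1 : GL (Fin 2) F) : Vert S v), ‖k ((1 : GL (Fin 2) F) : Vert S v) y‖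

/-- Every row has the same mass. -/
lemma sum_norm_row (k : LKer S v) (a : Vert S v) : ∑ y ∈ k.row a, ‖k a y‖ = k.mass := by
  obtain ⟨g, rfl⟩ := QuotientGroup.mk_surjective a
  have e : ((g : GL (Fin 2) F) : Vert S v) = g • ((1 : GL (Fin 2) F) : Vert S v) := by
    rw [MulAction.Quotient.smul_coe, smul_eq_mul, mul_one]
  symm
  refine Finset.sum_nbij (fun y => g • y) (fun y hy => ?_) (fun y _ z _ h => ?_) (fun y hy => ?_)
    (fun y _ => ?_)
  · rw [mem_row] at hy ⊢; rwa [e, k.invariant]
  · exact MulAction.injective g h
  · refine ⟨g⁻¹ • y, ?_, smul_inv_smul g y⟩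
    rw [Finset.mem_coe, mem_row] at hy ⊢
    rwa [← k.invariant g, ← e, smul_inv_smul]
  · rw [e, k.invariant]

/-- Composition over the row. -/
lemma comp_eq_sum (k l : LKer S v) (a c : Vert S v) :
    k.comp l a c = ∑ b ∈ k.row a, k a b * l b c := by
  rw [comp_apply, finsum_eq_sum_of_support_subset _ fun b hb => ?_]
  exact Finset.mem_coe.2 (mem_row.2 (left_ne_zero_of_mul hb))

/-- Composition of local kernels is associative. -/
lemma comp_assoc (k l m : LKer S v) : (k.comp l).comp m = k.comp (l.comp m) :=
  ext' fun a d => finsum_comp_assoc k.finite_row l.finite_row m a d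

/-- The identity is neutral on the right. -/
lemma comp_one (k : LKer S v) : k.comp (one S v) = k := by
  refine ext' fun a c => ?_
  rw [comp_apply, finsum_eq_single _ c fun b hb => by simp [hb]]
  simp

end LKer

/-- Applying a local kernel to a function of points. -/
noncomputable def locAct (v : Place F) (l : LKer S v) (Φ : Pt F S → ℂ) (p : Pt F S) : ℂ :=
  ∑ y ∈ l.row (p.1.1 v), l (p.1.1 v) y * Φ (p.1.set v y, p.2)

/-- Applying an archimedean kernel to a function of points. -/
noncomputable def archAct (u : InfinitePlace F) (k : AKer) (Φ : Pt F S → ℂ) (p : Pt F S) : ℂ :=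
  ∫ y, k (p.2 u) y * Φ (p.1, Function.update p.2 u y) ∂hmeas

/-- A local kernel enlarges a sup norm at most by its mass. -/
lemma norm_locAct_le (v : Place F) (l : LKer S v) {Φ : Pt F S → ℂ} {C : ℝ} (hC : ∀ p, ‖Φ p‖ ≤ C)
    (p : Pt F S) : ‖locAct v l Φ p‖ ≤ l.mass * C := by
  refine (norm_sum_le _ _).trans ?_
  rw [← l.sum_norm_row (p.1.1 v), Finset.sum_mul]
  exact Finset.sum_le_sum fun y _ => by
    rw [norm_mul]; exact mul_le_mul_of_nonneg_left (hC _) (norm_nonneg _)

/-- An archimedean kernel enlarges a sup norm at most by its mass. -/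
lemma norm_archAct_le (u : InfinitePlace F) (k : AKer) {Φ : Pt F S → ℂ} {C : ℝ}
    (hC : ∀ p, ‖Φ p‖ ≤ C) (p : Pt F S) : ‖archAct u k Φ p‖ ≤ k.mass * C :=
  k.norm_integral_mul_le (p.2 u) fun _ => hC _

namespace PKer

variable (K : PKer F S)

/-- Compose with a local kernel on the left. -/
noncomputable def actLoc (v : Place F) (l : LKer S v) : PKer F S where
  loc := Function.update K.loc v (l.comp (K.loc v))
  ae_one := by
    filter_upwards [K.ae_one, (Set.finite_singleton v).compl_mem_cofinite] with u hu huv
    rw [Function.update_of_ne (by simpa using huv), hu]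
  arch := K.arch

/-- Compose with an archimedean kernel on the left. -/
noncomputable def actArch (u : InfinitePlace F) (k : AKer) : PKer F S where
  loc := K.loc
  ae_one := K.ae_one
  arch := Function.update K.arch u (k.comp (K.arch u))

/-- The finite factor splits off one place. -/
lemma fin_eq_mul (v : Place F) (ν ν' : FinPt F S) :
    K.fin ν ν' = K.loc v (ν.1 v) (ν'.1 v) * ∏ᶠ (u) (_ : u ≠ v), K.loc u (ν.1 u) (ν'.1 u) := by
  rw [fin, ← mul_finprod_cond_ne v (K.mulSupport_finite ν ν')]

/-- The finite factor after composing with a local kernel is the sum over the row. -/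
lemma fin_actLoc (v : Place F) (l : LKer S v) (ν ν' : FinPt F S) :
    (K.actLoc v l).fin ν ν' = ∑ y ∈ l.row (ν.1 v), l (ν.1 v) y * K.fin (ν.set v y) ν' := by
  rw [(K.actLoc v l).fin_eq_mul v]
  have h1 : (K.actLoc v l).loc v = l.comp (K.loc v) := by
    simp [actLoc]
  rw [h1, LKer.comp_eq_sum, Finset.sum_mul]
  refine Finset.sum_congr rfl fun y _ => ?_
  rw [K.fin_eq_mul v, FinPt.set_self, mul_assoc]
  congr 2
  refine finprod_congr fun u => finprod_congr fun hu => ?_
  rw [FinPt.set_of_ne _ hu]
  congr 1
  exact Function.update_of_ne hu _ _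

variable [Finite S]

/-- The summed kernel after a local composition is the local kernel applied to the summed kernel. -/
lemma kap_actLoc (v : Place F) (l : LKer S v) (p q : Pt F S) :
    (K.actLoc v l).kap p q = locAct v l (fun p' => K.kap p' q) p := by
  simp only [locAct, kap, ← tsum_mul_left]
  rw [← Summable.tsum_finsetSum fun y _ => (K.summable_kap _ q).mul_left _]
  refine tsum_congr fun γ => ?_
  rw [val, K.fin_actLoc, Finset.sum_mul]
  exact Finset.sum_congr rfl fun y _ => mul_assoc _ _ _

omit [Finite S] in
/-- The infinite factor after composing with an archimedean kernel is an integral over one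
coordinate. -/
lemma inf_actArch (u : InfinitePlace F) (k : AKer) (x z : InfinitePlace F → H3) :
    (K.actArch u k).inf x z = ∫ y, k (x u) y * K.inf (Function.update x u y) z ∂hmeas :=
  (integral_prod_update_comp K.arch u k x z).symm

omit [Finite S] in
/-- The integrand of the action at infinity is integrable. -/
lemma integrable_mul_val (u : InfinitePlace F) (k : AKer) (p q : Pt F S) :
    Integrable (fun y => k (p.2 u) y * K.val (p.1, Function.update p.2 u y) q) hmeas := by
  simp only [val, mul_left_comm (k (p.2 u) _)]
  exact (integrable_mul_prod_update K.arch u k p.2 q.2).const_mul _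

/-- Uniformly in one moved coordinate, only finitely many classes contribute to the summed
kernel. -/
lemma exists_finset_update (u : InfinitePlace F) (k : AKer) (p q : Pt F S) :
    ∃ s : Finset (PG F), ∀ y, k (p.2 u) y ≠ 0 → ∀ γ ∉ s,
      K.val (p.1, Function.update p.2 u y) (γ • q) = 0 := by
  refine ⟨(K.finite_seen p.1 q.1 ((∑ w, coshd ((1 : GL (Fin 2) ℂ) : H3) (p.2 w)) +
    2 * (∑ w, coshd ((1 : GL (Fin 2) ℂ) : H3) (p.2 w)) * |k.range|)
      (∑ w, coshd ((1 : GL (Fin 2) ℂ) : H3) (q.2 w))).toFinset, fun y hy γ hγ => ?_⟩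
  by_contra hne
  exact hγ ((Set.Finite.mem_toFinset _).2 ⟨Function.update p.2 u y, q.2,
    coshd_base_update_le (not_lt.1 fun h => hy (k.eq_zero _ _ h)), coshd_base_le_sum q.2, hne⟩)

/-- After an archimedean composition the summed kernel is the kernel applied to the summed
kernel. -/
lemma kap_actArch (u : InfinitePlace F) (k : AKer) (p q : Pt F S) :
    (K.actArch u k).kap p q = archAct u k (fun p' => K.kap p' q) p := by
  obtain ⟨s, hs⟩ := K.exists_finset_update u k p q
  simp only [archAct, kap]
  rw [integral_mul_tsum_of_finset _ _ s hs fun γ => K.integrable_mul_val u k p (γ • q)]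
  refine tsum_congr fun γ => ?_
  rw [val, K.inf_actArch, ← integral_const_mul]
  exact integral_congr_ae (Eventually.of_forall fun y => mul_left_comm _ _ _)

/-- Boundedness of the summed kernel. -/
def Bdd : Prop := ∃ C, ∀ p q, ‖K.kap p q‖ ≤ C

variable {K}

/-- Acting at a finite place keeps boundedness. -/
lemma Bdd.actLoc (h : K.Bdd) (v : Place F) (l : LKer S v) : (K.actLoc v l).Bdd := by
  obtain ⟨C, hC⟩ := h
  exact ⟨l.mass * C, fun p q => by
    rw [K.kap_actLoc]; exact norm_locAct_le v l (fun p' => hC p' q) p⟩

/-- Acting at an infinite place keeps boundedness. -/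
lemma Bdd.actArch (h : K.Bdd) (u : InfinitePlace F) (k : AKer) : (K.actArch u k).Bdd := by
  obtain ⟨C, hC⟩ := h
  exact ⟨k.mass * C, fun p q => by
    rw [K.kap_actArch]; exact norm_archAct_le u k (fun p' => hC p' q) p⟩

end PKer

end Fermat.LT
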