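import Fermat.Agent.LT.H3Kernel
import Fermat.Agent.LT.Domain

/-!
# Product kernels on the point space and their sums over `PGL₂(F)`

`LKer` is a kernel at one finite place, `PKer` a product kernel with value `PKer.val`, whose sum
over the group converges (`summable_kap`).
-/

set_option autoImplicit false
open MeasureTheory Filter Set NumberField
open scoped Classical

namespace Fermat.LT

variable {F : Type*} [Field F] [NumberField F] {S : Set (Place F)}

/-- An invariant kernel with finite rows at a finite place. -/
structure LKer (S : Set (Place F)) (v : Place F) where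
  /-- The kernel on pairs of vertices at `v`. -/
  toFun : Vert S v → Vert S v → ℂ
  /-- The kernel is invariant under `GL₂(F)` acting on both variables. -/
  invariant : ∀ (g : GL (Fin 2) F) (a b : Vert S v), toFun (g • a) (g • b) = toFun a b
  /-- Every row has finite support. -/
  finite_row : ∀ a, {b | toFun a b ≠ 0}.Finite

namespace LKer

variable {v : Place F}

/-- A local kernel as a function. -/
instance : CoeFun (LKer S v) fun _ => Vert S v → Vert S v → ℂ := ⟨LKer.toFun⟩

/-- The identity kernel. -/
noncomputable def one (S : Set (Place F)) (v : Place F) : LKer S v where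
  toFun a b := if a = b then 1 else 0
  invariant g a b := by simp only [(MulAction.injective g).eq_iff]
  finite_row a := (Set.finite_singleton a).subset fun b hb => by
    by_contra h; exact hb (if_neg fun e => h (by simp [e]))

/-- The identity kernel. -/
@[simp] lemma one_apply (a b : Vert S v) : LKer.one S v a b = if a = b then 1 else 0 := rfl

/-- Composition. -/
noncomputable def comp (k l : LKer S v) : LKer S v where
  toFun a c := ∑ᶠ b, k a b * l b c
  invariant g a c := by
    rw [← finsum_comp_equiv (MulAction.toPerm g)]
    simp [k.invariant, l.invariant]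
  finite_row a := by
    refine ((k.finite_row a).biUnion fun b _ => l.finite_row b).subset fun c hc => ?_
    obtain ⟨b, hb⟩ := exists_ne_zero_of_finsum_mem_ne_zero
      (show ∑ᶠ b ∈ (univ : Set (Vert S v)), k a b * l b c ≠ 0 by rwa [finsum_mem_univ])
    exact mem_biUnion (left_ne_zero_of_mul hb.2) (right_ne_zero_of_mul hb.2)

/-- The identity is neutral on the left. -/
@[simp] lemma one_comp (k : LKer S v) (a c : Vert S v) : (one S v).comp k a c = k a c := by
  change ∑ᶠ b, (if a = b then (1 : ℂ) else 0) * k b c = _
  rw [finsum_eq_single _ a fun b hb => by simp [Ne.symm hb]]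
  simp

end LKer

/-- A product kernel: local kernels at all finite places, almost all the identity, and kernels at
infinity. -/
structure PKer (F : Type*) [Field F] [NumberField F] (S : Set (Place F)) where
  /-- The kernel at each finite place. -/
  loc : ∀ v, LKer S v
  /-- Almost all local kernels are the identity. -/
  ae_one : ∀ᶠ v in cofinite, loc v = LKer.one S v
  /-- The kernel at each infinite place. -/
  arch : InfinitePlace F → AKer

namespace PKer

variable (K : PKer F S)

/-- The product over the finite places of the local kernels. -/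
noncomputable def fin (ω ω' : FinPt F S) : ℂ := ∏ᶠ v, K.loc v (ω.1 v) (ω'.1 v)

/-- The product over the infinite places of the kernels on `H3`. -/
noncomputable def inf (x y : InfinitePlace F → H3) : ℂ := ∏ w, K.arch w (x w) (y w)

/-- The value of a product kernel: its finite times its infinite factor. -/
noncomputable def val (p q : Pt F S) : ℂ := K.fin p.1 q.1 * K.inf p.2 q.2

/-- At almost all places the factor is one and the points agree. -/
lemma eventually_eq (ω ω' : FinPt F S) :
    ∀ᶠ v in cofinite, K.loc v = LKer.one S v ∧ ω.1 v = ω'.1 v := by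
  filter_upwards [K.ae_one, ω.2, ω'.2] with v h h1 h2
  exact ⟨h, h1.trans h2.symm⟩

/-- Only finitely many local factors differ from one. -/
lemma mulSupport_finite (ω ω' : FinPt F S) :
    (Function.mulSupport fun v => K.loc v (ω.1 v) (ω'.1 v)).Finite :=
  (eventually_cofinite.1 (K.eventually_eq ω ω')).subset fun v hv h => hv (by simp [h.1, h.2])

/-- The finite factor is nonzero exactly when every local factor is. -/
lemma fin_ne_zero {ω ω' : FinPt F S} :
    K.fin ω ω' ≠ 0 ↔ ∀ v, K.loc v (ω.1 v) (ω'.1 v) ≠ 0 := by
  rw [fin, finprod_eq_prod _ (K.mulSupport_finite ω ω'), Finset.prod_ne_zero_iff]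
  refine ⟨fun h v => ?_, fun h v _ => h v⟩
  by_cases hv : v ∈ (K.mulSupport_finite ω ω').toFinset
  · exact h v hv
  · simp only [Set.Finite.mem_toFinset, Function.mem_mulSupport, not_not] at hv
    simp [hv]

/-- The finitely many points reached from `ω`. -/
lemma finite_row (ω : FinPt F S) : {ω' | K.fin ω ω' ≠ 0}.Finite := by
  set E := (eventually_cofinite.1 K.ae_one).toFinset
  have hout : ∀ ω', K.fin ω ω' ≠ 0 → ∀ v ∉ E, ω'.1 v = ω.1 v := fun ω' h v hv => by
    have h1 : K.loc v = LKer.one S v := by simpa [E] using hv
    have := (K.fin_ne_zero.1 h) v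
    rw [h1, LKer.one_apply] at this
    by_contra hne
    exact this (if_neg (Ne.symm hne))
  refine Set.Finite.of_finite_image (f := fun ω' (v : E) => ω'.1 v.1)
    ((Set.Finite.pi fun v : E => K.loc v.1 |>.finite_row (ω.1 v.1)).subset ?_) ?_
  · rintro _ ⟨ω', h, rfl⟩
    exact fun v _ => (K.fin_ne_zero.1 h) v.1
  · intro a ha b hb hab
    refine Subtype.ext (funext fun v => ?_)
    by_cases hv : v ∈ E
    · exact congrFun hab ⟨v, hv⟩
    · rw [hout a ha v hv, hout b hb v hv]

/-- The finite factor is invariant. -/
lemma fin_smul [Finite S] (g : GL (Fin 2) F) (ω ω' : FinPt F S) :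
    K.fin (g • ω) (g • ω') = K.fin ω ω' :=
  finprod_congr fun v => (K.loc v).invariant g _ _

/-- The infinite factor is invariant. -/
lemma inf_smul (g : GL (Fin 2) F) (x y : InfinitePlace F → H3) :
    K.inf (fun w => atInf w g • x w) (fun w => atInf w g • y w) = K.inf x y :=
  Finset.prod_congr rfl fun w _ => (K.arch w).invariant _ _ _

/-- The kernel is invariant. -/
lemma val_smul [Finite S] (g : GL (Fin 2) F) (p q : Pt F S) :
    K.val (g • p) (g • q) = K.val p q := by
  rw [val, val, Pt.smul_fst, Pt.smul_fst, K.fin_smul, ← K.inf_smul g p.2 q.2]; rfl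

/-- The kernel is invariant under `PGL₂(F)`. -/
lemma val_smul_PG [Finite S] (γ : PG F) (p q : Pt F S) : K.val (γ • p) (γ • q) = K.val p q := by
  obtain ⟨g, rfl⟩ := QuotientGroup.mk_surjective γ
  exact K.val_smul g p q

/-- The infinite factor is continuous. -/
lemma continuous_inf : Continuous fun z : (InfinitePlace F → H3) × (InfinitePlace F → H3) =>
    K.inf z.1 z.2 :=
  continuous_finsetProd _ fun w _ => by
    have h1 : Continuous fun z : (InfinitePlace F → H3) × (InfinitePlace F → H3) =>
        (z.1 w, z.2 w) :=
      ((continuous_apply w).comp continuous_fst).prodMk ((continuous_apply w).comp continuous_snd)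
    exact (K.arch w).cont.comp' h1

/-- A product kernel is measurable on pairs of points. -/
lemma measurable_val : Measurable fun z : Pt F S × Pt F S => K.val z.1 z.2 := by
  have : DiscreteMeasurableSpace (FinPt F S) := ⟨fun _ => trivial⟩
  refine Measurable.mul ?_ ?_
  · exact (measurable_of_countable fun z : FinPt F S × FinPt F S => K.fin z.1 z.2).comp
      ((measurable_fst.comp measurable_fst).prodMk (measurable_fst.comp measurable_snd))
  · exact K.continuous_inf.measurable.comp
      ((measurable_snd.comp measurable_fst).prodMk (measurable_snd.comp measurable_snd))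

/-- A bound for the range of all infinite factors. -/
noncomputable def range : ℝ := 1 + ∑ w, |(K.arch w).range|

/-- The infinite factor vanishes beyond its range. -/
lemma inf_eq_zero {x y : InfinitePlace F → H3} {w : InfinitePlace F}
    (h : K.range < coshd (x w) (y w)) : K.inf x y = 0 := by
  refine Finset.prod_eq_zero (Finset.mem_univ w) ((K.arch w).eq_zero _ _ (lt_of_le_of_lt ?_ h))
  refine (le_abs_self _).trans ?_
  rw [range]
  linarith [Finset.single_le_sum (f := fun u => |(K.arch u).range|) (fun u _ => abs_nonneg _)
    (Finset.mem_univ w)]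

variable [Finite S]

/-- Only finitely many classes are seen by the kernel over bounded regions. -/
lemma finite_seen (ω ω' : FinPt F S) (A B : ℝ) :
    {γ : PG F | ∃ x y : InfinitePlace F → H3,
      (∀ w, coshd ((1 : GL (Fin 2) ℂ) : H3) (x w) ≤ A) ∧
      (∀ w, coshd ((1 : GL (Fin 2) ℂ) : H3) (y w) ≤ B) ∧ K.val (ω, x)
        (γ • (ω', y)) ≠ 0}.Finite := by
  have hfin : ∀ ω'' : FinPt F S, {γ : PG F | ∃ g : GL (Fin 2) F, (g : PG F) = γ ∧ g • ω' = ω'' ∧
      ∀ w, ∃ x : H3, coshd ((1 : GL (Fin 2) ℂ) : H3) x ≤ |B| + 2 * |A| * K.range ∧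
        coshd ((1 : GL (Fin 2) ℂ) : H3) (atInf w g • x) ≤ |B| + 2 * |A| * K.range}.Finite :=
    fun ω'' => finite_moving ω' ω'' _
  refine ((K.finite_row ω).biUnion fun ω'' _ => hfin ω'').subset ?_
  rintro γ ⟨x, y, hx, hy, hne⟩
  obtain ⟨g, rfl⟩ := QuotientGroup.mk_surjective γ
  rw [PG.mk_smul, val, mul_ne_zero_iff] at hne
  refine mem_biUnion (x := g • ω') hne.1 ⟨g, rfl, rfl, fun w => ⟨y w, ?_, ?_⟩⟩
  · have : 0 ≤ 2 * |A| * K.range := mul_nonneg (by positivity)
      (by rw [range]; positivity)
    linarith [(hy w).trans (le_abs_self B)]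
  · exact (coshd_base_le_of_coshd ((hx w).trans (le_abs_self A))
      (not_lt.1 fun h => hne.2 (K.inf_eq_zero h))).trans (le_add_of_nonneg_left (abs_nonneg B))

/-- For two given points only finitely many classes contribute to the sum. -/
lemma finite_support (p q : Pt F S) : {γ : PG F | K.val p (γ • q) ≠ 0}.Finite := by
  exact (K.finite_seen p.1 q.1 _ _).subset fun γ hγ =>
    ⟨p.2, q.2, coshd_base_le_sum p.2, coshd_base_le_sum q.2, hγ⟩

/-- The kernel summed over `PGL₂(F)`. -/
noncomputable def kap (p q : Pt F S) : ℂ := ∑' γ : PG F, K.val p (γ • q)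

/-- The automorphic kernel converges. -/
lemma summable_kap (p q : Pt F S) : Summable fun γ : PG F => K.val p (γ • q) :=
  summable_of_hasFiniteSupport (K.finite_support p q)

/-- The automorphic kernel is invariant in the second variable. -/
lemma kap_smul_right (δ : PG F) (p q : Pt F S) : K.kap p (δ • q) = K.kap p q := by
  simp only [kap, smul_smul]
  exact (Equiv.mulRight δ).tsum_eq fun γ => K.val p (γ • q)

/-- The automorphic kernel is invariant in the first variable. -/
lemma kap_smul_left (δ : PG F) (p q : Pt F S) : K.kap (δ • p) q = K.kap p q := by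
  rw [kap, kap, ← (Equiv.mulLeft δ).tsum_eq fun γ => K.val (δ • p) (γ • q)]
  refine tsum_congr fun γ => ?_
  rw [Equiv.coe_mulLeft, mul_smul, K.val_smul_PG]

/-- The summed kernel is measurable on pairs of points. -/
lemma measurable_kap : Measurable fun z : Pt F S × Pt F S => K.kap z.1 z.2 := by
  refine measurable_of_tendsto_metrizable' (u := (atTop : Filter (Finset (PG F))))
    (f := fun s z => ∑ γ ∈ s, K.val z.1 (γ • z.2)) (fun s => ?_) ?_
  · exact Finset.measurable_fun_sum _ fun γ _ => K.measurable_val.comp
      (measurable_fst.prodMk ((measurable_const_smul γ).comp measurable_snd))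
  · exact tendsto_pi_nhds.2 fun z => (K.summable_kap z.1 z.2).hasSum

end PKer

end Fermat.LT
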