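import Fermat.Agent.LT.Satake

/-!
# Summing the contributions of the levels

`finsum_levelTerm` gives the total over the levels of the contributions `levelTerm`.
-/

set_option autoImplicit false
open Finset

namespace Fermat.LT

/-- Contribution of level `i`: `g_i h(2i)` corrected at the levels `1 ≤ m ≤ min i d`. -/
noncomputable def levelTerm (q g : ℕ) (b : ℕ → ℕ) (h : ℕ → ℂ) (d i : ℕ) : ℂ :=
  (if i = 0 then (1 : ℂ) else (g : ℂ) * (q : ℂ) ^ (i - 1)) * h (2 * i)
    + ∑ m ∈ Icc 1 (min i d), (b m : ℂ) * (q : ℂ) ^ (i - m) * (h (2 * (i - m)) - h (2 * (i - m + 1)))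

/-- Total over the levels: `(1 + ∑ b m) ctil₀ + (g - (q - 1)) gsum₀`. -/
theorem finsum_levelTerm (q g : ℕ) (b : ℕ → ℕ) {h : ℕ → ℂ} {D : ℕ}
    (hD : ∀ m, D < m → h m = 0) (d : ℕ) :
    ∑ᶠ i, levelTerm q g b h d i
      = (1 + ∑ m ∈ Icc 1 d, (b m : ℂ)) * ctil q h 0 + ((g : ℂ) - ((q : ℂ) - 1)) * gsum q h 0 := by
  set N := D + d + 2 with hN
  -- Only levels below `N` contribute.
  have hzero : ∀ i, N ≤ i → levelTerm q g b h d i = 0 := fun i hi => by
    rw [levelTerm, hD (2 * i) (by omega), mul_zero, zero_add]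
    refine Finset.sum_eq_zero fun m hm => ?_
    rw [Finset.mem_Icc] at hm
    rw [hD _ (by omega), hD _ (by omega), sub_zero, mul_zero]
  rw [finsum_eq_sum_of_support_subset _ (s := Finset.range N) fun i hi => by
    simp only [Finset.coe_range, Set.mem_Iio]
    by_contra hle
    exact hi (hzero i (not_lt.1 hle))]
  simp only [levelTerm, Finset.sum_add_distrib]
  have e1 : ∑ i ∈ range N, (if i = 0 then (1 : ℂ) else (g : ℂ) * (q : ℂ) ^ (i - 1)) * h (2 * i)
      = h 0 + (g : ℂ) * gsum q h 0 := by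
    rw [show N = (D + d + 1) +
      1 by omega, Finset.sum_range_succ', gsum_eq_sum q hD 0 (D + d + 1) (by omega),
      Finset.mul_sum, add_comm]
    simp only [if_pos, one_mul, Nat.mul_zero, Nat.succ_ne_zero, if_false, Nat.zero_add]
    congr 1
    refine Finset.sum_congr rfl fun i _ => ?_
    rw [show 2 * (i + 1) = 2 * i + 2 by ring, Nat.add_sub_cancel, mul_assoc]
  -- Exchange the sums: for each `m` the differences telescope to `ctil` and `gsum`.
  have e2 : ∑ i ∈ range N, ∑ m ∈ Icc 1 (min i d),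
        (b m : ℂ) * (q : ℂ) ^ (i - m) * (h (2 * (i - m)) - h (2 * (i - m + 1)))
      = (∑ m ∈ Icc 1 d, (b m : ℂ)) * (h 0 + ((q : ℂ) - 1) * gsum q h 0) := by
    rw [Finset.sum_comm' (t' := Icc 1 d) (s' := fun m => Ico m N) (fun i m => by
      simp only [mem_range, Finset.mem_Icc, Finset.mem_Ico, le_min_iff]; omega), Finset.sum_mul]
    refine Finset.sum_congr rfl fun m hm => ?_
    rw [Finset.mem_Icc] at hm
    rw [Finset.sum_Ico_eq_sum_range]
    simp only [Nat.add_sub_cancel_left]
    rw [show N - m = (N - m - 1) + 1 by omega]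
    set M := N - m - 1 with hM
    have hA : ∑ r ∈ range (M + 1), (q : ℂ) ^ r * h (2 * r) = h 0 + (q : ℂ) * gsum q h 0 := by
      rw [Finset.sum_range_succ', gsum_eq_sum q hD 0 M (by omega), Finset.mul_sum, add_comm]
      simp only [pow_zero, one_mul, Nat.mul_zero, Nat.zero_add]
      congr 1
      exact Finset.sum_congr rfl fun r _ => by rw [show 2 * (r + 1) = 2 * r + 2 by ring]; ring
    have hB : ∑ r ∈ range (M + 1), (q : ℂ) ^ r * h (2 * (r + 1)) = gsum q h 0 := by
      rw [gsum_eq_sum q hD 0 (M + 1) (by omega)]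
      exact Finset.sum_congr rfl fun r _ => by rw [show 2 * (r + 1) = 0 + 2 * r + 2 by ring]
    simp only [mul_sub, Finset.sum_sub_distrib, mul_assoc, ← Finset.mul_sum]
    rw [← mul_sub, hA, hB]
    ring
  rw [e1, e2, ctil]
  ring

end Fermat.LT
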