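import Fermat.Agent.LT.LocInert
import Fermat.Agent.LT.LocRamMatch

/-!
# The classes of the large torus modulo units and the small torus

`CosetReps` is a system of representatives of `T_L / (T_K U_L)`; a single one unless the algebra is
split and the extension ramified.
-/

set_option autoImplicit false
open scoped Matrix Classical

namespace Fermat.LT

variable {F : Type*} [Field F] {E : Type*} [Field E]
  {v : Valuation F (WithZero (Multiplicative ℤ))} {w : Valuation E (WithZero (Multiplicative ℤ))}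

namespace Emb

variable {C : CycExt v w} {Q : QA v} (T : Emb C Q)

/-- Representatives `y^j`, `j < J`, of the classes of the large torus. -/
structure CosetReps (y : GL (Fin 2) E) (J : ℕ) : Prop where
  /-- `y` lies in the large torus. -/
  mem : y ∈ T.Q'.torus
  /-- The `y ^ j`, `j < J`, and the small torus cover the large torus modulo units. -/
  cover : ∀ x ∈ T.Q'.torus, ∃ j < J, ∃ γ ∈ Q.torus, x * (y ^ j * T.φ γ)⁻¹ ∈ T.Q'.ugrp
  /-- The exponent is unique and the small torus element is unique up to units. -/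
  unique : ∀ i < J, ∀ j < J, ∀ γ ∈ Q.torus, (y ^ i)⁻¹ * (y ^ j * T.φ γ) ∈ T.Q'.ugrp →
    i = j ∧ γ ∈ Q.ugrp

/-- One representative suffices when every class is covered. -/
lemma cosetReps_one_of (h : ∀ x ∈ T.Q'.torus, ∃ γ ∈ Q.torus, x * (T.φ γ)⁻¹ ∈ T.Q'.ugrp) :
    T.CosetReps 1 1 where
  mem := T.Q'.torus.one_mem
  cover x hx := ⟨0, one_pos, by simpa using h x hx⟩
  unique i hi j hj γ hγ hu := by
    obtain rfl : i = 0 := by omega
    obtain rfl : j = 0 := by omega
    simp at hu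
    exact ⟨rfl, (T.φ_mem_ugrp_iff hγ).1 hu⟩

variable {ϖ : F} (hϖ : v ϖ = WithZero.exp (-1 : ℤ)) {ϖ' : E} (hϖ' : w ϖ' = WithZero.exp (-1 : ℤ))

/-- A single class: no root over the extension. -/
theorem cosetReps_field (hroots : T.Q'.roots = ∅) : T.CosetReps 1 1 := by
  refine T.cosetReps_one_of fun x hx => ⟨1, Q.torus.one_mem, ?_⟩
  rw [map_one, inv_one, mul_one]
  rcases QA.mem_ugrp_or_isPrim hx with hu | ⟨a, m, hp⟩
  · exact hu
  · exact absurd hp.root (by simp [hroots])

include hϖ' in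
/-- A single class: a generator comes from the small torus. -/
theorem cosetReps_of_gen {y : GL (Fin 2) F} (hy : y ∈ Q.torus) {a : E}
    (hy' : T.Q'.IsPrim (T.φ y) a 1) : T.CosetReps 1 1 := by
  refine T.cosetReps_one_of fun x hx => ?_
  obtain ⟨k, hk⟩ := hy'.generates hϖ' (T.φ_torus hy) hx
  exact ⟨y ^ k, Q.torus.zpow_mem hy k, by rwa [map_zpow]⟩

include hϖ hϖ' in
/-- At an inert place the small torus covers the classes of the large one modulo units
(`CosetReps 1 1`). -/
theorem cosetReps_inert [Finite (IsLocalRing.ResidueField v.valuationSubring)]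
    [Finite (IsLocalRing.ResidueField w.valuationSubring)] (h3 : v 3 = 1) (he : C.e = 1)
      (hρ : T.ρ = 1) :
    T.CosetReps 1 1 := by
  by_cases h : Q.roots = ∅
  · refine T.cosetReps_field ?_
    have := T.ncard_roots h3 hρ
    rw [h, Set.ncard_empty] at this
    exact (Set.ncard_eq_zero (Set.toFinite _)).1 this
  obtain ⟨r, hr⟩ := Set.nonempty_iff_ne_empty.2 h
  obtain ⟨a, y, hyt, hy⟩ := QA.exists_gen_torus hϖ hr
  exact T.cosetReps_of_gen hϖ' hyt (T.isPrim_φ_one he hρ hy)

include hϖ hϖ' in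
/-- For `r = 1` the small torus covers the classes of the large one modulo units
(`CosetReps 1 1`). -/
theorem cosetReps_eis (hr : T.r = 1) : T.CosetReps 1 1 := by
  rcases T.hr with h | ⟨-, he, ht, hn⟩
  · omega
  have hroot : (0 : IsLocalRing.ResidueField v.valuationSubring) ∈ Q.roots := by
    change _ = _
    rw [(resd_eq_zero_iff Q.hn).2 (by rw [hn, ← WithZero.exp_zero, WithZero.exp_lt_exp]; omega)]
    ring
  obtain ⟨a, y, hyt, hy⟩ := QA.exists_gen_torus hϖ hroot
  obtain ⟨a', ha'⟩ := T.isPrim_φ hy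
  rw [he, hr] at ha'
  exact T.cosetReps_of_gen hϖ' hyt ha'

include hϖ hϖ' in
/-- Split algebras at a ramified place. -/
theorem cosetReps_split (hT : C.Tame) (hρ : T.ρ = 1)
    {z : IsLocalRing.ResidueField v.valuationSubring} (hz : z ∈ Q.roots)
    (h2 : z + z + resd v Q.t ≠ 0) {y : GL (Fin 2) E} {a : E} (hyt : y ∈ T.Q'.torus)
    (hy : T.Q'.IsPrim y a 1) : T.CosetReps y 3 := by
  obtain ⟨b, yK, hKt, hK⟩ := QA.exists_gen_torus hϖ hz
  obtain ⟨b', hb'⟩ := T.isPrim_φ hK
  have hr : T.r = 0 := by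
    have := T.hρ
    rw [hρ, map_one, ← WithZero.exp_zero, WithZero.exp_inj] at this
    omega
  rw [hT.e3, hr, mul_one, mul_zero, Nat.sub_zero] at hb'
  -- the residue of the root is simple upstairs
  have h2' : w (2 * a + T.Q'.t) = 1 := by
    refine le_antisymm hy.v_two_mul_add_le (not_lt.1 fun hlt => ?_)
    have hz' : C.resHom z ∈ T.Q'.roots := by
      have h : z * z + resd v Q.t * z + resd v Q.n = 0 := hz
      change _ * _ + resd w T.Q'.t * _ + resd w T.Q'.n = 0
      rw [show T.Q'.t = C.ι Q.t by simpa [hρ] using T.ht,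
                                     show T.Q'.n = C.ι Q.n by simpa [hρ] using T.hn,
        ← C.resHom_resd Q.ht, ← C.resHom_resd Q.hn, ← map_mul, ← map_mul, ← map_add, ← map_add, h,
        map_zero]
    rw [QA.roots_pair hy.root] at hz'
    have h2a : w (2 * a) ≤ 1 := by rw [two_mul]; exact (w.map_add _ _).trans (max_le hy.2.1 hy.2.1)
    rw [← resd_eq_zero_iff ((w.map_add _ _).trans (max_le h2a T.Q'.ht)),
      resd_add h2a T.Q'.ht, two_mul, resd_add hy.2.1 hy.2.1] at hlt
    refine h2 (C.resHom.injective ?_)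
    rw [map_add, map_add, map_zero, C.resHom_resd Q.ht,
      show C.ι Q.t = T.Q'.t by simpa [hρ] using T.ht.symm]
    rcases hz' with e | e <;> rw [e]
    · exact hlt
    · linear_combination -hlt
  obtain ⟨k, hk⟩ := hy.generates hϖ' hyt (T.φ_torus hKt)
  have hk3 : k.natAbs = 3 := by
    have e := hb'.lvl_self hϖ'
    rw [← inv_mul_cancel_right (T.φ yK) (y ^ k), lvl_mul_left w (T.Q'.ugrp_le_U0 hk),
      hy.lvl_zpow hϖ' h2'] at e
    exact e
  have hφ : ∀ n : ℤ, T.φ yK ^ n * (y ^ (k * n))⁻¹ ∈ T.Q'.ugrp := fun n => by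
    rw [zpow_mul, ← inv_zpow, ← (show Commute (T.φ yK) (y ^ k)⁻¹ from
      T.Q'.torus_comm (T.φ_torus hKt) (T.Q'.torus.inv_mem (T.Q'.torus.zpow_mem hyt k))).mul_zpow]
    exact T.Q'.ugrp.zpow_mem hk n
  refine ⟨hyt, fun x hx => ?_, fun i hi j hj γ hγ hu => ?_⟩
  · obtain ⟨m, hm⟩ := hy.generates hϖ' hyt hx
    obtain ⟨j, n, hj, hmn⟩ : ∃ (j : ℕ) (n : ℤ), j < 3 ∧ m = j + k * n := by
      refine ⟨(m % 3).toNat, if k = 3 then m / 3 else -(m / 3), by omega, ?_⟩
      rcases Int.natAbs_eq k with e | e <;> rw [hk3] at e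
      · rw [if_pos (by simpa using e), e]; push_cast; omega
      · rw [if_neg (by rw [e]; norm_num), e]; push_cast; omega
    refine ⟨j, hj, yK ^ n, Q.torus.zpow_mem hKt n, ?_⟩
    have h := T.Q'.ugrp.mul_mem hm (T.Q'.ugrp.inv_mem (hφ n))
    rw [map_zpow]
    convert h using 1
    set A := y ^ (k * n) with hA
    set B := T.φ yK ^ n
    have hAt : A ∈ T.Q'.torus := T.Q'.torus.zpow_mem hyt _
    have hBt : B ∈ T.Q'.torus := T.Q'.torus.zpow_mem (T.φ_torus hKt) n
    rw [hmn, zpow_add, zpow_natCast, ← hA]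
    set Y := y ^ j
    have hYt : Y ∈ T.Q'.torus := T.Q'.torus.pow_mem hyt j
    rw [mul_inv_rev Y B, T.Q'.torus_comm (T.Q'.torus.inv_mem hBt) (T.Q'.torus.inv_mem hYt),
      T.Q'.torus_comm hYt hAt]
    group
  · -- exponents modulo three
    obtain ⟨n, hn⟩ := hK.generates hϖ hKt hγ
    have hγ' : T.φ γ * (y ^ (k * n))⁻¹ ∈ T.Q'.ugrp := by
      have h1 : T.φ γ * (T.φ yK ^ n)⁻¹ ∈ T.Q'.ugrp := by
        rw [← map_zpow, ← map_inv, ← map_mul]; exact T.φ_ugrp hn
      have h2 := T.Q'.ugrp.mul_mem h1 (hφ n)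
      rwa [mul_assoc, inv_mul_cancel_left] at h2
    have hyy : y ^ ((j : ℤ) - i + k * n) ∈ T.Q'.ugrp := by
      have h2 := T.Q'.ugrp.mul_mem hu (T.Q'.ugrp.inv_mem hγ')
      convert h2 using 1
      rw [mul_inv_rev, inv_inv, zpow_add, zpow_sub, zpow_natCast, zpow_natCast]
      set A := y ^ (k * n)
      rw [T.Q'.torus_comm (T.Q'.torus.zpow_mem hyt _) (T.Q'.torus.inv_mem (T.φ_torus hγ)),
        ← mul_assoc ((y ^ i)⁻¹ * _), mul_assoc (y ^ i)⁻¹, mul_inv_cancel_right,
        (Commute.pow_pow_self y j i).inv_right.eq]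
    have hl := hy.lvl_zpow hϖ' h2' ((j : ℤ) - i + k * n)
    rw [(lvl_eq_zero_iff w _).2 (T.Q'.ugrp_le_U0 hyy), eq_comm, Int.natAbs_eq_zero] at hl
    have hn0 : n = 0 := by
      rcases Int.natAbs_eq k with e | e <;> rw [hk3] at e <;> rw [e] at hl <;>
        push_cast at hl <;> omega
    subst hn0
    refine ⟨by omega, ?_⟩
    simpa using hn

end Emb

end Fermat.LT
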