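import Fermat.Agent.LT.LocUnit

/-!
# The number of unit classes of level `i`

`relIndex_levG` gives the index `g₁ q ^ i` of level `i + 1` in the units, whence the count.
-/

set_option autoImplicit false
open scoped Matrix

namespace Fermat.LT

variable {F : Type*} [Field F] {v : Valuation F (WithZero (Multiplicative ℤ))}

local notation "κ" => IsLocalRing.ResidueField v.valuationSubring

namespace QA

variable (Q : QA v) {ϖ : F} (hϖ : v ϖ = WithZero.exp (-1 : ℤ))

/-- The first order coordinate of an element of level `i`. -/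
noncomputable def slope (v : Valuation F (WithZero (Multiplicative ℤ))) (ϖ : F) (i : ℕ)
    (g : GL (Fin 2) F) : IsLocalRing.ResidueField v.valuationSubring :=
  resd v ((g : Matrix (Fin 2) (Fin 2) F) 1 0 / ((g : Matrix (Fin 2) (Fin 2) F) 0 0 * ϖ ^ i))

include hϖ

omit hϖ in
/-- The slope in the coordinates of a multiple. -/
lemma slope_eq {i : ℕ} {g : GL (Fin 2) F} {a b : F} (c : Fˣ)
    (hg : ((scal c * g : GL (Fin 2) F) : Matrix (Fin 2) (Fin 2) F) = Q.mat a b) :
    slope v ϖ i g = resd v (b / (a * ϖ ^ i)) := by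
  have h0 := Q.val_of_scal_mul c hg
  rw [slope, h0]
  simp only [mat, Matrix.of_apply, Matrix.cons_val', Matrix.cons_val_zero, Matrix.cons_val_one,
    Matrix.cons_val_fin_one, mul_assoc, mul_div_mul_left _ _ (inv_ne_zero c.ne_zero)]

/-- The slope of a class of level `i` is integral. -/
lemma v_slope_le {i : ℕ} {a b : F} (ha : v a = 1) (hb : v b ≤ WithZero.exp (-(i : ℤ))) :
    v (b / (a * ϖ ^ i)) ≤ 1 := by
  rw [map_div₀, map_mul, ha, one_mul, v_pow_unif hϖ,
    div_le_one₀ (zero_lt_iff.2 WithZero.exp_ne_zero)]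
  exact hb

omit hϖ in
/-- A class of positive level has normalised coordinates. -/
lemma exists_coords_levG {i : ℕ} (hi : i ≠ 0) {g : GL (Fin 2) F} (hg : g ∈ Q.levG i) :
    ∃ (c : Fˣ) (a b : F), v a = 1 ∧ v b ≤ WithZero.exp (-(i : ℤ)) ∧ v (Q.nm a b) = 1 ∧
      ((scal c * g : GL (Fin 2) F) : Matrix (Fin 2) (Fin 2) F) = Q.mat a b := by
  obtain ⟨c, a, b, ha, hb, hn, h⟩ := hg
  have hb1 : v b < 1 := lt_of_le_of_lt hb (by rw [← WithZero.exp_zero, WithZero.exp_lt_exp]; omega)
  exact ⟨c, a, b, Q.v_a_eq_one ha hb1 hn, hb, hn, h⟩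

/-- The first order coordinate is additive on a positive level. -/
lemma slope_mul {i : ℕ} (hi : i ≠ 0) {g h : GL (Fin 2) F} (hg : g ∈ Q.levG i) (hh : h ∈ Q.levG i) :
    slope v ϖ i (g * h) = slope v ϖ i g + slope v ϖ i h := by
  obtain ⟨c, a, b, ha, hb, -, h1⟩ := Q.exists_coords_levG hi hg
  obtain ⟨d, a', b', ha', hb', -, h2⟩ := Q.exists_coords_levG hi hh
  -- multiply in coordinates
  have hprod : ((scal (c * d) * (g * h) : GL (Fin 2) F) : Matrix (Fin 2) (Fin 2) F)
      = Q.mat (a * a' - Q.n * (b * b')) (a * b' + b * a' + Q.t * (b * b')) := by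
    rw [show scal (c * d) * (g * h) = (scal c * g) * (scal d * h) by
      rw [scal_mul, mul_assoc, ← mul_assoc (scal d), scal_comm d g]; group,
      Units.val_mul, h1, h2, mat_mul]
  rw [Q.slope_eq c h1, Q.slope_eq d h2, Q.slope_eq (c * d) hprod]
  have hϖi : ϖ ^ i ≠ 0 := pow_ne_zero _ (ne_zero_of_unif (v := v) hϖ)
  have hlt : WithZero.exp (-(i : ℤ)) < (1 : WithZero (Multiplicative ℤ)) := by
    rw [← WithZero.exp_zero, WithZero.exp_lt_exp]; omega
  have ha0 : a ≠ 0 := fun e => by simp [e] at ha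
  have ha0' : a' ≠ 0 := fun e => by simp [e] at ha'
  have hP : v (a * a' - Q.n * (b * b')) = 1 := by
    rw [Valuation.map_sub_eq_of_lt_left, map_mul, ha, ha', one_mul]
    rw [map_mul, map_mul, map_mul, ha, ha', one_mul]
    exact lt_of_le_of_lt (mul_le_of_le_one_left' Q.hn)
      (lt_of_le_of_lt (mul_le_of_le_one_left' (hb.trans hlt.le)) (lt_of_le_of_lt hb' hlt))
  have hbb : v (b * b') ≤ WithZero.exp (-(i : ℤ)) := by
    rw [map_mul]; exact (mul_le_of_le_one_left' (hb.trans hlt.le)).trans hb'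
  have hR : v (a * b' + b * a' + Q.t * (b * b')) ≤ WithZero.exp (-(i : ℤ)) := by
    refine (v.map_add _ _).trans (max_le ((v.map_add _ _).trans (max_le ?_ ?_)) ?_) <;> rw [map_mul]
    · rw [ha, one_mul]; exact hb'
    · rw [ha', mul_one]; exact hb
    · exact (mul_le_of_le_one_left' Q.ht).trans hbb
  rw [← resd_add (v_slope_le hϖ ha hb) (v_slope_le hϖ ha' hb'),
    resd_eq_iff (v_slope_le hϖ hP hR)
      ((v.map_add _ _).trans (max_le (v_slope_le hϖ ha hb) (v_slope_le hϖ ha' hb')))]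
  set P := a * a' - Q.n * (b * b') with hPdef
  have hP0 : P ≠ 0 := fun e => by simp [e] at hP
  -- the error term is small
  have e : (a * b' + b * a' + Q.t * (b * b')) / (P * ϖ ^ i) - (b / (a * ϖ ^ i) + b' / (a' * ϖ ^ i))
      = (Q.t * (a * a') * (b * b') + Q.n * (b * b') * (a * b' + b * a')) /
          (P * a * a' * ϖ ^ i) := by
    field_simp
    rw [hPdef]
    ring
  rw [e, map_div₀, map_mul, map_mul, map_mul, hP, ha, ha', one_mul, one_mul, one_mul, v_pow_unif hϖ,
    div_lt_one₀ (zero_lt_iff.2 WithZero.exp_ne_zero)]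
  have hsum : v (a * b' + b * a') ≤ 1 := by
    refine (v.map_add _ _).trans (max_le ?_ ?_) <;> rw [map_mul]
    · rw [ha, one_mul]; exact hb'.trans hlt.le
    · rw [ha', mul_one]; exact hb.trans hlt.le
  have hstrict : v (b * b') < WithZero.exp (-(i : ℤ)) := by
    rw [map_mul]
    refine lt_of_le_of_lt (mul_le_mul' hb hb') ?_
    rw [← WithZero.exp_add, WithZero.exp_lt_exp]
    omega
  refine lt_of_le_of_lt (v.map_add _ _) (max_lt ?_ ?_) <;> rw [map_mul, map_mul]
  · exact lt_of_le_of_lt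
      (mul_le_of_le_one_left' (mul_le_one' Q.ht (by rw [map_mul, ha, ha', one_mul]))) hstrict
  · exact lt_of_le_of_lt
      ((mul_le_of_le_one_right' hsum).trans (mul_le_of_le_one_left' Q.hn)) hstrict

/-- The first order coordinate as a homomorphism. -/
noncomputable def slopeHom {i : ℕ} (hi : i ≠ 0) : Q.levG i →* Multiplicative κ :=
  MonoidHom.mk' (fun g => Multiplicative.ofAdd (slope v ϖ i (g : GL (Fin 2) F)))
    fun g h => congrArg Multiplicative.ofAdd (Q.slope_mul hϖ hi g.2 h.2)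

/-- The first order coordinate is surjective. -/
lemma slopeHom_surjective {i : ℕ} (hi : i ≠ 0) : Function.Surjective (Q.slopeHom hϖ hi) := by
  intro z
  obtain ⟨x, hx, hxz⟩ := exists_resd_eq (v := v) (Multiplicative.toAdd z)
  have hb : v (x * ϖ ^ i) ≤ WithZero.exp (-(i : ℤ)) := by
    rw [map_mul, v_pow_unif hϖ]; exact mul_le_of_le_one_left' hx
  have hlt : v (x * ϖ ^ i) < 1 :=
    lt_of_le_of_lt hb (by rw [← WithZero.exp_zero, WithZero.exp_lt_exp]; omega)
  have hn : v (Q.nm 1 (x * ϖ ^ i)) = 1 := by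
    rw [show Q.nm 1 (x * ϖ ^ i) = 1 + (Q.t + Q.n * (x * ϖ ^ i)) * (x * ϖ ^ i) by simp [nm]; ring,
      Valuation.map_add_eq_of_lt_left, map_one]
    rw [map_one, map_mul]
    refine lt_of_le_of_lt (mul_le_of_le_one_left' ((v.map_add _ _).trans (max_le Q.ht ?_))) hlt
    rw [map_mul]; exact mul_le_one' Q.hn hlt.le
  have hd : Q.nm 1 (x * ϖ ^ i) ≠ 0 := fun e => by simp [e] at hn
  refine ⟨⟨Q.el _ _ hd, le_withScalars _ ⟨1, x * ϖ ^ i, by simp, hb, hn, rfl⟩⟩, ?_⟩
  change Multiplicative.ofAdd (slope v ϖ i (Q.el 1 (x * ϖ ^ i) hd)) = z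
  rw [Q.slope_eq (a := 1) (b := x * ϖ ^ i) 1 (by simp [scal]), one_mul,
    mul_div_cancel_right₀ _ (pow_ne_zero _ (ne_zero_of_unif (v := v) hϖ)), hxz, ofAdd_toAdd]

/-- The kernel of the first order coordinate is the next level. -/
lemma slopeHom_ker {i : ℕ} (hi : i ≠ 0) :
    (Q.slopeHom hϖ hi).ker = (Q.levG (i + 1)).subgroupOf (Q.levG i) := by
  ext ⟨g, hg⟩
  obtain ⟨c, a, b, ha, hb, hn, h⟩ := Q.exists_coords_levG hi hg
  rw [MonoidHom.mem_ker, Subgroup.mem_subgroupOf,
    Q.mem_levG_iff c ha.le hn h]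
  change Multiplicative.ofAdd (slope v ϖ i g) = 1 ↔ _
  rw [← ofAdd_zero, Multiplicative.ofAdd.apply_eq_iff_eq, Q.slope_eq c h,
    resd_eq_zero_iff (v_slope_le hϖ ha hb), map_div₀, map_mul, ha, one_mul, v_pow_unif hϖ,
    div_lt_one₀ (zero_lt_iff.2 WithZero.exp_ne_zero)]
  constructor
  · intro hlt
    rcases eq_or_ne (v b) 0 with h0 | h0
    · rw [h0]; exact zero_le
    rw [← WithZero.exp_log h0, WithZero.exp_lt_exp] at hlt
    rw [← WithZero.exp_log h0, WithZero.exp_le_exp]
    push_cast; omega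
  · intro hle
    exact lt_of_le_of_lt hle (by rw [WithZero.exp_lt_exp]; push_cast; omega)

/-- Consecutive positive levels have index the residue cardinality. -/
lemma relIndex_levG_succ {i : ℕ} (hi : i ≠ 0) :
    (Q.levG (i + 1)).relIndex (Q.levG i) = Nat.card κ := by
  rw [Subgroup.relIndex, ← Q.slopeHom_ker hϖ hi, Subgroup.index_ker,
    MonoidHom.range_eq_top.2 (Q.slopeHom_surjective hϖ hi), Subgroup.card_top,
    Nat.card_congr Multiplicative.toAdd]

/-- The level `i + 1` has index `g1 * q ^ i` in the units. -/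
theorem relIndex_levG (i : ℕ) :
    (Q.levG (i + 1)).relIndex Q.ugrp = Q.g1 * Nat.card κ ^ i := by
  induction i with
  | zero => rw [pow_zero, mul_one]; rfl
  | succ k ih =>
    rw [← Subgroup.relIndex_mul_relIndex _ _ _ (Q.levG_antitone (Nat.le_succ (k + 1)))
      (Q.levG_le_ugrp (k + 1)), Q.relIndex_levG_succ hϖ k.succ_ne_zero, ih, pow_succ]
    ring

/-- The number of unit classes at a positive level. -/
lemma natCard_UQ_succ (i : ℕ) : Nat.card (Q.UQ (i + 1)) = Q.g1 * Nat.card κ ^ i :=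
  Q.relIndex_levG hϖ i

omit hϖ in
/-- One class at level zero. -/
lemma natCard_UQ_zero : Nat.card (Q.UQ 0) = 1 := by
  change (Q.levG 0).relIndex Q.ugrp = 1
  rw [levG_zero]; exact Subgroup.relIndex_self _

end QA

end Fermat.LT
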