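import Fermat.Agent.LT.LocInert
import Fermat.Agent.LT.LocAlg

/-!
# The extended maximal order of a normal order

`exists_emb`: for ramification index `1` or `3` a normal order extends, and the extension is
maximal (`maximal_of_disc`, `maximal_of_eis`).
-/

set_option autoImplicit false

namespace Fermat.LT

variable {F : Type*} [Field F] {E : Type*} [Field E]
  {v : Valuation F (WithZero (Multiplicative ℤ))} {w : Valuation E (WithZero (Multiplicative ℤ))}

/-- A unit discriminant leaves no room. -/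
lemma maximal_of_disc {t n : F} (hd : v (t * t - 4 * n) = 1) {r : F}
    (h : v (t - 2 * r) < 1) : WithZero.exp (-1 : ℤ) ≤ v (r * r - t * r + n) := by
  by_contra hlt
  rw [not_le] at hlt
  refine hd.not_lt ?_
  rw [show t * t - 4 * n = (t - 2 * r) * (t - 2 * r) - 4 * (r * r - t * r + n) by ring]
  refine lt_of_le_of_lt (v.map_sub _ _) (max_lt ?_ ?_) <;> rw [map_mul]
  · exact lt_of_le_of_lt (mul_le_of_le_one_left' h.le) h
  · refine lt_of_le_of_lt (mul_le_of_le_one_left' ?_) (lt_trans hlt ?_)
    · rw [show (4 : F) = ((4 : ℕ) : F) by norm_num]; exact v_natCast_le_one v 4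
    · rw [← WithZero.exp_zero, WithZero.exp_lt_exp]; omega

/-- An Eisenstein pair is maximal. -/
lemma maximal_of_eis {t n : F} (ht : v t < 1) (hn : v n = WithZero.exp (-1 : ℤ)) {r : F}
    (hr : v r ≤ 1) : WithZero.exp (-1 : ℤ) ≤ v (r * r - t * r + n) := by
  have hn1 : v n < 1 := by rw [hn, ← WithZero.exp_zero, WithZero.exp_lt_exp]; omega
  rcases lt_or_eq_of_le hr with hlt | heq
  · refine le_of_eq ?_
    rw [show r * r - t * r + n = n + (r * r - t * r) by ring, Valuation.map_add_eq_of_lt_left, hn]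
    refine lt_of_le_of_lt (v.map_sub _ _) (max_lt ?_ ?_) <;>
    · rw [map_mul, hn]
      exact lt_of_le_of_lt (mul_le_mul' (le_exp_neg_one_iff.2 (by assumption))
        (le_exp_neg_one_iff.2 hlt)) (by rw [← WithZero.exp_add, WithZero.exp_lt_exp]; omega)
  · rw [show r * r - t * r + n = r * r +
      (-(t * r) + n) by ring, Valuation.map_add_eq_of_lt_left, map_mul, heq, one_mul]
    · rw [← WithZero.exp_zero, WithZero.exp_le_exp]; omega
    · rw [map_mul, heq, one_mul]
      refine lt_of_le_of_lt (v.map_add _ _) (max_lt ?_ hn1)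
      rw [Valuation.map_neg, map_mul, heq, mul_one]
      exact ht

namespace CycExt

variable (C : CycExt v w)

/-- The same basis, unit discriminant. -/
noncomputable def embDisc (Q : QA v) (hd : v Q.disc = 1) : Emb C Q where
  Q' :=
    { t := C.ι Q.t
      n := C.ι Q.n
      ht := (C.w_le_one_iff _).2 Q.ht
      hn := (C.w_le_one_iff _).2 Q.hn
      maximal := fun _ _ h => maximal_of_disc (by
        rw [← map_ofNat C.ι 4, ← map_mul, ← map_mul, ← map_sub, C.w_eq_one_iff]; exact hd) h }
  ρ := 1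
  r := 0
  hρ := by simp
  ht := mul_one _
  hn := by simp
  hr := Or.inl rfl

/-- `ω / π` over a totally ramified extension. -/
noncomputable def embEis (he : C.e = 3) (Q : QA v) (hQ : v Q.t < 1 ∧ v Q.n = WithZero.exp (-1 : ℤ))
    {π : E} (hπ : w π = WithZero.exp (-1 : ℤ)) : Emb C Q :=
  have hπ0 : π ≠ 0 := fun e => WithZero.exp_ne_zero (by rw [← hπ, e, map_zero])
  have hn : w (C.ι Q.n / (π * π)) = WithZero.exp (-1 : ℤ) := by
    rw [map_div₀, map_mul, hπ, C.hι, hQ.2, he, ← WithZero.exp_nsmul, ← WithZero.exp_add,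
      ← WithZero.exp_sub]
    norm_num
  have ht : w (C.ι Q.t / π) < 1 := by
    rw [map_div₀, hπ, div_lt_one₀ (zero_lt_iff.2 WithZero.exp_ne_zero), C.hι, he]
    refine lt_of_le_of_lt (pow_le_pow_left₀ zero_le (le_exp_neg_one_iff.2 hQ.1) 3) ?_
    rw [← WithZero.exp_nsmul, WithZero.exp_lt_exp]; norm_num
  { Q' :=
      { t := C.ι Q.t / π
        n := C.ι Q.n / (π * π)
        ht := ht.le
        hn := by rw [hn, ← WithZero.exp_zero, WithZero.exp_le_exp]; omega
        maximal := fun _ hr _ => maximal_of_eis ht hn hr }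
    ρ := π
    r := 1
    hρ := by rw [hπ]; rfl
    ht := by field_simp
    hn := by field_simp
    hr := Or.inr ⟨rfl, he, hQ.1, hQ.2⟩ }

/-- **Extension of a normal order.** For ramification index `1` or `3`, a normal order extends to an
order upstairs, either with the same generator or, for index three, with generator divided by a
uniformiser. -/
theorem exists_emb (Q : QA v) (hQ : Q.Normal) (h3 : v 3 = 1) (he : C.e = 1 ∨ C.e = 3)
    {π : E} (hπ : w π = WithZero.exp (-1 : ℤ)) :
    ∃ T : Emb C Q, (T.ρ = 1 ∧ T.r = 0 ∧ (C.e = 1 ∨ v Q.disc = 1)) ∨ (T.r = 1 ∧ C.e = 3) := by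
  rcases he with he | he
  · exact ⟨C.embUnram h3 he Q, Or.inl ⟨rfl, rfl, Or.inl he⟩⟩
  rcases hQ with hd | hE
  · exact ⟨C.embDisc Q hd, Or.inl ⟨rfl, rfl, Or.inr hd⟩⟩
  · exact ⟨C.embEis he Q hE hπ, Or.inr ⟨rfl, he⟩⟩

end CycExt

end Fermat.LT
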