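import Fermat.Agent.LT.LocPrim
import Fermat.Agent.LT.LocNorm

/-!
# Extension of a local quadratic algebra along a cyclic cubic extension

`Emb` extends a maximal order to a maximal order over the extension: same basis, or `ω / ρ` with
`ρ` a uniformiser when both extensions ramify.  The fixed classes of the twist are the classes of
the small algebra.
-/

set_option autoImplicit false
open scoped Matrix

namespace Fermat.LT

variable {F : Type*} [Field F] {E : Type*} [Field E]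

/-- A cubic cyclic extension with the behaviour of valuations. -/
structure CycExt (v : Valuation F (WithZero (Multiplicative ℤ)))
    (w : Valuation E (WithZero (Multiplicative ℤ))) where
  /-- The embedding of the small field. -/
  ι : F →+* E
  /-- The ramification index. -/
  e : ℕ
  /-- The ramification index is not zero. -/
  he : e ≠ 0
  /-- On the small field `w` is the `e`-th power of `v`. -/
  hι : ∀ x, w (ι x) = v x ^ e
  /-- The automorphism generating the extension. -/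
  s : E ≃+* E
  /-- The automorphism preserves `w`. -/
  hs : ∀ x, w (s x) = w x
  /-- The cube of the automorphism is the identity. -/
  hs3 : ∀ x, s (s (s x)) = x
  /-- The automorphism fixes the small field pointwise. -/
  sι : ∀ x, s (ι x) = ι x
  /-- Only elements of the small field are fixed. -/
  fix : ∀ x, s x = x → ∃ y, ι y = x

variable {v : Valuation F (WithZero (Multiplicative ℤ))}
  {w : Valuation E (WithZero (Multiplicative ℤ))}

namespace CycExt

variable (C : CycExt v w)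

/-- Integrality is preserved by the extension. -/
lemma w_le_one_iff (x : F) : w (C.ι x) ≤ 1 ↔ v x ≤ 1 := by
  rw [C.hι, pow_le_one_iff C.he]

/-- The prime is preserved by the extension. -/
lemma w_lt_one_iff (x : F) : w (C.ι x) < 1 ↔ v x < 1 := by
  rw [C.hι, pow_lt_one_iff C.he]

/-- Units are preserved by the extension. -/
lemma w_eq_one_iff (x : F) : w (C.ι x) = 1 ↔ v x = 1 := by
  rw [C.hι, pow_eq_one_iff_of_nonneg zero_le C.he]

/-- Valuation bounds upstairs translate downstairs by rounding up with the ramification index. -/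
lemma w_le_exp_iff (x : F) (j : ℕ) :
    w (C.ι x) ≤ WithZero.exp (-(j : ℤ)) ↔
      v x ≤ WithZero.exp (-(((j + C.e - 1) / C.e : ℕ) : ℤ)) := by
  rw [C.hι]
  rcases eq_or_ne (v x) 0 with h | h
  · simp [h, zero_pow C.he]
  rw [← WithZero.exp_log h, ← WithZero.exp_nsmul, WithZero.exp_le_exp,
    WithZero.exp_le_exp, nsmul_eq_mul]
  set k := WithZero.log (v x)
  have hpos := Nat.pos_of_ne_zero C.he
  constructor <;> intro hk
  · have hkpos : k ≤ 0 := by nlinarith
    obtain ⟨n, hn⟩ : ∃ n : ℕ, k = -(n : ℤ) := ⟨(-k).toNat, by omega⟩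
    rw [hn] at hk ⊢
    have : j ≤ C.e * n := by
      have : -((C.e : ℤ) * n) ≤ -(j : ℤ) := by linarith
      exact_mod_cast (neg_le_neg_iff.1 this)
    rw [neg_le_neg_iff, Nat.cast_le]
    rw [Nat.div_le_iff_le_mul hpos]
    rw [mul_comm] at this
    omega
  · set n := (j + C.e - 1) / C.e with hn
    have hj : j ≤ C.e * n := by
      have h1 := Nat.div_add_mod (j + C.e - 1) C.e
      have h2 := Nat.mod_lt (j + C.e - 1) hpos
      rw [← hn] at h1
      omega
    have h1 : (C.e : ℤ) * k ≤ (C.e : ℤ) * (-(n : ℤ)) := mul_le_mul_of_nonneg_left hk (by positivity)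
    linarith

end CycExt

/-- A maximal order over the extension containing that of `Q`. -/
structure Emb (C : CycExt v w) (Q : QA v) where
  /-- The maximal order over the extension. -/
  Q' : QA w
  /-- The ratio between the generators of the two orders. -/
  ρ : E
  /-- The valuation exponent of `ρ`, `0` or `1`. -/
  r : ℕ
  /-- `ρ` has valuation exponent `r`. -/
  hρ : w ρ = WithZero.exp (-(r : ℤ))
  /-- The traces differ by the factor `ρ`. -/
  ht : Q'.t * ρ = C.ι Q.t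
  /-- The norms differ by the factor `ρ²`. -/
  hn : Q'.n * ρ * ρ = C.ι Q.n
  /-- `r = 1` only for index three and an Eisenstein generator downstairs. -/
  hr : r = 0 ∨ (r = 1 ∧ C.e = 3 ∧ v Q.t < 1 ∧ v Q.n = WithZero.exp (-1 : ℤ))

namespace Emb

variable {C : CycExt v w} {Q : QA v} (T : Emb C Q)

/-- `ρ` is not zero. -/
lemma ρ_ne_zero : T.ρ ≠ 0 := fun h => WithZero.exp_ne_zero (by rw [← T.hρ, h, map_zero])

/-- The conjugate of `ρ` is not zero. -/
lemma sρ_ne_zero : C.s T.ρ ≠ 0 := fun h => T.ρ_ne_zero ((map_eq_zero C.s).1 h)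

/-- `ρ` is integral. -/
lemma w_ρ_le : w T.ρ ≤ 1 := by
  rw [T.hρ, ← WithZero.exp_zero, WithZero.exp_le_exp]; omega

/-- The twist of the extended algebra. -/
noncomputable def twist : T.Q'.Twist where
  s := C.s
  hs := C.hs
  hs3 := C.hs3
  ε := T.ρ / C.s T.ρ
  hε := by rw [map_div₀, C.hs, div_self (w.ne_zero_iff.2 T.ρ_ne_zero)]
  hεN := by
    have h1 := T.ρ_ne_zero
    have h2 := T.sρ_ne_zero
    have h3 : C.s (C.s T.ρ) ≠ 0 := fun h => h2 ((map_eq_zero C.s).1 h)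
    simp only [map_div₀, C.hs3]
    field_simp
  st := by
    have e : C.s T.Q'.t * C.s T.ρ = T.Q'.t * T.ρ := by rw [← map_mul, T.ht, C.sι]
    have h2 := T.sρ_ne_zero
    field_simp
    linear_combination e
  sn := by
    have e : C.s T.Q'.n * (C.s T.ρ * C.s T.ρ) = T.Q'.n * T.ρ * T.ρ := by
      rw [← map_mul C.s T.ρ T.ρ, ← map_mul, ← mul_assoc, T.hn, C.sι]
    have h2 := T.sρ_ne_zero
    field_simp
    linear_combination e

/-- `diag(1, ρ)`. -/
noncomputable def dρ : GL (Fin 2) E :=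
  Matrix.GeneralLinearGroup.mkOfDetNeZero !![1, 0; 0, T.ρ]
    (by simp [Matrix.det_fin_two_of, T.ρ_ne_zero])

/-- The embedding of matrices. -/
noncomputable def φ : GL (Fin 2) F →* GL (Fin 2) E :=
  (MulAut.conj T.dρ).toMonoidHom.comp (Matrix.GeneralLinearGroup.map C.ι)

/-- In coordinates of the two orders the embedding sends `(a, b)` to `(ι a, ρ ι b)`. -/
lemma φ_mat {g : GL (Fin 2) F} {a b : F} (hg : (g : Matrix (Fin 2) (Fin 2) F) = Q.mat a b) :
    (T.φ g : Matrix (Fin 2) (Fin 2) E) = T.Q'.mat (C.ι a) (T.ρ * C.ι b) := by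
  have hinv : ((T.dρ)⁻¹ : GL (Fin 2) E).val = !![1, 0; 0, T.ρ⁻¹] := by
    rw [← Units.mul_right_inj (a := T.dρ), ← Units.val_mul, mul_inv_cancel]
    ext k l
    fin_cases k <;> fin_cases l <;> simp [dρ, Matrix.mul_apply, T.ρ_ne_zero]
  change ((T.dρ * Matrix.GeneralLinearGroup.map C.ι g * T.dρ⁻¹ : GL (Fin 2) E) :
    Matrix (Fin 2) (Fin 2) E) = _
  rw [Units.val_mul, Units.val_mul, hinv]
  change !![1, 0; 0, T.ρ] * (g : Matrix (Fin 2) (Fin 2) F).map C.ι * !![1, 0; 0, T.ρ⁻¹] = _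
  rw [hg, show (Q.mat a b).map C.ι
    = !![C.ι a, -(C.ι Q.n * C.ι b); C.ι b, C.ι a + C.ι Q.t * C.ι b] by
    ext k l
    fin_cases k <;> fin_cases l <;> simp [QA.mat]]
  have h0 := T.ρ_ne_zero
  ext k l
  fin_cases k <;> fin_cases l <;> simp [QA.mat, Matrix.mul_apply, ← T.ht, ← T.hn] <;> field_simp

/-- The embedding of matrices sends scalars to scalars. -/
lemma φ_scal (c : Fˣ) : T.φ (scal c) = scal (Units.map (C.ι : F →* E) c) := by
  change T.dρ * Matrix.GeneralLinearGroup.map C.ι (scal c) * T.dρ⁻¹ = _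
  rw [show Matrix.GeneralLinearGroup.map C.ι (scal c) = scal (Units.map (C.ι : F →* E) c) from
    Units.ext (by
      change ((scal c : GL (Fin 2) F) : Matrix (Fin 2) (Fin 2) F).map C.ι = _
      ext i j
      fin_cases i <;> fin_cases j <;> simp),
    ← scal_comm, mul_inv_cancel_right]

/-- The norm of an extended element. -/
lemma nm_φ (a b : F) : T.Q'.nm (C.ι a) (T.ρ * C.ι b) = C.ι (Q.nm a b) := by
  simp only [QA.nm, map_add, map_mul]
  linear_combination (C.ι a * C.ι b) * T.ht + (C.ι b * C.ι b) * T.hn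

/-- The extension maps the torus into the torus. -/
lemma φ_torus {g : GL (Fin 2) F} (hg : g ∈ Q.torus) : T.φ g ∈ T.Q'.torus := by
  obtain ⟨a, b, h⟩ := hg
  exact ⟨_, _, T.φ_mat h⟩

/-- The twist fixes the small algebra. -/
lemma θ_φ {g : GL (Fin 2) F} (hg : g ∈ Q.torus) : T.twist.θ (T.φ g) = T.φ g := by
  obtain ⟨a, b, h⟩ := hg
  refine Units.ext ?_
  rw [T.twist.θ_mat (T.φ_mat h), T.φ_mat h]
  congr 1
  · exact C.sι a
  · change T.ρ / C.s T.ρ * C.s (T.ρ * C.ι b) = _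
    have := T.sρ_ne_zero
    rw [map_mul, C.sι]; field_simp

/-- Coordinates of the image of a unit. -/
lemma φ_coords {g : GL (Fin 2) F} {a b : F} (c : Fˣ) (ha : v a ≤ 1) (hb : v b ≤ 1)
    (hn : v (Q.nm a b) = 1)
    (hg : ((scal c * g : GL (Fin 2) F) : Matrix (Fin 2) (Fin 2) F) = Q.mat a b) :
    w (C.ι a) ≤ 1 ∧ w (T.ρ * C.ι b) ≤ 1 ∧ w (T.Q'.nm (C.ι a) (T.ρ * C.ι b)) = 1 ∧
      ((scal (Units.map (C.ι : F →* E) c) * T.φ g : GL (Fin 2) E) : Matrix (Fin 2) (Fin 2) E)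
        = T.Q'.mat (C.ι a) (T.ρ * C.ι b) :=
  ⟨(C.w_le_one_iff a).2 ha, by rw [map_mul]; exact mul_le_one' T.w_ρ_le ((C.w_le_one_iff b).2 hb),
    by rw [T.nm_φ]; exact (C.w_eq_one_iff _).2 hn, by rw [← T.φ_scal, ← map_mul]; exact T.φ_mat hg⟩

/-- The level of the base order cut out by level `j` of the extended order. -/
def lev (j : ℕ) : ℕ := (j - T.r + C.e - 1) / C.e

/-- The levels of the extended order restrict to the translated levels. -/
lemma mem_levG'_iff {g : GL (Fin 2) F} (hg : g ∈ Q.ugrp) (j : ℕ) :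
    T.φ g ∈ T.Q'.levG j ↔ g ∈ Q.levG (T.lev j) := by
  obtain ⟨c, a, b, ha, hb, hn, h⟩ := Q.exists_coords_ugrp hg
  obtain ⟨ha', -, hn', h'⟩ := T.φ_coords c ha hb hn h
  rw [T.Q'.mem_levG_iff _ ha' hn' h', Q.mem_levG_iff c ha hn h, lev,
    ← C.w_le_exp_iff, map_mul, T.hρ]
  rcases le_or_gt T.r j with hj | hj
  · rw [show WithZero.exp (-(j : ℤ)) = WithZero.exp (-(T.r : ℤ)) *
        WithZero.exp (-(((j - T.r : ℕ) : ℤ))) by
      rw [← WithZero.exp_add]; congr 1; omega,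
        mul_le_mul_iff_right₀ (zero_lt_iff.2 WithZero.exp_ne_zero)]
  · rw [show j - T.r = 0 by omega, Nat.cast_zero, neg_zero, WithZero.exp_zero]
    refine iff_of_true ?_ ((C.w_le_one_iff b).2 hb)
    refine (mul_le_of_le_one_right' ((C.w_le_one_iff b).2 hb)).trans ?_
    rw [WithZero.exp_le_exp]; omega

/-- The extension maps units to units. -/
lemma φ_ugrp {g : GL (Fin 2) F} (hg : g ∈ Q.ugrp) : T.φ g ∈ T.Q'.ugrp := by
  obtain ⟨c, a, b, ha, hb, hn, h⟩ := Q.exists_coords_ugrp hg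
  obtain ⟨ha', hb', hn', h'⟩ := T.φ_coords c ha hb hn h
  exact ⟨_, _, _, ha', hb', hn', h'⟩

/-- Non-units stay non-units. -/
lemma isPrim_φ {g : GL (Fin 2) F} {a : F} {m : ℕ} (hg : Q.IsPrim g a m) :
    ∃ a', T.Q'.IsPrim (T.φ g) a' (C.e * m - 2 * T.r) := by
  obtain ⟨hm, ha, hn, c, hc⟩ := hg
  have h' : ((scal (Units.map (C.ι : F →* E) c) * T.φ g : GL (Fin 2) E) : Matrix (Fin 2) (Fin 2) E)
      = T.Q'.mat (C.ι a) (T.ρ * C.ι 1) := by rw [← T.φ_scal, ← map_mul]; exact T.φ_mat hc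
  have hn' : w (T.Q'.nm (C.ι a) (T.ρ * C.ι 1)) = WithZero.exp (-((C.e * m : ℕ) : ℤ)) := by
    rw [T.nm_φ, C.hι, hn, ← WithZero.exp_nsmul]
    congr 1
    push_cast
    simp
  rw [map_one, mul_one] at h' hn'
  -- If `ρ` is a unit the image is primitive as it stands.
  rcases T.hr with hr | ⟨hr, he, ht, hn1⟩
  · have hρ1 : w T.ρ = 1 := by rw [T.hρ, hr]; simp
    refine ⟨_, QA.isPrim_of_coords _ ((C.w_le_one_iff a).2 ha) hρ1 ?_ ?_ h'⟩
    · rw [hr]; simpa using Nat.one_le_iff_ne_zero.2 (Nat.mul_ne_zero C.he (by omega))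
    · rw [hn', hr]; simp
  -- Otherwise `a` is not a unit, and we divide by `ρ`.
  · have hroot : v a < 1 := by
      by_contra hna
      have ha1 : v a = 1 := le_antisymm ha (not_lt.1 hna)
      have : v (Q.nm a 1) = 1 := by
        rw [show Q.nm a 1 = a * a + (Q.t * a + Q.n) by simp [QA.nm]; ring,
          Valuation.map_add_eq_of_lt_left, map_mul, ha1, mul_one]
        rw [map_mul v a a, ha1, mul_one]
        refine lt_of_le_of_lt (v.map_add _ _) (max_lt ?_ ?_)
        · rw [map_mul, ha1, mul_one]; exact ht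
        · rw [hn1, ← WithZero.exp_zero, WithZero.exp_lt_exp]; omega
      rw [hn, ← WithZero.exp_zero, WithZero.exp_inj] at this
      omega
    have h3 : w (C.ι a) ≤ WithZero.exp (-(3 : ℤ)) := by
      rw [C.hι, he]
      refine le_trans (pow_le_pow_left₀ zero_le (le_exp_neg_one_iff.2 hroot) 3) ?_
      rw [← WithZero.exp_nsmul]; simp
    have hρ0 := T.ρ_ne_zero
    have h'' : ((scal (Units.mk0 T.ρ⁻¹ (inv_ne_zero hρ0) * Units.map (C.ι : F →* E) c) * T.φ g :
        GL (Fin 2) E) : Matrix (Fin 2) (Fin 2) E) = T.Q'.mat (C.ι a / T.ρ) 1 := by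
      rw [scal_mul, mul_assoc, T.Q'.val_scal_mul _ h', Units.val_mk0]
      congr 1 <;> field_simp
    refine ⟨C.ι a / T.ρ, ?_, ?_, ?_, _, h''⟩
    · rw [hr, he]; omega
    · rw [map_div₀, T.hρ, hr, div_le_one₀ (zero_lt_iff.2 WithZero.exp_ne_zero)]
      refine h3.trans ?_
      rw [WithZero.exp_le_exp]; omega
    · rw [show T.Q'.nm (C.ι a / T.ρ) 1 = T.Q'.nm (C.ι a) T.ρ / (T.ρ * T.ρ) by
        simp [QA.nm]; field_simp, map_div₀, map_mul, hn', T.hρ, ← WithZero.exp_add,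
          ← WithZero.exp_sub]
      congr 1
      have : 2 * T.r ≤ C.e * m := by rw [hr, he]; omega
      omega

/-- An element of the torus becomes a unit upstairs exactly when it is a unit. -/
lemma φ_mem_ugrp_iff {g : GL (Fin 2) F} (hg : g ∈ Q.torus) : T.φ g ∈ T.Q'.ugrp ↔ g ∈ Q.ugrp := by
  refine ⟨fun h => ?_, T.φ_ugrp⟩
  rcases QA.mem_ugrp_or_isPrim hg with h' | ⟨a, m, h'⟩
  · exact h'
  · obtain ⟨a', hp⟩ := T.isPrim_φ h'
    exact absurd h hp.not_mem_ugrp

/-- **Fixed elements come from the small algebra.** -/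
theorem exists_of_fixed {g : GL (Fin 2) E} (hg : g ∈ T.Q'.torus) {d : Eˣ}
    (hd : T.twist.θ g = scal d * g) :
    ∃ (c : Eˣ) (γ : GL (Fin 2) F), γ ∈ Q.torus ∧ g = scal c * T.φ γ := by
  obtain ⟨a, b, h⟩ := hg
  have h1 := T.twist.θ_mat h
  rw [hd, T.Q'.val_scal_mul d h] at h1
  obtain ⟨e1, e2⟩ := T.Q'.mat_inj h1
  have hdet : T.Q'.nm a b ≠ 0 := by
    rw [← QA.det_mat, ← h]; exact (Matrix.GeneralLinearGroup.det g).ne_zero
  rcases eq_or_ne b 0 with rfl | hb
  · have ha : a ≠ 0 := fun h0 => hdet (by simp [h0, QA.nm])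
    refine ⟨Units.mk0 a ha, 1, Q.torus.one_mem, Units.ext ?_⟩
    rw [map_one, mul_one, h, scal_coe]
    ext i j
    fin_cases i <;> fin_cases j <;> simp [QA.mat]
  -- the ratio is fixed
  have hfix : C.s (a * T.ρ / b) = a * T.ρ / b := by
    have hs0 : C.s b ≠ 0 := fun h0 => hb ((map_eq_zero C.s).1 h0)
    have e2' : T.ρ / C.s T.ρ * C.s b = (d : E) * b := e2.symm
    have e1' : C.s a = (d : E) * a := e1.symm
    have hsρ := T.sρ_ne_zero
    rw [map_div₀, map_mul, e1', div_eq_div_iff hs0 hb]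
    field_simp at e2'
    linear_combination (-a) * e2'
  obtain ⟨r, hr⟩ := C.fix _ hfix
  have hnm : Q.nm r 1 ≠ 0 := fun h0 => by
    have e := T.nm_φ r 1
    rw [h0, map_zero, hr, map_one, mul_one] at e
    refine hdet ?_
    have hρ0 := T.ρ_ne_zero
    rw [show T.Q'.nm a b = T.Q'.nm (a * T.ρ / b) T.ρ * (b / T.ρ) ^ 2 by
      simp [QA.nm]; field_simp, e, zero_mul]
  refine ⟨Units.mk0 (b / T.ρ) (div_ne_zero hb T.ρ_ne_zero), Q.el r 1 hnm, Q.el_mem_torus _ _ _,
    Units.ext ?_⟩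
  rw [T.Q'.val_scal_mul _ (T.φ_mat (a := r) (b := 1) (Q.coe_el _ _ hnm)), h, map_one, hr,
    Units.val_mk0]
  have hρ0 := T.ρ_ne_zero
  congr 1 <;> field_simp

/-- The fixed unit classes. -/
theorem mem_base_iff {g : GL (Fin 2) E} :
    g ∈ T.twist.base ↔ ∃ (c : Eˣ) (γ : GL (Fin 2) F), γ ∈ Q.ugrp ∧ g = scal c * T.φ γ := by
  constructor
  · rintro ⟨hg, d, hd⟩
    obtain ⟨c, γ, hγ, rfl⟩ := T.exists_of_fixed (T.Q'.ugrp_le_torus hg) hd
    refine ⟨c, γ, (T.φ_mem_ugrp_iff hγ).1 ?_, rfl⟩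
    have := T.Q'.ugrp.mul_mem (T.Q'.ugrp.inv_mem (scal_mem_withScalars T.Q'.unitGrp c)) hg
    rwa [inv_mul_cancel_left] at this
  · rintro ⟨c, γ, hγ, rfl⟩
    refine ⟨T.Q'.ugrp.mul_mem (scal_mem_withScalars T.Q'.unitGrp c) (T.φ_ugrp hγ), ?_⟩
    obtain ⟨e, he⟩ := T.twist.θ_scal c
    refine ⟨e * c⁻¹, ?_⟩
    rw [map_mul, he, T.θ_φ (Q.ugrp_le_torus hγ), ← mul_assoc, ← scal_mul, inv_mul_cancel_right]

/-- Indices in the fixed classes are numbers of small classes. -/
theorem relIndex_base (j : ℕ) :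
    (T.Q'.levG j).relIndex T.twist.base = Nat.card (Q.UQ (T.lev j)) := by
  let φu : Q.ugrp →* T.Q'.ugrp :=
    MonoidHom.mk' (fun g => ⟨T.φ g, T.φ_ugrp g.2⟩) fun g h => Subtype.ext (map_mul T.φ _ _)
  set L := (T.Q'.levG j).subgroupOf T.Q'.ugrp with hL
  set B := T.twist.base.subgroupOf T.Q'.ugrp with hB
  have e1 : B ⊔ L = φu.range ⊔ L := by
    refine le_antisymm (sup_le ?_ le_sup_right) (sup_le ?_ le_sup_right)
    · intro g hg
      obtain ⟨c, γ, hγ, hgc⟩ := T.mem_base_iff.1 (Subgroup.mem_subgroupOf.1 hg)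
      rw [show g = (⟨scal c, scal_mem_withScalars _ c⟩ : T.Q'.ugrp) * φu ⟨γ, hγ⟩ from
        Subtype.ext hgc]
      exact mul_mem (Subgroup.mem_sup_right (Subgroup.mem_subgroupOf.2 (scal_mem_withScalars _ c)))
        (Subgroup.mem_sup_left ⟨_, rfl⟩)
    · rintro _ ⟨γ, rfl⟩
      exact Subgroup.mem_sup_left (Subgroup.mem_subgroupOf.2 (T.mem_base_iff.2
        ⟨1, γ, γ.2, show T.φ (γ : GL (Fin 2) F) = scal 1 * T.φ γ by simp [scal]⟩))
  rw [← Subgroup.relIndex_subgroupOf T.twist.base_le, ← hL, ← hB, ← Subgroup.relIndex_sup_right,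
    e1, Subgroup.relIndex_sup_right, MonoidHom.range_eq_map, ← Subgroup.relIndex_comap]
  rw [show L.comap φu = (Q.levG (T.lev j)).subgroupOf Q.ugrp from by
    ext γ; exact T.mem_levG'_iff γ.2 j, Subgroup.relIndex_top_right]
  rfl

/-- The twisted norm of a unit is a small unit up to scalars. -/
theorem exists_norm3 {x : GL (Fin 2) E} (hx : x ∈ T.Q'.ugrp) :
    ∃ (c : Eˣ) (γ : GL (Fin 2) F), γ ∈ Q.ugrp ∧ T.twist.norm3 x = scal c * T.φ γ := by
  refine T.mem_base_iff.1 ⟨(T.twist.normU ⟨x, hx⟩).2, 1, ?_⟩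
  rw [show (scal (1 : Eˣ) : GL (Fin 2) E) = 1 by simp [scal], one_mul]
  show T.twist.θ (T.twist.norm3 x) = T.twist.norm3 x
  rw [QA.Twist.norm3, map_mul, map_mul, T.twist.θ_θ_θ hx,
    QA.torus_comm' (T.Q'.ugrp.mul_mem (T.twist.θ_ugrp hx) (T.twist.θ_ugrp (T.twist.θ_ugrp hx))) hx,
    ← mul_assoc]

/-- Levels of the norm. -/
theorem norm3_mem_iff {x : GL (Fin 2) E} {c : Eˣ} {γ : GL (Fin 2) F} (hγ : γ ∈ Q.ugrp)
    (h : T.twist.norm3 x = scal c * T.φ γ) (j : ℕ) :
    T.twist.norm3 x ∈ T.Q'.levG j ↔ γ ∈ Q.levG (T.lev j) := by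
  rw [h, (T.Q'.levG j).mul_mem_cancel_left
    (show scal c ∈ T.Q'.levG j from scal_mem_withScalars _ c), T.mem_levG'_iff hγ]

end Emb

end Fermat.LT
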