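import Fermat.Agent.LT.LocOrb

/-!
# The residual norm-one classes are coboundaries when the residue extension is nontrivial

`Twist.h90_of_residue`: if some integral element moves to a unit difference under `s`, norm-one
classes are coboundaries.
-/

set_option autoImplicit false
open scoped Matrix

namespace Fermat.LT

variable {F : Type*} [Field F] {v : Valuation F (WithZero (Multiplicative ℤ))}

namespace QA

variable {Q : QA v} (τ : Q.Twist)

/-- Polar form of the norm. -/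
def bil (Q : QA v) (p p' : F × F) : F :=
  2 * p.1 * p'.1 + Q.t * (p.1 * p'.2 + p'.1 * p.2) + 2 * Q.n * p.2 * p'.2

/-- The norm of a combination of three points. -/
lemma nm_comb (Q : QA v) (l₀ l₁ l₂ : F) (p₀ p₁ p₂ : F × F) :
    Q.nm (l₀ * p₀.1 + l₁ * p₁.1 + l₂ * p₂.1) (l₀ * p₀.2 + l₁ * p₁.2 + l₂ * p₂.2)
      = l₀ * l₀ * Q.nm p₀.1 p₀.2 + l₁ * l₁ * Q.nm p₁.1 p₁.2 + l₂ * l₂ * Q.nm p₂.1 p₂.2
        + l₀ * l₁ * Q.bil p₀ p₁ + l₀ * l₂ * Q.bil p₀ p₂ + l₁ * l₂ * Q.bil p₁ p₂ := by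
  simp [nm, bil]; ring

/-- The norm of a sum. -/
lemma nm_add (Q : QA v) (p p' : F × F) :
    Q.nm (p.1 + p'.1) (p.2 + p'.2) = Q.nm p.1 p.2 + Q.nm p'.1 p'.2 + Q.bil p p' := by
  simp [nm, bil]; ring

/-- One of three vectors spanning `(1, 0)` or a sum of two of them has unit norm. -/
lemma exists_unit_comb {p : Fin 3 → F × F} (hp : ∀ i, v (p i).1 ≤ 1 ∧ v (p i).2 ≤ 1) {l : Fin 3 → F}
    (hl : ∀ i, v (l i) ≤ 1) (h1 : l 0 * (p 0).1 + l 1 * (p 1).1 + l 2 * (p 2).1 = 1)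
    (h2 : l 0 * (p 0).2 + l 1 * (p 1).2 + l 2 * (p 2).2 = 0) :
    (∃ i, v (Q.nm (p i).1 (p i).2) = 1) ∨
      ∃ i j, v (Q.nm ((p i).1 + (p j).1) ((p i).2 + (p j).2)) = 1 := by
  by_contra hne
  simp only [not_or, not_exists] at hne
  have hsq : ∀ i, v (Q.nm (p i).1 (p i).2) < 1 := fun i =>
    lt_of_le_of_ne (Q.v_nm_le (hp i).1 (hp i).2) (hne.1 i)
  have hB : ∀ i j, v (Q.bil (p i) (p j)) < 1 := fun i j => by
    rw [show Q.bil (p i) (p j) = Q.nm ((p i).1 + (p j).1) ((p i).2 + (p j).2)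
      - (Q.nm (p i).1 (p i).2 + Q.nm (p j).1 (p j).2) by rw [Q.nm_add]; ring]
    exact lt_of_le_of_lt (v.map_sub _ _) (max_lt (lt_of_le_of_ne (Q.v_nm_le
      ((v.map_add _ _).trans (max_le (hp i).1 (hp j).1))
      ((v.map_add _ _).trans (max_le (hp i).2 (hp j).2))) (hne.2 i j))
      (lt_of_le_of_lt (v.map_add _ _) (max_lt (hsq i) (hsq j))))
  have h0 := Q.nm_comb (l 0) (l 1) (l 2) (p 0) (p 1) (p 2)
  rw [h1, h2, show Q.nm 1 0 = 1 by simp [nm]] at h0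
  refine lt_irrefl (1 : WithZero (Multiplicative ℤ)) ?_
  conv_lhs => rw [← map_one v, h0]
  have hl2 : ∀ i j, v (l i * l j) ≤ 1 := fun i j => by
    rw [map_mul]; exact mul_le_one' (hl i) (hl j)
  have ha : ∀ i, v (l i * l i * Q.nm (p i).1 (p i).2) < 1 := fun i => by
    rw [map_mul]; exact lt_of_le_of_lt (mul_le_of_le_one_left' (hl2 i i)) (hsq i)
  have hb : ∀ i j, v (l i * l j * Q.bil (p i) (p j)) < 1 := fun i j => by
    rw [map_mul]; exact lt_of_le_of_lt (mul_le_of_le_one_left' (hl2 i j)) (hB i j)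
  exact lt_of_le_of_lt (v.map_add _ _) (max_lt (lt_of_le_of_lt (v.map_add _ _) (max_lt
    (lt_of_le_of_lt (v.map_add _ _) (max_lt (lt_of_le_of_lt (v.map_add _ _) (max_lt
      (lt_of_le_of_lt (v.map_add _ _) (max_lt (ha 0) (ha 1))) (ha 2))) (hb 0 1))) (hb 0 2)))
        (hb 1 2))

/-- Residually distinct conjugates admit an integral interpolation of `(1, 0, 0)` by quadratics. -/
lemma exists_vandermonde (θ₀ : F) (hθ : v θ₀ ≤ 1) (hθ1 : v (τ.s θ₀ - θ₀) = 1) :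
    ∃ l : Fin 3 → F, (∀ i, v (l i) ≤ 1) ∧ l 0 + l 1 * θ₀ + l 2 * (θ₀ * θ₀) = 1 ∧
      l 0 + l 1 * τ.s θ₀ + l 2 * (τ.s θ₀ * τ.s θ₀) = 0 ∧
      l 0 + l 1 * τ.s (τ.s θ₀) + l 2 * (τ.s (τ.s θ₀) * τ.s (τ.s θ₀)) = 0 := by
  set y := τ.s θ₀ with hy
  set z := τ.s y with hz
  have hd2 : v (θ₀ - z) = 1 := by
    rw [show θ₀ - z = τ.s (τ.s (τ.s θ₀ - θ₀)) by simp only [map_sub, hy, hz, τ.hs3], τ.hs, τ.hs]
    exact hθ1
  have hd1 : v (θ₀ - y) = 1 := by rw [Valuation.map_sub_swap]; exact hθ1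
  have hy1 : v y ≤ 1 := by rw [hy, τ.hs]; exact hθ
  have hz1 : v z ≤ 1 := by rw [hz, τ.hs]; exact hy1
  have h0 : (θ₀ - y) * (θ₀ - z) ≠ 0 := fun e => by
    have := congrArg v e; rw [map_mul, hd1, hd2] at this; simp at this
  have hD : v ((θ₀ - y) * (θ₀ - z)) = 1 := by rw [map_mul, hd1, hd2, one_mul]
  refine ⟨![y * z / ((θ₀ - y) * (θ₀ - z)), -(y + z) / ((θ₀ - y) * (θ₀ - z)),
    1 / ((θ₀ - y) * (θ₀ - z))], fun i => ?_, ?_, ?_, ?_⟩
  · fin_cases i <;> simp only [Matrix.cons_val, map_div₀, hD, div_one, Fin.zero_eta, Fin.mk_one,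
      Fin.reduceFinMk]
    · rw [map_mul]; exact mul_le_one' hy1 hz1
    · rw [Valuation.map_neg]; exact (v.map_add _ _).trans (max_le hy1 hz1)
    · simp
  all_goals
    simp only [Matrix.cons_val]
    rw [div_mul_eq_mul_div, div_mul_eq_mul_div, ← add_div, ← add_div, div_eq_iff h0]
    ring

/-- Up to a scalar, the twisted norm of `x` is the product of the three conjugates of an integral
representative of `x`. -/
lemma Twist.val_scal_mul_norm3 {x : GL (Fin 2) F} {c : Fˣ} {a b : F}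
    (hx : ((scal c * x : GL (Fin 2) F) : Matrix (Fin 2) (Fin 2) F) = Q.mat a b) :
    ∃ k, ((scal k * τ.norm3 x : GL (Fin 2) F) : Matrix (Fin 2) (Fin 2) F)
      = Q.mat a b * Q.mat (τ.s a) (τ.ε * τ.s b)
        * Q.mat (τ.s (τ.s a)) (τ.ε * τ.s (τ.ε * τ.s b)) := by
  obtain ⟨d1, hd1⟩ := τ.θ_scal c
  obtain ⟨d2, hd2⟩ := τ.θ_scal d1
  have hxθ : ((scal d1 * τ.θ x : GL (Fin 2) F) : Matrix (Fin 2) (Fin 2) F)
      = Q.mat (τ.s a) (τ.ε * τ.s b) := by rw [← hd1, ← map_mul]; exact τ.θ_mat hx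
  have hxθθ : ((scal d2 * τ.θ (τ.θ x) : GL (Fin 2) F) : Matrix (Fin 2) (Fin 2) F) =
      Q.mat (τ.s (τ.s a)) (τ.ε * τ.s (τ.ε * τ.s b)) := by
    rw [← hd2, ← map_mul]; exact τ.θ_mat hxθ
  have c1 := scal_comm d1 x
  have c2 := scal_comm d2 (x * τ.θ x)
  refine ⟨c * d1 * d2, ?_⟩
  rw [show scal (c * d1 * d2) * τ.norm3 x
      = (scal c * x) * (scal d1 * τ.θ x) * (scal d2 * τ.θ (τ.θ x)) by
    rw [Twist.norm3, scal_mul, scal_mul]
    calc scal c * scal d1 * scal d2 * (x * τ.θ x * τ.θ (τ.θ x))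
        = scal c * scal d1 * (scal d2 * (x * τ.θ x)) * τ.θ (τ.θ x) := by simp only [mul_assoc]
      _ = scal c * (scal d1 * x) * τ.θ x * scal d2 * τ.θ (τ.θ x) := by
        rw [c2]; simp only [mul_assoc]
      _ = _ := by rw [c1]; simp only [mul_assoc],
    Units.val_mul, Units.val_mul, hx, hxθ, hxθθ]

/-- With second coordinate in the maximal ideal, the norm is the square of the first coordinate
modulo the maximal ideal. -/
lemma v_nm_div_sq_sub_one {a b : F} (ha1 : v a = 1) (hb1 : v b < 1) :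
    v (Q.nm a b / (a * a) - 1) < 1 := by
  have ha0 : a ≠ 0 := fun e => by simp [e] at ha1
  rw [show Q.nm a b / (a * a) - 1 = (Q.t * a + Q.n * b) * b / (a * a) by
    simp [nm]; field_simp; ring, map_div₀, map_mul, map_mul, ha1, one_mul, div_one]
  refine lt_of_le_of_lt (mul_le_of_le_one_left' ((v.map_add _ _).trans (max_le ?_ ?_))) hb1
  · rw [map_mul]; exact mul_le_one' Q.ht ha1.le
  · rw [map_mul]; exact mul_le_one' Q.hn hb1.le

/-- If the residue extension is nontrivial, some integral `θ` gives the twisted sum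
`θ + θ^s (A, B) + θ^{s²} (A₂, B₂)` unit norm. -/
lemma Twist.exists_unit_twisted_sum {θ₀ : F} (hθ : v θ₀ ≤ 1) (hθ1 : v (τ.s θ₀ - θ₀) = 1)
    {A B A2 B2 : F} (hA : v A ≤ 1) (hB : v B ≤ 1) (hA2 : v A2 ≤ 1) (hB2 : v B2 ≤ 1) :
    ∃ θ za zb : F, v θ ≤ 1 ∧ za = θ + τ.s θ * A + τ.s (τ.s θ) * A2 ∧
      zb = τ.s θ * B + τ.s (τ.s θ) * B2 ∧ v za ≤ 1 ∧ v zb ≤ 1 ∧ v (Q.nm za zb) = 1 := by
  let P : F → F × F := fun θ =>
    (θ + τ.s θ * A + τ.s (τ.s θ) * A2, τ.s θ * B + τ.s (τ.s θ) * B2)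
  have hPint : ∀ θ, v θ ≤ 1 → v (P θ).1 ≤ 1 ∧ v (P θ).2 ≤ 1 := fun θ hθ' => by
    have e1 : v (τ.s θ) ≤ 1 := by rw [τ.hs]; exact hθ'
    have e2 : v (τ.s (τ.s θ)) ≤ 1 := by rw [τ.hs]; exact e1
    constructor
    · refine (v.map_add _ _).trans (max_le ((v.map_add _ _).trans (max_le hθ' ?_)) ?_)
        <;> rw [map_mul]
      · exact mul_le_one' e1 hA
      · exact mul_le_one' e2 hA2
    · refine (v.map_add _ _).trans (max_le ?_ ?_) <;> rw [map_mul]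
      · exact mul_le_one' e1 hB
      · exact mul_le_one' e2 hB2
  -- a combination of `P` at `1, θ₀, θ₀ ^ 2` is `(1, 0)`
  obtain ⟨lc, hlc, e0, e1, e2⟩ := exists_vandermonde τ θ₀ hθ hθ1
  let q : Fin 3 → F := ![1, θ₀, θ₀ * θ₀]
  have hq : ∀ i, v (q i) ≤ 1 := fun i => by
    fin_cases i <;> simp [q, map_mul, mul_le_one' hθ hθ, hθ]
  have h1 : lc 0 * (P (q 0)).1 + lc 1 * (P (q 1)).1 + lc 2 * (P (q 2)).1 = 1 := by
    simp only [P, q, Matrix.cons_val, map_one, map_mul]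
    linear_combination e0 + A * e1 + A2 * e2
  have h2 : lc 0 * (P (q 0)).2 + lc 1 * (P (q 1)).2 + lc 2 * (P (q 2)).2 = 0 := by
    simp only [P, q, Matrix.cons_val, map_one, map_mul]
    linear_combination B * e1 + B2 * e2
  -- so `P` takes a value of unit norm at one of them or at a sum of two
  obtain ⟨θ, hθ', hunit⟩ : ∃ θ, v θ ≤ 1 ∧ v (Q.nm (P θ).1 (P θ).2) = 1 := by
    rcases exists_unit_comb (p := fun i => P (q i)) (fun i => hPint _ (hq i)) hlc h1 h2 with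
      ⟨i, hi⟩ | ⟨i, j, hij⟩
    · exact ⟨q i, hq i, hi⟩
    · refine ⟨q i + q j, (v.map_add _ _).trans (max_le (hq i) (hq j)), ?_⟩
      rw [show P (q i + q j) = ((P (q i)).1 + (P (q j)).1, (P (q i)).2 + (P (q j)).2) by
        simp only [P, map_add, Prod.mk.injEq]; constructor <;> ring]
      exact hij
  exact ⟨θ, _, _, hθ', rfl, rfl, (hPint θ hθ').1, (hPint θ hθ').2, hunit⟩

/-- **Residual coboundaries.** If some integral `θ₀` has a unit difference `s θ₀ - θ₀`, norm-one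
classes of units at level one are coboundaries (`H90`). -/
theorem Twist.h90_of_residue {θ₀ : F} (hθ : v θ₀ ≤ 1) (hθ1 : v (τ.s θ₀ - θ₀) = 1) : τ.H90 := by
  intro x hx hN
  obtain ⟨c, a, b, ha, hb, hn, hxe⟩ := Q.exists_coords_ugrp hx
  -- norm of the integral representative
  set a2 := a * τ.s a - Q.n * (b * (τ.ε * τ.s b))
  set b2 := a * (τ.ε * τ.s b) + b * τ.s a + Q.t * (b * (τ.ε * τ.s b))
  set sa := τ.s (τ.s a)
  set sb := τ.ε * τ.s (τ.ε * τ.s b)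
  set a3 := a2 * sa - Q.n * (b2 * sb)
  set b3 := a2 * sb + b2 * sa + Q.t * (b2 * sb)
  have hsa : v (τ.s a) ≤ 1 := by rw [τ.hs]; exact ha
  have hsb : v (τ.ε * τ.s b) ≤ 1 := by rw [map_mul, τ.hε, one_mul, τ.hs]; exact hb
  have h2 := v_coord_mul (Q := Q) ha hb hsa hsb
  have h3' := v_coord_mul (Q := Q) h2.1 h2.2 (show v sa ≤ 1 by rw [τ.hs]; exact hsa)
    (show v sb ≤ 1 by rw [map_mul, τ.hε, one_mul, τ.hs]; exact hsb)
  obtain ⟨k, hk⟩ := τ.val_scal_mul_norm3 hxe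
  have hN3 : ((scal k * τ.norm3 x : GL (Fin 2) F) : Matrix (Fin 2) (Fin 2) F) = Q.mat a3 b3 := by
    rw [hk, mat_mul, mat_mul]
  have hnn : Q.nm a3 b3 = Q.nm a b * τ.s (Q.nm a b) * τ.s (τ.s (Q.nm a b)) := by
    simp only [a3, b3, nm_mul, a2, b2]
    simp only [nm, sa, sb, map_add, map_mul, τ.st, τ.sn]
    ring
  have hn3 : v (Q.nm a3 b3) = 1 := by
    rw [hnn, map_mul, map_mul, τ.hs, τ.hs, τ.hs, hn, one_mul, one_mul]
  have hb3 : v b3 < 1 := by
    have := (Q.mem_levG_iff (i := 1) k h3'.1 hn3 hN3).1 hN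
    rw [Nat.cast_one] at this
    exact le_exp_neg_one_iff.1 this
  have ha3 : v a3 = 1 := Q.v_a_eq_one h3'.1 hb3 hn3
  have ha30 : a3 ≠ 0 := fun e => by simp [e] at ha3
  have hna0 : Q.nm a b ≠ 0 := fun e => by simp [e] at hn
  -- the scalar making the norm congruent to one
  set l := Q.nm a b / a3 with hl
  have hl1 : v l = 1 := by rw [hl, map_div₀, hn, ha3, div_one]
  set A := l * a
  set B := l * b
  have hA : v A ≤ 1 := by rw [map_mul, hl1, one_mul]; exact ha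
  have hB : v B ≤ 1 := by rw [map_mul, hl1, one_mul]; exact hb
  set A2 := A * τ.s A - Q.n * (B * (τ.ε * τ.s B))
  set B2 := A * (τ.ε * τ.s B) + B * τ.s A + Q.t * (B * (τ.ε * τ.s B))
  set L := l * τ.s l * τ.s (τ.s l) with hL
  set A3 := A * τ.s A2 - Q.n * (B * (τ.ε * τ.s B2))
  set B3 := A * (τ.ε * τ.s B2) + B * τ.s A2 + Q.t * (B * (τ.ε * τ.s B2))
  have hA3 : A3 = L * a3 ∧ B3 = L * b3 := by
    constructor <;>
    · simp only [A3, B3, A2, B2, A, B, a3, b3, a2, b2, sa, sb, hL, map_sub, map_add,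
        map_mul, τ.st, τ.sn]
      ring
  have hA2 := v_coord_mul (Q := Q) hA hB (show v (τ.s A) ≤ 1 by rw [τ.hs]; exact hA)
    (show v (τ.ε * τ.s B) ≤ 1 by rw [map_mul, τ.hε, one_mul, τ.hs]; exact hB)
  have hL1 : v L = 1 := by rw [hL, map_mul, map_mul, τ.hs, τ.hs, τ.hs, hl1, one_mul, one_mul]
  have hB3 : v B3 < 1 := by rw [hA3.2, map_mul, hL1, one_mul]; exact hb3
  have hA31 : v (A3 - 1) < 1 := by
    have hε0 := τ.ε_ne_zero
    have hsε0 : τ.s τ.ε ≠ 0 := fun e => hε0 ((map_eq_zero τ.s).1 e)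
    have hes : τ.s (τ.s τ.ε) = (τ.ε * τ.s τ.ε)⁻¹ := eq_inv_of_mul_eq_one_right τ.hεN
    have hfix : τ.s a3 = a3 := by
      simp only [a3, a2, b2, sa, sb, map_sub, map_add, map_mul, τ.st, τ.sn, τ.hs3, hes]
      field_simp
      ring
    have e1 : A3 = Q.nm a3 b3 * a3 / (a3 * τ.s a3 * τ.s (τ.s a3)) := by
      rw [hA3.1, hL, hl, hnn]
      simp only [map_div₀]
      field_simp
    rw [e1, hfix, hfix, mul_assoc a3 a3 a3, ← mul_assoc, mul_div_mul_right _ _ ha30]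
    exact Q.v_nm_div_sq_sub_one ha3 hb3
  obtain ⟨θ, za, zb, hθ', hza, hzb, hza1, hzb1, hunit⟩ :=
    τ.exists_unit_twisted_sum hθ hθ1 hA hB hA2.1 hA2.2
  have hz0 : Q.nm za zb ≠ 0 := fun e => by simp [e] at hunit
  have hzu : Q.el za zb hz0 ∈ Q.ugrp :=
    le_withScalars _ ⟨za, zb, hza1, hzb1, hunit, rfl⟩
  refine ⟨_, hzu, ?_⟩
  -- `x θ(z)` is congruent to `z`
  set u := τ.s za
  set u' := τ.ε * τ.s zb
  set ra := A * u - Q.n * (B * u')
  set rb := A * u' + B * u + Q.t * (B * u')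
  have hra : ra - za = θ * (A3 - 1) ∧ rb - zb = θ * B3 := by
    constructor <;>
    · simp only [ra, rb, u, u', hza, hzb, A3, B3, A2, B2, map_add, map_mul, τ.hs3]
      ring
  have hl0 : l ≠ 0 := fun e => by simp [e] at hl1
  have hr : ((scal (Units.mk0 l hl0 * c) * (x * τ.θ (Q.el za zb hz0)) : GL (Fin 2) F) :
      Matrix (Fin 2) (Fin 2) F) = Q.mat ra rb := by
    rw [← mul_assoc, scal_mul, mul_assoc (scal _) (scal c) x, Units.val_mul,
      Q.val_scal_mul (Units.mk0 l hl0) hxe, τ.θ_mat (g := Q.el za zb hz0) rfl, mat_mul]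
    rfl
  have hint := v_coord_mul (Q := Q) hA hB (show v u ≤ 1 by rw [τ.hs]; exact hza1)
    (show v u' ≤ 1 by rw [map_mul, τ.hε, one_mul, τ.hs]; exact hzb1)
  have hrn : v (Q.nm ra rb) = 1 := by
    rw [nm_mul, map_mul, τ.v_nm, hunit, mul_one,
      show Q.nm A B = l * l * Q.nm a b by simp [nm, A, B]; ring,
      map_mul, map_mul, hl1, hn, one_mul, one_mul]
  rw [show x * ((Q.el za zb hz0)⁻¹ * τ.θ (Q.el za zb hz0))
      = (Q.el za zb hz0)⁻¹ * (x * τ.θ (Q.el za zb hz0)) by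
    rw [← mul_assoc, ← mul_assoc, torus_comm' hx (Q.ugrp.inv_mem hzu)],
    coords_inv_mul 1 (Units.mk0 l hl0 * c) hza1 hzb1 hunit hint.1 hint.2 hrn
      (by simp [scal]) hr,
    Nat.cast_one, le_exp_neg_one_iff, show za * rb - ra * zb = za * (rb - zb) - (ra - za) * zb by
      ring,
    hra.1, hra.2]
  refine lt_of_le_of_lt (v.map_sub _ _) (max_lt ?_ ?_) <;> simp only [map_mul]
  · exact lt_of_le_of_lt (mul_le_of_le_one_left' hza1)
      (lt_of_le_of_lt (mul_le_of_le_one_left' hθ') hB3)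
  · exact lt_of_le_of_lt (mul_le_of_le_one_right' hzb1)
      (lt_of_le_of_lt (mul_le_of_le_one_left' hθ') hA31)

end QA

end Fermat.LT
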