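import Fermat.Agent.LT.LocK

/-!
# The ramified sum on the small field

At the level `i` below the depth the reduction is a scalar, at the depth a transvection, at depth
zero it is the reduction of the torus element.
-/

set_option autoImplicit false
open Filter Set Finset
open scoped Classical Matrix

namespace Fermat.LT

namespace QA

variable {F : Type*} [Field F] [NumberField F] {v : Place F} {Q : QA (v.valuation F)}
  {ϖ : F} (hϖ : v.valuation F ϖ = WithZero.exp (-1 : ℤ))

local notation "q" => (Fintype.card (Res v) : ℂ)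

include hϖ in
/-- The ramified function at the displacement of a unit at level `i` is `ramVal` at its explicit
reduction. -/
lemma fibFun_level {γ : GL (Fin 2) F} {i : ℕ} {c : Fˣ} {a b : F} (ha : v.valuation F a ≤ 1)
    (hb : v.valuation F b ≤ WithZero.exp (-(i : ℤ))) (hn : v.valuation F (Q.nm a b) = 1)
    (h : ((scal c * γ : GL (Fin 2) F) : Matrix (Fin 2) (Fin 2) F) = Q.mat a b) :
    ∃ N : GL (Fin 2) (Res v),
      (N : Matrix (Fin 2) (Fin 2) (Res v)) = !![resd (v.valuation F) a,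
        resd (v.valuation F) (-(Q.n * b) * ϖ ^ i); resd (v.valuation F) (b / ϖ ^ i),
        resd (v.valuation F) (a + Q.t * b)] ∧
      fibFun v (ramVal v) ((dg hϖ i)⁻¹ * γ * dg hϖ i) = ramVal v N := by
  have h0 : ϖ ^ i ≠ 0 := pow_ne_zero i (ne_zero_of_unif (v := v.valuation F) hϖ)
  have hb1 : (v.valuation F) b ≤ 1 :=
    hb.trans (by rw [← WithZero.exp_zero, WithZero.exp_le_exp]; omega)
  have hp : (v.valuation F) (ϖ ^ i) ≤ 1 := by
    rw [v_pow_unif hϖ, ← WithZero.exp_zero, WithZero.exp_le_exp]; omega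
  -- the conjugate of `Q.mat a b` by `dg i`
  set M : Matrix (Fin 2) (Fin 2) F := !![a, -(Q.n * b) * ϖ ^ i; b / ϖ ^ i, a + Q.t * b] with hMdef
  have hM : ((scal c * ((dg hϖ i)⁻¹ * γ * dg hϖ i) : GL (Fin 2) F) : Matrix (Fin 2) (Fin 2) F) =
      M := by
    rw [← mul_scal_mul, Q.coe_dg_inv_mul_mat hϖ i i h, hMdef, mul_div_assoc (a + Q.t * b),
      div_self h0, mul_one]
  -- it is integral with unit determinant
  have hint : ∀ k l, (v.valuation F) (M k l) ≤ 1 := by
    intro k l
    fin_cases k <;> fin_cases l <;> simp [hMdef, Valuation.map_neg]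
    · exact ha
    · exact mul_le_one' (mul_le_one' Q.hn hb1) (by simpa using hp)
    · rw [← map_pow, div_le_one₀ (zero_lt_iff.2 ((v.valuation F).ne_zero_iff.2 h0)),
        v_pow_unif hϖ]; exact hb
    · exact ((v.valuation F).map_add _ _).trans
        (max_le ha (by rw [map_mul]; exact mul_le_one' Q.ht hb1))
  have hdet : (v.valuation F) M.det = 1 := by
    rw [hMdef, Matrix.det_fin_two_of, show a * (a + Q.t * b) - -(Q.n * b) * ϖ ^ i *
        (b / ϖ ^ i) = Q.nm a b by
      simp [nm]; field_simp]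
    exact hn
  obtain ⟨N, hN, e⟩ := fibFun_of_entries scalInv_ramVal c hM hint hdet
  refine ⟨N, ?_, e⟩
  rw [hN]
  ext k l
  fin_cases k <;> fin_cases l <;> rfl

include hϖ in
/-- Below the depth of `γ` the ramified kernel takes the value `q + 2`. -/
lemma level_below {γ : GL (Fin 2) F} {i : ℕ} (hγ : γ ∈ Q.levG (i + 1)) :
    fibFun v (ramVal v) ((dg hϖ i)⁻¹ * γ * dg hϖ i) = q + 2 := by
  obtain ⟨c, a, b, ha, hb, hn, h⟩ := hγ
  have hi : v.valuation F b ≤ WithZero.exp (-(i : ℤ)) :=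
    hb.trans (by rw [WithZero.exp_le_exp]; omega)
  have hb1 : v.valuation F b < 1 :=
    lt_of_le_of_lt hb (by rw [← WithZero.exp_zero, WithZero.exp_lt_exp]; omega)
  have hp : v.valuation F (ϖ ^ i) ≤ 1 := by
    rw [v_pow_unif hϖ, ← WithZero.exp_zero, WithZero.exp_le_exp]; omega
  obtain ⟨N, hN, e⟩ := fibFun_level hϖ ha hi hn h
  have e1 : resd (v.valuation F) (-(Q.n * b) * ϖ ^ i) = 0 := by
    have hlt : v.valuation F (-(Q.n * b) * ϖ ^ i) < 1 := by
      rw [map_mul, Valuation.map_neg, map_mul]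
      exact lt_of_le_of_lt ((mul_le_of_le_one_right' hp).trans (mul_le_of_le_one_left' Q.hn)) hb1
    exact (resd_eq_zero_iff hlt.le).2 hlt
  have e2 : resd (v.valuation F) (b / ϖ ^ i) = 0 := by
    have hlt : v.valuation F (b / ϖ ^ i) < 1 := by
      rw [map_div₀, v_pow_unif hϖ, div_lt_one₀ (zero_lt_iff.2 WithZero.exp_ne_zero)]
      exact lt_of_le_of_lt hb (by rw [WithZero.exp_lt_exp]; omega)
    exact (resd_eq_zero_iff hlt.le).2 hlt
  have htb : v.valuation F (Q.t * b) < 1 := by
    rw [map_mul]; exact lt_of_le_of_lt (mul_le_of_le_one_left' Q.ht) hb1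
  have e3 : resd (v.valuation F) (a + Q.t * b) = resd (v.valuation F) a := by
    rw [resd_add ha htb.le, (resd_eq_zero_iff htb.le).2 htb, add_zero]
  have ha0 : resd (v.valuation F) a ≠ 0 := fun h0 => by
    rw [resd_eq_zero_iff ha, Q.v_a_eq_one ha hb1 hn] at h0
    exact lt_irrefl _ h0
  rw [e, show N = scal (Units.mk0 _ ha0) from Units.ext (by
    rw [hN, e1, e2, e3, scal_coe]
    ext k l
    fin_cases k <;> fin_cases l <;> simp), ramVal_scal]

include hϖ in
/-- At a positive exact depth of `γ` the ramified kernel takes the value `2`. -/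
lemma level_exact {γ : GL (Fin 2) F} {i : ℕ} (hi : 1 ≤ i) (hγ : γ ∈ Q.levG i)
    (hγ' : γ ∉ Q.levG (i + 1)) :
    fibFun v (ramVal v) ((dg hϖ i)⁻¹ * γ * dg hϖ i) = 2 := by
  obtain ⟨c, a, b, ha, hb, hn, h⟩ := hγ
  have hb1 : v.valuation F b < 1 :=
    lt_of_le_of_lt hb (by rw [← WithZero.exp_zero, WithZero.exp_lt_exp]; omega)
  -- `b` has valuation exactly `i`
  have hexact : v.valuation F b = WithZero.exp (-(i : ℤ)) := by
    rcases lt_or_eq_of_le hb with hlt | h'
    · refine absurd ((Q.mem_levG_iff c ha hn h).2 ?_) hγ'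
      rcases eq_or_ne (v.valuation F b) 0 with h0 | h0
      · rw [h0]; exact zero_le
      rw [← WithZero.exp_log h0, WithZero.exp_lt_exp] at hlt
      rw [← WithZero.exp_log h0, WithZero.exp_le_exp]
      push_cast; omega
    · exact h'
  obtain ⟨N, hN, e⟩ := fibFun_level hϖ ha hb hn h
  -- reduce modulo `v`
  have e1 : resd (v.valuation F) (-(Q.n * b) * ϖ ^ i) = 0 := by
    have hlt : v.valuation F (-(Q.n * b) * ϖ ^ i) < 1 := by
      rw [map_mul, Valuation.map_neg, map_mul]
      refine lt_of_le_of_lt ((mul_le_of_le_one_right' ?_).trans (mul_le_of_le_one_left' Q.hn)) hb1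
      rw [v_pow_unif hϖ, ← WithZero.exp_zero, WithZero.exp_le_exp]; omega
    exact (resd_eq_zero_iff hlt.le).2 hlt
  have htb : v.valuation F (Q.t * b) < 1 := by
    rw [map_mul]; exact lt_of_le_of_lt (mul_le_of_le_one_left' Q.ht) hb1
  have e3 : resd (v.valuation F) (a + Q.t * b) = resd (v.valuation F) a := by
    rw [resd_add ha htb.le, (resd_eq_zero_iff htb.le).2 htb, add_zero]
  have hu : v.valuation F (b / ϖ ^ i) = 1 := by
    rw [map_div₀, hexact, v_pow_unif hϖ, div_self WithZero.exp_ne_zero]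
  have hc : resd (v.valuation F) (b / ϖ ^ i) ≠ 0 := fun h0 => by
    rw [resd_eq_zero_iff hu.le, hu] at h0
    exact lt_irrefl _ h0
  have ha0 : resd (v.valuation F) a ≠ 0 := fun h0 => by
    rw [resd_eq_zero_iff ha, Q.v_a_eq_one ha hb1 hn] at h0
    exact lt_irrefl _ h0
  -- the ramified count then has the single root `z = 0`
  rw [e, ramVal_lower (hN.trans (by rw [e1, e3])) hc,
    show (Finset.univ.filter fun z : Res v => resd (v.valuation F) (b / ϖ ^ i) * z ^ 2
      + (resd (v.valuation F) a - resd (v.valuation F) a) * z - 0 = 0) = {0} by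
      ext z; simp [hc], Finset.sum_singleton, mul_zero, zero_add, sub_zero, div_self ha0, map_one]
  norm_num

include hϖ in
/-- For a unit outside the first level the value at depth zero is one plus the character sum over
the roots. -/
lemma level_zero {γ : GL (Fin 2) F} (hγ : γ ∈ Q.ugrp) (hγ' : γ ∉ Q.levG 1) :
    fibFun v (ramVal v) ((dg hϖ 0)⁻¹ * γ * dg hϖ 0)
      = 1 + ∑ z ∈ (Set.toFinite Q.roots).toFinset, cubChar v (Q.rootRatio z γ) := by
  obtain ⟨c, a, b, ha, hb, hn, h⟩ := Q.exists_coords_ugrp hγ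
  obtain ⟨N, hN, e⟩ := fibFun_level hϖ (i := 0) ha (by simpa using hb) hn h
  rw [pow_zero, mul_one, div_one] at hN
  have hc : resd (v.valuation F) b ≠ 0 := fun h0 => by
    refine hγ' ((Q.mem_levG_iff c ha hn h).2 ?_)
    rw [Nat.cast_one]
    exact le_exp_neg_one_iff.2 ((resd_eq_zero_iff hb).1 h0)
  have hnb : v.valuation F (Q.n * b) ≤ 1 := by rw [map_mul]; exact mul_le_one' Q.hn hb
  have htb : v.valuation F (Q.t * b) ≤ 1 := by rw [map_mul]; exact mul_le_one' Q.ht hb
  rw [e, ramVal_lower hN hc, resd_neg hnb, resd_mul Q.hn hb, resd_add ha htb, resd_mul Q.ht hb]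
  refine congrArg _ (Finset.sum_congr ?_ fun z hz => ?_)
  · ext z
    rw [Finset.mem_filter, Set.Finite.mem_toFinset, QA.roots, Set.mem_ofPred_eq]
    simp only [Finset.mem_univ, true_and]
    constructor
    · intro hz
      refine mul_left_cancel₀ hc ?_
      rw [mul_zero]
      linear_combination hz
    · intro hz
      linear_combination (resd (v.valuation F) b) * hz
  · rw [Set.Finite.mem_toFinset] at hz
    rw [(Q.rootRatio_eq c ha hb hn h hz).2]
    congr 1
    ring

include hϖ in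
/-- The ramified function vanishes at vertices beyond the depth of the element. -/
lemma fibFun_eq_zero_of_deep {γ : GL (Fin 2) F} (hγt : γ ∈ Q.torus) {i : ℕ}
    (h : γ ∈ Q.ugrp → γ ∉ Q.levG i) : fibFun v (ramVal v) ((dg hϖ i)⁻¹ * γ * dg hϖ i) = 0 := by
  refine fibFun_eq_zero fun hU => ?_
  have h0 := (lvl_eq_zero_iff _ _).2 hU
  rcases mem_ugrp_or_isPrim hγt with hu | ⟨a, m, hp⟩
  · have hno := h hu
    set μ := Nat.findGreatest (fun k => γ ∈ Q.levG k) i
    have hμ : γ ∈ Q.levG μ :=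
      Nat.findGreatest_spec (P := fun k => γ ∈ Q.levG k) (Nat.zero_le i) (by rwa [levG_zero])
    have hμi : μ < i := lt_of_le_of_ne (Nat.findGreatest_le i) fun e => hno (e ▸ hμ)
    have := dlvl_of_exact hϖ hμi hμ
      (Nat.findGreatest_is_greatest (P := fun k => γ ∈ Q.levG k) (Nat.lt_succ_self μ) hμi)
    rw [dlvl, h0] at this
    omega
  · rw [hp.lvl_eq hϖ i i] at h0
    have := hp.1
    omega

variable {G : Type*} [Group G] {φ : G →* GL (Fin 2) F} {H U : Subgroup G} (R : Q.Reps φ H U 1 1)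
  (hφU : ∀ g ∈ U, φ g ∈ Q.ugrp)
include R hφU

/-- The sum as a sum over levels. -/
lemma Reps.tsum_ram {γ : GL (Fin 2) F} (hγt : γ ∈ Q.torus) (hns : ∀ c : Fˣ, γ ≠ scal c) :
    ∑' x : {x // R.deg hϖ x = ((1 : G) : G ⧸ U)}, fibFun v (ramVal v) (x.1.out⁻¹ * γ * x.1.out)
      = ∑ᶠ i, (Nat.card (Q.UQ i) : ℂ) * fibFun v (ramVal v) ((dg hϖ i)⁻¹ * γ * dg hϖ i) := by
  set f : GL (Fin 2) F ⧸ U0 (v.valuation F) → ℂ := fun x =>
    if R.deg hϖ x = ((1 : G) : G ⧸ U) then fibFun v (ramVal v) (x.out⁻¹ * γ * x.out) else 0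
  have hfin :=
    R.finite_fibre Q.trivTwist hϖ hφU hγt (h := delta0) (D := 0) (fun m hm => if_neg hm.ne')
    fun j _ => by rw [trivTwist_shiftPow]; exact trivTwist_shallow hns
  rw [show ∑' x : {x // R.deg hϖ x = ((1 : G) : G ⧸ U)},
      fibFun v (ramVal v) (x.1.out⁻¹ * γ * x.1.out)
      = ∑' x : {x // R.deg hϖ x = ((1 : G) : G ⧸ U)}, f x from tsum_congr fun x =>
        (if_pos x.2).symm,
    R.sum_fibre hϖ hφU f (hfin.subset fun x hx => ?_), Finset.sum_range_one]
  · refine finsum_congr fun i => ?_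
    have : Finite (Q.UQ i) := finite_UQ hϖ i
    let _ := Fintype.ofFinite (Q.UQ i)
    rw [finsum_eq_sum_of_fintype, Finset.sum_congr rfl (g := fun _ =>
      fibFun v (ramVal v) ((dg hϖ i)⁻¹ * γ * dg hϖ i)) fun u _ => ?_, Finset.sum_const,
        Finset.card_univ,
      ← Nat.card_eq_fintype_card, nsmul_eq_mul]
    have hdeg : R.deg hϖ (Q.vertex hϖ i (1 ^ 0 * (u.out : GL (Fin 2) F))) = ((1 : G) : G ⧸ U) := by
      have := R.deg_vertex hϖ one_pos H.one_mem u.out.2 i
      rwa [map_one, mul_one] at this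
    change (if _ then _ else _) = _
    rw [if_pos hdeg, pow_zero, one_mul, vertex, fibFun_ramVal_out,
      show ((u.out : GL (Fin 2) F) * dg hϖ i)⁻¹ * γ * ((u.out : GL (Fin 2) F) * dg hϖ i)
        = (dg hϖ i)⁻¹ * ((u.out : GL (Fin 2) F)⁻¹ * γ * u.out) * dg hϖ i by group,
      Q.torus_comm (Q.torus.inv_mem (Q.ugrp_le_torus u.out.2)) hγt, inv_mul_cancel_right]
  · simp only [f, Function.mem_support, ne_eq, ite_eq_right_iff, not_forall] at hx
    obtain ⟨h1, h2⟩ := hx
    refine ⟨h1, ?_⟩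
    have hU0 : x.out⁻¹ * γ * x.out ∈ U0 (v.valuation F) := by_contra fun h => h2 (fibFun_eq_zero h)
    rw [trivTwist_tval, (lvl_eq_zero_iff _ _).2 hU0]
    simp [delta0]

/-- **The ramified sum of a non-unit.** For a regular non-unit of the torus the fibre sum of the
ramified kernel is zero. -/
theorem Reps.tsum_ram_nonunit {γ : GL (Fin 2) F} (hγt : γ ∈ Q.torus) (hγ : γ ∉ Q.ugrp)
    (hns : ∀ c : Fˣ, γ ≠ scal c) :
    ∑' x : {x // R.deg hϖ x = ((1 : G) : G ⧸ U)}, fibFun v (ramVal v) (x.1.out⁻¹ * γ * x.1.out) =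
      0 := by
  rw [R.tsum_ram hϖ hφU hγt hns]
  exact finsum_eq_zero_of_forall_eq_zero fun i => by
    rw [fibFun_eq_zero_of_deep hϖ hγt fun h => absurd h hγ, mul_zero]

/-- **The ramified sum of a unit.** For a regular unit of exact level `d` the fibre sum of the
ramified kernel is `ramTot`. -/
theorem Reps.tsum_ram_unit {γ : GL (Fin 2) F} (hγ : γ ∈ Q.ugrp) (hns : ∀ c : Fˣ, γ ≠ scal c) {d : ℕ}
    (hd : ∀ m, γ ∈ Q.levG m ↔ m ≤ d) :
    ∑' x : {x // R.deg hϖ x = ((1 : G) : G ⧸ U)}, fibFun v (ramVal v) (x.1.out⁻¹ * γ * x.1.out)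
      = Q.ramTot (cubChar v) γ d := by
  have hγt := Q.ugrp_le_torus hγ
  -- only the levels `i ≤ d` contribute
  rw [R.tsum_ram hϖ hφU hγt hns, finsum_eq_sum_of_support_subset _ (s := Finset.range (d + 1))
    fun i hi => ?_, Finset.sum_range_succ]
  swap
  · refine Finset.mem_coe.2 (Finset.mem_range.2 (Nat.lt_succ_of_le (not_lt.1 fun hlt => hi ?_)))
    change (_ : ℂ) * _ = 0
    rw [fibFun_eq_zero_of_deep hϖ hγt fun _ h => absurd ((hd i).1 h) (by omega), mul_zero]
  -- below the level of `γ` each term is known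
  rw [Finset.sum_congr rfl fun i hi => by
    rw [level_below hϖ ((hd (i + 1)).2 (Finset.mem_range.1 hi))]]
  rcases d with _ | d
  · rw [Finset.range_zero, Finset.sum_empty, zero_add, Q.natCard_UQ_zero, Nat.cast_one, one_mul,
      level_zero hϖ hγ (fun h => by have := (hd 1).1 h; omega), ramTot, Emb.lvlSum]
    simp
  · rw [level_exact hϖ (by omega) ((hd (d + 1)).2 le_rfl)
      (fun h => by have := (hd (d + 2)).1 h; omega),
      ramTot, show ∑ z ∈ (Set.toFinite Q.roots).toFinset, cubChar v (Q.rootRatio z γ)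
        = ∑ _z ∈ (Set.toFinite Q.roots).toFinset, (1 : ℂ) from Finset.sum_congr rfl fun z _ => by
          rw [Q.rootRatio_of_levG_one ((hd 1).2 (by omega)) z, map_one]]
    rw [Finset.sum_const (s := (Set.toFinite Q.roots).toFinset), nsmul_one,
      ← Set.ncard_eq_toFinset_card _ (Set.toFinite Q.roots)]
    have hg : (Q.g1 : ℂ) + Q.roots.ncard = q + 1 := by
      rw [← Nat.card_eq_fintype_card]; exact_mod_cast Q.g1_eq
    clear hd
    -- sum the geometric series by induction
    induction d with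
    | zero =>
      simp [Q.natCard_UQ_succ hϖ, Emb.lvlSum, Q.natCard_UQ_zero]
      linear_combination (-1 : ℂ) * hg
    | succ n ih =>
      rw [Finset.sum_range_succ, Emb.lvlSum, Finset.sum_Icc_succ_top (by omega)]
      rw [Emb.lvlSum] at ih
      simp only [Q.natCard_UQ_succ hϖ, Nat.add_sub_cancel, ← Nat.card_eq_fintype_card] at ih ⊢
      push_cast at ih ⊢
      linear_combination ih

end QA

namespace QDat

variable {F : Type*} [Field F] [NumberField F] {S : Set (Place F)} (q : QDat F) {v : Place F}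
  {g₀ : GL (Fin 2) F}

/-- **Ramified sum, unit.** At a place of `S`, for a regular torus element which is a unit of exact
level `d`, the degree-one sum of `ramKer` is `ramTot`. -/
theorem sum_ram_unit (hv : v ∈ S) (hg : TReg q.D g₀) (hu : q.φ v g₀ ∈ (q.ord' v).Q.ugrp) {d : ℕ}
    (hd : ∀ m, q.φ v g₀ ∈ (q.ord' v).Q.levG m ↔ m ≤ d) :
    ∑' a : {a : Vert S v // q.degAt a = q.one v}, ramKer v hv a.1 (g₀ • a.1)
      = (q.ord' v).Q.ramTot (cubChar v) (q.φ v g₀) d := by
  rw [q.sum_ram_vertices hv hg]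
  exact (q.reps v).tsum_ram_unit (unifAt_spec v) (fun g h => q.φ_U h) hu
    (q.φ_ne_scal hg) hd

/-- **The ramified sum vanishes off the units of the order.** -/
theorem sum_ram_nonunit (hv : v ∈ S) (hg : TReg q.D g₀) (hu : q.φ v g₀ ∉ (q.ord' v).Q.ugrp) :
    ∑' a : {a : Vert S v // q.degAt a = q.one v}, ramKer v hv a.1 (g₀ • a.1) = 0 := by
  rw [q.sum_ram_vertices hv hg]
  exact (q.reps v).tsum_ram_nonunit (unifAt_spec v) (fun g h => q.φ_U h)
    (q.φ_torus hg) hu (q.φ_ne_scal hg)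

end QDat

end Fermat.LT
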