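import Fermat.Agent.LT.GlobTorus
import Fermat.Agent.LT.LocCoset
import Fermat.Agent.LT.LocK
import Fermat.Agent.LT.LocEmb

/-!
# Degrees and sums at a place of the large field fixed by the generator

The vertex of a coset is seen in the extended order; the twisted displacement by `δ` becomes the
twisted translation by the conjugate of `δ`, whose norm is the small element up to scalars.
-/

set_option autoImplicit false
open Filter Set
open scoped Matrix

namespace Fermat.LT

variable {K L : Type} [Field K] [NumberField K] [Field L] [NumberField L] [Algebra K L]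
  {σ : L ≃ₐ[K] L}

namespace QA

variable {E : Type*} [Field E] {w : Valuation E (WithZero (Multiplicative ℤ))} {Q : QA w}
  {ϖ : E} (hϖ : w ϖ = WithZero.exp (-1 : ℤ))

include hϖ in
/-- A cube is a unit only for units. -/
lemma mem_ugrp_of_cube {z : GL (Fin 2) E} (hz : z ∈ Q.torus) (h : z ^ 3 ∈ Q.ugrp) : z ∈ Q.ugrp := by
  rcases mem_ugrp_or_isPrim hz with hu | ⟨a, m, hp⟩
  · exact hu
  obtain ⟨a', y, hyt, hy⟩ := exists_gen_torus hϖ hp.root
  obtain ⟨k, hk⟩ := hy.generates hϖ hyt hz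
  have h3 : (y ^ k) ^ 3 ∈ Q.ugrp := by
    have hc : Commute z (y ^ k)⁻¹ := Q.torus_comm hz (Q.torus.inv_mem (Q.torus.zpow_mem hyt k))
    have h1 := Q.ugrp.pow_mem hk 3
    rw [hc.mul_pow, inv_pow] at h1
    have h2 := Q.ugrp.mul_mem (Q.ugrp.inv_mem h1) h
    rw [mul_inv_rev, inv_inv, mul_assoc, inv_mul_cancel, mul_one] at h2
    exact h2
  rw [← zpow_natCast, ← zpow_mul] at h3
  rcases lt_or_eq_of_le hy.v_two_mul_add_le with h2 | h2
  · have hsq : ∀ j : ℤ, y ^ (2 * j) ∈ Q.ugrp := fun j => by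
      rw [zpow_mul, zpow_two]; exact Q.ugrp.zpow_mem (hy.sq_mem hϖ h2) j
    obtain ⟨j, rfl | rfl⟩ : ∃ j, k = 2 * j ∨ k = 2 * j + 1 := ⟨k / 2, by omega⟩
    · have := Q.ugrp.mul_mem hk (hsq j)
      rwa [inv_mul_cancel_right] at this
    · exfalso
      rw [show (2 * j + 1) * ((3 : ℕ) : ℤ) = 2 * (3 * j + 1) +
        1 by push_cast; ring, zpow_add, zpow_one] at h3
      have := Q.ugrp.mul_mem (Q.ugrp.inv_mem (hsq (3 * j + 1))) h3
      rw [inv_mul_cancel_left] at this
      exact hy.not_mem_ugrp this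
  · have hl := hy.lvl_zpow hϖ h2 (k * ((3 : ℕ) : ℤ))
    rw [(lvl_eq_zero_iff w _).2 (Q.ugrp_le_U0 h3), Int.natAbs_mul] at hl
    obtain rfl : k = 0 := by
      simp at hl
      exact hl
    simpa using hk

end QA

namespace Emb

variable {F : Type*} [Field F] {E : Type*} [Field E] {v : Valuation F (WithZero (Multiplicative ℤ))}
  {w : Valuation E (WithZero (Multiplicative ℤ))} {C : CycExt v w} {Q : QA v} (T : Emb C Q)

/-- A non-scalar element of the torus stays non-scalar in the extended algebra. -/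
lemma φ_ne_scal {g : GL (Fin 2) F} (hg : g ∈ Q.torus) (hns : ∀ c : Fˣ, g ≠ scal c) (e : Eˣ) :
    T.φ g ≠ scal e := by
  intro h
  obtain ⟨a, b, hab⟩ := hg
  have h1 := T.φ_mat hab
  rw [h] at h1
  have hb : T.ρ * C.ι b = 0 := by
    have := congrFun (congrFun h1 1) 0
    simpa [QA.mat] using this.symm
  have hb0 : b = 0 := by simpa [T.ρ_ne_zero] using hb
  subst hb0
  have ha : a ≠ 0 := by
    intro h0
    apply (Matrix.GeneralLinearGroup.det g).ne_zero
    rw [Matrix.GeneralLinearGroup.val_det_apply, hab, QA.det_mat, h0, QA.nm]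
    ring
  refine hns (Units.mk0 a ha) (Units.ext ?_)
  rw [hab, scal_coe]
  ext i j
  fin_cases i <;> fin_cases j <;> simp [QA.mat]

/-- The norm of a unit is a unit. -/
lemma mem_of_norm3 {x : GL (Fin 2) E} (hx : x ∈ T.Q'.ugrp) {c : Eˣ} {γ : GL (Fin 2) F}
    (hγ : γ ∈ Q.torus) (hN : T.twist.norm3 x = scal c * T.φ γ) : γ ∈ Q.ugrp := by
  refine (T.φ_mem_ugrp_iff hγ).1 ?_
  have h : scal c * T.φ γ ∈ T.Q'.ugrp := hN ▸ (T.twist.normU ⟨x, hx⟩).2
  have h2 := T.Q'.ugrp.mul_mem (T.Q'.ugrp.inv_mem (scal_mem_withScalars T.Q'.unitGrp c)) h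
  rwa [inv_mul_cancel_left] at h2

/-- Over representatives with unit coboundary, only units have unit norm. -/
lemma unit_of_norm3 {y : GL (Fin 2) E} {J : ℕ} (R : T.CosetReps y J)
    (hy : y⁻¹ * T.twist.θ y ∈ T.Q'.ugrp) {ϖ' : E} (hϖ' : w ϖ' = WithZero.exp (-1 : ℤ))
    {x : GL (Fin 2) E} (hx : x ∈ T.Q'.torus) (hN : T.twist.norm3 x ∈ T.Q'.ugrp) :
    x ∈ T.Q'.ugrp := by
  obtain ⟨j, -, γ, hγ, hu⟩ := R.cover x hx
  -- the coboundary of `x` is a unit
  have hcob : x⁻¹ * T.twist.θ x ∈ T.Q'.ugrp := by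
    set u := x * (y ^ j * T.φ γ)⁻¹ with hudef
    set p := y ^ j * T.φ γ with hpdef
    have hp : p⁻¹ * T.twist.θ p ∈ T.Q'.ugrp := by
      rw [hpdef, map_mul, T.θ_φ hγ, mul_inv_rev,
        show (T.φ γ)⁻¹ * (y ^ j)⁻¹ * (T.twist.θ (y ^ j) * T.φ γ)
          = (T.φ γ)⁻¹ * ((y ^ j)⁻¹ * T.twist.θ (y ^ j)) * T.φ γ by group,
        T.twist.cobound_pow R.mem,
        T.Q'.torus_comm (T.Q'.torus.inv_mem (T.φ_torus hγ))
          (T.Q'.ugrp_le_torus (T.Q'.ugrp.pow_mem hy j)),
        inv_mul_cancel_right]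
      exact T.Q'.ugrp.pow_mem hy j
    have hpt : p ∈ T.Q'.torus := T.Q'.torus.mul_mem (T.Q'.torus.pow_mem R.mem j) (T.φ_torus hγ)
    rw [show x = u * p by rw [hudef, inv_mul_cancel_right], map_mul, mul_inv_rev,
      show p⁻¹ * u⁻¹ * (T.twist.θ u * T.twist.θ p) = p⁻¹ * (u⁻¹ * T.twist.θ u) * T.twist.θ p by
        group,
      T.Q'.torus_comm (T.Q'.torus.inv_mem hpt) (T.Q'.ugrp_le_torus (T.Q'.ugrp.mul_mem
        (T.Q'.ugrp.inv_mem hu) (T.twist.θ_ugrp hu))), mul_assoc]
    exact T.Q'.ugrp.mul_mem (T.Q'.ugrp.mul_mem (T.Q'.ugrp.inv_mem hu) (T.twist.θ_ugrp hu)) hp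
  set a := x⁻¹ * T.twist.θ x with ha
  have e1 : T.twist.θ x = x * a := by rw [ha, mul_inv_cancel_left]
  have hxa : a * x = x * a := T.Q'.torus_comm (T.Q'.ugrp_le_torus hcob) hx
  refine QA.mem_ugrp_of_cube hϖ' hx ?_
  have e : T.twist.norm3 x = x ^ 3 * (a * (a * T.twist.θ a)) := by
    rw [QA.Twist.norm3, e1, map_mul, e1, pow_three',
      show x * (x * a) * (x * a * T.twist.θ a) = x * x * (a * x) * (a * T.twist.θ a) by group, hxa]
    group
  rw [e] at hN
  have hu := T.Q'.ugrp.mul_mem hcob (T.Q'.ugrp.mul_mem hcob (T.twist.θ_ugrp hcob))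
  have := T.Q'.ugrp.mul_mem hN (T.Q'.ugrp.inv_mem hu)
  rwa [mul_inv_cancel_right] at this

end Emb

namespace Fixed

variable (hc : Cyc3 K L σ) (q : QDat K) {v : Place K} {w : Place L} (hw : LiesOver K L w v)
  (hσ : mapPlace (σ : L ≃+* L) w = w) (T : Emb (hc.ext hw hσ) (q.ord' v).Q)

/-- The change of basis to the extended order. -/
noncomputable def frame : GL (Fin 2) L := T.dρ * iGL K L (q.cj v)

/-- Conjugation into the extended order. -/
noncomputable def psi : GL (Fin 2) L →* GL (Fin 2) L :=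
  (MulAut.conj (frame hc q hw hσ T)).toMonoidHom

/-- The map into the extended order is a conjugation. -/
lemma psi_apply (g : GL (Fin 2) L) :
    psi hc q hw hσ T g = frame hc q hw hσ T * g * (frame hc q hw hσ T)⁻¹ := rfl

/-- On elements from `K` the two changes of basis agree. -/
lemma psi_iGL (g : GL (Fin 2) K) : psi hc q hw hσ T (iGL K L g) = T.φ (q.φ v g) := by
  rw [psi_apply, frame, QDat.φ_apply, mul_inv_rev,
    show T.φ (q.cj v * g * (q.cj v)⁻¹) = T.dρ * iGL K L (q.cj v * g * (q.cj v)⁻¹) * T.dρ⁻¹ from rfl,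
    map_mul, map_mul, map_inv]
  group

/-- The scale is not zero. -/
lemma c'_ne_zero : algebraMap K L (q.ord' v).c / T.ρ ≠ 0 :=
  div_ne_zero ((map_ne_zero _).2 (q.ord' v).hc) T.ρ_ne_zero

/-- The change of basis to the extended order is the standard one for that order. -/
lemma frame_eq :
    frame hc q hw hσ T = T.Q'.conjD (c'_ne_zero hc q hw hσ T) two_ne_zero := by
  refine Units.ext ?_
  have ht : T.Q'.t * T.ρ = algebraMap K L (q.ord' v).Q.t := T.ht
  have hρ := T.ρ_ne_zero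
  have hc0 : algebraMap K L (q.ord' v).c ≠ 0 := (map_ne_zero _).2 (q.ord' v).hc
  rw [frame, Units.val_mul, coe_iGL]
  change !![1, 0; 0, T.ρ] * (!![1, -(q.ord' v).Q.t / (q.ord' v).c; 0, 2 / (q.ord' v).c] :
    Matrix (Fin 2) (Fin 2) K).map (algebraMap K L)
    = !![1, -T.Q'.t / (algebraMap K L (q.ord' v).c / T.ρ); 0,
      2 / (algebraMap K L (q.ord' v).c / T.ρ)]
  ext i j
  fin_cases i <;> fin_cases j <;> simp [Matrix.mul_apply, map_div₀, map_ofNat (algebraMap K L) 2]
  · field_simp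
    linear_combination ht
  · field_simp

/-- The discriminant of the extended order. -/
lemma disc_Q' : T.Q'.disc = algebraMap K L q.D
    * ((algebraMap K L (q.ord' v).c / T.ρ) * (algebraMap K L (q.ord' v).c / T.ρ)) := by
  have ht : T.Q'.t * T.ρ = algebraMap K L (q.ord' v).Q.t := T.ht
  have hn : T.Q'.n * T.ρ * T.ρ = algebraMap K L (q.ord' v).Q.n := T.hn
  have hd := congrArg (algebraMap K L) (q.ord' v).disc
  simp only [QA.disc, map_sub, map_mul, map_ofNat, ← ht, ← hn] at hd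
  have hρ := T.ρ_ne_zero
  rw [QA.disc]
  field_simp
  linear_combination hd

/-- Conjugation into the extended order maps the torus into its torus. -/
lemma psi_mem {g : GL (Fin 2) L} (hg : g ∈ tTor (algebraMap K L q.D)) :
    psi hc q hw hσ T g ∈ T.Q'.torus := by
  obtain ⟨a, b, e⟩ := hg
  rw [psi_apply, frame_eq]
  exact QA.conj_mem_torus (c'_ne_zero hc q hw hσ T) two_ne_zero (disc_Q' hc q hw hσ T) e

/-- Every element of the extended torus comes from the torus over `L`. -/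
lemma exists_psi {h : GL (Fin 2) L} (hh : h ∈ T.Q'.torus) :
    ∃ g ∈ tTor (algebraMap K L q.D), psi hc q hw hσ T g = h := by
  obtain ⟨a, b, e⟩ := QA.exists_conj (c'_ne_zero hc q hw hσ T) two_ne_zero (disc_Q' hc q hw hσ T) hh
  rw [← frame_eq] at e
  exact ⟨(frame hc q hw hσ T)⁻¹ * h * frame hc q hw hσ T, ⟨a, b, e⟩, by rw [psi_apply]; group⟩

/-- The frame absorbs the twist. -/
lemma dε_mapGL_frame :
    T.twist.dε * mapGL (σ : L ≃+* L) (frame hc q hw hσ T) = frame hc q hw hσ T := by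
  rw [frame, map_mul, mapGL_iGL, ← mul_assoc]
  congr 1
  refine Units.ext ?_
  rw [Units.val_mul, coe_mapGL]
  change !![1, 0; 0, T.ρ / σ T.ρ] * (!![1, 0; 0, T.ρ] : Matrix (Fin 2) (Fin 2) L).map σ =
    !![1, 0; 0, T.ρ]
  have : σ T.ρ ≠ 0 := T.sρ_ne_zero
  ext i j
  fin_cases i <;> fin_cases j <;> simp [Matrix.mul_apply]
  field_simp

/-- The conjugation intertwines the generator with the twist. -/
lemma θ_psi (g : GL (Fin 2) L) :
    T.twist.θ (psi hc q hw hσ T g) = psi hc q hw hσ T (mapGL (σ : L ≃+* L) g) := by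
  change T.twist.dε * mapGL (σ : L ≃+* L) (psi hc q hw hσ T g) * T.twist.dε⁻¹ = _
  rw [psi_apply, psi_apply, map_mul, map_mul, map_inv]
  conv_rhs => rw [← dε_mapGL_frame]
  group

/-- The twisted norms correspond. -/
lemma norm3_psi (δ : GL (Fin 2) L) :
    T.twist.norm3 (psi hc q hw hσ T δ) = psi hc q hw hσ T (twistN (σ : L ≃+* L) δ) := by
  rw [QA.Twist.norm3, θ_psi, θ_psi, twistN, map_mul, map_mul]

/-- The twisted norm equation, transported into the extended order. -/
lemma norm3_eq {δ : GL (Fin 2) L} {c : Lˣ} {g₀ : GL (Fin 2) K}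
    (hN : twistN (σ : L ≃+* L) δ = scal c * iGL K L g₀) :
    T.twist.norm3 (psi hc q hw hσ T δ) = scal c * T.φ (q.φ v g₀) := by
  rw [norm3_psi, hN, map_mul, psi_iGL]
  congr 1
  rw [psi_apply, ← scal_comm, mul_inv_cancel_right]

variable {y : GL (Fin 2) L} {J : ℕ} (R : T.CosetReps y J)
include R

/-- Representatives for the degrees. -/
lemma reps : T.Q'.Reps (T.φ.comp (q.φ v)) (tTor q.D) (q.U v) y J where
  mem := R.mem
  mapsTo _ h := T.φ_torus (q.φ_mem h)
  cover x hx := by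
    obtain ⟨j, hj, γ, hγ, hu⟩ := R.cover x hx
    obtain ⟨g, hg, rfl⟩ := q.exists_φ hγ
    exact ⟨j, hj, g, hg, hu⟩
  unique i hi j hj h hh := by
    refine ⟨fun hu => ?_, fun ⟨hij, hU⟩ => ?_⟩
    · obtain ⟨hij, hγ⟩ := R.unique i hi j hj _ (q.φ_mem hh) hu
      exact ⟨hij, hh, hγ⟩
    · subst hij
      rw [inv_mul_cancel_left]
      exact T.φ_ugrp hU.2

omit R in
/-- Small local units go to units of the extended order. -/
lemma φU (g : GL (Fin 2) K) (hg : g ∈ q.U v) : T.φ.comp (q.φ v) g ∈ T.Q'.ugrp := T.φ_ugrp hg.2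

variable {S : Set (Place L)}

/-- The vertex in the extended order. -/
noncomputable def toOrd (a : Vert S w) : GL (Fin 2) L ⧸ U0 (w.valuation L) :=
  frame hc q hw hσ T • Vert.proj a

/-- The degree at the fixed place. -/
noncomputable def deg (a : Vert S w) : q.Γ v :=
  q.toΓ v ((reps hc q hw hσ T R).deg (unifAt_spec w) (toOrd hc q hw hσ T (S := S) a))

/-- The degree at the fixed place is equivariant for the torus over `K`. -/
lemma deg_smul {g : GL (Fin 2) K} (hg : g ∈ tTor q.D) (a : Vert S w) :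
    deg hc q hw hσ T R (iGL K L g • a) = (g : PG K) • deg hc q hw hσ T R a := by
  have e : toOrd hc q hw hσ T (S := S) (iGL K L g • a) =
      T.φ.comp (q.φ v) g • toOrd hc q hw hσ T a := by
    rw [toOrd, toOrd, Vert.proj_smul, smul_smul, smul_smul, MonoidHom.comp_apply,
      ← psi_iGL hc q hw hσ T, psi_apply, inv_mul_cancel_right]
  rw [deg, deg, e, (reps hc q hw hσ T R).deg_smul (unifAt_spec w) hg, QDat.toΓ_smul]

/-- The degree of a coset is trivial exactly when its degree modulo the units of the torus is. -/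
lemma deg_eq_one_iff (a : Vert S w) : deg hc q hw hσ T R a = q.one v ↔
    (reps hc q hw hσ T R).deg (unifAt_spec w) (toOrd hc q hw hσ T (S := S) a)
      = ((1 : GL (Fin 2) K) : GL (Fin 2) K ⧸ q.U v) :=
  q.toΓ_eq_one_iff _

/-- Every degree at the fixed place is a torus translate of the trivial one. -/
lemma deg_mem (a : Vert S w) : ∃ t : q.T, deg hc q hw hσ T R a = t • q.one v := by
  obtain ⟨h, hh, e⟩ := (reps hc q hw hσ T R).deg_mem (unifAt_spec w) (toOrd hc q hw hσ T (S := S) a)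
  refine ⟨⟨(h : PG K), h, hh, rfl⟩, ?_⟩
  rw [deg, e, QDat.toΓ_mk]
  change _ = (((h : PG K) * 1 : PG K) : PG K ⧸ q.Ub v)
  rw [mul_one]

/-- The base vertex of the extended order has trivial degree. -/
lemma deg_base (hJ : 0 < J) :
    deg hc q hw hσ T R (((frame hc q hw hσ T)⁻¹ : GL (Fin 2) L) : Vert S w) = q.one v := by
  rw [deg_eq_one_iff, toOrd, Vert.proj_mk, MulAction.Quotient.smul_coe, smul_eq_mul, mul_inv_cancel]
  have h := (reps hc q hw hσ T R).deg_vertex (unifAt_spec w) hJ (tTor q.D).one_mem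
    T.Q'.ugrp.one_mem 0
  rwa [QA.vertex, QA.dg_zero, map_one, pow_zero, one_mul, one_mul, one_mul] at h

omit R in
/-- The displacement in the order. -/
lemma lvl_eq (δ : GL (Fin 2) L) (a : Vert S w) (h : ℕ → ℂ) :
    T.twist.tval h (psi hc q hw hσ T δ) (toOrd hc q hw hσ T a)
      = h (lvl (w.valuation L) (a.out⁻¹ * δ * mapGL (σ : L ≃+* L) a.out)) := by
  rw [toOrd, Vert.proj_out, MulAction.Quotient.smul_coe, smul_eq_mul, T.twist.tval_mk]
  congr 2
  rw [show T.twist.θ (frame hc q hw hσ T * a.out)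
      = T.twist.dε * mapGL (σ : L ≃+* L) (frame hc q hw hσ T * a.out) * T.twist.dε⁻¹ from rfl,
    map_mul, psi_apply]
  have e : mapGL (σ : L ≃+* L) (frame hc q hw hσ T) = T.twist.dε⁻¹ * frame hc q hw hσ T := by
    have e' : mapGL (σ : L ≃+* L) (frame hc q hw hσ T)
        = T.twist.dε⁻¹ * (T.twist.dε * mapGL (σ : L ≃+* L) (frame hc q hw hσ T)) :=
      (inv_mul_cancel_left _ _).symm
    rwa [dε_mapGL_frame] at e'
  rw [e]
  group

omit R in
/-- The spherical kernel at a twisted displacement. -/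
lemma sph_twist (hwS : w ∉ S) (hS : Stable (σ : L ≃+* L) S) (p : Polynomial ℂ) (δ : GL (Fin 2) L)
    (a : Vert S w) :
    sphKer hwS p a (δ • Vert.amap hS hσ a)
      = T.twist.tval (kern (pnorm w) p) (psi hc q hw hσ T δ) (toOrd hc q hw hσ T a) := by
  rw [lvl_eq, sphKer_apply]
  congr 1
  conv_lhs => rw [← QuotientGroup.out_eq' a, Vert.amap_mk, MulAction.Quotient.smul_coe,
    vd_mk, smul_eq_mul, ← mul_assoc]

omit R in
/-- Off the level the vertex determines the coset. -/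
lemma toOrd_injective (hwS : w ∉ S) :
    Function.Injective (toOrd hc q hw hσ T (S := S)) := fun a b e => by
  refine (vertEquiv hwS).injective ?_
  rw [vertEquiv_apply, vertEquiv_apply]
  exact MulAction.injective (frame hc q hw hσ T) e

variable {g₀ : GL (Fin 2) K} {δ : GL (Fin 2) L} {c : Lˣ}
  (hg : TReg q.D g₀) (hδ : δ ∈ tTor (algebraMap K L q.D))
  (hN : twistN (σ : L ≃+* L) δ = scal c * iGL K L g₀)
include hg hN

omit R in
/-- An element with the norm of `δ` is shallow. -/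
lemma shallow_of_unit {z : GL (Fin 2) L}
    (hz : T.twist.norm3 z = T.twist.norm3 (psi hc q hw hσ T δ)) :
    T.twist.Shallow z := T.twist.shallow_of_norm fun _ e he => by
  rw [hz, norm3_eq hc q hw hσ T hN] at he
  refine T.φ_ne_scal (q.φ_torus hg) (q.φ_ne_scal hg) (c⁻¹ * e) ?_
  rw [scal_mul, ← he, ← mul_assoc, ← scal_mul, inv_mul_cancel]
  simp [scal]

variable (hcob : J ≤ 1 ∨ (y⁻¹ * T.twist.θ y ∈ T.Q'.ugrp ∧ T.twist.norm3 (y⁻¹ * T.twist.θ y) = 1))
include hcob hδ

omit R hδ in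
/-- The shifts of `δ` are shallow. -/
lemma shallow (j : ℕ) (hj : j < J) :
    T.twist.Shallow (T.twist.shiftPow y (psi hc q hw hσ T δ) j) := by
  set x := psi hc q hw hσ T δ
  rcases hcob with h | ⟨hu, hu1⟩
  · obtain rfl : j = 0 := by omega
    rw [QA.Twist.shiftPow, pow_zero, mul_one]
    exact shallow_of_unit hc q hw hσ T hg hN rfl
  intro hz
  have hx : x ∈ T.Q'.ugrp := by
    have := T.Q'.ugrp.mul_mem hz (T.Q'.ugrp.inv_mem (T.Q'.ugrp.pow_mem hu j))
    rwa [QA.Twist.shiftPow, mul_inv_cancel_right] at this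
  refine shallow_of_unit hc q hw hσ T hg hN ?_ hz
  have : T.twist.normU (⟨x, hx⟩ * ⟨_, hu⟩ ^ j) = T.twist.normU ⟨x, hx⟩ := by
    rw [map_mul, map_pow, show T.twist.normU ⟨_, hu⟩ = 1 from Subtype.ext hu1, one_pow, mul_one]
  exact congrArg Subtype.val this

/-- Only finitely many cosets of the fibre contribute. -/
theorem finite_sph (hwS : w ∉ S) (hS : Stable (σ : L ≃+* L) S) (p : Polynomial ℂ) :
    {a : Vert S w | deg hc q hw hσ T R a = q.one v ∧
    sphKer hwS p a (δ • Vert.amap hS hσ a) ≠ 0}.Finite := by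
  have hfin :=
    (reps hc q hw hσ T R).finite_fibre T.twist (unifAt_spec w) (φU hc q hw hσ T)
    (psi_mem hc q hw hσ T hδ) (h := kern (pnorm w) p) (kern_eq_zero (pnorm w) p)
    (shallow hc q hw hσ T hg hN hcob)
  refine Set.Finite.of_finite_image (f := toOrd hc q hw hσ T) (hfin.subset ?_)
    (toOrd_injective hc q hw hσ T hwS).injOn
  rintro _ ⟨a, ⟨ha, hne⟩, rfl⟩
  exact ⟨(deg_eq_one_iff hc q hw hσ T R a).1 ha, by rwa [← sph_twist hc q hw hσ T hwS hS]⟩

/-- **Spherical twisted sum.** The twisted fibre sum of the spherical kernel of `p` is a sum over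
the `J` shifts of the twisted level sums of `kern p`. -/
theorem sum_sph (hwS : w ∉ S) (hS : Stable (σ : L ≃+* L) S) (p : Polynomial ℂ) :
    ∑' a : {a : Vert S w // deg hc q hw hσ T R a = q.one v},
      sphKer hwS p a.1 (δ • Vert.amap hS hσ a.1)
      = ∑ j ∈ Finset.range J, ∑ᶠ i, T.twist.slev (unifAt_spec w) (kern (pnorm w) p)
          (T.twist.shiftPow y (psi hc q hw hσ T δ) j) i := by
  rw [← (reps hc q hw hσ T R).tsum_fibre T.twist (unifAt_spec w) (φU hc q hw hσ T)
    (psi_mem hc q hw hσ T hδ) (kern_eq_zero (pnorm w) p) (shallow hc q hw hσ T hg hN hcob)]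
  refine Eq.trans ?_ ((((vertEquiv hwS).trans (MulAction.toPerm (frame hc q hw hσ T))).subtypeEquiv
    (p := fun a => deg hc q hw hσ T R a = q.one v)
    (q := fun x => (reps hc q hw hσ T R).deg (unifAt_spec w) x
      = ((1 : GL (Fin 2) K) : GL (Fin 2) K ⧸ q.U v)) fun a => by
      rw [deg_eq_one_iff, Equiv.trans_apply, vertEquiv_apply]
      rfl).tsum_eq fun x => T.twist.tval (kern (pnorm w) p) (psi hc q hw hσ T δ) x.1)
  refine tsum_congr fun a => ?_
  rw [sph_twist hc q hw hσ T hwS hS]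
  congr 1

end Fixed

end Fermat.LT
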