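import Fermat.Agent.LT.LocKRam
import Fermat.Agent.LT.LocLFix

/-!
# Matching at inert and at ramified places

The twisted sums equal the small sums; when these do not vanish the small element is a norm up to
scalars to every precision.
-/

set_option autoImplicit false
open Set
open scoped Classical Matrix

namespace Fermat.LT

variable {K L : Type} [Field K] [NumberField K] [Field L] [NumberField L] [Algebra K L]
  {σ : L ≃ₐ[K] L}

/-- A precision making a multiple small. -/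
lemma exists_prec {F : Type*} [Field F] (v : Valuation F (WithZero (Multiplicative ℤ)))
    (X : F) (n : ℕ) :
    ∃ M : ℕ, ∀ M', M ≤ M' → ∀ y : F, v y ≤ WithZero.exp (-(M' : ℤ)) →
      v (y * X) ≤ WithZero.exp (-(n : ℤ)) := by
  rcases eq_or_ne X 0 with rfl | hX
  · exact ⟨0, fun M' _ y _ => by simp⟩
  set k := WithZero.log (v X)
  refine ⟨(k + n).toNat, fun M' hM y hy => ?_⟩
  rw [map_mul, ← WithZero.exp_log (v.ne_zero_iff.2 hX)]
  refine (mul_le_mul' hy le_rfl).trans ?_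
  rw [← WithZero.exp_add, WithZero.exp_le_exp]
  omega

namespace Fixed

variable (hc : Cyc3 K L σ) (q : QDat K) {v : Place K} {w : Place L} (hw : LiesOver K L w v)
  (hσ : mapPlace (σ : L ≃+* L) w = w) (T : Emb (hc.ext hw hσ) (q.ord' v).Q)
  {g₀ : GL (Fin 2) K} {a₀ b₀ : K} (hg : (g₀ : Matrix (Fin 2) (Fin 2) K) = tmat q.D a₀ b₀)

include hg in
/-- **Norms of every precision in the order are local norms.** -/
theorem isLocNorm_of
    (h : ∀ m, ∃ z ∈ T.Q'.torus, (T.φ (q.φ v g₀))⁻¹ * T.twist.norm3 z ∈ T.Q'.levG m) :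
    IsLocNorm K L σ v q.D a₀ b₀ := by
  intro n
  have h2 : (2 : K) ≠ 0 := two_ne_zero
  obtain ⟨M₀, hM₀⟩ := exists_prec (v.valuation K) ((q.ord' v).Q.t / 2) 1
  obtain ⟨M₁, hM₁⟩ := exists_prec (v.valuation K) ((q.ord' v).c / 2 * (q.D * b₀)) n
  obtain ⟨M₂, hM₂⟩ := exists_prec (v.valuation K) ((q.ord' v).c / 2 * a₀) n
  set M := 1 + M₀ + M₁ + M₂ with hMdef
  obtain ⟨z, hz, hzm⟩ := h (3 * M + 3)
  obtain ⟨g, hgm, rfl⟩ := exists_psi hc q hw hσ T hz
  obtain ⟨γ₁, hγ₁, hN⟩ := exists_twistN hc hgm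
  set hh := g₀⁻¹ * γ₁ with hhdef
  have hhT : hh ∈ tTor q.D := (tTor _).mul_mem ((tTor _).inv_mem ⟨a₀, b₀, hg⟩) hγ₁
  rw [norm3_psi, hN, psi_iGL, ← map_inv, ← map_mul, ← map_inv, ← map_mul] at hzm
  have hu : q.φ v hh ∈ (q.ord' v).Q.ugrp :=
    (T.φ_mem_ugrp_iff (q.φ_mem hhT)).1 (T.Q'.levG_le_ugrp _ hzm)
  have hlev : M ≤ T.lev (3 * M + 3) := by
    have hr : T.r ≤ 1 := by rcases T.hr with h | ⟨h, -⟩ <;> omega
    have he : (hc.ext hw hσ).e ≤ 3 := by
      change ramE v w ≤ 3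
      rcases hc.trichotomy hw with ⟨-, e, -⟩ | ⟨-, -, ⟨e, -⟩ | ⟨e, -⟩⟩ <;> omega
    have hpos := Nat.pos_of_ne_zero (hc.ext hw hσ).he
    rw [Emb.lev, Nat.le_div_iff_mul_le hpos]
    have := Nat.mul_le_mul_left M he
    omega
  obtain ⟨d, A, B, hA, hB, hnm, hAB⟩ :=
    (q.ord' v).Q.levG_antitone hlev ((T.mem_levG'_iff hu _).1 hzm)
  -- coordinates of the corrected element
  obtain ⟨α, β, hαβ⟩ := (tTor q.D).mul_mem (scal_mem_tTor q.D d) hhT
  have hφd : q.φ v (scal d * hh) = scal d * q.φ v hh := by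
    rw [map_mul]
    congr 1
    rw [QDat.φ_apply, ← scal_comm, mul_inv_cancel_right]
  have hcc : (q.ord' v).c ≠ 0 := (q.ord' v).hc
  have hmat : ((scal d * q.φ v hh : GL (Fin 2) K) : Matrix (Fin 2) (Fin 2) K)
      = (q.ord' v).Q.mat (α - β * (q.ord' v).Q.t / (q.ord' v).c) (2 * β / (q.ord' v).c) := by
    rw [← hφd, QDat.φ_apply, Units.val_mul, Units.val_mul, hαβ,
      show (q.cj v : Matrix (Fin 2) (Fin 2) K) =
        ((q.ord' v).Q.conjD hcc h2 : GL (Fin 2) K) from rfl,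
      (q.ord' v).Q.conjD_mul_tmat hcc h2 (q.ord' v).disc, Matrix.mul_assoc, ← Units.val_mul,
      show (q.ord' v).Q.conjD hcc h2 * (q.cj v)⁻¹ = 1 from mul_inv_cancel _, Units.val_one,
        Matrix.mul_one]
  rw [hAB] at hmat
  obtain ⟨eA, eB⟩ := (q.ord' v).Q.mat_inj hmat
  have hβ : β = B * ((q.ord' v).c / 2) := by rw [eB]; field_simp
  have hα : α = A + B * ((q.ord' v).Q.t / 2) := by rw [eA, eB]; field_simp; ring
  have hBM : v.valuation K B ≤ WithZero.exp (-(M : ℤ)) := hB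
  have hB1 : v.valuation K B < 1 :=
    lt_of_le_of_lt hBM (by rw [← WithZero.exp_zero, WithZero.exp_lt_exp]; omega)
  have hA1 : v.valuation K A = 1 := (q.ord' v).Q.v_a_eq_one hA hB1 hnm
  have hα1 : v.valuation K α = 1 := by
    rw [hα, Valuation.map_add_eq_of_lt_left, hA1]
    rw [hA1]
    exact lt_of_le_of_lt (hM₀ M (by omega) B hBM)
      (by rw [← WithZero.exp_zero, WithZero.exp_lt_exp]; omega)
  have hα0 : α ≠ 0 := fun e => by simp [e] at hα1
  obtain ⟨N₀, N₁, hN1⟩ := hγ₁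
  obtain ⟨x, y, hxy⟩ := hgm
  refine ⟨x, y, (d : K) / α, N₀, N₁, div_ne_zero d.ne_zero hα0, ?_, ?_, ?_⟩
  · rw [twNorm, ← hxy, ← mapGL_tmat (σ := σ) hxy, ← mapGL_tmat (σ := σ) (mapGL_tmat (σ := σ) hxy),
      ← iGL_tmat hN1, ← hN, twistN, Units.val_mul, Units.val_mul]
  · rw [← det_tmat, ← hN1]
    exact (Matrix.GeneralLinearGroup.det γ₁).ne_zero
  -- the scaled element is `g₀` times the correction
  have e : ((scal d * γ₁ : GL (Fin 2) K) : Matrix (Fin 2) (Fin 2) K)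
      = tmat q.D (a₀ * α + q.D * b₀ * β) (a₀ * β + b₀ * α) := by
    rw [show γ₁ = g₀ * hh by rw [hhdef, mul_inv_cancel_left], ← mul_assoc, scal_comm, mul_assoc,
      Units.val_mul, hg, hαβ, tmat_mul]
  rw [scal_mul_tmat _ _ _ d hN1] at e
  obtain ⟨e0, e1⟩ := tmat_inj e
  constructor
  · rw [show (d : K) / α * N₀ - a₀ = B * ((q.ord' v).c / 2 * (q.D * b₀)) / α by
      field_simp; rw [e0, hβ]; field_simp; ring, map_div₀, hα1, div_one]
    exact hM₁ M (by omega) B hBM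
  · rw [show (d : K) / α * N₁ - b₀ = B * ((q.ord' v).c / 2 * a₀) / α by
      field_simp; rw [e1, hβ]; field_simp; ring, map_div₀, hα1, div_one]
    exact hM₂ M (by omega) B hBM

end Fixed

/-- An unramified order has simple residual roots. -/
lemma QA.simple_root {F : Type*} [Field F] {v : Valuation F (WithZero (Multiplicative ℤ))}
    {Q : QA v} (hd : v Q.disc = 1) {z : IsLocalRing.ResidueField v.valuationSubring}
    (hz : z ∈ Q.roots) :
    z + z + resd v Q.t ≠ 0 := by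
  intro h0
  have htt : v (Q.t * Q.t) ≤ 1 := by rw [map_mul]; exact mul_le_one' Q.ht Q.ht
  have hn2 : v (Q.n + Q.n) ≤ 1 := (v.map_add _ _).trans (max_le Q.hn Q.hn)
  have hn4 : v (Q.n + Q.n + (Q.n + Q.n)) ≤ 1 := (v.map_add _ _).trans (max_le hn2 hn2)
  have hr : z * z + resd v Q.t * z + resd v Q.n = 0 := hz
  have hle : v Q.disc ≤ 1 := hd.le
  refine absurd ((resd_eq_zero_iff hle).1 ?_) hd.not_lt
  rw [QA.disc, show Q.t * Q.t - 4 * Q.n = Q.t * Q.t + -(Q.n + Q.n + (Q.n + Q.n)) by ring,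
    resd_add htt (by rw [Valuation.map_neg]; exact hn4), resd_mul Q.ht Q.ht, resd_neg hn4,
      resd_add hn2 hn2,
    resd_add Q.hn Q.hn]
  linear_combination (-4 : IsLocalRing.ResidueField v.valuationSubring) * hr +
    (z + z + resd v Q.t) * h0

section Match

variable (hc : Cyc3 K L σ) (q : QDat K) {v : Place K} {w : Place L} (hw : LiesOver K L w v)
  {S : Set (Place K)} {S' : Set (Place L)} (hwS : w ∉ S') (hS : Stable (σ : L ≃+* L) S')
  (h3 : v.valuation K 3 = 1)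

variable {g₀ : GL (Fin 2) K} {δ : GL (Fin 2) L}

include h3 in
/-- Representatives at inert places. -/
theorem inert_reps (hσ : mapPlace (σ : L ≃+* L) w = w) (he : ramE v w = 1) :
    ∃ T : Emb (hc.ext hw hσ) (q.ord' v).Q, T.ρ = 1 ∧ T.CosetReps 1 1 :=
  ⟨(hc.ext hw hσ).embUnram h3 he _, rfl,
    Emb.cosetReps_inert _ (unifAt_spec v) (unifAt_spec w) h3 he rfl⟩

include h3 in
/-- **Matching at inert places.** At an inert place the twisted sum of the spherical kernel of `p`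
equals the sum on `K` of that of its cubic base change. -/
theorem inert_sum (hσ : mapPlace (σ : L ≃+* L) w = w) (he : ramE v w = 1)
    (hn : pnorm w = pnorm v ^ 3) (hv : v ∉ S) (T : Emb (hc.ext hw hσ) (q.ord' v).Q) (hρ : T.ρ = 1)
    (R : T.CosetReps 1 1) {c : Lˣ} (hg : TReg q.D g₀) (hδ : δ ∈ tTor (algebraMap K L q.D))
    (hN : twistN (σ : L ≃+* L) δ = scal c * iGL K L g₀) (p : Polynomial ℂ) :
    ∑' a : {a : Vert S' w // Fixed.deg hc q hw hσ T R a = q.one v},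
      sphKer hwS p a.1 (δ • Vert.amap hS hσ a.1)
      = ∑' a : {a : Vert S v // q.degAt a = q.one v}, sphKer hv (cubicBC (pnorm v) p) a.1
        (g₀ • a.1) := by
  have hcard : Nat.card (Res w) = Nat.card (Res v) ^ 3 := by
    rw [natCard_residue, natCard_residue, hn]
  have hx := Fixed.psi_mem hc q hw hσ T hδ
  have hN' := Fixed.norm3_eq hc q hw hσ T hN
  have hq := coprime_three (v := v) h3
  obtain ⟨θ₀, hθ, hθ1⟩ := hc.exists_moved hw hσ hn h3
  rw [Fixed.sum_sph hc q hw hσ T R hg hδ hN (Or.inl le_rfl) hwS hS, q.sum_sph hv hg,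
    Finset.sum_range_one,
    QA.Twist.shiftPow, pow_zero, mul_one, ← natCard_residue, ← natCard_residue]
  by_cases hu : Fixed.psi hc q hw hσ T δ ∈ T.Q'.ugrp
  · exact T.inert_unit h3 (unifAt_spec v) (unifAt_spec w) he hρ hcard
      (T.twist.h90_of_residue hθ hθ1) hq hu (T.mem_of_norm3 hu (q.φ_torus hg) hN') hN'
        (q.φ_ne_scal hg) p
  · exact T.inert_nonunit h3 (unifAt_spec v) (unifAt_spec w) he hρ hcard hx hu (q.φ_torus hg) hN' p

include h3 hc hw in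
/-- **Inert places: non-vanishing means local norms.** -/
theorem inert_isLocNorm (hσ : mapPlace (σ : L ≃+* L) w = w) (he : ramE v w = 1)
    (hn : pnorm w = pnorm v ^ 3) (hv : v ∉ S) (hg : TReg q.D g₀) {a₀ b₀ : K}
    (hg0 : (g₀ : Matrix (Fin 2) (Fin 2) K) = tmat q.D a₀ b₀) (p : Polynomial ℂ)
    (hne : ∑' a : {a : Vert S v // q.degAt a = q.one v},
    sphKer hv (cubicBC (pnorm v) p) a.1 (g₀ • a.1) ≠ 0) :
    IsLocNorm K L σ v q.D a₀ b₀ := by
  obtain ⟨T, -, -⟩ := inert_reps hc q hw h3 hσ he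
  obtain ⟨θ₀, hθ, hθ1⟩ := hc.exists_moved hw hσ hn h3
  rw [q.sum_sph hv hg, ← natCard_residue] at hne
  exact Fixed.isLocNorm_of hc q hw hσ T hg0 fun m =>
    T.inert_norm h3 (unifAt_spec v) (unifAt_spec w)
    (by rw [natCard_residue, natCard_residue, hn]) (T.twist.h90_of_residue hθ hθ1)
      (coprime_three h3)
    (q.φ_torus hg) p hne m

include h3 in
/-- Representatives at ramified places. -/
theorem ram_reps (hσ : mapPlace (σ : L ≃+* L) w = w) (he : ramE v w = 3) (hn : pnorm w = pnorm v) :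
    ∃ (T : Emb (hc.ext hw hσ) (q.ord' v).Q) (y : GL (Fin 2) L) (J : ℕ), T.CosetReps y J ∧ 0 < J ∧
      y⁻¹ * T.twist.θ y ∈ T.Q'.ugrp ∧ T.twist.norm3 (y⁻¹ * T.twist.θ y) = 1 ∧
      ((J = 1 ∧ ((T.ρ = 1 ∧ T.r = 0 ∧ (q.ord' v).Q.roots = ∅) ∨ T.r = 1)) ∨
       (J = 3 ∧ T.ρ = 1 ∧ T.r = 0 ∧ ∃ z ∈ (q.ord' v).Q.roots,
         z + z + resd (v.valuation K) (q.ord' v).Q.t ≠ 0 ∧
        IsPrimitiveRoot (T.Q'.rootRatio ((hc.ext hw hσ).resHom z) (y⁻¹ * T.twist.θ y)) 3)) := by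
  have hT := hc.tame hw hσ he hn h3
  obtain ⟨T, hTc⟩ :=
    (hc.ext hw hσ).exists_emb (q.ord' v).Q (q.ord' v).normal h3 (Or.inr he) (unifAt_spec w)
  have h1 : ((1 : GL (Fin 2) L))⁻¹ * T.twist.θ 1 = 1 := by rw [map_one, inv_one, one_mul]
  have hN1 : T.twist.norm3 (1 : GL (Fin 2) L) = 1 := by
    rw [QA.Twist.norm3, map_one, map_one, one_mul, one_mul]
  rcases hTc with ⟨hρ, hr, hd⟩ | ⟨hr, -⟩
  · have hd : (v.valuation K) (q.ord' v).Q.disc = 1 :=
      hd.resolve_left (by rw [show (hc.ext hw hσ).e = 3 from he]; omega)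
    by_cases hroots : (q.ord' v).Q.roots = ∅
    · refine ⟨T, 1, 1, T.cosetReps_field (T.roots_empty hT hρ hroots), one_pos, ?_, ?_,
        Or.inl ⟨rfl, Or.inl ⟨hρ, hr, hroots⟩⟩⟩
      · rw [h1]; exact T.Q'.ugrp.one_mem
      · rw [h1, hN1]
    · obtain ⟨z, hz⟩ := Set.nonempty_iff_ne_empty.2 hroots
      have h2 := QA.simple_root hd hz
      obtain ⟨y, hyt, a, hy, hu, hu1, hζ⟩ := T.exists_zeta (unifAt_spec w) hT hρ hz h2
      exact ⟨T, y, 3, T.cosetReps_split (unifAt_spec v) (unifAt_spec w) hT hρ hz h2 hyt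
        hy, by omega, hu, hu1, Or.inr ⟨rfl, hρ, hr, z, hz, h2, hζ⟩⟩
  · refine ⟨T, 1, 1, T.cosetReps_eis (unifAt_spec v) (unifAt_spec w) hr, one_pos, ?_, ?_,
      Or.inl ⟨rfl, Or.inr hr⟩⟩
    · rw [h1]; exact T.Q'.ugrp.one_mem
    · rw [h1, hN1]

include h3 in
/-- **Matching at ramified places.** At a totally ramified place the twisted sum of the unit
spherical kernel equals the sum of `ramKer` on `K`. -/
theorem ram_sum (hσ : mapPlace (σ : L ≃+* L) w = w) (he : ramE v w = 3) (hn : pnorm w = pnorm v)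
    (hv : v ∈ S) (hq1 : 3 ∣ pnorm v - 1) (T : Emb (hc.ext hw hσ) (q.ord' v).Q) (y : GL (Fin 2) L)
    (J : ℕ) (R : T.CosetReps y J) (hu : y⁻¹ * T.twist.θ y ∈ T.Q'.ugrp)
    (hu1 : T.twist.norm3 (y⁻¹ * T.twist.θ y) = 1)
    (hcase : (J = 1 ∧ ((T.ρ = 1 ∧ T.r = 0 ∧ (q.ord' v).Q.roots = ∅) ∨ T.r = 1)) ∨
       (J = 3 ∧ T.ρ = 1 ∧ T.r = 0 ∧ ∃ z ∈ (q.ord' v).Q.roots,
         z + z + resd (v.valuation K) (q.ord' v).Q.t ≠ 0 ∧
        IsPrimitiveRoot (T.Q'.rootRatio ((hc.ext hw hσ).resHom z) (y⁻¹ * T.twist.θ y)) 3))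
    {c : Lˣ} (hg : TReg q.D g₀) (hδ : δ ∈ tTor (algebraMap K L q.D))
    (hN : twistN (σ : L ≃+* L) δ = scal c * iGL K L g₀) :
    ∑' a : {a : Vert S' w // Fixed.deg hc q hw hσ T R a = q.one v},
      sphKer hwS 1 a.1 (δ • Vert.amap hS hσ a.1)
      = ∑' a : {a : Vert S v // q.degAt a = q.one v}, ramKer v hv a.1 (g₀ • a.1) := by
  have hT := hc.tame hw hσ he hn h3
  have hx := Fixed.psi_mem hc q hw hσ T hδ
  have hN' := Fixed.norm3_eq hc q hw hσ T hN
  have hq := coprime_three (v := v) h3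
  have hd0 : kern (pnorm w) (1 : Polynomial ℂ) = delta0 := by simp [kern]
  rw [Fixed.sum_sph hc q hw hσ T R hg hδ hN (Or.inr ⟨hu, hu1⟩) hwS hS, hd0]
  -- If `φ g₀` is not a unit both sides vanish.
  by_cases hγ : q.φ v g₀ ∈ (q.ord' v).Q.ugrp
  swap
  · rw [q.sum_ram_nonunit hv hg hγ]
    refine Finset.sum_eq_zero fun j hj => finsum_eq_zero_of_forall_eq_zero fun i => ?_
    refine T.slev_nonunit (unifAt_spec w) ?_ (fun hxj => hγ ?_) i
    · exact T.Q'.torus.mul_mem hx (T.Q'.ugrp_le_torus (T.Q'.ugrp.pow_mem hu j))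
    · refine T.mem_of_norm3 ?_ (q.φ_torus hg) hN'
      have := T.Q'.ugrp.mul_mem hxj (T.Q'.ugrp.inv_mem (T.Q'.ugrp.pow_mem hu j))
      rwa [QA.Twist.shiftPow, mul_inv_cancel_right] at this
  have hxu : Fixed.psi hc q hw hσ T δ ∈ T.Q'.ugrp := T.unit_of_norm3 R hu (unifAt_spec w) hx (by
    rw [hN']; exact T.Q'.ugrp.mul_mem (scal_mem_withScalars _ c) (T.φ_ugrp hγ))
  -- Otherwise both are given by the depth and match case by case.
  obtain ⟨d, hd⟩ := QA.exists_depth hγ (q.φ_ne_scal hg)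
  rw [q.sum_ram_unit hv hg hγ hd]
  have hq1' : 3 ∣ Nat.card (Res v) - 1 := by rwa [natCard_residue]
  have hfix : ∀ x, ∑ᶠ i, T.twist.slev (unifAt_spec w) delta0 x i = T.fixTot (unifAt_spec w) x :=
    fun _ => rfl
  simp only [hfix]
  rcases hcase with ⟨rfl, hρ⟩ | ⟨rfl, hρ, hr, z, hz, h2, hζ⟩
  · rw [Finset.sum_range_one, QA.Twist.shiftPow, pow_zero, mul_one]
    rcases hρ with ⟨hρ, hr, hroots⟩ | hr
    · exact T.ram_match_field (unifAt_spec v) (unifAt_spec w) hT hρ hr hq hq1' hroots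
        _ hxu hγ hN' hd
    · exact T.ram_match_eis (unifAt_spec v) (unifAt_spec w) hT hr hq _ hxu hγ hN' hd
  · refine T.ram_match_split (unifAt_spec v) (unifAt_spec w) hT hρ hr hq ?_ hz h2 hu hu1
      hζ hxu hγ hN' hd
    rw [← orderOf_cubChar (v := v) (by rwa [← Nat.card_eq_fintype_card]), pow_orderOf_eq_one]

include h3 hc hw in
/-- **Ramified places: non-vanishing means local norms.** -/
theorem ram_isLocNorm (hσ : mapPlace (σ : L ≃+* L) w = w) (he : ramE v w = 3)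
    (hn : pnorm w = pnorm v) (hv : v ∈ S) (hq1 : 3 ∣ pnorm v - 1) (hg : TReg q.D g₀) {a₀ b₀ : K}
    (hg0 : (g₀ : Matrix (Fin 2) (Fin 2) K) = tmat q.D a₀ b₀)
    (hne : ∑' a : {a : Vert S v // q.degAt a = q.one v}, ramKer v hv a.1 (g₀ • a.1) ≠ 0) :
    IsLocNorm K L σ v q.D a₀ b₀ := by
  obtain ⟨T, -, -, -, -, -, -, -⟩ := ram_reps hc q hw h3 hσ he hn
  have hγ : q.φ v g₀ ∈ (q.ord' v).Q.ugrp := by_contra fun h => hne (q.sum_ram_nonunit hv hg h)
  obtain ⟨d, hd⟩ := QA.exists_depth hγ (q.φ_ne_scal hg)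
  rw [q.sum_ram_unit hv hg hγ hd] at hne
  refine Fixed.isLocNorm_of hc q hw hσ T hg0 fun m => ?_
  obtain ⟨z, hz, hzm⟩ := T.ram_norm (unifAt_spec v) (coprime_three h3) (by rwa [natCard_residue])
    (orderOf_cubChar (v := v) (by rwa [← Nat.card_eq_fintype_card, natCard_residue])) hγ hd hne m
  exact ⟨z, T.Q'.ugrp_le_torus hz, hzm⟩

end Match

end Fermat.LT
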