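import Fermat.Agent.LT.LocTwist
import Fermat.Agent.LT.LevelSum

/-!
# Local orbital sums on the unit part of a torus

`τ.slev hϖ h x i` is the sum over the unit classes `u` of level `i` of `h` of the twisted
displacement by `x` of the vertex `u diag(1, ϖ^i)`; the sum over all levels only involves two
constant terms.
-/

set_option autoImplicit false
open scoped Matrix Classical
open Finset

namespace Fermat.LT

variable {F : Type*} [Field F] {v : Valuation F (WithZero (Multiplicative ℤ))}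

local notation "κ" => IsLocalRing.ResidueField v.valuationSubring

namespace QA

variable {Q : QA v} {ϖ : F} (hϖ : v ϖ = WithZero.exp (-1 : ℤ))

/-- Displacement of the vertex of level `i`. -/
noncomputable def dlvl {v : Valuation F (WithZero (Multiplicative ℤ))} (_Q : QA v) {ϖ : F}
    (hϖ : v ϖ = WithZero.exp (-1 : ℤ)) (i : ℕ) (y : GL (Fin 2) F) : ℕ :=
  lvl v ((dg hϖ i)⁻¹ * y * dg hϖ i)

include hϖ in
/-- The displacement ignores scalars. -/
lemma dlvl_scal (i : ℕ) (c : Fˣ) (y : GL (Fin 2) F) : Q.dlvl hϖ i (scal c * y) = Q.dlvl hϖ i y := by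
  rw [dlvl, dlvl, show (dg hϖ i)⁻¹ * (scal c * y) * dg hϖ i = scal c *
      ((dg hϖ i)⁻¹ * y * dg hϖ i) by
    rw [← mul_assoc, ← mul_assoc, ← mul_assoc, ← scal_comm],
      lvl_mul_left v (scal_mem_withScalars _ c)]

/-- An element of level `i` fixes the vertices of level `i`. -/
lemma dlvl_of_mem {i : ℕ} {y : GL (Fin 2) F} (hy : y ∈ Q.levG i) : Q.dlvl hϖ i y = 0 := by
  obtain ⟨c, hc⟩ := hy
  obtain ⟨a, b, ha, hb, hn, h⟩ := hc
  rw [← dlvl_scal hϖ i c, dlvl, Q.lvl_unit hϖ i i le_rfl ha hn hb (Or.inl rfl) h]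
  omega

/-- An element of exact level `m < i` moves the vertices of level `i` by `2 (i - m)`. -/
lemma dlvl_of_exact {i m : ℕ} (hm : m < i) {y : GL (Fin 2) F} (hy : y ∈ Q.levG m)
    (hy' : y ∉ Q.levG (m + 1)) : Q.dlvl hϖ i y = 2 * (i - m) := by
  obtain ⟨c, hc⟩ := hy
  obtain ⟨a, b, ha, hb, hn, h⟩ := hc
  have hexact : v b = WithZero.exp (-(m : ℤ)) := by
    rcases lt_or_eq_of_le hb with hlt | h'
    · refine absurd ((Q.mem_levG_iff c ha hn h).2 ?_) hy'
      rcases eq_or_ne (v b) 0 with h0 | h0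
      · rw [h0]; exact zero_le
      rw [← WithZero.exp_log h0, WithZero.exp_lt_exp] at hlt
      rw [← WithZero.exp_log h0, WithZero.exp_le_exp]
      push_cast; omega
    · exact h'
  rw [← dlvl_scal hϖ i c, dlvl]
  exact Q.lvl_unit hϖ i m hm.le ha hn hb (Or.inr hexact) h

/-- The value through the levels containing `y`. -/
theorem apply_dlvl (h : ℕ → ℂ) {i : ℕ} {y : GL (Fin 2) F} (hy : y ∈ Q.ugrp) :
    h (Q.dlvl hϖ i y) = h (2 * i)
      + ∑ m ∈ Icc 1 i, if y ∈ Q.levG m then h (2 * (i - m)) - h (2 * (i - m + 1)) else 0 := by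
  have htel : ∀ μ ≤ i, (∀ m ∈ Icc 1 i, y ∈ Q.levG m ↔ m ≤ μ) → h (2 * i)
      + ∑ m ∈ Icc 1 i, (if y ∈ Q.levG m then h (2 * (i - m)) - h (2 * (i - m + 1)) else 0)
        = h (2 * (i - μ)) := by
    intro μ hμ hiff
    rw [Finset.sum_congr rfl fun m hm => if_congr (hiff m hm) rfl rfl, ← Finset.sum_filter,
      show (Icc 1 i).filter (fun m => m ≤ μ) = Icc 1 μ by
        ext m; simp only [Finset.mem_filter, Finset.mem_Icc]; omega]
    clear hiff
    induction μ with
    | zero => simp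
    | succ k ih =>
      rw [Finset.sum_Icc_succ_top (by omega), ← add_assoc, ih (by omega),
        show i - (k + 1) + 1 = i - k by omega]
      ring
  by_cases hi : y ∈ Q.levG i
  · rw [dlvl_of_mem hϖ hi, htel i le_rfl fun m hm => ⟨fun _ => (Finset.mem_Icc.1 hm).2,
      fun hle => Q.levG_antitone hle hi⟩]
    simp
  · set μ := Nat.findGreatest (fun m => y ∈ Q.levG m) i with hμdef
    have hμ : y ∈ Q.levG μ :=
      Nat.findGreatest_spec (P := fun m => y ∈ Q.levG m) (Nat.zero_le i) (by rwa [levG_zero])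
    have hμi : μ < i := lt_of_le_of_ne (Nat.findGreatest_le i) fun e => hi (e ▸ hμ)
    have hnext : y ∉ Q.levG (μ + 1) :=
      Nat.findGreatest_is_greatest (P := fun m => y ∈ Q.levG m) (Nat.lt_succ_self μ) hμi
    rw [dlvl_of_exact hϖ hμi hμ hnext, htel μ hμi.le fun m _ =>
      ⟨fun hm => not_lt.1 fun hlt => hnext (Q.levG_antitone hlt hm),
        fun hm => Q.levG_antitone hm hμ⟩]

/-- The number of classes of level one is not zero. -/
lemma g1_ne_zero [Finite κ] : Q.g1 ≠ 0 := by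
  have : Nonempty (Q.UQ 1) := ⟨QuotientGroup.mk 1⟩
  have : Finite {p : Option κ // ∀ x ∈ p, x ∉ Q.roots} := inferInstance
  have : Finite (Q.UQ 1) := Finite.of_equiv _ Q.uqOneEquiv.symm
  exact Nat.card_pos.ne'

include hϖ in
/-- There are finitely many unit classes of each level. -/
lemma finite_UQ [Finite κ] (i : ℕ) : Finite (Q.UQ i) := by
  refine Nat.finite_of_card_ne_zero ?_
  rcases i with _ | k
  · rw [Q.natCard_UQ_zero]; exact one_ne_zero
  · rw [Q.natCard_UQ_succ hϖ]; exact mul_ne_zero g1_ne_zero (pow_ne_zero _ Nat.card_pos.ne')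

variable (τ : Q.Twist)

/-- The displaced element of a class. -/
noncomputable def Twist.shift (x : GL (Fin 2) F) {i : ℕ} (u : Q.UQ i) : GL (Fin 2) F :=
  x * ((u.out : GL (Fin 2) F)⁻¹ * τ.θ (u.out : GL (Fin 2) F))

/-- A shifted unit is a unit. -/
lemma Twist.shift_mem {x : GL (Fin 2) F} (hx : x ∈ Q.ugrp) {i : ℕ} (u : Q.UQ i) :
    τ.shift x u ∈ Q.ugrp :=
  Q.ugrp.mul_mem hx (Q.ugrp.mul_mem (Q.ugrp.inv_mem u.out.2) (τ.θ_ugrp u.out.2))

/-- The classes fixed at level `m`. -/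
noncomputable def Twist.fixGrp (m : ℕ) : Subgroup Q.ugrp :=
  ((Q.levG m).subgroupOf Q.ugrp).comap (τ.θu * (MonoidHom.id Q.ugrp)⁻¹)

/-- The classes fixed at level `m` are those moved by the twist within the level. -/
lemma Twist.mem_fixGrp {m : ℕ} (u : Q.ugrp) :
    u ∈ τ.fixGrp m ↔ (u : GL (Fin 2) F)⁻¹ * τ.θ u ∈ Q.levG m := by
  rw [Twist.fixGrp, Subgroup.mem_comap, Subgroup.mem_subgroupOf]
  change τ.θ (u : GL (Fin 2) F) * (u : GL (Fin 2) F)⁻¹ ∈ Q.levG m ↔ _
  rw [torus_comm' (τ.θ_ugrp u.2) (Q.ugrp.inv_mem u.2)]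

include hϖ in
/-- The number of classes of level `i` fixed at level `m`. -/
theorem Twist.natCard_fix (h3 : v 3 = 1) {m i : ℕ} (hm : m ≠ 0) (hmi : m ≤ i) :
    ((Q.levG i).subgroupOf Q.ugrp).relIndex (τ.fixGrp m)
      = (Q.levG m).relIndex τ.base * Nat.card κ ^ (i - m) := by
  set Li := (Q.levG i).subgroupOf Q.ugrp
  set Lm := (Q.levG m).subgroupOf Q.ugrp
  set B := τ.base.subgroupOf Q.ugrp
  have hfix : τ.fixGrp m = B ⊔ Lm := by
    refine le_antisymm (fun u hu => ?_) (sup_le (fun u hu => ?_) fun u hu => ?_)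
    · obtain ⟨k, hk, hku⟩ := τ.exists_base h3 u.2 ((τ.mem_fixGrp u).1 hu)
      rw [show u = (⟨k, τ.base_le hk⟩ : Q.ugrp) * ⟨k⁻¹ * u, Q.levG_le_ugrp m hku⟩ from
        Subtype.ext (mul_inv_cancel_left k (u : GL (Fin 2) F)).symm]
      exact mul_mem (Subgroup.mem_sup_left (Subgroup.mem_subgroupOf.2 hk))
        (Subgroup.mem_sup_right (Subgroup.mem_subgroupOf.2 hku))
    · obtain ⟨-, d, hd⟩ := Subgroup.mem_subgroupOf.1 hu
      rw [τ.mem_fixGrp, hd, scal_comm, inv_mul_cancel_left]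
      exact scal_mem_withScalars _ d
    · rw [τ.mem_fixGrp]
      exact (Q.levG m).mul_mem ((Q.levG m).inv_mem (Subgroup.mem_subgroupOf.1 hu))
        (τ.θ_levG (Subgroup.mem_subgroupOf.1 hu))
  have h1 : Li ≤ Lm :=
    fun u hu => Subgroup.mem_subgroupOf.2 (Q.levG_antitone hmi (Subgroup.mem_subgroupOf.1 hu))
  have h2 : Lm ≤ τ.fixGrp m := by rw [hfix]; exact le_sup_right
  rw [← Subgroup.relIndex_mul_relIndex Li Lm _ h1 h2, mul_comm]
  congr 1
  · rw [hfix, Subgroup.relIndex_sup_right]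
    exact Subgroup.relIndex_subgroupOf τ.base_le
  · rw [Subgroup.relIndex_subgroupOf (Q.levG_le_ugrp m)]
    exact relIndex_levG_of_le hϖ hm hmi

include hϖ in
/-- The classes moved into level `m`. -/
theorem Twist.natCard_shift [Finite κ] (h3 : v 3 = 1)
    (hQ : Nat.Coprime 3 (Nat.card κ)) {x : GL (Fin 2) F} (hx : x ∈ Q.ugrp) (h90 : τ.Sol1 x)
    {m i : ℕ} (hm : m ≠ 0) (hmi : m ≤ i) :
    Nat.card {u : Q.UQ i // τ.shift x u ∈ Q.levG m}
      = if τ.norm3 x ∈ Q.levG m then (Q.levG m).relIndex τ.base * Nat.card κ ^ (i - m) else 0 := by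
  split_ifs with hN
  · -- shift by a solution; the classes counted are then those fixed by `θ` modulo level `m`
    obtain ⟨z, hz, hzx⟩ := τ.exists_solution hϖ hQ hx h90 hN
    rw [← τ.natCard_fix hϖ h3 hm hmi]
    set Z : Q.ugrp := ⟨z, hz⟩
    set Li := (Q.levG i).subgroupOf Q.ugrp with hLi
    have key : ∀ u : Q.ugrp, x * ((u : GL (Fin 2) F)⁻¹ * τ.θ u) ∈ Q.levG m ↔
        Z⁻¹ * u ∈ τ.fixGrp m := by
      intro u
      have hid : ∀ X U W : Q.ugrp,
          (X * (U⁻¹ * τ.θu U)) = (X * (W⁻¹ * τ.θu W)) * ((W⁻¹ * U)⁻¹ * τ.θu (W⁻¹ * U)) := by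
        intro X U W
        rw [map_mul, map_inv]
        apply Additive.ofMul.injective
        simp only [ofMul_mul, ofMul_inv]
        abel
      have h := congrArg Subtype.val (hid ⟨x, hx⟩ u Z)
      simp only [Subgroup.coe_mul, Subgroup.coe_inv, Twist.coe_θu] at h
      rw [h, τ.mem_fixGrp]
      exact Subgroup.mul_mem_cancel_left _ hzx
    have hcls : ∀ u : Q.UQ i, ∀ g : Q.ugrp, (g : Q.UQ i) = u →
        (τ.shift x u ∈ Q.levG m ↔ Z⁻¹ * g ∈ τ.fixGrp m) := by
      intro u g hg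
      rw [Twist.shift, key]
      have hk : u.out⁻¹ * g ∈ τ.fixGrp m := by
        have h0 : u.out⁻¹ * g ∈ Li := by
          rw [← QuotientGroup.eq, QuotientGroup.out_eq', hg]
        have h1 : ((u.out⁻¹ * g : Q.ugrp) : GL (Fin 2) F) ∈ Q.levG m :=
          Q.levG_antitone hmi (Subgroup.mem_subgroupOf.1 h0)
        rw [τ.mem_fixGrp]
        exact (Q.levG m).mul_mem ((Q.levG m).inv_mem h1) (τ.θ_levG h1)
      rw [show Z⁻¹ * g = (Z⁻¹ * u.out) * (u.out⁻¹ * g) by group, Subgroup.mul_mem_cancel_right _ hk]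
    rw [Subgroup.relIndex, Subgroup.index]
    refine Nat.card_congr (Equiv.ofBijective
      (fun u => (QuotientGroup.mk (⟨Z⁻¹ * u.1.out, (hcls u.1 _ (QuotientGroup.out_eq' _)).1 u.2⟩ :
        τ.fixGrp m) : τ.fixGrp m ⧸ Li.subgroupOf (τ.fixGrp m))) ⟨fun u w e => ?_, fun c => ?_⟩)
    · simp only [QuotientGroup.eq, Subgroup.mem_subgroupOf, Subgroup.coe_mul, Subgroup.coe_inv] at e
      refine Subtype.ext ?_
      rw [← QuotientGroup.out_eq' u.1, ← QuotientGroup.out_eq' w.1, QuotientGroup.eq]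
      have e' : ((Z : GL (Fin 2) F)⁻¹ * (u.1.out : GL (Fin 2) F))⁻¹ *
        ((Z : GL (Fin 2) F)⁻¹ * w.1.out) ∈ Q.levG i := e
      rw [mul_inv_rev, inv_inv, mul_assoc, mul_inv_cancel_left] at e'
      exact e'
    · induction c using QuotientGroup.induction_on with
      | H f =>
        refine ⟨⟨((Z * f.1 : Q.ugrp) : Q.UQ i),
          (hcls _ _ rfl).2 (by rw [inv_mul_cancel_left]; exact f.2)⟩, ?_⟩
        rw [QuotientGroup.eq, Subgroup.mem_subgroupOf, Subgroup.coe_mul, Subgroup.coe_inv]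
        change (Z⁻¹ * (((Z * f.1 : Q.ugrp) : Q.UQ i)).out)⁻¹ * f.1 ∈ Li
        rw [mul_inv_rev, inv_inv, mul_assoc]
        exact QuotientGroup.eq.1 (QuotientGroup.out_eq' _)
  · -- without a norm in level `m` there are none
    refine Nat.card_eq_zero.2 (Or.inl ⟨fun u => hN ?_⟩)
    have h1 : ∀ {g}, g ∈ Q.levG m → τ.θ g ∈ Q.levG m := fun h => τ.θ_levG h
    rw [← τ.norm3_cobound hx u.1.out.2]
    exact (Q.levG m).mul_mem ((Q.levG m).mul_mem u.2 (h1 u.2)) (h1 (h1 u.2))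

/-- The sum of `h` at the displacements by the twisted shift over the unit classes of level `i`. -/
noncomputable def Twist.slev (h : ℕ → ℂ) (x : GL (Fin 2) F) (i : ℕ) : ℂ :=
  ∑ᶠ u : Q.UQ i, h (Q.dlvl hϖ i (τ.shift x u))

/-- **Local orbital sum on the unit part.** -/
theorem Twist.orbital_unit [Finite κ] (h3 : v 3 = 1)
    (hQ : Nat.Coprime 3 (Nat.card κ)) {x : GL (Fin 2) F} (hx : x ∈ Q.ugrp) (h90 : τ.Sol1 x) {d : ℕ}
    (hd : ∀ m, τ.norm3 x ∈ Q.levG m ↔ m ≤ d) {h : ℕ → ℂ} {D : ℕ} (hD : ∀ m, D < m → h m = 0) :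
    ∑ᶠ i, τ.slev hϖ h x i
      = (1 + ∑ m ∈ Icc 1 d, ((Q.levG m).relIndex τ.base : ℂ)) * ctil (Nat.card κ) h 0
        + ((Q.g1 : ℂ) - ((Nat.card κ : ℂ) - 1)) * gsum (Nat.card κ) h 0 := by
  rw [← finsum_levelTerm (Nat.card κ) Q.g1 (fun m => (Q.levG m).relIndex τ.base) hD d]
  -- compare level by level
  refine finsum_congr fun i => ?_
  have : Finite (Q.UQ i) := finite_UQ hϖ i
  let _ := Fintype.ofFinite (Q.UQ i)
  rw [Twist.slev, finsum_eq_sum_of_fintype,
    Finset.sum_congr rfl fun u _ => apply_dlvl hϖ h (i := i) (τ.shift_mem hx u),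
    Finset.sum_add_distrib, Finset.sum_comm]
  simp only [levelTerm]
  congr 1
  · rw [Finset.sum_const, Finset.card_univ, ← Nat.card_eq_fintype_card, nsmul_eq_mul]
    congr 1
    rcases i with _ | k
    · rw [Q.natCard_UQ_zero, if_pos rfl, Nat.cast_one]
    · rw [Q.natCard_UQ_succ hϖ, if_neg k.succ_ne_zero, Nat.add_sub_cancel]
      push_cast; ring
  -- shifts only reach the levels `m ≤ d`, each with a known count
  · rw [← Finset.sum_filter_of_ne (s := Icc 1 i) (p := fun m => m ≤ d) fun m hm hne => by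
      by_contra hmd
      refine hne (Finset.sum_eq_zero fun u _ => if_neg fun hu => ?_)
      have h0 := τ.natCard_shift hϖ h3 hQ hx h90 (m := m) (i := i)
        (by have := (Finset.mem_Icc.1 hm).1; omega) (Finset.mem_Icc.1 hm).2
      rw [if_neg fun hh => hmd ((hd m).1 hh)] at h0
      rcases Nat.card_eq_zero.1 h0 with hh | hh
      · exact hh.false ⟨u, hu⟩
      · exact (not_finite {u : Q.UQ i // τ.shift x u ∈ Q.levG m}).elim,
      show (Icc 1 i).filter (fun m => m ≤ d) = Icc 1 (min i d) by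
        ext m; simp only [Finset.mem_filter, Finset.mem_Icc, le_min_iff]; omega]
    refine Finset.sum_congr rfl fun m hm => ?_
    rw [Finset.mem_Icc, le_min_iff] at hm
    rw [← Finset.sum_filter, Finset.sum_const, nsmul_eq_mul, ← Fintype.card_subtype,
      ← Nat.card_eq_fintype_card, τ.natCard_shift hϖ h3 hQ hx h90 (by omega) hm.2.1,
      if_pos ((hd m).2 hm.2.2)]
    push_cast
    ring

/-- Displacement sum of a primitive element with unit second coordinate. -/
theorem orbital_nonunit {x : GL (Fin 2) F} {a b : F} (ha : v a ≤ 1) (hb : v b = 1)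
    {m : ℕ} (hn : v (Q.nm a b) = WithZero.exp (-(m : ℤ)))
    (hx : (x : Matrix (Fin 2) (Fin 2) F) = Q.mat a b) {h : ℕ → ℂ} {D : ℕ}
    (hD : ∀ k, D < k → h k = 0) :
    ∑ᶠ i, (Nat.card (Q.UQ i) : ℂ) * h (Q.dlvl hϖ i x)
      = h m + (Q.g1 : ℂ) * gsum (Nat.card κ) h m := by
  have he : ∀ i, Q.dlvl hϖ i x = m + i + i := fun i => Q.lvl_nonunit hϖ i i ha hb hn hx
  rw [finsum_eq_sum_of_support_subset _ (s := Finset.range (D + 2)) fun i hi => by
    simp only [Finset.coe_range, Set.mem_Iio]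
    by_contra hle
    exact hi (by beta_reduce; rw [he, hD _ (by omega), mul_zero]),
    Finset.sum_range_succ', gsum_eq_sum _ hD m (D + 1) (by omega), Finset.mul_sum, add_comm]
  congr 1
  · rw [he, Q.natCard_UQ_zero, Nat.cast_one, one_mul]; rfl
  · refine Finset.sum_congr rfl fun i _ => ?_
    rw [he, Q.natCard_UQ_succ hϖ, show m + (i + 1) + (i + 1) = m + 2 * i + 2 by ring]
    push_cast
    ring

end QA

end Fermat.LT
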