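import Fermat.Agent.LT.Vertex

/-!
# Lattices in a quadratic algebra with a maximal monogenic order

`Q.mat a b` is multiplication by `a + b ω`, `ω² = t ω - n`, in the basis `(1, ω)`.  Every homothety
class of lattices is `w (O + ϖ^i O ω)` with `w` invertible in the algebra.
-/

set_option autoImplicit false
open scoped Matrix

namespace Fermat.LT

variable {F : Type*} [Field F] {v : Valuation F (WithZero (Multiplicative ℤ))}

/-- The level computed from a maximal entry. -/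
lemma lvl_eq_of_max {g : GL (Fin 2) F} {μ : ℤ}
    (hle : ∀ i j, v ((g : Matrix (Fin 2) (Fin 2) F) i j) ≤ WithZero.exp μ)
    (hex : ∃ i j, v ((g : Matrix (Fin 2) (Fin 2) F) i j) = WithZero.exp μ) :
    (lvl v g : ℤ) = ord v (g : Matrix (Fin 2) (Fin 2) F).det + 2 * μ := by
  obtain ⟨i₀, j₀, h₀⟩ := hex
  set G : Matrix (Fin 2) (Fin 2) F := (g : Matrix (Fin 2) (Fin 2) F) with hG
  have hne : G i₀ j₀ ≠ 0 := fun h => WithZero.exp_ne_zero (a := μ) (by rw [← h₀, h, map_zero])
  have hint : ∀ i j, v ((G i₀ j₀)⁻¹ * G i j) ≤ 1 := fun i j => by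
    rw [map_mul, map_inv₀, h₀, inv_mul_le_iff₀ (zero_lt_iff.2 WithZero.exp_ne_zero), mul_one]
    exact hle i j
  have hR : IsRep v g (Matrix.of fun i j =>
      (⟨(G i₀ j₀)⁻¹ * G i j, hint i j⟩ : v.valuationSubring)) :=
    ⟨⟨i₀, j₀, by simp [hne]⟩, (G i₀ j₀)⁻¹, inv_ne_zero hne, by ext i j; simp [toF, ← hG]⟩
  have hd := g.det_ne_zero
  rw [hR.lvl_eq v,
    show toF v (Matrix.of fun i j => (⟨(G i₀ j₀)⁻¹ * G i j, hint i j⟩ : v.valuationSubring))
    = (G i₀ j₀)⁻¹ • G by ext i j; simp [toF], Matrix.det_smul, Fintype.card_fin,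
    ord_mul v (pow_ne_zero _ (inv_ne_zero hne)) hd, ord_pow, ord_inv,
    show ord v (G i₀ j₀) = -μ by rw [ord, h₀, WithZero.log_exp]]
  push_cast
  ring

/-- A quadratic algebra with a maximal monogenic order at `v`. -/
structure QA (v : Valuation F (WithZero (Multiplicative ℤ))) where
  /-- The trace of the generator `ω`. -/
  t : F
  /-- The norm of the generator `ω`. -/
  n : F
  /-- The trace is integral. -/
  ht : v t ≤ 1
  /-- The norm is integral. -/
  hn : v n ≤ 1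
  /-- For `2 r ≡ t` modulo the prime, the prime divides `r² - t r + n` at most once, so the order is
  maximal. -/
  maximal : ∀ r, v r ≤ 1 → v (t - 2 * r) < 1 → WithZero.exp (-1 : ℤ) ≤ v (r * r - t * r + n)

namespace QA

variable (Q : QA v)

/-- The norm form. -/
def nm (a b : F) : F := a * a + Q.t * a * b + Q.n * b * b

/-- Multiplication by `a + b ω`. -/
def mat (a b : F) : Matrix (Fin 2) (Fin 2) F := !![a, -(Q.n * b); b, a + Q.t * b]

/-- The determinant is the norm. -/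
lemma det_mat (a b : F) : (Q.mat a b).det = Q.nm a b := by
  simp [mat, nm, Matrix.det_fin_two_of]; ring

/-- An invertible element of the algebra. -/
noncomputable def el (a b : F) (h : Q.nm a b ≠ 0) : GL (Fin 2) F :=
  Matrix.GeneralLinearGroup.mkOfDetNeZero (Q.mat a b) (by rwa [det_mat])

/-- The matrix of an element. -/
@[simp] lemma coe_el (a b : F) (h : Q.nm a b ≠ 0) :
    (Q.el a b h : Matrix (Fin 2) (Fin 2) F) = Q.mat a b := rfl

/-- The product in coordinates. -/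
lemma mat_mul (a b c d : F) :
    Q.mat a b * Q.mat c d = Q.mat (a * c - Q.n * (b * d)) (a * d + b * c + Q.t * (b * d)) := by
  ext i j
  fin_cases i <;> fin_cases j <;> simp [mat, Matrix.mul_apply] <;> ring

/-- The norm is multiplicative. -/
lemma nm_mul (a b c d : F) :
    Q.nm (a * c - Q.n * (b * d)) (a * d + b * c + Q.t * (b * d)) = Q.nm a b * Q.nm c d := by
  simp [nm]; ring

/-- The identity in coordinates. -/
lemma mat_one : Q.mat 1 0 = 1 := by
  ext i j
  fin_cases i <;> fin_cases j <;> simp [mat]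

/-- The multiplicative group of the algebra inside `GL₂`. -/
noncomputable def torus : Subgroup (GL (Fin 2) F) where
  carrier := {g | ∃ a b, (g : Matrix (Fin 2) (Fin 2) F) = Q.mat a b}
  one_mem' := ⟨1, 0, by rw [mat_one, Units.val_one]⟩
  mul_mem' := by
    rintro g h ⟨a, b, hg⟩ ⟨c, d, hh⟩
    exact ⟨_, _, by rw [Units.val_mul, hg, hh, mat_mul]⟩
  inv_mem' := by
    rintro g ⟨a, b, hg⟩
    have hd : Q.nm a b ≠ 0 := by rw [← det_mat, ← hg]; exact g.det_ne_zero
    refine ⟨(a + Q.t * b) / Q.nm a b, -b / Q.nm a b, ?_⟩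
    rw [← Units.mul_right_inj (a := g), ← Units.val_mul, mul_inv_cancel, hg, mat_mul, Units.val_one,
      ← Q.mat_one]
    congr 1 <;> field_simp <;> simp [nm]; ring

/-- An element lies in the torus. -/
lemma el_mem_torus (a b : F) (h : Q.nm a b ≠ 0) : Q.el a b h ∈ Q.torus := ⟨a, b, rfl⟩

/-- The multiplicative group of the algebra is commutative. -/
lemma torus_comm {g h : GL (Fin 2) F} (hg : g ∈ Q.torus) (hh : h ∈ Q.torus) : g * h = h * g := by
  obtain ⟨a, b, hg⟩ := hg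
  obtain ⟨c, d, hh⟩ := hh
  refine Units.ext ?_
  rw [Units.val_mul, Units.val_mul, hg, hh, mat_mul, mat_mul]
  congr 1 <;> ring

/-- Scalars lie in the torus. -/
lemma scal_mem_torus (c : Fˣ) : scal c ∈ Q.torus := by
  refine ⟨c, 0, ?_⟩
  rw [scal_coe]
  ext i j
  fin_cases i <;> fin_cases j <;> simp [mat]

/-- The norm of an integral element is integral. -/
lemma v_nm_le {a b : F} (ha : v a ≤ 1) (hb : v b ≤ 1) : v (Q.nm a b) ≤ 1 := by
  refine (v.map_add _ _).trans (max_le ((v.map_add _ _).trans (max_le ?_ ?_)) ?_) <;>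
    simp only [map_mul]
  · exact mul_le_one' ha ha
  · exact mul_le_one' (mul_le_one' Q.ht ha) hb
  · exact mul_le_one' (mul_le_one' Q.hn hb) hb

/-- An integral element with unit norm and small `ω`-coordinate has unit first coordinate. -/
lemma v_a_eq_one {a b : F} (ha : v a ≤ 1) (hb : v b < 1) (h : v (Q.nm a b) = 1) : v a = 1 := by
  refine le_antisymm ha (not_lt.1 fun hlt => ?_)
  refine h.not_lt ?_
  refine lt_of_le_of_lt (v.map_add _ _)
    (max_lt (lt_of_le_of_lt (v.map_add _ _) (max_lt ?_ ?_)) ?_) <;> simp only [map_mul]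
  · exact lt_of_le_of_lt (mul_le_of_le_one_right' ha) hlt
  · exact lt_of_le_of_lt (mul_le_of_le_one_left' (mul_le_one' Q.ht ha)) hb
  · exact lt_of_le_of_lt (mul_le_of_le_one_left' (mul_le_one' Q.hn hb.le)) hb

/-- The level of an integral matrix is at most the order of its determinant. -/
lemma lvl_le_ord_det {g : GL (Fin 2) F} (hint : ∀ k l, v ((g : Matrix (Fin 2) (Fin 2) F) k l) ≤ 1) :
    (lvl v g : ℤ) ≤ ord v (g : Matrix (Fin 2) (Fin 2) F).det := by
  obtain ⟨⟨k, p⟩, -, hmax⟩ := Finset.exists_max_image (Finset.univ : Finset (Fin 2 × Fin 2))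
    (fun q => v ((g : Matrix (Fin 2) (Fin 2) F) q.1 q.2)) Finset.univ_nonempty
  have hne : v ((g : Matrix (Fin 2) (Fin 2) F) k p) ≠ 0 := fun h => by
    refine g.det_ne_zero ?_
    have hz : ∀ q r, (g : Matrix (Fin 2) (Fin 2) F) q r = 0 := fun q r => by
      have := hmax (q, r) (Finset.mem_univ _)
      rw [h, le_zero_iff, map_eq_zero] at this
      exact this
    simp [Matrix.det_fin_two, hz]
  obtain ⟨μ, hμ⟩ : ∃ μ, v ((g : Matrix (Fin 2) (Fin 2) F) k p) = WithZero.exp μ :=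
    ⟨_, (WithZero.exp_log hne).symm⟩
  have h5 := lvl_eq_of_max (μ := μ) (fun q r => hμ ▸ hmax (q, r) (Finset.mem_univ _)) ⟨k, p, hμ⟩
  have := hint k p
  rw [hμ, ← WithZero.exp_zero, WithZero.exp_le_exp] at this
  omega

/-- A primitive pair of norm of positive order has unit second coordinate. -/
lemma v_eq_one_of_v_nm_lt {a b : F} (ha : v a ≤ 1) (hb : v b ≤ 1) (h : v a = 1 ∨ v b = 1)
    (hnm : v (Q.nm a b) < 1) : v b = 1 := by
  refine le_antisymm hb (not_lt.1 fun hlt => ?_)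
  have ha1 : v a = 1 := h.resolve_right hlt.ne
  have h2 : v (a * a) < 1 := by
    rw [show a * a = Q.nm a b - (Q.t * a + Q.n * b) * b by simp [nm]; ring]
    refine lt_of_le_of_lt (v.map_sub _ _) (max_lt hnm ?_)
    rw [map_mul]
    refine lt_of_le_of_lt (mul_le_of_le_one_left' ((v.map_add _ _).trans (max_le ?_ ?_))) hlt <;>
      rw [map_mul]
    · exact mul_le_one' Q.ht ha
    · exact mul_le_one' Q.hn hb
  rw [map_mul, ha1, mul_one] at h2
  exact lt_irrefl _ h2

/-- The entries of an element of the order are integral. -/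
lemma v_mat_le {a b : F} (ha : v a ≤ 1) (hb : v b ≤ 1) (k l : Fin 2) : v (Q.mat a b k l) ≤ 1 := by
  fin_cases k <;> fin_cases l <;> simp [mat, Valuation.map_neg]
  · exact ha
  · exact mul_le_one' Q.hn hb
  · exact hb
  · exact (v.map_add _ _).trans (max_le ha (by rw [map_mul]; exact mul_le_one' Q.ht hb))

/-- The coordinates of a product of integral elements are integral. -/
lemma v_coord_mul {a b c d : F} (ha : v a ≤ 1) (hb : v b ≤ 1) (hc : v c ≤ 1) (hd : v d ≤ 1) :
    v (a * c - Q.n * (b * d)) ≤ 1 ∧ v (a * d + b * c + Q.t * (b * d)) ≤ 1 := by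
  constructor
  · refine (v.map_sub _ _).trans (max_le ?_ ?_) <;> simp only [map_mul]
    · exact mul_le_one' ha hc
    · exact mul_le_one' Q.hn (mul_le_one' hb hd)
  · refine (v.map_add _ _).trans (max_le ((v.map_add _ _).trans (max_le ?_ ?_)) ?_) <;>
      simp only [map_mul]
    · exact mul_le_one' ha hd
    · exact mul_le_one' hb hc
    · exact mul_le_one' Q.ht (mul_le_one' hb hd)

/-- The units of the order. -/
noncomputable def unitGrp : Subgroup (GL (Fin 2) F) where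
  carrier := {g | ∃ a b, v a ≤ 1 ∧ v b ≤ 1 ∧ v (Q.nm a b) = 1 ∧
    (g : Matrix (Fin 2) (Fin 2) F) = Q.mat a b}
  one_mem' := ⟨1, 0, by simp, by simp, by simp [nm], by rw [mat_one, Units.val_one]⟩
  mul_mem' := by
    rintro g h ⟨a, b, ha, hb, hn, hg⟩ ⟨c, d, hc, hd, hn', hh⟩
    have hi := Q.v_coord_mul ha hb hc hd
    refine ⟨_, _, hi.1, hi.2, ?_, by rw [Units.val_mul, hg, hh, mat_mul]⟩
    rw [nm_mul, map_mul, hn, hn', mul_one]
  inv_mem' := by
    rintro g ⟨a, b, ha, hb, hn, hg⟩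
    have hd : Q.nm a b ≠ 0 := fun h => by simp [h] at hn
    refine ⟨(a + Q.t * b) / Q.nm a b, -b / Q.nm a b, ?_, ?_, ?_, ?_⟩
    · rw [map_div₀, hn, div_one]
      exact (v.map_add _ _).trans (max_le ha (by rw [map_mul]; exact mul_le_one' Q.ht hb))
    · rw [map_div₀, hn, div_one, Valuation.map_neg]; exact hb
    · have key : ∀ N : F, Q.nm a b = N → N ≠ 0 →
          Q.nm ((a + Q.t * b) / N) (-b / N) = N⁻¹ := by
        intro N hN hN0
        have : Q.nm ((a + Q.t * b) / N) (-b / N) = Q.nm a b / (N * N) := by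
          simp only [nm]; field_simp; ring
        rw [this, hN]; field_simp
      rw [key _ rfl hd, map_inv₀, hn, inv_one]
    · rw [← Units.mul_right_inj (a := g), ← Units.val_mul, mul_inv_cancel, hg, mat_mul,
        Units.val_one, ← Q.mat_one]
      congr 1 <;> field_simp <;> simp [nm]; ring

/-- Units lie in the torus. -/
lemma unitGrp_le_torus : Q.unitGrp ≤ Q.torus := fun _ ⟨a, b, _, _, _, h⟩ => ⟨a, b, h⟩

/-- The units of the order lie in `U0`. -/
lemma unitGrp_le_U0 : Q.unitGrp ≤ U0 v := by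
  rintro g ⟨a, b, ha, hb, hn, hg⟩
  rw [← lvl_eq_zero_iff]
  have hint : ∀ i j, v ((g : Matrix (Fin 2) (Fin 2) F) i j) ≤ WithZero.exp (0 : ℤ) := by
    rw [WithZero.exp_zero, hg]
    exact Q.v_mat_le ha hb
  have hex : ∃ i j, v ((g : Matrix (Fin 2) (Fin 2) F) i j) = WithZero.exp (0 : ℤ) := by
    rw [WithZero.exp_zero, hg]
    rcases eq_or_lt_of_le hb with h | h
    · exact ⟨1, 0, by simpa [mat] using h⟩
    · exact ⟨0, 0, by simpa [mat] using Q.v_a_eq_one ha h hn⟩
  have h1 := lvl_eq_of_max hint hex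
  rw [hg, det_mat, ord, hn] at h1
  simp at h1
  exact_mod_cast h1

/-- Units of the order preserve integrality. -/
lemma v_unit_mul_le {u g : GL (Fin 2) F} (hu : u ∈ Q.unitGrp)
    (hg : ∀ k l, v ((g : Matrix (Fin 2) (Fin 2) F) k l) ≤ 1) (k l : Fin 2) :
    v (((u * g : GL (Fin 2) F) : Matrix (Fin 2) (Fin 2) F) k l) ≤ 1 := by
  obtain ⟨a, b, ha, hb, -, he⟩ := hu
  rw [Units.val_mul, he, Matrix.mul_apply]
  refine v.map_sum_le fun p _ => ?_
  rw [map_mul]
  exact mul_le_one' (Q.v_mat_le ha hb k p) (hg p l)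

/-- A row combination killing one primitive column is small on both, the determinant being small. -/
lemma v_row_lt {M : Matrix (Fin 2) (Fin 2) v.valuationSubring} {j : Fin 2} {α : F}
    (hb : v (M 1 j : F) = 1) (hj0 : v (-(M 0 j : F) + α * (M 1 j : F)) < 1)
    (hdet : v (M.det : F) < 1) (l : Fin 2) : v (-(M 0 l : F) + α * (M 1 l : F)) < 1 := by
  have hkey : v ((M 1 j : F) * (-(M 0 l : F) + α * (M 1 l : F))) < 1 := by
    rw [show (M 1 j : F) * (-(M 0 l : F) + α * (M 1 l : F))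
      = ((M 0 j : F) * (M 1 l : F) - (M 1 j : F) * (M 0 l : F))
        + (-(M 0 j : F) + α * (M 1 j : F)) * (M 1 l : F) by ring]
    refine lt_of_le_of_lt (v.map_add _ _) (max_lt ?_ ?_)
    · rw [Matrix.det_fin_two] at hdet
      push_cast at hdet
      fin_cases j <;> fin_cases l
      · simp [mul_comm]
      · exact lt_of_eq_of_lt (congrArg v (by simp; ring)) hdet
      · rw [← Valuation.map_neg]
        exact lt_of_eq_of_lt (congrArg v (by simp; ring)) hdet
      · simp [mul_comm]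
    · rw [map_mul]
      exact lt_of_le_of_lt (mul_le_of_le_one_right' (M 1 l).2) hj0
  rwa [map_mul, hb, one_mul] at hkey

/-- The adjugate of `α + ω` kills such a matrix modulo the uniformiser. -/
lemma v_adj_mul_lt {α : F} (hα : v α ≤ 1) (hπ : v (Q.nm α 1) < 1)
    {M : Matrix (Fin 2) (Fin 2) v.valuationSubring}
    (hrow : ∀ l, v (-(M 0 l : F) + α * (M 1 l : F)) < 1) (k l : Fin 2) :
    v ((!![α + Q.t, Q.n; -1, α] * toF v M) k l) < 1 := by
  fin_cases k <;> simp [Matrix.mul_apply, toF]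
  · rw [show (α + Q.t) * (M 0 l : F) + Q.n * (M 1 l : F)
      = Q.nm α 1 * (M 1 l : F) + (α + Q.t) * -(-(M 0 l : F) + α * (M 1 l : F)) by simp [nm]; ring]
    refine lt_of_le_of_lt (v.map_add _ _) (max_lt ?_ ?_) <;> rw [map_mul]
    · exact lt_of_le_of_lt (mul_le_of_le_one_right' (M 1 l).2) hπ
    · rw [Valuation.map_neg]
      exact lt_of_le_of_lt
        (mul_le_of_le_one_left' ((v.map_add _ _).trans (max_le hα Q.ht))) (hrow l)
  · exact hrow l

/-- The inverse of `α + ω`. -/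
lemma coe_el_inv (α : F) (hne : Q.nm α 1 ≠ 0) :
    (((Q.el α 1 hne)⁻¹ : GL (Fin 2) F) : Matrix (Fin 2) (Fin 2) F)
      = (Q.nm α 1)⁻¹ • !![α + Q.t, Q.n; -1, α] := by
  rw [← Units.mul_right_inj (a := Q.el α 1 hne), ← Units.val_mul, mul_inv_cancel, coe_el]
  ext k l
  fin_cases k <;> fin_cases l <;> simp [mat, Matrix.mul_apply] <;> field_simp <;> simp [nm] <;> ring

variable {ϖ : F} (hϖ : v ϖ = WithZero.exp (-1 : ℤ))
include hϖ

/-- A uniformiser is not zero. -/
lemma ne_zero_of_unif : ϖ ≠ 0 := fun h => WithZero.exp_ne_zero (by rw [← hϖ, h, map_zero])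

/-- Valuation of a power of the uniformiser. -/
lemma v_pow_unif (i : ℕ) : v (ϖ ^ i) = WithZero.exp (-(i : ℤ)) := by
  rw [map_pow, hϖ, ← WithZero.exp_nsmul]; simp

/-- `diag(1, ϖ^i)`. -/
noncomputable def dg (i : ℕ) : GL (Fin 2) F :=
  Matrix.GeneralLinearGroup.mkOfDetNeZero !![1, 0; 0, ϖ ^ i]
    (by simp [Matrix.det_fin_two, ne_zero_of_unif (v := v) hϖ])

/-- The inverse of `dg`. -/
lemma coe_dg_inv (i : ℕ) : ((dg hϖ i)⁻¹ : GL (Fin 2) F).val = !![1, 0; 0, (ϖ ^ i)⁻¹] := by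
  have h0 := pow_ne_zero i (ne_zero_of_unif (v := v) hϖ)
  rw [← Units.mul_right_inj (a := dg hϖ i), ← Units.val_mul, mul_inv_cancel]
  ext k l
  fin_cases k <;> fin_cases l <;> simp [dg, Matrix.mul_apply, h0]

/-- The matrix of an algebra element between the vertices of two levels. -/
lemma coe_dg_inv_mul_mat (i j : ℕ) {g : GL (Fin 2) F} {a b : F}
    (hg : (g : Matrix (Fin 2) (Fin 2) F) = Q.mat a b) :
    (((dg hϖ i)⁻¹ * g * dg hϖ j : GL (Fin 2) F) : Matrix (Fin 2) (Fin 2) F)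
      = !![a, -(Q.n * b) * ϖ ^ j; b / ϖ ^ i, (a + Q.t * b) * ϖ ^ j / ϖ ^ i] := by
  have h0 := pow_ne_zero i (ne_zero_of_unif (v := v) hϖ)
  rw [Units.val_mul, Units.val_mul, hg]
  have hinv := coe_dg_inv (v := v) hϖ i
  rw [hinv]
  ext k l
  fin_cases k <;> fin_cases l <;> simp [dg, mat, Matrix.mul_apply] <;> field_simp

/-- The order of the determinant between two vertices. -/
lemma det_dg_inv_mul (i j : ℕ) {g : GL (Fin 2) F} {a b : F}
    (hg : (g : Matrix (Fin 2) (Fin 2) F) = Q.mat a b) :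
    ord v (((dg hϖ i)⁻¹ * g * dg hϖ j : GL (Fin 2) F) : Matrix (Fin 2) (Fin 2) F).det
      = ord v (Q.nm a b) + (j : ℤ) - (i : ℤ) := by
  have h0 := ne_zero_of_unif (v := v) hϖ
  have hd : Q.nm a b ≠ 0 := by rw [← det_mat, ← hg]; exact g.det_ne_zero
  have ho : ∀ k : ℕ, ord v (ϖ ^ k) = k := fun k => by
    rw [ord, v_pow_unif hϖ, WithZero.log_exp, neg_neg]
  rw [Q.coe_dg_inv_mul_mat hϖ i j hg, Matrix.det_fin_two_of,
    show a * ((a + Q.t * b) * ϖ ^ j / ϖ ^ i) - -(Q.n * b) * ϖ ^ j * (b / ϖ ^ i)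
      = Q.nm a b * ϖ ^ j * (ϖ ^ i)⁻¹ by simp [nm]; field_simp,
    ord_mul v (mul_ne_zero hd (pow_ne_zero _ h0)) (inv_ne_zero (pow_ne_zero _ h0)),
    ord_mul v hd (pow_ne_zero _ h0), ord_inv, ho, ho]
  ring

/-- Displacement of a unit at the level `i`. -/
theorem lvl_unit (i m : ℕ) (hm : m ≤ i) {g : GL (Fin 2) F} {a b : F} (ha : v a ≤ 1)
    (hn : v (Q.nm a b) = 1) (hb : v b ≤ WithZero.exp (-(m : ℤ)))
    (heq : m = i ∨ v b = WithZero.exp (-(m : ℤ)))
    (hg : (g : Matrix (Fin 2) (Fin 2) F) = Q.mat a b) :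
    lvl v ((dg hϖ i)⁻¹ * g * dg hϖ i) = 2 * (i - m) := by
  have hb1 : v b ≤ 1 := hb.trans (by rw [← WithZero.exp_zero, WithZero.exp_le_exp]; omega)
  have hμ : (1 : WithZero (Multiplicative ℤ)) ≤ WithZero.exp ((i : ℤ) - m) := by
    rw [← WithZero.exp_zero, WithZero.exp_le_exp]; omega
  have hϖi : ϖ ^ i ≠ 0 := pow_ne_zero _ (ne_zero_of_unif (v := v) hϖ)
  have hbi : v (b / ϖ ^ i) ≤ WithZero.exp ((i : ℤ) - m) := by
    rw [map_div₀, v_pow_unif hϖ, div_le_iff₀ (zero_lt_iff.2 WithZero.exp_ne_zero),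
      ← WithZero.exp_add]
    exact hb.trans (le_of_eq (by congr 1; ring))
  -- The largest entry has order `-(i - m)` and the determinant is a unit.
  have h1 := lvl_eq_of_max (v := v) (g := (dg hϖ i)⁻¹ * g * dg hϖ i) (μ := (i : ℤ) - m) ?_ ?_
  · rw [Q.det_dg_inv_mul hϖ i i hg, ord, hn] at h1
    simp at h1
    omega
  · rw [Q.coe_dg_inv_mul_mat hϖ i i hg]
    have hpi : v (ϖ ^ i) ≤ 1 := by
      rw [v_pow_unif hϖ, ← WithZero.exp_zero, WithZero.exp_le_exp]; omega
    intro k l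
    fin_cases k <;> fin_cases l <;>
      simp only [Matrix.of_apply, Matrix.cons_val', Matrix.cons_val_zero, Matrix.cons_val_one,
        Matrix.cons_val_fin_one, Fin.zero_eta, Fin.mk_one, Fin.isValue]
    · exact ha.trans hμ
    · rw [map_mul, Valuation.map_neg, map_mul]
      exact (mul_le_one' (mul_le_one' Q.hn hb1) hpi).trans hμ
    · exact hbi
    · rw [mul_div_assoc, div_self hϖi, mul_one]
      exact ((v.map_add _ _).trans (max_le ha (by rw [map_mul]; exact mul_le_one' Q.ht hb1))).trans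
        hμ
  · rw [Q.coe_dg_inv_mul_mat hϖ i i hg]
    -- It is attained by the lower left entry, or for `m = i` by a unit entry.
    rcases heq with rfl | h
    · rw [sub_self, WithZero.exp_zero]
      rcases Nat.eq_zero_or_pos m with rfl | hpos
      · rcases eq_or_lt_of_le hb1 with h | h
        · exact ⟨1, 0, by simpa using h⟩
        · exact ⟨0, 0, by simpa using Q.v_a_eq_one ha h hn⟩
      · refine ⟨0, 0, ?_⟩
        simpa using Q.v_a_eq_one ha (lt_of_le_of_lt hb (by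
          rw [← WithZero.exp_zero, WithZero.exp_lt_exp]; omega)) hn
    · refine ⟨1, 0, ?_⟩
      simp only [Matrix.cons_val', Matrix.cons_val_zero, Matrix.cons_val_one,
        Matrix.cons_val_fin_one, Matrix.of_apply]
      rw [map_div₀, h, v_pow_unif hϖ, ← WithZero.exp_sub]
      congr 1; ring

/-- Different levels are different. -/
theorem le_lvl_of_unit (i j : ℕ) {g : GL (Fin 2) F} (hg : g ∈ Q.unitGrp) :
    (j : ℤ) - i ≤ lvl v ((dg hϖ i)⁻¹ * g * dg hϖ j) := by
  obtain ⟨a, b, ha, hb, hn, hg⟩ := hg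
  set G := ((dg hϖ i)⁻¹ * g * dg hϖ j : GL (Fin 2) F) with hG
  obtain ⟨⟨k, l⟩, -, hmax⟩ := Finset.exists_max_image (Finset.univ : Finset (Fin 2 × Fin 2))
    (fun p => v ((G : Matrix (Fin 2) (Fin 2) F) p.1 p.2)) Finset.univ_nonempty
  have hGe := Q.coe_dg_inv_mul_mat hϖ i j hg
  rw [← hG] at hGe
  have hone : 1 ≤ v ((G : Matrix (Fin 2) (Fin 2) F) k l) := by
    rcases eq_or_lt_of_le hb with h | h
    · refine le_trans ?_ (hmax (1, 0) (Finset.mem_univ _))
      rw [hGe]
      simp only [Matrix.cons_val', Matrix.cons_val_zero, Matrix.cons_val_one,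
        Matrix.cons_val_fin_one, Matrix.of_apply]
      rw [map_div₀, h, v_pow_unif hϖ, one_div, ← WithZero.exp_neg, ← WithZero.exp_zero,
        WithZero.exp_le_exp]
      omega
    · refine le_trans ?_ (hmax (0, 0) (Finset.mem_univ _))
      rw [hGe]
      simpa using (Q.v_a_eq_one ha h hn).ge
  have hne : v ((G : Matrix (Fin 2) (Fin 2) F) k l) ≠ 0 := fun h => by simp [h] at hone
  obtain ⟨μ, hμ⟩ : ∃ μ, v ((G : Matrix (Fin 2) (Fin 2) F) k l) = WithZero.exp μ :=
    ⟨_, (WithZero.exp_log hne).symm⟩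
  rw [hμ, ← WithZero.exp_zero, WithZero.exp_le_exp] at hone
  rw [lvl_eq_of_max (μ := μ) (fun p q => hμ ▸ hmax (p, q) (Finset.mem_univ _)) ⟨k, l, hμ⟩, hG,
    Q.det_dg_inv_mul hϖ i j hg, ord, hn]
  simp
  omega

/-- Displacement of a primitive non-unit. -/
theorem lvl_nonunit (i j : ℕ) {g : GL (Fin 2) F} {a b : F} (ha : v a ≤ 1) (hb : v b = 1) {m : ℕ}
    (hm : v (Q.nm a b) = WithZero.exp (-(m : ℤ)))
    (hg : (g : Matrix (Fin 2) (Fin 2) F) = Q.mat a b) :
    lvl v ((dg hϖ i)⁻¹ * g * dg hϖ j) = m + i + j := by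
  have hj : v (ϖ ^ j) ≤ 1 := by rw [v_pow_unif hϖ, ← WithZero.exp_zero, WithZero.exp_le_exp]; omega
  have hi : (1 : WithZero (Multiplicative ℤ)) ≤ WithZero.exp (i : ℤ) := by
    rw [← WithZero.exp_zero, WithZero.exp_le_exp]; omega
  have h1 := lvl_eq_of_max (v := v) (g := (dg hϖ i)⁻¹ * g * dg hϖ j) (μ := (i : ℤ)) ?_ ?_
  · rw [Q.det_dg_inv_mul hϖ i j hg, ord, hm, WithZero.log_exp] at h1
    omega
  · rw [Q.coe_dg_inv_mul_mat hϖ i j hg]
    intro k l
    fin_cases k <;> fin_cases l <;> simp [Valuation.map_neg]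
    · exact ha.trans hi
    · exact (mul_le_one' (mul_le_one' Q.hn hb.le) (by simpa using hj)).trans hi
    · rw [hb, ← map_pow, v_pow_unif hϖ, one_div, ← WithZero.exp_neg, neg_neg]
    · rw [← map_pow, ← map_pow, v_pow_unif hϖ i, div_le_iff₀ (zero_lt_iff.2 WithZero.exp_ne_zero),
        ← WithZero.exp_add, add_neg_cancel, WithZero.exp_zero]
      exact mul_le_one'
        ((v.map_add _ _).trans (max_le ha (by rw [map_mul, hb, mul_one]; exact Q.ht))) hj
  · refine ⟨1, 0, ?_⟩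
    rw [Q.coe_dg_inv_mul_mat hϖ i j hg]
    simp [hb, hϖ, ← WithZero.exp_nsmul, ← WithZero.exp_neg]

omit hϖ in
/-- Every element of the torus has a scalar multiple with integral coordinates whose norm or second
coordinate is a unit. -/
lemma exists_primitive {g : GL (Fin 2) F} (hg : g ∈ Q.torus) :
    ∃ (c : Fˣ) (a b : F), (scal c * g : GL (Fin 2) F).val = Q.mat a b ∧ v a ≤ 1 ∧ v b ≤ 1 ∧
      (v (Q.nm a b) = 1 ∨ v b = 1) := by
  obtain ⟨a, b, hg⟩ := hg
  have hd : Q.nm a b ≠ 0 := by rw [← det_mat, ← hg]; exact g.det_ne_zero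
  obtain ⟨c, hc0, hca, hcb, hone⟩ : ∃ c : F, c ≠ 0 ∧ v (c * a) ≤ 1 ∧ v (c * b) ≤ 1 ∧
      (v (c * a) = 1 ∨ v (c * b) = 1) := by
    rcases le_total (v a) (v b) with h | h
    · have hb0 : b ≠ 0 := fun hb => by
        subst hb; rw [map_zero, le_zero_iff, map_eq_zero] at h; subst h; simp [nm] at hd
      refine ⟨b⁻¹, inv_ne_zero hb0, ?_, ?_, Or.inr (by simp [hb0])⟩
      · rw [map_mul, map_inv₀, inv_mul_le_iff₀ (zero_lt_iff.2 (v.ne_zero_iff.2 hb0)),
          mul_one]; exact h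
      · simp [hb0]
    · have ha0 : a ≠ 0 := fun ha => by
        subst ha; rw [map_zero, le_zero_iff, map_eq_zero] at h; subst h; simp [nm] at hd
      refine ⟨a⁻¹, inv_ne_zero ha0, ?_, ?_, Or.inl (by simp [ha0])⟩
      · simp [ha0]
      · rw [map_mul, map_inv₀, inv_mul_le_iff₀ (zero_lt_iff.2 (v.ne_zero_iff.2 ha0)),
          mul_one]; exact h
  refine ⟨Units.mk0 c hc0, c * a, c * b, ?_, hca, hcb, ?_⟩
  · rw [Units.val_mul, scal_coe, hg, Matrix.scalar_apply, ← Matrix.smul_eq_diagonal_mul]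
    ext i j
    fin_cases i <;> fin_cases j <;> simp [mat] <;> ring
  · rcases eq_or_lt_of_le hcb with h | h
    · exact Or.inr h
    · exact Or.inl (le_antisymm (Q.v_nm_le hca hcb) (not_lt.1 fun hlt =>
        h.ne (Q.v_eq_one_of_v_nm_lt hca hcb hone hlt)))

/-- An integral matrix with a standard column is triangular up to a diagonal element. -/
lemma exists_dg_inv_mul_mem_U0 {g : GL (Fin 2) F} {j : Fin 2}
    (hint : ∀ k l, v ((g : Matrix (Fin 2) (Fin 2) F) k l) ≤ 1)
    (h0 : (g : Matrix (Fin 2) (Fin 2) F) 0 j = 1) (h1 : (g : Matrix (Fin 2) (Fin 2) F) 1 j = 0) :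
    ∃ i : ℕ, (dg hϖ i)⁻¹ * g ∈ U0 v := by
  obtain ⟨j', hjj⟩ : ∃ j', j' ≠ j := ⟨if j = 0 then 1 else 0, by fin_cases j <;> simp⟩
  have hdet : (g : Matrix (Fin 2) (Fin 2) F) 1 j' ≠ 0 := by
    intro h
    refine g.det_ne_zero ?_
    rw [Matrix.det_fin_two]
    fin_cases j <;> fin_cases j' <;> simp_all
  -- the exponent of the entry below
  obtain ⟨i, hi⟩ : ∃ i : ℕ, v ((g : Matrix (Fin 2) (Fin 2) F) 1 j') = WithZero.exp (-(i : ℤ)) :=
    ⟨(ord v ((g : Matrix (Fin 2) (Fin 2) F) 1 j')).toNat, by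
      rw [Int.toNat_of_nonneg ((ord_nonneg_iff v hdet).2 (hint _ _)), v_eq_exp v hdet]⟩
  refine ⟨i, ?_⟩
  rw [← lvl_eq_zero_iff]
  have hϖi := pow_ne_zero i (ne_zero_of_unif (v := v) hϖ)
  have hinv := coe_dg_inv (v := v) hϖ i
  -- dividing the second row by `ϖ ^ i` gives a unimodular matrix
  have hG : (((dg hϖ i)⁻¹ * g : GL (Fin 2) F) : Matrix (Fin 2) (Fin 2) F)
      = !![(g : Matrix (Fin 2) (Fin 2) F) 0 0, (g : Matrix (Fin 2) (Fin 2) F) 0 1;
          (g : Matrix (Fin 2) (Fin 2) F) 1 0 / ϖ ^ i,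
              (g : Matrix (Fin 2) (Fin 2) F) 1 1 / ϖ ^ i] := by
    rw [Units.val_mul, hinv]
    ext k l
    fin_cases k <;> fin_cases l <;> simp [Matrix.mul_apply, div_eq_inv_mul]
  have hu1 : v ((g : Matrix (Fin 2) (Fin 2) F) 1 j' / ϖ ^ i) = 1 := by
    rw [map_div₀, hi, v_pow_unif hϖ, div_self WithZero.exp_ne_zero]
  have h2 := lvl_eq_of_max (v := v) (g := (dg hϖ i)⁻¹ * g) (μ := 0) ?_ ?_
  · have hd : v (((dg hϖ i)⁻¹ * g : GL (Fin 2) F) : Matrix (Fin 2) (Fin 2) F).det = 1 := by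
      rw [hG, Matrix.det_fin_two_of]
      fin_cases j <;> fin_cases j' <;> simp_all [Valuation.map_neg]
    rw [ord, hd] at h2
    simp at h2
    exact_mod_cast h2
  · rw [hG, WithZero.exp_zero]
    intro k l
    fin_cases k <;> fin_cases l <;> simp
    · exact hint _ _
    · exact hint _ _
    · fin_cases j <;> fin_cases j' <;> simp_all
    · fin_cases j <;> fin_cases j' <;> simp_all
  · rw [hG, WithZero.exp_zero]
    refine ⟨0, j, ?_⟩
    fin_cases j <;> simp_all

/-- A residual root of the norm form lifts to an element of norm of order one. -/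
lemma exists_nm_eq_exp_neg_one {s : F} (hs1 : v s ≤ 1) (hNs : v (Q.nm s 1) < 1) :
    ∃ α, v α ≤ 1 ∧ v (α - s) < 1 ∧ v (Q.nm α 1) = WithZero.exp (-1 : ℤ) := by
  rcases eq_or_lt_of_le (le_exp_neg_one_iff.2 hNs) with h | h
  · exact ⟨s, hs1, by simp, h⟩
  · have hts : v (Q.t + 2 * s) = 1 := by
      refine le_antisymm ((v.map_add _ _).trans (max_le Q.ht ?_)) (not_lt.1 fun hlt => ?_)
      · rw [two_mul]; exact (v.map_add _ _).trans (max_le hs1 hs1)
      · have h3 := Q.maximal (-s) (by rwa [Valuation.map_neg]) (by ring_nf at hlt ⊢; exact hlt)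
        rw [show -s * -s - Q.t * -s + Q.n = Q.nm s 1 by simp [nm]] at h3
        exact absurd h (not_lt.2 h3)
    refine ⟨s + ϖ, (v.map_add _ _).trans (max_le hs1 ?_), ?_, ?_⟩
    · rw [hϖ, ← WithZero.exp_zero, WithZero.exp_le_exp]; omega
    · rw [add_sub_cancel_left, hϖ, ← WithZero.exp_zero, WithZero.exp_lt_exp]; omega
    · have h4 : v ((Q.t + 2 * s) * ϖ) = WithZero.exp (-1 : ℤ) := by rw [map_mul, hts, one_mul, hϖ]
      rw [show Q.nm (s + ϖ) 1 = (Q.t + 2 * s) * ϖ + (Q.nm s 1 + ϖ * ϖ) by simp [nm]; ring,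
        Valuation.map_add_eq_of_lt_left, h4]
      rw [h4]
      refine lt_of_le_of_lt (v.map_add _ _) (max_lt h ?_)
      rw [map_mul, hϖ, ← WithZero.exp_add, WithZero.exp_lt_exp]; omega

/-- **Classification of lattices.** Every lattice class is the translate by a torus element of some
`diag(1, ϖ^i)`. -/
theorem exists_torus_dg (g : GL (Fin 2) F) :
    ∃ w ∈ Q.torus, ∃ i : ℕ, (w * dg hϖ i)⁻¹ * g ∈ U0 v := by
  induction hl : lvl v g using Nat.strong_induction_on generalizing g with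
  | _ l ih =>
    by_cases h0 : l = 0
    · exact ⟨1, Q.torus.one_mem, 0, by
        have : dg hϖ 0 = 1 := Units.ext (by ext p q; fin_cases p <;> fin_cases q <;> simp [dg])
        rw [this, mul_one, inv_one, one_mul, ← lvl_eq_zero_iff, hl, h0]⟩
    obtain ⟨M, hM⟩ := exists_rep v g
    obtain ⟨hp, c, hc, hMg⟩ := id hM
    set g₀ : GL (Fin 2) F := scal (Units.mk0 c hc) * g with hg₀
    have hgM : (g₀ : Matrix (Fin 2) (Fin 2) F) = toF v M := by
      rw [hg₀, hMg, Units.val_mul, scal_coe, Matrix.scalar_apply,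
        ← Matrix.smul_eq_diagonal_mul]; rfl
    -- a primitive column
    obtain ⟨j, hj⟩ : ∃ j, v (M 0 j : F) = 1 ∨ v (M 1 j : F) = 1 := by
      obtain ⟨i, j, h⟩ := hp
      fin_cases i
      · exact ⟨j, Or.inl h⟩
      · exact ⟨j, Or.inr h⟩
    set a : F := (M 0 j : F)
    set b : F := (M 1 j : F)
    have ha : v a ≤ 1 := (M 0 j).2
    have hb : v b ≤ 1 := (M 1 j).2
    have hback : ∀ (u : GL (Fin 2) F), u ∈ Q.torus → ∀ g' : GL (Fin 2) F, g₀ = u * g' →
        (∃ w ∈ Q.torus, ∃ i : ℕ, (w * dg hϖ i)⁻¹ * g' ∈ U0 v) →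
        ∃ w ∈ Q.torus, ∃ i : ℕ, (w * dg hϖ i)⁻¹ * g ∈ U0 v := by
      rintro u hu g' hug ⟨w, hw, i, hi⟩
      refine ⟨scal (Units.mk0 c hc)⁻¹ * u * w,
        Q.torus.mul_mem (Q.torus.mul_mem (Q.scal_mem_torus _) hu) hw, i, ?_⟩
      have e : (scal (Units.mk0 c hc)⁻¹ * u * w * dg hϖ i)⁻¹ * g = (w * dg hϖ i)⁻¹ * g' := by
        rw [show g' = u⁻¹ * g₀ by rw [hug, inv_mul_cancel_left], hg₀,
          show (scal (Units.mk0 c hc)⁻¹ : GL (Fin 2) F) =
            (scal (Units.mk0 c hc))⁻¹ from map_inv _ _]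
        group
      rwa [e]
    by_cases hu : v (Q.nm a b) = 1
    · -- a unit column: upper triangular
      have hne : Q.nm a b ≠ 0 := fun h => by simp [h] at hu
      set u := Q.el a b hne
      have huU : u ∈ Q.unitGrp := ⟨a, b, ha, hb, hu, rfl⟩
      set g' := u⁻¹ * g₀ with hg'
      have h1 : ∀ k, (g₀ : Matrix (Fin 2) (Fin 2) F) k j = (u : Matrix (Fin 2) (Fin 2) F) k 0 :=
          fun k => by
        rw [hgM]; fin_cases k <;> simp [u, mat, toF, a, b]
      have h2 : ∀ k, (g' : Matrix (Fin 2) (Fin 2) F) k j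
          = ((u⁻¹ * u : GL (Fin 2) F) : Matrix (Fin 2) (Fin 2) F) k 0 := fun k => by
        rw [hg', Units.val_mul u⁻¹ g₀, Units.val_mul u⁻¹ u, Matrix.mul_apply, Matrix.mul_apply]
        simp only [h1]
      obtain ⟨i, hi⟩ := exists_dg_inv_mul_mem_U0 hϖ (g := g') (j := j)
        (Q.v_unit_mul_le (Q.unitGrp.inv_mem huU) fun k l => hgM ▸ (M k l).2)
        (by simp [h2]) (by simp [h2])
      refine hback u (Q.unitGrp_le_torus huU) g' (by rw [hg', mul_inv_cancel_left])
        ⟨1, Q.torus.one_mem, i, ?_⟩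
      rwa [one_mul]
    · -- divide by an element of norm of order one
      have hnm : v (Q.nm a b) < 1 := lt_of_le_of_ne (Q.v_nm_le ha hb) hu
      have hb1 : v b = 1 := Q.v_eq_one_of_v_nm_lt ha hb hj hnm
      have hb0 : b ≠ 0 := fun h => by simp [h] at hb1
      set s := a / b with hs
      have hs1 : v s ≤ 1 := by rw [hs, map_div₀, hb1, div_one]; exact ha
      have hNs : v (Q.nm s 1) < 1 := by
        rw [show Q.nm s 1 = Q.nm a b / (b * b) by rw [hs]; simp [nm]; field_simp, map_div₀,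
          map_mul, hb1, mul_one, div_one]
        exact hnm
      obtain ⟨α, hα, hαs, hπ⟩ := Q.exists_nm_eq_exp_neg_one hϖ hs1 hNs
      have hne : Q.nm α 1 ≠ 0 := fun h => WithZero.exp_ne_zero (by rw [← hπ, h, map_zero])
      set u := Q.el α 1 hne
      set g' := u⁻¹ * g₀ with hg'
      refine hback u (Q.el_mem_torus _ _ _) g' (by rw [hg', mul_inv_cancel_left])
        (ih (lvl v g') ?_ g' rfl)
      -- the quotient is integral
      have hMdet : v (M.det : F) < 1 := by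
        rw [← toF_det, ← ord_pos_iff v (hM.det_ne_zero v), ← hM.lvl_eq v, hl]
        exact_mod_cast Nat.pos_of_ne_zero h0
      have hj0 : v (-a + α * b) < 1 := by
        rw [show -a + α * b = (α - s) * b by rw [hs]; field_simp; ring, map_mul, hb1, mul_one]
        exact hαs
      have hπ1 : v (Q.nm α 1) < 1 := by
        rw [hπ, ← WithZero.exp_zero, WithZero.exp_lt_exp]; omega
      have hint' : ∀ k l, v ((g' : Matrix (Fin 2) (Fin 2) F) k l) ≤ 1 := fun k l => by
        rw [hg', Units.val_mul, Q.coe_el_inv, hgM, Matrix.smul_mul, Matrix.smul_apply, smul_eq_mul,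
          map_mul, map_inv₀, hπ, inv_mul_le_iff₀ (zero_lt_iff.2 WithZero.exp_ne_zero), mul_one]
        exact le_exp_neg_one_iff.2 (Q.v_adj_mul_lt hα hπ1 (v_row_lt hb1 hj0 hMdet) k l)
      have h6 : ord v (g' : Matrix (Fin 2) (Fin 2) F).det = (l : ℤ) - 1 := by
        rw [hg', Units.val_mul, Matrix.det_mul, Matrix.coe_units_inv, Matrix.det_nonsing_inv,
          Ring.inverse_eq_inv', coe_el, det_mat, hgM,
          ord_mul v (inv_ne_zero hne) (hM.det_ne_zero v), ord_inv, ← hM.lvl_eq v, hl, ord, hπ,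
          WithZero.log_exp]
        ring
      have := lvl_le_ord_det hint'
      omega

end QA

end Fermat.LT
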