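import Fermat.Agent.LT.LocExt
import Mathlib.NumberTheory.MulChar.Lemmas

/-!
# Counting twisted fixed points at a tamely ramified place

`fixTot` counts the fixed unit classes of all levels for a tame totally ramified extension
(`Tame`), as input of `LocRamMatch`.
-/

set_option autoImplicit false
open scoped Matrix Classical
open Finset

namespace Fermat.LT

variable {F : Type*} [Field F] {E : Type*} [Field E]
  {v : Valuation F (WithZero (Multiplicative ℤ))} {w : Valuation E (WithZero (Multiplicative ℤ))}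

namespace CycExt

variable (C : CycExt v w)

/-- The extension is totally and tamely ramified. -/
structure Tame : Prop where
  /-- The ramification index is three. -/
  e3 : C.e = 3
  /-- Three is a unit downstairs. -/
  three : v 3 = 1
  /-- Every integral element is congruent to one of the small field. -/
  res : ∀ x, w x ≤ 1 → ∃ k, w (x - C.ι k) < 1

variable {C}

/-- The residue field does not grow. -/
lemma Tame.exists_small (hT : C.Tame) {x : E} (hx : w x ≤ 1) :
    ∃ k, v k ≤ 1 ∧ w (x - C.ι k) < 1 := by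
  obtain ⟨k, hk⟩ := hT.res x hx
  refine ⟨k, ?_, hk⟩
  rw [← C.w_le_one_iff, show C.ι k = x - (x - C.ι k) by ring]
  exact (w.map_sub _ _).trans (max_le hx hk.le)

/-- The generator acts trivially on the residue field of a tamely ramified extension. -/
lemma Tame.s_resd (hT : C.Tame) {x : E} (hx : w x ≤ 1) : w (C.s x - x) < 1 := by
  obtain ⟨k, -, hk⟩ := hT.exists_small hx
  rw [show C.s x - x = C.s (x - C.ι k) - (x - C.ι k) by rw [map_sub, C.sι]; ring]
  refine lt_of_le_of_lt (w.map_sub _ _) (max_lt ?_ hk)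
  rwa [C.hs]

/-- The generator acts trivially on residues. -/
lemma Tame.resd_s (hT : C.Tame) {x : E} (hx : w x ≤ 1) : resd w (C.s x) = resd w x :=
  (resd_eq_iff (by rwa [C.hs]) hx).2 (hT.s_resd hx)

variable (C) in
/-- The map of residue fields. -/
noncomputable def resHom :
    IsLocalRing.ResidueField v.valuationSubring →+* IsLocalRing.ResidueField w.valuationSubring :=
  have key : ∀ x : F, v x ≤ 1 → resd w (C.ι (exists_resd_eq (resd v x)).choose) = resd w (C.ι x) :=
    fun x hx => by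
      obtain ⟨h1, h2⟩ := (exists_resd_eq (resd v x)).choose_spec
      rw [resd_eq_iff ((C.w_le_one_iff _).2 h1) ((C.w_le_one_iff _).2 hx), ← map_sub,
        C.w_lt_one_iff]
      exact (resd_eq_iff h1 hx).1 h2
  { toFun := fun z => resd w (C.ι (exists_resd_eq z).choose)
    map_one' := by
      conv_lhs => rw [← map_one (IsLocalRing.residue v.valuationSubring)]
      rw [show IsLocalRing.residue v.valuationSubring 1 = resd v 1 from
        (resd_eq (map_one v).le).symm, key 1 (map_one v).le, map_one, resd_eq (map_one w).le]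
      exact map_one _
    map_mul' := fun z z' => by
      obtain ⟨x, hx, rfl⟩ := exists_resd_eq z
      obtain ⟨y, hy, rfl⟩ := exists_resd_eq z'
      show _ = _
      rw [← resd_mul hx hy, key _ (by rw [map_mul]; exact mul_le_one' hx hy), key x hx, key y hy,
        map_mul, resd_mul ((C.w_le_one_iff _).2 hx) ((C.w_le_one_iff _).2 hy)]
    map_zero' := by
      rw [show (0 : IsLocalRing.ResidueField v.valuationSubring) = resd v 0 from
        ((resd_eq_zero_iff (by simp)).2 (by simp)).symm, key 0 (by simp), map_zero]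
      exact (resd_eq_zero_iff (by simp)).2 (by simp)
    map_add' := fun z z' => by
      obtain ⟨x, hx, rfl⟩ := exists_resd_eq z
      obtain ⟨y, hy, rfl⟩ := exists_resd_eq z'
      show _ = _
      rw [← resd_add hx hy, key _ ((v.map_add _ _).trans (max_le hx hy)), key x hx, key y hy,
        map_add, resd_add ((C.w_le_one_iff _).2 hx) ((C.w_le_one_iff _).2 hy)] }

variable (C) in
/-- The map of residue fields commutes with reduction. -/
lemma resHom_resd {x : F} (hx : v x ≤ 1) : C.resHom (resd v x) = resd w (C.ι x) := by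
  change resd w (C.ι (exists_resd_eq (resd v x)).choose) = _
  obtain ⟨h1, h2⟩ := (exists_resd_eq (resd v x)).choose_spec
  rw [resd_eq_iff ((C.w_le_one_iff _).2 h1) ((C.w_le_one_iff _).2 hx), ← map_sub, C.w_lt_one_iff]
  exact (resd_eq_iff h1 hx).1 h2

/-- Under total tame ramification the residue fields agree. -/
lemma Tame.resHom_surjective (hT : C.Tame) : Function.Surjective C.resHom := fun z => by
  obtain ⟨x, hx, rfl⟩ := exists_resd_eq z
  obtain ⟨k, hk, hxk⟩ := hT.exists_small hx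
  exact ⟨resd v k, by
    rw [C.resHom_resd hk, resd_eq_iff ((C.w_le_one_iff _).2 hk) hx, ← Valuation.map_neg, neg_sub]
    exact hxk⟩

/-- The residue fields have the same size. -/
lemma Tame.natCard_res (hT : C.Tame) :
    Nat.card (IsLocalRing.ResidueField w.valuationSubring) =
      Nat.card (IsLocalRing.ResidueField v.valuationSubring) :=
  (Nat.card_congr (Equiv.ofBijective _ ⟨C.resHom.injective, hT.resHom_surjective⟩)).symm

/-- The residue of `π / s π` is not one. -/
lemma Tame.zeta_ne_one (hT : C.Tame) {π : E} (hπ : w π = WithZero.exp (-1 : ℤ)) :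
    resd w (C.s π / π) ≠ 1 := by
  intro h
  have h1 : w (C.s π / π) ≤ 1 := by rw [map_div₀, C.hs, div_self (hπ ▸ WithZero.exp_ne_zero)]
  have hπ0 : π ≠ 0 := fun e => WithZero.exp_ne_zero (by rw [← hπ, e, map_zero])
  rw [show (1 : IsLocalRing.ResidueField w.valuationSubring) = resd w 1 from
    ((resd_eq (map_one w).le).trans (map_one _)).symm, resd_eq_iff h1 (map_one w).le] at h
  -- otherwise `s π ≡ π` modulo `π ^ 2`
  have h2 : w (C.s π - π) ≤ WithZero.exp (-2 : ℤ) := by
    rw [show C.s π - π = π * (C.s π / π - 1) by field_simp, map_mul, hπ]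
    refine (mul_le_mul' le_rfl (le_exp_neg_one_iff.2 h)).trans ?_
    rw [← WithZero.exp_add]; norm_num
  have h30 : (3 : E) ≠ 0 := fun e => by
    have := (C.w_eq_one_iff 3).2 hT.three
    rw [map_ofNat, e, map_zero] at this
    exact zero_ne_one this
  -- the average of the conjugates is fixed and has valuation `exp (-1)`
  set a := (π + C.s π + C.s (C.s π)) / 3 with ha
  have hfix : C.s a = a := by
    rw [ha, map_div₀, map_add, map_add, C.hs3, map_ofNat]
    congr 1
    ring
  obtain ⟨k, hk⟩ := C.fix a hfix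
  have hak : w (a - π) ≤ WithZero.exp (-2 : ℤ) := by
    rw [show a - π = ((C.s π - π) + ((C.s π - π) + C.s (C.s π - π))) / 3 by
      rw [ha, map_sub]; field_simp; ring, map_div₀,
      show w (3 : E) = 1 by rw [← map_ofNat C.ι 3, C.w_eq_one_iff]; exact hT.three, div_one]
    exact (w.map_add _ _).trans (max_le h2 ((w.map_add _ _).trans (max_le h2 (by rwa [C.hs]))))
  have hwa : w (C.ι k) = WithZero.exp (-1 : ℤ) := by
    rw [hk, show a = π + (a - π) by ring, Valuation.map_add_eq_of_lt_left, hπ]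
    rw [hπ]
    exact lt_of_le_of_lt hak (by rw [WithZero.exp_lt_exp]; omega)
  -- but below all valuations are cubes
  rw [C.hι, hT.e3] at hwa
  rcases eq_or_ne (v k) 0 with h0 | h0
  · rw [h0, zero_pow three_ne_zero] at hwa
    exact WithZero.exp_ne_zero hwa.symm
  · rw [← WithZero.exp_log h0, ← WithZero.exp_nsmul, WithZero.exp_inj, nsmul_eq_mul] at hwa
    push_cast at hwa
    omega

/-- The residual ratio `σ π / π` of a uniformiser is a cube root of unity. -/
lemma Tame.zeta_cube (hT : C.Tame) {π : E} (hπ : w π = WithZero.exp (-1 : ℤ)) :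
    resd w (C.s π / π) ^ 3 = 1 := by
  have h1 : w (C.s π / π) ≤ 1 := by rw [map_div₀, C.hs, div_self (hπ ▸ WithZero.exp_ne_zero)]
  have hπ0 : π ≠ 0 := fun e => WithZero.exp_ne_zero (by rw [← hπ, e, map_zero])
  have hs0 : C.s π ≠ 0 := fun e => hπ0 ((map_eq_zero C.s).1 e)
  have hss0 : C.s (C.s π) ≠ 0 := fun e => hs0 ((map_eq_zero C.s).1 e)
  set u := C.s π / π with hu
  have hprod : u * C.s u * C.s (C.s u) = 1 := by
    simp only [hu, map_div₀, C.hs3]
    field_simp
  have h2 : w (C.s u) ≤ 1 := by rwa [C.hs]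
  have h3 : w (C.s (C.s u)) ≤ 1 := by rwa [C.hs]
  have := congrArg (resd w) hprod
  rw [resd_mul (by rw [map_mul]; exact mul_le_one' h1 h2) h3, resd_mul h1 h2, hT.resd_s h2,
    hT.resd_s h1] at this
  rw [pow_three', this, resd_eq (map_one w).le]
  exact map_one _

end CycExt

namespace QA

variable {Q : QA v}

/-- The ratio of the two residual evaluations at a root `z`. -/
noncomputable def rootRatio (Q : QA v) (z : IsLocalRing.ResidueField v.valuationSubring)
    (g : GL (Fin 2) F) : IsLocalRing.ResidueField v.valuationSubring :=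
  match toPt v g with
  | none => 1
  | some s => (s + z + resd v Q.t) / (s - z)

/-- The ratio from coordinates. -/
lemma rootRatio_eq {g : GL (Fin 2) F} {a b : F} (c : Fˣ) (ha : v a ≤ 1) (hb : v b ≤ 1)
    (hn : v (Q.nm a b) = 1)
    (hg : ((scal c * g : GL (Fin 2) F) : Matrix (Fin 2) (Fin 2) F) = Q.mat a b)
    {z : IsLocalRing.ResidueField v.valuationSubring} (hz : z ∈ Q.roots) :
    resd v a - z * resd v b ≠ 0 ∧
    Q.rootRatio z g = (resd v a + (z + resd v Q.t) * resd v b) / (resd v a - z * resd v b) := by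
  obtain ⟨h1, h2⟩ := Q.toPt_eq c ha hn hg
  rcases lt_or_eq_of_le hb with hlt | heq
  · have hb0 : resd v b = 0 := (resd_eq_zero_iff hb).2 hlt
    have ha0 : resd v a ≠ 0 := fun e => by
      rw [resd_eq_zero_iff ha, Q.v_a_eq_one ha hlt hn] at e
      exact lt_irrefl _ e
    rw [rootRatio, h1 hlt, hb0, mul_zero, mul_zero, add_zero, sub_zero]
    exact ⟨ha0, (div_self ha0).symm⟩
  · have hb0' : b ≠ 0 := fun e => by simp [e] at heq
    have hb0 : resd v b ≠ 0 := fun e => by
      rw [resd_eq_zero_iff hb, heq] at e; exact lt_irrefl _ e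
    set s := a / b with hs
    have hs1 : v s ≤ 1 := by rw [hs, map_div₀, heq, div_one]; exact ha
    have hab : resd v a = resd v s * resd v b := by
      rw [← resd_mul hs1 hb, hs, div_mul_cancel₀ _ hb0']
    have hns : resd v s ∉ Q.roots := by
      rw [← Q.v_nm_one_iff hs1, show Q.nm s 1 = Q.nm a b / (b * b) by simp [hs, nm]; field_simp,
        map_div₀, map_mul, hn, heq, mul_one, div_one]
    have hne : resd v s - z ≠ 0 := fun e => hns (by rwa [sub_eq_zero.1 e])
    rw [rootRatio, h2 heq, hab]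
    refine ⟨by rw [← sub_mul]; exact mul_ne_zero hne hb0, ?_⟩
    change (resd v s + z + resd v Q.t) / (resd v s - z) = _
    rw [← sub_mul, show resd v s * resd v b + (z + resd v Q.t) * resd v b
      = (resd v s + z + resd v Q.t) * resd v b by ring, mul_div_mul_right _ _ hb0]

/-- The residual ratio at a root is multiplicative on units. -/
lemma rootRatio_mul {g h : GL (Fin 2) F} (hg : g ∈ Q.ugrp) (hh : h ∈ Q.ugrp)
    {z : IsLocalRing.ResidueField v.valuationSubring} (hz : z ∈ Q.roots) :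
    Q.rootRatio z (g * h) = Q.rootRatio z g * Q.rootRatio z h := by
  obtain ⟨c, a, b, ha, hb, hn, h1⟩ := Q.exists_coords_ugrp hg
  obtain ⟨d, a', b', ha', hb', hn', h2⟩ := Q.exists_coords_ugrp hh
  have hxy : ((scal (c * d) * (g * h) : GL (Fin 2) F) : Matrix (Fin 2) (Fin 2) F)
      = Q.mat (a * a' - Q.n * (b * b')) (a * b' + b * a' + Q.t * (b * b')) := by
    rw [scal_mul_mul_mul, Units.val_mul, h1, h2, mat_mul]
  have hbb : v (b * b') ≤ 1 := by rw [map_mul]; exact mul_le_one' hb hb'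
  have e1 : v (a * a') ≤ 1 := by rw [map_mul]; exact mul_le_one' ha ha'
  have e2 : v (Q.n * (b * b')) ≤ 1 := by rw [map_mul]; exact mul_le_one' Q.hn hbb
  have e3 : v (a * b') ≤ 1 := by rw [map_mul]; exact mul_le_one' ha hb'
  have e4 : v (b * a') ≤ 1 := by rw [map_mul]; exact mul_le_one' hb ha'
  have e5 : v (Q.t * (b * b')) ≤ 1 := by rw [map_mul]; exact mul_le_one' Q.ht hbb
  have e34 : v (a * b' + b * a') ≤ 1 := (v.map_add _ _).trans (max_le e3 e4)
  obtain ⟨-, hr⟩ := Q.rootRatio_eq (c * d) ((v.map_sub _ _).trans (max_le e1 e2))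
    ((v.map_add _ _).trans (max_le e34 e5)) (by rw [nm_mul, map_mul, hn, hn', mul_one]) hxy hz
  obtain ⟨hd1, hr1⟩ := Q.rootRatio_eq c ha hb hn h1 hz
  obtain ⟨hd2, hr2⟩ := Q.rootRatio_eq d ha' hb' hn' h2 hz
  rw [hr, hr1, hr2, sub_eq_add_neg (a * a'), resd_add e1 (by rwa [Valuation.map_neg]), resd_neg e2,
    resd_add e34 e5, resd_add e3 e4, resd_mul ha ha', resd_mul Q.hn hbb, resd_mul ha hb',
    resd_mul hb ha', resd_mul Q.ht hbb, resd_mul hb hb', div_mul_div_comm]
  have hzz : z * z + resd v Q.t * z + resd v Q.n = 0 := hz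
  congr 1
  · linear_combination (-(resd v b * resd v b')) * hzz
  · linear_combination (-(resd v b * resd v b')) * hzz

/-- The residual ratio is `1` on the first level. -/
lemma rootRatio_of_levG_one {g : GL (Fin 2) F} (hg : g ∈ Q.levG 1)
    (z : IsLocalRing.ResidueField v.valuationSubring) : Q.rootRatio z g = 1 := by
  obtain ⟨c, a, b, ha, hb, hn, h⟩ := hg
  have hb1 : v b < 1 := le_exp_neg_one_iff.1 hb
  rw [rootRatio, (Q.toPt_eq c ha hn h).1 hb1]

/-- With distinct roots the ratio detects the first level. -/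
lemma mem_levG_one_of_rootRatio {g : GL (Fin 2) F} (hg : g ∈ Q.ugrp)
    {z : IsLocalRing.ResidueField v.valuationSubring} (hz : z ∈ Q.roots)
    (h2 : z + z + resd v Q.t ≠ 0) (h : Q.rootRatio z g = 1) : g ∈ Q.levG 1 := by
  obtain ⟨c, a, b, ha, hb, hn, h1⟩ := Q.exists_coords_ugrp hg
  obtain ⟨hd, hr⟩ := Q.rootRatio_eq c ha hb hn h1 hz
  rw [h, eq_comm, div_eq_one_iff_eq hd] at hr
  have hb0 : resd v b = 0 := by
    have : (z + z + resd v Q.t) * resd v b = 0 := by linear_combination hr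
    exact (mul_eq_zero.1 this).resolve_left h2
  rw [Q.mem_levG_iff c ha hn h1, Nat.cast_one, le_exp_neg_one_iff, ← resd_eq_zero_iff hb]
  exact hb0

/-- A double root has trivial ratio. -/
lemma rootRatio_double {g : GL (Fin 2) F} (hg : g ∈ Q.ugrp)
    {z : IsLocalRing.ResidueField v.valuationSubring} (hz : z ∈ Q.roots)
    (h2 : z + z + resd v Q.t = 0) : Q.rootRatio z g = 1 := by
  obtain ⟨c, a, b, ha, hb, hn, h1⟩ := Q.exists_coords_ugrp hg
  obtain ⟨hd, hr⟩ := Q.rootRatio_eq c ha hb hn h1 hz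
  rw [hr, div_eq_one_iff_eq hd]
  linear_combination resd v b * h2

/-- The residual ratio of a unit is nonzero. -/
lemma rootRatio_ne_zero {g : GL (Fin 2) F} (hg : g ∈ Q.ugrp)
    {z : IsLocalRing.ResidueField v.valuationSubring} (hz : z ∈ Q.roots) : Q.rootRatio z g ≠ 0 := by
  intro h
  have := Q.rootRatio_mul hg (Q.ugrp.inv_mem hg) hz
  rw [mul_inv_cancel, Q.rootRatio_of_levG_one (Q.levG 1).one_mem, h, zero_mul] at this
  exact one_ne_zero this

end QA

namespace Emb

variable {C : CycExt v w} {Q : QA v} (T : Emb C Q)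
  [Finite (IsLocalRing.ResidueField v.valuationSubring)]
  [Finite (IsLocalRing.ResidueField w.valuationSubring)]
  {ϖ : F} (hϖ : v ϖ = WithZero.exp (-1 : ℤ)) {ϖ' : E} (hϖ' : w ϖ' = WithZero.exp (-1 : ℤ))

local notation "q" => Nat.card (IsLocalRing.ResidueField v.valuationSubring)

/-- The number of unit classes of all levels fixed by the twisted translation. -/
noncomputable def fixTot (x : GL (Fin 2) E) : ℂ := ∑ᶠ i, T.twist.slev hϖ' delta0 x i

/-- The two constant terms of the identity. -/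
lemma delta0_facts (Q₀ : ℕ) : ctil Q₀ delta0 0 = 1 ∧ gsum Q₀ delta0 0 = 0 := by
  have hD : ∀ m, 0 < m → delta0 m = 0 := fun m hm => if_neg hm.ne'
  have hg : gsum Q₀ delta0 0 = 0 := by
    rw [gsum_eq_sum Q₀ hD 0 1 (by omega)]
    simp [delta0]
  exact ⟨by rw [ctil, hg, mul_zero, add_zero]; exact if_pos rfl, hg⟩

/-- The sum of the numbers of small classes of positive level up to `d`. -/
noncomputable def lvlSum (Q : QA v) (d : ℕ) : ℂ :=
  ∑ m ∈ Icc 1 d, ((Q.g1 * Nat.card (IsLocalRing.ResidueField v.valuationSubring) ^ (m - 1) : ℕ) : ℂ)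

omit [Finite (IsLocalRing.ResidueField v.valuationSubring)]
    [Finite (IsLocalRing.ResidueField w.valuationSubring)] in
include hϖ in
/-- Under tame ramification the indices upstairs up to `3d + r` sum to `r + 3 lvlSum d`. -/
lemma sum_relIndex (hT : C.Tame) (d : ℕ) :
    ∑ j ∈ Icc 1 (3 * d + T.r), ((T.Q'.levG j).relIndex T.twist.base : ℂ)
      = (T.r : ℂ) + 3 * lvlSum Q d := by
  have hr : T.r ≤ 1 := by rcases T.hr with h | ⟨h, -⟩ <;> omega
  induction d with
  | zero =>
    rcases Nat.le_one_iff_eq_zero_or_eq_one.1 hr with h | h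
    · simp [h, lvlSum]
    · rw [h, Finset.Icc_self, Finset.sum_singleton, T.relIndex_base,
        show T.lev 1 = 0 by simp [lev, h, hT.e3], QA.natCard_UQ_zero]
      simp [lvlSum]
  | succ d ih =>
    have hk : ∀ j, 3 * d + T.r < j → j ≤ 3 * (d + 1) + T.r →
        ((T.Q'.levG j).relIndex T.twist.base : ℂ) = ((Q.g1 * q ^ d : ℕ) : ℂ) := fun j h1 h2 => by
      rw [T.relIndex_base, show T.lev j = d + 1 by
        rw [lev, hT.e3]; omega, QA.natCard_UQ_succ Q hϖ]
    rw [show 3 * (d + 1) + T.r = (3 * d + T.r + 2) + 1 by ring, Finset.sum_Icc_succ_top (by omega),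
      Finset.sum_Icc_succ_top (by omega), Finset.sum_Icc_succ_top (by omega), ih,
        hk _ (by omega) (by omega),
      hk _ (by omega) (by omega), hk _ (by omega) (by omega), lvlSum, lvlSum,
      Finset.sum_Icc_succ_top (show 1 ≤ d + 1 by omega), Nat.add_sub_cancel]
    ring

omit [Finite (IsLocalRing.ResidueField v.valuationSubring)] in
include hϖ hϖ' in
/-- Total over the levels when the first one can be reached. -/
theorem fixTot_reached (hT : C.Tame) (hq : Nat.Coprime 3 q) {x : GL (Fin 2) E} (hx : x ∈ T.Q'.ugrp)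
    (h1 : T.twist.Sol1 x) {c : Eˣ} {γ : GL (Fin 2) F} (hγ : γ ∈ Q.ugrp)
    (hN : T.twist.norm3 x = scal c * T.φ γ) {d : ℕ} (hd : ∀ m, γ ∈ Q.levG m ↔ m ≤ d) :
    T.fixTot hϖ' x = 1 + T.r + 3 * lvlSum Q d := by
  have hd' : ∀ j, T.twist.norm3 x ∈ T.Q'.levG j ↔ j ≤ 3 * d + T.r := fun j => by
    rw [T.norm3_mem_iff hγ hN, hd, lev, hT.e3]
    omega
  obtain ⟨e1, e2⟩ := delta0_facts (Nat.card (IsLocalRing.ResidueField w.valuationSubring))
  rw [fixTot, T.twist.orbital_unit hϖ' (by rw [← map_ofNat C.ι 3, C.w_eq_one_iff]; exact hT.three)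
    (by rw [hT.natCard_res]; exact hq) hx h1 hd' (h := delta0) (D := 0) (fun m hm => if_neg hm.ne'),
    e1, e2, T.sum_relIndex hϖ hT d]
  ring

omit [Finite (IsLocalRing.ResidueField v.valuationSubring)] in
omit [Finite (IsLocalRing.ResidueField w.valuationSubring)] in
/-- Without ramification in the algebra coboundaries are residually trivial. -/
lemma cobound_mem_one (hT : C.Tame) (hr : T.r = 0) {u : GL (Fin 2) E} (hu : u ∈ T.Q'.ugrp) :
    u⁻¹ * T.twist.θ u ∈ T.Q'.levG 1 := by
  obtain ⟨c, a, b, ha, hb, hn, h1⟩ := T.Q'.exists_coords_ugrp hu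
  obtain ⟨d, hd⟩ := T.twist.θ_scal c
  have h2 : ((scal d * T.twist.θ u : GL (Fin 2) E) : Matrix (Fin 2) (Fin 2) E)
      = T.Q'.mat (C.s a) (T.twist.ε * C.s b) := by rw [← hd, ← map_mul]; exact T.twist.θ_mat h1
  have hε : w (T.twist.ε - 1) < 1 := by
    change w (T.ρ / C.s T.ρ - 1) < 1
    have hρ1 : w T.ρ = 1 := by rw [T.hρ, hr]; simp
    have hs0 := T.sρ_ne_zero
    rw [show T.ρ / C.s T.ρ - 1 = -(C.s T.ρ - T.ρ) / C.s T.ρ by field_simp; ring, map_div₀,
      Valuation.map_neg, C.hs, hρ1, div_one]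
    exact hT.s_resd hρ1.le
  rw [QA.coords_inv_mul c d ha hb hn (by rw [C.hs]; exact ha)
    (by rw [map_mul, T.twist.hε, one_mul, C.hs]; exact hb)
      (by exact (T.twist.v_nm a b).trans hn) h1 h2,
    Nat.cast_one, le_exp_neg_one_iff,
    show a * (T.twist.ε * C.s b) - C.s a * b
      = a * ((T.twist.ε - 1) * C.s b + (C.s b - b)) - (C.s a - a) * b by ring]
  refine lt_of_le_of_lt (w.map_sub _ _) (max_lt ?_ ?_) <;> rw [map_mul]
  · refine lt_of_le_of_lt (mul_le_of_le_one_left' ha)
      (lt_of_le_of_lt (w.map_add _ _) (max_lt ?_ (hT.s_resd hb)))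
    rw [map_mul]
    exact lt_of_le_of_lt (mul_le_of_le_one_right' (by rw [C.hs]; exact hb)) hε
  · exact lt_of_le_of_lt (mul_le_of_le_one_right' hb) (hT.s_resd ha)

omit [Finite (IsLocalRing.ResidueField v.valuationSubring)] in
include hϖ' in
/-- Only the level zero is fixed. -/
theorem fixTot_unreached (hT : C.Tame) (hr : T.r = 0) {x : GL (Fin 2) E} (hx : x ∈ T.Q'.ugrp)
    (h1 : x ∉ T.Q'.levG 1) : T.fixTot hϖ' x = 1 := by
  have hz : ∀ i, i ≠ 0 → T.twist.slev hϖ' delta0 x i = 0 := fun i hi => by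
    refine finsum_eq_zero_of_forall_eq_zero fun u => if_neg fun h0 => h1 ?_
    have hmem : T.twist.shift x u ∈ T.Q'.levG i := by
      by_contra hno
      have hu := T.twist.shift_mem hx u
      set μ := Nat.findGreatest (fun m => T.twist.shift x u ∈ T.Q'.levG m) i
      have hμ : T.twist.shift x u ∈ T.Q'.levG μ :=
        Nat.findGreatest_spec (P := fun m => T.twist.shift x u ∈ T.Q'.levG m) (Nat.zero_le i)
          (by rwa [QA.levG_zero])
      have hμi : μ < i :=
        lt_of_le_of_ne (Nat.findGreatest_le i) fun e => hno (by rwa [show μ = i from e] at hμ)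
      rw [QA.dlvl_of_exact hϖ' hμi hμ
        (Nat.findGreatest_is_greatest (P := fun m => T.twist.shift x u ∈ T.Q'.levG m)
          (Nat.lt_succ_self μ) hμi)] at h0
      omega
    have h2 := (T.Q'.levG 1).mul_mem (T.Q'.levG_antitone (show 1 ≤ i by omega) hmem)
      ((T.Q'.levG 1).inv_mem (T.cobound_mem_one hT hr u.out.2))
    rwa [QA.Twist.shift, mul_inv_cancel_right] at h2
  rw [fixTot, finsum_eq_single _ 0 hz]
  have : Finite (T.Q'.UQ 0) := QA.finite_UQ hϖ' 0
  let _ := Fintype.ofFinite (T.Q'.UQ 0)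
  rw [QA.Twist.slev, finsum_eq_sum_of_fintype,
    Finset.sum_congr rfl (g := fun _ => (1 : ℂ)) fun u _ => ?_,
    Finset.sum_const, Finset.card_univ, ← Nat.card_eq_fintype_card, QA.natCard_UQ_zero, one_smul]
  rw [QA.dlvl_of_mem hϖ' (by rw [QA.levG_zero]; exact T.twist.shift_mem hx u)]
  exact if_pos rfl

omit [Finite (IsLocalRing.ResidueField v.valuationSubring)]
  [Finite (IsLocalRing.ResidueField w.valuationSubring)] in
/-- A ramified algebra: every unit reaches the first level. -/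
lemma sol1_eis (hT : C.Tame) (hr : T.r = 1) {x : GL (Fin 2) E} (hx : x ∈ T.Q'.ugrp) :
    T.twist.Sol1 x := by
  intro _
  rcases T.hr with h | ⟨-, -, ht, hn⟩
  · omega
  have hρ1 : w T.ρ = WithZero.exp (-1 : ℤ) := by rw [T.hρ, hr]; rfl
  have hρ0 := T.ρ_ne_zero
  have ht' : w T.Q'.t < 1 := by
    have e := congrArg w T.ht
    rw [map_mul, hρ1, C.hι, hT.e3] at e
    by_contra hge
    have h3 : v Q.t ^ 3 ≤ WithZero.exp (-3 : ℤ) :=
      (pow_le_pow_left₀ zero_le (le_exp_neg_one_iff.2 ht) 3).trans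
        (le_of_eq (by rw [← WithZero.exp_nsmul]; rfl))
    rw [← e, le_antisymm T.Q'.ht (not_lt.1 hge), one_mul, WithZero.exp_le_exp] at h3
    omega
  have hn' : w T.Q'.n < 1 := by
    have e := congrArg w T.hn
    rw [map_mul, map_mul, hρ1, C.hι, hT.e3, hn, ← WithZero.exp_nsmul] at e
    by_contra hge
    rw [le_antisymm T.Q'.hn (not_lt.1 hge), one_mul, ← WithZero.exp_add, WithZero.exp_inj] at e
    simp at e
  obtain ⟨c, a, b, ha, hb, hnm, h1⟩ := T.Q'.exists_coords_ugrp hx
  have haT : ∀ {a b : E}, w a ≤ 1 → w b ≤ 1 → w (T.Q'.nm a b) = 1 → w a = 1 := by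
    intro a b ha hb h
    refine le_antisymm ha (not_lt.1 fun hl => h.not_lt ?_)
    refine lt_of_le_of_lt (w.map_add _ _)
      (max_lt (lt_of_le_of_lt (w.map_add _ _) (max_lt ?_ ?_)) ?_) <;> simp only [map_mul]
    · exact lt_of_le_of_lt (mul_le_of_le_one_left' ha) hl
    · exact lt_of_le_of_lt (mul_le_of_le_one_right' hb)
        (lt_of_le_of_lt (mul_le_of_le_one_left' T.Q'.ht) hl)
    · exact lt_of_le_of_lt (mul_le_of_le_one_right' hb)
        (lt_of_le_of_lt (mul_le_of_le_one_right' hb) hn')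
  have ha1 := haT ha hb hnm
  -- the slope to add
  have hεr := hT.zeta_ne_one hρ1
  have hs0 := T.sρ_ne_zero
  set ε := T.twist.ε with hεdef
  have hε1 : w (ε - 1) = 1 := by
    refine le_antisymm ((w.map_sub _ _).trans (max_le T.twist.hε.le (map_one w).le))
      (not_lt.1 fun hl => hεr ?_)
    have hsρ : w (C.s T.ρ / T.ρ) = 1 := by
      rw [map_div₀, C.hs, div_self (w.ne_zero_iff.2 hρ0)]
    rw [show (1 : IsLocalRing.ResidueField w.valuationSubring) = resd w 1 from
      ((resd_eq (map_one w).le).trans (map_one _)).symm, resd_eq_iff hsρ.le (map_one w).le,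
      show C.s T.ρ / T.ρ - 1 = -((ε - 1) * (C.s T.ρ / T.ρ)) by
        change _ = -((T.ρ / C.s T.ρ - 1) * _); field_simp; ring,
      Valuation.map_neg, map_mul, hsρ, mul_one]
    exact hl
  have hε0 : ε - 1 ≠ 0 := fun h => by simp [h] at hε1
  set β := -b / (a * (ε - 1)) with hβ
  have ha0 : a ≠ 0 := fun h => by simp [h] at ha1
  have hβ1 : w β ≤ 1 := by
    rw [hβ, map_div₀, map_mul, ha1, hε1, Valuation.map_neg, mul_one, div_one]; exact hb
  have hnz : w (T.Q'.nm 1 β) = 1 := by
    rw [show T.Q'.nm 1 β = 1 + (T.Q'.t * β + T.Q'.n * (β * β)) by simp [QA.nm]; ring,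
      Valuation.map_add_eq_of_lt_left, map_one]
    rw [map_one]
    refine lt_of_le_of_lt (w.map_add _ _) (max_lt ?_ ?_) <;> rw [map_mul]
    · exact lt_of_le_of_lt (mul_le_of_le_one_right' hβ1) ht'
    · exact lt_of_le_of_lt
        (mul_le_of_le_one_right' (by rw [map_mul]; exact mul_le_one' hβ1 hβ1)) hn'
  have hd0 : T.Q'.nm 1 β ≠ 0 := fun h => by simp [h] at hnz
  set z := T.Q'.el 1 β hd0
  have hzu : z ∈ T.Q'.ugrp := le_withScalars _ ⟨1, β, (map_one w).le, hβ1, hnz, rfl⟩
  refine ⟨z, hzu, ?_⟩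
  -- compare `z` with `x θ z`
  obtain ⟨e, he⟩ := T.twist.θ_scal 1
  have hz2 : ((T.twist.θ z : GL (Fin 2) E) : Matrix (Fin 2) (Fin 2) E) =
      T.Q'.mat (C.s 1) (ε * C.s β) :=
    T.twist.θ_mat (T.Q'.coe_el 1 β hd0)
  have hprod : ((scal c * (x * T.twist.θ z) : GL (Fin 2) E) : Matrix (Fin 2) (Fin 2) E)
      = T.Q'.mat (a * C.s 1 - T.Q'.n * (b * (ε * C.s β)))
          (a * (ε * C.s β) + b * C.s 1 + T.Q'.t * (b * (ε * C.s β))) := by
    rw [← mul_assoc, Units.val_mul, h1, hz2, QA.mat_mul]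
  rw [map_one] at hprod
  have hsβ : w (ε * C.s β) ≤ 1 := by rw [map_mul, T.twist.hε, one_mul, C.hs]; exact hβ1
  have hint := QA.v_coord_mul (Q := T.Q') ha hb (map_one w).le hsβ
  have hrn : w (T.Q'.nm (a * 1 - T.Q'.n * (b * (ε * C.s β)))
      (a * (ε * C.s β) + b * 1 + T.Q'.t * (b * (ε * C.s β)))) = 1 := by
    have := T.twist.v_nm 1 β
    rw [map_one] at this
    rw [QA.nm_mul, map_mul, hnm, one_mul]
    exact this.trans hnz
  rw [show x * (z⁻¹ * T.twist.θ z) = z⁻¹ * (x * T.twist.θ z) by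
      rw [← mul_assoc, ← mul_assoc, QA.torus_comm' hx (T.Q'.ugrp.inv_mem hzu)],
    QA.coords_inv_mul 1 c (map_one w).le hβ1 hnz hint.1 hint.2 hrn (by simp [scal, z]) hprod,
    Nat.cast_one, le_exp_neg_one_iff,
    show (1 : E) * (a * (ε * C.s β) + b * 1 + T.Q'.t * (b * (ε * C.s β)))
        - (a * 1 - T.Q'.n * (b * (ε * C.s β))) * β
      = (a * ε * (C.s β - β) + T.Q'.t * (b * (ε * C.s β))) + (T.Q'.n * (b * (ε * C.s β)) * β) by
      simp only [hβ]; field_simp; ring]
  refine lt_of_le_of_lt (w.map_add _ _)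
    (max_lt (lt_of_le_of_lt (w.map_add _ _) (max_lt ?_ ?_)) ?_) <;> simp only [map_mul]
  · exact lt_of_le_of_lt (mul_le_of_le_one_left' (by rw [ha1, T.twist.hε, mul_one])) (hT.s_resd hβ1)
  · refine lt_of_le_of_lt (mul_le_of_le_one_right' ?_) ht'
    exact mul_le_one' hb (by rw [← map_mul]; exact hsβ)
  · refine lt_of_le_of_lt (mul_le_of_le_one_right' hβ1)
      (lt_of_le_of_lt (mul_le_of_le_one_right' ?_) hn')
    exact mul_le_one' hb (by rw [← map_mul]; exact hsβ)

omit [Finite (IsLocalRing.ResidueField v.valuationSubring)] in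
omit [Finite (IsLocalRing.ResidueField w.valuationSubring)] in
/-- The residual ratio of a norm is the cube of the ratio. -/
lemma rootRatio_norm3 (hT : C.Tame) (hr : T.r = 0) {x : GL (Fin 2) E} (hx : x ∈ T.Q'.ugrp)
    {z : IsLocalRing.ResidueField w.valuationSubring} (hz : z ∈ T.Q'.roots) :
    T.Q'.rootRatio z (T.twist.norm3 x) = T.Q'.rootRatio z x ^ 3 := by
  have hθ : ∀ {u : GL (Fin 2) E}, u ∈ T.Q'.ugrp → T.Q'.rootRatio z (T.twist.θ u) =
      T.Q'.rootRatio z u := by
    intro u hu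
    have hc := T.cobound_mem_one hT hr hu
    rw [show T.twist.θ u = u * (u⁻¹ * T.twist.θ u) by rw [mul_inv_cancel_left],
      T.Q'.rootRatio_mul hu (T.Q'.levG_le_ugrp 1 hc) hz, T.Q'.rootRatio_of_levG_one hc, mul_one]
  have hx' := T.twist.θ_ugrp hx
  rw [QA.Twist.norm3, T.Q'.rootRatio_mul (T.Q'.ugrp.mul_mem hx hx') (T.twist.θ_ugrp hx') hz,
    T.Q'.rootRatio_mul hx hx' hz, hθ hx', hθ hx]
  ring

omit [Finite (IsLocalRing.ResidueField v.valuationSubring)]
  [Finite (IsLocalRing.ResidueField w.valuationSubring)] in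
/-- Without a change of basis roots and residual ratios are compatible with the embedding. -/
lemma rootRatio_φ (hρ : T.ρ = 1) {γ : GL (Fin 2) F} (hγ : γ ∈ Q.ugrp)
    {z : IsLocalRing.ResidueField v.valuationSubring} (hz : z ∈ Q.roots) :
    C.resHom z ∈ T.Q'.roots ∧ T.Q'.rootRatio (C.resHom z) (T.φ γ) = C.resHom (Q.rootRatio z γ) := by
  have ht : T.Q'.t = C.ι Q.t := by simpa [hρ] using T.ht
  have hn : T.Q'.n = C.ι Q.n := by simpa [hρ] using T.hn
  have hz' : C.resHom z ∈ T.Q'.roots := by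
    have h : z * z + resd v Q.t * z + resd v Q.n = 0 := hz
    change _ * _ + resd w T.Q'.t * _ + resd w T.Q'.n = 0
    rw [ht, hn, ← C.resHom_resd Q.ht, ← C.resHom_resd Q.hn, ← map_mul, ← map_mul,
      ← map_add, ← map_add, h, map_zero]
  obtain ⟨c, a, b, ha, hb, hnm, h⟩ := Q.exists_coords_ugrp hγ
  obtain ⟨ha', hb', hn', h'⟩ := T.φ_coords c ha hb hnm h
  obtain ⟨-, e1⟩ := T.Q'.rootRatio_eq _ ha' hb' hn' h' hz'
  obtain ⟨-, e2⟩ := Q.rootRatio_eq c ha hb hnm h hz
  refine ⟨hz', ?_⟩
  rw [e1, e2, map_div₀, map_add, map_sub, map_mul, map_mul, map_add, C.resHom_resd ha,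
    C.resHom_resd Q.ht, ← ht, hρ, one_mul, ← C.resHom_resd hb]

end Emb

end Fermat.LT
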