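import Fermat.Agent.LT.LocCount

/-!
# Twisted displacement classes in a local quadratic algebra

A twist is an automorphism of order three of the field fixing the valuation, extended to the algebra
by `ω ↦ ε ω`.  We count the unit classes `u` for which `x · θ(u) u⁻¹` fixes a given level.
-/

set_option autoImplicit false
open scoped Matrix

namespace Fermat.LT

variable {F : Type*} [Field F] {v : Valuation F (WithZero (Multiplicative ℤ))}

local notation "κ" => IsLocalRing.ResidueField v.valuationSubring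

/-- One plus some multiple of a number prime to three is divisible by three. -/
lemma exists_three_mul_eq {M : ℕ} (hM : Nat.Coprime 3 M) : ∃ e q : ℕ, 3 * e = 1 + M * q := by
  have h3M : M % 3 ≠ 0 := fun h =>
    absurd (Nat.Prime.coprime_iff_not_dvd Nat.prime_three |>.1 hM)
      (not_not.2 (Nat.dvd_of_mod_eq_zero h))
  rcases (by omega : M % 3 = 1 ∨ M % 3 = 2) with h | h
  · exact ⟨(1 + M * 2) / 3, 2, by omega⟩
  · exact ⟨(1 + M * 1) / 3, 1, by omega⟩

namespace QA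

/-- An automorphism of order three of the local algebra. -/
structure Twist (Q : QA v) where
  /-- The automorphism of the field. -/
  s : F ≃+* F
  /-- The automorphism preserves the valuation. -/
  hs : ∀ x, v (s x) = v x
  /-- The cube of the automorphism is the identity. -/
  hs3 : ∀ x, s (s (s x)) = x
  /-- The unit `ε` of the twist `ω ↦ ε ω`. -/
  ε : F
  /-- `ε` is a unit. -/
  hε : v ε = 1
  /-- The three conjugates of `ε` multiply to one. -/
  hεN : ε * s ε * s (s ε) = 1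
  /-- The automorphism multiplies the trace by `ε`. -/
  st : s Q.t = ε * Q.t
  /-- The automorphism multiplies the norm by `ε²`. -/
  sn : s Q.n = ε * ε * Q.n

variable {Q : QA v} (τ : Q.Twist)

/-- `ε` is not zero. -/
lemma Twist.ε_ne_zero : τ.ε ≠ 0 := fun h => by simpa [h] using τ.hε

/-- `diag(1, ε)`. -/
noncomputable def Twist.dε : GL (Fin 2) F :=
  Matrix.GeneralLinearGroup.mkOfDetNeZero !![1, 0; 0, τ.ε]
    (by simp [Matrix.det_fin_two_of, τ.ε_ne_zero])

/-- The twist on matrices: the automorphism on the entries, conjugated by `diag(1, ε)`. -/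
noncomputable def Twist.θ : GL (Fin 2) F →* GL (Fin 2) F :=
  (MulAut.conj τ.dε).toMonoidHom.comp (Matrix.GeneralLinearGroup.map (τ.s : F →+* F))

/-- In coordinates of the order the twist sends `(a, b)` to `(s a, ε s b)`. -/
lemma Twist.θ_mat {g : GL (Fin 2) F} {a b : F}
    (hg : (g : Matrix (Fin 2) (Fin 2) F) = Q.mat a b) :
    (τ.θ g : Matrix (Fin 2) (Fin 2) F) = Q.mat (τ.s a) (τ.ε * τ.s b) := by
  have hinv : ((τ.dε)⁻¹ : GL (Fin 2) F).val = !![1, 0; 0, τ.ε⁻¹] := by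
    rw [← Units.mul_right_inj (a := τ.dε), ← Units.val_mul, mul_inv_cancel]
    ext k l
    fin_cases k <;> fin_cases l <;> simp [Twist.dε, Matrix.mul_apply, τ.ε_ne_zero]
  change ((τ.dε * Matrix.GeneralLinearGroup.map (τ.s : F →+* F) g * τ.dε⁻¹ : GL (Fin 2) F) :
    Matrix (Fin 2) (Fin 2) F) = _
  rw [Units.val_mul, Units.val_mul, hinv]
  change !![1, 0; 0, τ.ε] * (g : Matrix (Fin 2) (Fin 2) F).map τ.s * !![1, 0; 0, τ.ε⁻¹] = _
  rw [hg]
  have e0 := τ.ε_ne_zero
  rw [show (Q.mat a b).map τ.s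
    = !![τ.s a, -(τ.s Q.n * τ.s b); τ.s b, τ.s a + τ.s Q.t * τ.s b] by
    ext k l
    fin_cases k <;> fin_cases l <;> simp [mat]]
  ext k l
  fin_cases k <;> fin_cases l <;> simp [mat, Matrix.mul_apply, τ.st, τ.sn] <;> field_simp

/-- The twist sends scalars to scalars. -/
lemma Twist.θ_scal (c : Fˣ) : ∃ d : Fˣ, τ.θ (scal c) = scal d := by
  refine ⟨Units.map (τ.s : F →+* F).toMonoidHom c, ?_⟩
  change τ.dε * Matrix.GeneralLinearGroup.map (τ.s : F →+* F) (scal c) * τ.dε⁻¹ = _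
  rw [show Matrix.GeneralLinearGroup.map (τ.s : F →+* F) (scal c)
    = scal (Units.map (τ.s : F →+* F).toMonoidHom c) from Units.ext (by
      change ((scal c : GL (Fin 2) F) : Matrix (Fin 2) (Fin 2) F).map τ.s = _
      ext i j
      fin_cases i <;> fin_cases j <;> simp), ← scal_comm, mul_inv_cancel_right]

/-- The twist preserves the valuation of the norm. -/
lemma Twist.v_nm (a b : F) : v (Q.nm (τ.s a) (τ.ε * τ.s b)) = v (Q.nm a b) := by
  rw [← τ.hs (Q.nm a b)]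
  congr 1
  simp only [nm, map_add, map_mul, τ.st, τ.sn]
  ring

/-- The twist preserves each congruence group. -/
lemma Twist.θ_congUnit {i : ℕ} {g : GL (Fin 2) F} (hg : g ∈ Q.congUnit i) :
    τ.θ g ∈ Q.congUnit i := by
  obtain ⟨a, b, ha, hb, hn, h⟩ := hg
  exact ⟨_, _, by rw [τ.hs]; exact ha, by rw [map_mul, τ.hε, one_mul, τ.hs]; exact hb,
    by rw [τ.v_nm]; exact hn, τ.θ_mat h⟩

/-- The twist preserves every level. -/
lemma Twist.θ_levG {i : ℕ} {g : GL (Fin 2) F} (hg : g ∈ Q.levG i) : τ.θ g ∈ Q.levG i := by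
  obtain ⟨c, hc⟩ := hg
  obtain ⟨d, hd⟩ := τ.θ_scal c
  refine ⟨d, ?_⟩
  rw [← hd, ← map_mul]
  exact τ.θ_congUnit hc

/-- The twist preserves the units. -/
lemma Twist.θ_ugrp {g : GL (Fin 2) F} (hg : g ∈ Q.ugrp) : τ.θ g ∈ Q.ugrp := by
  rw [← levG_zero] at hg ⊢
  exact τ.θ_levG hg

/-- The twist has order three on units. -/
lemma Twist.θ_θ_θ {g : GL (Fin 2) F} (hg : g ∈ Q.ugrp) : τ.θ (τ.θ (τ.θ g)) = g := by
  obtain ⟨a, b, h⟩ := Q.ugrp_le_torus hg
  refine Units.ext ?_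
  rw [τ.θ_mat (τ.θ_mat (τ.θ_mat h)), h, τ.hs3, map_mul, map_mul, map_mul, τ.hs3]
  congr 1
  rw [← mul_assoc, ← mul_assoc]
  rw [τ.hεN, one_mul]

/-- The units fixed by the twist up to scalars. -/
noncomputable def Twist.base : Subgroup (GL (Fin 2) F) where
  carrier := {g | g ∈ Q.ugrp ∧ ∃ d : Fˣ, τ.θ g = scal d * g}
  one_mem' := ⟨Q.ugrp.one_mem, 1, by simp [scal]⟩
  mul_mem' := by
    rintro g h ⟨hg, d, hd⟩ ⟨hh, e, he⟩
    exact ⟨Q.ugrp.mul_mem hg hh, d * e, by
      rw [map_mul, hd, he, scal_mul, mul_assoc, ← mul_assoc g, ← scal_comm e g]; group⟩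
  inv_mem' := by
    rintro g ⟨hg, d, hd⟩
    exact ⟨Q.ugrp.inv_mem hg, d⁻¹, by
      rw [map_inv, hd, mul_inv_rev, show (scal d⁻¹ : GL (Fin 2) F) = (scal d)⁻¹ from map_inv _ _,
        ← show (scal d⁻¹ : GL (Fin 2) F) = (scal d)⁻¹ from map_inv _ _, scal_comm]⟩

/-- The base group consists of units. -/
lemma Twist.base_le : τ.base ≤ Q.ugrp := fun _ h => h.1

variable {ϖ : F} (hϖ : v ϖ = WithZero.exp (-1 : ℤ)) (h3 : v 3 = 1)

include h3 in
/-- An almost solution of `δ s k = k` is close to an integral exact solution. -/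
lemma Twist.exists_avg {δ r : F} (hδ : δ * τ.s δ * τ.s (τ.s δ) = 1) (hδ1 : v δ = 1) (hr : v r ≤ 1)
    {m : ℕ} (h : v (δ * τ.s r - r) ≤ WithZero.exp (-(m : ℤ))) :
    ∃ k, δ * τ.s k = k ∧ v k ≤ 1 ∧ v (r - k) ≤ WithZero.exp (-(m : ℤ)) := by
  have h30 : (3 : F) ≠ 0 := fun e => by simp [e] at h3
  refine ⟨(r + δ * τ.s r + δ * τ.s δ * τ.s (τ.s r)) / 3, ?_, ?_, ?_⟩
  · rw [map_div₀, map_add, map_add, map_mul, map_mul, map_mul, τ.hs3, map_ofNat]
    field_simp
    linear_combination r * hδ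
  · rw [map_div₀, h3, div_one]
    refine (v.map_add _ _).trans (max_le ((v.map_add _ _).trans (max_le hr ?_)) ?_) <;>
      simp only [map_mul, hδ1, τ.hs, one_mul] <;> exact hr
  · rw [show r - (r + δ * τ.s r + δ * τ.s δ * τ.s (τ.s r)) / 3
      = -((δ * τ.s r - r) + (δ * τ.s (δ * τ.s r - r) + (δ * τ.s r - r))) / 3 by
      rw [map_sub, map_mul]; field_simp; ring, map_div₀, h3, div_one, Valuation.map_neg]
    refine (v.map_add _ _).trans (max_le h ((v.map_add _ _).trans (max_le ?_ h)))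
    rw [map_mul, hδ1, one_mul, τ.hs]
    exact h

include h3 in
/-- Classes fixed at a level come from fixed classes. -/
theorem Twist.exists_base {m : ℕ} {u : GL (Fin 2) F} (hu : u ∈ Q.ugrp)
    (h : u⁻¹ * τ.θ u ∈ Q.levG m) : ∃ k ∈ τ.base, k⁻¹ * u ∈ Q.levG m := by
  rcases Nat.eq_zero_or_pos m with rfl | hm
  · exact ⟨1, τ.base.one_mem, by rwa [inv_one, one_mul, levG_zero]⟩
  obtain ⟨c, a, b, ha, hb, hn, h1⟩ := Q.exists_coords_ugrp hu
  obtain ⟨d, hd⟩ := τ.θ_scal c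
  have h2 : ((scal d * τ.θ u : GL (Fin 2) F) : Matrix (Fin 2) (Fin 2) F)
      = Q.mat (τ.s a) (τ.ε * τ.s b) := by rw [← hd, ← map_mul]; exact τ.θ_mat h1
  rw [coords_inv_mul c d ha hb hn (by rw [τ.hs]; exact ha)
    (by rw [map_mul, τ.hε, one_mul, τ.hs]; exact hb) (by rw [τ.v_nm]; exact hn) h1 h2] at h
  have hlt : WithZero.exp (-(m : ℤ)) < (1 : WithZero (Multiplicative ℤ)) := by
    rw [← WithZero.exp_zero, WithZero.exp_lt_exp]; omega
  -- average the slope, integral on one side, over the twist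
  rcases lt_or_eq_of_le hb with hblt | hb1
  · -- the slope `b / a`
    have ha1 : v a = 1 := Q.v_a_eq_one ha hblt hn
    have ha0 : a ≠ 0 := fun e => by simp [e] at ha1
    have hr : v (b / a) ≤ 1 := by rw [map_div₀, ha1, div_one]; exact hb
    obtain ⟨k, hk, hk1, hkr⟩ := τ.exists_avg h3 τ.hεN τ.hε hr (m := m) (by
      rw [map_div₀, show τ.ε * (τ.s b / τ.s a) - b / a = (a * (τ.ε * τ.s b) - τ.s a * b) /
          (a * τ.s a) by
        have : τ.s a ≠ 0 := fun e => ha0 ((map_eq_zero τ.s).1 e)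
        field_simp, map_div₀, map_mul, τ.hs, ha1, mul_one, div_one]
      exact h)
    have hklt : v k < 1 := by
      have h3' : v (b / a) < 1 := by rw [map_div₀, ha1, div_one]; exact hblt
      rw [show k = b / a - (b / a - k) by ring]
      exact lt_of_le_of_lt (v.map_sub _ _) (max_lt h3' (lt_of_le_of_lt hkr hlt))
    have hnk : v (Q.nm 1 k) = 1 := by
      rw [show Q.nm 1 k = 1 + (Q.t + Q.n * k) *
        k by simp [nm]; ring, Valuation.map_add_eq_of_lt_left, map_one]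
      rw [map_one, map_mul]
      refine lt_of_le_of_lt (mul_le_of_le_one_left' ((v.map_add _ _).trans (max_le Q.ht ?_))) hklt
      rw [map_mul]; exact mul_le_one' Q.hn hk1
    have hd0 : Q.nm 1 k ≠ 0 := fun e => by simp [e] at hnk
    have hel : Q.el 1 k hd0 ∈ τ.base := by
      refine ⟨le_withScalars _ ⟨1, k, by simp, hk1, hnk, rfl⟩, 1, ?_⟩
      refine Units.ext ?_
      rw [τ.θ_mat (g := Q.el 1 k hd0) rfl, hk, map_one]
      simp [scal]
    refine ⟨_, hel, ?_⟩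
    rw [coords_inv_mul (g := Q.el 1 k hd0) (a := 1) (b := k) 1 c (by simp) hk1 hnk ha hb hn
      (by simp [scal]) h1, show 1 * b - a * k = a * (b / a - k) by
        field_simp, map_mul, ha1, one_mul]
    exact hkr
  · -- the slope `a / b`
    have hb0 : b ≠ 0 := fun e => by simp [e] at hb1
    have hr : v (a / b) ≤ 1 := by rw [map_div₀, hb1, div_one]; exact ha
    have hδN : τ.ε⁻¹ * τ.s τ.ε⁻¹ * τ.s (τ.s τ.ε⁻¹) = 1 := by
      rw [map_inv₀, map_inv₀, ← mul_inv, ← mul_inv, τ.hεN, inv_one]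
    obtain ⟨k, hk, hk1, hkr⟩ :=
        τ.exists_avg h3 hδN (by rw [map_inv₀, τ.hε, inv_one]) hr (m := m) (by
      rw [map_div₀, show τ.ε⁻¹ * (τ.s a / τ.s b) - a / b
        = -(a * (τ.ε * τ.s b) - τ.s a * b) / (b * (τ.ε * τ.s b)) by
        have : τ.s b ≠ 0 := fun e => hb0 ((map_eq_zero τ.s).1 e)
        have := τ.ε_ne_zero
        field_simp; ring, map_div₀, Valuation.map_neg, map_mul, map_mul, τ.hs, hb1, τ.hε, mul_one,
          mul_one, div_one]
      exact h)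
    have hnk : v (Q.nm k 1) = 1 := by
      have hu1 : v (Q.nm (a / b) 1) = 1 := by
        rw [show Q.nm (a / b) 1 = Q.nm a b /
          (b * b) by simp [nm]; field_simp, map_div₀, map_mul, hb1, hn]
        simp
      rw [show Q.nm k 1 = Q.nm (a / b) 1 + (k - a / b) * (k + a / b + Q.t) by simp [nm]; ring,
        Valuation.map_add_eq_of_lt_left, hu1]
      rw [hu1, map_mul, Valuation.map_sub_swap]
      exact lt_of_le_of_lt (mul_le_of_le_one_right'
        ((v.map_add _ _).trans (max_le ((v.map_add _ _).trans (max_le hk1 hr)) Q.ht)))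
        (lt_of_le_of_lt hkr hlt)
    have hd0 : Q.nm k 1 ≠ 0 := fun e => by simp [e] at hnk
    have hel : Q.el k 1 hd0 ∈ τ.base := by
      refine ⟨le_withScalars _ ⟨k, 1, hk1, by simp, hnk, rfl⟩, Units.mk0 τ.ε τ.ε_ne_zero, ?_⟩
      refine Units.ext ?_
      rw [τ.θ_mat (g := Q.el k 1 hd0) rfl, map_one, Q.val_scal_mul _ rfl]
      have hsk : τ.s k = τ.ε * k := by
        conv_rhs => rw [← hk]
        rw [mul_inv_cancel_left₀ τ.ε_ne_zero]
      rw [hsk, Units.val_mk0, mul_one]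
    refine ⟨_, hel, ?_⟩
    rw [coords_inv_mul (g := Q.el k 1 hd0) (a := k) (b := 1) 1 c hk1 (by simp) hnk ha hb hn
      (by simp [scal]) h1, show k * b - a * 1 = -(b * (a / b - k)) by field_simp; ring,
      Valuation.map_neg, map_mul, hb1, one_mul]
    exact hkr

include hϖ in
/-- The index between two positive levels is a power of the residue cardinality. -/
lemma relIndex_levG_of_le {m i : ℕ} (hm : m ≠ 0) (hmi : m ≤ i) :
    (Q.levG i).relIndex (Q.levG m) = Nat.card κ ^ (i - m) := by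
  induction i, hmi using Nat.le_induction with
  | base => rw [Nat.sub_self, pow_zero, Subgroup.relIndex_self]
  | succ k hk ih =>
    rw [← Subgroup.relIndex_mul_relIndex _ _ _ (Q.levG_antitone (Nat.le_succ k))
      (Q.levG_antitone hk), Q.relIndex_levG_succ hϖ (by omega), ih, Nat.succ_sub hk, pow_succ]
    ring

/-- Units of the torus, up to scalars, commute. -/
lemma torus_comm' {g h : GL (Fin 2) F} (hg : g ∈ Q.ugrp) (hh : h ∈ Q.ugrp) : g * h = h * g :=
  Q.torus_comm (Q.ugrp_le_torus hg) (Q.ugrp_le_torus hh)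

/-- The group of unit classes is commutative. -/
noncomputable instance commGroupUgrp : CommGroup Q.ugrp :=
  { (inferInstance : Group Q.ugrp) with
    mul_comm := fun a b => Subtype.ext (torus_comm' a.2 b.2) }

/-- The twist on the unit group. -/
noncomputable def Twist.θu : Q.ugrp →* Q.ugrp :=
  MonoidHom.mk' (fun g => ⟨τ.θ g, τ.θ_ugrp g.2⟩) fun _ _ => Subtype.ext (map_mul τ.θ _ _)

/-- The matrix of a twisted unit. -/
@[simp] lemma Twist.coe_θu (g : Q.ugrp) : (τ.θu g : GL (Fin 2) F) = τ.θ g := rfl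

/-- Norm to the fixed algebra. -/
noncomputable def Twist.norm3 (x : GL (Fin 2) F) : GL (Fin 2) F := x * τ.θ x * τ.θ (τ.θ x)

/-- Every norm-one class of the first level is a coboundary there. -/
def Twist.H90 : Prop :=
  ∀ x ∈ Q.ugrp, τ.norm3 x ∈ Q.levG 1 → ∃ z ∈ Q.ugrp, x * (z⁻¹ * τ.θ z) ∈ Q.levG 1

/-- The first level can be reached from `x` if its norm is there. -/
def Twist.Sol1 (x : GL (Fin 2) F) : Prop :=
  τ.norm3 x ∈ Q.levG 1 → ∃ z ∈ Q.ugrp, x * (z⁻¹ * τ.θ z) ∈ Q.levG 1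

/-- Hilbert 90 gives a first solution. -/
lemma Twist.H90.sol1 {τ : Q.Twist} (h : τ.H90) {x : GL (Fin 2) F} (hx : x ∈ Q.ugrp) : τ.Sol1 x :=
  h x hx

/-- The norm is invariant under twisted translation. -/
lemma Twist.norm3_cobound {x z : GL (Fin 2) F} (hx : x ∈ Q.ugrp) (hz : z ∈ Q.ugrp) :
    τ.norm3 (x * (z⁻¹ * τ.θ z)) = τ.norm3 x := by
  have h3z : τ.θu (τ.θu (τ.θu ⟨z, hz⟩)) = ⟨z, hz⟩ := Subtype.ext (τ.θ_θ_θ hz)
  have key : ∀ X Z : Q.ugrp, τ.θu (τ.θu (τ.θu Z)) = Z →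
      X * (Z⁻¹ * τ.θu Z) * τ.θu (X * (Z⁻¹ * τ.θu Z)) * τ.θu (τ.θu (X * (Z⁻¹ * τ.θu Z)))
        = X * τ.θu X * τ.θu (τ.θu X) := by
    intro X Z hZ
    simp only [map_mul, map_inv, hZ]
    apply Additive.ofMul.injective
    simp only [ofMul_mul, ofMul_inv]
    abel
  exact congrArg Subtype.val (key ⟨x, hx⟩ ⟨z, hz⟩ h3z)

/-- The identity behind the cube trick. -/
lemma cobound_identity {G : Type*} [CommGroup G] (f : G →* G) {e q N : ℕ} (he : 3 * e = 1 + N * q)
    (X Z Y : G) (hY : Y = X * (Z⁻¹ * f Z)) :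
    X * ((Z * (Y * Y * f Y) ^ e)⁻¹ * f (Z * (Y * Y * f Y) ^ e))
      = (Y ^ N)⁻¹ ^ q * (Y * f Y * f (f Y)) ^ e := by
  set W := (Y * Y * f Y) ^ e with hW
  have h1 : X * ((Z * W)⁻¹ * f (Z * W)) = Y * (W⁻¹ * f W) := by
    rw [hY, map_mul]
    apply Additive.ofMul.injective
    simp only [ofMul_mul, ofMul_inv]
    abel
  rw [h1, hW, map_pow, map_mul, map_mul]
  generalize f Y = A
  generalize f A = B
  have hcast : Y ^ e * Y ^ e * Y ^ e = Y * (Y ^ N) ^ q := by
    rw [← pow_mul, ← pow_succ', ← pow_add, ← pow_add]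
    congr 1
    omega
  simp only [mul_pow, inv_pow]
  have h2 : ((Y ^ N) ^ q)⁻¹ = Y * (Y ^ e * Y ^ e * Y ^ e)⁻¹ := by
    rw [hcast, mul_inv_rev, mul_left_comm, mul_inv_cancel, mul_one]
  rw [h2]
  apply Additive.ofMul.injective
  simp only [ofMul_mul, ofMul_inv]
  abel

include hϖ in
/-- Solvability at a level. -/
theorem Twist.exists_solution (hQ : Nat.Coprime 3 (Nat.card κ)) {m : ℕ}
    {x : GL (Fin 2) F} (hx : x ∈ Q.ugrp) (h90 : τ.Sol1 x) (hN : τ.norm3 x ∈ Q.levG m) :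
    ∃ z ∈ Q.ugrp, x * (z⁻¹ * τ.θ z) ∈ Q.levG m := by
  rcases Nat.eq_zero_or_pos m with rfl | hm
  · exact ⟨1, Q.ugrp.one_mem, by simpa [levG_zero] using hx⟩
  -- first solve at level `1`
  obtain ⟨z₁, hz₁, hy⟩ := h90 (Q.levG_antitone hm hN)
  set y := x * (z₁⁻¹ * τ.θ z₁) with hydef
  have hyu : y ∈ Q.ugrp := Q.levG_le_ugrp 1 hy
  have hNy : τ.norm3 y ∈ Q.levG m := by rwa [τ.norm3_cobound hx hz₁]
  set N := Nat.card κ ^ (m - 1)
  have hNc : Nat.Coprime 3 N := hQ.pow_right _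
  obtain ⟨e, q, he⟩ := exists_three_mul_eq hNc
  -- `N` kills level `1` modulo level `m`
  have hpow : ∀ w ∈ Q.levG 1, w ^ N ∈ Q.levG m := by
    intro w hw
    let H : Subgroup (GL (Fin 2) F) := Q.levG 1
    let _ : CommGroup H :=
      { (inferInstance : Group H) with
        mul_comm :=
          fun a b => Subtype.ext (torus_comm' (Q.levG_le_ugrp 1 a.2) (Q.levG_le_ugrp 1 b.2)) }
    have h1 := Subgroup.pow_index_mem ((Q.levG m).subgroupOf H) (⟨w, hw⟩ : H)
    rw [show ((Q.levG m).subgroupOf H).index = N from relIndex_levG_of_le hϖ one_ne_zero hm] at h1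
    exact h1
  -- as `3` is prime to `N`, a power of `y * y * θ y` corrects `z₁`
  have hz2 : (y * y * τ.θ y) ^ e ∈ Q.levG 1 :=
    (Q.levG 1).pow_mem ((Q.levG 1).mul_mem ((Q.levG 1).mul_mem hy hy) (τ.θ_levG hy)) _
  refine ⟨z₁ * (y * y * τ.θ y) ^ e, Q.ugrp.mul_mem hz₁ (Q.levG_le_ugrp 1 hz2), ?_⟩
  clear_value y
  have hY : (⟨y, hyu⟩ : Q.ugrp) = ⟨x, hx⟩ * ((⟨z₁, hz₁⟩ : Q.ugrp)⁻¹ * τ.θu ⟨z₁, hz₁⟩) := by
    apply Subtype.ext
    simp only [Subgroup.coe_mul, Subgroup.coe_inv, Twist.coe_θu]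
    exact hydef
  have h0 := cobound_identity τ.θu he (⟨x, hx⟩ : Q.ugrp) ⟨z₁, hz₁⟩ ⟨y, hyu⟩ hY
  have h := congrArg Subtype.val h0
  simp only [Subgroup.coe_mul, Subgroup.coe_inv, SubmonoidClass.coe_pow, Twist.coe_θu] at h
  rw [h]
  exact (Q.levG m).mul_mem ((Q.levG m).pow_mem ((Q.levG m).inv_mem (hpow y hy)) q)
    ((Q.levG m).pow_mem hNy e)

end QA

end Fermat.LT
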