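import Mathlib

/-!
# Singular `2 × 2` matrices over a field and their image lines

`finrank_img_eq_one` gives the line and `adjugate_mul_eq_zero_iff` reads inclusions of lines;
`card_lines` counts them.
-/

set_option autoImplicit false

namespace Fermat.LT

variable {k : Type*} [Field k]

/-- The image of a matrix as a subspace. -/
noncomputable abbrev img (A : Matrix (Fin 2) (Fin 2) k) : Submodule k (Fin 2 → k) :=
  LinearMap.range (Matrix.toLin' A)

/-- The image of a product lies in that of the left factor. -/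
lemma img_mul_le (A B : Matrix (Fin 2) (Fin 2) k) : img (A * B) ≤ img A := by
  rw [img, Matrix.toLin'_mul]; exact LinearMap.range_comp_le_range _ _

/-- Right multiplication by a unit does not change the image. -/
lemma img_mul_unit (A : Matrix (Fin 2) (Fin 2) k) (B : (Matrix (Fin 2) (Fin 2) k)ˣ) :
    img (A * (B : Matrix (Fin 2) (Fin 2) k)) = img A := by
  refine le_antisymm (img_mul_le _ _) ?_
  have := img_mul_le (A * (B : Matrix (Fin 2) (Fin 2) k))
    ((B⁻¹ : (Matrix (Fin 2) (Fin 2) k)ˣ) : Matrix (Fin 2) (Fin 2) k)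
  rwa [Matrix.mul_assoc, Units.mul_inv, Matrix.mul_one] at this

/-- A nonzero matrix has nonzero image. -/
lemma finrank_img_ne_zero {A : Matrix (Fin 2) (Fin 2) k} (hA : A ≠ 0) :
    Module.finrank k (img A) ≠ 0 := by
  intro h
  rw [Submodule.finrank_eq_zero, LinearMap.range_eq_bot] at h
  exact hA (by simpa using h)

/-- A nonzero singular `2 × 2` matrix has a line as image. -/
lemma finrank_img_eq_one {A : Matrix (Fin 2) (Fin 2) k} (hA : A ≠ 0) (hd : A.det = 0) :
    Module.finrank k (img A) = 1 := by
  have h0 := finrank_img_ne_zero hA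
  have h2 := LinearMap.finrank_range_add_finrank_ker (Matrix.toLin' A)
  have hk : 0 < Module.finrank k (LinearMap.ker (Matrix.toLin' A)) := by
    rw [Module.finrank_pos_iff, Submodule.nontrivial_iff_ne_bot]
    obtain ⟨x, hx, hAx⟩ := (Matrix.exists_mulVec_eq_zero_iff).2 hd
    intro h
    exact hx (by simpa [h] using (show x ∈ LinearMap.ker (Matrix.toLin' A) by simpa using hAx))
  simp only [Module.finrank_fintype_fun_eq_card, Fintype.card_fin] at h2
  simp only [img] at h0 ⊢
  omega

/-- `adj A * B = 0` iff `img B ≤ img A`, for nonzero singular `A`. -/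
lemma adjugate_mul_eq_zero_iff {A B : Matrix (Fin 2) (Fin 2) k} (hA : A ≠ 0) (hd : A.det = 0) :
    A.adjugate * B = 0 ↔ img B ≤ img A := by
  have hadj : A.adjugate ≠ 0 := fun h => hA (by
    have := congrArg Matrix.adjugate h
    rwa [Matrix.adjugate_adjugate' A, Fintype.card_fin, pow_zero, one_smul,
      Matrix.adjugate_zero] at this)
  have hle : img A ≤ LinearMap.ker (Matrix.toLin' A.adjugate) := by
    rw [img, LinearMap.range_le_ker_iff, ← Matrix.toLin'_mul, Matrix.adjugate_mul, hd]
    simp
  have heq : img A = LinearMap.ker (Matrix.toLin' A.adjugate) := by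
    refine Submodule.eq_of_le_of_finrank_le hle ?_
    have h2 := LinearMap.finrank_range_add_finrank_ker (Matrix.toLin' A.adjugate)
    have h1 := finrank_img_ne_zero hadj
    have h3 := finrank_img_eq_one hA hd
    simp only [Module.finrank_fintype_fun_eq_card, Fintype.card_fin] at h2
    simp only [img] at h1 h3 ⊢
    omega
  rw [heq, img, LinearMap.range_le_ker_iff, ← Matrix.toLin'_mul]
  exact (LinearEquiv.map_eq_zero_iff Matrix.toLin').symm

/-- Every line is spanned by a nonzero vector. -/
lemma exists_vec_of_line {ℓ : Submodule k (Fin 2 → k)} (h : Module.finrank k ℓ = 1) :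
    ∃ x : Fin 2 → k, x ≠ 0 ∧ ℓ = k ∙ x := by
  obtain ⟨⟨x, hx⟩, hne, hspan⟩ := finrank_eq_one_iff'.1 h
  refine ⟨x, fun h0 => hne (Subtype.ext h0), le_antisymm (fun y hy => ?_) ?_⟩
  · obtain ⟨c, hc⟩ := hspan ⟨y, hy⟩
    exact Submodule.mem_span_singleton.2 ⟨c, congrArg Subtype.val hc⟩
  · rwa [Submodule.span_singleton_le_iff_mem]

/-- The number of lines in `k²`. -/
lemma card_lines [Finite k] :
    Nat.card {ℓ : Submodule k (Fin 2 → k) // Module.finrank k ℓ = 1} = Nat.card k + 1 := by
  rw [← Nat.card_congr (Projectivization.equivSubmodule k (Fin 2 → k)),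
    Projectivization.card_of_finrank_two k (Fin 2 → k) (by simp)]

end Fermat.LT
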