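import Fermat.Agent.LT.Lvl
import Fermat.Agent.LT.Plane

/-!
# Directions of vertices; the tree property of `lvl`

`isStep_iff_lvl` says that steps are the elements of level one; `step_coset_eq_iff` that a
neighbour is determined by its direction.
-/

set_option autoImplicit false

namespace Fermat.LT

variable {F : Type*} [Field F] (v : Valuation F (WithZero (Multiplicative ℤ)))

local notation "𝒪" => v.valuationSubring
/-- Residue field. -/
local notation "κ" => IsLocalRing.ResidueField v.valuationSubring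

/-- The units have valuation one. -/
lemma isUnit_iff_v_eq_one (x : 𝒪) : IsUnit x ↔ v (x : F) = 1 :=
  Valuation.Integers.isUnit_iff_valuation_eq_one (Valuation.integer.integers v)

/-- Zero residue means non-unit. -/
lemma residue_eq_zero_iff_v (x : 𝒪) : IsLocalRing.residue 𝒪 x = 0 ↔ v (x : F) < 1 := by
  rw [← not_iff_not, ← ne_eq, IsLocalRing.residue_ne_zero_iff_isUnit, isUnit_iff_v_eq_one, not_lt]
  exact ⟨fun h => h.ge, fun h => le_antisymm ((v.mem_valuationSubring_iff _).1 x.2) h⟩

/-- Reduction of an integral matrix. -/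
noncomputable abbrev red (M : Matrix (Fin 2) (Fin 2) 𝒪) : Matrix (Fin 2) (Fin 2) κ :=
  M.map (IsLocalRing.residue 𝒪)

/-- Reduction is multiplicative. -/
lemma red_mul (M N : Matrix (Fin 2) (Fin 2) 𝒪) : red v (M * N) = red v M * red v N :=
  Matrix.map_mul

/-- Reduction commutes with adjugates. -/
lemma red_adjugate (M : Matrix (Fin 2) (Fin 2) 𝒪) : red v M.adjugate = (red v M).adjugate :=
  RingHom.map_adjugate (IsLocalRing.residue 𝒪) M

/-- Reduction commutes with determinants. -/
lemma red_det (M : Matrix (Fin 2) (Fin 2) 𝒪) :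
    (red v M).det = IsLocalRing.residue 𝒪 M.det :=
  (RingHom.map_det (IsLocalRing.residue 𝒪) M).symm

/-- Primitive means nonzero reduction. -/
lemma isPrim_iff_red (M : Matrix (Fin 2) (Fin 2) 𝒪) : IsPrim v M ↔ red v M ≠ 0 := by
  constructor
  · rintro ⟨i, j, h⟩ h0
    have := congrFun (congrFun h0 i) j
    change IsLocalRing.residue 𝒪 (M i j) = 0 at this
    rw [residue_eq_zero_iff_v, h] at this
    exact lt_irrefl _ this
  · intro h
    by_contra hc
    simp only [IsPrim, not_exists] at hc
    refine h (Matrix.ext fun i j => ?_)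
    change IsLocalRing.residue 𝒪 (M i j) = 0
    rw [residue_eq_zero_iff_v]
    exact lt_of_le_of_ne ((v.mem_valuationSubring_iff _).1 (M i j).2) (hc i j)

/-- Representatives multiply when the reduced product does not vanish. -/
lemma IsRep.mul {g h : GL (Fin 2) F} {M N : Matrix (Fin 2) (Fin 2) 𝒪} (hM : IsRep v g M)
    (hN : IsRep v h N) (hp : red v (M * N) ≠ 0) : IsRep v (g * h) (M * N) := by
  obtain ⟨-, c, hc, e⟩ := hM
  obtain ⟨-, d, hd, e'⟩ := hN
  refine ⟨(isPrim_iff_red v _).2 hp, c * d, mul_ne_zero hc hd, ?_⟩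
  rw [toF_mul, e, e', Units.val_mul, Matrix.smul_mul, Matrix.mul_smul, smul_smul]

/-- Levels add when the product stays primitive. -/
lemma IsRep.lvl_mul {g h : GL (Fin 2) F} {M N : Matrix (Fin 2) (Fin 2) 𝒪} (hM : IsRep v g M)
    (hN : IsRep v h N) (hp : red v (M * N) ≠ 0) : lvl v (g * h) = lvl v g + lvl v h := by
  have h1 := (hM.mul v hN hp).lvl_eq v
  rw [toF_mul, Matrix.det_mul, ord_mul v (hM.det_ne_zero v) (hN.det_ne_zero v),
    ← hM.lvl_eq v, ← hN.lvl_eq v] at h1
  exact_mod_cast h1

/-- Positive level means singular reduction. -/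
lemma IsRep.lvl_pos_iff {g : GL (Fin 2) F} {M} (hM : IsRep v g M) :
    0 < lvl v g ↔ (red v M).det = 0 := by
  rw [red_det, residue_eq_zero_iff_v, ← toF_det, ← ord_pos_iff v (hM.det_ne_zero v),
    ← hM.lvl_eq v]
  exact Int.natCast_pos.symm

/-- Level zero means the maximal subgroup. -/
lemma IsRep.mem_U0 {g : GL (Fin 2) F} {M} (hM : IsRep v g M) (h : lvl v g = 0) : g ∈ U0 v := by
  have hd : ¬ (red v M).det = 0 := fun h0 => by
    have := (hM.lvl_pos_iff v).2 h0; omega
  rw [red_det, ← ne_eq, IsLocalRing.residue_ne_zero_iff_isUnit] at hd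
  obtain ⟨-, c, hc, e⟩ := hM
  let Mu : (Matrix (Fin 2) (Fin 2) v.integer)ˣ := ((Matrix.isUnit_iff_isUnit_det M).2 hd).unit
  refine ⟨Units.mk0 c hc, Mu, ?_⟩
  refine Units.ext ?_
  change toF v M = _
  rw [e, Units.val_mul, scal_coe, Matrix.scalar_apply, ← Matrix.smul_eq_diagonal_mul]
  simp

/-- Level zero is exactly `U0`. -/
lemma lvl_eq_zero_iff (g : GL (Fin 2) F) : lvl v g = 0 ↔ g ∈ U0 v := by
  obtain ⟨M, hM⟩ := exists_rep v g
  refine ⟨hM.mem_U0 v, fun h => ?_⟩
  have e : lvl v g = lvl v ((1 : GL (Fin 2) F) * g) := by rw [one_mul]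
  have h1 : IsRep v (1 : GL (Fin 2) F) 1 :=
    ⟨⟨0, 0, by simp⟩, 1, one_ne_zero, by simp [toF]⟩
  have h2 := h1.lvl_eq v
  rw [e, lvl_mul_right v h]
  simpa [toF] using h2

/-- The direction of a coset seen from the base vertex. -/
noncomputable def dir (g : GL (Fin 2) F) : Submodule κ (Fin 2 → κ) :=
  img (red v (exists_rep v g).choose)

/-- The direction is the image of the reduction. -/
lemma IsRep.dir_eq {g : GL (Fin 2) F} {M} (hM : IsRep v g M) : dir v g = img (red v M) := by
  obtain ⟨u, hu, e⟩ := hM.unique v (exists_rep v g).choose_spec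
  let u' : 𝒪 := ⟨u, (v.mem_valuationSubring_iff _).2 hu.le⟩
  have hM' : (exists_rep v g).choose = u' • M := by
    refine Matrix.ext fun i j => Subtype.ext ?_
    have := congrFun (congrFun e i) j
    simpa [toF, u'] using this
  have hne : IsLocalRing.residue 𝒪 u' ≠ 0 := by
    rw [IsLocalRing.residue_ne_zero_iff_isUnit, isUnit_iff_v_eq_one]; exact hu
  have hred : red v (u' • M) = IsLocalRing.residue 𝒪 u' • red v M := by
    ext i j; simp
  rw [dir, hM', hred, img, map_smul, LinearMap.range_smul _ _ hne]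

/-- The direction of a vertex other than the base one is a line. -/
lemma finrank_dir {g : GL (Fin 2) F} (h : 0 < lvl v g) :
    Module.finrank κ (dir v g) = 1 := by
  obtain ⟨M, hM⟩ := exists_rep v g
  rw [hM.dir_eq v]
  exact finrank_img_eq_one ((isPrim_iff_red v M).1 hM.1) ((hM.lvl_pos_iff v).1 h)

/-- The direction depends only on the vertex. -/
lemma dir_mul_right {g k : GL (Fin 2) F} (hk : k ∈ U0 v) : dir v (g * k) = dir v g := by
  obtain ⟨M, hM⟩ := exists_rep v g
  obtain ⟨d, hd⟩ := hk
  obtain ⟨K, hK⟩ := exists_intMat v hd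
  have hKr : IsRep v k (K : Matrix (Fin 2) (Fin 2) 𝒪) := by
    refine ⟨?_, (d : F), d.ne_zero, ?_⟩
    · have := IsPrim.mul_unit v (M := 1) ⟨0, 0, by simp⟩ K
      simpa using this
    · rw [hK, Units.val_mul, scal_coe, Matrix.scalar_apply, ← Matrix.smul_eq_diagonal_mul]
  let Ku := Units.map (RingHom.mapMatrix (IsLocalRing.residue 𝒪)).toMonoidHom K
  have hp : red v (M * (K : Matrix (Fin 2) (Fin 2) 𝒪)) ≠ 0 :=
    (isPrim_iff_red v _).1 (hM.1.mul_unit v K)
  rw [(hM.mul v hKr hp).dir_eq v, hM.dir_eq v, red_mul]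
  exact img_mul_unit _ Ku

/-- A step in another direction than that of a vertex raises its level by one. -/
lemma lvl_inv_mul_of_dir_ne {g h : GL (Fin 2) F} (hg : 0 < lvl v g) (hh : lvl v h = 1)
    (hne : dir v h ≠ dir v g) : lvl v (h⁻¹ * g) = lvl v g + 1 := by
  obtain ⟨M, hM⟩ := exists_rep v g
  obtain ⟨N, hN⟩ := exists_rep v h
  have hp : red v (N.adjugate * M) ≠ 0 := by
    rw [red_mul, red_adjugate, Ne, adjugate_mul_eq_zero_iff ((isPrim_iff_red v N).1 hN.1)
      ((hN.lvl_pos_iff v).1 (by omega)), ← hM.dir_eq v, ← hN.dir_eq v]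
    intro hle
    exact hne (Submodule.eq_of_le_of_finrank_le hle
      (by rw [finrank_dir v (g := g) hg, finrank_dir v (g := h) (by omega)])).symm
  rw [(hN.inv v).lvl_mul v hM hp, lvl_inv, hh, add_comm]

/-- A step in the direction of a vertex reduces its level by one. -/
lemma lvl_inv_mul_of_dir_eq {g h : GL (Fin 2) F} (hh : lvl v h = 1)
    (heq : dir v h = dir v g) : lvl v (h⁻¹ * g) + 1 = lvl v g := by
  obtain ⟨M, hM⟩ := exists_rep v g
  obtain ⟨N, hN⟩ := exists_rep v h
  have hdetN : ord v (toF v N).det = 1 := by rw [← hN.lvl_eq v, hh]; rfl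
  -- equal directions: `adj N * M` vanishes modulo `v`
  have hz : red v (N.adjugate * M) = 0 := by
    rw [red_mul, red_adjugate, adjugate_mul_eq_zero_iff ((isPrim_iff_red v N).1 hN.1)
      ((hN.lvl_pos_iff v).1 (by omega)), ← hM.dir_eq v, ← hN.dir_eq v, heq]
  set δ : F := (toF v N).det with hδ
  have hδ0 : δ ≠ 0 := hN.det_ne_zero v
  have hint : ∀ i j, δ⁻¹ * ((N.adjugate * M) i j : F) ∈ v.valuationSubring := fun i j => by
    rw [v.mem_valuationSubring_iff, map_mul]
    have hlt : v (((N.adjugate * M) i j : 𝒪) : F) < 1 := by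
      rw [← residue_eq_zero_iff_v]; exact congrFun (congrFun hz i) j
    rcases eq_or_ne (((N.adjugate * M) i j : 𝒪) : F) 0 with h0 | h0
    · simp [h0]
    rw [← map_mul, ← ord_nonneg_iff v (mul_ne_zero (inv_ne_zero hδ0) h0),
      ord_mul v (inv_ne_zero hδ0) h0, ord_inv, hdetN]
    have := (ord_pos_iff v h0).2 hlt
    omega
  -- so `P = N⁻¹ M` is integral and primitive
  let P : Matrix (Fin 2) (Fin 2) 𝒪 := Matrix.of fun i j => ⟨_, hint i j⟩
  have hP : toF v P = δ⁻¹ • toF v (N.adjugate * M) := by ext i j; simp [P, toF]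
  have hNP : N * P = M := by
    refine Matrix.map_injective (f := fun x : 𝒪 => (x : F)) Subtype.coe_injective ?_
    change toF v (N * P) = toF v M
    rw [toF_mul, hP, toF_mul, toF_adjugate, Matrix.mul_smul, ← Matrix.mul_assoc,
      Matrix.mul_adjugate, Matrix.smul_mul, Matrix.one_mul, smul_smul, inv_mul_cancel₀ hδ0,
      one_smul]
  have hPp : red v P ≠ 0 := fun h0 => by
    refine (isPrim_iff_red v M).1 hM.1 ?_
    rw [← hNP, red_mul, h0, Matrix.mul_zero]
  obtain ⟨-, c, hc, e⟩ := hN.inv v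
  obtain ⟨-, d, hd, e'⟩ := id hM
  -- it represents `h⁻¹ g`; compare determinants
  have hR : IsRep v (h⁻¹ * g) P := by
    refine ⟨(isPrim_iff_red v P).2 hPp, δ⁻¹ * (c * d),
      mul_ne_zero (inv_ne_zero hδ0) (mul_ne_zero hc hd), ?_⟩
    rw [hP, toF_mul, e, e', Units.val_mul, Matrix.smul_mul, Matrix.mul_smul, smul_smul,
      smul_smul, mul_assoc]
  have h1 := hR.lvl_eq v
  have h2 : ord v (toF v M).det = ord v δ + ord v (toF v P).det := by
    rw [← hNP, toF_mul, Matrix.det_mul, ord_mul v hδ0 (hR.det_ne_zero v)]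
  rw [← hM.lvl_eq v, ← h1, hdetN] at h2
  omega

/-- Steps are exactly the elements of level one. -/
lemma isStep_iff_lvl (g : GL (Fin 2) F) : IsStep v g ↔ lvl v g = 1 := by
  constructor
  · rintro ⟨c, hint, hdet⟩
    let M : Matrix (Fin 2) (Fin 2) 𝒪 :=
      Matrix.of fun i j => ⟨_, (v.mem_valuationSubring_iff _).2 (hint i j)⟩
    have hMF : toF v M = ((scal c * g : GL (Fin 2) F) : Matrix (Fin 2) (Fin 2) F) := by
      ext i j; simp [M, toF]
    have hMs : toF v M = (c : F) • (g : Matrix (Fin 2) (Fin 2) F) := by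
      rw [hMF, Units.val_mul, scal_coe, Matrix.scalar_apply, ← Matrix.smul_eq_diagonal_mul]
    -- A step scales to a primitive matrix, as its determinant has order one.
    have hp : IsPrim v M := by
      by_contra hp
      rw [isPrim_iff_red, not_not] at hp
      have hlt : ∀ i j, v (toF v M i j) ≤ WithZero.exp (-1 : ℤ) := fun i j => by
        have h1 : v (M i j : F) < 1 := by
          rw [← residue_eq_zero_iff_v]; exact congrFun (congrFun hp i) j
        rcases eq_or_ne (M i j : F) 0 with h0 | h0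
        · simp [toF, h0]
        have h2 : v (M i j : F) ≤ WithZero.exp (-1 : ℤ) := by
          rw [v_eq_exp v h0, WithZero.exp_le_exp]
          have := (ord_pos_iff v h0).2 h1
          omega
        simpa [toF] using h2
      have hle : v (toF v M).det ≤ WithZero.exp (-2 : ℤ) := by
        rw [Matrix.det_fin_two]
        refine le_trans (v.map_sub _ _) (max_le ?_ ?_) <;>
        · rw [map_mul, show (-2 : ℤ) = -1 + -1 by norm_num, WithZero.exp_add]
          exact mul_le_mul' (hlt _ _) (hlt _ _)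
      rw [hMF, hdet, WithZero.exp_le_exp] at hle
      omega
    have hR : IsRep v g M := ⟨hp, c, c.ne_zero, hMs⟩
    have h1 := hR.lvl_eq v
    rw [hMF, ord, hdet, WithZero.log_exp, neg_neg] at h1
    exact_mod_cast h1
  · intro h
    -- Conversely a representative at level one is a step.
    obtain ⟨M, hM⟩ := exists_rep v g
    have h1 := hM.lvl_eq v
    have h0 := hM.det_ne_zero v
    obtain ⟨-, c, hc, e⟩ := hM
    have hMF : ((scal (Units.mk0 c hc) * g : GL (Fin 2) F) : Matrix (Fin 2) (Fin 2) F)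
        = toF v M := by
      rw [e, Units.val_mul, scal_coe, Matrix.scalar_apply, ← Matrix.smul_eq_diagonal_mul]
      simp
    refine ⟨Units.mk0 c hc, fun i j => ?_, ?_⟩ <;> rw [hMF]
    · exact (v.mem_valuationSubring_iff _).1 (M i j).2
    · rw [v_eq_exp v h0, ← h1, h]; rfl

/-- Every line is the direction of a neighbour. -/
lemma exists_step_dir {ϖ : F} (hϖ : v ϖ = WithZero.exp (-1 : ℤ)) {ℓ : Submodule κ (Fin 2 → κ)}
    (hℓ : Module.finrank κ ℓ = 1) : ∃ h : GL (Fin 2) F, lvl v h = 1 ∧ dir v h = ℓ := by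
  obtain ⟨x, hx, rfl⟩ := exists_vec_of_line hℓ
  let p : 𝒪 := ⟨ϖ, by
    rw [v.mem_valuationSubring_iff, hϖ, ← WithZero.exp_zero, WithZero.exp_le_exp]; omega⟩
  have hp0 : IsLocalRing.residue 𝒪 p = 0 := by
    rw [residue_eq_zero_iff_v]; change v ϖ < 1
    rw [hϖ, ← WithZero.exp_zero, WithZero.exp_lt_exp]; omega
  obtain ⟨a, ha⟩ := IsLocalRing.residue_surjective (R := 𝒪) (x 0)
  obtain ⟨b, hb⟩ := IsLocalRing.residue_surjective (R := 𝒪) (x 1)
  -- a primitive matrix of determinant of order one steps in the direction of its reduction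
  have key : ∀ (M : Matrix (Fin 2) (Fin 2) 𝒪), v (toF v M).det = WithZero.exp (-1 : ℤ) →
      red v M ≠ 0 → img (red v M) = κ ∙ x →
      ∃ h : GL (Fin 2) F, lvl v h = 1 ∧ dir v h = κ ∙ x := by
    intro M hd hr hi
    have hne : (toF v M).det ≠ 0 := fun h =>
      WithZero.exp_ne_zero (by rw [h, map_zero] at hd; exact hd.symm)
    let g := Matrix.GeneralLinearGroup.mkOfDetNeZero (toF v M) hne
    have hR : IsRep v g M := ⟨(isPrim_iff_red v M).2 hr, 1, one_ne_zero, (one_smul _ _).symm⟩
    refine ⟨g, ?_, (hR.dir_eq v).trans hi⟩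
    have h1 := hR.lvl_eq v
    rw [ord, hd, WithZero.log_exp, neg_neg] at h1
    exact_mod_cast h1
  rcases eq_or_ne (x 0) 0 with h0 | h0
  · have hb1 : v (b : F) = 1 := by
      rw [← isUnit_iff_v_eq_one, ← IsLocalRing.residue_ne_zero_iff_isUnit, hb]
      intro hb0; exact hx (funext fun i => by fin_cases i <;> assumption)
    refine key !![0, p; b, 0] (by simp [toF, Matrix.det_fin_two, map_mul, hb1, p, hϖ]) ?_ ?_
    · intro hh
      have := congrFun (congrFun hh 1) 0
      simp [red, hb] at this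
      exact hx (funext fun i => by fin_cases i <;> assumption)
    · apply le_antisymm
      · rintro y ⟨z, rfl⟩
        refine Submodule.mem_span_singleton.2 ⟨z 0, funext fun i => ?_⟩
        fin_cases i <;> simp [red, hp0, hb, h0, Matrix.toLin'_apply, mul_comm]
      · rw [Submodule.span_singleton_le_iff_mem]
        refine ⟨![1, 0], funext fun i => ?_⟩
        fin_cases i <;> simp [red, hp0, hb, h0, Matrix.toLin'_apply]
  · have ha1 : v (a : F) = 1 := by
      rw [← isUnit_iff_v_eq_one, ← IsLocalRing.residue_ne_zero_iff_isUnit, ha]; exact h0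
    refine key !![a, 0; b, p] (by simp [toF, Matrix.det_fin_two, map_mul, ha1, p, hϖ]) ?_ ?_
    · intro hh
      have := congrFun (congrFun hh 0) 0
      simp [red, ha] at this
      exact h0 this
    · apply le_antisymm
      · rintro y ⟨z, rfl⟩
        refine Submodule.mem_span_singleton.2 ⟨z 0, funext fun i => ?_⟩
        fin_cases i <;> simp [red, hp0, hb, ha, Matrix.toLin'_apply, mul_comm]
      · rw [Submodule.span_singleton_le_iff_mem]
        refine ⟨![1, 0], funext fun i => ?_⟩
        fin_cases i <;> simp [red, hp0, hb, ha, Matrix.toLin'_apply]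

/-- Equality of cosets of neighbours is equality of directions. -/
lemma step_coset_eq_iff {h h' : GL (Fin 2) F} (hh : lvl v h = 1) (hh' : lvl v h' = 1) :
    (h : GL (Fin 2) F ⧸ U0 v) = h' ↔ dir v h = dir v h' := by
  rw [QuotientGroup.eq]
  constructor
  · intro hk
    have := dir_mul_right v (g := h) hk
    rw [mul_inv_cancel_left] at this
    exact this.symm
  · intro he
    rw [← lvl_eq_zero_iff]
    have := lvl_inv_mul_of_dir_eq v (g := h') (h := h) hh he
    omega

end Fermat.LT
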