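import Fermat.Agent.LT.LocQA
import Fermat.Agent.LT.Sphere

/-!
# The unit classes of a local quadratic algebra and their numbers

`ugrp` is the group of units up to scalars, `levG i` the part fixing the vertex `diag(1, ϖ^i)`.
The quotient has `g₁ q^(i-1)` elements, `g₁` being the number of points of the projective line over
the residue field which are not roots of the norm form.
-/

set_option autoImplicit false
open scoped Matrix

namespace Fermat.LT

variable {F : Type*} [Field F] {v : Valuation F (WithZero (Multiplicative ℤ))}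

local notation "κ" => IsLocalRing.ResidueField v.valuationSubring

/-- Residue of an integral element (`0` otherwise). -/
noncomputable def resd (v : Valuation F (WithZero (Multiplicative ℤ))) (x : F) :
    IsLocalRing.ResidueField v.valuationSubring :=
  open scoped Classical in
  if h : v x ≤ 1 then IsLocalRing.residue v.valuationSubring ⟨x, (v.mem_valuationSubring_iff x).2 h⟩
    else 0

/-- The residue of an integral element. -/
lemma resd_eq {x : F} (h : v x ≤ 1) :
    resd v x = IsLocalRing.residue v.valuationSubring ⟨x, (v.mem_valuationSubring_iff x).2 h⟩ :=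
  dif_pos h

/-- Residues add. -/
lemma resd_add {x y : F} (hx : v x ≤ 1) (hy : v y ≤ 1) : resd v (x + y) = resd v x + resd v y := by
  rw [resd_eq hx, resd_eq hy, resd_eq ((v.map_add _ _).trans (max_le hx hy)), ← map_add]
  rfl

/-- Residues multiply. -/
lemma resd_mul {x y : F} (hx : v x ≤ 1) (hy : v y ≤ 1) : resd v (x * y) = resd v x * resd v y := by
  have hxy : v (x * y) ≤ 1 := by rw [map_mul]; exact mul_le_one' hx hy
  rw [resd_eq hx, resd_eq hy, resd_eq hxy, ← map_mul]
  rfl

/-- The residue of an opposite. -/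
lemma resd_neg {x : F} (hx : v x ≤ 1) : resd v (-x) = -resd v x := by
  rw [resd_eq hx, resd_eq (show v (-x) ≤ 1 by rwa [Valuation.map_neg]), ← map_neg]
  rfl

/-- Zero residue means non-unit. -/
lemma resd_eq_zero_iff {x : F} (hx : v x ≤ 1) : resd v x = 0 ↔ v x < 1 := by
  rw [resd_eq hx, residue_eq_zero_iff_v]

/-- Two integral elements have the same residue exactly when their difference is small. -/
lemma resd_eq_iff {x y : F} (hx : v x ≤ 1) (hy : v y ≤ 1) :
    resd v x = resd v y ↔ v (x - y) < 1 := by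
  rw [← sub_eq_zero, sub_eq_add_neg, ← resd_neg hy,
    ← resd_add hx (by rwa [Valuation.map_neg]), ← sub_eq_add_neg,
    resd_eq_zero_iff ((v.map_sub _ _).trans (max_le hx hy))]

/-- Reduction is surjective. -/
lemma exists_resd_eq (z : κ) : ∃ x : F, v x ≤ 1 ∧ resd v x = z := by
  obtain ⟨⟨x, hx⟩, rfl⟩ := IsLocalRing.residue_surjective z
  exact ⟨x, (v.mem_valuationSubring_iff x).1 hx, resd_eq ((v.mem_valuationSubring_iff x).1 hx)⟩

namespace QA

variable (Q : QA v)

/-- A scalar multiplies both coordinates of an algebra element. -/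
lemma val_scal_mul {g : GL (Fin 2) F} {a b : F} (c : Fˣ)
    (hg : (g : Matrix (Fin 2) (Fin 2) F) = Q.mat a b) :
    ((scal c * g : GL (Fin 2) F) : Matrix (Fin 2) (Fin 2) F) = Q.mat (c * a) (c * b) := by
  rw [Units.val_mul, scal_coe, hg, Matrix.scalar_apply, ← Matrix.smul_eq_diagonal_mul]
  ext i j
  fin_cases i <;> fin_cases j <;> simp [mat] <;> ring

/-- Coordinates of a multiple give those of the element. -/
lemma val_of_scal_mul {g : GL (Fin 2) F} {a b : F} (c : Fˣ)
    (hg : ((scal c * g : GL (Fin 2) F) : Matrix (Fin 2) (Fin 2) F) = Q.mat a b) :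
    (g : Matrix (Fin 2) (Fin 2) F) = Q.mat ((c : F)⁻¹ * a) ((c : F)⁻¹ * b) := by
  have := Q.val_scal_mul c⁻¹ hg
  rwa [← mul_assoc, ← scal_mul, inv_mul_cancel, show scal (1 : Fˣ) = 1 by simp [scal], one_mul,
    Units.val_inv_eq_inv_val] at this

/-- The coordinates are unique. -/
lemma mat_inj {a b c d : F} (h : Q.mat a b = Q.mat c d) : a = c ∧ b = d :=
  ⟨by simpa [mat] using congrFun (congrFun h 0) 0, by simpa [mat] using congrFun (congrFun h 1) 0⟩

/-- Units of the order with second coordinate divisible by `ϖ^i`. -/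
noncomputable def congUnit (i : ℕ) : Subgroup (GL (Fin 2) F) where
  carrier := {g | ∃ a b, v a ≤ 1 ∧ v b ≤ WithZero.exp (-(i : ℤ)) ∧ v (Q.nm a b) = 1 ∧
    (g : Matrix (Fin 2) (Fin 2) F) = Q.mat a b}
  one_mem' := ⟨1, 0, by simp, by simp, by simp [nm], by rw [mat_one, Units.val_one]⟩
  mul_mem' := by
    rintro g h ⟨a, b, ha, hb, hn, hg⟩ ⟨c, d, hc, hd, hn', hh⟩
    have h1 : WithZero.exp (-(i : ℤ)) ≤ (1 : WithZero (Multiplicative ℤ)) := by
      rw [← WithZero.exp_zero, WithZero.exp_le_exp]; omega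
    -- products: the entries stay bounded and norms multiply
    refine ⟨_, _, ?_, ?_, ?_, by rw [Units.val_mul, hg, hh, mat_mul]⟩
    · refine (v.map_sub _ _).trans (max_le ?_ ?_) <;> simp only [map_mul]
      · exact mul_le_one' ha hc
      · exact mul_le_one' Q.hn (mul_le_one' (hb.trans h1) (hd.trans h1))
    · refine (v.map_add _ _).trans (max_le ((v.map_add _ _).trans (max_le ?_ ?_)) ?_) <;>
        simp only [map_mul]
      · exact (mul_le_of_le_one_left' ha).trans hd
      · exact (mul_le_of_le_one_right' hc).trans hb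
      · exact (mul_le_of_le_one_left' Q.ht).trans ((mul_le_of_le_one_right' (hd.trans h1)).trans hb)
    · rw [nm_mul, map_mul, hn, hn', mul_one]
  inv_mem' := by
    rintro g ⟨a, b, ha, hb, hn, hg⟩
    have h1 : WithZero.exp (-(i : ℤ)) ≤ (1 : WithZero (Multiplicative ℤ)) := by
      rw [← WithZero.exp_zero, WithZero.exp_le_exp]; omega
    have hgu : g ∈ Q.unitGrp := ⟨a, b, ha, hb.trans h1, hn, hg⟩
    -- inverses: taken in `unitGrp`
    obtain ⟨c, d, hc, -, hn', hh⟩ := Q.unitGrp.inv_mem hgu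
    refine ⟨c, d, hc, ?_, hn', hh⟩
    -- the off-diagonal entry bounds that of the inverse
    have hm : Q.mat (a * c - Q.n * (b * d)) (a * d + b * c + Q.t * (b * d)) = Q.mat 1 0 := by
      rw [← mat_mul, ← hg, ← hh, ← Units.val_mul, mul_inv_cancel, Units.val_one, mat_one]
    have h0 := (Q.mat_inj hm).2
    rcases Nat.eq_zero_or_pos i with rfl | hi
    · obtain ⟨c', d', -, hd', -, hh'⟩ := Q.unitGrp.inv_mem hgu
      obtain ⟨-, rfl⟩ := Q.mat_inj (hh.symm.trans hh')
      simpa using hd'
    · have hb1 : v b < 1 :=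
        lt_of_le_of_lt hb (by rw [← WithZero.exp_zero, WithZero.exp_lt_exp]; omega)
      have hu : v (a + Q.t * b) = 1 := by
        rw [Valuation.map_add_eq_of_lt_left, Q.v_a_eq_one ha hb1 hn]
        rw [Q.v_a_eq_one ha hb1 hn, map_mul]
        exact lt_of_le_of_lt (mul_le_of_le_one_left' Q.ht) hb1
      have e : (a + Q.t * b) * d = -(b * c) := by linear_combination h0
      have e2 := congrArg v e
      rw [map_mul, hu, one_mul, Valuation.map_neg, map_mul] at e2
      rw [e2]
      exact (mul_le_of_le_one_right' hc).trans hb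

/-- Congruence groups consist of units. -/
lemma congUnit_le_unitGrp (i : ℕ) : Q.congUnit i ≤ Q.unitGrp := fun _ ⟨a, b, ha, hb, hn, hg⟩ =>
  ⟨a, b, ha, hb.trans (by rw [← WithZero.exp_zero, WithZero.exp_le_exp]; omega), hn, hg⟩

/-- Depth zero is all units. -/
lemma congUnit_zero : Q.congUnit 0 = Q.unitGrp := by
  refine le_antisymm (Q.congUnit_le_unitGrp 0) ?_
  rintro g ⟨a, b, ha, hb, hn, hg⟩
  exact ⟨a, b, ha, by simpa using hb, hn, hg⟩

/-- Units up to scalars. -/
noncomputable def ugrp : Subgroup (GL (Fin 2) F) := withScalars Q.unitGrp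

/-- The part of level `i`. -/
noncomputable def levG (i : ℕ) : Subgroup (GL (Fin 2) F) := withScalars (Q.congUnit i)

/-- Adjoining scalars is monotone. -/
lemma withScalars_mono {H H' : Subgroup (GL (Fin 2) F)} (h : H ≤ H') :
    withScalars H ≤ withScalars H' := fun _ ⟨c, hc⟩ => ⟨c, h hc⟩

/-- The stabilisers consist of units. -/
lemma levG_le_ugrp (i : ℕ) : Q.levG i ≤ Q.ugrp := withScalars_mono (Q.congUnit_le_unitGrp i)

/-- Every unit fixes the base vertex. -/
lemma levG_zero : Q.levG 0 = Q.ugrp := by rw [levG, congUnit_zero, ugrp]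

/-- The stabilisers decrease. -/
lemma levG_antitone {i j : ℕ} (h : i ≤ j) : Q.levG j ≤ Q.levG i :=
  withScalars_mono fun _ ⟨a, b, ha, hb, hn, hg⟩ =>
    ⟨a, b, ha, hb.trans (by rw [WithZero.exp_le_exp]; omega), hn, hg⟩

/-- Units lie in the torus. -/
lemma ugrp_le_torus : Q.ugrp ≤ Q.torus := by
  rintro g ⟨c, hc⟩
  have := Q.torus.mul_mem (Q.torus.inv_mem (Q.scal_mem_torus c)) (Q.unitGrp_le_torus hc)
  rwa [inv_mul_cancel_left] at this

/-- Units lie in the maximal subgroup. -/
lemma ugrp_le_U0 : Q.ugrp ≤ U0 v := by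
  rintro g ⟨c, hc⟩
  have := (U0 v).mul_mem ((U0 v).inv_mem (scal_mem_withScalars _ c)) (Q.unitGrp_le_U0 hc)
  rwa [inv_mul_cancel_left] at this

/-- Membership through integral coordinates with unit norm. -/
lemma mem_levG_iff {i : ℕ} {g : GL (Fin 2) F} {a b : F} (c : Fˣ) (ha : v a ≤ 1)
    (hn : v (Q.nm a b) = 1)
    (hg : ((scal c * g : GL (Fin 2) F) : Matrix (Fin 2) (Fin 2) F) = Q.mat a b) :
    g ∈ Q.levG i ↔ v b ≤ WithZero.exp (-(i : ℤ)) := by
  refine ⟨?_, fun h => ⟨c, a, b, ha, h, hn, hg⟩⟩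
  rintro ⟨d, a', b', ha', hb', hn', hg'⟩
  have e := Q.val_scal_mul (d * c⁻¹) hg
  rw [← mul_assoc, ← scal_mul, inv_mul_cancel_right, hg'] at e
  obtain ⟨e1, e2⟩ := Q.mat_inj e
  have hnn : Q.nm a' b' = (((d * c⁻¹ : Fˣ) : F)) ^ 2 * Q.nm a b := by
    simp only [nm, e1, e2]; ring
  have hv := congrArg v hnn
  rw [map_mul, map_pow, hn', hn, mul_one, eq_comm,
    pow_eq_one_iff_of_nonneg zero_le two_ne_zero] at hv
  rw [e2, map_mul, hv, one_mul] at hb'
  exact hb'

/-- A unit class has a representative with integral coordinates and unit norm. -/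
lemma exists_coords_ugrp {g : GL (Fin 2) F} (hg : g ∈ Q.ugrp) :
    ∃ (c : Fˣ) (a b : F), v a ≤ 1 ∧ v b ≤ 1 ∧ v (Q.nm a b) = 1 ∧
      ((scal c * g : GL (Fin 2) F) : Matrix (Fin 2) (Fin 2) F) = Q.mat a b := by
  obtain ⟨c, a, b, ha, hb, hn, h⟩ := hg
  exact ⟨c, a, b, ha, hb, hn, h⟩

/-- The classes of `ugrp` modulo `levG i`. -/
abbrev UQ (i : ℕ) : Type _ := Q.ugrp ⧸ (Q.levG i).subgroupOf Q.ugrp

/-- The number of classes of level one. -/
noncomputable def g1 : ℕ := Nat.card (Q.UQ 1)

/-- The roots of the norm form in the residue field. -/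
noncomputable def roots : Set κ :=
  {x | x * x + resd v Q.t * x + resd v Q.n = 0}

/-- The residue of the norm of `s + ω`. -/
lemma resd_nm {s : F} (hs : v s ≤ 1) :
    resd v (Q.nm s 1) = resd v s * resd v s + resd v Q.t * resd v s + resd v Q.n := by
  have h1 : v (s * s) ≤ 1 := by rw [map_mul]; exact mul_le_one' hs hs
  have h2 : v (Q.t * s) ≤ 1 := by rw [map_mul]; exact mul_le_one' Q.ht hs
  rw [show Q.nm s 1 = s * s + Q.t * s + Q.n by simp [nm],
    resd_add ((v.map_add _ _).trans (max_le h1 h2)) Q.hn, resd_add h1 h2, resd_mul hs hs,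
    resd_mul Q.ht hs]

/-- `s + ω` is a unit unless the residue of `s` is a root. -/
lemma v_nm_one_iff {s : F} (hs : v s ≤ 1) : v (Q.nm s 1) = 1 ↔ resd v s ∉ Q.roots := by
  have h := Q.v_nm_le hs (b := (1 : F)) (by simp)
  rw [roots, Set.mem_ofPred_eq, ← resd_nm Q hs, resd_eq_zero_iff h, not_lt]
  exact ⟨fun e => e.ge, fun e => le_antisymm h e⟩

/-- The point of the projective line of a class. -/
noncomputable def toPt (v : Valuation F (WithZero (Multiplicative ℤ))) (g : GL (Fin 2) F) :
    Option (IsLocalRing.ResidueField v.valuationSubring) :=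
  open scoped Classical in
  let M : Matrix (Fin 2) (Fin 2) F := g
  if v (M 1 0) < v (M 0 0) then none else some (resd v (M 0 0 / M 1 0))

/-- The projective point of a unit class is the residue of `a / b`, or infinity when `b` is
small. -/
lemma toPt_eq {g : GL (Fin 2) F} {a b : F} (c : Fˣ) (ha : v a ≤ 1) (hn : v (Q.nm a b) = 1)
    (hg : ((scal c * g : GL (Fin 2) F) : Matrix (Fin 2) (Fin 2) F) = Q.mat a b) :
    (v b < 1 → toPt v g = none) ∧ (v b = 1 → toPt v g = some (resd v (a / b))) := by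
  have h0 := Q.val_of_scal_mul c hg
  have hc : v ((c : F)⁻¹) ≠ 0 := by simp
  constructor
  · intro hlt
    rw [toPt]
    simp only [h0, mat, Matrix.of_apply, Matrix.cons_val', Matrix.cons_val_zero,
      Matrix.cons_val_one, Matrix.cons_val_fin_one, map_mul]
    rw [if_pos]
    exact (mul_lt_mul_iff_right₀ (zero_lt_iff.2 hc)).2 (by rw [Q.v_a_eq_one ha hlt hn]; exact hlt)
  · intro he
    rw [toPt]
    simp only [h0, mat, Matrix.of_apply, Matrix.cons_val', Matrix.cons_val_zero,
      Matrix.cons_val_one, Matrix.cons_val_fin_one, map_mul]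
    rw [if_neg, mul_div_mul_left _ _ (inv_ne_zero c.ne_zero)]
    rw [not_lt, he]
    exact mul_le_mul_right ha _

variable {Q} in
/-- Two unit classes agree modulo level `i` exactly when `a b' - a' b` is small to that order. -/
lemma coords_inv_mul {g h : GL (Fin 2) F} {a b a' b' : F} (c d : Fˣ) (ha : v a ≤ 1) (hb : v b ≤ 1)
    (hn : v (Q.nm a b) = 1) (ha' : v a' ≤ 1) (hb' : v b' ≤ 1) (hn' : v (Q.nm a' b') = 1)
    (hg : ((scal c * g : GL (Fin 2) F) : Matrix (Fin 2) (Fin 2) F) = Q.mat a b)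
    (hh : ((scal d * h : GL (Fin 2) F) : Matrix (Fin 2) (Fin 2) F) = Q.mat a' b') (i : ℕ) :
    g⁻¹ * h ∈ Q.levG i ↔ v (a * b' - a' * b) ≤ WithZero.exp (-(i : ℤ)) := by
  obtain ⟨A, B, hA, hB, hN, hi⟩ := Q.unitGrp.inv_mem
    (show scal c * g ∈ Q.unitGrp from ⟨a, b, ha, hb, hn, hg⟩)
  have hd : Q.nm a b ≠ 0 := fun e => by simp [e] at hn
  have hAB : A = (a + Q.t * b) / Q.nm a b ∧ B = -b / Q.nm a b := by
    refine Q.mat_inj ?_
    rw [← hi, ← Units.mul_right_inj (a := scal c * g), ← Units.val_mul, mul_inv_cancel, hg, mat_mul,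
      Units.val_one, ← Q.mat_one]
    congr 1 <;> field_simp <;> simp [nm]; ring
  set P := A * b' + B * a' + Q.t * (B * b') with hP
  have hprod : ((scal (c⁻¹ * d) * (g⁻¹ * h) : GL (Fin 2) F) : Matrix (Fin 2) (Fin 2) F)
      = Q.mat (A * a' - Q.n * (B * b')) P := by
    rw [show scal (c⁻¹ * d) * (g⁻¹ * h) = (scal c * g)⁻¹ * (scal d * h) by
      rw [scal_mul, mul_inv_rev, show (scal c⁻¹ : GL (Fin 2) F) = (scal c)⁻¹ from map_inv _ _,
        mul_assoc g⁻¹, ← mul_assoc (scal c)⁻¹, ← show (scal c⁻¹ : GL (Fin 2) F) = (scal c)⁻¹ from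
        map_inv _ _, ← scal_mul, ← mul_assoc, scal_comm, mul_assoc],
      Units.val_mul, hi, hh, mat_mul]
  have hN' : v (Q.nm (A * a' - Q.n * (B * b')) P) = 1 := by
    rw [hP, nm_mul, map_mul, hN, hn', mul_one]
  have hPv : v P = v (a * b' - a' * b) := by
    rw [hP, hAB.1, hAB.2,
      show (a + Q.t * b) / Q.nm a b * b' + -b / Q.nm a b * a' + Q.t * (-b / Q.nm a b * b')
        = (a * b' - a' * b) / Q.nm a b by field_simp; ring, map_div₀, hn, div_one]
  have hint : v (A * a' - Q.n * (B * b')) ≤ 1 := by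
    refine (v.map_sub _ _).trans (max_le ?_ ?_) <;> simp only [map_mul]
    · exact mul_le_one' hA ha'
    · exact mul_le_one' Q.hn (mul_le_one' hB hb')
  exact (Q.mem_levG_iff (c⁻¹ * d) hint hN' hprod).trans (by rw [hPv])

/-- The level one classes are the points outside the roots. -/
noncomputable def uqOneEquiv : Q.UQ 1 ≃ {p : Option κ // ∀ x ∈ p, x ∉ Q.roots} := by
  have hmem : ∀ g ∈ Q.ugrp, ∀ x ∈ toPt v g, x ∉ Q.roots := by
    intro g hg x hx
    obtain ⟨c, a, b, ha, hb, hn, h⟩ := Q.exists_coords_ugrp hg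
    rcases lt_or_eq_of_le hb with hlt | he
    · rw [(Q.toPt_eq c ha hn h).1 hlt] at hx; simp at hx
    · rw [(Q.toPt_eq c ha hn h).2 he, Option.mem_some_iff] at hx
      subst hx
      have hs : v (a / b) ≤ 1 := by rw [map_div₀, he, div_one]; exact ha
      rw [← Q.v_nm_one_iff hs]
      have hb0 : b ≠ 0 := fun e => by simp [e] at he
      rw [show Q.nm (a / b) 1 = Q.nm a b / (b * b) by simp [nm]; field_simp, map_div₀, map_mul, he,
        hn]
      simp
  -- two units agree at level one iff they give the same residual point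
  have hiff : ∀ g h : Q.ugrp, (g⁻¹ * h : Q.ugrp) ∈ (Q.levG 1).subgroupOf Q.ugrp ↔
      toPt v (g : GL (Fin 2) F) = toPt v (h : GL (Fin 2) F) := by
    rintro ⟨g, hg⟩ ⟨h, hh⟩
    rw [Subgroup.mem_subgroupOf]
    obtain ⟨c, a, b, ha, hb, hn, h1⟩ := Q.exists_coords_ugrp hg
    obtain ⟨d, a', b', ha', hb', hn', h2⟩ := Q.exists_coords_ugrp hh
    refine (coords_inv_mul c d ha hb hn ha' hb' hn' h1 h2 1).trans ?_
    rw [Nat.cast_one, le_exp_neg_one_iff]
    change _ ↔ toPt v g = toPt v h
    rcases lt_or_eq_of_le hb with hlt | he <;> rcases lt_or_eq_of_le hb' with hlt' | he'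
    · rw [(Q.toPt_eq c ha hn h1).1 hlt, (Q.toPt_eq d ha' hn' h2).1 hlt']
      refine iff_of_true (lt_of_le_of_lt (v.map_sub _ _) (max_lt ?_ ?_)) rfl <;> rw [map_mul]
      · exact lt_of_le_of_lt (mul_le_of_le_one_left' ha) hlt'
      · exact lt_of_le_of_lt (mul_le_of_le_one_left' ha') hlt
    · rw [(Q.toPt_eq c ha hn h1).1 hlt, (Q.toPt_eq d ha' hn' h2).2 he']
      refine iff_of_false ?_ (by simp)
      rw [Valuation.map_sub_eq_of_lt_left, map_mul, Q.v_a_eq_one ha hlt hn, he', mul_one]
      · exact lt_irrefl _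
      · rw [map_mul, map_mul, Q.v_a_eq_one ha hlt hn, he', mul_one]
        exact lt_of_le_of_lt (mul_le_of_le_one_left' ha') hlt
    · rw [(Q.toPt_eq c ha hn h1).2 he, (Q.toPt_eq d ha' hn' h2).1 hlt']
      refine iff_of_false ?_ (by simp)
      rw [Valuation.map_sub_swap, Valuation.map_sub_eq_of_lt_left, map_mul,
        Q.v_a_eq_one ha' hlt' hn', he, mul_one]
      · exact lt_irrefl _
      · rw [map_mul, map_mul, Q.v_a_eq_one ha' hlt' hn', he, mul_one]
        exact lt_of_le_of_lt (mul_le_of_le_one_left' ha) hlt'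
    · rw [(Q.toPt_eq c ha hn h1).2 he, (Q.toPt_eq d ha' hn' h2).2 he', Option.some_inj,
        resd_eq_iff (by rw [map_div₀, he, div_one]; exact ha)
          (by rw [map_div₀, he', div_one]; exact ha'),
        show a / b - a' / b' = (a * b' - a' * b) / (b * b') by
          have hb0 : b ≠ 0 := fun e => by simp [e] at he
          have hb0' : b' ≠ 0 := fun e => by simp [e] at he'
          field_simp, map_div₀, map_mul, he, he', mul_one, div_one]
  refine Equiv.ofBijective
    (Quotient.lift (fun g : Q.ugrp => (⟨toPt v (g : GL (Fin 2) F), hmem _ g.2⟩ :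
      {p : Option κ // ∀ x ∈ p, x ∉ Q.roots}))
      fun g h hgh => Subtype.ext ((hiff g h).1 (QuotientGroup.leftRel_apply.1 hgh))) ⟨?_, ?_⟩
  · intro x y
    induction x using Quotient.inductionOn with
    | h g =>
      induction y using Quotient.inductionOn with
      | h h =>
        intro e
        exact Quotient.sound (QuotientGroup.leftRel_apply.2 ((hiff g h).2 (congrArg Subtype.val e)))
  · rintro ⟨p, hp⟩
    rcases p with _ | z
    · refine ⟨Quotient.mk _ 1, Subtype.ext ?_⟩
      change toPt v ((1 : Q.ugrp) : GL (Fin 2) F) = none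
      exact (Q.toPt_eq (a := 1) (b := 0) 1 (by simp) (by simp [nm])
        (by simp [scal, mat_one])).1 (by simp)
    · obtain ⟨s, hs, rfl⟩ := exists_resd_eq z
      have hn : v (Q.nm s 1) = 1 := (Q.v_nm_one_iff hs).2 (hp _ rfl)
      have hd : Q.nm s 1 ≠ 0 := fun e => by simp [e] at hn
      have hu : Q.el s 1 hd ∈ Q.ugrp := le_withScalars _ ⟨s, 1, hs, by simp, hn, rfl⟩
      refine ⟨Quotient.mk _ ⟨_, hu⟩, Subtype.ext ?_⟩
      change toPt v (Q.el s 1 hd) = some _
      rw [(Q.toPt_eq (a := s) (b := 1) 1 hs hn (by simp [scal])).2 (by simp), div_one]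

/-- The level one classes and the residual roots together number the residue cardinality plus
one. -/
theorem g1_eq [Finite κ] : Q.g1 + Q.roots.ncard = Nat.card κ + 1 := by
  have e : {p : Option κ // ∀ x ∈ p, x ∉ Q.roots} ≃ Option {x : κ // x ∉ Q.roots} :=
    { toFun := fun p => match p with
        | ⟨none, _⟩ => none
        | ⟨some x, h⟩ => some ⟨x, h x rfl⟩
      invFun := fun p => match p with
        | none => ⟨none, by simp⟩
        | some x => ⟨some x.1, by simpa using x.2⟩
      left_inv := fun p => by rcases p with ⟨_ | x, h⟩ <;> rfl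
      right_inv := fun p => by rcases p with _ | x <;> rfl }
  rw [g1, Nat.card_congr (Q.uqOneEquiv.trans e), Finite.card_option,
    show Nat.card {x : κ // x ∉ Q.roots} = (Q.rootsᶜ).ncard from Nat.card_coe_set_eq _]
  have := Set.ncard_add_ncard_compl Q.roots
  omega

end QA

end Fermat.LT
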