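import Mathlib

/-!
# Local vertices

For a field `F` with a `ℤᵐ⁰`-valued valuation we form the level subgroups of `GL₂(F)` used in the
lattice model of `PGL₂`: `Fermat.LT.U0 v = Fˣ ⬝ GL₂(O_v)` and `Fermat.LT.U1 v = Fˣ ⬝ K(1)`.
No completion is used: `GL₂(F) ⧸ U0 v` is the set of homothety classes of lattices.
-/

set_option autoImplicit false

namespace Fermat.LT

variable {F : Type*} [Field F] (v : Valuation F (WithZero (Multiplicative ℤ)))

/-- The scalar matrix as element of `GL₂(F)`. -/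
noncomputable def scal (c : Fˣ) : GL (Fin 2) F :=
  Units.map (Matrix.scalar (Fin 2)).toMonoidHom c

/-- The matrix of a scalar. -/
@[simp] lemma scal_coe (c : Fˣ) :
    ((scal c : GL (Fin 2) F) : Matrix (Fin 2) (Fin 2) F) = Matrix.scalar (Fin 2) (c : F) := rfl

/-- Scalars multiply. -/
lemma scal_mul (c d : Fˣ) : scal (c * d) = scal c * scal d := map_mul _ _ _

/-- Scalars are central. -/
lemma scal_comm (c : Fˣ) (g : GL (Fin 2) F) : scal c * g = g * scal c := by
  ext1
  simp only [Units.val_mul, scal_coe]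
  exact Matrix.scalar_commute (c : F) (fun x => mul_comm (c : F) x) _

/-- The scalar extension of a subgroup: all `scal c * g` with `g ∈ H`. -/
def withScalars (H : Subgroup (GL (Fin 2) F)) : Subgroup (GL (Fin 2) F) where
  carrier := {g | ∃ c : Fˣ, scal c * g ∈ H}
  one_mem' := ⟨1, by simp [scal]⟩
  mul_mem' := by
    rintro a b ⟨c, hc⟩ ⟨d, hd⟩
    refine ⟨c * d, ?_⟩
    have := H.mul_mem hc hd
    rw [scal_mul]
    have e : scal c * scal d * (a * b) = scal c * a * (scal d * b) := by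
      rw [mul_assoc, ← mul_assoc (scal d), scal_comm d a]; group
    rw [e]; exact this
  inv_mem' := by
    rintro a ⟨c, hc⟩
    refine ⟨c⁻¹, ?_⟩
    have e : scal c⁻¹ * a⁻¹ = (scal c * a)⁻¹ := by
      rw [mul_inv_rev, show (scal c⁻¹ : GL (Fin 2) F) = (scal c)⁻¹ from map_inv _ _]
      have := scal_comm c⁻¹ a⁻¹
      rwa [show (scal c⁻¹ : GL (Fin 2) F) = (scal c)⁻¹ from map_inv _ _] at this
    rw [e]; exact H.inv_mem hc

/-- A group lies in its extension by scalars. -/
lemma le_withScalars (H : Subgroup (GL (Fin 2) F)) : H ≤ withScalars H :=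
  fun g hg => ⟨1, by simpa [scal] using hg⟩

/-- The extension contains the scalars. -/
lemma scal_mem_withScalars (H : Subgroup (GL (Fin 2) F)) (c : Fˣ) : scal c ∈ withScalars H :=
  ⟨c⁻¹, by rw [← scal_mul, inv_mul_cancel]; simp [scal]⟩

/-- `GL₂(O_v)` inside `GL₂(F)`. -/
def intGL : Subgroup (GL (Fin 2) F) :=
  (Matrix.GeneralLinearGroup.map (n := Fin 2) v.integer.subtype).range

/-- Principal congruence subgroup `K(1)` at `v`. -/
def congGL : Subgroup (GL (Fin 2) F) where
  carrier := {g | g ∈ intGL v ∧ ∀ i j, v ((g : Matrix (Fin 2) (Fin 2) F) i j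
      - (1 : Matrix (Fin 2) (Fin 2) F) i j) < 1}
  one_mem' := ⟨(intGL v).one_mem, fun i j => by simp⟩
  mul_mem' := by
    rintro a b ⟨ha, ha'⟩ ⟨hb, hb'⟩
    refine ⟨(intGL v).mul_mem ha hb, fun i j => ?_⟩
    have hb1 : ∀ i j, v ((b : Matrix (Fin 2) (Fin 2) F) i j) ≤ 1 := by
      obtain ⟨b0, rfl⟩ := hb
      intro i j; exact ((b0 : Matrix (Fin 2) (Fin 2) v.integer) i j).2
    -- products: `ab - 1 = (a - 1) b + (b - 1)`
    have e : ((a * b : GL (Fin 2) F) : Matrix (Fin 2) (Fin 2) F) i j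
          - (1 : Matrix (Fin 2) (Fin 2) F) i j
        = ∑ k, ((a : Matrix (Fin 2) (Fin 2) F) i k - (1 : Matrix (Fin 2) (Fin 2) F) i k)
            * (b : Matrix (Fin 2) (Fin 2) F) k j
          + ((b : Matrix (Fin 2) (Fin 2) F) i j - (1 : Matrix (Fin 2) (Fin 2) F) i j) := by
      simp only [Units.val_mul, Matrix.mul_apply, sub_mul, Finset.sum_sub_distrib]
      simp [Matrix.one_apply]
    rw [e]
    refine lt_of_le_of_lt (v.map_add _ _) (max_lt ?_ (hb' i j))
    refine v.map_sum_lt one_ne_zero fun k _ => ?_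
    rw [map_mul]
    exact lt_of_le_of_lt (mul_le_of_le_one_right' (hb1 k j)) (ha' i k)
  inv_mem' := by
    rintro a ⟨ha, ha'⟩
    refine ⟨(intGL v).inv_mem ha, fun i j => ?_⟩
    have hb1 : ∀ i j, v (((a⁻¹ : GL (Fin 2) F) : Matrix (Fin 2) (Fin 2) F) i j) ≤ 1 := by
      obtain ⟨b0, hb0⟩ := (intGL v).inv_mem ha
      intro i j; rw [← hb0]; exact ((b0 : Matrix (Fin 2) (Fin 2) v.integer) i j).2
    -- inverses: `a⁻¹ - 1 = -(a - 1) a⁻¹`
    have e : ((a⁻¹ : GL (Fin 2) F) : Matrix (Fin 2) (Fin 2) F) i j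
          - (1 : Matrix (Fin 2) (Fin 2) F) i j
        = - ∑ k, ((a : Matrix (Fin 2) (Fin 2) F) i k - (1 : Matrix (Fin 2) (Fin 2) F) i k)
            * ((a⁻¹ : GL (Fin 2) F) : Matrix (Fin 2) (Fin 2) F) k j := by
      have h : ∑ k, (a : Matrix (Fin 2) (Fin 2) F) i k
          * ((a⁻¹ : GL (Fin 2) F) : Matrix (Fin 2) (Fin 2) F) k j
          = (1 : Matrix (Fin 2) (Fin 2) F) i j := by
        rw [← Matrix.mul_apply, ← Units.val_mul, mul_inv_cancel]; simp
      simp only [sub_mul, Finset.sum_sub_distrib, h]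
      simp [Matrix.one_apply]
    rw [e, Valuation.map_neg]
    refine v.map_sum_lt one_ne_zero fun k _ => ?_
    rw [map_mul]
    exact lt_of_le_of_lt (mul_le_of_le_one_right' (hb1 k j)) (ha' i k)

/-- Stabiliser of the standard vertex. -/
def U0 : Subgroup (GL (Fin 2) F) := withScalars (intGL v)

/-- Level `K(1)` with scalars. -/
def U1 : Subgroup (GL (Fin 2) F) := withScalars (congGL v)

/-- The congruence subgroup lies in the maximal one. -/
lemma U1_le_U0 : U1 v ≤ U0 v := fun _ ⟨c, hc⟩ => ⟨c, hc.1⟩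

/-- `m` scales to an integral matrix whose determinant is a uniformiser: distance one. -/
def IsStep (m : GL (Fin 2) F) : Prop :=
  ∃ c : Fˣ, (∀ i j, v (((scal c * m : GL (Fin 2) F) : Matrix (Fin 2) (Fin 2) F) i j) ≤ 1) ∧
    v ((scal c * m : GL (Fin 2) F) : Matrix (Fin 2) (Fin 2) F).det
      = WithZero.exp (-1 : ℤ)

end Fermat.LT
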