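import Fermat.Agent.LT.Local

/-!
# Primitive representatives and the level (tree distance) of an element of `GL₂(F)`

`lvl` is the level, invariant under `U0` on both sides (`lvl_mul_right`, `lvl_mul_left`); `IsRep`
says that a primitive integral matrix represents an element.
-/

set_option autoImplicit false

namespace Fermat.LT

open scoped Matrix

variable {F : Type*} [Field F] (v : Valuation F (WithZero (Multiplicative ℤ)))

/-- Normalised additive valuation. -/
noncomputable def ord (x : F) : ℤ := -(WithZero.log (v x))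

/-- The valuation in terms of the order. -/
lemma v_eq_exp {x : F} (hx : x ≠ 0) : v x = WithZero.exp (-ord v x) := by
  rw [ord, neg_neg, WithZero.exp_log (by simpa using hx)]

/-- Orders add. -/
lemma ord_mul {x y : F} (hx : x ≠ 0) (hy : y ≠ 0) : ord v (x * y) = ord v x + ord v y := by
  simp only [ord, map_mul, WithZero.log_mul (v.ne_zero_iff.2 hx) (v.ne_zero_iff.2 hy)]; ring

/-- One has order zero. -/
@[simp] lemma ord_one : ord v (1 : F) = 0 := by simp [ord]

/-- The order of an inverse. -/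
lemma ord_inv {x : F} : ord v x⁻¹ = -ord v x := by simp [ord, WithZero.log_inv]

/-- The order of a power. -/
lemma ord_pow {x : F} (n : ℕ) : ord v (x ^ n) = n * ord v x := by
  simp [ord, WithZero.log_pow]

/-- Nonnegative order means integral. -/
lemma ord_nonneg_iff {x : F} (hx : x ≠ 0) : 0 ≤ ord v x ↔ v x ≤ 1 := by
  rw [v_eq_exp v hx, ← WithZero.exp_zero, WithZero.exp_le_exp]; omega

/-- Order zero means unit. -/
lemma ord_eq_zero_iff {x : F} (hx : x ≠ 0) : ord v x = 0 ↔ v x = 1 := by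
  rw [v_eq_exp v hx, ← WithZero.exp_zero, WithZero.exp_inj]; omega

/-- Positive order means non-unit. -/
lemma ord_pos_iff {x : F} (hx : x ≠ 0) : 0 < ord v x ↔ v x < 1 := by
  rw [v_eq_exp v hx, ← WithZero.exp_zero, WithZero.exp_lt_exp]; omega

/-- In the value group, being at most `exp (-1)` means being less than `1`. -/
lemma le_exp_neg_one_iff {x : WithZero (Multiplicative ℤ)} :
    x ≤ WithZero.exp (-1 : ℤ) ↔ x < 1 := by
  rcases eq_or_ne x 0 with rfl | hx
  · simp
  rw [← WithZero.exp_log hx, WithZero.exp_le_exp, ← WithZero.exp_zero, WithZero.exp_lt_exp]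
  omega

/-- The valuation ring. -/
local notation "𝒪" => v.valuationSubring

/-- Matrices over the valuation ring as matrices over `F`. -/
abbrev toF (M : Matrix (Fin 2) (Fin 2) 𝒪) : Matrix (Fin 2) (Fin 2) F :=
  M.map (Subring.subtype v.valuationSubring.toSubring)

/-- Some entry is a unit. -/
def IsPrim (M : Matrix (Fin 2) (Fin 2) 𝒪) : Prop := ∃ i j, v (M i j : F) = 1

/-- Inclusion commutes with determinants. -/
lemma toF_det (M : Matrix (Fin 2) (Fin 2) 𝒪) : (toF v M).det = (M.det : F) :=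
  (RingHom.map_det (Subring.subtype v.valuationSubring.toSubring) M).symm

/-- Inclusion commutes with adjugates. -/
lemma toF_adjugate (M : Matrix (Fin 2) (Fin 2) 𝒪) :
    toF v M.adjugate = (toF v M).adjugate :=
  RingHom.map_adjugate (Subring.subtype v.valuationSubring.toSubring) M

/-- Inclusion is multiplicative. -/
lemma toF_mul (M N : Matrix (Fin 2) (Fin 2) 𝒪) : toF v (M * N) = toF v M * toF v N :=
  Matrix.map_mul

/-- An integral matrix has integral determinant. -/
lemma v_det_toF (M : Matrix (Fin 2) (Fin 2) 𝒪) : v (toF v M).det ≤ 1 := by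
  rw [toF_det]; exact M.det.2

/-- `M` is a primitive integral multiple of `g`. -/
def IsRep (g : GL (Fin 2) F) (M : Matrix (Fin 2) (Fin 2) 𝒪) : Prop :=
  IsPrim v M ∧ ∃ c : F, c ≠ 0 ∧ toF v M = c • (g : Matrix (Fin 2) (Fin 2) F)

/-- Every matrix has a primitive integral multiple. -/
lemma exists_rep (g : GL (Fin 2) F) : ∃ M, IsRep v g M := by
  classical
  obtain ⟨⟨i₀, j₀⟩, -, hmax⟩ := Finset.exists_max_image (Finset.univ : Finset (Fin 2 × Fin 2))
    (fun p => v ((g : Matrix (Fin 2) (Fin 2) F) p.1 p.2)) Finset.univ_nonempty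
  set G : Matrix (Fin 2) (Fin 2) F := ↑g with hG
  have hne : G i₀ j₀ ≠ 0 := by
    intro h0
    have : ∀ i j, G i j = 0 := fun i j => by
      have := hmax (i, j) (Finset.mem_univ _)
      simpa [h0] using this
    have hdet : G.det ≠ 0 := (Matrix.GeneralLinearGroup.det g).ne_zero
    exact hdet (by simp [Matrix.det_fin_two, this])
  have hint : ∀ i j, v ((G i₀ j₀)⁻¹ * G i j) ≤ 1 := fun i j => by
    rw [map_mul, map_inv₀, inv_mul_le_iff₀ (zero_lt_iff.2 (v.ne_zero_iff.2 hne)), mul_one]
    exact hmax (i, j) (Finset.mem_univ _)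
  refine ⟨Matrix.of fun i j => ⟨(G i₀ j₀)⁻¹ * G i j, hint i j⟩, ⟨i₀, j₀, ?_⟩,
    (G i₀ j₀)⁻¹, inv_ne_zero hne, ?_⟩
  · simp [hne]
  · ext i j; simp [toF, ← hG]

/-- A representative is invertible over the field. -/
lemma IsRep.det_ne_zero {g : GL (Fin 2) F} {M} (h : IsRep v g M) : (toF v M).det ≠ 0 := by
  obtain ⟨-, c, hc, e⟩ := h
  rw [e, Matrix.det_smul]
  exact mul_ne_zero (pow_ne_zero _ hc) (Matrix.GeneralLinearGroup.det g).ne_zero

/-- Two primitive multiples of one matrix differ by a unit. -/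
lemma IsRep.unique {g : GL (Fin 2) F} {M M'} (h : IsRep v g M) (h' : IsRep v g M') :
    ∃ u : F, v u = 1 ∧ toF v M' = u • toF v M := by
  obtain ⟨⟨i, j, hij⟩, c, hc, e⟩ := h
  obtain ⟨⟨i', j', hij'⟩, c', hc', e'⟩ := h'
  have hb : toF v M' = (c' / c) • toF v M := by
    rw [e, e', smul_smul, div_mul_cancel₀ _ hc]
  refine ⟨c' / c, le_antisymm ?_ ?_, hb⟩
  · have := congrArg v (congrFun (congrFun hb i) j)
    have h2 : v ((M' i j : F)) ≤ 1 := (M' i j).2
    simp only [toF, Matrix.map_apply, Matrix.smul_apply, smul_eq_mul, map_mul] at this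
    rw [Subring.subtype_apply, Subring.subtype_apply, hij, mul_one] at this
    exact this ▸ h2
  · have := congrArg v (congrFun (congrFun hb i') j')
    have h2 : v ((M i' j' : F)) ≤ 1 := (M i' j').2
    simp only [toF, Matrix.map_apply, Matrix.smul_apply, smul_eq_mul, map_mul] at this
    rw [Subring.subtype_apply, Subring.subtype_apply, hij'] at this
    rw [this]; exact mul_le_of_le_one_right' h2

/-- The level: `ord det - 2 min ord entries`. -/
noncomputable def lvl (g : GL (Fin 2) F) : ℕ :=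
  (ord v (toF v (exists_rep v g).choose).det).toNat

/-- The level is the order of the determinant of a primitive representative. -/
lemma IsRep.lvl_eq {g : GL (Fin 2) F} {M} (h : IsRep v g M) :
    (lvl v g : ℤ) = ord v (toF v M).det := by
  have h0 := (exists_rep v g).choose_spec
  obtain ⟨u, hu, e⟩ := h.unique v h0
  have hd := h.det_ne_zero v
  have hu0 : u ≠ 0 := by rintro rfl; simp at hu
  have e2 : ord v (toF v (exists_rep v g).choose).det = ord v (toF v M).det := by
    rw [e, Matrix.det_smul, ord_mul v (pow_ne_zero _ hu0) hd, ord_pow,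
      (ord_eq_zero_iff v hu0).2 hu]
    simp
  rw [lvl, e2, Int.toNat_of_nonneg ((ord_nonneg_iff v hd).2 (v_det_toF v M))]

/-- The adjugate of a primitive matrix is primitive. -/
lemma IsPrim.adjugate {M : Matrix (Fin 2) (Fin 2) 𝒪} (h : IsPrim v M) : IsPrim v M.adjugate := by
  obtain ⟨i, j, hij⟩ := h
  rw [Matrix.adjugate_fin_two]
  fin_cases i <;> fin_cases j
  · exact ⟨1, 1, by simpa using hij⟩
  · exact ⟨0, 1, by simpa [Valuation.map_neg] using hij⟩
  · exact ⟨1, 0, by simpa [Valuation.map_neg] using hij⟩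
  · exact ⟨0, 0, by simpa using hij⟩

/-- The adjugate of a primitive representative represents the inverse. -/
lemma IsRep.inv {g : GL (Fin 2) F} {M} (h : IsRep v g M) : IsRep v g⁻¹ M.adjugate := by
  obtain ⟨hp, c, hc, e⟩ := h
  refine ⟨hp.adjugate v, c * (g : Matrix (Fin 2) (Fin 2) F).det,
    mul_ne_zero hc (Matrix.GeneralLinearGroup.det g).ne_zero, ?_⟩
  have : toF v M.adjugate = (toF v M).adjugate := toF_adjugate v M
  rw [this, e, Matrix.adjugate_smul, Fintype.card_fin, pow_one, mul_smul]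
  congr 1
  rw [Matrix.coe_units_inv, Matrix.inv_def, smul_smul, Ring.mul_inverse_cancel _
    (show IsUnit (g : Matrix (Fin 2) (Fin 2) F).det from
      (Matrix.GeneralLinearGroup.det g).isUnit), one_smul]

/-- A matrix and its inverse have the same level. -/
lemma lvl_inv (g : GL (Fin 2) F) : lvl v g⁻¹ = lvl v g := by
  obtain ⟨M, hM⟩ := exists_rep v g
  have h1 := hM.lvl_eq v
  have h2 := (hM.inv v).lvl_eq v
  have : toF v M.adjugate = (toF v M).adjugate := toF_adjugate v M
  rw [this, Matrix.det_adjugate, Fintype.card_fin, pow_one, ← h1] at h2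
  exact_mod_cast h2

/-- An integral invertible matrix comes from the integers. -/
lemma exists_intMat {k : GL (Fin 2) F} (hk : k ∈ intGL v) :
    ∃ K : (Matrix (Fin 2) (Fin 2) 𝒪)ˣ, toF v (K : Matrix (Fin 2) (Fin 2) 𝒪) = ↑k := by
  obtain ⟨K, rfl⟩ := hk
  exact ⟨K, rfl⟩

/-- Primitivity survives right multiplication by units. -/
lemma IsPrim.mul_unit {M : Matrix (Fin 2) (Fin 2) 𝒪} (h : IsPrim v M)
    (K : (Matrix (Fin 2) (Fin 2) 𝒪)ˣ) : IsPrim v (M * (K : Matrix (Fin 2) (Fin 2) 𝒪)) := by
  by_contra hc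
  simp only [IsPrim, not_exists] at hc
  obtain ⟨i, j, hij⟩ := h
  have e : M i j = ∑ k, (M * (K : Matrix (Fin 2) (Fin 2) 𝒪)) i k
      * ((K⁻¹ : (Matrix (Fin 2) (Fin 2) 𝒪)ˣ) : Matrix (Fin 2) (Fin 2) 𝒪) k j := by
    rw [← Matrix.mul_apply, Matrix.mul_assoc, Units.mul_inv, Matrix.mul_one]
  have hlt : v (M i j : F) < 1 := by
    rw [e]; push_cast
    refine v.map_sum_lt one_ne_zero fun k _ => ?_
    rw [map_mul]
    exact lt_of_le_of_lt (mul_le_of_le_one_right'
      ((v.mem_valuationSubring_iff _).1 (SetLike.coe_mem _)))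
      (lt_of_le_of_ne ((M * (K : Matrix (Fin 2) (Fin 2) 𝒪)) i k).2 (hc i k))
  exact hlt.ne hij

/-- The level is invariant under right multiplication by `U0`. -/
lemma lvl_mul_right {g k : GL (Fin 2) F} (hk : k ∈ U0 v) : lvl v (g * k) = lvl v g := by
  obtain ⟨d, hd⟩ := hk
  obtain ⟨K, hK⟩ := exists_intMat v hd
  obtain ⟨M, hM⟩ := exists_rep v g
  obtain ⟨hp, c, hc, e⟩ := hM
  have hR : IsRep v (g * k) (M * (K : Matrix (Fin 2) (Fin 2) 𝒪)) := by
    refine ⟨hp.mul_unit v K, c * d, mul_ne_zero hc d.ne_zero, ?_⟩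
    rw [toF, Matrix.map_mul, ← toF, ← toF, hK, e, Units.val_mul, Units.val_mul, scal_coe,
      Matrix.scalar_apply, ← Matrix.smul_eq_diagonal_mul]
    simp [smul_smul, mul_comm]
  have h1 := hR.lvl_eq v
  rw [toF_mul, Matrix.det_mul] at h1
  have hKd : v (toF v (K : Matrix (Fin 2) (Fin 2) 𝒪)).det = 1 := by
    rw [toF_det]
    have hu : IsUnit ((K : Matrix (Fin 2) (Fin 2) 𝒪).det) :=
      (Matrix.isUnit_iff_isUnit_det _).1 K.isUnit
    exact (Valuation.Integers.isUnit_iff_valuation_eq_one (Valuation.integer.integers v)).1 hu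
  have hne : (toF v (K : Matrix (Fin 2) (Fin 2) 𝒪)).det ≠ 0 := fun h0 => by simp [h0] at hKd
  rw [ord_mul v (IsRep.det_ne_zero v ⟨hp, c, hc, e⟩) hne,
    (ord_eq_zero_iff v hne).2 hKd, add_zero, ← IsRep.lvl_eq v ⟨hp, c, hc, e⟩] at h1
  exact_mod_cast h1

/-- The level is left invariant. -/
lemma lvl_mul_left {g k : GL (Fin 2) F} (hk : k ∈ U0 v) : lvl v (k * g) = lvl v g := by
  rw [← lvl_inv, mul_inv_rev, lvl_mul_right v ((U0 v).inv_mem hk), lvl_inv]

end Fermat.LT
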