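import Fermat.Agent.LT.Height

/-!
# Every point is high in some integral line up to a constant

`exists_short_vector` is Minkowski's theorem: some integral vector is short at all infinite
places.
-/

set_option autoImplicit false
open NumberField NumberField.InfinitePlace MeasureTheory Set Module
open scoped Classical ENNReal

namespace Fermat.LT

variable {F : Type*} [Field F] [NumberField F] [IsTotallyComplex F]

/-- The volume of a product of discs. -/
lemma volume_discs (c : InfinitePlace F → ℂ) (ρ : InfinitePlace F → ℝ) :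
    volume {y : mixedEmbedding.mixedSpace F | ∀ w : {w : InfinitePlace F // IsComplex w},
      ‖y.2 w + c w.1‖ ≤ ρ w.1}
      = ∏ w : {w : InfinitePlace F // IsComplex w}, ENNReal.ofReal (ρ w.1) ^ 2 * NNReal.pi := by
  have he : {y : mixedEmbedding.mixedSpace F | ∀ w : {w : InfinitePlace F // IsComplex w},
      ‖y.2 w + c w.1‖ ≤ ρ w.1} = (univ : Set ({w : InfinitePlace F // IsReal w} → ℝ)) ×ˢ
        Set.pi univ fun w : {w : InfinitePlace F // IsComplex w} =>
          Metric.closedBall (-c w.1) (ρ w.1) := by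
    ext y
    simp [dist_eq_norm]
  have : IsEmpty {w : InfinitePlace F // IsReal w} :=
    ⟨fun w => InfinitePlace.not_isReal_iff_isComplex.2 (IsTotallyComplex.isComplex w.1) w.2⟩
  rw [he, Measure.volume_eq_prod, Measure.prod_prod, ← Set.pi_univ univ, volume_pi_pi, volume_pi_pi]
  simp [Complex.volume_closedBall]

/-- The product over the infinite places of a disc and a sheared disc. -/
def shearBody (z : InfinitePlace F → ℂ) (ρ₁ ρ₂ : InfinitePlace F → ℝ) :
    Set (mixedEmbedding.mixedSpace F × mixedEmbedding.mixedSpace F) :=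
  {y | ∀ w : {w : InfinitePlace F // IsComplex w},
    ‖y.1.2 w‖ ≤ ρ₁ w.1 ∧ ‖y.2.2 w + z w.1 * y.1.2 w‖ ≤ ρ₂ w.1}

section Shear

variable (z : InfinitePlace F → ℂ) (ρ₁ ρ₂ : InfinitePlace F → ℝ)

omit [NumberField F] [IsTotallyComplex F] in
/-- The body is symmetrical. -/
lemma neg_mem_shearBody {y : mixedEmbedding.mixedSpace F × mixedEmbedding.mixedSpace F}
    (hy : y ∈ shearBody z ρ₁ ρ₂) : -y ∈ shearBody z ρ₁ ρ₂ := fun w => by
  have e : (-y).2.2 w + z w.1 * (-y).1.2 w = -(y.2.2 w + z w.1 * y.1.2 w) := by simp; ring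
  exact ⟨by simpa using (hy w).1, by rw [e, norm_neg]; exact (hy w).2⟩

omit [NumberField F] [IsTotallyComplex F] in
/-- The body is convex. -/
lemma convex_shearBody : Convex ℝ (shearBody z ρ₁ ρ₂) := by
  intro p hp q hq a b ha hb hab w
  have e1 : (a • p + b • q).1.2 w = (a : ℂ) * p.1.2 w + (b : ℂ) * q.1.2 w := by simp
  have e2 : (a • p + b • q).2.2 w + z w.1 * (a • p + b • q).1.2 w
      = (a : ℂ) * (p.2.2 w + z w.1 * p.1.2 w) + (b : ℂ) * (q.2.2 w + z w.1 * q.1.2 w) := by
    simp; ring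
  have key : ∀ (u v : ℂ) (R : ℝ), ‖u‖ ≤ R → ‖v‖ ≤ R → ‖(a : ℂ) * u + (b : ℂ) * v‖ ≤ R := by
    intro u v R hu hv
    refine (norm_add_le _ _).trans ?_
    rw [norm_mul, norm_mul, Complex.norm_of_nonneg ha, Complex.norm_of_nonneg hb]
    calc a * ‖u‖ + b * ‖v‖ ≤ a * R + b * R := by gcongr
      _ = R := by rw [← add_mul, hab, one_mul]
  refine ⟨?_, ?_⟩
  · rw [e1]; exact key _ _ _ (hp w).1 (hq w).1
  · rw [e2]; exact key _ _ _ (hp w).2 (hq w).2

omit [IsTotallyComplex F] in
/-- The body is measurable. -/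
lemma measurableSet_shearBody : MeasurableSet (shearBody z ρ₁ ρ₂) := by
  have : shearBody z ρ₁ ρ₂ = ⋂ w, {y | ‖y.1.2 w‖ ≤ ρ₁ w.1} ∩
      {y : mixedEmbedding.mixedSpace F × mixedEmbedding.mixedSpace F |
        ‖y.2.2 w + z w.1 * y.1.2 w‖ ≤ ρ₂ w.1} := by
    ext y; simp [shearBody]
  rw [this]
  exact MeasurableSet.iInter fun w => ((isClosed_le (by fun_prop) (by fun_prop)).inter
    (isClosed_le (by fun_prop) (by fun_prop))).measurableSet

/-- A shear does not change the volume. -/
lemma volume_shearBody : volume (shearBody z ρ₁ ρ₂)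
    = ∏ w : {w : InfinitePlace F // IsComplex w},
      (ENNReal.ofReal (ρ₂ w.1) ^ 2 * NNReal.pi) * (ENNReal.ofReal (ρ₁ w.1) ^ 2 * NNReal.pi) := by
  rw [Measure.volume_eq_prod, Measure.prod_apply (measurableSet_shearBody z ρ₁ ρ₂)]
  have hslice : ∀ y₁ : mixedEmbedding.mixedSpace F, volume (Prod.mk y₁ ⁻¹' shearBody z ρ₁ ρ₂)
      = {y : mixedEmbedding.mixedSpace F | ∀ w : {w : InfinitePlace F // IsComplex w},
          ‖y.2 w + (0 : InfinitePlace F → ℂ) w.1‖ ≤ ρ₁ w.1}.indicator
        (fun _ => ∏ w : {w : InfinitePlace F // IsComplex w},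
          ENNReal.ofReal (ρ₂ w.1) ^ 2 * NNReal.pi) y₁ := by
    intro y₁
    by_cases h : ∀ w : {w : InfinitePlace F // IsComplex w}, ‖y₁.2 w‖ ≤ ρ₁ w.1
    · rw [Set.indicator_of_mem (show y₁ ∈ _ by simpa using h)]
      rw [← volume_discs (fun w => z w * if hw : IsComplex w then y₁.2 ⟨w, hw⟩ else 0) ρ₂]
      congr 1
      ext y₂
      simp only [shearBody, mem_preimage, mem_ofPred_eq]
      exact ⟨fun hy w => by simpa [w.2] using (hy w).2,
        fun hy w => ⟨h w, by simpa [w.2] using hy w⟩⟩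
    · rw [Set.indicator_of_notMem (show y₁ ∉ _ by simpa using h),
        show Prod.mk y₁ ⁻¹' shearBody z ρ₁ ρ₂ = ∅ from eq_empty_of_forall_notMem fun y hy =>
          h fun w => (hy w).1,
        measure_empty]
  simp only [hslice]
  rw [lintegral_indicator ?_, setLIntegral_const, volume_discs, ← Finset.prod_mul_distrib]
  · have : {y : mixedEmbedding.mixedSpace F | ∀ w : {w : InfinitePlace F // IsComplex w},
        ‖y.2 w + (0 : InfinitePlace F → ℂ) w.1‖ ≤ ρ₁ w.1}
        = ⋂ w, {y | ‖y.2 w + (0 : InfinitePlace F → ℂ) w.1‖ ≤ ρ₁ w.1} := ofPred_forall _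
    rw [this]
    exact MeasurableSet.iInter fun w =>
      (isClosed_le (by fun_prop) continuous_const).measurableSet

end Shear

omit [IsTotallyComplex F] in
/-- A point of the square of the integer lattice has both components in the lattice. -/
lemma mem_integerLattice_of_mem_span_prod
    {y : mixedEmbedding.mixedSpace F × mixedEmbedding.mixedSpace F}
    (hy : y ∈ Submodule.span ℤ
      (Set.range ((mixedEmbedding.latticeBasis F).prod (mixedEmbedding.latticeBasis F)))) :
    y.1 ∈ mixedEmbedding.integerLattice F ∧ y.2 ∈ mixedEmbedding.integerLattice F := by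
  rw [← mixedEmbedding.mem_span_latticeBasis, ← mixedEmbedding.mem_span_latticeBasis]
  induction hy using Submodule.span_induction with
  | mem v hv =>
    obtain ⟨i, rfl⟩ := hv
    rcases i with i | i <;> simp only [Module.Basis.prod_apply, Sum.elim_inl, Sum.elim_inr,
        Function.comp_apply, LinearMap.inl_apply, LinearMap.inr_apply]
    · exact ⟨Submodule.subset_span ⟨i, rfl⟩, zero_mem _⟩
    · exact ⟨zero_mem _, Submodule.subset_span ⟨i, rfl⟩⟩
  | zero => simp
  | add a b _ _ ha hb => exact ⟨add_mem ha.1 hb.1, add_mem ha.2 hb.2⟩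
  | smul c a _ ha => exact ⟨Submodule.smul_mem _ c ha.1, Submodule.smul_mem _ c ha.2⟩

/-- **Minkowski**: some integral vector is short at all infinite places. -/
theorem exists_short_vector : ∃ C : ℝ, 0 < C ∧ ∀ x : InfinitePlace F → H3,
    ∃ a b : 𝓞 F, (a, b) ≠ (0, 0) ∧ ∀ w : InfinitePlace F,
      ninf (embVec w ![(a : F), (b : F)]) (x w) ≤ C := by
  have : BorelSpace (mixedEmbedding.mixedSpace F × mixedEmbedding.mixedSpace F) := inferInstance
  have : (volume : Measure (mixedEmbedding.mixedSpace F ×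
      mixedEmbedding.mixedSpace F)).IsAddHaarMeasure := by
    rw [Measure.volume_eq_prod]
    exact Measure.prod.instIsAddHaarMeasure volume volume
  let B := (mixedEmbedding.latticeBasis F).prod (mixedEmbedding.latticeBasis F)
  set Λ := (Submodule.span ℤ (Set.range B)).toAddSubgroup with hΛ
  have hfund := ZSpan.isAddFundamentalDomain' B
    (volume : Measure (mixedEmbedding.mixedSpace F × mixedEmbedding.mixedSpace F))
  have : Countable Λ := inferInstanceAs (Countable (Submodule.span ℤ (Set.range B)))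
  set V := volume (ZSpan.fundamentalDomain B) * 2 ^ finrank ℝ
    (mixedEmbedding.mixedSpace F × mixedEmbedding.mixedSpace F) with hV
  have hVtop : V < ∞ := ENNReal.mul_lt_top
    (ZSpan.fundamentalDomain_isBounded B).measure_lt_top (by finiteness)
  set n := Fintype.card {w : InfinitePlace F // IsComplex w}
  obtain ⟨C, hC0, hC⟩ : ∃ C : ℝ, 0 < C ∧ V < ENNReal.ofReal ((Real.pi * (C / 2)) ^ 2) ^ n := by
    have hn : 0 < n := Fintype.card_pos_iff.2
      ⟨⟨(inferInstance : Nonempty (InfinitePlace F)).some, IsTotallyComplex.isComplex _⟩⟩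
    refine ⟨2 * (V.toReal + 1), mul_pos two_pos (by positivity), ?_⟩
    rw [mul_div_cancel_left₀ _ (two_ne_zero' ℝ), ← ENNReal.ofReal_pow (sq_nonneg _),
      ENNReal.lt_ofReal_iff_toReal_lt hVtop.ne]
    have h1 : 1 ≤ (Real.pi * (V.toReal + 1)) ^ 2 := by
      refine one_le_pow₀ ?_
      nlinarith [Real.pi_gt_three, V.toReal_nonneg]
    refine lt_of_lt_of_le ?_ (le_self_pow₀ h1 hn.ne')
    have h2 : 1 ≤ Real.pi * (V.toReal + 1) := by nlinarith [Real.pi_gt_three, V.toReal_nonneg]
    refine lt_of_lt_of_le ?_ (le_self_pow₀ h2 two_ne_zero)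
    nlinarith [Real.pi_gt_three, V.toReal_nonneg]
  -- Minkowski in the body cut out by the heights of `x`
  refine ⟨C, hC0, fun x => ?_⟩
  set t : InfinitePlace F → ℝ := fun w => (H3.coord (x w)).2 with ht
  set z : InfinitePlace F → ℂ := fun w => (H3.coord (x w)).1 with hz
  have ht0 : ∀ w, 0 < t w := fun w => H3.coord_pos _
  set ρ₁ : InfinitePlace F → ℝ := fun w => Real.sqrt (C / (2 * t w)) with hρ₁
  set ρ₂ : InfinitePlace F → ℝ := fun w => Real.sqrt (C * t w / 2) with hρ₂
  have hvol : volume (shearBody z ρ₁ ρ₂) = ENNReal.ofReal ((Real.pi * (C / 2)) ^ 2) ^ n := by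
    rw [volume_shearBody]
    rw [show ENNReal.ofReal ((Real.pi * (C / 2)) ^ 2) ^ n
        = ∏ _w : {w : InfinitePlace F // IsComplex w}, ENNReal.ofReal ((Real.pi * (C / 2)) ^ 2) by
          rw [Finset.prod_const, Finset.card_univ]]
    refine Finset.prod_congr rfl fun w _ => ?_
    have h1 : ρ₂ w.1 ^ 2 = C * t w.1 / 2 := Real.sq_sqrt (by have := ht0 w.1; positivity)
    have h2 : ρ₁ w.1 ^ 2 = C / (2 * t w.1) := Real.sq_sqrt (by have := ht0 w.1; positivity)
    rw [← ENNReal.ofReal_pow (Real.sqrt_nonneg _),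
      ← ENNReal.ofReal_pow (Real.sqrt_nonneg _), h1, h2,
      show (NNReal.pi : ℝ≥0∞) = ENNReal.ofReal Real.pi from
        (ENNReal.ofReal_coe_nnreal (p := NNReal.pi)).symm,
      ← ENNReal.ofReal_mul (by have := ht0 w.1; positivity),
      ← ENNReal.ofReal_mul (by have := ht0 w.1; positivity),
      ← ENNReal.ofReal_mul (by have := ht0 w.1; positivity)]
    congr 1
    field_simp [(ht0 w.1).ne']
  obtain ⟨y, hy0, hy⟩ := exists_ne_zero_mem_lattice_of_measure_mul_two_pow_lt_measure
    (L := Λ) hfund (fun _ => neg_mem_shearBody z ρ₁ ρ₂) (convex_shearBody z ρ₁ ρ₂) (hvol ▸ hC)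
  obtain ⟨h1, h2⟩ := mem_integerLattice_of_mem_span_prod y.2
  obtain ⟨a, ha⟩ := h1
  obtain ⟨b, hb⟩ := h2
  refine ⟨a, b, fun h => hy0 ?_, fun w => ?_⟩
  · obtain ⟨rfl, rfl⟩ := Prod.mk.injEq _ _ _ _ ▸ h
    refine Subtype.ext (Prod.ext ?_ ?_)
    · rw [← ha]; simp
    · rw [← hb]; simp
  · have hw : IsComplex w := IsTotallyComplex.isComplex w
    obtain ⟨hw1, hw2⟩ := hy ⟨w, hw⟩
    rw [← ha] at hw1 hw2
    rw [← hb] at hw2
    simp only [AlgHom.toLinearMap_apply] at hw1 hw2
    change ‖w.embedding (a : F)‖ ≤ ρ₁ w at hw1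
    change ‖w.embedding (b : F) + z w * w.embedding (a : F)‖ ≤ ρ₂ w at hw2
    rw [ninf_coord, div_le_iff₀ (H3.coord_pos _)]
    simp only [embVec, Matrix.cons_val_zero, Matrix.cons_val_one, Matrix.cons_val_fin_one,
      Complex.normSq_eq_norm_sq]
    have e1 := pow_le_pow_left₀ (norm_nonneg _) hw1 2
    have e2 := pow_le_pow_left₀ (norm_nonneg _) hw2 2
    rw [Real.sq_sqrt (by have := ht0 w; positivity)] at e1 e2
    rw [add_comm (w.embedding (b : F)), mul_comm (z w)] at e2
    have e3 := mul_le_mul_of_nonneg_right e1 (sq_nonneg (t w))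
    rw [show C / (2 * t w) * t w ^ 2 = C * t w / 2 by field_simp [(ht0 w).ne']] at e3
    simp only [ht, hz] at e2 e3
    linarith

end Fermat.LT
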