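import Fermat.Agent.LT.Setting

/-!
# Statement of the dimension bound on `L`

`DimBoundStatement`: at most `2 ^ |S|` independent eigenfunctions (`IsEigFun`) with cuspidal type
on `S`; proved in `LT/Mult/Main`.
-/

set_option autoImplicit false
open NumberField

namespace Fermat.LT

variable {F : Type*} [Field F] [NumberField F]

/-- Eigenfunctions: as `IsForm` but possibly zero and with the Hecke eigenvalues prescribed only
outside `S ∪ Z`.  (`LTG.IsEigFn` replaces the cuspidal type at `E` by vanishing constant
terms at any level; `LT3.IsEig` is only the archimedean condition on one function on `H3`.) -/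
structure IsEigFun (S E Z : Set (Place F)) (lam : Place F → ℝ) (Φ : Pt F S → ℂ) : Prop where
  /-- The function is invariant under `GL₂(F)`. -/
  invariant : IsInvariant Φ
  /-- The function is continuous in the archimedean variables. -/
  continuous : ∀ ω : FinPt F S, Continuous fun x : InfinitePlace F → H3 => Φ (ω, x)
  /-- The function is bounded. -/
  bounded : ∃ C : ℝ, ∀ p, ‖Φ p‖ ≤ C
  /-- The function is an archimedean eigenfunction of parameter zero. -/
  arch : IsArchEigen Φ
  /-- The function is of cuspidal type at the places of `E`. -/
  cuspType : ∀ v ∈ E, IsCuspType v Φ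
  /-- Outside `S ∪ Z` the Hecke operator at `v` acts by `lam v`. -/
  hecke : ∀ v ∉ S ∪ Z, ∀ p, heckeT v Φ p = (lam v : ℂ) * Φ p

variable (F) in
/-- Over a totally complex field, for the eigenvalues of some form: at most `2 ^ |S|` independent
eigenfunctions with the cuspidal type at the places of `S ≠ ∅` (residue field `𝔽₃`) and level one
outside. -/
def DimBoundStatement : Prop :=
  ∀ (S Z : Set (Place F)) (lam : Place F → ℝ), IsTotallyComplex F → S.Finite → Z.Finite →
    S.Nonempty → (∀ v ∈ S, pnorm v = 3) → (∃ Φ, IsForm S S lam Φ) →
    ∀ f : Fin (2 ^ S.ncard + 1) → Pt F S → ℂ,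
      (∀ i, IsEigFun S S Z lam (f i)) → ¬ LinearIndependent ℂ f

end Fermat.LT
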