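import Fermat.Agent.LT.Satake

/-!
# Tail sums of scaled constant terms

For a finitely supported spherical kernel the weighted sum `gsum` is the tail sum of the scaled
constant terms.
-/

set_option autoImplicit false

namespace Fermat.LT

/-- `∑_{j ≥ 1} ctil (n + 2 j)`. -/
noncomputable def tailSum (q : ℕ) (h : ℕ → ℂ) (n : ℕ) : ℂ :=
  ∑ᶠ j : ℕ, ctil q h (n + 2 * (j + 1))

/-- For finitely supported `h` the weighted sum is the tail sum of scaled constant terms. -/
lemma gsum_eq_tailSum (q : ℕ) {h : ℕ → ℂ} {D : ℕ}
    (hD : ∀ m, D < m → h m = 0) (n : ℕ) : gsum q h n = tailSum q h n := by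
  have hg : ∀ m, D < m + 2 → gsum q h m = 0 := fun m hm => by
    rw [gsum_eq_sum q hD m 0 (by omega)]; simp
  have hc : ∀ m, D < m → ctil q h m = 0 := fun m hm => by
    simp [ctil, hD m hm, hg m (by omega)]
  rw [tailSum, finsum_eq_sum_of_support_subset (s := Finset.range (D + 1))]
  · have key : ∀ N, gsum q h n = (∑ j ∈ Finset.range N, ctil q h (n + 2 * (j + 1)))
        + gsum q h (n + 2 * N) := by
      intro N
      induction N with
      | zero => simp
      | succ N ih =>
        rw [ih, Finset.sum_range_succ, gsum_rec q hD (n + 2 * N), ctil,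
          show n + 2 * (N + 1) = n + 2 * N + 2 by omega]
        ring
    rw [key (D + 1), hg _ (by omega), add_zero]
  · intro j hj
    simp only [Finset.coe_range, Set.mem_Iio]
    by_contra hlt
    exact hj (hc _ (by omega))

end Fermat.LT
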