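import Fermat.Agent.LT.Test
import Fermat.Agent.LT.Volume

/-!
# Elliptic and remaining part of the geometric comparison

`geometricStatement_of_parts` gives `GeometricStatement` (`LT/Test`), the input of the descent
(`LT/Sys`), from two statements: `EllipticStatement`, the matching of the elliptic parts of the
traces on `K` and `L` (`EllipticFull`), and `HypStatement`, saying that each remaining part is
given by a continuous density (`Hyp`). Here `γ` is elliptic when the discriminant of the
characteristic polynomial of a lift is not a square; on `L` the same is asked of the twisted norm.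
-/

set_option autoImplicit false
open NumberField MeasureTheory Polynomial Filter
open scoped Classical

namespace Fermat.LT

variable {F : Type*} [Field F] [NumberField F]

/-- The discriminant of the characteristic polynomial. -/
def disc2 {R : Type*} [CommRing R] (g : Matrix (Fin 2) (Fin 2) R) : R := g.trace ^ 2 - 4 * g.det

/-- Elliptic classes. -/
def PG.IsEll (γ : PG F) : Prop :=
  ¬ IsSquare (disc2 (γ.out : Matrix (Fin 2) (Fin 2) F))

/-- The twisted norm `g τ(g) τ²(g)`. -/
noncomputable def twistN (τ : F ≃+* F) (g : GL (Fin 2) F) : GL (Fin 2) F :=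
  g * mapGL τ g * mapGL τ (mapGL τ g)

/-- Twisted elliptic classes. -/
def PG.IsTwEll (τ : F ≃+* F) (γ : PG F) : Prop :=
  ¬ IsSquare (disc2 (twistN τ γ.out : Matrix (Fin 2) (Fin 2) F))

namespace PKer

variable {S : Set (Place F)} [Finite S] (K : PKer F S)

/-- The summed kernel restricted to a set of classes. -/
noncomputable def kapOn (P : PG F → Prop) (p q : Pt F S) : ℂ :=
  ∑' γ : PG F, if P γ then K.val p (γ • q) else 0

/-- The summed kernel less the part in `P` is the part outside `P`. -/
lemma kap_sub_kapOn (P : PG F → Prop) (p q : Pt F S) :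
    K.kap p q - K.kapOn P p q = K.kapOn (fun γ => ¬ P γ) p q := by
  have hs : ∀ Q : PG F → Prop, Summable fun γ : PG F => if Q γ then K.val p (γ • q) else 0 :=
      fun Q =>
    summable_of_hasFiniteSupport ((K.finite_support p q).subset fun γ hγ => by
      by_contra h
      simp only [Set.mem_ofPred_eq, not_not] at h
      exact hγ (by simp [h]))
  rw [kap, kapOn, kapOn, ← (K.summable_kap p q).tsum_sub (hs P)]
  refine tsum_congr fun γ => ?_
  split_ifs <;> simp

end PKer

variable {K L : Type} [Field K] [NumberField K] [Field L] [NumberField L] [Algebra K L]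

/-- `J` is given by a continuous density in the angle. -/
def HasDensity (q : ℕ) (J : ℝ[X] → ℂ) : Prop :=
  ∃ g : ℝ → ℂ, Continuous g ∧ ∀ r : ℝ[X],
    J r = ∫ θ in (0 : ℝ)..(2 * Real.pi),
      (((2 * Real.sqrt q) * Real.cos θ * r.eval (((2 * Real.sqrt q) * Real.cos θ) ^ 2) : ℝ) : ℂ) *
        g θ

/-- Matching of the elliptic parts: for the test data changed at an auxiliary split place the
elliptic part on `K` and the twisted elliptic part on `L` are integrable with equal integrals. -/
def EllipticStatement (K L : Type) [Field K] [NumberField K] [Field L] [NumberField L]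
    [Algebra K L] : Prop :=
  ∀ (v3 : Place K) (G : GeoData K L v3) (σ : L ≃ₐ[K] L) (_ : σ ≠ 1)
    (_ : Finite (levK L v3)) (_ : Finite (placesOver K L v3))
    (hS : Stable (σ : L ≃+* L) (placesOver K L v3))
    (DK : Set (Pt K (levK L v3))) (_ : IsFundamentalDomain (PG K) DK ptMeasure)
    (DL : Set (Pt L (placesOver K L v3))) (_ : IsFundamentalDomain (PG L) DL ptMeasure)
    (v0 : Place K) (hv0 : v0 ∉ levK L v3) (w0 : Place L) (hw0 : LiesOver K L w0 v0),
    pnorm w0 = pnorm v0 → ∀ t : TestData K L v3, (∀ w, LiesOver K L w v0 → t.h w = 1) →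
    ∀ r : ℝ[X],
      let t' := t.upd hv0 hw0 (oddP r)
      IntegrableOn (fun p => (kerK G σ t').kapOn PG.IsEll p p) DK ptMeasure ∧
      IntegrableOn (fun p => (kerL G t').kapOn (PG.IsTwEll (σ : L ≃+* L)) p (Pt.amap hS p))
        DL ptMeasure ∧
      ∫ p in DK, (kerK G σ t').kapOn PG.IsEll p p ∂ptMeasure
        = ∫ p in DL, (kerL G t').kapOn (PG.IsTwEll (σ : L ≃+* L)) p (Pt.amap hS p) ∂ptMeasure

/-- Densities for the non-elliptic parts: if the kernels are bounded and these parts integrable,
their integrals, as functionals of the odd polynomial at an auxiliary split place, have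
densities. -/
def HypStatement (K L : Type) [Field K] [NumberField K] [Field L] [NumberField L]
    [Algebra K L] : Prop :=
  ∀ (v3 : Place K) (G : GeoData K L v3) (σ : L ≃ₐ[K] L) (_ : σ ≠ 1)
    (_ : Finite (levK L v3)) (_ : Finite (placesOver K L v3))
    (hS : Stable (σ : L ≃+* L) (placesOver K L v3))
    (DK : Set (Pt K (levK L v3))) (_ : IsFundamentalDomain (PG K) DK ptMeasure)
    (DL : Set (Pt L (placesOver K L v3))) (_ : IsFundamentalDomain (PG L) DL ptMeasure)
    (v0 : Place K) (hv0 : v0 ∉ levK L v3) (w0 : Place L) (hw0 : LiesOver K L w0 v0),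
    pnorm w0 = pnorm v0 → ∀ t : TestData K L v3, (∀ w, LiesOver K L w v0 → t.h w = 1) →
    (∀ r : ℝ[X], (kerK G σ (t.upd hv0 hw0 (oddP r))).Bdd ∧
      (kerL G (t.upd hv0 hw0 (oddP r))).Bdd) →
    (∀ r : ℝ[X],
      IntegrableOn (fun p => (kerK G σ (t.upd hv0 hw0 (oddP r))).kapOn (fun γ => ¬ γ.IsEll) p p)
        DK ptMeasure ∧
      IntegrableOn (fun p => (kerL G (t.upd hv0 hw0 (oddP r))).kapOn
        (fun γ => ¬ γ.IsTwEll (σ : L ≃+* L)) p (Pt.amap hS p)) DL ptMeasure) →
    HasDensity (pnorm v0) (fun r =>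
      ∫ p in DK, (kerK G σ (t.upd hv0 hw0 (oddP r))).kapOn (fun γ => ¬ γ.IsEll) p p ∂ptMeasure) ∧
    HasDensity (pnorm v0) (fun r =>
      ∫ p in DL, (kerL G (t.upd hv0 hw0 (oddP r))).kapOn
        (fun γ => ¬ γ.IsTwEll (σ : L ≃+* L)) p (Pt.amap hS p) ∂ptMeasure)

/-- The geometric comparison from its two parts. -/
theorem geometricStatement_of_parts (hE : EllipticStatement K L) (hH : HypStatement K L) :
    GeometricStatement K L := by
  intro v3 G σ hσ hfS hfT hS DK hDK DL hDL v0 hv0 w0 hw0 hpn t ht hB
  have : IsTotallyComplex K := G.totallyComplexK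
  have : IsTotallyComplex L :=
    ⟨fun _ => InfinitePlace.IsComplex.of_comap (algebraMap K L) (IsTotallyComplex.isComplex _)⟩
  -- bounded functions on sets of finite measure are integrable
  have hint : ∀ {F : Type} [Field F] [NumberField F] [IsTotallyComplex F]
      {S : Set (Place F)} [Finite S]
      (D : Set (Pt F S)), IsFundamentalDomain (PG F) D ptMeasure → ∀ (P : PKer F S), P.Bdd →
      ∀ φ : Pt F S → Pt F S, Measurable φ → IntegrableOn (fun p => P.kap p (φ p)) D ptMeasure := by
    intro F _ _ _ S _ D hD P hP φ hφ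
    obtain ⟨C, hC⟩ := hP
    refine IntegrableOn.of_bound (domain_finite hD) ?_ C (Eventually.of_forall fun p => hC p _)
    exact ((P.measurable_kap.comp (measurable_id.prodMk hφ))).aestronglyMeasurable
  have hA : ∀ r, IntegrableOn (fun p => (kerK G σ (t.upd hv0 hw0 (oddP r))).kap p p) DK ptMeasure ∧
      IntegrableOn (fun p => (kerL G (t.upd hv0 hw0 (oddP r))).kap p (Pt.amap hS p)) DL ptMeasure :=
    fun r => ⟨hint DK hDK _ (hB r).1 _ measurable_id,
      hint DL hDL _ (hB r).2 _ (measurePreserving_amap hS).measurable⟩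
  -- the non-elliptic parts are integrable, the elliptic ones being so
  have hN : ∀ r,
      IntegrableOn (fun p => (kerK G σ (t.upd hv0 hw0 (oddP r))).kapOn (fun γ => ¬ γ.IsEll) p p)
        DK ptMeasure ∧
      IntegrableOn (fun p => (kerL G (t.upd hv0 hw0 (oddP r))).kapOn
        (fun γ => ¬ γ.IsTwEll (σ : L ≃+* L)) p (Pt.amap hS p)) DL ptMeasure := fun r => by
    obtain ⟨h1, h2, -⟩ := hE v3 G σ hσ hfS hfT hS DK hDK DL hDL v0 hv0 w0 hw0 hpn t ht r
    refine ⟨((hA r).1.sub h1).congr_fun_ae (Eventually.of_forall fun p => ?_),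
      ((hA r).2.sub h2).congr_fun_ae (Eventually.of_forall fun p => ?_)⟩
    · exact PKer.kap_sub_kapOn _ _ _ _
    · exact PKer.kap_sub_kapOn _ _ _ _
  -- the elliptic parts cancel, leaving the difference of the two densities
  obtain ⟨⟨g, hg, hgr⟩, g', hg', hgr'⟩ :=
    hH v3 G σ hσ hfS hfT hS DK hDK DL hDL v0 hv0 w0 hw0 hpn t ht hB hN
  refine ⟨g - g', hg.sub hg', fun r => ?_⟩
  obtain ⟨h1, h2, h3⟩ := hE v3 G σ hσ hfS hfT hS DK hDK DL hDL v0 hv0 w0 hw0 hpn t ht r
  have e := hgr r
  have e' := hgr' r
  simp only [← PKer.kap_sub_kapOn] at e e'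
  rw [integral_sub (hA r).1 h1] at e
  rw [integral_sub (hA r).2 h2] at e'
  change (∫ p in DK, (kerK G σ (t.upd hv0 hw0 (oddP r))).kap p p ∂ptMeasure) - _ = _
  simp only [Pi.sub_apply, mul_sub]
  rw [intervalIntegral.integral_sub, ← e, ← e', h3]
  · show _ - (∫ p in DL, (kerL G (t.upd hv0 hw0 (oddP r))).kap p (Pt.amap hS p) ∂ptMeasure) = _
    ring
  · exact ((Complex.continuous_ofReal.comp (by fun_prop)).mul hg).intervalIntegrable _ _
  · exact ((Complex.continuous_ofReal.comp (by fun_prop)).mul hg').intervalIntegrable _ _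

end Fermat.LT
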