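import Fermat.Agent.LT.BorelOrbits
import Fermat.Agent.LT.Minkowski
import Fermat.Agent.LT.Domain
import Fermat.Agent.LT.EntryBound

/-!
# Siegel sets

`exists_siegel` is reduction theory: finitely many finite points and two bounds give a Siegel set
(`siegel`) meeting every orbit.
-/

set_option autoImplicit false
open NumberField Filter NumberField.Units NumberField.Units.dirichletUnitTheorem
open scoped Classical Matrix

namespace Fermat.LT

variable {F : Type*} [Field F] [NumberField F] {S : Set (Place F)} [Finite S]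

/-- Congruent upper triangular matrices fix a given point. -/
theorem exists_fixing_ideal (ω : FinPt F S) : ∃ J : Ideal (𝓞 F), J ≠ ⊥ ∧
    ∀ (ε : (𝓞 F)ˣ) (x : 𝓞 F), (ε : 𝓞 F) - 1 ∈ J → x ∈ J →
      upMat (Units.map (algebraMap (𝓞 F) F).toMonoidHom ε) (x : F) • ω = ω := by
  set E : Finset (Place F) :=
    (eventually_cofinite.1 ω.2).toFinset ∪ (Set.toFinite S).toFinset with hE
  choose m hm using fun v : Place F => exists_entry_bound (v.valuation F) (ω.1 v).out
  set J : Ideal (𝓞 F) := ∏ v ∈ E, v.asIdeal ^ (2 * m v + 1) with hJ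
  refine ⟨J, ?_, fun ε x hε hx => Subtype.ext (funext fun v => ?_)⟩
  · simp only [hJ, ← Ideal.zero_eq_bot, ne_eq, Finset.prod_eq_zero_iff, not_exists, not_and]
    exact fun v _ => pow_ne_zero _ v.ne_bot
  set e : Fˣ := Units.map (algebraMap (𝓞 F) F).toMonoidHom ε with he
  set γ := upMat e (x : F) with hγ
  have he1 : v.valuation F (e : F) = 1 := by
    refine le_antisymm (v.valuation_le_one (ε : 𝓞 F)) ?_
    have h2 : v.valuation F (((ε⁻¹ : (𝓞 F)ˣ) : 𝓞 F) : F) ≤ 1 := v.valuation_le_one _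
    have h3 : (e : F) * (((ε⁻¹ : (𝓞 F)ˣ) : 𝓞 F) : F) = 1 := by
      change algebraMap (𝓞 F) F (ε : 𝓞 F) * algebraMap (𝓞 F) F _ = 1
      rw [← map_mul, Units.mul_inv, map_one]
    have h4 := congrArg (v.valuation F) h3
    rw [map_mul, map_one] at h4
    rw [← h4]
    exact mul_le_of_le_one_right' h2
  have hint : γ ∈ intGL (v.valuation F) :=
    upMat_mem_intGL (v.valuation F) he1 (v.valuation_le_one x)
  -- away from `E` the point is standard; in `E` the conjugate is congruent to one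
  by_cases hv : v ∈ E
  swap
  · rw [hE, Finset.mem_union, Set.Finite.mem_toFinset, Set.Finite.mem_toFinset, not_or] at hv
    have hω : ω.1 v = ((1 : GL (Fin 2) F) : Vert S v) := not_not.1 hv.1
    rw [FinPt.smul_apply, hω, MulAction.Quotient.smul_coe, QuotientGroup.eq]
    exact (lev_of_not_mem hv.2).ge (by simpa using (U0 _).inv_mem (le_withScalars _ hint))
  have hsmall : ∀ z : 𝓞 F, z ∈ J →
      v.valuation F (z : F) ≤ WithZero.exp (-((2 * m v + 1 : ℕ) : ℤ)) :=
    fun z hz => (valuation_le_exp_neg_iff v z _).2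
      (Ideal.le_of_dvd
        (Finset.dvd_prod_of_mem (fun u : Place F => u.asIdeal ^ (2 * m u + 1)) hv) hz)
  set g := (ω.1 v).out with hg
  have hδ : ∀ i j,
      v.valuation F ((γ : Matrix (Fin 2) (Fin 2) F) i j - (1 : Matrix (Fin 2) (Fin 2) F) i j)
      ≤ WithZero.exp (-((2 * m v + 1 : ℕ) : ℤ)) ∧
      v.valuation F ((γ⁻¹ : GL (Fin 2) F).val i j - (1 : Matrix (Fin 2) (Fin 2) F) i j)
      ≤ WithZero.exp (-((2 * m v + 1 : ℕ) : ℤ)) := by
    have h1 : v.valuation F ((e : F) - 1) ≤ WithZero.exp (-((2 * m v + 1 : ℕ) : ℤ)) := by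
      have := hsmall _ hε
      push_cast at this
      exact this
    have h2 : v.valuation F (((e⁻¹ : Fˣ) : F) - 1) ≤ WithZero.exp (-((2 * m v + 1 : ℕ) : ℤ)) := by
      have e2 : ((e⁻¹ : Fˣ) : F) - 1 = -((e⁻¹ : Fˣ) : F) * ((e : F) - 1) := by
        rw [mul_sub, neg_mul, Units.inv_mul]; ring
      rw [e2, map_mul, Valuation.map_neg, Units.val_inv_eq_inv_val, map_inv₀, he1, inv_one, one_mul]
      exact h1
    have h3 := hsmall _ hx
    generalize WithZero.exp (-((2 * m v + 1 : ℕ) : ℤ)) = δ at h1 h2 h3 ⊢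
    intro i j
    rw [hγ, upMat_inv]
    fin_cases i <;> fin_cases j <;> simp [Valuation.map_neg, -map_inv₀]
    · exact ⟨h1, by simpa [Units.val_inv_eq_inv_val] using h2⟩
    · refine ⟨h3, ?_⟩
      rw [map_inv₀, he1, inv_one, one_mul]
      exact h3
  have hcong : g⁻¹ * γ * g ∈ congGL (v.valuation F) :=
    conj_mem_congGL_of_near _ (hm v) (fun i j => (hδ i j).1) fun i j => (hδ i j).2
  rw [FinPt.smul_apply, eq_comm, ← QuotientGroup.out_eq' (ω.1 v), MulAction.Quotient.smul_coe,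
    QuotientGroup.eq, smul_eq_mul, ← hg, ← mul_assoc]
  by_cases hvS : v ∈ S
  · exact (lev_of_mem hvS).ge (le_withScalars _ hcong)
  · exact (lev_of_not_mem hvS).ge (U1_le_U0 _ (le_withScalars _ hcong))

/-- Units in a congruence class move logarithms to their mean. -/
theorem exists_unit_centring {J : Ideal (𝓞 F)} (hJ : J ≠ ⊥) :
    ∃ B : ℝ, ∀ y : InfinitePlace F → ℝ, ∃ ε : (𝓞 F)ˣ, (ε : 𝓞 F) - 1 ∈ J ∧
      ∀ w, |y w + w.mult * Real.log (w (ε : F))
        - (∑ u, y u) / Fintype.card (InfinitePlace F)| ≤ B := by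
  have : Finite (𝓞 F ⧸ J) := Ideal.finiteQuotientOfFreeOfNeBot J hJ
  set N := Nat.card ((𝓞 F ⧸ J)ˣ) with hN
  have hN0 : 0 < N := Nat.card_pos
  let b := (Module.Free.chooseBasis ℤ (unitLattice F)).ofZLatticeBasis ℝ
  set C : ℝ := ∑ i, ‖b i‖ with hC
  refine ⟨Fintype.card (InfinitePlace F) * (N * C), fun y => ?_⟩
  -- round the target in the lattice of units, then raise to the order of the group modulo `J`
  set avg := (∑ u, y u) / Fintype.card (InfinitePlace F) with havg
  set tgt : logSpace F := fun w => -(y w.1 - avg) / N with htgt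
  have hfl : ((ZSpan.floor b tgt : Submodule.span ℤ (Set.range b)) : logSpace F) ∈
      unitLattice F := by
    have h := (ZSpan.floor b tgt).2
    exact (le_of_eq (Module.Basis.ofZLatticeBasis_span (K := ℝ) (L := unitLattice F) _)) h
  obtain ⟨u', -, hu⟩ := Submodule.mem_map.1 hfl
  set u : (𝓞 F)ˣ := Additive.toMul u' with hu'

  have hfr : ∀ w : {w : InfinitePlace F // w ≠ w₀},
      |-(y w.1 - avg) / N - w.1.mult * Real.log (w.1 (u : F))| ≤ C := fun w => by
    have h := (norm_le_pi_norm (ZSpan.fract b tgt) w).trans (ZSpan.norm_fract_le b tgt)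
    rw [Real.norm_eq_abs, ZSpan.fract_apply, Pi.sub_apply, ← hu] at h
    exact h
  refine ⟨u ^ N, ?_, ?_⟩
  · rw [← Ideal.Quotient.mk_eq_mk_iff_sub_mem, map_one, Units.val_pow_eq_pow_val, map_pow]
    have := pow_card_eq_one' (x := Units.map (Ideal.Quotient.mk J).toMonoidHom u)
    exact congrArg Units.val this
  have hlog : ∀ w : InfinitePlace F, w.mult * Real.log (w ((u ^ N : (𝓞 F)ˣ) : F))
      = N * (w.mult * Real.log (w (u : F))) := fun w => by
    push_cast
    rw [map_pow, Real.log_pow]; ring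
  have hC0 : 0 ≤ N * C :=
    mul_nonneg (Nat.cast_nonneg _) (Finset.sum_nonneg fun i _ => norm_nonneg _)
  have hne : ∀ w : InfinitePlace F, w ≠ w₀ →
      |y w + w.mult * Real.log (w ((u ^ N : (𝓞 F)ˣ) : F)) - avg| ≤ N * C := fun w hw => by
    have h := mul_le_mul_of_nonneg_left (hfr ⟨w, hw⟩) (Nat.cast_nonneg (α := ℝ) N)
    rw [← abs_of_nonneg (Nat.cast_nonneg (α := ℝ) N), ← abs_mul,
      abs_of_nonneg (Nat.cast_nonneg (α := ℝ) N),
      mul_sub, mul_div_cancel₀ _ (by exact_mod_cast hN0.ne'), ← hlog, abs_sub_comm] at h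
    rw [show y w + w.mult * Real.log (w ((u ^ N : (𝓞 F)ˣ) : F)) - avg
      = w.mult * Real.log (w ((u ^ N : (𝓞 F)ˣ) : F)) - -(y w - avg) by ring]
    exact h
  intro w
  have hcard : (0 : ℝ) < Fintype.card (InfinitePlace F) := by exact_mod_cast Fintype.card_pos
  -- the last place is fixed by the sum
  by_cases hw : w = w₀
  · subst hw
    have hsum : ∑ v, (y v + v.mult * Real.log (v ((u ^ N : (𝓞 F)ˣ) : F)) - avg) = 0 := by
      rw [Finset.sum_sub_distrib, Finset.sum_add_distrib, sum_mult_mul_log, add_zero,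
        Finset.sum_const,
        Finset.card_univ, nsmul_eq_mul, havg, mul_div_cancel₀ _ hcard.ne', sub_self]
    rw [← Finset.add_sum_erase _ _ (Finset.mem_univ w₀), add_eq_zero_iff_eq_neg] at hsum
    rw [hsum, abs_neg]
    refine (Finset.abs_sum_le_sum_abs _ _).trans ((Finset.sum_le_sum fun v hv =>
      hne v (Finset.ne_of_mem_erase hv)).trans ?_)
    rw [Finset.sum_const, nsmul_eq_mul]
    refine mul_le_mul_of_nonneg_right ?_ hC0
    exact_mod_cast (Finset.card_erase_le).trans (le_of_eq (Finset.card_univ))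
  · refine (hne w hw).trans (le_mul_of_one_le_left hC0 ?_)
    exact_mod_cast Fintype.card_pos

variable [IsTotallyComplex F]

/-- Elements of an ideal approximate every complex vector. -/
theorem exists_near_ideal {J : Ideal (𝓞 F)} (hJ : J ≠ ⊥) :
    ∃ R : ℝ, ∀ z : InfinitePlace F → ℂ, ∃ x ∈ J, ∀ w : InfinitePlace F,
      ‖z w + w.embedding (x : F)‖ ≤ R := by
  set N := Ideal.absNorm J with hN
  have hN0 : (0 : ℝ) < N := by
    have : N ≠ 0 := Ideal.absNorm_eq_zero_iff.not.2 hJ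
    positivity
  set b := mixedEmbedding.latticeBasis F
  refine ⟨N * ∑ i, ‖b i‖, fun z => ?_⟩
  set tgt : mixedEmbedding.mixedSpace F := (0, fun w => -z w.1 / (N : ℂ)) with htgt
  obtain ⟨x, hx⟩ := (mixedEmbedding.mem_span_latticeBasis F).1 (ZSpan.floor b tgt).2
  refine ⟨(N : 𝓞 F) * x, J.mul_mem_right _ (Ideal.absNorm_mem J), fun w => ?_⟩
  have hw : InfinitePlace.IsComplex w := IsTotallyComplex.isComplex w
  have h := (norm_le_pi_norm (ZSpan.fract b tgt).2 ⟨w, hw⟩).trans
    ((le_max_right _ _).trans (ZSpan.norm_fract_le b tgt))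
  rw [ZSpan.fract_apply, ← hx] at h
  change ‖-z w / (N : ℂ) - w.embedding (x : F)‖ ≤ _ at h
  have e : z w + w.embedding ((((N : 𝓞 F) * x : 𝓞 F)) : F)
      = -((N : ℂ) * (-z w / (N : ℂ) - w.embedding (x : F))) := by
    have : (N : ℂ) ≠ 0 := by exact_mod_cast hN0.ne'
    push_cast
    rw [map_mul, map_natCast]
    field_simp
    ring
  rw [e, norm_neg, norm_mul, Complex.norm_natCast]
  exact mul_le_mul_of_nonneg_left h hN0.le

omit [NumberField F] [IsTotallyComplex F] in
/-- An upper triangular matrix acts in coordinates by an affine map. -/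
lemma coord_upMat_smul (w : InfinitePlace F) (a : Fˣ) (x : F) (y : H3) :
    H3.coord (atInf w (upMat a x) • y)
      = (w.embedding (a : F) * (H3.coord y).1 + w.embedding x, w (a : F) * (H3.coord y).2) := by
  conv_lhs => rw [← H3.mk_coord y, H3.mk_of_pos _ (H3.coord_pos y), MulAction.Quotient.smul_coe,
    smul_eq_mul, H3.coord_mk]
  have e : ((atInf w (upMat a x) : GL (Fin 2) ℂ) : Matrix (Fin 2) (Fin 2) ℂ)
      = !![w.embedding (a : F), w.embedding x; 0, 1] := by
    ext i j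
    fin_cases i <;> fin_cases j <;> simp [atInf]
  rw [zc_mul_triMat_of_upper _ (by simp [e]), tc_mul_triMat, e]
  simp [Matrix.det_fin_two_of, InfinitePlace.norm_embedding_eq]

/-- The height of `∞`. -/
lemma ninf_infty (x : H3) : ninf ![0, 1] x = (H3.coord x).2⁻¹ := by
  rw [ninf_coord]; simp

/-- The row `(0 1)`. -/
noncomputable abbrev eInf : Fin 2 → F := ![0, 1]

omit [IsTotallyComplex F] in
/-- The vector of `∞` is not zero. -/
lemma eInf_ne_zero : (eInf : Fin 2 → F) ≠ 0 := fun h => by simpa using congrFun h 1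

omit [IsTotallyComplex F] [NumberField F] in
/-- Upper triangular matrices fix the row `(0 1)`. -/
lemma eInf_vecMul_upMat (a : Fˣ) (x : F) :
    (eInf : Fin 2 → F) ᵥ* (upMat a x : Matrix (Fin 2) (Fin 2) F) = eInf := by
  funext i
  fin_cases i <;> simp [eInf, Matrix.vecMul, dotProduct]

omit [NumberField F] [IsTotallyComplex F] in
/-- A matrix with prescribed last row. -/
lemma exists_eInf_vecMul {u : Fin 2 → F} (hu : u ≠ 0) :
    ∃ g : GL (Fin 2) F, (eInf : Fin 2 → F) ᵥ* (g : Matrix (Fin 2) (Fin 2) F) = u := by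
  by_cases h : u 1 = 0
  · have h0 : u 0 ≠ 0 := fun h0 => hu (by funext i; fin_cases i <;> assumption)
    refine ⟨Matrix.GeneralLinearGroup.mkOfDetNeZero !![0, 1; u 0, u 1]
      (by simp [Matrix.det_fin_two, h0]), ?_⟩
    funext i; fin_cases i <;> simp [eInf, Matrix.vecMul, dotProduct]
  · refine ⟨Matrix.GeneralLinearGroup.mkOfDetNeZero !![1, 0; u 0, u 1]
      (by simp [Matrix.det_fin_two, h]), ?_⟩
    funext i; fin_cases i <;> simp [eInf, Matrix.vecMul, dotProduct]

omit [IsTotallyComplex F] in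
/-- An integral vector has local norm at most one at the identity. -/
lemma nfin_one_le (v : Place F) (a b : 𝓞 F) : nfin v ![(a : F), (b : F)] 1 ≤ 1 := by
  have ha := (vabs_le_one_iff v _).2 (v.valuation_le_one a)
  have hb := (vabs_le_one_iff v _).2 (v.valuation_le_one b)
  simp only [nfin, Units.val_one, Matrix.vecMul_one, Matrix.det_one, map_one, div_one]
  exact pow_le_one₀ (le_max_of_le_left (apply_nonneg _ _))
    (max_le (by simpa using ha) (by simpa using hb))

/-- A bound for the local norms of integral vectors at a matrix. -/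
noncomputable def entryBound (v : Place F) (g : GL (Fin 2) F) : ℝ :=
  (1 + ∑ i, ∑ j, vabs v ((g : Matrix (Fin 2) (Fin 2) F) i j)) ^ 2
    / vabs v (g : Matrix (Fin 2) (Fin 2) F).det

omit [IsTotallyComplex F] in
/-- The bound is positive. -/
lemma entryBound_pos (v : Place F) (g : GL (Fin 2) F) : 0 < entryBound v g :=
  div_pos (pow_pos (add_pos_of_pos_of_nonneg one_pos (Finset.sum_nonneg fun _ _ =>
    Finset.sum_nonneg fun _ _ => apply_nonneg _ _)) 2)
    ((vabs v).pos (Matrix.GeneralLinearGroup.det_ne_zero _))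

omit [IsTotallyComplex F] in
/-- The local norm of an integral vector is bounded by the entries of the matrix. -/
lemma nfin_le_entryBound (v : Place F) (a b : 𝓞 F) (g : GL (Fin 2) F) :
    nfin v ![(a : F), (b : F)] g ≤ entryBound v g := by
  have ha := (vabs_le_one_iff v _).2 (v.valuation_le_one a)
  have hb := (vabs_le_one_iff v _).2 (v.valuation_le_one b)
  refine div_le_div_of_nonneg_right (pow_le_pow_left₀ (le_max_of_le_left (apply_nonneg _ _)) ?_ 2)
    (apply_nonneg _ _)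
  have hg : ∀ i j, vabs v ((g : Matrix (Fin 2) (Fin 2) F) i j)
      ≤ ∑ k, ∑ l, vabs v ((g : Matrix (Fin 2) (Fin 2) F) k l) := fun i j =>
    (Finset.single_le_sum (f := fun l => vabs v ((g : Matrix (Fin 2) (Fin 2) F) i l))
      (fun l _ => apply_nonneg _ _) (Finset.mem_univ j)).trans
      (Finset.single_le_sum (f := fun k => ∑ l, vabs v ((g : Matrix (Fin 2) (Fin 2) F) k l))
      (fun k _ => Finset.sum_nonneg fun l _ => apply_nonneg _ _) (Finset.mem_univ i))
  refine max_le ?_ ?_ <;>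
  · simp only [Matrix.vecMul, dotProduct,
      Fin.sum_univ_two (f := fun i => ![(a : F), (b : F)] i * _),
      Matrix.cons_val_zero, Matrix.cons_val_one, Matrix.cons_val_fin_one]
    refine (vabs_add_le v _ _).trans (max_le ?_ ?_) <;>
    · rw [map_mul]
      refine (mul_le_of_le_one_left (apply_nonneg _ _) (by assumption)).trans ?_
      exact (hg _ _).trans (le_add_of_nonneg_left zero_le_one)

omit [IsTotallyComplex F] in
/-- **Integral vectors are bounded at the finite places.** -/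
lemma exists_integral_bound (g : Place F → GL (Fin 2) F)
    (hg : ∀ᶠ v in cofinite, g v ∈ U0 (v.valuation F)) :
    ∃ M : ℝ, 0 < M ∧ ∀ a b : 𝓞 F, (a, b) ≠ (0, 0) → ∏ᶠ v, nfin v ![(a : F), (b : F)] (g v) ≤ M := by
  let f : Place F → ℝ := fun v => if g v ∈ U0 (v.valuation F) then 1 else entryBound v (g v)
  have hf0 : ∀ v, 0 < f v := fun v => by
    simp only [f]
    split_ifs
    exacts [one_pos, entryBound_pos v _]
  have hfs : (Function.mulSupport f).Finite :=
    (eventually_cofinite.1 hg).subset fun v hv h => hv (by simp [f, h])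
  refine ⟨∏ᶠ v, f v, finprod_induction (0 < ·) one_pos (fun _ _ => mul_pos) hf0, fun a b hab => ?_⟩
  have hu : ![(a : F), (b : F)] ≠ 0 := fun h => hab (Prod.ext
    (by simpa using congrFun h 0) (by simpa using congrFun h 1))
  have h1 : ∀ v, g v ∈ U0 (v.valuation F) → nfin v ![(a : F), (b : F)] (g v) =
      nfin v ![(a : F), (b : F)] 1 :=
    fun v hv => by rw [← nfin_mul_U0 v _ 1 hv, one_mul]
  have hs : {v : Place F | ¬nfin v ![(a : F), (b : F)] (g v) = 1}.Finite := eventually_cofinite.1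
    ((hg.and (eventually_nloc_eq_one (S := (∅ : Set (Place F))) hu FinPt.base)).mono fun v hv => by
      rw [h1 v hv.1]; simpa [FinPt.base, nloc_mk] using hv.2)
  refine finprod_le_finprod hs (fun v => (nfin_pos v hu _).le) hfs fun v => ?_
  simp only [f]
  split_ifs with h
  · exact (h1 v h).trans_le (nfin_one_le v a b)
  · exact nfin_le_entryBound v a b _

/-- The factor at infinity of a short vector. -/
lemma prod_ninf_le_pow {C : ℝ} {u : Fin 2 → F} (hu : u ≠ 0) {x : InfinitePlace F → H3}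
    (h : ∀ w, ninf (embVec w u) (x w) ≤ C) :
    ∏ w, ninf (embVec w u) (x w) ^ w.mult ≤ (C ^ 2) ^ Fintype.card (InfinitePlace F) := by
  refine (Finset.prod_le_prod (fun w _ => pow_nonneg (ninf_pos (embVec_ne_zero w hu) _).le _)
    (g := fun _ : InfinitePlace F => C ^ 2) fun w _ => ?_).trans (le_of_eq (Finset.prod_const _))
  rw [IsTotallyComplex.mult_eq]
  exact pow_le_pow_left₀ (ninf_pos (embVec_ne_zero w hu) _).le (h w) _

omit [IsTotallyComplex F] in
/-- The factor at infinity of the height of `∞`. -/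
lemma prod_ninf_eInf (x : InfinitePlace F → H3) :
    ∏ w, ninf (embVec w (eInf : Fin 2 → F)) (x w) ^ w.mult =
      ∏ w, ((H3.coord (x w)).2⁻¹) ^ w.mult := by
  refine Finset.prod_congr rfl fun w _ => ?_
  rw [show embVec w (eInf : Fin 2 → F) = ![0, 1] by funext i; fin_cases i <;> simp [embVec, eInf],
    ninf_infty]

omit [IsTotallyComplex F] in
/-- A bound of the height bounds the logarithms of the coordinates from below. -/
lemma neg_log_le_sum_log {K : ℝ} {t : InfinitePlace F → ℝ} (ht : ∀ w, 0 < t w)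
    (h : ∏ w, (t w)⁻¹ ^ w.mult ≤ K) : -Real.log K ≤ ∑ w, (w.mult : ℝ) * Real.log (t w) := by
  have h2 := Real.log_le_log (Finset.prod_pos fun w _ => pow_pos (inv_pos.2 (ht w)) _) h
  rw [Real.log_prod fun w _ => (pow_pos (inv_pos.2 (ht w)) _).ne'] at h2
  simp only [Real.log_pow, Real.log_inv, mul_neg, Finset.sum_neg_distrib] at h2
  linarith

/-- Coordinates centred by a unit are bounded below and have bounded ratios. -/
lemma centred_bounds {ε : (𝓞 F)ˣ} {t : InfinitePlace F → ℝ} (ht : ∀ w, 0 < t w) {K B : ℝ}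
    (hsum : -Real.log K ≤ ∑ w, (w.mult : ℝ) * Real.log (t w))
    (hB : ∀ w, |w.mult * Real.log (t w) + w.mult * Real.log (w (ε : F))
      - (∑ u, (u.mult : ℝ) * Real.log (t u)) / Fintype.card (InfinitePlace F)| ≤ B)
    (w : InfinitePlace F) :
    Real.exp ((-(Real.log K) / Fintype.card (InfinitePlace F) - B) / 2) ≤ w (ε : F) * t w ∧
      ∀ v : InfinitePlace F, w (ε : F) * t w ≤ Real.exp B * (v (ε : F) * t v) := by
  have hm : ∀ u : InfinitePlace F, (u.mult : ℝ) = 2 := fun u => by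
    rw [IsTotallyComplex.mult_eq u]; norm_num
  have hpos : ∀ u : InfinitePlace F, 0 < u (ε : F) := fun u =>
    InfinitePlace.pos_iff.2 (RingOfIntegers.coe_ne_zero_iff.2 ε.ne_zero)
  simp only [hm] at hB hsum
  refine ⟨?_, fun v => ?_⟩
  · have h := (abs_le.1 (hB w)).1
    have h2 := div_le_div_of_nonneg_right hsum
      (Nat.cast_nonneg (α := ℝ) (Fintype.card (InfinitePlace F)))
    rw [← Real.exp_log (mul_pos (hpos w) (ht w)), Real.exp_le_exp,
      Real.log_mul (hpos w).ne' (ht w).ne']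
    linarith
  · have h1 := (abs_le.1 (hB w)).2
    have h2 := (abs_le.1 (hB v)).1
    rw [← Real.exp_log (mul_pos (hpos w) (ht w)), ← Real.exp_log (mul_pos (hpos v) (ht v)),
      ← Real.exp_add,
      Real.exp_le_exp, Real.log_mul (hpos w).ne' (ht w).ne', Real.log_mul (hpos v).ne' (ht v).ne']
    linarith

/-- The height factor of a line through local representatives. -/
noncomputable def htRep (u : Fin 2 → F) (g : Place F → GL (Fin 2) F) (y : InfinitePlace F → H3) :
    ℝ :=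
  (∏ᶠ v, nfin v u (g v)) * ∏ w, ninf (embVec w u) (y w) ^ w.mult

/-- **Reduction theory** over local representatives. -/
theorem exists_siegel_gen {X : Type*} [MulAction (GL (Fin 2) F) X] (r : X → Place F → GL (Fin 2) F)
    (hr : ∀ ω, ∀ᶠ v in cofinite, r ω v ∈ U0 (v.valuation F))
    (hfix : ∀ ω : X, ∃ J : Ideal (𝓞 F), J ≠ ⊥ ∧ ∀ (ε : (𝓞 F)ˣ) (x : 𝓞 F),
    (ε : 𝓞 F) - 1 ∈ J → x ∈ J →
      upMat (Units.map (algebraMap (𝓞 F) F).toMonoidHom ε) (x : F) • ω = ω)
    (hreps : ∃ Ω : Finset X, ∀ ω, ∃ (a : Fˣ) (x : F), ∃ ω₀ ∈ Ω, upMat a x • ω₀ = ω)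
    (hsmul : ∀ u : Fin 2 → F, u ≠ 0 → ∀ (γ : GL (Fin 2) F) (ω : X) (y : InfinitePlace F → H3),
      htRep u (r (γ • ω)) (fun w => atInf w γ • y w)
        = htRep (u ᵥ* (γ : Matrix (Fin 2) (Fin 2) F)) (r ω) y) :
    ∃ (Ω : Finset X) (R c : ℝ), 0 < c ∧ ∀ (ω : X) (y : InfinitePlace F → H3), ∃ γ : GL (Fin 2) F,
      γ • ω ∈ Ω ∧
      (∀ w, ‖(H3.coord (atInf w γ • y w)).1‖ ≤ R ∧ c ≤ (H3.coord (atInf w γ • y w)).2) ∧
      ∀ w u, (H3.coord (atInf w γ • y w)).2 ≤ R * (H3.coord (atInf u γ • y u)).2 := by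
  obtain ⟨Ω, hΩ⟩ := hreps
  obtain ⟨C, hC0, hC⟩ := exists_short_vector (F := F)
  choose J hJ0 hJ using hfix
  choose B hB using fun ω : X => exists_unit_centring (hJ0 ω)
  choose R₀ hR₀ using fun ω : X => exists_near_ideal (hJ0 ω)
  choose M hM0 hM using fun ω : X => exists_integral_bound (r ω) (hr ω)
  set n := Fintype.card (InfinitePlace F)
  -- the finite factor at infinity
  set φ : X → ℝ := fun ω => ∏ᶠ v, nfin v (eInf : Fin 2 → F) (r ω v) with hφ
  have hφ0 : ∀ ω, 0 < φ ω := fun ω => finprod_induction (0 < ·) one_pos (fun _ _ => mul_pos)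
    fun v => nfin_pos v eInf_ne_zero _
  obtain ⟨K, hK⟩ := Finset.exists_le ((Ω ×ˢ Ω).image fun z => (C ^ 2) ^ n * M z.1 / φ z.2)
  obtain ⟨B₀, hB₀⟩ := Finset.exists_le (Ω.image B)
  obtain ⟨R₁, hR₁⟩ := Finset.exists_le (Ω.image R₀)
  refine ⟨Ω, max R₁ (Real.exp B₀), Real.exp ((-(Real.log K) / n - B₀) / 2), Real.exp_pos _,
    fun ω p => ?_⟩
  obtain ⟨a₁, x₁, ω₁, hω₁, e₁⟩ := hΩ ω
  obtain ⟨a, b, hab, hshort⟩ := hC fun w => atInf w (upMat a₁ x₁)⁻¹ • p w
  set u₁ : Fin 2 → F := ![(a : F), (b : F)] with hu₁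
  have hu₁0 : u₁ ≠ 0 := fun h => hab (Prod.ext
      (by simpa [hu₁] using congrFun h 0) (by simpa [hu₁] using congrFun h 1))
  have hht : htRep u₁ (r ((upMat a₁ x₁)⁻¹ • ω)) (fun w => atInf w (upMat a₁ x₁)⁻¹ • p w)
      ≤ M ω₁ * (C ^ 2) ^ n := by
    refine mul_le_mul ?_ (prod_ninf_le_pow hu₁0 hshort) (Finset.prod_nonneg fun w _ =>
      pow_nonneg (ninf_pos (embVec_ne_zero w hu₁0) _).le _) (hM0 _).le
    rw [← e₁, inv_smul_smul]
    exact hM ω₁ a b hab
  rw [hsmul u₁ hu₁0] at hht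
  set u := u₁ ᵥ* (((upMat a₁ x₁)⁻¹ : GL (Fin 2) F) : Matrix (Fin 2) (Fin 2) F) with hu
  have hu0 : u ≠ 0 := fun h => hu₁0 (Matrix.vecMul_injective_iff_isUnit.2
    (Units.isUnit (upMat a₁ x₁)⁻¹) (h.trans (Matrix.zero_vecMul _).symm))
  obtain ⟨γ₀, hγ₀⟩ := exists_eInf_vecMul hu0
  obtain ⟨a₂, x₂, ω₀, hω₀, e₂⟩ := hΩ (γ₀ • ω)
  set γ := (upMat a₂ x₂)⁻¹ * γ₀ with hγ
  have hqω : γ • ω = ω₀ := by rw [hγ, mul_smul, ← e₂, inv_smul_smul]
  set q : InfinitePlace F → H3 := fun w => atInf w γ • p w with hq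
  have hhq : htRep eInf (r ω₀) q ≤ M ω₁ * (C ^ 2) ^ n := by
    rwa [← hqω, hsmul _ eInf_ne_zero, hγ, Units.val_mul, ← Matrix.vecMul_vecMul, upMat_inv,
      eInf_vecMul_upMat, hγ₀]
  rw [show htRep eInf (r ω₀) q = φ ω₀ * ∏ w,
    ((H3.coord (q w)).2⁻¹) ^ w.mult by rw [htRep, prod_ninf_eInf],
    ← le_div_iff₀' (hφ0 ω₀), mul_comm (M ω₁)] at hhq
  have hsum := neg_log_le_sum_log (fun w => H3.coord_pos (q w))
    (hhq.trans (hK _ (Finset.mem_image_of_mem _ (Finset.mk_mem_product hω₁ hω₀))))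
  obtain ⟨ε, hε, hεw⟩ := hB ω₀ fun w => w.mult * Real.log (H3.coord (q w)).2
  have hbd := centred_bounds (fun w => H3.coord_pos (q w)) hsum
    fun w => (hεw w).trans (hB₀ _ (Finset.mem_image_of_mem B hω₀))
  set eε : Fˣ := Units.map (algebraMap (𝓞 F) F).toMonoidHom ε with heε
  obtain ⟨x, hx, hxw⟩ := hR₀ ω₀ fun w => w.embedding (eε : F) * (H3.coord (q w)).1
  have hmap : ∀ w, atInf w (upMat eε (x : F) * γ) • p w = atInf w (upMat eε (x : F)) • q w :=
      fun w => by
    rw [hq, map_mul, mul_smul]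
  refine ⟨upMat eε (x : F) * γ, by rw [mul_smul, hqω, hJ ω₀ ε x hε hx]; exact hω₀, fun w => ?_,
    fun w v => ?_⟩
  · rw [hmap, coord_upMat_smul]
    exact ⟨(hxw w).trans ((hR₁ _ (Finset.mem_image_of_mem R₀ hω₀)).trans (le_max_left _ _)),
      (hbd w).1⟩
  · rw [hmap, hmap, coord_upMat_smul, coord_upMat_smul]
    refine ((hbd w).2 v).trans (mul_le_mul_of_nonneg_right (le_max_right _ _) ?_)
    exact mul_nonneg (apply_nonneg _ _) (H3.coord_pos _).le

/-- The Siegel set over a finite set of finite points. -/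
def siegel (Ω : Finset (FinPt F S)) (R c : ℝ) : Set (Pt F S) :=
  {q | q.1 ∈ Ω ∧ (∀ w, ‖(H3.coord (q.2 w)).1‖ ≤ R ∧ c ≤ (H3.coord (q.2 w)).2) ∧
    ∀ w u, (H3.coord (q.2 w)).2 ≤ R * (H3.coord (q.2 u)).2}

/-- **Reduction theory.** Finitely many finite points, a bound and a height bound give a Siegel set
meeting every orbit of `GL₂(F)`. -/
theorem exists_siegel : ∃ (Ω : Finset (FinPt F S)) (R c : ℝ), 0 < c ∧
    ∀ p : Pt F S, ∃ γ : GL (Fin 2) F, γ • p ∈ siegel Ω R c := by
  obtain ⟨Ω, R, c, hc, h⟩ := exists_siegel_gen (fun (ω : FinPt F S) v => (ω.1 v).out)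
    (fun ω => ω.2.mono fun v hv => hv ▸ out_one_mem_U0 (lev_le_U0 S v)) exists_fixing_ideal
    exists_borel_reps fun u hu γ ω y => ht_smul hu γ (ω, y)
  exact ⟨Ω, R, c, hc, fun p => h p.1 p.2⟩

end Fermat.LT
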