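import Fermat.Agent.LT.Reduce

/-!
# Reduction at a place with residue field `𝔽₃`; the cuspidal idempotent on `GL₂(𝔽₃)`

`e3` is the idempotent on `GL₂(𝔽₃)` and `res3` the residue map; `eCusp_scal_incGL` reads the local
idempotent `eCusp` through them.
-/

set_option autoImplicit false
open scoped Classical

namespace Fermat.LT

/-- `12` times the idempotent, on entries. -/
def e4 (a b c d : ZMod 3) : ℤ :=
  if a * d - b * c = 1 then (if a + d = 0 ∨ (b = 0 ∧ c = 0 ∧ a = d) then 2 else -1) else 0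

/-- The convolution square, by enumeration. -/
lemma e4_conv : ∀ a b c d : ZMod 3, a * d - b * c ≠ 0 →
    (∑ x : ZMod 3, ∑ y : ZMod 3, ∑ z : ZMod 3, ∑ w : ZMod 3,
      e4 x y z w * e4 ((x * w - y * z) * (w * a - y * c)) ((x * w - y * z) * (w * b - y * d))
        ((x * w - y * z) * (x * c - z * a)) ((x * w - y * z) * (x * d - z * b))) =
          24 * e4 a b c d := by
  decide +kernel

/-- The function is a class function, by enumeration. -/
lemma e4_swap : ∀ a b c d x y z w : ZMod 3,
    e4 (a * x + b * z) (a * y + b * w) (c * x + d * z) (c * y + d * w)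
      = e4 (x * a + y * c) (x * b + y * d) (z * a + w * c) (z * b + w * d) := by
  decide +kernel

/-- The sums over translations vanish, by enumeration. -/
lemma e4_unip : ∀ a b c d : ZMod 3, a * d - b * c ≠ 0 →
    ∑ r : ZMod 3, e4 a (a * r + b) c (c * r + d) = 0 := by
  decide +kernel

/-- Invariance under inversion, by enumeration. -/
lemma e4_inv : ∀ a b c d : ZMod 3, a * d - b * c ≠ 0 →
    e4 ((a * d - b * c) * d) ((a * d - b * c) * -b) ((a * d - b * c) * -c) ((a * d - b * c) * a)
      = e4 a b c d := by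
  decide +kernel

/-- Invariance under the sign, by enumeration. -/
lemma e4_neg : ∀ a b c d : ZMod 3, e4 (-a) (-b) (-c) (-d) = e4 a b c d := by
  decide +kernel

/-- The idempotent on matrices over `𝔽₃`. -/
noncomputable def e3 (M : Matrix (Fin 2) (Fin 2) (ZMod 3)) : ℂ :=
  (e4 (M 0 0) (M 0 1) (M 1 0) (M 1 1) : ℂ) / 12

/-- `e3` is a class function. -/
lemma e3_mul_comm (A B : Matrix (Fin 2) (Fin 2) (ZMod 3)) : e3 (A * B) = e3 (B * A) := by
  simp only [e3, Matrix.mul_apply, Fin.sum_univ_two, e4_swap]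

/-- `e3` ignores the sign. -/
lemma e3_neg (A : Matrix (Fin 2) (Fin 2) (ZMod 3)) : e3 (-A) = e3 A := by
  simp only [e3, Matrix.neg_apply, e4_neg]

/-- Over `𝔽₃` the inverse is the determinant times the adjugate. -/
lemma coe_inv_zmod3 (M : GL (Fin 2) (ZMod 3)) :
    ((M⁻¹ : GL (Fin 2) (ZMod 3)) : Matrix (Fin 2) (Fin 2) (ZMod 3))
      = (M : Matrix (Fin 2) (Fin 2) (ZMod 3)).det •
        (M : Matrix (Fin 2) (Fin 2) (ZMod 3)).adjugate := by
  have hd := (Matrix.GeneralLinearGroup.det M).ne_zero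
  rw [Matrix.GeneralLinearGroup.val_det_apply] at hd
  rw [Matrix.coe_units_inv, Matrix.inv_def, Ring.inverse_eq_inv']
  congr 1
  generalize (M : Matrix (Fin 2) (Fin 2) (ZMod 3)).det = x at hd
  revert x; decide +kernel

/-- The cuspidal idempotent is invariant under inversion. -/
lemma e3_inv (M : GL (Fin 2) (ZMod 3)) :
    e3 ((M⁻¹ : GL (Fin 2) (ZMod 3)) : Matrix (Fin 2) (Fin 2) (ZMod 3))
      = e3 (M : Matrix (Fin 2) (Fin 2) (ZMod 3)) := by
  have hd := (Matrix.GeneralLinearGroup.det M).ne_zero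
  rw [Matrix.GeneralLinearGroup.val_det_apply, Matrix.det_fin_two] at hd
  rw [coe_inv_zmod3, e3, e3]
  simp [Matrix.adjugate_fin_two, Matrix.det_fin_two, e4_inv _ _ _ _ hd, -mul_neg, -neg_mul]

/-- A sum over `GL₂(𝔽₃)` of a function of the four entries which vanishes on singular matrices
is the sum over all quadruples. -/
lemma sum_entries_zmod3 {R : Type*} [AddCommMonoid R]
    (f : ZMod 3 → ZMod 3 → ZMod 3 → ZMod 3 → R)
    (hf : ∀ x y z w, x * w - y * z = 0 → f x y z w = 0) :
    ∑ M : GL (Fin 2) (ZMod 3), f (M 0 0) (M 0 1) (M 1 0) (M 1 1) =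
      ∑ x, ∑ y, ∑ z, ∑ w, f x y z w := by
  trans ∑ A : Matrix (Fin 2) (Fin 2) (ZMod 3), f (A 0 0) (A 0 1) (A 1 0) (A 1 1)
  · refine Fintype.sum_of_injective (fun M : GL (Fin 2) (ZMod 3) =>
      (M : Matrix (Fin 2) (Fin 2) (ZMod 3))) Units.val_injective _ _ (fun A hA => hf _ _ _ _ ?_)
      fun M => rfl
    by_contra hdet
    exact hA ⟨.mkOfDetNeZero A (by rwa [Matrix.det_fin_two]), rfl⟩
  · simp only [← Fintype.sum_prod_type']
    let e : Matrix (Fin 2) (Fin 2) (ZMod 3) ≃ ZMod 3 × ZMod 3 × ZMod 3 × ZMod 3 :=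
      { toFun := fun A => (A 0 0, A 0 1, A 1 0, A 1 1)
        invFun := fun q => !![q.1, q.2.1; q.2.2.1, q.2.2.2]
        left_inv := fun A => (Matrix.eta_fin_two A).symm
        right_inv := fun q => by simp }
    exact Fintype.sum_equiv e _ _ fun A => rfl

/-- The idempotent is idempotent up to the factor `2`: its convolution square is `2 e3`. -/
lemma sum_e3_mul (N : GL (Fin 2) (ZMod 3)) :
    ∑ M : GL (Fin 2) (ZMod 3), e3 (M : Matrix (Fin 2) (Fin 2) (ZMod 3)) *
      e3 ((M⁻¹ * N : GL (Fin 2) (ZMod 3)) : Matrix (Fin 2) (Fin 2) (ZMod 3))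
      = 2 * e3 (N : Matrix (Fin 2) (Fin 2) (ZMod 3)) := by
  set a := (N : Matrix (Fin 2) (Fin 2) (ZMod 3)) 0 0 with ha
  set b := (N : Matrix (Fin 2) (Fin 2) (ZMod 3)) 0 1 with hb
  set c := (N : Matrix (Fin 2) (Fin 2) (ZMod 3)) 1 0 with hc
  set d := (N : Matrix (Fin 2) (Fin 2) (ZMod 3)) 1 1 with hd
  have hN : a * d - b * c ≠ 0 := by
    have := (Matrix.GeneralLinearGroup.det N).ne_zero
    rwa [Matrix.GeneralLinearGroup.val_det_apply, Matrix.det_fin_two] at this
  -- the summand of `e4_conv`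
  let G : ZMod 3 → ZMod 3 → ZMod 3 → ZMod 3 → ℤ := fun x y z w =>
    e4 x y z w * e4 ((x * w - y * z) * (w * a - y * c)) ((x * w - y * z) * (w * b - y * d))
      ((x * w - y * z) * (x * c - z * a)) ((x * w - y * z) * (x * d - z * b))
  have hterm : ∀ M : GL (Fin 2) (ZMod 3), e3 (M : Matrix (Fin 2) (Fin 2) (ZMod 3)) *
      e3 ((M⁻¹ * N : GL (Fin 2) (ZMod 3)) : Matrix (Fin 2) (Fin 2) (ZMod 3)) =
          (G (M 0 0) (M 0 1) (M 1 0) (M 1 1) : ℂ) / 144 := by
    intro M
    rw [Units.val_mul, coe_inv_zmod3, Matrix.smul_mul, e3, e3]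
    simp only [G, Matrix.adjugate_fin_two, Matrix.det_fin_two, Matrix.smul_apply,
      Matrix.mul_apply, Fin.sum_univ_two, Matrix.of_apply, Matrix.cons_val', Matrix.cons_val_zero,
      Matrix.cons_val_one, Matrix.cons_val_fin_one, smul_eq_mul, neg_mul, ← sub_eq_add_neg,
      ha, hb, hc, hd]
    push_cast
    ring_nf
  have hG : ∀ x y z w, x * w - y * z = 0 → G x y z w = 0 := fun x y z w h => by simp [G, e4, h]
  rw [Finset.sum_congr rfl fun M _ => hterm M, ← Finset.sum_div, ← Int.cast_sum,
    sum_entries_zmod3 G hG, e4_conv a b c d hN, e3, Int.cast_mul, Int.cast_ofNat,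
    ← ha, ← hb, ← hc, ← hd]
  ring

variable {F : Type*} [Field F] [NumberField F]

/-- Residue map at a place with three residue classes. -/
noncomputable def res3 {v : Place F} (hv : pnorm v = 3) : (v.valuation F).integer →+* ZMod 3 :=
  letI := Fintype.ofFinite (IsLocalRing.ResidueField (v.valuation F).valuationSubring)
  ((ZMod.ringEquivOfPrime _ Nat.prime_three
    ((Nat.card_eq_fintype_card).symm.trans ((natCard_residue v).trans hv))).symm.toRingHom.comp
    (IsLocalRing.residue (v.valuation F).valuationSubring) :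
    (v.valuation F).valuationSubring →+* ZMod 3)

variable {v : Place F} (hv : pnorm v = 3)

/-- The residue map vanishes exactly on non-units. -/
lemma res3_eq_zero (x : (v.valuation F).integer) :
    res3 hv x = 0 ↔ v.valuation F (x : F) < 1 := by
  refine Iff.trans ?_ (residue_eq_zero_iff_v (v.valuation F) x)
  let := Fintype.ofFinite (IsLocalRing.ResidueField (v.valuation F).valuationSubring)
  set e := ZMod.ringEquivOfPrime _ Nat.prime_three
    ((Nat.card_eq_fintype_card).symm.trans ((natCard_residue v).trans hv))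
  exact map_eq_zero_iff e.symm.toRingHom e.symm.injective

/-- Reduction of matrices. -/
noncomputable def red3 : GL (Fin 2) (v.valuation F).integer →* GL (Fin 2) (ZMod 3) :=
  Matrix.GeneralLinearGroup.map (res3 hv)

/-- Inclusion of integral matrices. -/
noncomputable def incGL (v : Place F) : GL (Fin 2) (v.valuation F).integer →* GL (Fin 2) F :=
  Matrix.GeneralLinearGroup.map (n := Fin 2) (v.valuation F).integer.subtype

/-- Reduction of integral matrices onto `GL₂(𝔽₃)` is surjective. -/
lemma red3_surjective : Function.Surjective (red3 hv) := by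
  intro M
  choose a ha using fun i j => ZMod.ringHom_surjective (res3 hv)
      ((M : Matrix (Fin 2) (Fin 2) (ZMod 3)) i j)
  set A : Matrix (Fin 2) (Fin 2) (v.valuation F).integer := Matrix.of a with hA
  have hmap : A.map (res3 hv) = (M : Matrix (Fin 2) (Fin 2) (ZMod 3)) :=
    Matrix.ext fun i j => ha i j
  have hdet : IsUnit A.det := by
    rw [Valuation.Integers.isUnit_iff_valuation_eq_one (Valuation.integer.integers _)]
    refine le_antisymm A.det.2 (not_lt.1 fun h => ?_)
    have h0 := (res3_eq_zero hv A.det).2 h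
    rw [RingHom.map_det] at h0
    exact (Matrix.GeneralLinearGroup.det M).ne_zero (by
      rw [Matrix.GeneralLinearGroup.val_det_apply, ← hmap]; exact h0)
  exact ⟨((Matrix.isUnit_iff_isUnit_det A).2 hdet).unit, Units.ext hmap⟩

/-- An integral upper triangular matrix reduces entrywise. -/
lemma coe_red3_upMat {m : GL (Fin 2) (v.valuation F).integer} {u : Fˣ}
    {u' r : (v.valuation F).integer} (hm : incGL v m = upMat u (r : F)) (hu : (u' : F) = u) :
    ((red3 hv m : GL (Fin 2) (ZMod 3)) : Matrix (Fin 2) (Fin 2) (ZMod 3)) =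
      !![res3 hv u', res3 hv r; 0, 1] := by
  have e : ∀ i j, (((m : Matrix (Fin 2) (Fin 2) (v.valuation F).integer) i j :
      (v.valuation F).integer) : F) = (upMat u (r : F) : Matrix (Fin 2) (Fin 2) F) i j :=
    fun i j => by rw [← hm]; rfl
  have h00 : (m : Matrix (Fin 2) (Fin 2) (v.valuation F).integer) 0 0 = u' :=
    Subtype.ext (by simpa [hu] using e 0 0)
  have h01 : (m : Matrix (Fin 2) (Fin 2) (v.valuation F).integer) 0 1 = r :=
    Subtype.ext (by simpa using e 0 1)
  have h10 : (m : Matrix (Fin 2) (Fin 2) (v.valuation F).integer) 1 0 = 0 :=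
    Subtype.ext (by simpa using e 1 0)
  have h11 : (m : Matrix (Fin 2) (Fin 2) (v.valuation F).integer) 1 1 = 1 :=
    Subtype.ext (by simpa using e 1 1)
  show (m : Matrix (Fin 2) (Fin 2) (v.valuation F).integer).map (res3 hv) = _
  rw [Matrix.eta_fin_two (m : Matrix (Fin 2) (Fin 2) (v.valuation F).integer), h00, h01, h10, h11]
  ext i j
  fin_cases i <;> fin_cases j <;> simp

/-- A matrix reduces to `1` exactly when it lies in the congruence group. -/
lemma red3_eq_one_iff (a : GL (Fin 2) (v.valuation F).integer) :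
    red3 hv a = 1 ↔ incGL v a ∈ congGL (v.valuation F) := by
  constructor
  · intro h
    refine ⟨⟨a, rfl⟩, fun i j => ?_⟩
    have h1 := congrFun (congrFun (congrArg (fun g : GL (Fin 2) (ZMod 3) =>
      (g : Matrix (Fin 2) (Fin 2) (ZMod 3))) h) i) j
    change res3 hv ((a : Matrix (Fin 2) (Fin 2) (v.valuation F).integer) i j) = _ at h1
    have h2 : res3 hv ((a : Matrix (Fin 2) (Fin 2) (v.valuation F).integer) i j
        - (1 : Matrix (Fin 2) (Fin 2) (v.valuation F).integer) i j) = 0 := by
      rw [map_sub, h1]; fin_cases i <;> fin_cases j <;> simp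
    rw [res3_eq_zero hv] at h2
    convert h2 using 2
    fin_cases i <;> fin_cases j <;> simp [incGL]
  · rintro ⟨-, h⟩
    refine Units.ext (Matrix.ext fun i j => ?_)
    have h1 := h i j
    have h2 : res3 hv ((a : Matrix (Fin 2) (Fin 2) (v.valuation F).integer) i j
        - (1 : Matrix (Fin 2) (Fin 2) (v.valuation F).integer) i j) = 0 := by
      rw [res3_eq_zero hv]
      convert h1 using 2
      fin_cases i <;> fin_cases j <;> simp [incGL]
    rw [map_sub, sub_eq_zero] at h2
    change res3 hv _ = _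
    rw [h2]; fin_cases i <;> fin_cases j <;> simp

/-- An integral matrix which is scalar over the field is scalar. -/
lemma eq_smul_one_of_incGL_eq_scal {x : GL (Fin 2) (v.valuation F).integer} {c : Fˣ}
    (e : incGL v x = scal c) : (x : Matrix (Fin 2) (Fin 2) (v.valuation F).integer)
      = (x : Matrix (Fin 2) (Fin 2) (v.valuation F).integer) 0 0 • 1 := by
  set u := (x : Matrix (Fin 2) (Fin 2) (v.valuation F).integer)
  have hval : ∀ i j, ((u i j : (v.valuation F).integer) : F) = if i = j then (c : F) else 0 := by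
    intro i j
    have := congrFun
      (congrFun (congrArg (fun g : GL (Fin 2) F => (g : Matrix (Fin 2) (Fin 2) F)) e) i) j
    change ((u i j : (v.valuation F).integer) : F) = _ at this
    rw [this]
    fin_cases i <;> fin_cases j <;> simp
  refine Matrix.ext fun i j => Subtype.ext ?_
  rw [hval]
  fin_cases i <;> fin_cases j <;> simp [hval]

/-- Scalar multiples change the reduction by a sign. -/
lemma red3_scal {a b : GL (Fin 2) (v.valuation F).integer} {c : Fˣ}
    (h : incGL v b = scal c * incGL v a) :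
    ((red3 hv b : GL (Fin 2) (ZMod 3)) : Matrix (Fin 2) (Fin 2) (ZMod 3))
        = ((red3 hv a : GL (Fin 2) (ZMod 3)) : Matrix (Fin 2) (Fin 2) (ZMod 3)) ∨
    ((red3 hv b : GL (Fin 2) (ZMod 3)) : Matrix (Fin 2) (Fin 2) (ZMod 3))
        = -((red3 hv a : GL (Fin 2) (ZMod 3)) : Matrix (Fin 2) (Fin 2) (ZMod 3)) := by
  have e : incGL v (b * a⁻¹) = scal c := by rw [map_mul, map_inv, h, mul_inv_cancel_right]
  set u := ((b * a⁻¹ : GL (Fin 2) (v.valuation F).integer) :
    Matrix (Fin 2) (Fin 2) (v.valuation F).integer) with hu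
  have hu00 := eq_smul_one_of_incGL_eq_scal e
  rw [← hu] at hu00
  have hne : res3 hv (u 0 0) ≠ 0 := fun h0 => by
    have hd := (Matrix.GeneralLinearGroup.det (red3 hv (b * a⁻¹))).ne_zero
    apply hd
    rw [Matrix.GeneralLinearGroup.val_det_apply]
    change (u.map (res3 hv)).det = 0
    rw [hu00, Matrix.map_smul' (res3 hv) _ _ (map_mul _), h0, zero_smul]
    simp
  have hbm : ((red3 hv b : GL (Fin 2) (ZMod 3)) : Matrix (Fin 2) (Fin 2) (ZMod 3))
      = res3 hv (u 0 0) •
          ((red3 hv a : GL (Fin 2) (ZMod 3)) : Matrix (Fin 2) (Fin 2) (ZMod 3)) := by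
    rw [show red3 hv b = red3 hv (b * a⁻¹) * red3 hv a by rw [← map_mul, inv_mul_cancel_right],
      Units.val_mul]
    change u.map (res3 hv) * _ = _
    rw [hu00, Matrix.map_smul' (res3 hv) _ _ (map_mul _), Matrix.map_one _ (map_zero _) (map_one _),
      Matrix.smul_mul, one_mul]
    simp
  rcases (by decide : ∀ z : ZMod 3, z ≠ 0 → z = 1 ∨ z = -1) _ hne with h1 | h1
  · exact Or.inl (by rw [hbm, h1, one_smul])
  · exact Or.inr (by rw [hbm, h1, neg_one_smul])

/-- The congruence conditions defining `eCusp`, read on the reduction of an integral matrix. -/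
lemma e3_red3 (b : GL (Fin 2) (v.valuation F).integer) :
    let M : Matrix (Fin 2) (Fin 2) F := incGL v b
    e3 ((red3 hv b : GL (Fin 2) (ZMod 3)) : Matrix (Fin 2) (Fin 2) (ZMod 3)) =
      if v.valuation F (M.det - 1) < 1 then
        (if v.valuation F M.trace < 1 ∨ (v.valuation F (M 0 1) < 1 ∧ v.valuation F (M 1 0) < 1 ∧
          v.valuation F (M 0 0 - M 1 1) < 1) then (1 / 6 : ℂ) else (-1 / 12 : ℂ))
      else 0 := by
  dsimp only
  set B := (b : Matrix (Fin 2) (Fin 2) (v.valuation F).integer) with hB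
  have hM : ∀ i j, ((incGL v b : GL (Fin 2) F) : Matrix (Fin 2) (Fin 2) F) i j =
      ((B i j : (v.valuation F).integer) : F) := fun i j => rfl
  simp only [Matrix.det_fin_two, Matrix.trace_fin_two, hM]
  have hcast : ∀ x : (v.valuation F).integer, (v.valuation F (x : F) < 1) ↔ res3 hv x = 0 :=
    fun x => (res3_eq_zero hv x).symm
  have c1 := hcast (B 0 0 * B 1 1 - B 0 1 * B 1 0 - 1)
  have c2 := hcast (B 0 0 + B 1 1)
  have c5 := hcast (B 0 0 - B 1 1)
  push_cast at c1 c2 c5
  simp only [map_sub, map_mul, map_add, map_one, sub_eq_zero] at c1 c2 c5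
  simp only [c1, c2, hcast (B 0 1), hcast (B 1 0), c5]
  rw [e3, e4]
  change ((if _ then _ else _ : ℤ) : ℂ) / 12 = _
  simp only [show ∀ i j, ((red3 hv b : GL (Fin 2) (ZMod 3)) : Matrix (Fin 2) (Fin 2) (ZMod 3)) i j
    = res3 hv (B i j) from fun i j => rfl, sub_eq_iff_eq_add]
  split_ifs <;> norm_num

/-- `eCusp` through the reduction. -/
lemma eCusp_scal_incGL (c : Fˣ) (a : GL (Fin 2) (v.valuation F).integer) :
    eCusp (v.valuation F) (scal c * incGL v a)
      = e3 ((red3 hv a : GL (Fin 2) (ZMod 3)) : Matrix (Fin 2) (Fin 2) (ZMod 3)) := by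
  have h : ∃ d : Fˣ, scal d * (scal c * incGL v a) ∈ intGL (v.valuation F) :=
    ⟨c⁻¹, a, by rw [← mul_assoc, ← scal_mul, inv_mul_cancel]; simp [scal]; rfl⟩
  rw [eCusp, dif_pos h]
  -- the integral multiple picked by the definition has the same reduction up to sign
  obtain ⟨b, hb⟩ := h.choose_spec
  change incGL v b = _ at hb
  have hb3 : e3 ((red3 hv b : GL (Fin 2) (ZMod 3)) : Matrix (Fin 2) (Fin 2) (ZMod 3))
      = e3 ((red3 hv a : GL (Fin 2) (ZMod 3)) : Matrix (Fin 2) (Fin 2) (ZMod 3)) := by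
    rw [← mul_assoc, ← scal_mul] at hb
    rcases red3_scal hv hb with e | e <;> rw [e]
    rw [e3_neg]
  rw [← hb3, e3_red3 hv b, hb]

/-- The idempotent lives on the maximal subgroup. -/
lemma eCusp_eq_zero {m : GL (Fin 2) F} (h : m ∉ U0 (v.valuation F)) : eCusp (v.valuation F) m = 0 :=
  dif_neg h

/-- An element of `U0` is a scalar times an integral invertible matrix. -/
lemma exists_eq_scal_incGL {k : GL (Fin 2) F} (hk : k ∈ U0 (v.valuation F)) :
    ∃ (c : Fˣ) (a : GL (Fin 2) (v.valuation F).integer), k = scal c * incGL v a := by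
  obtain ⟨d, a, ha⟩ := hk
  refine ⟨d⁻¹, a, ?_⟩
  rw [show incGL v a = scal d * k from ha, ← mul_assoc, ← scal_mul, inv_mul_cancel]
  simp [scal]

end Fermat.LT
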