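import Fermat.Agent.LT.Statement
import Fermat.Prelude.Def_GaloisRep_ModThreeCyclotomic
import Fermat.Prelude.Def_FLTPrelim_Modularity
import Fermat.Prelude.Def_EllipticCurve_FrobeniusTrace

/-!
# The data of a representation and the statement of the theta form

The theta form on `L` is proved in `LT/Theta`. The passage from `K` to weight
one over `ℚ` is carried out in `LT3`, in the form `RM.WeightOneDataStatement`, which keeps the
module at the ramified primes.
-/

set_option autoImplicit false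
open NumberField

local notation "Γℚ" => (AlgebraicClosure ℚ ≃ₐ[ℚ] AlgebraicClosure ℚ)

namespace Fermat.LT

/-- The hypotheses on the mod 3 representation: semistable away from `3`, supersingular at `3`. -/
structure RhoData (ρ : Γℚ →* GL (Fin 2) (ZMod 3)) : Prop where
  /-- The representation is continuous. -/
  continuous : Continuous ρ
  /-- The representation is surjective. -/
  surjective : Function.Surjective ρ
  /-- The determinant is the mod `3` cyclotomic character. -/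
  det : ∀ σ, Matrix.GeneralLinearGroup.det (ρ σ) = WeierstrassCurve.modThreeCyclotomicChar σ
  /-- Inertia at every `q ≠ 3` acts unipotently. -/
  unipotent : ∀ q : ℕ, q.Prime → q ≠ 3 → ∀ A : ValuationSubring (AlgebraicClosure ℚ),
    A.LiesOverPrime q → ∀ σ ∈ A.inertiaSubgroupIn ℚ,
      ((ρ σ : Matrix (Fin 2) (Fin 2) (ZMod 3)) - 1) ^ 2 = 0
  /-- At `3` inertia has an element of order eight in the image. -/
  supersingular : ∀ A : ValuationSubring (AlgebraicClosure ℚ), A.LiesOverPrime 3 →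
    ∃ σ ∈ A.inertiaSubgroupIn ℚ, orderOf (ρ σ) = 8

/-- Membership in `Q₈ = {g ∈ SL₂(𝔽₃) | g² scalar}`. -/
def InQ8 (g : GL (Fin 2) (ZMod 3)) : Prop :=
  (g : Matrix (Fin 2) (Fin 2) (ZMod 3)).det = 1 ∧
    ((g : Matrix (Fin 2) (Fin 2) (ZMod 3)).trace = 0 ∨
      ((g : Matrix (Fin 2) (Fin 2) (ZMod 3)) = 1 ∨ (g : Matrix (Fin 2) (Fin 2) (ZMod 3)) = -1))

/-- Trace of the characteristic `0` lift on `SL₂(𝔽₃)`. -/
def liftTr (g : GL (Fin 2) (ZMod 3)) : ℤ :=
  if (g : Matrix (Fin 2) (Fin 2) (ZMod 3)) = 1 then 2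
  else if (g : Matrix (Fin 2) (Fin 2) (ZMod 3)) = -1 then -2
  else if (g : Matrix (Fin 2) (Fin 2) (ZMod 3)).trace = 1 then 1
  else if (g : Matrix (Fin 2) (Fin 2) (ZMod 3)).trace = 2 then -1 else 0

variable (K L : Type*) [Field K] [NumberField K] [Field L] [NumberField L] [Algebra K L]

/-- `K = ℚ(√-3)` and `L` (the `S₃`-field) sit in `ℚ̄` as the fixed fields of `ρ⁻¹ SL₂`, `ρ⁻¹ Q₈`. -/
structure FieldData (ρ : Γℚ →* GL (Fin 2) (ZMod 3)) (ι : L →+* AlgebraicClosure ℚ) : Prop where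
  /-- `σ` fixes `L` exactly when `ρ σ` lies in `Q₈`. -/
  fixL : ∀ σ : Γℚ, (∀ x, σ (ι x) = ι x) ↔ InQ8 (ρ σ)
  /-- `σ` fixes `K` exactly when `ρ σ` has determinant one. -/
  fixK : ∀ σ : Γℚ, (∀ x, σ (ι (algebraMap K L x)) = ι (algebraMap K L x)) ↔
    Matrix.GeneralLinearGroup.det (ρ σ) = 1

/-- `lam w = √(N w) · trace` at the places of `L` not over `3`. -/
def IsRhoEigen (ρ : Γℚ →* GL (Fin 2) (ZMod 3)) (ι : L →+* AlgebraicClosure ℚ)
    (lam : Place L → ℝ) : Prop :=
  ∀ w : Place L, (3 : 𝓞 L) ∉ w.asIdeal → ∀ A : ValuationSubring (AlgebraicClosure ℚ),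
    (∀ x : 𝓞 L, x ∈ w.asIdeal ↔ ι (x : L) ∈ A.nonunits) →
    ∀ σ : Γℚ, (∀ x, σ (ι x) = ι x) → A.IsFrobeniusAt σ (pnorm w) →
      lam w = Real.sqrt (pnorm w) * (liftTr (ρ σ) : ℝ)

/-- The theta form: for `ρ` with `RhoData` and its fields there are a place and eigenvalues of `ρ`
on `L` satisfying the hypotheses `DescentData` of the descent. -/
def ThetaStatement : Prop :=
  ∀ (ρ : Γℚ →* GL (Fin 2) (ZMod 3)) (ι : L →+* AlgebraicClosure ℚ),
    RhoData ρ → FieldData K L ρ ι →
      ∃ (v3 : Place K) (lam : Place L → ℝ), IsRhoEigen L ρ ι lam ∧ DescentData K L v3 lam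

end Fermat.LT
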