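import Mathlib

/-!
# Integrals over a quotient by a torus

A countable group `T` acts on a discrete set `Ω` graded by a `T`-set `Γ`, and
on a measure space `Y`. An integral over a fundamental domain of `T` in `Ω × Y` is a sum over the
orbits in `Γ` of the sum over one fibre times one integral over a domain of the stabiliser.  Sums
over the fibres of a restricted product are products of local sums.
-/

set_option autoImplicit false
open MeasureTheory Filter Set
open scoped Pointwise Classical

namespace Fermat.LT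

section Orbits

variable {T Γ : Type*} [Group T] [MulAction T Γ]

/-- Representatives of the orbits in an invariant set. -/
def orbitReps (T : Type*) {Γ : Type*} [Group T] [MulAction T Γ] (S : Set Γ) : Set Γ :=
  {c | c ∈ S ∧ (Quotient.mk (MulAction.orbitRel T Γ) c).out = c}

/-- The representatives meet every orbit of an invariant set exactly once. -/
lemma orbitReps_spec {S : Set Γ} (hS : ∀ (t : T), ∀ c ∈ S, t • c ∈ S) :
    (∀ c ∈ S, ∃ t : T, t • c ∈ orbitReps T S) ∧
      ∀ c ∈ orbitReps T S, ∀ t : T, t • c ∈ orbitReps T S → t • c = c := by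
  have key : ∀ c ∈ orbitReps T S, c ∈ S ∧ (Quotient.mk (MulAction.orbitRel T Γ) c).out = c :=
    fun c h => h
  refine ⟨fun c hc => ?_, fun c hc t ht => ?_⟩
  · obtain ⟨t, ht⟩ : ∃ t : T, t • c = (Quotient.mk (MulAction.orbitRel T Γ) c).out :=
      MulAction.orbitRel_apply.1 (Quotient.mk_out (s := MulAction.orbitRel T Γ) c)
    refine ⟨t, hS t c hc, ?_⟩
    rw [show Quotient.mk (MulAction.orbitRel T Γ) (t • c) =
      Quotient.mk (MulAction.orbitRel T Γ) c from
      Quotient.sound (MulAction.orbitRel_apply.2 ⟨t, rfl⟩), ht]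
  · rw [← (key c hc).2]
    conv_lhs => rw [(key c hc).2]
    rw [← (key _ ht).2]
    congr 1
    exact Quotient.sound (MulAction.orbitRel_apply.2 ⟨t, rfl⟩)

/-- The representatives lie in the set. -/
lemma orbitReps_subset (S : Set Γ) : orbitReps T S ⊆ S :=
  fun _ h => h.1

end Orbits

section Domain

variable {T Ω Y Γ : Type*} [Group T] [Countable T] [MulAction T Ω] [MulAction T Y] [MulAction T Γ]
  [Countable Ω] [MeasurableSpace Ω] [DiscreteMeasurableSpace Ω] [MeasurableSpace Y] {μ : Measure Y}
  [SigmaFinite μ]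
  (deg : Ω → Γ) (hdeg : ∀ (t : T) ω, deg (t • ω) = t • deg ω)
  (hmp : ∀ t : T, MeasurePreserving (fun y : Y => t • y) μ μ)
  (Z : Subgroup T) (hZ : ∀ ω (t : T), t • deg ω = deg ω ↔ t ∈ Z)
  {DY : Set Y} (hDm : MeasurableSet DY) (hD : IsFundamentalDomain Z DY μ)

/-- Points whose degree is an orbit representative, times `DY`. -/
def torusDom (T : Type*) {Ω Y Γ : Type*} [Group T] [MulAction T Γ] (deg : Ω → Γ) (DY : Set Y) :
    Set (Ω × Y) :=
  (deg ⁻¹' orbitReps T (range deg)) ×ˢ DY

omit [Countable T] [Countable Ω] [MeasurableSpace Ω] [DiscreteMeasurableSpace Ω] in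
include hdeg in
/-- The degrees form an invariant set. -/
lemma range_invariant : ∀ (t : T), ∀ c ∈ range deg, t • c ∈ range deg := by
  rintro t _ ⟨ω, rfl⟩
  exact ⟨t • ω, hdeg t ω⟩

omit [Countable T] in
/-- Counting measure times an invariant measure is invariant. -/
lemma measurePreserving_count_prod_smul (t : T) (h : MeasurePreserving (fun y : Y => t • y) μ μ) :
    MeasurePreserving (fun p : Ω × Y => t • p) ((Measure.count : Measure Ω).prod μ)
      ((Measure.count : Measure Ω).prod μ) := by
  have h1 : MeasurePreserving (fun ω : Ω => t • ω) (Measure.count : Measure Ω) Measure.count := by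
    refine ⟨measurable_of_countable _, Measure.ext fun s hs => ?_⟩
    rw [Measure.map_apply (measurable_of_countable _) hs,
      Measure.count_apply (MeasurableSet.of_discrete), Measure.count_apply hs]
    congr 1
    exact Set.encard_preimage_of_bijective (MulAction.bijective (β := Ω) t) s
  exact h1.prod h

include hdeg hmp hZ hDm hD in
/-- **The domain is fundamental.** `torusDom` is a fundamental domain of the torus on `Ω × Y`. -/
theorem isFundamentalDomain_torusDom :
    IsFundamentalDomain T (torusDom T deg DY) ((Measure.count : Measure Ω).prod μ) := by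
  obtain ⟨hcov, huniq⟩ := orbitReps_spec (range_invariant deg hdeg)
  set ν := (Measure.count : Measure Ω).prod μ
  have hmpT : ∀ t : T, MeasurePreserving (fun p : Ω × Y => t • p) ν ν := fun t =>
    measurePreserving_count_prod_smul t (hmp t)
  refine IsFundamentalDomain.mk'' ((MeasurableSet.of_discrete.prod hDm).nullMeasurableSet) ?_
    (fun t ht => ?_) fun t => (hmpT t).quasiMeasurePreserving
  · -- covering
    set N := {y : Y | ¬ ∃ z : Z, z • y ∈ DY}
    have hN : μ N = 0 := hD.ae_covers
    have hnull : ν (⋃ t : T, (univ : Set Ω) ×ˢ ((fun y => t • y) ⁻¹' N)) = 0 := by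
      refine measure_iUnion_null fun t => ?_
      rw [Measure.prod_prod, (hmp t).quasiMeasurePreserving.preimage_null hN, mul_zero]
    refine measure_mono_null (fun p hp => ?_) hnull
    obtain ⟨t, ht⟩ := hcov (deg p.1) ⟨p.1, rfl⟩
    refine mem_iUnion.2 ⟨t, trivial, fun ⟨z, hz⟩ => hp ⟨(z : T) * t, ?_, ?_⟩⟩
    · change deg (((z : T) * t) • p.1) ∈ orbitReps T (range deg)
      rw [mul_smul, hdeg, show (z : T) • deg (t • p.1) = deg (t • p.1) from (hZ _ _).2 z.2, hdeg]
      exact ht
    · change ((z : T) * t) • p.2 ∈ DY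
      rw [mul_smul]; exact hz
  · -- disjointness
    by_cases htZ : t ∈ Z
    · have hne : (⟨t, htZ⟩ : Z) ≠ 1 := fun e => ht (congrArg Subtype.val e)
      refine measure_mono_null (t := (univ : Set Ω) ×ˢ ((t • DY) ∩ DY)) ?_ ?_
      · rintro p ⟨⟨q, hq, rfl⟩, hp⟩
        exact ⟨trivial, ⟨q.2, hq.2, rfl⟩, hp.2⟩
      · have h0 : μ ((t • DY) ∩ DY) = 0 := by
          have h : AEDisjoint μ ((⟨t, htZ⟩ : Z) • DY) ((1 : Z) • DY) := hD.aedisjoint hne
          rw [one_smul] at h
          exact h
        rw [Measure.prod_prod, h0, mul_zero]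
    · refine measure_mono_null (t := (∅ : Set (Ω × Y))) (fun p hp => htZ ?_) measure_empty
      obtain ⟨⟨q, hq, rfl⟩, hp2⟩ := hp
      have h1 : deg q.1 ∈ orbitReps T (range deg) := hq.1
      have h2 : t • deg q.1 ∈ orbitReps T (range deg) := by rw [← hdeg]; exact hp2.1
      exact (hZ q.1 t).1 (huniq _ h1 t h2)

variable {f : Ω → ℂ} {g : Y → ℂ}

omit [Group T] [Countable T] [MulAction T Ω] [MulAction T Y] in
/-- **The integral over the domain.** Over the points with degree in `C` a product integrates to the
double sum over degrees and fibres times the integral over `DY`. -/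
theorem integral_prod_fibres {C : Set Γ}
    (hI : IntegrableOn (fun p : Ω × Y => f p.1 * g p.2) ((deg ⁻¹' C) ×ˢ DY)
    ((Measure.count : Measure Ω).prod μ)) :
    ∫ p in (deg ⁻¹' C) ×ˢ DY, f p.1 * g p.2 ∂(Measure.count : Measure Ω).prod μ
      = (∑' c : C, ∑' ω : {ω // deg ω = c}, f ω) * ∫ y in DY, g y ∂μ := by
  rw [← Measure.prod_restrict, integral_prod_mul]
  by_cases hg0 : ∫ y in DY, g y ∂μ = 0
  · rw [hg0, mul_zero, mul_zero]
  congr 1
  -- the first factor is integrable
  have hgne : ¬ g =ᵐ[μ.restrict DY] 0 := fun h => hg0 (by rw [integral_congr_ae h]; simp)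
  have hf : Integrable f ((Measure.count : Measure Ω).restrict (deg ⁻¹' C)) := by
    rw [IntegrableOn, ← Measure.prod_restrict] at hI
    have h1 : ∀ᵐ y ∂μ.restrict DY,
        Integrable (fun x => f x * g y) ((Measure.count : Measure Ω).restrict (deg ⁻¹' C)) :=
      hI.prod_left_ae
    have h2 : ∃ᵐ y ∂μ.restrict DY, g y ≠ 0 := fun h => hgne (h.mono fun y hy => by simpa using hy)
    obtain ⟨y, hy0, hy⟩ := (h2.and_eventually h1).exists
    exact (integrable_mul_const_iff (IsUnit.mk0 _ hy0) f).1 hy
  have hf' : Integrable ((deg ⁻¹' C).indicator f) (Measure.count : Measure Ω) :=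
    (integrable_indicator_iff MeasurableSet.of_discrete).2 hf
  have hfs : Summable fun ω : (deg ⁻¹' C : Set Ω) => f ω :=
    summable_subtype_iff_indicator.2 ((integrable_count_iff.1 hf').of_norm)
  rw [show ∫ ω, f ω ∂(Measure.count : Measure Ω).restrict (deg ⁻¹' C) =
      ∑' ω : (deg ⁻¹' C : Set Ω), f ω by
    rw [← integral_indicator MeasurableSet.of_discrete, integral_countable hf',
      _root_.tsum_subtype (deg ⁻¹' C) f]
    exact tsum_congr fun ω => by simp [measureReal_def]]
  let e : (Σ c : C, {ω // deg ω = c}) ≃ (deg ⁻¹' C : Set Ω) :=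
    { toFun := fun p => ⟨p.2.1, by rw [Set.mem_preimage, p.2.2]; exact p.1.2⟩
      invFun := fun ω => ⟨⟨deg ω, ω.2⟩, ⟨ω, rfl⟩⟩
      left_inv := fun p => by
        obtain ⟨⟨c, hc⟩, ω, h⟩ := p
        simp only at h
        subst h
        rfl
      right_inv := fun ω => rfl }
  rw [← e.tsum_eq]
  exact (e.summable_iff.2 hfs).tsum_sigma

end Domain

section Restricted

variable {P : Type*} {X : P → Type*} (b : ∀ v, X v)

/-- Restricted product with base points. -/
abbrev RProd : Type _ := {ω : ∀ v, X v // ∀ᶠ v in cofinite, ω v = b v}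

/-- **Sums over a product fibre.** The sum of a product function over a fibre of a restricted
product is the product of the local fibre sums. -/
theorem tsum_restricted {Γ : P → Type*} (d : ∀ v, X v → Γ v) (c : ∀ v, Γ v) (f : ∀ v, X v → ℂ)
    (hfin : ∀ v, {x | d v x = c v ∧ f v x ≠ 0}.Finite)
    (hgood : ∀ᶠ v in cofinite, d v (b v) = c v ∧ ∀ x,
    d v x = c v → f v x = if x = b v then 1 else 0) :
    ∑' ω : {ω : RProd b // ∀ v, d v (ω.1 v) = c v}, ∏ᶠ v, f v (ω.1.1 v)
      = ∏ᶠ v, ∑' x : {x // d v x = c v}, f v x := by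
  set E := (eventually_cofinite.1 hgood).toFinset
  have hE : ∀ v, v ∉ E → d v (b v) = c v ∧ ∀ x, d v x = c v → f v x = if x = b v then 1 else 0 :=
    fun v hv => by simpa [E] using hv
  set s : ∀ v, Finset (X v) := fun v => (hfin v).toFinset
  have hloc : ∀ v, ∑' x : {x // d v x = c v}, f v x = ∑ x ∈ s v, f v x := fun v => by
    rw [tsum_eq_sum (s := (s v).subtype (fun x => d v x = c v)) fun x hx => by
      by_contra h
      exact hx (Finset.mem_subtype.2 ((hfin v).mem_toFinset.2 ⟨x.2, h⟩)),
      Finset.sum_subtype_eq_sum_filter, Finset.filter_true_of_mem fun x hx =>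
        ((hfin v).mem_toFinset.1 hx).1]
  have hout : ∀ v, v ∉ E → ∑' x : {x // d v x = c v}, f v x = 1 := fun v hv => by
    rw [tsum_eq_single ⟨b v, (hE v hv).1⟩ fun x hx => by
      rw [(hE v hv).2 _ x.2, if_neg fun h => hx (Subtype.ext h)],
        (hE v hv).2 _ (hE v hv).1, if_pos rfl]
  rw [finprod_eq_prod_of_mulSupport_subset _ (s := E) fun v hv => by
    by_contra h; exact hv (hout v h)]
  simp only [hloc]
  rw [Finset.prod_sum]
  -- the finitely many points with nonzero product
  let emb : (a : ∀ v ∈ E, X v) → RProd b := fun a => ⟨fun v => if h : v ∈ E then a v h else b v, by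
    filter_upwards [E.finite_toSet.compl_mem_cofinite] with v hv
    rw [dif_neg (by simpa using hv)]⟩
  have hmem : ∀ a ∈ E.pi s, ∀ v, d v ((emb a).1 v) = c v := fun a ha v => by
    by_cases h : v ∈ E
    · simp only [emb, dif_pos h]
      exact ((hfin v).mem_toFinset.1 (Finset.mem_pi.1 ha v h)).1
    · simp only [emb, dif_neg h]; exact (hE v h).1
  rw [tsum_eq_sum (s := ((E.pi s).image emb).subtype (fun ω : RProd b => ∀ v, d v (ω.1 v) = c v))
    fun ω hω => ?_]
  · rw [Finset.sum_subtype_eq_sum_filter (p := fun ω : RProd b => ∀ v, d v (ω.1 v) = c v)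
      (fun ω : RProd b => ∏ᶠ v, f v (ω.1 v)), Finset.filter_true_of_mem fun ω hω => by
      obtain ⟨a, ha, rfl⟩ := Finset.mem_image.1 hω; exact hmem a ha,
      Finset.sum_image fun a _ a' _ e => funext fun v => funext fun h => by
        have := congrArg (fun ω : RProd b => ω.1 v) e
        simpa [emb, h] using this]
    refine Finset.sum_congr rfl fun a ha => ?_
    rw [finprod_eq_prod_of_mulSupport_subset _ (s := E) fun v hv => by
      by_contra h
      rw [Finset.mem_coe] at h
      exact hv (by simp only [emb, dif_neg h]; rw [(hE v h).2 _ (hE v h).1, if_pos rfl]),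
      ← Finset.prod_attach E (fun v => f v ((emb a).1 v))]
    exact Finset.prod_congr rfl fun v _ => by simp only [emb, dif_pos v.2]
  · -- outside the products vanish
    by_contra hne
    refine hω (Finset.mem_subtype.2 (Finset.mem_image.2 ⟨fun v _ => ω.1.1 v, ?_, ?_⟩))
    · refine Finset.mem_pi.2 fun v hv => (hfin v).mem_toFinset.2 ⟨ω.2 v, fun h0 => hne ?_⟩
      refine finprod_eq_zero _ v h0 ?_
      refine ((eventually_cofinite.1 ω.1.2).union E.finite_toSet).subset fun u hu => ?_
      by_contra hno
      simp only [Set.mem_union, Set.mem_ofPred_eq, not_or, not_not, Finset.mem_coe] at hno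
      exact hu (((hE u hno.2).2 _ (ω.2 u)).trans (if_pos hno.1))
    · refine Subtype.ext (funext fun v => ?_)
      by_cases h : v ∈ E
      · simp [emb, h]
      · simp only [emb, dif_neg h]
        by_contra hb
        refine hne ?_
        refine finprod_eq_zero _ v (by rw [(hE v h).2 _ (ω.2 v), if_neg (fun e => hb e.symm)]) ?_
        refine ((eventually_cofinite.1 ω.1.2).union E.finite_toSet).subset fun u hu => ?_
        by_contra hno
        simp only [Set.mem_union, Set.mem_ofPred_eq, not_or, not_not, Finset.mem_coe] at hno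
        exact hu (((hE u hno.2).2 _ (ω.2 u)).trans (if_pos hno.1))

end Restricted

end Fermat.LT
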