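import Mathlib

/-!
# Unfolding a sum over a coset space

`integral_cosetDomain` is the unfolding, over the fundamental domain `cosetDomain` of the
subgroup.
-/

set_option autoImplicit false
open MeasureTheory Filter Set
open scoped Pointwise ENNReal

namespace Fermat.LT

variable {G X : Type*} [Group G] [Countable G] [MulAction G X] [MeasurableSpace X] {μ : Measure X}
  [MeasurableConstSMul G X] [SMulInvariantMeasure G X μ]

/-- There are countably many cosets. -/
instance instCountableQuotient (Z : Subgroup G) : Countable (G ⧸ Z) :=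
  Function.Surjective.countable QuotientGroup.mk_surjective

/-- Union of the translates of a domain by coset representatives. -/
def cosetDomain (Z : Subgroup G) (D : Set X) : Set X := ⋃ q : G ⧸ Z, (q.out)⁻¹ • D

variable {D : Set X} (hD : IsFundamentalDomain G D μ) (Z : Subgroup G)
include hD

omit [Countable G] [MeasurableConstSMul G X] [SMulInvariantMeasure G X μ] in
/-- Translates of the domain by different coset data are disjoint. -/
lemma aedisjoint_coset {q q' : G ⧸ Z} (z z' : Z)
    (h : z = z' → q = q' → False) :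
    AEDisjoint μ ((z : G) • (q.out)⁻¹ • D) ((z' : G) • (q'.out)⁻¹ • D) := by
  rw [smul_smul, smul_smul]
  refine hD.aedisjoint fun e => ?_
  have e' : q'.out = q.out * ((z : G)⁻¹ * (z' : G)) := by
    have := congrArg (fun g : G => g⁻¹ * (z' : G)) e
    simp [mul_assoc] at this
    exact this.symm
  have hq : q = q' := by
    rw [← QuotientGroup.out_eq' q, ← QuotientGroup.out_eq' q', QuotientGroup.eq, e']
    simpa using Z.mul_mem (Z.inv_mem z.2) z'.2
  subst hq
  refine h (Subtype.ext ?_) rfl
  exact mul_right_cancel e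

/-- The coset domain is a fundamental domain for the subgroup. -/
theorem isFundamentalDomain_cosetDomain : IsFundamentalDomain Z (cosetDomain Z D) μ := by
  have hnull : ∀ q : G ⧸ Z, NullMeasurableSet ((q.out)⁻¹ • D) μ :=
    fun q => hD.nullMeasurableSet.smul _
  refine IsFundamentalDomain.mk'' (NullMeasurableSet.iUnion hnull) ?_ (fun z hz => ?_)
    fun z => (measurePreserving_smul (z : G) μ).quasiMeasurePreserving
  · filter_upwards [hD.ae_covers] with x hx
    obtain ⟨g, hg⟩ := hx
    obtain ⟨z, hz⟩ := QuotientGroup.mk_out_eq_mul Z g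
    refine ⟨z⁻¹, mem_iUnion.2 ⟨(g : G ⧸ Z), ?_⟩⟩
    rw [mem_inv_smul_set_iff, hz]
    change (g * (z : G)) • ((z : G)⁻¹ • x) ∈ D
    rwa [smul_smul, mul_inv_cancel_right]
  · rw [cosetDomain, smul_set_iUnion]
    refine AEDisjoint.iUnion_left_iff.2 fun q => AEDisjoint.iUnion_right_iff.2 fun q' => ?_
    have h := aedisjoint_coset hD Z (q := q) (q' := q') z 1 fun h _ => hz h
    rwa [OneMemClass.coe_one, one_smul] at h

omit [Countable G] [MeasurableConstSMul G X] [SMulInvariantMeasure G X μ] in
/-- The coset translates are pairwise disjoint. -/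
lemma pairwise_aedisjoint_coset :
    Pairwise (Function.onFun (AEDisjoint μ) fun q : G ⧸ Z => (q.out)⁻¹ • D) := by
  intro q q' hne
  simpa using aedisjoint_coset hD Z (q := q) (q' := q') 1 1 fun _ h => hne h

/-- Unfolding, nonnegative version. -/
theorem lintegral_cosetDomain (f : X → ℝ≥0∞) (hf : AEMeasurable f μ) :
    ∫⁻ x in cosetDomain Z D, f x ∂μ = ∫⁻ x in D, ∑' q : G ⧸ Z, f ((q.out)⁻¹ • x) ∂μ := by
  rw [cosetDomain, lintegral_iUnion₀ (fun q => hD.nullMeasurableSet.smul _)
    (pairwise_aedisjoint_coset hD Z), lintegral_tsum fun q => ?_]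
  swap
  · exact (hf.comp_quasiMeasurePreserving
      (measurePreserving_smul (q.out)⁻¹ μ).quasiMeasurePreserving).restrict
  refine tsum_congr fun q => ?_
  rw [(measurePreserving_smul (q.out)⁻¹ μ).setLIntegral_comp_emb
    (MeasurableEquiv.smul (q.out)⁻¹).measurableEmbedding f D, image_smul]

/-- **Unfolding.** The integral over the coset domain of `Z` is the integral over `D` of the sum
over the cosets `G ⧸ Z`. -/
theorem integral_cosetDomain (f : X → ℂ) (hf : AEStronglyMeasurable f μ)
    (hint : ∫⁻ x in D, ∑' q : G ⧸ Z, ‖f ((q.out)⁻¹ • x)‖ₑ ∂μ < ∞) :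
    IntegrableOn f (cosetDomain Z D) μ ∧
      ∫ x in cosetDomain Z D, f x ∂μ = ∫ x in D, ∑' q : G ⧸ Z, f ((q.out)⁻¹ • x) ∂μ := by
  have hI : IntegrableOn f (cosetDomain Z D) μ := by
    refine ⟨hf.restrict, ?_⟩
    rw [hasFiniteIntegral_iff_enorm, lintegral_cosetDomain hD Z _ hf.enorm]
    exact hint
  refine ⟨hI, ?_⟩
  unfold cosetDomain at hI ⊢
  rw [integral_iUnion_ae (fun q => hD.nullMeasurableSet.smul _) (pairwise_aedisjoint_coset hD Z) hI,
    integral_tsum]
  · refine tsum_congr fun q => ?_
    rw [← (measurePreserving_smul (q.out)⁻¹ μ).setIntegral_image_emb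
      (MeasurableEquiv.smul (q.out)⁻¹).measurableEmbedding f D]
    rfl
  · exact fun q => (hf.comp_quasiMeasurePreserving
      (measurePreserving_smul _ μ).quasiMeasurePreserving).restrict
  · rw [← lintegral_tsum fun q => ?_]
    · exact hint.ne
    · exact ((hf.comp_quasiMeasurePreserving
        (measurePreserving_smul _ μ).quasiMeasurePreserving).restrict).enorm

end Fermat.LT
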